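/-
Stage (I), package K6(b) (helper5), part 1: precomposition of holomorphic / meromorphic functions on
the upper half plane with the Möbius action of an element of `GL₂(ℝ)` of positive determinant:
`MerH.compGL g hg : MerH →+* MerH`, `x ↦ x ∘ (g • ·)`.
-/
import Mathlib
import Fermat.Agent.JA.ES1_helper2_Dilate

set_option autoImplicit false

namespace Fermat.Agent.X0N

open UpperHalfPlane Complex Filter Topology ModularForm
open scoped MatrixGroups Manifold

/-- precomposition with `τ ↦ g • τ`, `det g > 0`, as a ring homomorphism of `HolH`. -/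
noncomputable def HolH.compGLHom (g : GL (Fin 2) ℝ) (hg : 0 < (g.det : ℝ)) : HolH →+* HolH where
  toFun f := ⟨fun τ => (f : ℍ → ℂ) (g • τ),
    f.2.comp (UpperHalfPlane.mdifferentiable_smul hg)⟩
  map_one' := rfl
  map_mul' _ _ := rfl
  map_zero' := rfl
  map_add' _ _ := rfl

@[simp] theorem HolH.compGLHom_apply (g : GL (Fin 2) ℝ) (hg : 0 < (g.det : ℝ)) (f : HolH)
    (τ : ℍ) : (HolH.compGLHom g hg f : ℍ → ℂ) τ = (f : ℍ → ℂ) (g • τ) := rfl

theorem HolH.compGLHom_injective (g : GL (Fin 2) ℝ) (hg : 0 < (g.det : ℝ)) :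
    Function.Injective (HolH.compGLHom g hg) := by
  intro f₁ f₂ h
  ext τ
  have h1 := congrFun (congrArg Subtype.val h) (g⁻¹ • τ)
  simp only [HolH.compGLHom_apply, smul_inv_smul] at h1
  exact h1

/-- precomposition with `τ ↦ g • τ`, `det g > 0`, as a ring homomorphism of `MerH`. -/
noncomputable def MerH.compGL (g : GL (Fin 2) ℝ) (hg : 0 < (g.det : ℝ)) : MerH →+* MerH :=
  IsFractionRing.map (HolH.compGLHom_injective g hg)

@[simp] theorem MerH.compGL_ofHol (g : GL (Fin 2) ℝ) (hg : 0 < (g.det : ℝ)) (f : HolH) :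
    MerH.compGL g hg (MerH.ofHol f) = MerH.ofHol (HolH.compGLHom g hg f) := by
  unfold MerH.compGL MerH.ofHol
  exact IsLocalization.map_eq _ f

theorem MerH.compGL_const (g : GL (Fin 2) ℝ) (hg : 0 < (g.det : ℝ)) (c : ℂ) :
    MerH.compGL g hg (MerH.const c) = MerH.const c := by
  have h1 : MerH.const c = MerH.ofHol (HolH.const c) := rfl
  rw [h1, MerH.compGL_ofHol]
  congr 1

theorem MerH.compGL_injective (g : GL (Fin 2) ℝ) (hg : 0 < (g.det : ℝ)) :
    Function.Injective (MerH.compGL g hg) :=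
  (MerH.compGL g hg).injective

/-- a ring homomorphism of `MerH` is determined by its values on `HolH`. -/
theorem MerH.ringHom_ext_ofHol {S : Type*} [Field S] {φ ψ : MerH →+* S}
    (h : ∀ f : HolH, φ (MerH.ofHol f) = ψ (MerH.ofHol f)) (x : MerH) : φ x = ψ x := by
  obtain ⟨a, b, hb, rfl⟩ := MerH.exists_div x
  rw [map_div₀, map_div₀, h a, h b]

/-- the operators `compGL` depend only on the action on `ℍ`. -/
theorem MerH.compGL_congr {g g' : GL (Fin 2) ℝ} (hg : 0 < (g.det : ℝ)) (hg' : 0 < (g'.det : ℝ))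
    (h : ∀ τ : ℍ, g • τ = g' • τ) (x : MerH) : MerH.compGL g hg x = MerH.compGL g' hg' x := by
  refine MerH.ringHom_ext_ofHol (fun f => ?_) x
  rw [MerH.compGL_ofHol, MerH.compGL_ofHol]
  congr 1
  ext τ
  simp only [HolH.compGLHom_apply, h τ]

/-- composition law. -/
theorem MerH.compGL_compGL (g h : GL (Fin 2) ℝ) (hg : 0 < (g.det : ℝ)) (hh : 0 < (h.det : ℝ))
    (hhg : 0 < ((h * g).det : ℝ)) (x : MerH) :
    MerH.compGL g hg (MerH.compGL h hh x) = MerH.compGL (h * g) hhg x := by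
  have key : ∀ y : MerH, ((MerH.compGL g hg).comp (MerH.compGL h hh)) y =
      MerH.compGL (h * g) hhg y := by
    intro y
    refine MerH.ringHom_ext_ofHol (fun f => ?_) y
    rw [RingHom.comp_apply, MerH.compGL_ofHol, MerH.compGL_ofHol, MerH.compGL_ofHol]
    congr 1
    ext τ
    simp only [HolH.compGLHom_apply, mul_smul]
  exact key x

/-- general form of the composition law: `x ∘ h ∘ g = x ∘ k` if `h • g • τ = k • τ`. -/
theorem MerH.compGL_compGL_of_smul {g h k : GL (Fin 2) ℝ} (hg : 0 < (g.det : ℝ))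
    (hh : 0 < (h.det : ℝ)) (hk : 0 < (k.det : ℝ)) (e : ∀ τ : ℍ, h • (g • τ) = k • τ)
    (x : MerH) : MerH.compGL g hg (MerH.compGL h hh x) = MerH.compGL k hk x := by
  have key : ∀ y : MerH, ((MerH.compGL g hg).comp (MerH.compGL h hh)) y =
      MerH.compGL k hk y := by
    intro y
    refine MerH.ringHom_ext_ofHol (fun f => ?_) y
    rw [RingHom.comp_apply, MerH.compGL_ofHol, MerH.compGL_ofHol, MerH.compGL_ofHol]
    congr 1
    ext τ
    simp only [HolH.compGLHom_apply, e τ]
  exact key x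

/-- the action of `SL(2, ℤ)`. -/
theorem MerH.compGL_mapGL (γ : SL(2, ℤ))
    (hγ : 0 < (((γ : GL (Fin 2) ℝ)).det : ℝ)) (x : MerH) :
    MerH.compGL (γ : GL (Fin 2) ℝ) hγ x = MerH.comp γ x := by
  have key : ∀ y : MerH, MerH.compGL (γ : GL (Fin 2) ℝ) hγ y =
      ((MerH.comp γ : MerH ≃+* MerH) : MerH →+* MerH) y := by
    intro y
    refine MerH.ringHom_ext_ofHol (fun f => ?_) y
    rw [MerH.compGL_ofHol, RingHom.coe_coe, MerH.comp_algebraMap]
    congr 1
  exact key x

/-- the dilation `τ ↦ m τ`. -/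
theorem MerH.compGL_heckeDiagMatrix (m : ℕ) (x : MerH) :
    MerH.compGL (heckeDiagMatrix m) (det_heckeDiagMatrix_pos m) x = MerH.dilate m x := by
  refine MerH.ringHom_ext_ofHol (fun f => ?_) x
  rw [MerH.compGL_ofHol, MerH.dilate_ofHol]
  congr 1

end Fermat.Agent.X0N
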