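/-
Stage (I), package K6(b) (helper5), part 2: the Fricke involution `W_N : τ ↦ -1/(N τ)` on the
function field `k(j(q^d) : d ∣ N)` of `X₀(N)` (through the realisation `realN`), the relation
`W_{Nℓ} ∘ β = α ∘ W_N`, and the degrees `[F_{Nℓ} : β F_N] = [F_{Nℓ} : α F_N] = ψ(Nℓ)/ψ(N)`
for every prime `ℓ`.
-/
import Mathlib
import Fermat.Agent.GR.ANORM_helper5_CompGL
import Fermat.Agent.JA.ES1_helper2_W
import Fermat.Agent.X0N.S24_helper7_Generic

set_option autoImplicit false
set_option linter.style.haveILetI false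

namespace Fermat.Agent.X0N

open UpperHalfPlane Complex Filter Topology ModularCurve IntermediateField ModularForm
open Fermat.Agent.RatStr AlgebraicCurve
open scoped MatrixGroups Manifold

/-! ### the Fricke matrix -/

/-- the Fricke matrix `(0 -1; N 0)`. -/
noncomputable def frickeMatrix (N : ℕ) [NeZero N] : GL (Fin 2) ℝ :=
  Matrix.GeneralLinearGroup.mkOfDetNeZero !![0, -1; (N : ℝ), 0] (by
    rw [Matrix.det_fin_two_of]
    have : (N : ℝ) ≠ 0 := by exact_mod_cast NeZero.ne N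
    simpa using this)

@[simp] theorem val_frickeMatrix (N : ℕ) [NeZero N] :
    ((frickeMatrix N : GL (Fin 2) ℝ) : Matrix (Fin 2) (Fin 2) ℝ) = !![0, -1; (N : ℝ), 0] := rfl

theorem det_frickeMatrix (N : ℕ) [NeZero N] : ((frickeMatrix N).det : ℝ) = N := by
  rw [Matrix.GeneralLinearGroup.val_det_apply, val_frickeMatrix, Matrix.det_fin_two_of]
  ring

theorem det_frickeMatrix_pos (N : ℕ) [NeZero N] : 0 < ((frickeMatrix N).det : ℝ) := by
  rw [det_frickeMatrix]
  exact_mod_cast Nat.pos_of_ne_zero (NeZero.ne N)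

theorem coe_frickeMatrix_smul (N : ℕ) [NeZero N] (τ : ℍ) :
    ((frickeMatrix N • τ : ℍ) : ℂ) = -1 / ((N : ℂ) * (τ : ℂ)) := by
  rw [UpperHalfPlane.coe_smul_of_det_pos (det_frickeMatrix_pos N)]
  simp [UpperHalfPlane.num, UpperHalfPlane.denom, val_frickeMatrix]

/-- `(d 0; 0 1) W_N = S (N/d 0; 0 1)` on `ℍ`, for `d ∣ N`. -/
theorem heckeDiagMatrix_smul_frickeMatrix_smul {N d e : ℕ} [NeZero N] (hde : N = d * e) (τ : ℍ) :
    heckeDiagMatrix d • (frickeMatrix N • τ) = ModularGroup.S • (heckeDiagMatrix e • τ) := by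
  have hN : N ≠ 0 := NeZero.ne N
  have hd : d ≠ 0 := fun h => hN (by rw [hde, h, zero_mul])
  have he : e ≠ 0 := fun h => hN (by rw [hde, h, mul_zero])
  apply UpperHalfPlane.ext
  have h1 : ((ModularGroup.S • (heckeDiagMatrix e • τ) : ℍ) : ℂ) =
      (-((heckeDiagMatrix e • τ : ℍ) : ℂ))⁻¹ := by
    rw [UpperHalfPlane.modular_S_smul]
  rw [coe_heckeDiagMatrix_smul hd, coe_frickeMatrix_smul, h1, coe_heckeDiagMatrix_smul he, hde]
  have hdC : (d : ℂ) ≠ 0 := by exact_mod_cast hd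
  have heC : (e : ℂ) ≠ 0 := by exact_mod_cast he
  have hτ : (τ : ℂ) ≠ 0 := UpperHalfPlane.ne_zero τ
  push_cast
  field_simp

/-- `(ℓ 0; 0 1) W_{Nℓ} = W_N` on `ℍ`. -/
theorem heckeDiagMatrix_smul_frickeMatrix_mul_smul (N ℓ : ℕ) [NeZero N] [NeZero ℓ] [NeZero (N * ℓ)]
    (τ : ℍ) : heckeDiagMatrix ℓ • (frickeMatrix (N * ℓ) • τ) = frickeMatrix N • τ := by
  have hN : (N : ℂ) ≠ 0 := by exact_mod_cast NeZero.ne N
  have hℓ : (ℓ : ℂ) ≠ 0 := by exact_mod_cast NeZero.ne ℓ
  have hτ : (τ : ℂ) ≠ 0 := UpperHalfPlane.ne_zero τ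
  apply UpperHalfPlane.ext
  rw [coe_heckeDiagMatrix_smul (NeZero.ne ℓ), coe_frickeMatrix_smul, coe_frickeMatrix_smul]
  push_cast
  field_simp

/-- `W_N ∘ W_N = id` on `ℍ`. -/
theorem frickeMatrix_smul_frickeMatrix_smul (N : ℕ) [NeZero N] (τ : ℍ) :
    frickeMatrix N • (frickeMatrix N • τ) = τ := by
  have hN : (N : ℂ) ≠ 0 := by exact_mod_cast NeZero.ne N
  have hτ : (τ : ℂ) ≠ 0 := UpperHalfPlane.ne_zero τ
  apply UpperHalfPlane.ext
  rw [coe_frickeMatrix_smul, coe_frickeMatrix_smul]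
  field_simp

/-! ### the Fricke operator on `MerH` -/

/-- the Fricke operator `x ↦ x(-1/(N τ))` on `MerH`. -/
noncomputable def MerH.fricke (N : ℕ) [NeZero N] : MerH →+* MerH :=
  MerH.compGL (frickeMatrix N) (det_frickeMatrix_pos N)

theorem MerH.fricke_const (N : ℕ) [NeZero N] (c : ℂ) :
    MerH.fricke N (MerH.const c) = MerH.const c :=
  MerH.compGL_const _ _ c

theorem MerH.fricke_fricke (N : ℕ) [NeZero N] (x : MerH) :
    MerH.fricke N (MerH.fricke N x) = x := by
  have key : ∀ y : MerH, ((MerH.fricke N).comp (MerH.fricke N)) y = (RingHom.id MerH) y := by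
    intro y
    refine MerH.ringHom_ext_ofHol (fun f => ?_) y
    rw [RingHom.comp_apply, MerH.fricke, MerH.compGL_ofHol, MerH.compGL_ofHol, RingHom.id_apply]
    congr 1
    ext τ
    simp only [HolH.compGLHom_apply, frickeMatrix_smul_frickeMatrix_smul]
  exact key x

/-- `W_N` maps `j(d τ)` to `j((N/d) τ)`. -/
theorem HolH.compGLHom_frickeMatrix_jdHol {N d e : ℕ} [NeZero N] [NeZero d] [NeZero e]
    (hde : N = d * e) :
    HolH.compGLHom (frickeMatrix N) (det_frickeMatrix_pos N) (jdHol d) = jdHol e := by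
  ext τ
  simp only [HolH.compGLHom_apply, jdHol_apply, jFunN, dilate_apply]
  rw [heckeDiagMatrix_smul_frickeMatrix_smul hde, jFun_smul]

/-- `W_{Nℓ} (x(ℓ τ)) = (W_N x)`. -/
theorem MerH.fricke_dilate (N ℓ : ℕ) [NeZero N] [NeZero ℓ] [NeZero (N * ℓ)] (x : MerH) :
    MerH.fricke (N * ℓ) (MerH.dilate ℓ x) = MerH.fricke N x := by
  rw [← MerH.compGL_heckeDiagMatrix]
  exact MerH.compGL_compGL_of_smul _ _ _
    (heckeDiagMatrix_smul_frickeMatrix_mul_smul N ℓ) x

/-! ### the Fricke involution of the function field -/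

section Field

variable {k : Type*} [Field k] [Algebra ℚ k] (ι : k →+* ℂ) (N ℓ : ℕ) [NeZero N] [NeZero ℓ]

theorem fricke_realN_jdBar {d e : ℕ} [NeZero d] [NeZero e] (hde : N = d * e) :
    MerH.fricke N (realN ι N (jdBar (k := k) N (Dvd.intro e hde.symm))) =
      realN ι N (jdBar (k := k) N (Dvd.intro_left d hde.symm)) := by
  rw [realN_jdBar, realN_jdBar, MerH.fricke, MerH.compGL_ofHol,
    HolH.compGLHom_frickeMatrix_jdHol hde]

theorem fricke_realN_mem_range (z : ↥(laurentBaseChange k (modularFunctionFieldFull N))) :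
    MerH.fricke N (realN ι N z) ∈ (realN ι N).range := by
  induction z using modularFunctionField_induction with
  | hconst c =>
    rw [realN_algebraMap, MerH.fricke_const]
    exact ⟨algebraMap k _ c, realN_algebraMap ι N c⟩
  | hgen d hd =>
    obtain ⟨e, he⟩ := hd
    haveI : NeZero e := ⟨fun h0 => NeZero.ne N (by rw [he, h0, mul_zero])⟩
    exact ⟨_, (fricke_realN_jdBar ι N he).symm⟩
  | hadd a b h1 h2 =>
    rw [map_add, map_add]
    exact Subring.add_mem _ h1 h2
  | hmul a b h1 h2 =>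
    rw [map_mul, map_mul]
    exact Subring.mul_mem _ h1 h2
  | hinv a h1 =>
    obtain ⟨b, hb⟩ := h1
    refine ⟨b⁻¹, ?_⟩
    rw [map_inv₀, map_inv₀, map_inv₀, hb]

/-- **the Fricke involution** of `F = k(j(q^d) : d ∣ N)`, defined through `realN`. -/
noncomputable def frickeN :
    ↥(laurentBaseChange k (modularFunctionFieldFull N)) →+*
      ↥(laurentBaseChange k (modularFunctionFieldFull N)) :=
  ((realNEquiv ι N).symm : ↥(realN ι N).range →+* _).comp
    (((MerH.fricke N).comp (realN ι N)).codRestrict (realN ι N).range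
      (fun z => fricke_realN_mem_range ι N z))

theorem realN_frickeN (z : ↥(laurentBaseChange k (modularFunctionFieldFull N))) :
    realN ι N (frickeN ι N z) = MerH.fricke N (realN ι N z) := by
  rw [← coe_realNEquiv]
  unfold frickeN
  simp only [RingHom.comp_apply, RingHom.coe_coe, RingEquiv.apply_symm_apply]
  rfl

theorem frickeN_algebraMap (c : k) :
    frickeN ι N (algebraMap k _ c) = algebraMap k _ c := by
  apply realN_injective ι N
  rw [realN_frickeN, realN_algebraMap, MerH.fricke_const]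

theorem frickeN_frickeN (z : ↥(laurentBaseChange k (modularFunctionFieldFull N))) :
    frickeN ι N (frickeN ι N z) = z := by
  apply realN_injective ι N
  rw [realN_frickeN, realN_frickeN, MerH.fricke_fricke]

theorem frickeN_bijective : Function.Bijective (frickeN ι N) :=
  Function.Involutive.bijective (frickeN_frickeN ι N)

/-- the Fricke involution as a ring automorphism. -/
noncomputable def frickeNEquiv :
    ↥(laurentBaseChange k (modularFunctionFieldFull N)) ≃+*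
      ↥(laurentBaseChange k (modularFunctionFieldFull N)) :=
  RingEquiv.ofBijective (frickeN ι N) (frickeN_bijective ι N)

@[simp] theorem frickeNEquiv_apply (z : ↥(laurentBaseChange k (modularFunctionFieldFull N))) :
    frickeNEquiv ι N z = frickeN ι N z := rfl

/-- **`W_{Nℓ} ∘ β = α ∘ W_N`.** -/
theorem frickeN_heckeBetaBar [NeZero (N * ℓ)]
    (z : ↥(laurentBaseChange k (modularFunctionFieldFull N))) :
    frickeN ι (N * ℓ) (heckeBetaBar k N ℓ z) = heckeAlphaBar k N ℓ (frickeN ι N z) := by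
  apply realN_injective ι (N * ℓ)
  rw [realN_frickeN, realN_heckeBetaBar, MerH.fricke_dilate, realN_heckeAlphaBar, realN_frickeN]

/-- **`W_{Nℓ} ∘ α = β ∘ W_N`.** -/
theorem frickeN_heckeAlphaBar [NeZero (N * ℓ)]
    (z : ↥(laurentBaseChange k (modularFunctionFieldFull N))) :
    frickeN ι (N * ℓ) (heckeAlphaBar k N ℓ z) = heckeBetaBar k N ℓ (frickeN ι N z) := by
  have h := frickeN_heckeBetaBar ι N ℓ (frickeN ι N z)
  rw [frickeN_frickeN] at h
  rw [← h, frickeN_frickeN]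

include ι in
/-- **`[F_{Nℓ} : β F_N] = [F_{Nℓ} : α F_N]`.** -/
theorem finrankAlong_heckeBetaBar_eq_heckeAlphaBar [NeZero (N * ℓ)] :
    finrankAlong k (heckeBetaBar k N ℓ) = finrankAlong k (heckeAlphaBar k N ℓ) := by
  unfold finrankAlong
  refine @Algebra.finrank_eq_of_equiv_equiv _ _ _ _ (algebraAlong (heckeBetaBar k N ℓ)) _ _ _ _
    (algebraAlong (heckeAlphaBar k N ℓ)) (frickeNEquiv ι N) (frickeNEquiv ι (N * ℓ)) ?_
  refine RingHom.ext fun y => ?_
  exact (frickeN_heckeBetaBar ι N ℓ y).symm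

end Field

/-! ### degrees -/

section Degree

theorem dedekindPsi_mul_prime {N ℓ : ℕ} (hN : N ≠ 0) (hℓ : ℓ.Prime) :
    dedekindPsi (N * ℓ) = dedekindPsi N * (if ℓ ∣ N then ℓ else ℓ + 1) := by
  split_ifs with h
  · obtain ⟨a, m, hm, rfl⟩ := Nat.exists_eq_pow_mul_and_not_dvd hN ℓ hℓ.ne_one
    have ha : 0 < a := by
      rcases Nat.eq_zero_or_pos a with rfl | h0
      · rw [pow_zero, one_mul] at h
        exact absurd h hm
      · exact h0
    have hcop1 : Nat.Coprime ℓ m := (Nat.Prime.coprime_iff_not_dvd hℓ).mpr hm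
    obtain ⟨a', rfl⟩ : ∃ a', a = a' + 1 := ⟨a - 1, by omega⟩
    have hcop : Nat.Coprime (ℓ ^ (a' + 1)) m := Nat.Coprime.pow_left (a' + 1) hcop1
    have hcop' : Nat.Coprime (ℓ ^ (a' + 2)) m := Nat.Coprime.pow_left (a' + 2) hcop1
    have e : ℓ ^ (a' + 1) * m * ℓ = ℓ ^ (a' + 2) * m := by ring
    have h2 := dedekindPsi_prime_pow hℓ (n := a' + 2) (by omega)
    have h1 := dedekindPsi_prime_pow hℓ (n := a' + 1) (by omega)
    have e2 : a' + 2 - 1 = a' + 1 := by omega
    have e1 : a' + 1 - 1 = a' := by omega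
    rw [e2] at h2
    rw [e1] at h1
    rw [e, dedekindPsi_mul hcop', dedekindPsi_mul hcop, h2, h1]
    ring
  · have hcop : Nat.Coprime N ℓ := ((Nat.Prime.coprime_iff_not_dvd hℓ).mpr h).symm
    rw [dedekindPsi_mul hcop]
    have h1 := dedekindPsi_prime_pow hℓ (n := 1) one_pos
    rw [pow_one, Nat.sub_self, pow_zero] at h1
    rw [h1]

variable {k : Type*} [Field k] [Algebra ℚ k] [Algebra k ℂ] [IsScalarTower ℚ k ℂ]
  (N ℓ : ℕ) [NeZero N] [NeZero ℓ] [NeZero (N * ℓ)]

omit [Algebra k ℂ] [IsScalarTower ℚ k ℂ] in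
theorem heckeAlphaBar_jGen : heckeAlphaBar k N ℓ (jGen k N) = jGen k (N * ℓ) := Subtype.ext rfl

/-- **`[F_{Nℓ} : α F_N] = ℓ` or `ℓ + 1`**, for every prime `ℓ` and every field `k ⊆ ℂ`. -/
theorem finrankAlong_heckeAlphaBar (hℓ : ℓ.Prime) :
    finrankAlong k (heckeAlphaBar k N ℓ) = if ℓ ∣ N then ℓ else ℓ + 1 := by
  unfold finrankAlong
  letI := algebraAlong (heckeAlphaBar k N ℓ)
  obtain ⟨hfinN, hdegN⟩ := finrank_laurentBaseChange_full_eq k N
  obtain ⟨hfinNℓ, hdegNℓ⟩ := finrank_laurentBaseChange_full_eq k (N * ℓ)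
  letI algK : Algebra ↥(k⟮jGen k N⟯) ↥(laurentBaseChange k (modularFunctionFieldFull (N * ℓ))) :=
    ((heckeAlphaBar k N ℓ).toRingHom.comp (algebraMap ↥(k⟮jGen k N⟯)
      ↥(laurentBaseChange k (modularFunctionFieldFull N)))).toAlgebra
  haveI : IsScalarTower ↥(k⟮jGen k N⟯) ↥(laurentBaseChange k (modularFunctionFieldFull N))
      ↥(laurentBaseChange k (modularFunctionFieldFull (N * ℓ))) :=
    IsScalarTower.of_algebraMap_eq (fun _ => rfl)
  have htower := Module.finrank_mul_finrank ↥(k⟮jGen k N⟯)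
    ↥(laurentBaseChange k (modularFunctionFieldFull N))
    ↥(laurentBaseChange k (modularFunctionFieldFull (N * ℓ)))
  have hmap : (k⟮jGen k N⟯).map (heckeAlphaBar k N ℓ) = k⟮jGen k (N * ℓ)⟯ := by
    rw [IntermediateField.adjoin_map, Set.image_singleton, heckeAlphaBar_jGen]
  let e₁ : ↥(k⟮jGen k N⟯) ≃+* ↥(k⟮jGen k (N * ℓ)⟯) :=
    (((k⟮jGen k N⟯).equivMap (heckeAlphaBar k N ℓ)).trans
      (IntermediateField.equivOfEq hmap)).toRingEquiv
  have hcomp : Module.finrank ↥(k⟮jGen k N⟯)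
      ↥(laurentBaseChange k (modularFunctionFieldFull (N * ℓ))) =
      Module.finrank ↥(k⟮jGen k (N * ℓ)⟯)
        ↥(laurentBaseChange k (modularFunctionFieldFull (N * ℓ))) := by
    refine Algebra.finrank_eq_of_equiv_equiv e₁ (RingEquiv.refl _) ?_
    ext a
    rfl
  rw [hdegN, hcomp, hdegNℓ, dedekindPsi_mul_prime (NeZero.ne N) hℓ] at htower
  have hpos : 0 < dedekindPsi N := by
    rw [← hdegN]
    exact Module.finrank_pos
  exact Nat.eq_of_mul_eq_mul_left hpos htower

/-- **`[F_{Nℓ} : β F_N] = ℓ` or `ℓ + 1`**, for every prime `ℓ` and every field `k ⊆ ℂ`. -/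
theorem finrankAlong_heckeBetaBar (hℓ : ℓ.Prime) :
    finrankAlong k (heckeBetaBar k N ℓ) = if ℓ ∣ N then ℓ else ℓ + 1 := by
  rw [finrankAlong_heckeBetaBar_eq_heckeAlphaBar (algebraMap k ℂ) N ℓ,
    finrankAlong_heckeAlphaBar N ℓ hℓ]

end Degree

end Fermat.Agent.X0N
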