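/-
Stage (I), package K5 DESC — helper3.
Constant field extensions of function fields, abstract setting: `FL = L·FK` with `FK` and `L`
linearly disjoint over `K`.  Coordinates with respect to a `K`-basis of `L`: the `FK`-linear map
`psi : (ι →₀ FK) → FL`, injective, whose range is a subring with fraction field `FL`.
-/
import Mathlib

set_option autoImplicit false
set_option linter.style.haveILetI false
set_option linter.unusedSectionVars false

open Module

namespace Fermat.Agent.GR

section Setting

variable (K L FK FL : Type*) [Field K] [Field L] [Algebra K L] [Field FK] [Field FL]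
  [Algebra K FK] [Algebra L FL] [Algebra FK FL] [Algebra K FL] [IsScalarTower K FK FL]
  [IsScalarTower K L FL]

/-- `FL = L·FK` is a constant field extension of `FK / K`: `FK` and `L` are linearly disjoint
over `K` inside `FL` and generate it. -/
structure IsConstExt : Prop where
  linDisj : ∀ s : Set L, LinearIndependent K ((↑) : s → L) →
    LinearIndependent FK (fun l : s => algebraMap L FL (l : L))
  gen : Subfield.closure (Set.range (algebraMap FK FL) ∪ Set.range (algebraMap L FL)) = ⊤

/-- the index set of a fixed `K`-basis of `L`. -/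
abbrev CIdx : Type _ := ↑(Basis.ofVectorSpaceIndex K L)

/-- coordinates with respect to the fixed `K`-basis of `L`. -/
noncomputable def psi : (CIdx K L →₀ FK) →ₗ[FK] FL :=
  Finsupp.linearCombination FK (fun i : CIdx K L => algebraMap L FL (i : L))

variable {K L FK FL}

theorem psi_single (i : CIdx K L) (x : FK) :
    psi K L FK FL (Finsupp.single i x) = algebraMap FK FL x * algebraMap L FL (i : L) := by
  rw [psi, Finsupp.linearCombination_single, Algebra.smul_def]

theorem psi_apply (y : CIdx K L →₀ FK) :
    psi K L FK FL y = y.sum fun i x => algebraMap FK FL x * algebraMap L FL (i : L) := by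
  rw [psi, Finsupp.linearCombination_apply]
  simp only [Algebra.smul_def]

theorem IsConstExt.psi_injective (h : IsConstExt K L FK FL) :
    Function.Injective (psi K L FK FL) :=
  linearIndependent_iff_injective_finsuppLinearCombination.mp
    (h.linDisj _ (Basis.ofVectorSpaceIndex.linearIndependent K L))

/-- the coordinates of `x · l`, `x ∈ FK`, `l ∈ L`. -/
noncomputable def coordsMul (x : FK) (l : L) : CIdx K L →₀ FK :=
  ((Basis.ofVectorSpace K L).repr l).mapRange (fun c => algebraMap K FK c * x)
    (by rw [map_zero, zero_mul])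

theorem coordsMul_apply (x : FK) (l : L) (i : CIdx K L) :
    coordsMul x l i = algebraMap K FK ((Basis.ofVectorSpace K L).repr l i) * x := by
  rw [coordsMul, Finsupp.mapRange_apply]

theorem psi_coordsMul (x : FK) (l : L) :
    psi K L FK FL (coordsMul x l) = algebraMap FK FL x * algebraMap L FL l := by
  have hl : l = ((Basis.ofVectorSpace K L).repr l).sum fun i c => c • (i : L) := by
    conv_lhs => rw [← (Basis.ofVectorSpace K L).linearCombination_repr l]
    rw [Finsupp.linearCombination_apply]
    refine Finsupp.sum_congr fun i _ => ?_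
    rw [Basis.ofVectorSpace_apply_self]
  rw [psi_apply, coordsMul, Finsupp.sum_mapRange_index (by intro i; rw [map_zero, zero_mul])]
  conv_rhs => rw [hl]
  rw [Finsupp.sum, Finsupp.sum, map_sum, Finset.mul_sum]
  refine Finset.sum_congr rfl fun i _ => ?_
  rw [Algebra.smul_def, map_mul, map_mul, ← IsScalarTower.algebraMap_apply K L FL,
    IsScalarTower.algebraMap_apply K FK FL]
  ring

theorem algebraMap_mem_range_psi (l : L) : algebraMap L FL l ∈ LinearMap.range (psi K L FK FL) :=
  ⟨coordsMul 1 l, by rw [psi_coordsMul, map_one, one_mul]⟩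

theorem range_psi_eq_span :
    LinearMap.range (psi K L FK FL) = Submodule.span FK (Set.range (algebraMap L FL)) := by
  apply le_antisymm
  · rintro _ ⟨y, rfl⟩
    rw [psi, Finsupp.linearCombination_apply]
    exact Submodule.sum_mem _ fun i _ =>
      Submodule.smul_mem _ _ (Submodule.subset_span ⟨_, rfl⟩)
  · rw [Submodule.span_le]
    rintro _ ⟨l, rfl⟩
    exact algebraMap_mem_range_psi l

theorem mul_mem_range_psi {a b : FL} (ha : a ∈ LinearMap.range (psi K L FK FL))
    (hb : b ∈ LinearMap.range (psi K L FK FL)) : a * b ∈ LinearMap.range (psi K L FK FL) := by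
  rw [range_psi_eq_span] at ha hb ⊢
  have h := Submodule.mul_mem_mul ha hb
  rw [Submodule.span_mul_span] at h
  refine Submodule.span_mono ?_ h
  rintro _ ⟨_, ⟨l, rfl⟩, _, ⟨l', rfl⟩, rfl⟩
  exact ⟨l * l', map_mul _ _ _⟩

theorem algebraMap_FK_mem_range_psi (x : FK) :
    algebraMap FK FL x ∈ LinearMap.range (psi K L FK FL) :=
  ⟨coordsMul x 1, by rw [psi_coordsMul, map_one, mul_one]⟩

/-- every element of `FL` is a quotient of two elements of the range of `psi`. -/
theorem IsConstExt.exists_mul_eq (h : IsConstExt K L FK FL) (z : FL) :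
    ∃ a b : CIdx K L →₀ FK, b ≠ 0 ∧ z * psi K L FK FL b = psi K L FK FL a := by
  have hinj := h.psi_injective
  have key : ∀ z : FL, (∃ a b : FL, a ∈ LinearMap.range (psi K L FK FL) ∧
      b ∈ LinearMap.range (psi K L FK FL) ∧ b ≠ 0 ∧ z * b = a) := by
    intro z
    have hz : z ∈ Subfield.closure (Set.range (algebraMap FK FL) ∪ Set.range (algebraMap L FL)) := by
      rw [h.gen]; exact Subfield.mem_top z
    have h1 : (1 : FL) ∈ LinearMap.range (psi K L FK FL) := by
      have := algebraMap_FK_mem_range_psi (K := K) (L := L) (FL := FL) (1 : FK)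
      rwa [map_one] at this
    induction hz using Subfield.closure_induction with
    | mem x hx =>
      rcases hx with ⟨x, rfl⟩ | ⟨l, rfl⟩
      · exact ⟨_, 1, algebraMap_FK_mem_range_psi x, h1, one_ne_zero, mul_one _⟩
      · exact ⟨_, 1, algebraMap_mem_range_psi l, h1, one_ne_zero, mul_one _⟩
    | one => exact ⟨1, 1, h1, h1, one_ne_zero, mul_one _⟩
    | add x y _ _ hx hy =>
      obtain ⟨a, b, ha, hb, hb0, hab⟩ := hx
      obtain ⟨a', b', ha', hb', hb0', hab'⟩ := hy
      refine ⟨a * b' + a' * b, b * b', Submodule.add_mem _ (mul_mem_range_psi ha hb')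
        (mul_mem_range_psi ha' hb), mul_mem_range_psi hb hb', mul_ne_zero hb0 hb0', ?_⟩
      rw [← hab, ← hab']; ring
    | neg x _ hx =>
      obtain ⟨a, b, ha, hb, hb0, hab⟩ := hx
      exact ⟨-a, b, Submodule.neg_mem _ ha, hb, hb0, by rw [← hab]; ring⟩
    | inv x _ hx =>
      obtain ⟨a, b, ha, hb, hb0, hab⟩ := hx
      by_cases ha0 : a = 0
      · have hx0 : x = 0 := by
          rw [ha0] at hab
          exact (mul_eq_zero.mp hab).resolve_right hb0
        exact ⟨0, 1, Submodule.zero_mem _, h1, one_ne_zero, by rw [hx0, inv_zero, zero_mul]⟩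
      · refine ⟨b, a, hb, ha, ha0, ?_⟩
        have hx0 : x ≠ 0 := by
          rintro rfl
          rw [zero_mul] at hab
          exact ha0 hab.symm
        rw [← hab]
        field_simp
    | mul x y _ _ hx hy =>
      obtain ⟨a, b, ha, hb, hb0, hab⟩ := hx
      obtain ⟨a', b', ha', hb', hb0', hab'⟩ := hy
      refine ⟨a * a', b * b', mul_mem_range_psi ha ha', mul_mem_range_psi hb hb',
        mul_ne_zero hb0 hb0', ?_⟩
      rw [← hab, ← hab']; ring
  obtain ⟨_, _, ⟨a, rfl⟩, ⟨b, rfl⟩, hb0, hab⟩ := key z
  refine ⟨a, b, ?_, hab⟩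
  rintro rfl
  exact hb0 (map_zero _)

end Setting

end Fermat.Agent.GR
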