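/-
Stage (I), package K5 DESC — helper3.
The concrete instance: `FK = K·F₀ ⊆ K((q))`, `FL = L·F₀ ⊆ L((q))` (`laurentBaseChange`), the
coefficientwise embedding `bcHom`, linear disjointness, and `FL ∩ K((q)) = FK`.
-/
import Mathlib
import Fermat.Agent.GR.DESC_helper3_Psi
import Fermat.Agent.JA.BC_helper9_Main

set_option autoImplicit false
set_option linter.style.haveILetI false
set_option linter.unusedSectionVars false

open Module HahnSeries ModularCurve

namespace Fermat.Agent.GR

open Fermat.Agent.X0N Fermat.Agent.JA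

section Laurent

variable {K L : Type*} [Field K] [Field L] [Algebra ℚ K] [Algebra ℚ L] [Algebra K L]
  [IsScalarTower ℚ K L] (F₀ : IntermediateField ℚ (LaurentSeries ℚ))

/-- the algebra structure `K·F₀ → L·F₀` (coefficientwise base change); NOT an instance: it is
supplied explicitly at the end (as an instance for generic `K`, `L` it would create a diamond
for `K = L`). -/
@[reducible] noncomputable def bcAlgebra :
    Algebra ↥(laurentBaseChange K F₀) ↥(laurentBaseChange L F₀) :=
  (bcHom (L := L) F₀).toAlgebra

/-- the algebra structure `K → L·F₀`; NOT an instance. -/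
@[reducible] noncomputable def bcAlgebraBase : Algebra K ↥(laurentBaseChange L F₀) :=
  ((algebraMap L ↥(laurentBaseChange L F₀)).comp (algebraMap K L)).toAlgebra

/-- compatibility of given algebra structures with the coefficientwise base change. -/
class BcCompat [Algebra ↥(laurentBaseChange K F₀) ↥(laurentBaseChange L F₀)]
    [Algebra K ↥(laurentBaseChange L F₀)] : Prop where
  map_eq : ∀ x : ↥(laurentBaseChange K F₀),
    algebraMap ↥(laurentBaseChange K F₀) ↥(laurentBaseChange L F₀) x = bcHom (L := L) F₀ x
  map_base : ∀ a : K, algebraMap K ↥(laurentBaseChange L F₀) a =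
    algebraMap L ↥(laurentBaseChange L F₀) (algebraMap K L a)

theorem bcCompat_std :
    @BcCompat K L _ _ _ _ _ _ F₀ (bcAlgebra F₀) (bcAlgebraBase F₀) :=
  @BcCompat.mk K L _ _ _ _ _ _ F₀ (bcAlgebra F₀) (bcAlgebraBase F₀) (fun _ => rfl) (fun _ => rfl)

variable [Algebra ↥(laurentBaseChange K F₀) ↥(laurentBaseChange L F₀)]
  [Algebra K ↥(laurentBaseChange L F₀)] [hbc : BcCompat (K := K) (L := L) F₀]

theorem bc_algebraMap_eq (x : ↥(laurentBaseChange K F₀)) :
    algebraMap ↥(laurentBaseChange K F₀) ↥(laurentBaseChange L F₀) x = bcHom (L := L) F₀ x :=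
  hbc.map_eq x

instance bc_isScalarTower_left :
    IsScalarTower K ↥(laurentBaseChange K F₀) ↥(laurentBaseChange L F₀) :=
  IsScalarTower.of_algebraMap_eq fun a => by
    rw [hbc.map_base, hbc.map_eq, bcHom_algebraMap]

instance bc_isScalarTower_right : IsScalarTower K L ↥(laurentBaseChange L F₀) :=
  IsScalarTower.of_algebraMap_eq fun a => hbc.map_base a

/-- **coefficientwise linear disjointness**: `K`-linearly independent elements of `L` are
linearly independent over `K((q))` inside `L((q))`. -/
theorem laurent_linDisj (s : Set L) (hs : LinearIndependent K ((↑) : s → L))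
    (t : Finset s) (g : s → LaurentSeries K)
    (h0 : ∑ l ∈ t, iota K L (g l) * algebraMap L (LaurentSeries L) (l : L) = 0) :
    ∀ l ∈ t, g l = 0 := by
  intro l hl
  ext n
  have h1 := congrArg (fun z => z.coeff n) h0
  simp only [HahnSeries.coeff_sum, HahnSeries.coeff_zero] at h1
  have h2 : ∀ l : s, (iota K L (g l) * algebraMap L (LaurentSeries L) (l : L)).coeff n =
      (g l).coeff n • (l : L) := by
    intro l
    rw [mul_comm, coeff_algebraMap_mul, coeffMap_coeff, Algebra.smul_def, mul_comm]
  simp only [h2] at h1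
  have h3 := linearIndependent_iff'.mp hs t (fun l => (g l).coeff n) h1 l hl
  rw [HahnSeries.coeff_zero]
  exact h3

theorem isConstExt_laurent :
    IsConstExt K L ↥(laurentBaseChange K F₀) ↥(laurentBaseChange L F₀) where
  linDisj s hs := by
    rw [linearIndependent_iff']
    intro t g h0 l hl
    have h1 : ∑ l ∈ t, iota K L ((g l : ↥(laurentBaseChange K F₀)) : LaurentSeries K) *
        algebraMap L (LaurentSeries L) (l : L) = 0 := by
      have h2 := congrArg (fun z : ↥(laurentBaseChange L F₀) => (z : LaurentSeries L)) h0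
      simp only [AddSubmonoidClass.coe_finsetSum, ZeroMemClass.coe_zero] at h2
      rw [← h2]
      refine Finset.sum_congr rfl fun l _ => ?_
      rw [Algebra.smul_def, bc_algebraMap_eq, MulMemClass.coe_mul, coe_bcHom]
      rfl
    have h3 := laurent_linDisj s hs t (fun l => ((g l : ↥(laurentBaseChange K F₀)) :
      LaurentSeries K)) h1 l hl
    exact Subtype.ext h3
  gen := by
    have h : (⇑(algebraMap ↥(laurentBaseChange K F₀) ↥(laurentBaseChange L F₀)) :
        ↥(laurentBaseChange K F₀) → ↥(laurentBaseChange L F₀)) = ⇑(bcHom (L := L) F₀) :=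
      funext hbc.map_eq
    rw [h]
    exact closure_range_bcHom F₀

/-- **`FL ∩ K((q)) = FK`**: an element of `L·F₀` with coefficients in `K` lies in `K·F₀`. -/
theorem mem_laurentBaseChange_of_iota_mem (y : LaurentSeries K)
    (hy : iota K L y ∈ laurentBaseChange L F₀) : y ∈ laurentBaseChange K F₀ := by
  classical
  have hc := isConstExt_laurent (K := K) (L := L) F₀
  obtain ⟨a, b, hb, hab⟩ := hc.exists_mul_eq (⟨iota K L y, hy⟩ : ↥(laurentBaseChange L F₀))
  -- pass to Laurent series
  have hab' := congrArg (fun z : ↥(laurentBaseChange L F₀) => (z : LaurentSeries L)) hab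
  simp only [MulMemClass.coe_mul] at hab'
  have hpsi' : ∀ c : CIdx K L →₀ ↥(laurentBaseChange K F₀), c.support ⊆ a.support ∪ b.support →
      ((psi K L ↥(laurentBaseChange K F₀) ↥(laurentBaseChange L F₀) c :
        ↥(laurentBaseChange L F₀)) : LaurentSeries L) =
      ∑ i ∈ (a.support ∪ b.support), iota K L ((c i : ↥(laurentBaseChange K F₀)) :
        LaurentSeries K) * algebraMap L (LaurentSeries L) (i : L) := by
    intro c hc'
    rw [psi_apply, Finsupp.sum, AddSubmonoidClass.coe_finsetSum]
    rw [← Finset.sum_subset hc' (fun i _ hi => by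
      rw [Finsupp.notMem_support_iff.mp hi, ZeroMemClass.coe_zero, map_zero, zero_mul])]
    refine Finset.sum_congr rfl fun i _ => ?_
    rw [MulMemClass.coe_mul, bc_algebraMap_eq, coe_bcHom]
    rfl
  rw [hpsi' a Finset.subset_union_left, hpsi' b Finset.subset_union_right, Finset.mul_sum] at hab'
  have h0 : ∑ i ∈ (a.support ∪ b.support),
      iota K L (y * ((b i : ↥(laurentBaseChange K F₀)) : LaurentSeries K) -
        ((a i : ↥(laurentBaseChange K F₀)) : LaurentSeries K)) *
        algebraMap L (LaurentSeries L) (i : L) = 0 := by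
    simp only [map_sub, map_mul, sub_mul, Finset.sum_sub_distrib]
    rw [sub_eq_zero, ← hab']
    refine Finset.sum_congr rfl fun i _ => ?_
    ring
  have hli := Basis.ofVectorSpaceIndex.linearIndependent K L
  have h1 := laurent_linDisj _ hli (a.support ∪ b.support)
    (fun i => y * ((b i : ↥(laurentBaseChange K F₀)) : LaurentSeries K) -
        ((a i : ↥(laurentBaseChange K F₀)) : LaurentSeries K)) h0
  obtain ⟨i, hi⟩ := Finsupp.ne_iff.mp hb
  rw [Finsupp.zero_apply] at hi
  have hi' : i ∈ a.support ∪ b.support :=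
    Finset.mem_union_right _ (Finsupp.mem_support_iff.mpr hi)
  have h2 := h1 i hi'
  have hbi : ((b i : ↥(laurentBaseChange K F₀)) : LaurentSeries K) ≠ 0 := by
    intro h
    exact hi (Subtype.ext h)
  have h3 : y = ((a i : ↥(laurentBaseChange K F₀)) : LaurentSeries K) *
      ((b i : ↥(laurentBaseChange K F₀)) : LaurentSeries K)⁻¹ := by
    rw [eq_mul_inv_iff_mul_eq₀ hbi]
    exact sub_eq_zero.mp h2
  rw [h3]
  exact (laurentBaseChange K F₀).mul_mem (a i).2 ((laurentBaseChange K F₀).inv_mem (b i).2)

end Laurent

section LaurentFree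

variable {K L : Type*} [Field K] [Field L] [Algebra ℚ K] [Algebra ℚ L] [Algebra K L]
  [IsScalarTower ℚ K L] (F₀ : IntermediateField ℚ (LaurentSeries ℚ))

/-- instance-free form of `mem_laurentBaseChange_of_iota_mem`. -/
theorem mem_laurentBaseChange_of_iota_mem' (y : LaurentSeries K)
    (hy : iota K L y ∈ laurentBaseChange L F₀) : y ∈ laurentBaseChange K F₀ :=
  @mem_laurentBaseChange_of_iota_mem K L _ _ _ _ _ _ F₀ (bcAlgebra F₀) (bcAlgebraBase F₀)
    (bcCompat_std F₀) y hy

end LaurentFree

end Fermat.Agent.GR
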