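/-
GR (stage I) — helper8 — package K2 CHAR, part 4: parabolic elements of `SL(2, ℤ)` are conjugate,
as MATRICES, to `± T ^ k`.
-/
import Mathlib
import Fermat.Agent.X0N.ES_helper5_Parabolic

set_option autoImplicit false
set_option linter.style.haveILetI false

open UpperHalfPlane hiding I
open Complex ModularGroup
open scoped MatrixGroups

namespace Fermat.Agent.GR

/-- an element of `SL(2, ℤ)` which preserves imaginary parts has lower left entry `0`. -/
theorem c_eq_zero_of_im_smul_eq (g : SL(2, ℤ)) (h : ∀ w : ℍ, (g • w).im = w.im) : g 1 0 = 0 := by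
  have key : ∀ w : ℍ, Complex.normSq (denom g w) = 1 := by
    intro w
    have h1 := ModularGroup.im_smul_eq_div_normSq g w
    rw [h w] at h1
    have hpos : 0 < Complex.normSq (denom g w) := by
      rw [Complex.normSq_pos]
      exact denom_ne_zero g w
    field_simp at h1
    have him := w.im_pos
    nlinarith
  have h1 := key UpperHalfPlane.I
  have h2 := key ⟨2 * Complex.I, by simp⟩
  rw [ModularGroup.denom_apply, Complex.normSq_apply] at h1 h2
  simp at h1 h2
  have h3 : ((g 1 0 : ℤ) : ℝ) ^ 2 = 0 := by nlinarith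
  have h4 : ((g 1 0 : ℤ) : ℝ) = 0 := by simpa using h3
  exact_mod_cast h4

/-- an element of `SL(2, ℤ)` with lower left entry `0` is `± T ^ k`. -/
theorem eq_T_zpow_or_eq_neg_of_c_eq_zero (g : SL(2, ℤ)) (hc : g 1 0 = 0) :
    ∃ k : ℤ, g = T ^ k ∨ g = -T ^ k := by
  have hdet : g 0 0 * g 1 1 - g 0 1 * g 1 0 = 1 := by
    have := g.det_coe
    rwa [Matrix.det_fin_two] at this
  rw [hc, mul_zero, sub_zero] at hdet
  rcases Int.eq_one_or_neg_one_of_mul_eq_one' hdet with ⟨h0, h1⟩ | ⟨h0, h1⟩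
  · refine ⟨g 0 1, Or.inl ?_⟩
    ext i j
    rw [ModularGroup.coe_T_zpow]
    fin_cases i <;> fin_cases j <;> simp [h0, h1, hc]
  · refine ⟨-g 0 1, Or.inr ?_⟩
    ext i j
    rw [Matrix.SpecialLinearGroup.coe_neg, ModularGroup.coe_T_zpow]
    fin_cases i <;> fin_cases j <;> simp [h0, h1, hc]

/-- **parabolic elements are conjugate to `± T ^ k`** (matrix level). -/
theorem exists_conj_eq_T_zpow (γ : SL(2, ℤ))
    (htr : (γ : Matrix (Fin 2) (Fin 2) ℤ).trace ^ 2 = 4) :
    ∃ (δ : SL(2, ℤ)) (k : ℤ), δ⁻¹ * γ * δ = T ^ k ∨ δ⁻¹ * γ * δ = -T ^ k := by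
  obtain ⟨δ, n, hδ⟩ := Fermat.Agent.X0N.ES.exists_conj_translation γ htr
  have hg : ∀ w : ℍ, (δ⁻¹ * γ * δ) • w = T ^ n • w := by
    intro w
    rw [mul_smul, mul_smul, hδ w, ← mul_smul, inv_mul_cancel, one_smul]
  have him : ∀ w : ℍ, ((δ⁻¹ * γ * δ) • w).im = w.im := by
    intro w
    rw [hg w, UpperHalfPlane.modular_T_zpow_smul, UpperHalfPlane.vadd_im]
  obtain ⟨k, hk⟩ := eq_T_zpow_or_eq_neg_of_c_eq_zero _ (c_eq_zero_of_im_smul_eq _ him)
  exact ⟨δ, k, hk⟩

end Fermat.Agent.GR
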