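/-
GR (stage I) — helper8 — package K1 ROOT, part 1 (Mathlib only): holomorphic `n`-th roots.
A holomorphic function on the upper half plane all of whose zeros have order divisible by `n` is
the `n`-th power of a holomorphic function.  Local step on balls: factor out the zeros
(`MeromorphicOn.extract_zeros_poles`), take the logarithm of the zero-free part (primitive of the
logarithmic derivative on a ball); global step: normalise at a base point and glue along balls
(two balls meet in a convex set).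
-/
import Mathlib

set_option autoImplicit false

open Complex Filter Topology Set Metric

namespace Fermat.Agent.GR

/-- a zero-free holomorphic function on a ball is the exponential of a holomorphic function. -/
theorem exists_exp_eq_on_ball {g : ℂ → ℂ} {c : ℂ} {r : ℝ}
    (hg : DifferentiableOn ℂ g (ball c r)) (hg0 : ∀ z ∈ ball c r, g z ≠ 0) :
    ∃ G : ℂ → ℂ, DifferentiableOn ℂ G (ball c r) ∧ ∀ z ∈ ball c r, exp (G z) = g z := by
  rcases (ball c r).eq_empty_or_nonempty with he | ⟨z₀, hz₀⟩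
  · exact ⟨fun _ => 0, by rw [he]; exact differentiableOn_empty, by simp [he]⟩
  have hopen : IsOpen (ball c r) := isOpen_ball
  have hlog : DifferentiableOn ℂ (logDeriv g) (ball c r) := by
    have h1 : DifferentiableOn ℂ (deriv g) (ball c r) := hg.deriv hopen
    exact h1.div hg hg0
  obtain ⟨G, hG⟩ := hlog.isExactOn_ball
  have hGd : DifferentiableOn ℂ G (ball c r) := fun z hz =>
    (hG z hz).differentiableAt.differentiableWithinAt
  have hexpd : DifferentiableOn ℂ (fun z => exp (G z)) (ball c r) := hGd.cexp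
  have hne : ∀ z ∈ ball c r, exp (G z) ≠ 0 := fun z _ => exp_ne_zero _
  have hEq : EqOn (logDeriv g) (logDeriv (fun z => exp (G z))) (ball c r) := by
    intro z hz
    have h2 : HasDerivAt (fun z => exp (G z)) (exp (G z) * logDeriv g z) z := (hG z hz).cexp
    rw [logDeriv_apply, logDeriv_apply, h2.deriv, mul_div_cancel_left₀ _ (exp_ne_zero _)]
    rw [logDeriv_apply]
  obtain ⟨a, ha0, ha⟩ := (logDeriv_eqOn_iff hg hexpd hopen (convex_ball c r).isPreconnected hne
    hg0).mp hEq
  refine ⟨fun z => G z + log a, hGd.add_const _, fun z hz => ?_⟩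
  rw [exp_add, exp_log ha0, ha hz]
  simp [mul_comm]

/-- **roots on a ball**: a holomorphic function on a neighbourhood of a closed ball, all of whose
zeros on the closed ball have finite order divisible by `n`, has a holomorphic `n`-th root on the
open ball. -/
theorem exists_root_on_ball {n : ℕ} (hn : n ≠ 0) {f : ℂ → ℂ} {c : ℂ} {r : ℝ}
    (hf : AnalyticOnNhd ℂ f (closedBall c r))
    (hfin : ∀ z ∈ closedBall c r, analyticOrderAt f z ≠ ⊤)
    (hdiv : ∀ z ∈ closedBall c r, n ∣ analyticOrderNatAt f z) :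
    ∃ v : ℂ → ℂ, DifferentiableOn ℂ v (ball c r) ∧ ∀ z ∈ ball c r, v z ^ n = f z := by
  classical
  set K := closedBall c r with hK
  have hmer : MeromorphicOn f K := hf.meromorphicOn
  have hord : ∀ z ∈ K, meromorphicOrderAt f z = ((analyticOrderNatAt f z : ℕ) : ℤ) := by
    intro z hz
    rw [(hf z hz).meromorphicOrderAt_eq, ← Nat.cast_analyticOrderNatAt (hfin z hz)]
    rfl
  have hne : ∀ u : K, meromorphicOrderAt f u ≠ ⊤ := by
    rintro ⟨u, hu⟩
    rw [hord u hu]
    exact WithTop.coe_ne_top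
  have hfinsupp : (MeromorphicOn.divisor f K).support.Finite :=
    (MeromorphicOn.divisor f K).finiteSupport (isCompact_closedBall c r)
  obtain ⟨g, hg, hg0, hfg⟩ := hmer.extract_zeros_poles hne hfinsupp
  set D := MeromorphicOn.divisor f K with hD
  -- the divisor in terms of analytic orders
  have hDval : ∀ u, D u = ((if u ∈ K then analyticOrderNatAt f u else 0 : ℕ) : ℤ) := by
    intro u
    by_cases hu : u ∈ K
    · rw [hD, MeromorphicOn.divisor_apply hmer hu, hord u hu, if_pos hu]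
      rfl
    · rw [if_neg hu, Nat.cast_zero]
      by_contra h
      exact hu ((MeromorphicOn.divisor f K).supportWithinDomain h)
  set k : ℂ → ℕ := fun u => (if u ∈ K then analyticOrderNatAt f u else 0) / n with hk
  have hDk : ∀ u, D u = ((n * k u : ℕ) : ℤ) := by
    intro u
    rw [hDval u, hk]
    congr 1
    by_cases hu : u ∈ K
    · simp only [if_pos hu]
      exact (Nat.mul_div_cancel' (hdiv u hu)).symm
    · simp [if_neg hu]
  set s : Finset ℂ := hfinsupp.toFinset with hs
  -- the factorized rational function is a polynomial function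
  have hφ : (∏ᶠ u, (fun z : ℂ => z - u) ^ D u) = fun z => (∏ u ∈ s, (z - u) ^ k u) ^ n := by
    rw [Function.FactorizedRational.finprod_eq_fun (by exact hfinsupp)]
    funext z
    rw [finprod_eq_prod_of_mulSupport_subset (s := s), ← Finset.prod_pow]
    · refine Finset.prod_congr rfl fun u _ => ?_
      rw [hDk u, zpow_natCast, mul_comm, pow_mul]
    · intro u hu
      rw [hs, Finite.coe_toFinset, Function.mem_support]
      intro h0
      apply hu
      show (z - u) ^ D u = 1
      rw [h0, zpow_zero]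
  -- the logarithm of `g`
  have hgB : DifferentiableOn ℂ g (ball c r) :=
    (hg.mono ball_subset_closedBall).differentiableOn
  obtain ⟨G, hGd, hG⟩ := exists_exp_eq_on_ball hgB
    (fun z hz => hg0 ⟨z, ball_subset_closedBall hz⟩)
  refine ⟨fun z => (∏ u ∈ s, (z - u) ^ k u) * exp (G z / n), ?_, ?_⟩
  · refine DifferentiableOn.mul ?_ (hGd.div_const _).cexp
    have hd : Differentiable ℂ (fun z : ℂ => ∏ u ∈ s, (z - u) ^ k u) :=
      Differentiable.fun_finsetProd (f := fun u (z : ℂ) => (z - u) ^ k u)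
        (fun u _ => (differentiable_id.sub_const u).pow _)
    exact hd.differentiableOn
  · intro z hz
    -- equality on a punctured neighbourhood, then by continuity
    have hcod : ∀ᶠ y in 𝓝[≠] z, f y = (∏ u ∈ s, (y - u) ^ k u) ^ n * g y := by
      have h1 := hfg
      rw [Filter.EventuallyEq, Filter.Eventually, mem_codiscreteWithin] at h1
      have h2 := h1 z (ball_subset_closedBall hz)
      rw [Filter.disjoint_principal_right] at h2
      have h3 : ∀ᶠ y in 𝓝[≠] z, y ∈ K :=
        nhdsWithin_le_nhds (mem_of_superset (isOpen_ball.mem_nhds hz) ball_subset_closedBall)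
      filter_upwards [h2, h3] with y hy hyK
      have : y ∈ {x | f x = ((∏ᶠ u, (fun z : ℂ => z - u) ^ D u) • g) x} := by
        by_contra hcon
        exact hy ⟨hyK, hcon⟩
      rw [Set.mem_ofPred_eq, hφ] at this
      simpa using this
    have hcont1 : ContinuousAt f z := (hf z (ball_subset_closedBall hz)).continuousAt
    have hcont2 : ContinuousAt (fun y => (∏ u ∈ s, (y - u) ^ k u) ^ n * g y) z := by
      refine ContinuousAt.mul ?_ (hg z (ball_subset_closedBall hz)).continuousAt
      exact (continuous_finsetProd _ (fun u _ => (continuous_id.sub continuous_const).pow _)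
        ).continuousAt.pow n
    have heq : f z = (∏ u ∈ s, (z - u) ^ k u) ^ n * g z :=
      tendsto_nhds_unique_of_eventuallyEq (hcont1.tendsto.mono_left nhdsWithin_le_nhds)
        (hcont2.tendsto.mono_left nhdsWithin_le_nhds) hcod
    rw [mul_pow, ← exp_nat_mul, mul_div_cancel₀ _ (Nat.cast_ne_zero.mpr hn), hG z hz, heq]

/-- **uniqueness of roots**: two holomorphic `n`-th roots of the same function on a preconnected
open set which agree (with non-zero value) at one point are equal. -/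
theorem eqOn_of_pow_eq_of_isPreconnected {n : ℕ} (hn : n ≠ 0) {V : Set ℂ} (hV : IsOpen V)
    (hVc : IsPreconnected V) {v₁ v₂ : ℂ → ℂ} (h₁ : DifferentiableOn ℂ v₁ V)
    (h₂ : DifferentiableOn ℂ v₂ V) (hpow : ∀ z ∈ V, v₁ z ^ n = v₂ z ^ n) {z₀ : ℂ} (hz₀ : z₀ ∈ V)
    (heq : v₁ z₀ = v₂ z₀) (hne : v₁ z₀ ≠ 0) : EqOn v₁ v₂ V := by
  refine (h₁.analyticOnNhd hV).eqOn_of_preconnected_of_eventuallyEq (h₂.analyticOnNhd hV) hVc hz₀ ?_
  -- the non-trivial `n`-th roots of unity stay away from `1`
  set A : Set ℂ := {ζ | ζ ^ n = 1 ∧ ζ ≠ 1} with hA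
  have hAfin : A.Finite := by
    refine (Polynomial.nthRootsFinset n (1 : ℂ)).finite_toSet.subset ?_
    intro ζ hζ
    exact (Polynomial.mem_nthRootsFinset (Nat.pos_of_ne_zero hn) 1).mpr hζ.1
  have hAc : Aᶜ ∈ 𝓝 (1 : ℂ) := hAfin.isClosed.isOpen_compl.mem_nhds (fun h => h.2 rfl)
  have hne₂ : v₂ z₀ ≠ 0 := heq ▸ hne
  have hc₁ : ContinuousAt v₁ z₀ := (h₁.differentiableAt (hV.mem_nhds hz₀)).continuousAt
  have hc₂ : ContinuousAt v₂ z₀ := (h₂.differentiableAt (hV.mem_nhds hz₀)).continuousAt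
  have hr : ContinuousAt (fun z => v₁ z / v₂ z) z₀ := hc₁.div hc₂ hne₂
  have hr1 : v₁ z₀ / v₂ z₀ = 1 := by
    rw [heq, div_self hne₂]
  have hev : ∀ᶠ z in 𝓝 z₀, v₁ z / v₂ z ∈ Aᶜ := by
    have : Tendsto (fun z => v₁ z / v₂ z) (𝓝 z₀) (𝓝 (v₁ z₀ / v₂ z₀)) := hr.tendsto
    rw [hr1] at this
    exact this hAc
  filter_upwards [hev, hV.mem_nhds hz₀, hc₂.eventually_ne hne₂] with z hzA hzV hz2
  have hpow1 : (v₁ z / v₂ z) ^ n = 1 := by
    rw [div_pow, hpow z hzV, div_self (pow_ne_zero n hz2)]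
  have h1 : v₁ z / v₂ z = 1 := by
    by_contra hcon
    exact hzA ⟨hpow1, hcon⟩
  rwa [div_eq_one_iff_eq hz2] at h1

/-- two points of the upper half plane lie in a ball whose closure is in the upper half plane. -/
theorem exists_ball_mem_mem {a b : ℂ} (ha : 0 < a.im) (hb : 0 < b.im) :
    ∃ (c : ℂ) (r : ℝ), a ∈ ball c r ∧ b ∈ ball c r ∧ closedBall c r ⊆ {z : ℂ | 0 < z.im} := by
  set δ : ℝ := min a.im b.im / 2 with hδ
  have hδ0 : 0 < δ := by positivity
  have haδ : 2 * δ ≤ a.im := by rw [hδ]; linarith [min_le_left a.im b.im]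
  have hbδ : 2 * δ ≤ b.im := by rw [hδ]; linarith [min_le_right a.im b.im]
  set R : ℝ := (normSq a + normSq b) / (2 * δ) + δ + 1 with hR
  have hRa : normSq a ≤ 2 * δ * R := by
    have h1 : normSq a ≤ normSq a + normSq b := le_add_of_nonneg_right (normSq_nonneg b)
    have h2 : 2 * δ * ((normSq a + normSq b) / (2 * δ)) = normSq a + normSq b := by
      field_simp
    have h3 : 0 ≤ 2 * δ * (δ + 1) := by positivity
    rw [hR]
    nlinarith
  have hRb : normSq b ≤ 2 * δ * R := by
    have h1 : normSq b ≤ normSq a + normSq b := le_add_of_nonneg_left (normSq_nonneg a)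
    have h2 : 2 * δ * ((normSq a + normSq b) / (2 * δ)) = normSq a + normSq b := by
      field_simp
    have h3 : 0 ≤ 2 * δ * (δ + 1) := by positivity
    rw [hR]
    nlinarith
  have hRδ : δ < R := by
    have : 0 ≤ (normSq a + normSq b) / (2 * δ) :=
      div_nonneg (add_nonneg (normSq_nonneg a) (normSq_nonneg b)) (by positivity)
    rw [hR]; linarith
  have hmem : ∀ w : ℂ, 2 * δ ≤ w.im → normSq w ≤ 2 * δ * R → w ∈ ball (R * I) (R - δ) := by
    intro w hw hwR
    rw [mem_ball, dist_eq]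
    refine lt_of_pow_lt_pow_left₀ 2 (sub_nonneg.mpr hRδ.le) ?_
    rw [Complex.sq_norm, normSq_apply]
    have hre : (w - R * I).re = w.re := by simp
    have him : (w - R * I).im = w.im - R := by simp
    rw [hre, him]
    have hw2 : normSq w = w.re * w.re + w.im * w.im := normSq_apply w
    nlinarith
  refine ⟨R * I, R - δ, hmem a haδ hRa, hmem b hbδ hRb, ?_⟩
  intro z hz
  rw [mem_closedBall, dist_eq] at hz
  have h1 : |z.im - R| ≤ ‖z - R * I‖ := by
    have := abs_im_le_norm (z - R * I)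
    simpa using this
  have h2 := (abs_le.mp (h1.trans hz)).1
  show 0 < z.im
  linarith

/-- **roots on the upper half plane** (in terms of functions on `ℂ`). -/
theorem exists_root_on_upperHalfPlaneSet {n : ℕ} (hn : n ≠ 0) {f : ℂ → ℂ}
    (hf : DifferentiableOn ℂ f {z : ℂ | 0 < z.im})
    (hfin : ∀ z : ℂ, 0 < z.im → analyticOrderAt f z ≠ ⊤)
    (hdiv : ∀ z : ℂ, 0 < z.im → n ∣ analyticOrderNatAt f z) :
    ∃ v : ℂ → ℂ, DifferentiableOn ℂ v {z : ℂ | 0 < z.im} ∧ ∀ z : ℂ, 0 < z.im → v z ^ n = f z := by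
  classical
  set U : Set ℂ := {z : ℂ | 0 < z.im} with hU
  have hUo : IsOpen U := isOpen_lt continuous_const continuous_im
  have hfa : AnalyticOnNhd ℂ f U := hf.analyticOnNhd hUo
  -- a base point where `f` does not vanish
  obtain ⟨z₀, hz₀U, hz₀⟩ : ∃ z₀ ∈ U, f z₀ ≠ 0 := by
    have hI : (I : ℂ) ∈ U := by simp [hU]
    have h1 := hfin I (by simp)
    rw [Ne, analyticOrderAt_eq_top] at h1
    have h2 : ∃ᶠ z in 𝓝 (I : ℂ), f z ≠ 0 := by
      rwa [Filter.not_eventually] at h1
    obtain ⟨z, hz, hzU⟩ := (h2.and_eventually (hUo.mem_nhds hI)).exists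
    exact ⟨z, hzU, hz⟩
  obtain ⟨c₀, hc₀⟩ := IsAlgClosed.exists_pow_nat_eq (f z₀) (Nat.pos_of_ne_zero hn)
  have hc₀0 : c₀ ≠ 0 := by
    rintro rfl
    rw [zero_pow hn] at hc₀
    exact hz₀ hc₀.symm
  -- normalised roots on balls
  have hball : ∀ (c : ℂ) (r : ℝ), z₀ ∈ ball c r → closedBall c r ⊆ U →
      ∃ v : ℂ → ℂ, DifferentiableOn ℂ v (ball c r) ∧ (∀ z ∈ ball c r, v z ^ n = f z) ∧
        v z₀ = c₀ := by
    intro c r hz₀B hK
    obtain ⟨v, hv, hvn⟩ := exists_root_on_ball hn (hfa.mono hK) (fun z hz => hfin z (hK hz))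
      (fun z hz => hdiv z (hK hz))
    have hvz₀ : v z₀ ≠ 0 := by
      intro h0
      have := hvn z₀ hz₀B
      rw [h0, zero_pow hn] at this
      exact hz₀ this.symm
    refine ⟨fun z => (c₀ / v z₀) * v z, hv.const_mul _, fun z hz => ?_, ?_⟩
    · show ((c₀ / v z₀) * v z) ^ n = f z
      rw [mul_pow, div_pow, hc₀, hvn z₀ hz₀B, div_self hz₀, one_mul, hvn z hz]
    · show (c₀ / v z₀) * v z₀ = c₀
      rw [div_mul_cancel₀ _ hvz₀]
  -- choices
  have hchoice : ∀ w : U, ∃ (c : ℂ) (r : ℝ), (w : ℂ) ∈ ball c r ∧ z₀ ∈ ball c r ∧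
      closedBall c r ⊆ U := fun w => exists_ball_mem_mem w.2 hz₀U
  choose cc rr hw hz₀B hK using hchoice
  choose vv hvd hvn hvz using fun w : U => hball (cc w) (rr w) (hz₀B w) (hK w)
  set u : ℂ → ℂ := fun z => if hz : z ∈ U then vv ⟨z, hz⟩ z else 0 with hu
  -- `u` agrees with `vv w` on the ball of `w`
  have hagree : ∀ (w : U) (z : ℂ), z ∈ ball (cc w) (rr w) → u z = vv w z := by
    intro w z hz
    have hzU : z ∈ U := hK w (ball_subset_closedBall hz)
    rw [hu]
    simp only [dif_pos hzU]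
    set w' : U := ⟨z, hzU⟩ with hw'
    set V : Set ℂ := ball (cc w') (rr w') ∩ ball (cc w) (rr w) with hV
    have hVo : IsOpen V := isOpen_ball.inter isOpen_ball
    have hVc : IsPreconnected V :=
      ((convex_ball _ _).inter (convex_ball _ _)).isPreconnected
    have hz₀V : z₀ ∈ V := ⟨hz₀B w', hz₀B w⟩
    have hzV : z ∈ V := ⟨hw w', hz⟩
    refine eqOn_of_pow_eq_of_isPreconnected hn hVo hVc ((hvd w').mono inter_subset_left)
      ((hvd w).mono inter_subset_right) (fun y hy => ?_) hz₀V ?_ ?_ hzV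
    · rw [hvn w' y hy.1, hvn w y hy.2]
    · rw [hvz w', hvz w]
    · rw [hvz w']; exact hc₀0
  refine ⟨u, ?_, ?_⟩
  · intro z hzU
    have h1 : DifferentiableAt ℂ (vv ⟨z, hzU⟩) z :=
      (hvd ⟨z, hzU⟩).differentiableAt (isOpen_ball.mem_nhds (hw ⟨z, hzU⟩))
    have h2 : u =ᶠ[𝓝 z] vv ⟨z, hzU⟩ := by
      filter_upwards [isOpen_ball.mem_nhds (hw ⟨z, hzU⟩)] with y hy
      exact hagree ⟨z, hzU⟩ y hy
    exact (h2.differentiableAt_iff.mpr h1).differentiableWithinAt
  · intro z hz
    have hzU : z ∈ U := hz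
    rw [hagree ⟨z, hzU⟩ z (hw ⟨z, hzU⟩)]
    exact hvn ⟨z, hzU⟩ z (hw ⟨z, hzU⟩)

end Fermat.Agent.GR
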