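/-
GR (stage I) — helper8 — package K1 ROOT, part 2: `n`-th roots in `HolH` and `MerH`.
-/
import Mathlib
import Fermat.Agent.GR.ROOT_helper8_Ball
import Fermat.Agent.X0N.Mer_helper6_Basic

set_option autoImplicit false
set_option linter.style.haveILetI false

open UpperHalfPlane Complex Filter Topology
open scoped MatrixGroups Manifold

namespace Fermat.Agent.GR

open Fermat.Agent.X0N

/-- **(K1 ROOT)**: a non-zero holomorphic function on `ℍ` all of whose orders are divisible by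
`n` is an `n`-th power in `HolH`. -/
theorem exists_root (n : ℕ) (hn : n ≠ 0) (h : HolH) (hh : h ≠ 0)
    (hdiv : ∀ τ : ℍ, (n : ℤ) ∣ MerH.ordAt τ (MerH.ofHol h)) : ∃ u : HolH, u ^ n = h := by
  have hf : DifferentiableOn ℂ ((h : ℍ → ℂ) ∘ ofComplex) {z : ℂ | 0 < z.im} :=
    UpperHalfPlane.mdifferentiable_iff.mp h.2
  have hfin : ∀ z : ℂ, 0 < z.im → analyticOrderAt ((h : ℍ → ℂ) ∘ ofComplex) z ≠ ⊤ :=
    fun z hz => HolH.order_ne_top hh ⟨z, hz⟩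
  have hd : ∀ z : ℂ, 0 < z.im → n ∣ analyticOrderNatAt ((h : ℍ → ℂ) ∘ ofComplex) z := by
    intro z hz
    have h1 := hdiv ⟨z, hz⟩
    rw [MerH.ordAt_ofHol hh] at h1
    exact Int.natCast_dvd_natCast.mp h1
  obtain ⟨v, hv, hvn⟩ := exists_root_on_upperHalfPlaneSet hn hf hfin hd
  have hu : MDiff (fun τ : ℍ => v (τ : ℂ)) := by
    rw [UpperHalfPlane.mdifferentiable_iff]
    refine hv.congr fun z hz => ?_
    show v ((ofComplex z : ℍ) : ℂ) = v z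
    rw [ofComplex_apply_of_im_pos hz]
  refine ⟨⟨fun τ : ℍ => v (τ : ℂ), hu⟩, ?_⟩
  apply Subtype.ext
  funext τ
  show v (τ : ℂ) ^ n = (h : ℍ → ℂ) τ
  rw [hvn (τ : ℂ) τ.im_pos]
  show (h : ℍ → ℂ) (ofComplex (τ : ℂ)) = (h : ℍ → ℂ) τ
  rw [ofComplex_apply]

/-- two `n`-th roots of the same element of `HolH` differ by a constant `n`-th root of unity. -/
theorem exists_const_mul_eq_of_pow_eq {n : ℕ} (hn : n ≠ 0) {u v : HolH} (h : u ^ n = v ^ n) :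
    ∃ ζ : ℂ, ζ ^ n = 1 ∧ u = HolH.const ζ * v := by
  haveI : NeZero n := ⟨hn⟩
  obtain ⟨ζ₀, hζc⟩ : ∃ ζ₀ : ℂ, IsPrimitiveRoot ζ₀ n := ⟨_, Complex.isPrimitiveRoot_exp n hn⟩
  have hζ₀ : IsPrimitiveRoot (HolH.const ζ₀) n := hζc.map_of_injective HolH.const_injective
  have hprod := hζ₀.pow_sub_pow_eq_prod_sub_mul u v (Nat.pos_of_ne_zero hn)
  rw [h, sub_self] at hprod
  obtain ⟨ξ, hξ, hξ0⟩ := Finset.prod_eq_zero_iff.mp hprod.symm
  rw [Polynomial.mem_nthRootsFinset (Nat.pos_of_ne_zero hn)] at hξ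
  obtain ⟨i, -, hi⟩ := hζ₀.eq_pow_of_pow_eq_one hξ
  refine ⟨ζ₀ ^ i, ?_, ?_⟩
  · rw [← pow_mul, mul_comm, pow_mul, hζc.pow_eq_one, one_pow]
  · rw [map_pow, hi]
    exact sub_eq_zero.mp hξ0

/-- **roots in `MerH`**: a non-zero meromorphic function on `ℍ` all of whose orders are divisible
by `n` is an `n`-th power in `MerH`. -/
theorem exists_root_merH (n : ℕ) (hn : n ≠ 0) (x : MerH) (hx : x ≠ 0)
    (hdiv : ∀ τ : ℍ, (n : ℤ) ∣ MerH.ordAt τ x) : ∃ y : MerH, y ^ n = x := by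
  obtain ⟨a, b, hb, rfl⟩ := MerH.exists_div x
  have ha : a ≠ 0 := by
    rintro rfl
    simp at hx
  obtain ⟨m, rfl⟩ : ∃ m, n = m + 1 := Nat.exists_eq_succ_of_ne_zero hn
  have hw0 : a * b ^ m ≠ 0 := mul_ne_zero ha (pow_ne_zero m hb)
  have hbM : MerH.ofHol b ≠ 0 := MerH.ofHol_ne_zero hb
  have hw : MerH.ofHol (a * b ^ m) = MerH.ofHol a / MerH.ofHol b * MerH.ofHol b ^ (m + 1) := by
    rw [map_mul, map_pow, pow_succ]
    field_simp
  obtain ⟨u, hu⟩ := exists_root (m + 1) hn (a * b ^ m) hw0 (fun τ => by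
    rw [hw, MerH.ordAt_mul hx (pow_ne_zero _ hbM), MerH.ordAt_pow]
    exact dvd_add (hdiv τ) (dvd_mul_right _ _))
  refine ⟨MerH.ofHol u / MerH.ofHol b, ?_⟩
  rw [div_pow, ← map_pow, hu, hw, mul_div_assoc, div_self (pow_ne_zero _ hbM), mul_one]

/-- two `n`-th roots of the same element of `MerH` differ by a constant `n`-th root of unity. -/
theorem exists_const_mul_eq_of_pow_eq_merH {n : ℕ} (hn : n ≠ 0) {x y : MerH}
    (h : x ^ n = y ^ n) : ∃ ζ : ℂ, ζ ^ n = 1 ∧ x = MerH.const ζ * y := by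
  haveI : NeZero n := ⟨hn⟩
  obtain ⟨ζ₀, hζc⟩ : ∃ ζ₀ : ℂ, IsPrimitiveRoot ζ₀ n := ⟨_, Complex.isPrimitiveRoot_exp n hn⟩
  have hζ₀ : IsPrimitiveRoot (MerH.const ζ₀) n := hζc.map_of_injective MerH.const_injective
  have hprod := hζ₀.pow_sub_pow_eq_prod_sub_mul x y (Nat.pos_of_ne_zero hn)
  rw [h, sub_self] at hprod
  obtain ⟨ξ, hξ, hξ0⟩ := Finset.prod_eq_zero_iff.mp hprod.symm
  rw [Polynomial.mem_nthRootsFinset (Nat.pos_of_ne_zero hn)] at hξ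
  obtain ⟨i, -, hi⟩ := hζ₀.eq_pow_of_pow_eq_one hξ
  refine ⟨ζ₀ ^ i, ?_, ?_⟩
  · rw [← pow_mul, mul_comm, pow_mul, hζc.pow_eq_one, one_pow]
  · rw [map_pow, hi]
    exact sub_eq_zero.mp hξ0

end Fermat.Agent.GR
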