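/-
GR (stage I) — helper8 — package K2 CHAR, part 1 (analysis): periodicity of `n`-th roots at `i∞`.
If `a ^ n = G` with `G` periodic and tending to a non-zero limit at `i∞`, then `a` is periodic
near `i∞` (the values of `G` stay in a disc on which a branch of the `n`-th root exists).
-/
import Mathlib
import Fermat.Agent.GR.ROOT_helper8_Main

set_option autoImplicit false
set_option linter.style.haveILetI false

open UpperHalfPlane hiding I
open Complex Filter Topology Set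
open scoped MatrixGroups Manifold

namespace Fermat.Agent.GR

/-- `|w - 1| < 1 ⇒ w` lies in the slit plane. -/
theorem mem_slitPlane_of_norm_sub_one_lt {w : ℂ} (hw : ‖w - 1‖ < 1) : w ∈ slitPlane := by
  have := mem_slitPlane_of_norm_lt_one hw
  rwa [add_sub_cancel] at this

/-- **periodicity of roots near `i∞`** (function level). -/
theorem periodic_root_of_tendsto {n : ℕ} (hn : n ≠ 0) {h : ℝ} {a G : ℍ → ℂ}
    (ha : MDiff a) (hG : MDiff G) (hpow : ∀ τ, a τ ^ n = G τ)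
    (hper : ∀ τ : ℍ, G (h +ᵥ τ) = G τ) {L : ℂ} (hL : L ≠ 0)
    (hlim : Tendsto G atImInfty (𝓝 L)) :
    ∃ Y : ℝ, ∀ τ : ℍ, Y < τ.im → a (h +ᵥ τ) = a τ := by
  have hL0 : 0 < ‖L‖ := norm_pos_iff.mpr hL
  have hev : ∀ᶠ τ in atImInfty, ‖G τ - L‖ < ‖L‖ / 4 := by
    have := (Metric.tendsto_nhds.mp hlim) (‖L‖ / 4) (by positivity)
    simpa [dist_eq_norm] using this
  obtain ⟨A, hA⟩ := (atImInfty_mem _).mp hev
  set Y : ℝ := max A 1 with hY
  refine ⟨Y, ?_⟩
  set V : Set ℂ := {z : ℂ | Y < z.im} with hV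
  have hVopen : IsOpen V := isOpen_lt continuous_const continuous_im
  have hVconn : IsPreconnected V := (convex_halfSpace_im_gt Y).isPreconnected
  have hVpos : ∀ z ∈ V, 0 < z.im := fun z hz =>
    lt_trans (lt_of_lt_of_le one_pos (le_max_right A 1)) hz
  have hVsub : V ⊆ {z : ℂ | 0 < z.im} := hVpos
  set f : ℂ → ℂ := G ∘ ofComplex with hf
  set v₁ : ℂ → ℂ := a ∘ ofComplex with hv₁
  have hfd : DifferentiableOn ℂ f V := (UpperHalfPlane.mdifferentiable_iff.mp hG).mono hVsub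
  have hv₁d : DifferentiableOn ℂ v₁ V := (UpperHalfPlane.mdifferentiable_iff.mp ha).mono hVsub
  have hfz : ∀ z (hz : z ∈ V), f z = G ⟨z, hVpos z hz⟩ := by
    intro z hz
    simp only [hf, Function.comp_apply, ofComplex_apply_of_im_pos (hVpos z hz)]
  have hvz : ∀ z (hz : z ∈ V), v₁ z = a ⟨z, hVpos z hz⟩ := by
    intro z hz
    simp only [hv₁, Function.comp_apply, ofComplex_apply_of_im_pos (hVpos z hz)]
  have hclose : ∀ z ∈ V, ‖f z - L‖ < ‖L‖ / 4 := by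
    intro z hz
    rw [hfz z hz]
    apply hA
    show A ≤ z.im
    exact le_of_lt (lt_of_le_of_lt (le_max_left A 1) hz)
  -- the base point
  set z₀ : ℂ := ((Y + 1 : ℝ) : ℂ) * I with hz₀
  have hz₀V : z₀ ∈ V := by
    show Y < z₀.im
    rw [hz₀]
    simp
  set g₀ : ℂ := f z₀ with hg₀
  have hg₀n : 3 * ‖L‖ / 4 < ‖g₀‖ := by
    have h1 := hclose z₀ hz₀V
    have h2 : ‖L‖ ≤ ‖g₀‖ + ‖g₀ - L‖ := by
      have := norm_sub_le g₀ (g₀ - L)
      simpa using this
    rw [← hg₀] at h1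
    linarith
  have hg₀0 : g₀ ≠ 0 := by
    intro h0
    rw [h0, norm_zero] at hg₀n
    linarith
  have hslit : ∀ z ∈ V, f z / g₀ ∈ slitPlane := by
    intro z hz
    apply mem_slitPlane_of_norm_sub_one_lt
    have h1 : f z / g₀ - 1 = (f z - g₀) / g₀ := by field_simp
    rw [h1, norm_div, div_lt_one (norm_pos_iff.mpr hg₀0)]
    have h2 : ‖f z - g₀‖ ≤ ‖f z - L‖ + ‖g₀ - L‖ := by
      have : f z - g₀ = (f z - L) - (g₀ - L) := by ring
      rw [this]
      exact norm_sub_le _ _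
    have h3 := hclose z hz
    have h4 := hclose z₀ hz₀V
    rw [← hg₀] at h4
    linarith
  have hn0 : (n : ℂ) ≠ 0 := Nat.cast_ne_zero.mpr hn
  set v₂ : ℂ → ℂ := fun z => v₁ z₀ * exp (log (f z / g₀) / n) with hv₂
  have hv₂d : DifferentiableOn ℂ v₂ V := by
    intro z hz
    have h1 : DifferentiableWithinAt ℂ (fun z => f z / g₀) V z := (hfd z hz).div_const g₀
    have h2 : DifferentiableWithinAt ℂ (fun z => log (f z / g₀)) V z := h1.clog (hslit z hz)
    exact ((h2.div_const (n : ℂ)).cexp).const_mul _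
  have hv₁pow : ∀ z ∈ V, v₁ z ^ n = f z := by
    intro z hz
    rw [hvz z hz, hfz z hz]
    exact hpow _
  have hv₂pow : ∀ z ∈ V, v₂ z ^ n = f z := by
    intro z hz
    have hne : f z / g₀ ≠ 0 := slitPlane_ne_zero (hslit z hz)
    show (v₁ z₀ * exp (log (f z / g₀) / n)) ^ n = f z
    rw [mul_pow, hv₁pow z₀ hz₀V, ← exp_nat_mul, mul_div_cancel₀ _ hn0, exp_log hne, ← hg₀,
      mul_div_cancel₀ _ hg₀0]
  have hv₁z₀ : v₁ z₀ ≠ 0 := by
    intro h0
    have := hv₁pow z₀ hz₀V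
    rw [h0, zero_pow hn, ← hg₀] at this
    exact hg₀0 this.symm
  have heq₀ : v₁ z₀ = v₂ z₀ := by
    show v₁ z₀ = v₁ z₀ * exp (log (f z₀ / g₀) / n)
    rw [← hg₀, div_self hg₀0, log_one, zero_div, exp_zero, mul_one]
  have hEq : EqOn v₁ v₂ V :=
    eqOn_of_pow_eq_of_isPreconnected hn hVopen hVconn hv₁d hv₂d
      (fun z hz => by rw [hv₁pow z hz, hv₂pow z hz]) hz₀V heq₀ hv₁z₀
  intro τ hτ
  have hτV : (τ : ℂ) ∈ V := hτ
  have hτ'V : ((h +ᵥ τ : ℍ) : ℂ) ∈ V := by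
    show Y < ((h +ᵥ τ : ℍ) : ℂ).im
    have h1 : ((h +ᵥ τ : ℍ) : ℂ).im = (h +ᵥ τ : ℍ).im := rfl
    rw [h1, UpperHalfPlane.vadd_im]
    exact hτ
  have e1 : a (h +ᵥ τ) = v₁ ((h +ᵥ τ : ℍ) : ℂ) := by
    simp only [hv₁, Function.comp_apply, ofComplex_apply]
  have e2 : a τ = v₁ (τ : ℂ) := by
    simp only [hv₁, Function.comp_apply, ofComplex_apply]
  have e3 : f ((h +ᵥ τ : ℍ) : ℂ) = f (τ : ℂ) := by
    simp only [hf, Function.comp_apply, ofComplex_apply]
    exact hper τ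
  rw [e1, e2, hEq hτ'V, hEq hτV]
  show v₁ z₀ * exp (log (f ((h +ᵥ τ : ℍ) : ℂ) / g₀) / n) = v₁ z₀ * exp (log (f (τ : ℂ) / g₀) / n)
  rw [e3]

end Fermat.Agent.GR
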