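/-
GR (stage I) — helper8 — package K2 CHAR, part 2: periodicity of `n`-th roots in `MerH`.
If `y ^ n = x` with `x` meromorphic at `i∞` in `q_h` of order divisible by `n`, then `y` is
invariant under `T ^ h`.
-/
import Mathlib
import Fermat.Agent.GR.CHAR_helper8_Per
import Fermat.Agent.X0N.Cusp_helper9_Val
import Fermat.Agent.X0N.Dict_helper5_Hol

set_option autoImplicit false
set_option linter.style.haveILetI false
set_option linter.unusedSectionVars false

open UpperHalfPlane hiding I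
open Complex Filter Topology Set Function Fermat.Agent.RatStr ModularGroup
open scoped MatrixGroups Manifold

namespace Fermat.Agent.GR

open Fermat.Agent.X0N Fermat.Agent.X0N.Cusp

/-- periodicity of `qz`. -/
theorem qz_vadd {h : ℝ} (hh : 0 < h) (k : ℤ) (τ : ℍ) : qz h k (h +ᵥ τ) = qz h k τ :=
  vadd_of_periodic_comp_ofComplex (isMeroInfty_qz hh k).per τ

/-- **periodicity of roots near `i∞`**, with a pole or zero of order divisible by `n`. -/
theorem periodic_root_of_isMeroInfty {n : ℕ} (hn : n ≠ 0) {h : ℝ} (hh : 0 < h) {a G : ℍ → ℂ}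
    (ha : MDiff a) (hG : IsMeroInfty h G) (hG0 : G ≠ 0) (hpow : ∀ τ, a τ ^ n = G τ) {d : ℤ}
    (hd : (laurent h G).order = n * d) :
    ∃ Y : ℝ, ∀ τ : ℍ, Y < τ.im → a (h +ᵥ τ) = a τ := by
  have hL0 : laurent h G ≠ 0 := fun h0 => hG0 ((laurent_eq_zero_iff hh hG).mp h0)
  have hc : (laurent h G).coeff (laurent h G).order ≠ 0 := fun h0 => hL0 (HahnSeries.coeff_order_eq_zero.mp h0)
  have hlim := tendsto_mul_qz_order hh hG
  have hper : ∀ τ : ℍ, (G * qz h (-(laurent h G).order)) (h +ᵥ τ) =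
      (G * qz h (-(laurent h G).order)) τ := by
    intro τ
    simp only [Pi.mul_apply]
    rw [vadd_of_periodic_comp_ofComplex hG.per τ, qz_vadd hh]
  have hpow' : ∀ τ, (a * qz h (-d)) τ ^ n = (G * qz h (-(laurent h G).order)) τ := by
    intro τ
    simp only [Pi.mul_apply]
    rw [mul_pow, hpow τ, hd, qz_apply, qz_apply, ← zpow_natCast, ← zpow_mul]
    congr 2
    ring
  obtain ⟨Y, hY⟩ := periodic_root_of_tendsto hn (ha.mul (isMeroInfty_qz hh (-d)).hol)
    (hG.hol.mul (isMeroInfty_qz hh _).hol) hpow' hper hc hlim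
  refine ⟨Y, fun τ hτ => ?_⟩
  have h1 := hY τ hτ
  simp only [Pi.mul_apply] at h1
  rw [qz_vadd hh] at h1
  have h2 : qz h (-d) τ ≠ 0 := by
    rw [qz_apply]
    exact zpow_ne_zero _ (qf_ne_zero h τ)
  exact mul_right_cancel₀ h2 h1

/-- **identity theorem**: a holomorphic function on `ℍ` which is `h`-periodic near `i∞` is
`T ^ h`-invariant. -/
theorem HolH.comp_T_pow_eq_of_eventually {a : HolH} {h : ℕ} {Y : ℝ}
    (hper : ∀ τ : ℍ, Y < τ.im → (a : ℍ → ℂ) ((h : ℝ) +ᵥ τ) = (a : ℍ → ℂ) τ) :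
    HolH.comp (T ^ h) a = a := by
  set U : Set ℂ := {z : ℂ | 0 < z.im} with hU
  have hUopen : IsOpen U := isOpen_lt continuous_const continuous_im
  have hUconn : IsPreconnected U := (convex_halfSpace_im_gt 0).isPreconnected
  set b : HolH := HolH.comp (T ^ h) a with hb
  have hbτ : ∀ τ : ℍ, (b : ℍ → ℂ) τ = (a : ℍ → ℂ) ((h : ℝ) +ᵥ τ) := by
    intro τ
    rw [hb, HolH.comp_apply]
    have := T_zpow_smul_eq_vadd (h : ℤ) τ
    rw [zpow_natCast] at this
    rw [this]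
    simp
  have h1 : AnalyticOnNhd ℂ ((b : ℍ → ℂ) ∘ ofComplex) U :=
    (UpperHalfPlane.mdifferentiable_iff.mp b.2).analyticOnNhd hUopen
  have h2 : AnalyticOnNhd ℂ ((a : ℍ → ℂ) ∘ ofComplex) U :=
    (UpperHalfPlane.mdifferentiable_iff.mp a.2).analyticOnNhd hUopen
  set Y' : ℝ := max Y 0 with hY'
  set z₀ : ℂ := ((Y' + 1 : ℝ) : ℂ) * I with hz₀
  have hz₀im : z₀.im = Y' + 1 := by rw [hz₀]; simp
  have hz₀U : z₀ ∈ U := by
    show 0 < z₀.im
    rw [hz₀im]
    have := le_max_right Y 0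
    linarith
  have hev : ((b : ℍ → ℂ) ∘ ofComplex) =ᶠ[𝓝 z₀] ((a : ℍ → ℂ) ∘ ofComplex) := by
    have hVopen : IsOpen {z : ℂ | Y' < z.im} := isOpen_lt continuous_const continuous_im
    have hz₀V : z₀ ∈ {z : ℂ | Y' < z.im} := by
      show Y' < z₀.im
      rw [hz₀im]; linarith
    filter_upwards [hVopen.mem_nhds hz₀V] with z hz
    have hzpos : 0 < z.im := lt_of_le_of_lt (le_max_right Y 0) hz
    simp only [Function.comp_apply, ofComplex_apply_of_im_pos hzpos]
    rw [hbτ]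
    apply hper
    exact lt_of_le_of_lt (le_max_left Y 0) hz
  have hEq := h1.eqOn_of_preconnected_of_eventuallyEq h2 hUconn hz₀U hev
  ext τ
  have := hEq (show (τ : ℂ) ∈ U from τ.im_pos)
  simpa only [Function.comp_apply, ofComplex_apply] using this

/-- **(K2, analytic core)**: an `n`-th root of a function meromorphic at `i∞` (in `q_h`) whose order
at `i∞` is divisible by `n` is `T ^ h`-invariant. -/
theorem comp_T_pow_eq_of_pow_eq {n : ℕ} (hn : n ≠ 0) {h : ℕ} [NeZero h] {x y : MerH}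
    (hx : IsMerInf h x) (hx0 : x ≠ 0) (hdiv : (n : ℤ) ∣ MerH.ordInf h x) (hy : y ^ n = x) :
    MerH.comp (T ^ h) y = y := by
  have hh : (0 : ℝ) < (h : ℝ) := natCast_pos h
  obtain ⟨A, B, hA, hB, hB0, rfl⟩ := hx
  have hA0 : A ≠ 0 := by
    rintro rfl
    apply hx0
    rw [map_zero, zero_div]
  obtain ⟨m, rfl⟩ : ∃ m, n = m + 1 := Nat.exists_eq_succ_of_ne_zero hn
  have hBM : MerH.ofHol B ≠ 0 := MerH.ofHol_ne_zero hB0
  set Gh : HolH := A * B ^ m with hGh
  have hGh0 : Gh ≠ 0 := mul_ne_zero hA0 (pow_ne_zero m hB0)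
  set W : MerH := y * MerH.ofHol B with hW
  have hWpow : W ^ (m + 1) = MerH.ofHol Gh := by
    rw [hW, mul_pow, hy, hGh, map_mul, map_pow, pow_succ, ← mul_assoc, div_mul_eq_mul_div,
      mul_div_assoc, mul_comm (MerH.ofHol A)]
    field_simp
  have hW0 : W ≠ 0 := by
    intro h0
    rw [h0, zero_pow (Nat.succ_ne_zero m)] at hWpow
    exact MerH.ofHol_ne_zero hGh0 hWpow.symm
  have hWord : ∀ τ : ℍ, 0 ≤ MerH.ordAt τ W := by
    intro τ
    have h1 : ((m + 1 : ℕ) : ℤ) * MerH.ordAt τ W = HolH.ord τ Gh := by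
      rw [← MerH.ordAt_pow, hWpow, MerH.ordAt_ofHol hGh0]
    by_contra hneg
    rw [not_le] at hneg
    have h2 : ((m + 1 : ℕ) : ℤ) * MerH.ordAt τ W < 0 :=
      mul_neg_of_pos_of_neg (by positivity) hneg
    rw [h1] at h2
    exact absurd h2 (not_lt.mpr (Int.natCast_nonneg _))
  obtain ⟨a, haW⟩ := Fermat.Agent.X0N.Dict.exists_ofHol_eq_of_ordAt_nonneg hWord
  have hapow : a ^ (m + 1) = Gh := by
    apply MerH.ofHol_injective
    rw [map_pow, haW, hWpow]
  -- the function level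
  have hGfun : ((Gh : HolH) : ℍ → ℂ) = (A : ℍ → ℂ) * (B : ℍ → ℂ) ^ m := rfl
  have hGM : IsMeroInfty (h : ℝ) ((Gh : HolH) : ℍ → ℂ) := by
    rw [hGfun]; exact hA.mul (hB.pow m)
  have hGfun0 : ((Gh : HolH) : ℍ → ℂ) ≠ 0 := by
    intro h0
    apply hGh0
    ext τ
    exact congrFun h0 τ
  have hpowfun : ∀ τ, (a : ℍ → ℂ) τ ^ (m + 1) = ((Gh : HolH) : ℍ → ℂ) τ := by
    intro τ
    rw [← hapow]
    rfl
  -- the order of `Gh` at `i∞`
  have hAM : IsMerInf h (MerH.ofHol A) := isMerInf_ofHol hA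
  have hBMi : IsMerInf h (MerH.ofHol B) := isMerInf_ofHol hB
  have hord : (laurent (h : ℝ) ((Gh : HolH) : ℍ → ℂ)).order =
      MerH.ordInf h (MerH.ofHol A / MerH.ofHol B) +
        ((m + 1 : ℕ) : ℤ) * MerH.ordInf h (MerH.ofHol B) := by
    rw [← MerH.ordInf_ofHol hGM, MerH.ordInf_div hAM hBMi (MerH.ofHol_ne_zero hA0) hBM]
    have e : MerH.ofHol Gh = MerH.ofHol A * MerH.ofHol B ^ m := by
      rw [hGh, map_mul, map_pow]
    have hpowB : ∀ j : ℕ, IsMerInf h (MerH.ofHol B ^ j) ∧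
        MerH.ordInf h (MerH.ofHol B ^ j) = (j : ℤ) * MerH.ordInf h (MerH.ofHol B) := by
      intro j
      induction j with
      | zero => exact ⟨by simpa using isMerInf_one (h := h), by simp [MerH.ordInf_one]⟩
      | succ j ih =>
        refine ⟨by rw [pow_succ]; exact ih.1.mul hBMi, ?_⟩
        rw [pow_succ, MerH.ordInf_mul ih.1 hBMi (pow_ne_zero j hBM) hBM, ih.2]
        push_cast
        ring
    rw [e, MerH.ordInf_mul hAM (hpowB m).1 (MerH.ofHol_ne_zero hA0) (pow_ne_zero m hBM),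
      (hpowB m).2]
    push_cast
    ring
  obtain ⟨d₀, hd₀⟩ := hdiv
  have hd : (laurent (h : ℝ) ((Gh : HolH) : ℍ → ℂ)).order =
      ((m + 1 : ℕ) : ℤ) * (d₀ + MerH.ordInf h (MerH.ofHol B)) := by
    rw [hord, hd₀]; ring
  obtain ⟨Y, hY⟩ := periodic_root_of_isMeroInfty (Nat.succ_ne_zero m) hh a.2 hGM hGfun0 hpowfun hd
  have haT : HolH.comp (T ^ h) a = a := HolH.comp_T_pow_eq_of_eventually hY
  have hBT : HolH.comp (T ^ h) B = B :=
    HolH.comp_T_pow_eq_of_eventually (Y := 0)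
      (fun τ _ => vadd_of_periodic_comp_ofComplex hB.per τ)
  have hyW : y = W / MerH.ofHol B := by
    rw [hW, mul_div_assoc, div_self hBM, mul_one]
  rw [hyW, ← haW, map_div₀, MerH.comp_algebraMap, MerH.comp_algebraMap, haT, hBT]

end Fermat.Agent.GR
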