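/-
GR (stage I) — helper8 — package K2 CHAR, part 5: the order function at an arbitrary cusp `δ∞` in the
local parameter `q_h` (`δ T^h δ⁻¹ ∈ Γ₀(N)`), as an `FF.OrdFn` on the function field, and the
invariance of Kummer roots under parabolic elements.
-/
import Mathlib
import Fermat.Agent.GR.CHAR_helper8_PerMer
import Fermat.Agent.GR.CHAR_helper8_Conj
import Fermat.Agent.X0N.Cusp_helper9_Val
import Fermat.Agent.X0N.Dict_helper5_Finite

set_option autoImplicit false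
set_option linter.style.haveILetI false
set_option linter.unusedSectionVars false

open UpperHalfPlane hiding I
open Complex Filter Function Fermat.Agent.RatStr ModularGroup ModularCurve CongruenceSubgroup
open scoped Manifold Topology MatrixGroups ModularForm

namespace Fermat.Agent.GR

open Fermat.Agent.X0N Fermat.Agent.X0N.Cusp

variable {Γ Γ' : Subgroup SL(2, ℤ)}

/-- slashing by `δ` turns modular forms for `Γ` into modular forms for any `Γ'` with
`δ Γ' δ⁻¹ ⊆ Γ`. -/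
theorem isMF_slash_of_conj_mem {k : ℤ} {g : ℍ → ℂ} (hg : IsMF Γ k g) (δ : SL(2, ℤ))
    (h : ∀ γ ∈ Γ', δ * γ * δ⁻¹ ∈ Γ) : IsMF Γ' k (g ∣[k] δ) := by
  refine ⟨hg.holo.slash k δ, fun γ hγ => ?_, fun γ => ?_⟩
  · have h1 : δ * γ * δ⁻¹ ∈ Γ := h γ hγ
    have h2 : δ * γ = (δ * γ * δ⁻¹) * δ := by group
    rw [← SlashAction.slash_mul, h2, SlashAction.slash_mul, hg.inv _ h1]
  · rw [← SlashAction.slash_mul]
    exact hg.bdd _

theorem isModFun_comp_of_conj_mem {x : MerH} (hx : IsModFun Γ x) (δ : SL(2, ℤ))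
    (h : ∀ γ ∈ Γ', δ * γ * δ⁻¹ ∈ Γ) : IsModFun Γ' (MerH.comp δ x) := by
  obtain ⟨k, g, g', hg, hg', h0, rfl⟩ := hx
  exact ⟨k, HolH.slashSL k δ g, HolH.slashSL k δ g', isMF_slash_of_conj_mem hg δ h,
    isMF_slash_of_conj_mem hg' δ h, HolH.slashSL_ne_zero δ h0, MerH.comp_div_eq_slash k δ g h0⟩

/-- a modular function for `Γ`, moved to the cusp `δ∞`, is meromorphic at `i∞` in `q_h` as soon
as `δ T^h δ⁻¹ ∈ Γ`. -/
theorem isMerInf_comp_of_isModFun {x : MerH} (hx : IsModFun Γ x) (δ : SL(2, ℤ)) {h : ℕ}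
    (hδ : δ * T ^ h * δ⁻¹ ∈ Γ) : IsMerInf h (MerH.comp δ x) := by
  have h1 : ∀ γ ∈ Subgroup.zpowers (T ^ h : SL(2, ℤ)), δ * γ * δ⁻¹ ∈ Γ := by
    rintro γ ⟨j, rfl⟩
    have : δ * (T ^ h) ^ j * δ⁻¹ = (δ * T ^ h * δ⁻¹) ^ j := by
      rw [conj_zpow]
    simp only at this ⊢
    rw [this]
    exact Γ.zpow_mem hδ j
  exact (isModFun_comp_of_conj_mem hx δ h1).isMerInf (Subgroup.mem_zpowers _)

section OrdFn

variable {k : Type*} [Field k] [Algebra ℚ k] (ι : k →+* ℂ) (N : ℕ) [NeZero N]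

theorem isMerInf_comp_realN (δ : SL(2, ℤ)) {h : ℕ} (hδ : δ * T ^ h * δ⁻¹ ∈ Gamma0 N)
    (x : ↥(laurentBaseChange k (modularFunctionFieldFull N))) :
    IsMerInf h (MerH.comp δ (realN ι N x)) :=
  isMerInf_comp_of_isModFun (isModFun_realN ι N x) δ hδ

theorem comp_realN_ne_zero (δ : SL(2, ℤ))
    {x : ↥(laurentBaseChange k (modularFunctionFieldFull N))} (hx : x ≠ 0) :
    MerH.comp δ (realN ι N x) ≠ 0 := by
  rw [Ne, map_eq_zero_iff _ (MerH.comp δ).injective]
  exact Dict.realN_ne_zero ι N hx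

/-- **the order at the cusp `δ∞` in the local parameter `q_h`**, `δ T^h δ⁻¹ ∈ Γ₀(N)`, as an order
function on the function field. -/
noncomputable def cuspOrdFnAt (δ : SL(2, ℤ)) (h : ℕ) [NeZero h]
    (hδ : δ * T ^ h * δ⁻¹ ∈ Gamma0 N) :
    FF.OrdFn k ↥(laurentBaseChange k (modularFunctionFieldFull N)) where
  ord x := MerH.ordInf h (MerH.comp δ (realN ι N x))
  ord_mul {x y} hx hy := by
    rw [map_mul, map_mul]
    exact MerH.ordInf_mul (isMerInf_comp_realN ι N δ hδ x) (isMerInf_comp_realN ι N δ hδ y)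
      (comp_realN_ne_zero ι N δ hx) (comp_realN_ne_zero ι N δ hy)
  ord_add {x y} _ _ hxy := by
    rw [map_add, map_add]
    apply MerH.min_ordInf_le_ordInf_add (isMerInf_comp_realN ι N δ hδ x)
      (isMerInf_comp_realN ι N δ hδ y)
    rw [← map_add, ← map_add]
    exact comp_realN_ne_zero ι N δ hxy
  ord_algebraMap a ha := by
    rw [realN_algebraMap, MerH.comp_const]
    exact MerH.ordInf_const (by rwa [Ne, map_eq_zero_iff _ ι.injective])
  nontrivial := ⟨jK k N, jK_ne_zero ι N, by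
    rw [realN_jK, comp_jM, ordInf_jM]
    have : (h : ℤ) ≠ 0 := by exact_mod_cast NeZero.ne h
    simpa using this⟩

theorem cuspOrdFnAt_ord (δ : SL(2, ℤ)) (h : ℕ) [NeZero h] (hδ : δ * T ^ h * δ⁻¹ ∈ Gamma0 N)
    (x : ↥(laurentBaseChange k (modularFunctionFieldFull N))) :
    (cuspOrdFnAt ι N δ h hδ).ord x = MerH.ordInf h (MerH.comp δ (realN ι N x)) := rfl

/-- **divisibility at the cusps**: if all place-orders of `f` are divisible by `n` then so is the
`q_h`-order at every cusp. -/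
theorem char_dvd_ordInf_comp_realN (δ : SL(2, ℤ)) (h : ℕ) [NeZero h]
    (hδ : δ * T ^ h * δ⁻¹ ∈ Gamma0 N) (n : ℤ)
    {f : ↥(laurentBaseChange k (modularFunctionFieldFull N))} (hf : f ≠ 0)
    (hdiv : ∀ v : AlgebraicCurve.Place k ↥(laurentBaseChange k (modularFunctionFieldFull N)),
      n ∣ v.ord f) :
    n ∣ MerH.ordInf h (MerH.comp δ (realN ι N f)) := by
  obtain ⟨m, -, hm⟩ := (cuspOrdFnAt ι N δ h hδ).exists_ord_eq_mul
  rw [← cuspOrdFnAt_ord ι N δ h hδ f, hm f hf]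
  exact Dvd.dvd.mul_left (hdiv _) m

/-- **divisibility at the points of `ℍ`.** -/
theorem char_dvd_ordAt_realN (τ : ℍ) (c : k) (hc : ι c = jFun τ) (n : ℤ)
    {f : ↥(laurentBaseChange k (modularFunctionFieldFull N))} (hf : f ≠ 0)
    (hdiv : ∀ v : AlgebraicCurve.Place k ↥(laurentBaseChange k (modularFunctionFieldFull N)),
      n ∣ v.ord f) :
    n ∣ MerH.ordAt τ (realN ι N f) := by
  obtain ⟨m, -, hm⟩ := (Dict.ordFnAt ι N τ c hc).exists_ord_eq_mul
  rw [← Dict.ordFnAt_ord ι N τ c hc f, hm f hf]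
  exact Dvd.dvd.mul_left (hdiv _) m

end OrdFn

end Fermat.Agent.GR
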