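/-
GR (stage I) — helper8 — package K2 CHAR, part 3 (algebra): the Kummer character of an element
`u ∈ MerH` whose `n`-th power is invariant under a subgroup `Γ ≤ SL(2, ℤ)`:
`u ∘ γ = exp(2πi ψ(γ)/n) · u` with `ψ = kummerChar Γ n u : Additive Γ →+ ZMod n`.
-/
import Mathlib
import Fermat.Agent.GR.ROOT_helper8_Main

set_option autoImplicit false
set_option linter.style.haveILetI false
set_option linter.unusedSectionVars false

open UpperHalfPlane hiding I
open Complex
open scoped MatrixGroups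

namespace Fermat.Agent.GR

open Fermat.Agent.X0N

/-- every `n`-th root of unity is a value of the standard additive character of `ZMod n`. -/
theorem exists_stdAddChar_eq {n : ℕ} [NeZero n] {ζ : ℂ} (hζ : ζ ^ n = 1) :
    ∃ a : ZMod n, ZMod.stdAddChar a = ζ := by
  have hprim := Complex.isPrimitiveRoot_exp n (NeZero.ne n)
  obtain ⟨i, -, hi⟩ := hprim.eq_pow_of_pow_eq_one hζ
  refine ⟨((i : ℤ) : ZMod n), ?_⟩
  rw [ZMod.stdAddChar_coe, ← hi, ← Complex.exp_nat_mul]
  congr 1
  push_cast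
  ring

theorem stdAddChar_pow_eq_one {n : ℕ} [NeZero n] (a : ZMod n) :
    (ZMod.stdAddChar a : ℂ) ^ n = 1 := by
  rw [← AddChar.map_nsmul_eq_pow]
  have : n • a = 0 := by
    rw [nsmul_eq_mul]
    simp
  rw [this, AddChar.map_zero_eq_one]

variable (Γ : Subgroup SL(2, ℤ)) (n : ℕ) [NeZero n]

/-- `u ≠ 0` and `u ^ n` is `Γ`-invariant. -/
def IsKummerElt (u : MerH) : Prop :=
  u ≠ 0 ∧ ∀ γ ∈ Γ, MerH.comp γ (u ^ n) = u ^ n

variable {Γ n}

theorem IsKummerElt.exists_char {u : MerH} (hu : IsKummerElt Γ n u) (γ : Γ) :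
    ∃ a : ZMod n, MerH.comp (γ : SL(2, ℤ)) u = MerH.const (ZMod.stdAddChar a) * u := by
  have h1 : (MerH.comp (γ : SL(2, ℤ)) u) ^ n = u ^ n := by
    rw [← map_pow]; exact hu.2 γ γ.2
  obtain ⟨ζ, hζ, hζu⟩ := exists_const_mul_eq_of_pow_eq_merH (NeZero.ne n) h1
  obtain ⟨a, rfl⟩ := exists_stdAddChar_eq hζ
  exact ⟨a, hζu⟩

theorem char_unique {u : MerH} (hu0 : u ≠ 0) {a b : ZMod n}
    (h : MerH.const (ZMod.stdAddChar a) * u = MerH.const (ZMod.stdAddChar b) * u) : a = b :=
  ZMod.injective_stdAddChar (MerH.const_injective (mul_right_cancel₀ hu0 h))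

theorem IsKummerElt.mul {u v : MerH} (hu : IsKummerElt Γ n u) (hv : IsKummerElt Γ n v) :
    IsKummerElt Γ n (u * v) :=
  ⟨mul_ne_zero hu.1 hv.1, fun γ hγ => by rw [mul_pow, map_mul, hu.2 γ hγ, hv.2 γ hγ]⟩

theorem IsKummerElt.inv {u : MerH} (hu : IsKummerElt Γ n u) : IsKummerElt Γ n u⁻¹ :=
  ⟨inv_ne_zero hu.1, fun γ hγ => by rw [inv_pow, map_inv₀, hu.2 γ hγ]⟩

theorem isKummerElt_of_invariant {u : MerH} (hu0 : u ≠ 0)
    (h : ∀ γ ∈ Γ, MerH.comp γ u = u) : IsKummerElt Γ n u :=
  ⟨hu0, fun γ hγ => by rw [map_pow, h γ hγ]⟩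

theorem isKummerElt_const {c : ℂ} (hc : c ≠ 0) : IsKummerElt Γ n (MerH.const c) :=
  isKummerElt_of_invariant (by rwa [Ne, map_eq_zero_iff _ MerH.const_injective])
    (fun γ _ => MerH.comp_const γ c)

theorem isKummerElt_of_char {u : MerH} (hu0 : u ≠ 0) (ψ : Γ → ZMod n)
    (h : ∀ γ : Γ, MerH.comp (γ : SL(2, ℤ)) u = MerH.const (ZMod.stdAddChar (ψ γ)) * u) :
    IsKummerElt Γ n u := by
  refine ⟨hu0, fun γ hγ => ?_⟩
  rw [map_pow, h ⟨γ, hγ⟩, mul_pow, ← map_pow, stdAddChar_pow_eq_one, map_one, one_mul]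

/-- the value of the character at `γ` (auxiliary). -/
noncomputable def IsKummerElt.charFun {u : MerH} (hu : IsKummerElt Γ n u) (γ : Γ) : ZMod n :=
  Classical.choose (hu.exists_char γ)

theorem IsKummerElt.charFun_spec {u : MerH} (hu : IsKummerElt Γ n u) (γ : Γ) :
    MerH.comp (γ : SL(2, ℤ)) u = MerH.const (ZMod.stdAddChar (hu.charFun γ)) * u :=
  Classical.choose_spec (hu.exists_char γ)

theorem IsKummerElt.charFun_mul {u : MerH} (hu : IsKummerElt Γ n u) (γ δ : Γ) :
    hu.charFun (γ * δ) = hu.charFun γ + hu.charFun δ := by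
  apply char_unique hu.1
  rw [← hu.charFun_spec (γ * δ), Subgroup.coe_mul, MerH.comp_mul, hu.charFun_spec γ, map_mul,
    MerH.comp_const, hu.charFun_spec δ, AddChar.map_add_eq_mul, map_mul]
  ring

variable (Γ n)

open Classical in
/-- **the Kummer character** of `u` (zero if `u` is not a Kummer element). -/
noncomputable def kummerChar (u : MerH) : Additive Γ →+ ZMod n :=
  if hu : IsKummerElt Γ n u then
    AddMonoidHom.mk' (fun γ => hu.charFun (Additive.toMul γ))
      (fun γ δ => hu.charFun_mul (Additive.toMul γ) (Additive.toMul δ))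
  else 0

variable {Γ n}

/-- **the defining property of the Kummer character.** -/
theorem kummerChar_spec {u : MerH} (hu : IsKummerElt Γ n u) (γ : Γ) :
    MerH.comp (γ : SL(2, ℤ)) u =
      MerH.const (ZMod.stdAddChar (kummerChar Γ n u (Additive.ofMul γ))) * u := by
  rw [kummerChar, dif_pos hu]
  exact hu.charFun_spec γ

/-- uniqueness: any `ψ` with the defining property is the Kummer character. -/
theorem kummerChar_eq_of_spec {u : MerH} (hu0 : u ≠ 0) (ψ : Additive Γ →+ ZMod n)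
    (h : ∀ γ : Γ, MerH.comp (γ : SL(2, ℤ)) u =
      MerH.const (ZMod.stdAddChar (ψ (Additive.ofMul γ))) * u) :
    kummerChar Γ n u = ψ := by
  have hu : IsKummerElt Γ n u := isKummerElt_of_char hu0 (fun γ => ψ (Additive.ofMul γ)) h
  refine AddMonoidHom.ext fun γ => ?_
  apply char_unique hu0
  have h1 := kummerChar_spec hu (Additive.toMul γ)
  have h2 := h (Additive.toMul γ)
  rw [ofMul_toMul] at h1 h2
  rw [← h1, h2]

theorem kummerChar_apply_eq_iff {u : MerH} (hu : IsKummerElt Γ n u) (γ : Γ) (a : ZMod n) :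
    kummerChar Γ n u (Additive.ofMul γ) = a ↔
      MerH.comp (γ : SL(2, ℤ)) u = MerH.const (ZMod.stdAddChar a) * u := by
  constructor
  · rintro rfl
    exact kummerChar_spec hu γ
  · intro h
    apply char_unique hu.1
    rw [← h, ← kummerChar_spec hu γ]

theorem kummerChar_apply_eq_zero_iff {u : MerH} (hu : IsKummerElt Γ n u) (γ : Γ) :
    kummerChar Γ n u (Additive.ofMul γ) = 0 ↔ MerH.comp (γ : SL(2, ℤ)) u = u := by
  rw [kummerChar_apply_eq_iff hu, AddChar.map_zero_eq_one, map_one, one_mul]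

theorem kummerChar_mul {u v : MerH} (hu : IsKummerElt Γ n u) (hv : IsKummerElt Γ n v) :
    kummerChar Γ n (u * v) = kummerChar Γ n u + kummerChar Γ n v := by
  apply kummerChar_eq_of_spec (mul_ne_zero hu.1 hv.1)
  intro γ
  rw [map_mul, kummerChar_spec hu γ, kummerChar_spec hv γ, AddMonoidHom.add_apply,
    AddChar.map_add_eq_mul, map_mul]
  ring

theorem kummerChar_of_invariant {u : MerH} (hu0 : u ≠ 0) (h : ∀ γ ∈ Γ, MerH.comp γ u = u) :
    kummerChar Γ n u = 0 := by
  apply kummerChar_eq_of_spec hu0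
  intro γ
  rw [h γ γ.2, AddMonoidHom.zero_apply, AddChar.map_zero_eq_one, map_one, one_mul]

theorem kummerChar_const {c : ℂ} (hc : c ≠ 0) : kummerChar Γ n (MerH.const c) = 0 :=
  kummerChar_of_invariant (by rwa [Ne, map_eq_zero_iff _ MerH.const_injective])
    (fun γ _ => MerH.comp_const γ c)

theorem kummerChar_inv {u : MerH} (hu : IsKummerElt Γ n u) :
    kummerChar Γ n u⁻¹ = -kummerChar Γ n u := by
  have h1 := kummerChar_mul hu hu.inv
  rw [mul_inv_cancel₀ hu.1, kummerChar_of_invariant one_ne_zero (fun γ _ => map_one _)] at h1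
  exact (neg_eq_of_add_eq_zero_right h1.symm).symm

/-- the Kummer character only depends on `u` up to `Γ`-invariant factors. -/
theorem kummerChar_mul_invariant {u v : MerH} (hu : IsKummerElt Γ n u) (hv0 : v ≠ 0)
    (hv : ∀ γ ∈ Γ, MerH.comp γ v = v) : kummerChar Γ n (u * v) = kummerChar Γ n u := by
  rw [kummerChar_mul hu (isKummerElt_of_invariant hv0 hv), kummerChar_of_invariant hv0 hv,
    add_zero]

/-- two `n`-th roots of the same element have the same Kummer character. -/
theorem kummerChar_eq_of_pow_eq {u v : MerH} (hu : IsKummerElt Γ n u) (h : v ^ n = u ^ n) :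
    kummerChar Γ n v = kummerChar Γ n u := by
  obtain ⟨ζ, hζ, rfl⟩ := exists_const_mul_eq_of_pow_eq_merH (NeZero.ne n) h
  have hζ0 : ζ ≠ 0 := by
    rintro rfl
    rw [zero_pow (NeZero.ne n)] at hζ
    exact zero_ne_one hζ
  rw [mul_comm]
  exact kummerChar_mul_invariant hu (by rwa [Ne, map_eq_zero_iff _ MerH.const_injective])
    (fun γ _ => MerH.comp_const γ ζ)

/-- **injectivity criterion**: the Kummer character vanishes iff `u` is `Γ`-invariant. -/
theorem kummerChar_eq_zero_iff {u : MerH} (hu : IsKummerElt Γ n u) :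
    kummerChar Γ n u = 0 ↔ ∀ γ ∈ Γ, MerH.comp γ u = u := by
  constructor
  · intro h γ hγ
    have := (kummerChar_apply_eq_zero_iff hu ⟨γ, hγ⟩).mp (by rw [h]; rfl)
    exact this
  · intro h
    exact kummerChar_of_invariant hu.1 h

end Fermat.Agent.GR
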