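/-
GR (stage I) — helper8 — package K2 CHAR, part 6: the Kummer map
`kappa N n : Pic⁰(F_ℂ)[n] →+ Hom(Γ₀(N), ℤ/n)`.
For a degree zero divisor `D` with `n D = div f`, the function `realNC f` on `ℍ` has an `n`-th
root `u ∈ MerH`, and `u ∘ γ = exp(2πi ψ(γ)/n) u` for `γ ∈ Γ₀(N)`; `ψ` only depends on the class of
`D`, is additive in `D`, and kills parabolic elements.
-/
import Mathlib
import Fermat.Agent.GR.CHAR_helper8_Cusp
import Fermat.Agent.GR.CHAR_helper8_Kummer
import Fermat.Agent.X0N.Mer_helper6_Degree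
import Fermat.Agent.X0N.S20_helper5_Coord
import Fermat.Agent.JA.CONST_helper6

set_option autoImplicit false
set_option linter.style.haveILetI false
set_option linter.unusedSectionVars false

open UpperHalfPlane hiding I
open Complex ModularGroup ModularCurve CongruenceSubgroup AlgebraicCurve
open scoped MatrixGroups

namespace Fermat.Agent.GR

open Fermat.Agent.X0N

/-- `MerH.comp` does not see the sign. -/
theorem merH_comp_neg (g : SL(2, ℤ)) (x : MerH) : MerH.comp (-g) x = MerH.comp g x := by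
  obtain ⟨a, b, hb, rfl⟩ := MerH.exists_div x
  have h : ∀ c : HolH, HolH.comp (-g) c = HolH.comp g c := by
    intro c
    ext τ
    rw [HolH.comp_apply, HolH.comp_apply, ModularGroup.SL_neg_smul]
  rw [map_div₀, map_div₀, MerH.comp_algebraMap, MerH.comp_algebraMap, MerH.comp_algebraMap,
    MerH.comp_algebraMap, h, h]

theorem merH_comp_eq_of_comp_inv_eq {s : SL(2, ℤ)} {u : MerH} (h : MerH.comp s⁻¹ u = u) :
    MerH.comp s u = u := by
  have h1 : MerH.comp s (MerH.comp s⁻¹ u) = u := by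
    rw [← MerH.comp_mul, inv_mul_cancel, MerH.comp_one]
  rwa [h] at h1

theorem neg_mem_Gamma0 (N : ℕ) {γ : SL(2, ℤ)} (hγ : γ ∈ Gamma0 N) : -γ ∈ Gamma0 N := by
  rw [Gamma0_mem] at hγ ⊢
  rw [Matrix.SpecialLinearGroup.coe_neg, Matrix.neg_apply]
  push_cast
  rw [hγ, neg_zero]

variable (N : ℕ) [NeZero N] (n : ℕ) [NeZero n]

/-- `u` is an `n`-th root of (the realisation on `ℍ` of) a function with divisor `n • D`. -/
def IsKummerRoot (D : Divisor ℂ ↥(laurentBaseChange ℂ (modularFunctionFieldFull N)))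
    (u : MerH) : Prop :=
  ∃ f : ↥(laurentBaseChange ℂ (modularFunctionFieldFull N)), f ≠ 0 ∧
    (∀ v : Place ℂ ↥(laurentBaseChange ℂ (modularFunctionFieldFull N)),
      (n : ℤ) * D v = v.ord f) ∧ u ^ n = realNC N f

variable {N n}

theorem realNC_ne_zero {f : ↥(laurentBaseChange ℂ (modularFunctionFieldFull N))} (hf : f ≠ 0) :
    realNC N f ≠ 0 := by
  rwa [Ne, map_eq_zero_iff _ (realNC_injective N)]

theorem comp_realNC_of_mem {γ : SL(2, ℤ)} (hγ : γ ∈ Gamma0 N)
    (f : ↥(laurentBaseChange ℂ (modularFunctionFieldFull N))) :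
    MerH.comp γ (realNC N f) = realNC N f :=
  comp_realN_of_mem_Gamma0 (RingHom.id ℂ) N hγ f

theorem IsKummerRoot.ne_zero {D : Divisor ℂ ↥(laurentBaseChange ℂ (modularFunctionFieldFull N))}
    {u : MerH} (hu : IsKummerRoot N n D u) : u ≠ 0 := by
  obtain ⟨f, hf, -, hpow⟩ := hu
  intro h0
  rw [h0, zero_pow (NeZero.ne n)] at hpow
  exact realNC_ne_zero hf hpow.symm

theorem IsKummerRoot.isKummerElt
    {D : Divisor ℂ ↥(laurentBaseChange ℂ (modularFunctionFieldFull N))} {u : MerH}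
    (hu : IsKummerRoot N n D u) : IsKummerElt (Gamma0 N) n u := by
  refine ⟨hu.ne_zero, fun γ hγ => ?_⟩
  obtain ⟨f, -, -, hpow⟩ := hu
  rw [hpow, comp_realNC_of_mem hγ]

/-- **existence of Kummer roots** (K1 ROOT + the order dictionary at the points of `ℍ`). -/
theorem exists_isKummerRoot (D : Divisor ℂ ↥(laurentBaseChange ℂ (modularFunctionFieldFull N)))
    (f : ↥(laurentBaseChange ℂ (modularFunctionFieldFull N))) (hf : f ≠ 0)
    (hD : ∀ v : Place ℂ ↥(laurentBaseChange ℂ (modularFunctionFieldFull N)),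
      (n : ℤ) * D v = v.ord f) : ∃ u : MerH, IsKummerRoot N n D u := by
  have hdiv : ∀ τ : ℍ, (n : ℤ) ∣ MerH.ordAt τ (realNC N f) := by
    intro τ
    exact char_dvd_ordAt_realN (RingHom.id ℂ) N τ (jFun τ) rfl (n : ℤ) hf
      (fun v => ⟨D v, (hD v).symm⟩)
  obtain ⟨u, hu⟩ := exists_root_merH n (NeZero.ne n) (realNC N f) (realNC_ne_zero hf) hdiv
  exact ⟨u, f, hf, hD, hu⟩

theorem IsKummerRoot.mul {D D' : Divisor ℂ ↥(laurentBaseChange ℂ (modularFunctionFieldFull N))}
    {u u' : MerH} (hu : IsKummerRoot N n D u) (hu' : IsKummerRoot N n D' u') :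
    IsKummerRoot N n (D + D') (u * u') := by
  obtain ⟨f, hf, hD, hpow⟩ := hu
  obtain ⟨f', hf', hD', hpow'⟩ := hu'
  refine ⟨f * f', mul_ne_zero hf hf', fun v => ?_, ?_⟩
  · rw [Finsupp.add_apply, mul_add, hD v, hD' v, v.ord_mul hf hf']
  · rw [mul_pow, hpow, hpow', map_mul]

set_option synthInstance.maxHeartbeats 400000 in
/-- a function without zeros and poles is constant. -/
theorem exists_eq_algebraMap_of_forall_ord_eq_zero
    (g : ↥(laurentBaseChange ℂ (modularFunctionFieldFull N))) (hg : g ≠ 0)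
    (h : ∀ v : Place ℂ ↥(laurentBaseChange ℂ (modularFunctionFieldFull N)), v.ord g = 0) :
    ∃ c : ℂ, g = algebraMap ℂ _ c := by
  haveI := (Dict.jCoordC N).fin
  exact Fermat.Agent.JA.const_of_forall_ord_eq_zero (Dict.jCoordC N).x (Dict.jCoordC N).trans g hg h

/-- **independence of the representative**: linearly equivalent divisors have the same Kummer
character. -/
theorem IsKummerRoot.kummerChar_eq
    {D D' : Divisor ℂ ↥(laurentBaseChange ℂ (modularFunctionFieldFull N))} {u u' : MerH}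
    (hu : IsKummerRoot N n D u) (hu' : IsKummerRoot N n D' u')
    (g : ↥(laurentBaseChange ℂ (modularFunctionFieldFull N))) (hg : g ≠ 0)
    (hDD' : ∀ v : Place ℂ ↥(laurentBaseChange ℂ (modularFunctionFieldFull N)),
      D' v - D v = v.ord g) :
    kummerChar (Gamma0 N) n u' = kummerChar (Gamma0 N) n u := by
  have hKu := hu.isKummerElt
  obtain ⟨f, hf, hD, hpow⟩ := hu
  obtain ⟨f', hf', hD', hpow'⟩ := hu'
  -- `f' = c f g^n`
  have hfg : f * g ^ n ≠ 0 := mul_ne_zero hf (pow_ne_zero n hg)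
  have hq0 : f' / (f * g ^ n) ≠ 0 := div_ne_zero hf' hfg
  obtain ⟨c, hc⟩ := exists_eq_algebraMap_of_forall_ord_eq_zero (f' / (f * g ^ n)) hq0 (by
    intro v
    rw [div_eq_mul_inv, v.ord_mul hf' (inv_ne_zero hfg), v.ord_inv,
      v.ord_mul hf (pow_ne_zero n hg), ← zpow_natCast, v.ord_zpow, ← hD' v, ← hD v, ← hDD' v]
    ring)
  have hc0 : c ≠ 0 := by
    rintro rfl
    rw [map_zero] at hc
    exact hq0 hc
  have hf'eq : f' = algebraMap ℂ _ c * (f * g ^ n) := by
    rw [← hc, div_mul_cancel₀ _ hfg]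
  obtain ⟨c₁, hc₁⟩ := IsAlgClosed.exists_pow_nat_eq c (Nat.pos_of_ne_zero (NeZero.ne n))
  have hc₁0 : c₁ ≠ 0 := by
    rintro rfl
    rw [zero_pow (NeZero.ne n)] at hc₁
    exact hc0 hc₁.symm
  -- the comparison root
  set w : MerH := u * (MerH.const c₁ * realNC N g) with hw
  have hwpow : u' ^ n = w ^ n := by
    rw [hpow', hf'eq, hw, mul_pow, mul_pow, hpow, ← map_pow, hc₁, map_mul, map_mul, map_pow,
      AlgHom.commutes, MerH.algebraMap_eq_const]
    ring
  have hv0 : MerH.const c₁ * realNC N g ≠ 0 :=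
    mul_ne_zero (by rwa [Ne, map_eq_zero_iff _ MerH.const_injective]) (realNC_ne_zero hg)
  have hvinv : ∀ γ ∈ Gamma0 N, MerH.comp γ (MerH.const c₁ * realNC N g) =
      MerH.const c₁ * realNC N g := by
    intro γ hγ
    rw [map_mul, MerH.comp_const, comp_realNC_of_mem hγ]
  have hKw : IsKummerElt (Gamma0 N) n w := hKu.mul (isKummerElt_of_invariant hv0 hvinv)
  rw [kummerChar_eq_of_pow_eq hKw hwpow, hw, kummerChar_mul_invariant hKu hv0 hvinv]

/-- **Kummer roots are invariant under parabolic elements of `Γ₀(N)`.** -/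
theorem IsKummerRoot.comp_eq_of_parabolic
    {D : Divisor ℂ ↥(laurentBaseChange ℂ (modularFunctionFieldFull N))} {u : MerH}
    (hu : IsKummerRoot N n D u) {γ : SL(2, ℤ)} (hγ : γ ∈ Gamma0 N)
    (htr : (γ : Matrix (Fin 2) (Fin 2) ℤ).trace ^ 2 = 4) : MerH.comp γ u = u := by
  obtain ⟨f, hf, hD, hpow⟩ := hu
  obtain ⟨δ, k, hk⟩ := exists_conj_eq_T_zpow γ htr
  -- `s = δ T^k δ⁻¹ = ± γ`
  set s : SL(2, ℤ) := δ * T ^ k * δ⁻¹ with hs
  have hsγ : s = γ ∨ s = -γ := by
    rcases hk with h | h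
    · left
      rw [hs, ← h]; group
    · right
      have : T ^ k = -(δ⁻¹ * γ * δ) := by rw [h, neg_neg]
      rw [hs, this]
      simp only [mul_neg, neg_mul, neg_inj]
      group
  have hsΓ : s ∈ Gamma0 N := by
    rcases hsγ with h | h
    · rw [h]; exact hγ
    · rw [h]; exact neg_mem_Gamma0 N hγ
  have hcomp : MerH.comp s u = MerH.comp γ u := by
    rcases hsγ with h | h
    · rw [h]
    · rw [h, merH_comp_neg]
  rw [← hcomp]
  by_cases hk0 : k = 0
  · have : s = 1 := by rw [hs, hk0, zpow_zero, mul_one, mul_inv_cancel]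
    rw [this, MerH.comp_one]
  -- the width
  set h : ℕ := k.natAbs with hh
  haveI : NeZero h := ⟨Int.natAbs_ne_zero.mpr hk0⟩
  have hTh : δ * T ^ h * δ⁻¹ = s ∨ δ * T ^ h * δ⁻¹ = s⁻¹ := by
    rcases Int.natAbs_eq k with h1 | h1
    · left
      rw [hs]
      conv_rhs => rw [h1, zpow_natCast]
    · right
      have e : T ^ k = (T ^ h)⁻¹ := by
        conv_lhs => rw [h1]
        rw [zpow_neg, zpow_natCast]
      rw [hs, e]
      group
  have hδ : δ * T ^ h * δ⁻¹ ∈ Gamma0 N := by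
    rcases hTh with h1 | h1
    · rw [h1]; exact hsΓ
    · rw [h1]; exact (Gamma0 N).inv_mem hsΓ
  -- periodicity of the root at the cusp `δ∞`
  have hper : MerH.comp (T ^ h) (MerH.comp δ u) = MerH.comp δ u := by
    apply comp_T_pow_eq_of_pow_eq (NeZero.ne n) (x := MerH.comp δ (realNC N f))
      (isMerInf_comp_realN (RingHom.id ℂ) N δ hδ f)
      (comp_realN_ne_zero (RingHom.id ℂ) N δ hf)
      (char_dvd_ordInf_comp_realN (RingHom.id ℂ) N δ h hδ (n : ℤ) hf (fun v => ⟨D v, (hD v).symm⟩))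
    rw [← map_pow, hpow]
  have hconj : MerH.comp (δ * T ^ h * δ⁻¹) u = u := by
    rw [MerH.comp_mul, MerH.comp_mul, hper, ← MerH.comp_mul, mul_inv_cancel, MerH.comp_one]
  rcases hTh with h1 | h1
  · rwa [h1] at hconj
  · rw [h1] at hconj
    exact merH_comp_eq_of_comp_inv_eq hconj

end Fermat.Agent.GR
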