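/-
GR (stage I) — helper8 — package K2 CHAR, part 7: the Kummer map
`kappa N n : Pic⁰(F_ℂ)[n] →+ (Additive Γ₀(N) →+ ZMod n)`, its defining property for ALL
representatives and all roots, and its vanishing on parabolic elements.
-/
import Mathlib
import Fermat.Agent.GR.CHAR_helper8_Kappa

set_option autoImplicit false
set_option linter.style.haveILetI false
set_option linter.unusedSectionVars false

open UpperHalfPlane hiding I
open Complex ModularGroup ModularCurve CongruenceSubgroup AlgebraicCurve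
open scoped MatrixGroups

namespace Fermat.Agent.GR

open Fermat.Agent.X0N

variable {N : ℕ} [NeZero N] {n : ℕ} [NeZero n]

/-- a divisor whose class is `n`-torsion is `n`-divisible up to a principal divisor. -/
theorem exists_fun_of_mk_mem_torsion
    (D : ↥(Divisor.degZero (K := ℂ) (F := ↥(laurentBaseChange ℂ (modularFunctionFieldFull N)))))
    (hD : Pic0.mk D ∈ Pic0.torsion ℂ ↥(laurentBaseChange ℂ (modularFunctionFieldFull N)) n) :
    ∃ f : ↥(laurentBaseChange ℂ (modularFunctionFieldFull N)), f ≠ 0 ∧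
      ∀ v : Place ℂ ↥(laurentBaseChange ℂ (modularFunctionFieldFull N)),
        (n : ℤ) * (D : Divisor ℂ _) v = v.ord f := by
  rw [Pic0.mem_torsion] at hD
  have h1 : Pic0.mk ((n : ℤ) • D) = 0 := hD
  have h2 : ((n : ℤ) • D) ∈ (Divisor.principal (K := ℂ)
      (F := ↥(laurentBaseChange ℂ (modularFunctionFieldFull N)))).addSubgroupOf
        Divisor.degZero := (QuotientAddGroup.eq_zero_iff _).mp h1
  rw [AddSubgroup.mem_addSubgroupOf] at h2
  obtain ⟨f, hf, hfD⟩ := h2
  refine ⟨f, hf, fun v => ?_⟩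
  rw [← hfD v]
  simp

/-- every torsion class has a representative with a Kummer root. -/
theorem exists_rep_isKummerRoot
    (x : ↥(Pic0.torsion ℂ ↥(laurentBaseChange ℂ (modularFunctionFieldFull N)) n)) :
    ∃ (D : ↥(Divisor.degZero (K := ℂ)
        (F := ↥(laurentBaseChange ℂ (modularFunctionFieldFull N))))) (u : MerH),
      Pic0.mk D = (x : Pic0 ℂ ↥(laurentBaseChange ℂ (modularFunctionFieldFull N))) ∧ IsKummerRoot N n (D : Divisor ℂ _) u := by
  obtain ⟨D, hD⟩ := Pic0.mk_surjective (x : Pic0 ℂ ↥(laurentBaseChange ℂ (modularFunctionFieldFull N)))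
  obtain ⟨f, hf, hfD⟩ := exists_fun_of_mk_mem_torsion (n := n) D (by rw [hD]; exact x.2)
  obtain ⟨u, hu⟩ := exists_isKummerRoot (D : Divisor ℂ _) f hf hfD
  exact ⟨D, u, hD, hu⟩

/-- the Kummer character only depends on the class. -/
theorem kummerChar_eq_of_mk_eq
    {D D' : ↥(Divisor.degZero (K := ℂ)
      (F := ↥(laurentBaseChange ℂ (modularFunctionFieldFull N))))} {u u' : MerH}
    (h : Pic0.mk D = Pic0.mk D') (hu : IsKummerRoot N n (D : Divisor ℂ _) u)
    (hu' : IsKummerRoot N n (D' : Divisor ℂ _) u') :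
    kummerChar (Gamma0 N) n u' = kummerChar (Gamma0 N) n u := by
  have h1 : -D + D' ∈ (Divisor.principal (K := ℂ)
      (F := ↥(laurentBaseChange ℂ (modularFunctionFieldFull N)))).addSubgroupOf
        Divisor.degZero := QuotientAddGroup.eq.mp h
  rw [AddSubgroup.mem_addSubgroupOf] at h1
  obtain ⟨g, hg, hgD⟩ := h1
  refine hu.kummerChar_eq hu' g hg (fun v => ?_)
  rw [← hgD v]
  simp
  ring

variable (N n)

/-- the Kummer character of a torsion class (auxiliary). -/
noncomputable def kappaFun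
    (x : ↥(Pic0.torsion ℂ ↥(laurentBaseChange ℂ (modularFunctionFieldFull N)) n)) :
    Additive ↥(Gamma0 N) →+ ZMod n :=
  kummerChar (Gamma0 N) n (Classical.choose (Classical.choose_spec (exists_rep_isKummerRoot x)))

variable {N n}

theorem kappaFun_eq
    (x : ↥(Pic0.torsion ℂ ↥(laurentBaseChange ℂ (modularFunctionFieldFull N)) n))
    (D : ↥(Divisor.degZero (K := ℂ)
      (F := ↥(laurentBaseChange ℂ (modularFunctionFieldFull N)))))
    (hD : Pic0.mk D = (x : Pic0 ℂ ↥(laurentBaseChange ℂ (modularFunctionFieldFull N)))) {u : MerH} (hu : IsKummerRoot N n (D : Divisor ℂ _) u) :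
    kappaFun N n x = kummerChar (Gamma0 N) n u := by
  have h := Classical.choose_spec (Classical.choose_spec (exists_rep_isKummerRoot x))
  exact kummerChar_eq_of_mk_eq (hD.trans h.1.symm) hu h.2

theorem kappaFun_add
    (x y : ↥(Pic0.torsion ℂ ↥(laurentBaseChange ℂ (modularFunctionFieldFull N)) n)) :
    kappaFun N n (x + y) = kappaFun N n x + kappaFun N n y := by
  obtain ⟨D, u, hD, hu⟩ := exists_rep_isKummerRoot x
  obtain ⟨D', u', hD', hu'⟩ := exists_rep_isKummerRoot y
  have hadd : Pic0.mk (D + D') = ((x + y : ↥(Pic0.torsion ℂ ↥(laurentBaseChange ℂ (modularFunctionFieldFull N)) n)) :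
        Pic0 ℂ ↥(laurentBaseChange ℂ (modularFunctionFieldFull N))) := by
    rw [Pic0.mk_add, hD, hD']
    rfl
  have hmul : IsKummerRoot N n ((D + D' : ↥(Divisor.degZero (K := ℂ)
      (F := ↥(laurentBaseChange ℂ (modularFunctionFieldFull N))))) : Divisor ℂ _) (u * u') :=
    hu.mul hu'
  rw [kappaFun_eq (x + y) (D + D') hadd hmul, kappaFun_eq x D hD hu, kappaFun_eq y D' hD' hu',
    kummerChar_mul hu.isKummerElt hu'.isKummerElt]

variable (N n)

/-- **(K2 CHAR) the Kummer map** `Pic⁰(F_ℂ)[n] →+ Hom(Γ₀(N), ℤ/n)`. -/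
noncomputable def kappa :
    ↥(Pic0.torsion ℂ ↥(laurentBaseChange ℂ (modularFunctionFieldFull N)) n) →+
      (Additive ↥(Gamma0 N) →+ ZMod n) :=
  AddMonoidHom.mk' (kappaFun N n) kappaFun_add

variable {N n}

/-- `kappa` is the Kummer character of ANY root of ANY representative. -/
theorem kappa_eq_kummerChar
    (x : ↥(Pic0.torsion ℂ ↥(laurentBaseChange ℂ (modularFunctionFieldFull N)) n))
    (D : ↥(Divisor.degZero (K := ℂ)
      (F := ↥(laurentBaseChange ℂ (modularFunctionFieldFull N)))))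
    (hD : Pic0.mk D = (x : Pic0 ℂ ↥(laurentBaseChange ℂ (modularFunctionFieldFull N)))) {u : MerH} (hu : IsKummerRoot N n (D : Divisor ℂ _) u) :
    kappa N n x = kummerChar (Gamma0 N) n u :=
  kappaFun_eq x D hD hu

/-- **the defining property of `kappa`**: for every representative `D` of `x`, every `f` with
`n D = div f` and every `n`-th root `u` of `realNC f`:
`u ∘ γ = exp(2πi · kappa x γ / n) · u` for all `γ ∈ Γ₀(N)`. -/
theorem kappa_spec
    (x : ↥(Pic0.torsion ℂ ↥(laurentBaseChange ℂ (modularFunctionFieldFull N)) n))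
    (D : ↥(Divisor.degZero (K := ℂ)
      (F := ↥(laurentBaseChange ℂ (modularFunctionFieldFull N)))))
    (hD : Pic0.mk D = (x : Pic0 ℂ ↥(laurentBaseChange ℂ (modularFunctionFieldFull N)))) {u : MerH} (hu : IsKummerRoot N n (D : Divisor ℂ _) u)
    (γ : ↥(Gamma0 N)) :
    MerH.comp (γ : SL(2, ℤ)) u =
      MerH.const (ZMod.stdAddChar (kappa N n x (Additive.ofMul γ))) * u := by
  rw [kappa_eq_kummerChar x D hD hu]
  exact kummerChar_spec hu.isKummerElt γ

/-- **`kappa` kills the parabolic elements** (`trace ^ 2 = 4`). -/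
theorem kappa_isParabolicHom
    (x : ↥(Pic0.torsion ℂ ↥(laurentBaseChange ℂ (modularFunctionFieldFull N)) n)) :
    ModularCurve.Period.IsParabolicHom (Gamma0 N) (kappa N n x) := by
  intro γ htr
  obtain ⟨D, u, hD, hu⟩ := exists_rep_isKummerRoot x
  rw [kappa_eq_kummerChar x D hD hu, kummerChar_apply_eq_zero_iff hu.isKummerElt]
  exact hu.comp_eq_of_parabolic γ.2 htr

theorem kappa_mem_parabolicHoms
    (x : ↥(Pic0.torsion ℂ ↥(laurentBaseChange ℂ (modularFunctionFieldFull N)) n)) :
    kappa N n x ∈ ModularCurve.Period.parabolicHoms ℤ (Gamma0 N) (ZMod n) :=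
  ModularCurve.Period.mem_parabolicHoms_iff.mpr (kappa_isParabolicHom x)

/-- **injectivity criterion** (input for K3 INV): `kappa x = 0` iff one (equivalently every) Kummer
root of `x` is `Γ₀(N)`-invariant. -/
theorem kappa_eq_zero_iff
    (x : ↥(Pic0.torsion ℂ ↥(laurentBaseChange ℂ (modularFunctionFieldFull N)) n))
    (D : ↥(Divisor.degZero (K := ℂ)
      (F := ↥(laurentBaseChange ℂ (modularFunctionFieldFull N)))))
    (hD : Pic0.mk D = (x : Pic0 ℂ ↥(laurentBaseChange ℂ (modularFunctionFieldFull N)))) {u : MerH} (hu : IsKummerRoot N n (D : Divisor ℂ _) u) :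
    kappa N n x = 0 ↔ ∀ γ ∈ Gamma0 N, MerH.comp γ u = u := by
  rw [kappa_eq_kummerChar x D hD hu, kummerChar_eq_zero_iff hu.isKummerElt]

end Fermat.Agent.GR
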