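/-
GR (stage I) — helper8 — package K2 CHAR, part 8: compatibility of the Kummer maps for `n ∣ m`.
-/
import Mathlib
import Fermat.Agent.GR.CHAR_helper8_Main

set_option autoImplicit false
set_option linter.style.haveILetI false
set_option linter.unusedSectionVars false

open UpperHalfPlane hiding I
open Complex ModularGroup ModularCurve CongruenceSubgroup AlgebraicCurve
open scoped MatrixGroups

namespace Fermat.Agent.GR

open Fermat.Agent.X0N

/-- `exp(2πi a/m)^d = exp(2πi ā/n)` for `m = n d`. -/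
theorem stdAddChar_pow_eq_castHom {m n d : ℕ} [NeZero m] [NeZero n] (hm : m = n * d)
    (a : ZMod m) :
    (ZMod.stdAddChar (N := m) a) ^ d =
      ZMod.stdAddChar (N := n) (ZMod.castHom (Dvd.intro d hm.symm) (ZMod n) a) := by
  obtain ⟨j, rfl⟩ := ZMod.intCast_surjective a
  rw [map_intCast (ZMod.castHom (Dvd.intro d hm.symm) (ZMod n)), ZMod.stdAddChar_coe,
    ZMod.stdAddChar_coe, ← Complex.exp_nat_mul]
  congr 1
  have hn0 : (n : ℂ) ≠ 0 := Nat.cast_ne_zero.mpr (NeZero.ne n)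
  have hd0 : (d : ℂ) ≠ 0 := by
    rw [Nat.cast_ne_zero]
    rintro rfl
    rw [mul_zero] at hm
    exact NeZero.ne m hm
  rw [hm]
  push_cast
  field_simp

variable {Γ : Subgroup SL(2, ℤ)}

/-- **compatibility of Kummer characters**: for `m = n d`, the `n`-character of `u ^ d` is the
reduction mod `n` of the `m`-character of `u`. -/
theorem kummerChar_pow_eq_castHom_comp {m n d : ℕ} [NeZero m] [NeZero n] (hm : m = n * d)
    {u : MerH} (hu : IsKummerElt Γ m u) :
    kummerChar Γ n (u ^ d) =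
      (ZMod.castHom (Dvd.intro d hm.symm) (ZMod n)).toAddMonoidHom.comp (kummerChar Γ m u) := by
  apply kummerChar_eq_of_spec (pow_ne_zero d hu.1)
  intro γ
  rw [map_pow, kummerChar_spec hu γ, mul_pow, ← map_pow, stdAddChar_pow_eq_castHom hm]
  rfl

theorem isKummerElt_pow {m n d : ℕ} [NeZero m] [NeZero n] (hm : m = n * d) {u : MerH}
    (hu : IsKummerElt Γ m u) : IsKummerElt Γ n (u ^ d) := by
  refine ⟨pow_ne_zero d hu.1, fun γ hγ => ?_⟩
  have : (u ^ d) ^ n = u ^ m := by rw [← pow_mul, mul_comm, hm]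
  rw [this]
  exact hu.2 γ hγ

variable {N : ℕ} [NeZero N]

theorem IsKummerRoot.pow {m n d : ℕ} [NeZero m] [NeZero n] (hm : m = n * d)
    {D : Divisor ℂ ↥(laurentBaseChange ℂ (modularFunctionFieldFull N))} {u : MerH}
    (hu : IsKummerRoot N m D u) : IsKummerRoot N n ((d : ℤ) • D) (u ^ d) := by
  obtain ⟨f, hf, hD, hpow⟩ := hu
  refine ⟨f, hf, fun v => ?_, ?_⟩
  · rw [← hD v, hm, Finsupp.smul_apply, smul_eq_mul]
    push_cast
    ring
  · rw [← hpow, ← pow_mul, mul_comm, hm]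

/-- **(compat)**: for `m = n d`, `x ∈ Pic⁰[m]` and `y = d • x ∈ Pic⁰[n]`:
`kappa n y = (reduction mod n) ∘ kappa m x`. -/
theorem kappa_eq_castHom_comp {m n d : ℕ} [NeZero m] [NeZero n] (hm : m = n * d)
    (x : ↥(Pic0.torsion ℂ ↥(laurentBaseChange ℂ (modularFunctionFieldFull N)) m))
    (y : ↥(Pic0.torsion ℂ ↥(laurentBaseChange ℂ (modularFunctionFieldFull N)) n))
    (hxy : (y : Pic0 ℂ ↥(laurentBaseChange ℂ (modularFunctionFieldFull N))) =
      (d : ℤ) • (x : Pic0 ℂ ↥(laurentBaseChange ℂ (modularFunctionFieldFull N)))) :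
    kappa N n y =
      (ZMod.castHom (Dvd.intro d hm.symm) (ZMod n)).toAddMonoidHom.comp (kappa N m x) := by
  obtain ⟨D, u, hD, hu⟩ := exists_rep_isKummerRoot x
  have hD' : Pic0.mk ((d : ℤ) • D) =
      (y : Pic0 ℂ ↥(laurentBaseChange ℂ (modularFunctionFieldFull N))) := by
    rw [hxy, ← hD]
    rfl
  have hu' : IsKummerRoot N n (((d : ℤ) • D : ↥(Divisor.degZero (K := ℂ)
      (F := ↥(laurentBaseChange ℂ (modularFunctionFieldFull N))))) : Divisor ℂ _) (u ^ d) :=
    hu.pow hm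
  rw [kappa_eq_kummerChar y _ hD' hu', kappa_eq_kummerChar x D hD hu,
    kummerChar_pow_eq_castHom_comp hm hu.isKummerElt]

end Fermat.Agent.GR
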