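/-
GR (stage I) — helper8 — package K3 INV: a `Γ`-invariant meromorphic function on `ℍ` with a
modular power is a modular function; for `Γ = Γ₀(N)` the modular functions are exactly the range
of the realisation `realNC N`.  Consequence: the Kummer map `kappa N n` is injective.
-/
import Mathlib
import Fermat.Agent.GR.CHAR_helper8_Compat

set_option autoImplicit false
set_option linter.style.haveILetI false
set_option linter.unusedSectionVars false

open UpperHalfPlane hiding I
open Complex ModularGroup ModularCurve CongruenceSubgroup AlgebraicCurve ModularForm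
open scoped MatrixGroups ModularForm Manifold

namespace Fermat.Agent.GR

open Fermat.Agent.X0N Fermat.Agent.RatStr

/-! ### roots of modular forms -/

/-- slash of a power. -/
theorem slash_pow_SL (k : ℤ) (γ : SL(2, ℤ)) (F : ℍ → ℂ) (n : ℕ) :
    (F ^ n) ∣[(n : ℤ) * k] γ = (F ∣[k] γ) ^ n := by
  induction n with
  | zero =>
    simp only [pow_zero, Nat.cast_zero, zero_mul]
    exact is_invariant_one γ
  | succ n ih =>
    rw [pow_succ, pow_succ, ← ih, ← mul_slash_SL2]
    congr 1
    push_cast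
    ring

/-- a function with a bounded power is bounded. -/
theorem isBoundedAtImInfty_of_pow {F : ℍ → ℂ} {n : ℕ} (hn : n ≠ 0)
    (h : IsBoundedAtImInfty (F ^ n)) : IsBoundedAtImInfty F := by
  rw [UpperHalfPlane.isBoundedAtImInfty_iff] at h ⊢
  obtain ⟨M, A, hMA⟩ := h
  refine ⟨max M 1, A, fun z hz => ?_⟩
  have h1 : ‖F z‖ ^ n ≤ M := by
    have := hMA z hz
    rwa [Pi.pow_apply, norm_pow] at this
  by_contra hlt
  rw [not_le] at hlt
  have h2 : 1 < ‖F z‖ := lt_of_le_of_lt (le_max_right M 1) hlt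
  have h3 : ‖F z‖ ≤ ‖F z‖ ^ n := le_self_pow₀ h2.le hn
  have h4 : M < ‖F z‖ := lt_of_le_of_lt (le_max_left M 1) hlt
  linarith

/-- **roots of modular forms**: a holomorphic function, slash-invariant of weight `k` under `Γ`,
whose `n`-th power is a modular form, is a modular form. -/
theorem isMF_of_pow {Γ : Subgroup SL(2, ℤ)} {k : ℤ} {F : ℍ → ℂ} {n : ℕ} (hn : n ≠ 0)
    (hF : MDiff F) (hinv : ∀ γ ∈ Γ, F ∣[k] γ = F) (hpow : IsMF Γ ((n : ℤ) * k) (F ^ n)) :
    IsMF Γ k F := by
  refine ⟨hF, hinv, fun γ => ?_⟩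
  apply isBoundedAtImInfty_of_pow hn
  rw [← slash_pow_SL]
  exact hpow.bdd γ

/-- **(K3, general `Γ`)**: a `Γ`-invariant element of `MerH` with a modular `n`-th power is a
modular function (ratio of two modular forms of equal weight for `Γ`). -/
theorem isModFun_of_pow {Γ : Subgroup SL(2, ℤ)} {n : ℕ} (hn : n ≠ 0) {u : MerH}
    (hinv : ∀ γ ∈ Γ, MerH.comp γ u = u) (hx : IsModFun Γ (u ^ n)) : IsModFun Γ u := by
  by_cases hu : u = 0
  · rw [hu]
    simpa using isModFun_algebraMap (Γ := Γ) 0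
  obtain ⟨k, g, h, hg, hh, h0, hgh⟩ := hx
  have hh0 : MerH.ofHol h ≠ 0 := MerH.ofHol_ne_zero h0
  have hpow0 : u ^ n ≠ 0 := pow_ne_zero n hu
  -- `u ^ n * h = g`
  have hmul : u ^ n * MerH.ofHol h = MerH.ofHol g := by
    rw [hgh, div_mul_cancel₀ _ hh0]
  have hg0 : g ≠ 0 := by
    rintro rfl
    rw [map_zero] at hmul
    exact mul_ne_zero hpow0 hh0 hmul
  -- `u * h` is holomorphic
  have hord : ∀ τ : ℍ, 0 ≤ MerH.ordAt τ (u * MerH.ofHol h) := by
    intro τ
    rw [MerH.ordAt_mul hu hh0, MerH.ordAt_ofHol h0]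
    by_cases hneg : 0 ≤ MerH.ordAt τ u
    · positivity
    · rw [not_le] at hneg
      have h1 := congrArg (MerH.ordAt τ) hmul
      rw [MerH.ordAt_mul hpow0 hh0, MerH.ordAt_pow, MerH.ordAt_ofHol h0, MerH.ordAt_ofHol hg0] at h1
      have h2 : (1 : ℤ) ≤ n := by
        have : 1 ≤ n := Nat.one_le_iff_ne_zero.mpr hn
        exact_mod_cast this
      have h3 : (0 : ℤ) ≤ (HolH.ord τ g : ℤ) := Int.natCast_nonneg _
      nlinarith
  obtain ⟨a, ha⟩ := Fermat.Agent.X0N.Dict.exists_ofHol_eq_of_ordAt_nonneg hord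
  have hua : u = MerH.ofHol a / MerH.ofHol h := by
    rw [ha, mul_div_cancel_right₀ _ hh0]
  -- `a` is slash-invariant
  have hainv : ∀ γ ∈ Γ, (a : ℍ → ℂ) ∣[k] γ = (a : ℍ → ℂ) := by
    intro γ hγ
    have h1 := hinv γ hγ
    rw [hua, MerH.comp_div_eq_slash k γ a h0] at h1
    have h2 : HolH.slashSL k γ h = h := Subtype.ext (hh.inv γ hγ)
    rw [h2, div_left_inj' hh0] at h1
    exact congrArg Subtype.val (MerH.ofHol_injective h1)
  -- `a ^ n = g * h ^ (n - 1)`
  obtain ⟨m, rfl⟩ := Nat.exists_eq_succ_of_ne_zero hn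
  have hapow : a ^ (m + 1) = g * h ^ m := by
    apply MerH.ofHol_injective
    rw [map_pow, ha, mul_pow, pow_succ (MerH.ofHol h), ← mul_assoc, mul_comm (u ^ (m + 1)),
      mul_assoc, hmul, map_mul, map_pow, mul_comm]
  have hpowMF : IsMF Γ (((m + 1 : ℕ) : ℤ) * k) ((a : ℍ → ℂ) ^ (m + 1)) := by
    have h1 : ((a : ℍ → ℂ) ^ (m + 1)) = (g : ℍ → ℂ) * (h : ℍ → ℂ) ^ m := by
      have := congrArg Subtype.val hapow
      simpa using this
    rw [h1]
    exact (hg.mul (hh.pow m)).weight_cast (by push_cast; ring)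
  exact ⟨k, a, h, isMF_of_pow (Nat.succ_ne_zero m) a.2 hainv hpowMF, hh, h0, hua⟩

/-! ### modular functions for `Γ₀(N)` are the range of the realisation -/

section Range

variable (N : ℕ) [NeZero N]

theorem CjM_le_fieldRange_realNC : CjM ≤ (realNC N).fieldRange := by
  intro c hc
  obtain ⟨c0, _, hc2, h⟩ := exists_realNC_eq N hc
  exact ⟨_, h⟩

/-- **every modular function for `Γ₀(N)` is in the range of the realisation.** -/
theorem mem_range_realNC_of_isModFun {y : MerH} (hy : IsModFun (Gamma0 N) y) :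
    y ∈ Set.range (realNC N) := by
  have h1 : y ∈ modFunOverCjM N := hy
  rw [modFunOverCjM_eq] at h1
  have h2 : IntermediateField.adjoin CjM {MerH.ofHol (jNHol N)} ≤
      IntermediateField.extendScalars (CjM_le_fieldRange_realNC N) := by
    rw [IntermediateField.adjoin_simple_le_iff]
    exact ⟨jNC N, realNC_jNC N⟩
  exact h2 h1

theorem isModFun_iff_mem_range_realNC {y : MerH} :
    IsModFun (Gamma0 N) y ↔ y ∈ Set.range (realNC N) := by
  refine ⟨mem_range_realNC_of_isModFun N, ?_⟩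
  rintro ⟨f, rfl⟩
  exact isModFun_realN (RingHom.id ℂ) N f

/-- **(K3 INV)** a `Γ₀(N)`-invariant `n`-th root in `MerH` of a function on `X₀(N)` is a function
on `X₀(N)`. -/
theorem mem_range_realNC_of_invariant {n : ℕ} (hn : n ≠ 0) {u : MerH}
    {f : ↥(laurentBaseChange ℂ (modularFunctionFieldFull N))}
    (hinv : ∀ γ ∈ Gamma0 N, MerH.comp γ u = u) (hu : u ^ n = realNC N f) :
    u ∈ Set.range (realNC N) := by
  apply mem_range_realNC_of_isModFun
  apply isModFun_of_pow hn hinv
  rw [hu]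
  exact isModFun_realN (RingHom.id ℂ) N f

/-- **(K3 INV, ratio form for K4)** a `Γ₀(N)`-invariant ratio `u = g / h` of holomorphic functions
such that `g ^ n` and `h ^ n` are modular forms of the same weight lies in the range of the
realisation. -/
theorem mem_range_realNC_of_pow_isMF {n : ℕ} (hn : n ≠ 0) {k : ℤ} {g h : HolH}
    (hg : IsMF (Gamma0 N) k ((g : ℍ → ℂ) ^ n)) (hh : IsMF (Gamma0 N) k ((h : ℍ → ℂ) ^ n))
    (h0 : h ≠ 0)
    (hinv : ∀ γ ∈ Gamma0 N, MerH.comp γ (MerH.ofHol g / MerH.ofHol h) =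
      MerH.ofHol g / MerH.ofHol h) :
    MerH.ofHol g / MerH.ofHol h ∈ Set.range (realNC N) := by
  apply mem_range_realNC_of_isModFun
  apply isModFun_of_pow hn hinv
  refine ⟨k, g ^ n, h ^ n, hg, hh, pow_ne_zero n h0, ?_⟩
  rw [div_pow, map_pow, map_pow]

end Range

/-! ### injectivity of the Kummer map -/

section Inj

variable {N : ℕ} [NeZero N] {n : ℕ} [NeZero n]

/-- **(inj)** the Kummer map `kappa N n : Pic⁰(F_ℂ)[n] → Hom(Γ₀(N), ℤ/n)` is injective. -/
theorem kappa_injective : Function.Injective (kappa N n) := by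
  rw [injective_iff_map_eq_zero]
  intro x hx
  obtain ⟨D, u, hD, hu⟩ := exists_rep_isKummerRoot x
  have hinv := (kappa_eq_zero_iff x D hD hu).mp hx
  obtain ⟨f, hf, hfD, huf⟩ := hu
  obtain ⟨g, hg⟩ := mem_range_realNC_of_invariant N (NeZero.ne n) hinv huf
  have hgf : g ^ n = f := by
    apply realNC_injective N
    rw [map_pow, hg, huf]
  have hg0 : g ≠ 0 := by
    rintro rfl
    rw [zero_pow (NeZero.ne n)] at hgf
    exact hf hgf.symm
  have hprin : (D : Divisor ℂ ↥(laurentBaseChange ℂ (modularFunctionFieldFull N))) ∈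
      Divisor.principal (K := ℂ) (F := ↥(laurentBaseChange ℂ (modularFunctionFieldFull N))) := by
    refine ⟨g, hg0, fun v => ?_⟩
    have h1 := hfD v
    rw [← hgf, ← zpow_natCast, Place.ord_zpow] at h1
    have hn0 : (n : ℤ) ≠ 0 := Nat.cast_ne_zero.mpr (NeZero.ne n)
    exact mul_left_cancel₀ hn0 h1
  have h0 : Pic0.mk D = 0 := by
    rw [Pic0.mk, QuotientAddGroup.eq_zero_iff]
    exact hprin
  apply Subtype.ext
  rw [← hD, h0]
  rfl

theorem kappa_eq_zero_iff_eq_zero
    (x : ↥(Pic0.torsion ℂ ↥(laurentBaseChange ℂ (modularFunctionFieldFull N)) n)) :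
    kappa N n x = 0 ↔ x = 0 :=
  ⟨fun h => kappa_injective (h.trans (map_zero _).symm), fun h => by rw [h, map_zero]⟩

end Inj

end Fermat.Agent.GR
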