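/-
Stage (I), package K5 DESC — helper3.
The canonical effective divisor of a class `c ∈ Pic⁰(F)` relative to a base divisor `B` and a
base point `Q₀` (all places of degree one): among the effective divisors `E` with
`[E - B] = c` there is exactly one with maximal multiplicity at `Q₀`.  Equivariance under
semilinear automorphisms fixing `B` and `Q₀`.
-/
import Mathlib
import Fermat.Agent.FF.Principal
import Fermat.Agent.JA.ES_helper4_Value

set_option autoImplicit false
set_option linter.style.haveILetI false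
set_option linter.unusedSectionVars false

open Module AlgebraicCurve

namespace Fermat.Agent.GR

open Fermat.Agent.FF Fermat.Agent.JA

section Canon

variable {k F : Type*} [Field k] [Field F] [Algebra k F]

theorem degree_eq_zero_of_mem_principal [HasPrincipalDivisors k F] {D : Divisor k F}
    (hD : D ∈ Divisor.principal (K := k) (F := F)) : Divisor.degree D = 0 := by
  obtain ⟨f, hf0, hf⟩ := hD
  obtain ⟨D', hD', hdeg'⟩ := HasPrincipalDivisors.exists_divisor (K := k) f hf0
  have : D = D' := Finsupp.ext fun v => by rw [hf, hD']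
  rw [this, hdeg']

theorem exists_divisor_of_ne_zero [HasPrincipalDivisors k F] (f : F) (hf : f ≠ 0) :
    ∃ D : Divisor k F, (∀ v : Place k F, D v = v.ord f) ∧
      D ∈ Divisor.principal (K := k) (F := F) ∧ D ∈ Divisor.degZero (K := k) (F := F) := by
  obtain ⟨D, hD, hdeg⟩ := HasPrincipalDivisors.exists_divisor (K := k) f hf
  exact ⟨D, hD, ⟨f, hf, hD⟩, hdeg⟩

/-- effective divisors. -/
def IsEff (E : Divisor k F) : Prop := ∀ Q : Place k F, 0 ≤ E Q

theorem IsEff.add {E E' : Divisor k F} (hE : IsEff E) (hE' : IsEff E') : IsEff (E + E') :=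
  fun Q => by rw [Finsupp.add_apply]; exact add_nonneg (hE Q) (hE' Q)

theorem isEff_zero : IsEff (0 : Divisor k F) := fun _ => le_rfl

theorem IsEff.nsmul {E : Divisor k F} (hE : IsEff E) (n : ℕ) : IsEff (n • E) :=
  fun Q => by rw [Finsupp.smul_apply]; exact nsmul_nonneg (hE Q) n

theorem isEff_single (Q : Place k F) {n : ℤ} (hn : 0 ≤ n) : IsEff (Finsupp.single Q n) := by
  classical
  intro Q'
  rw [Finsupp.single_apply]
  split_ifs
  · exact hn
  · exact le_rfl

/-- the degree of a divisor when all places have degree one. -/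
theorem degree_eq_sum (hdeg : ∀ Q : Place k F, Q.deg = 1) (E : Divisor k F) :
    Divisor.degree E = ∑ v ∈ E.support, E v := by
  rw [degree_eq_sum_of_support_subset E E.support subset_rfl]
  refine Finset.sum_congr rfl fun v _ => ?_
  rw [hdeg v, Nat.cast_one, mul_one]

theorem IsEff.apply_le_degree (hdeg : ∀ Q : Place k F, Q.deg = 1) {E : Divisor k F}
    (hE : IsEff E) (Q₀ : Place k F) : E Q₀ ≤ Divisor.degree E := by
  rw [degree_eq_sum hdeg]
  by_cases hQ : Q₀ ∈ E.support
  · exact Finset.single_le_sum (f := fun v => E v) (fun v _ => hE v) hQ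
  · rw [Finsupp.notMem_support_iff.mp hQ]
    exact Finset.sum_nonneg fun v _ => hE v

/-- the effective divisors `E` such that `E - B` has degree zero and class `c`. -/
def effSet (c : Pic0 k F) (B : Divisor k F) : Set (Divisor k F) :=
  {E | IsEff E ∧ ∃ hE : E - B ∈ Divisor.degZero (K := k) (F := F), Pic0.mk ⟨E - B, hE⟩ = c}

theorem effSet_apply_le (hdeg : ∀ Q : Place k F, Q.deg = 1) {c : Pic0 k F} {B E : Divisor k F}
    (hE : E ∈ effSet c B) (Q₀ : Place k F) : E Q₀ ≤ Divisor.degree B := by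
  obtain ⟨h1, h2, -⟩ := hE
  have h3 : Divisor.degree E = Divisor.degree B := by
    rw [Divisor.mem_degZero, map_sub, sub_eq_zero] at h2
    exact h2
  rw [← h3]
  exact h1.apply_le_degree hdeg Q₀

/-- `E` is a canonical divisor for `(c, B, Q₀)`: effective with `[E - B] = c` and of maximal
multiplicity at `Q₀`. -/
def IsCanon (c : Pic0 k F) (B : Divisor k F) (Q₀ : Place k F) (E : Divisor k F) : Prop :=
  E ∈ effSet c B ∧ ∀ E' ∈ effSet c B, E' Q₀ ≤ E Q₀

theorem exists_isCanon (hdeg : ∀ Q : Place k F, Q.deg = 1) (c : Pic0 k F) (B : Divisor k F)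
    (Q₀ : Place k F) (hne : (effSet c B).Nonempty) : ∃ E, IsCanon c B Q₀ E := by
  obtain ⟨E₀, hE₀⟩ := hne
  obtain ⟨z, ⟨E, hE, rfl⟩, hz⟩ := Int.exists_greatest_of_bdd
    (P := fun z => ∃ E ∈ effSet c B, E Q₀ = z)
    ⟨Divisor.degree B, fun z ⟨E, hE, hEz⟩ => hEz ▸ effSet_apply_le hdeg hE Q₀⟩
    ⟨E₀ Q₀, E₀, hE₀, rfl⟩
  exact ⟨E, hE, fun E' hE' => hz _ ⟨E', hE', rfl⟩⟩

/-- **uniqueness of the canonical divisor**. -/
theorem IsCanon.unique [HasPrincipalDivisors k F] (hdeg : ∀ Q : Place k F, Q.deg = 1)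
    {c : Pic0 k F} {B : Divisor k F} {Q₀ : Place k F} {E₁ E₂ : Divisor k F}
    (h₁ : IsCanon c B Q₀ E₁) (h₂ : IsCanon c B Q₀ E₂) : E₁ = E₂ := by
  obtain ⟨⟨he₁, hd₁, hc₁⟩, hm₁⟩ := h₁
  obtain ⟨⟨he₂, hd₂, hc₂⟩, hm₂⟩ := h₂
  have hQ₀ : E₁ Q₀ = E₂ Q₀ :=
    le_antisymm (hm₂ E₁ ⟨he₁, hd₁, hc₁⟩) (hm₁ E₂ ⟨he₂, hd₂, hc₂⟩)
  -- `E₁ - E₂` is principal
  have hprin : E₁ - E₂ ∈ Divisor.principal (K := k) (F := F) := by
    have h0 : Pic0.mk ⟨E₁ - B, hd₁⟩ = Pic0.mk ⟨E₂ - B, hd₂⟩ := by rw [hc₁, hc₂]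
    have h1 := QuotientAddGroup.eq.mp h0
    rw [AddSubgroup.mem_addSubgroupOf] at h1
    have h2 := (Divisor.principal (K := k) (F := F)).neg_mem h1
    have e : -((-(⟨E₁ - B, hd₁⟩ : Divisor.degZero (K := k) (F := F)) + ⟨E₂ - B, hd₂⟩ :
        Divisor.degZero (K := k) (F := F)) : Divisor k F) = E₁ - E₂ := by
      simp only [AddSubgroup.coe_add, NegMemClass.coe_neg]
      abel
    rwa [e] at h2
  obtain ⟨f, hf0, hf⟩ := hprin
  have hordf : Q₀.ord f = 0 := by
    rw [← hf, Finsupp.sub_apply, hQ₀, sub_self]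
  have hfmem : f ∈ Q₀.toValuationSubring :=
    (PlaceAux.mem_iff_ord_nonneg' Q₀ hf0).mpr hordf.ge
  obtain ⟨a, ha⟩ := HasValueAt.exists_of_mem (hdeg Q₀) hfmem
  by_cases hfa : f - algebraMap k F a = 0
  · -- `f` constant
    ext Q
    have h1 := hf Q
    rw [sub_eq_zero.mp hfa, PlaceAux.ord_algebraMap, Finsupp.sub_apply] at h1
    exact sub_eq_zero.mp h1
  · exfalso
    have hpos : 0 < Q₀.ord (f - algebraMap k F a) := by
      rcases HasValueAt.iff_ord.mp ha with h | h
      · exact absurd h hfa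
      · exact h
    have ha0 : a ≠ 0 := by
      rintro rfl
      rw [map_zero, sub_zero] at hpos
      omega
    obtain ⟨Dg, hDg, hDgp, hDg0⟩ := exists_divisor_of_ne_zero (k := k) _ hfa
    -- the new effective divisor
    have hd₃ : E₂ + Dg - B ∈ Divisor.degZero (K := k) (F := F) := by
      have e : E₂ + Dg - B = (E₂ - B) + Dg := by abel
      rw [e]
      exact (Divisor.degZero (K := k) (F := F)).add_mem hd₂ hDg0
    have hmem : E₂ + Dg ∈ effSet c B := by
      refine ⟨fun Q => ?_, hd₃, ?_⟩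
      · rw [Finsupp.add_apply, hDg]
        have hna : -algebraMap k F a ≠ 0 := by
          rw [neg_ne_zero, Ne, map_eq_zero]
          exact ha0
        have h1 : min (Q.ord f) 0 ≤ Q.ord (f - algebraMap k F a) := by
          rw [sub_eq_add_neg] at hfa ⊢
          refine PlaceAux.ord_add_ge Q hfa (Or.inr (min_le_left _ _)) (Or.inr ?_)
          rw [← map_neg, PlaceAux.ord_algebraMap]
          exact min_le_right _ _
        have h2 := hf Q
        rw [Finsupp.sub_apply] at h2
        have h3 := he₁ Q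
        have h4 := he₂ Q
        rcases min_cases (Q.ord f) 0 with ⟨h5, _⟩ | ⟨h5, _⟩ <;> omega
      · rw [← hc₂]
        apply QuotientAddGroup.eq.mpr
        rw [AddSubgroup.mem_addSubgroupOf]
        have e : ((-(⟨E₂ + Dg - B, hd₃⟩ : Divisor.degZero (K := k) (F := F)) + ⟨E₂ - B, hd₂⟩ :
            Divisor.degZero (K := k) (F := F)) : Divisor k F) = -Dg := by
          simp only [AddSubgroup.coe_add, NegMemClass.coe_neg]
          abel
        rw [e]
        exact (Divisor.principal (K := k) (F := F)).neg_mem hDgp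
    have := hm₂ _ hmem
    rw [Finsupp.add_apply, hDg] at this
    omega

end Canon

section Nonempty

variable {k F : Type*} [Field k] [Field F] [Algebra k F]

/-- every divisor is linearly equivalent to `E - m·B` with `E` effective, provided `B` dominates
every point in the sense of `hB`. -/
theorem exists_eff_sub (B : Divisor k F)
    (hB : ∀ Q : Place k F, ∃ E' : Divisor k F, IsEff E' ∧
      E' + Finsupp.single Q 1 - B ∈ Divisor.principal (K := k) (F := F))
    (D : Divisor k F) :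
    ∃ (m : ℕ) (E : Divisor k F), IsEff E ∧
      E - m • B - D ∈ Divisor.principal (K := k) (F := F) := by
  classical
  induction D using Finsupp.induction_linear with
  | zero =>
    refine ⟨0, 0, isEff_zero, ?_⟩
    rw [zero_smul, sub_zero, sub_zero]
    exact (Divisor.principal (K := k) (F := F)).zero_mem
  | add D₁ D₂ h₁ h₂ =>
    obtain ⟨m₁, E₁, he₁, hp₁⟩ := h₁
    obtain ⟨m₂, E₂, he₂, hp₂⟩ := h₂
    refine ⟨m₁ + m₂, E₁ + E₂, he₁.add he₂, ?_⟩
    have e : E₁ + E₂ - (m₁ + m₂) • B - (D₁ + D₂) = (E₁ - m₁ • B - D₁) + (E₂ - m₂ • B - D₂) := by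
      rw [add_smul]
      abel
    rw [e]
    exact (Divisor.principal (K := k) (F := F)).add_mem hp₁ hp₂
  | single Q n =>
    by_cases hn : 0 ≤ n
    · refine ⟨0, Finsupp.single Q n, isEff_single Q hn, ?_⟩
      rw [zero_smul, sub_zero, sub_self]
      exact (Divisor.principal (K := k) (F := F)).zero_mem
    · obtain ⟨E', he', hp'⟩ := hB Q
      obtain ⟨j, hj⟩ : ∃ j : ℕ, n = -(j : ℤ) := ⟨(-n).toNat, by omega⟩
      refine ⟨j, j • E', he'.nsmul j, ?_⟩
      have e : j • E' - j • B - Finsupp.single Q n = j • (E' + Finsupp.single Q 1 - B) := by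
        have e1 : Finsupp.single Q n = -(j • Finsupp.single Q (1 : ℤ)) := by
          rw [hj, Finsupp.smul_single, nsmul_eq_mul, mul_one, Finsupp.single_neg]
        rw [e1, smul_sub, smul_add]
        abel
      rw [e]
      exact (Divisor.principal (K := k) (F := F)).nsmul_mem hp' j

/-- for every class `c` some `effSet c (m • B)` is non-empty. -/
theorem exists_effSet_nonempty [HasPrincipalDivisors k F] (B : Divisor k F)
    (hB : ∀ Q : Place k F, ∃ E' : Divisor k F, IsEff E' ∧
      E' + Finsupp.single Q 1 - B ∈ Divisor.principal (K := k) (F := F))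
    (c : Pic0 k F) : ∃ m : ℕ, (effSet c (m • B)).Nonempty := by
  obtain ⟨⟨D, hD⟩, rfl⟩ := Pic0.mk_surjective c
  obtain ⟨m, E, hE, hp⟩ := exists_eff_sub B hB D
  have hd : E - m • B ∈ Divisor.degZero (K := k) (F := F) := by
    have h1 := degree_eq_zero_of_mem_principal hp
    rw [Divisor.mem_degZero] at hD ⊢
    rw [map_sub, hD, sub_zero] at h1
    exact h1
  refine ⟨m, E, hE, hd, ?_⟩
  apply QuotientAddGroup.eq.mpr
  rw [AddSubgroup.mem_addSubgroupOf]
  have e : ((-(⟨E - m • B, hd⟩ : Divisor.degZero (K := k) (F := F)) + ⟨D, hD⟩ :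
      Divisor.degZero (K := k) (F := F)) : Divisor k F) = -(E - m • B - D) := by
    simp only [AddSubgroup.coe_add, NegMemClass.coe_neg]
    abel
  rw [e]
  exact (Divisor.principal (K := k) (F := F)).neg_mem hp

/-- the polar divisor of a non-constant function dominates every point. -/
theorem exists_eff_of_polar [HasPrincipalDivisors k F] (hdeg : ∀ Q : Place k F, Q.deg = 1)
    (x : F) (hx : ∀ a : k, x ≠ algebraMap k F a) (B : Divisor k F)
    (hBx : ∀ Q : Place k F, B Q = max 0 (-(Q.ord x))) (Q : Place k F) :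
    ∃ E' : Divisor k F, IsEff E' ∧
      E' + Finsupp.single Q 1 - B ∈ Divisor.principal (K := k) (F := F) := by
  classical
  have hx0 : x ≠ 0 := by
    intro h
    exact hx 0 (by rw [h, map_zero])
  by_cases hQ : 0 ≤ Q.ord x
  · have hxmem : x ∈ Q.toValuationSubring := (PlaceAux.mem_iff_ord_nonneg' Q hx0).mpr hQ
    obtain ⟨a, ha⟩ := HasValueAt.exists_of_mem (hdeg Q) hxmem
    have hfa : x - algebraMap k F a ≠ 0 := sub_ne_zero.mpr (hx a)
    have hpos : 0 < Q.ord (x - algebraMap k F a) := by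
      rcases HasValueAt.iff_ord.mp ha with h | h
      · exact absurd h hfa
      · exact h
    obtain ⟨Df, hDf, hDfp, -⟩ := exists_divisor_of_ne_zero (k := k) _ hfa
    refine ⟨Df + B - Finsupp.single Q 1, fun Q' => ?_, ?_⟩
    · rw [Finsupp.sub_apply, Finsupp.add_apply, hDf, hBx, Finsupp.single_apply]
      have h1 : min (Q'.ord x) 0 ≤ Q'.ord (x - algebraMap k F a) := by
        rw [sub_eq_add_neg] at hfa ⊢
        refine PlaceAux.ord_add_ge Q' hfa (Or.inr (min_le_left _ _)) ?_
        by_cases ha0 : a = 0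
        · left
          rw [ha0, map_zero, neg_zero]
        · right
          rw [← map_neg, PlaceAux.ord_algebraMap]
          exact min_le_right _ _
      split_ifs with hQQ'
      · subst hQQ'
        rcases max_cases 0 (-(Q.ord x)) with ⟨h5, _⟩ | ⟨h5, _⟩ <;> omega
      · rcases max_cases 0 (-(Q'.ord x)) with ⟨h5, _⟩ | ⟨h5, _⟩ <;>
        rcases min_cases (Q'.ord x) 0 with ⟨h6, _⟩ | ⟨h6, _⟩ <;> omega
    · have e : Df + B - Finsupp.single Q 1 + Finsupp.single Q 1 - B = Df := by abel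
      rw [e]
      exact hDfp
  · refine ⟨B - Finsupp.single Q 1, fun Q' => ?_, ?_⟩
    · rw [Finsupp.sub_apply, hBx, Finsupp.single_apply]
      split_ifs with hQQ'
      · subst hQQ'
        rcases max_cases 0 (-(Q.ord x)) with ⟨h5, _⟩ | ⟨h5, _⟩ <;> omega
      · rcases max_cases 0 (-(Q'.ord x)) with ⟨h5, _⟩ | ⟨h5, _⟩ <;> omega
    · have e : B - Finsupp.single Q 1 + Finsupp.single Q 1 - B = 0 := by abel
      rw [e]
      exact (Divisor.principal (K := k) (F := F)).zero_mem

end Nonempty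

section Equivariance

variable {k F : Type*} [Field k] [Field F] [Algebra k F]

theorem IsEff.smul (g : SemilinearAut k F) {E : Divisor k F} (hE : IsEff E) : IsEff (g • E) :=
  fun Q => by rw [SemilinearAut.divisor_smul_apply]; exact hE _

theorem smul_mem_effSet (g : SemilinearAut k F) {c : Pic0 k F} {B E : Divisor k F}
    (hB : g • B = B) (hE : E ∈ effSet c B) : g • E ∈ effSet (g • c) B := by
  obtain ⟨h1, h2, h3⟩ := hE
  have e : g • E - B = g • (E - B) := by rw [smul_sub, hB]
  have h2' : g • E - B ∈ Divisor.degZero (K := k) (F := F) := by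
    rw [e]
    exact SemilinearAut.smul_mem_degZero g h2
  refine ⟨h1.smul g, h2', ?_⟩
  rw [← h3, SemilinearAut.pic0_smul_mk]
  congr 1
  apply Subtype.ext
  rw [SemilinearAut.coe_degZeroSMulHom]
  exact e

theorem IsCanon.smul (g : SemilinearAut k F) {c : Pic0 k F} {B E : Divisor k F}
    {Q₀ : Place k F} (hB : g • B = B) (hQ₀ : g • Q₀ = Q₀) (hE : IsCanon c B Q₀ E) :
    IsCanon (g • c) B Q₀ (g • E) := by
  have hB' : g⁻¹ • B = B := by
    rw [inv_smul_eq_iff, hB]
  have hQ₀' : g⁻¹ • Q₀ = Q₀ := by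
    rw [inv_smul_eq_iff, hQ₀]
  refine ⟨smul_mem_effSet g hB hE.1, fun E' hE' => ?_⟩
  have h1 := smul_mem_effSet g⁻¹ hB' hE'
  rw [inv_smul_smul] at h1
  have h2 := hE.2 _ h1
  rw [SemilinearAut.divisor_smul_apply, inv_inv, hQ₀] at h2
  rw [SemilinearAut.divisor_smul_apply, hQ₀']
  exact h2

open Classical in
/-- the canonical divisor of `(c, B, Q₀)` (`0` if `effSet c B` is empty). -/
noncomputable def canon (c : Pic0 k F) (B : Divisor k F) (Q₀ : Place k F) : Divisor k F :=
  if h : ∃ E, IsCanon c B Q₀ E then h.choose else 0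

theorem canon_spec {c : Pic0 k F} {B : Divisor k F} {Q₀ : Place k F}
    (h : ∃ E, IsCanon c B Q₀ E) : IsCanon c B Q₀ (canon c B Q₀) := by
  unfold canon
  rw [dif_pos h]
  exact h.choose_spec

theorem canon_eq_zero {c : Pic0 k F} {B : Divisor k F} {Q₀ : Place k F}
    (h : ¬ ∃ E, IsCanon c B Q₀ E) : canon c B Q₀ = 0 := by
  unfold canon
  rw [dif_neg h]

/-- **equivariance of the canonical divisor**. -/
theorem smul_canon [HasPrincipalDivisors k F] (hdeg : ∀ Q : Place k F, Q.deg = 1)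
    (g : SemilinearAut k F) {B : Divisor k F} {Q₀ : Place k F} (hB : g • B = B)
    (hQ₀ : g • Q₀ = Q₀) (c : Pic0 k F) : g • canon c B Q₀ = canon (g • c) B Q₀ := by
  by_cases h : ∃ E, IsCanon c B Q₀ E
  · have h1 := (canon_spec h).smul g hB hQ₀
    exact h1.unique hdeg (canon_spec ⟨_, h1⟩)
  · have h' : ¬ ∃ E, IsCanon (g • c) B Q₀ E := by
      rintro ⟨E, hE⟩
      apply h
      have hB' : g⁻¹ • B = B := by
        rw [inv_smul_eq_iff, hB]
      have hQ₀' : g⁻¹ • Q₀ = Q₀ := by
        rw [inv_smul_eq_iff, hQ₀]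
      have := hE.smul g⁻¹ hB' hQ₀'
      rw [inv_smul_smul] at this
      exact ⟨_, this⟩
    rw [canon_eq_zero h, canon_eq_zero h', smul_zero]

/-- the union of the supports of the canonical divisors of the classes in `T`. -/
def canonSupp (T : Set (Pic0 k F)) (B : Divisor k F) (Q₀ : Place k F) : Set (Place k F) :=
  {Q | ∃ t ∈ T, Q ∈ (canon t B Q₀).support}

theorem canonSupp_finite {T : Set (Pic0 k F)} (hT : T.Finite) (B : Divisor k F)
    (Q₀ : Place k F) : (canonSupp T B Q₀).Finite := by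
  have e : canonSupp T B Q₀ = ⋃ t ∈ T, ((canon t B Q₀).support : Set (Place k F)) := by
    ext Q
    simp only [canonSupp, Set.mem_ofPred_eq, Set.mem_iUnion, Finset.mem_coe, exists_prop]
  rw [e]
  exact hT.biUnion fun t _ => Finset.finite_toSet _

theorem smul_mem_canonSupp [HasPrincipalDivisors k F] (hdeg : ∀ Q : Place k F, Q.deg = 1)
    (g : SemilinearAut k F) {B : Divisor k F} {Q₀ : Place k F} (hB : g • B = B)
    (hQ₀ : g • Q₀ = Q₀) {T : Set (Pic0 k F)} (hT : ∀ t ∈ T, g • t ∈ T) {Q : Place k F}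
    (hQ : Q ∈ canonSupp T B Q₀) : g • Q ∈ canonSupp T B Q₀ := by
  obtain ⟨t, ht, hQt⟩ := hQ
  refine ⟨g • t, hT t ht, ?_⟩
  rw [Finsupp.mem_support_iff] at hQt ⊢
  rw [← smul_canon hdeg g hB hQ₀, SemilinearAut.divisor_smul_apply_smul]
  exact hQt

/-- the set of values of `x` at the places in `Z`. -/
def valueSet (Z : Set (Place k F)) (x : F) : Set k := {y | ∃ Q ∈ Z, HasValueAt Q x y}

theorem valueSet_finite {Z : Set (Place k F)} (hZ : Z.Finite) (x : F) :
    (valueSet Z x).Finite := by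
  refine (hZ.image (fun Q => valueAt Q x)).subset ?_
  rintro y ⟨Q, hQ, hy⟩
  exact ⟨Q, hQ, hy.valueAt_eq⟩

theorem baseAut_mem_valueSet (g : SemilinearAut k F) {Z : Set (Place k F)}
    (hZ : ∀ Q ∈ Z, g • Q ∈ Z) {x : F} (hx : g • x = x) {y : k} (hy : y ∈ valueSet Z x) :
    SemilinearAut.baseAut g y ∈ valueSet Z x := by
  obtain ⟨Q, hQ, hy⟩ := hy
  refine ⟨g • Q, hZ Q hQ, ?_⟩
  have := hy.smul g
  rwa [hx] at this

end Equivariance

end Fermat.Agent.GR
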