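/-
Stage (I), package K5 DESC — helper3.
Automorphisms of an algebraically closed field `L` over a subfield `K`: a transcendental element
can be moved (`y ↦ y + 1`), hence a finite `Aut(L/K)`-stable subset of `L` consists of elements
algebraic over `K`.
-/
import Mathlib

set_option autoImplicit false
set_option linter.style.haveILetI false
set_option linter.unusedSectionVars false

open MvPolynomial

namespace Fermat.Agent.GR

section Aut

variable {K L : Type*} [Field K] [Field L] [Algebra K L] [IsAlgClosed L]

/-- the translation automorphism `X_{i₀} ↦ X_{i₀} + 1` of a polynomial ring. -/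
noncomputable def translateAlgEquiv {ι : Type*} [DecidableEq ι] (i₀ : ι) :
    MvPolynomial ι K ≃ₐ[K] MvPolynomial ι K :=
  AlgEquiv.ofAlgHom
    (aeval fun i => if i = i₀ then X i + 1 else X i)
    (aeval fun i => if i = i₀ then X i - 1 else X i)
    (by
      apply MvPolynomial.algHom_ext
      intro i
      simp only [AlgHom.comp_apply, aeval_X, AlgHom.id_apply]
      by_cases hi : i = i₀
      · rw [if_pos hi, map_sub, aeval_X, if_pos hi, map_one]; ring
      · rw [if_neg hi, aeval_X, if_neg hi])
    (by
      apply MvPolynomial.algHom_ext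
      intro i
      simp only [AlgHom.comp_apply, aeval_X, AlgHom.id_apply]
      by_cases hi : i = i₀
      · rw [if_pos hi, map_add, aeval_X, if_pos hi, map_one]; ring
      · rw [if_neg hi, aeval_X, if_neg hi])

theorem translateAlgEquiv_X_self {ι : Type*} [DecidableEq ι] (i₀ : ι) :
    translateAlgEquiv (K := K) i₀ (X i₀) = X i₀ + 1 := by
  rw [translateAlgEquiv, AlgEquiv.ofAlgHom_apply, aeval_X, if_pos rfl]

/-- **moving a transcendental element**. -/
theorem exists_algEquiv_apply_eq_add_one (y : L) (hy : Transcendental K y) :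
    ∃ σ : L ≃ₐ[K] L, σ y = y + 1 := by
  classical
  have hs : AlgebraicIndepOn K id ({y} : Set L) := by
    show AlgebraicIndependent K (fun x : ({y} : Set L) => id (x : L))
    haveI : Unique ({y} : Set L) := Set.uniqueSingleton y
    rw [algebraicIndependent_unique_type_iff]
    have hd : ((default : ({y} : Set L)) : L) = y := Set.mem_singleton_iff.mp (default : ({y} : Set L)).2
    show Transcendental K ((default : ({y} : Set L)) : L)
    rw [hd]
    exact hy
  obtain ⟨t, hyt, ht⟩ := exists_isTranscendenceBasis_superset hs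
  set v : t → L := (↑) with hv
  set i₀ : t := ⟨y, hyt (Set.mem_singleton y)⟩ with hi₀
  haveI := IsAlgClosed.isAlgClosure_of_transcendence_basis v ht
  set e : ↥(Algebra.adjoin K (Set.range v)) ≃ₐ[K] ↥(Algebra.adjoin K (Set.range v)) :=
    (ht.1.aevalEquiv.symm.trans (translateAlgEquiv i₀)).trans ht.1.aevalEquiv with he
  set σ₀ : L ≃+* L := IsAlgClosure.equivOfEquiv L L e.toRingEquiv with hσ₀
  have hσ₀map : ∀ a : ↥(Algebra.adjoin K (Set.range v)),
      σ₀ (algebraMap ↥(Algebra.adjoin K (Set.range v)) L a) =
        algebraMap ↥(Algebra.adjoin K (Set.range v)) L (e a) := fun a =>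
    IsAlgClosure.equivOfEquiv_algebraMap L L e.toRingEquiv a
  have hcomm : ∀ c : K, σ₀ (algebraMap K L c) = algebraMap K L c := by
    intro c
    have h1 : algebraMap K L c = algebraMap ↥(Algebra.adjoin K (Set.range v)) L
        (algebraMap K ↥(Algebra.adjoin K (Set.range v)) c) := rfl
    rw [h1, hσ₀map, e.commutes]
  refine ⟨{ σ₀ with commutes' := hcomm }, ?_⟩
  show σ₀ y = y + 1
  have hy1 : y = algebraMap ↥(Algebra.adjoin K (Set.range v)) L (ht.1.aevalEquiv (X i₀)) := by
    rw [AlgebraicIndependent.algebraMap_aevalEquiv, aeval_X]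
  conv_lhs => rw [hy1]
  rw [hσ₀map]
  have h2 : e (ht.1.aevalEquiv (X i₀)) = ht.1.aevalEquiv (X i₀ + 1) := by
    rw [he, AlgEquiv.trans_apply, AlgEquiv.trans_apply, AlgEquiv.symm_apply_apply,
      translateAlgEquiv_X_self]
  rw [h2, AlgebraicIndependent.algebraMap_aevalEquiv, map_add, aeval_X, map_one]

/-- a finite subset of `L` stable under `Aut(L/K)` consists of algebraic elements
(characteristic zero). -/
theorem isAlgebraic_of_finite_of_stable [CharZero L] (Y : Set L) (hfin : Y.Finite)
    (hst : ∀ σ : L ≃ₐ[K] L, ∀ y ∈ Y, σ y ∈ Y) {y : L} (hy : y ∈ Y) : IsAlgebraic K y := by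
  by_contra htr
  obtain ⟨σ, hσ⟩ := exists_algEquiv_apply_eq_add_one y htr
  have hpow : ∀ n : ℕ, (σ ^ n) y = y + n := by
    intro n
    induction n with
    | zero => simp
    | succ n ih =>
      rw [pow_succ', AlgEquiv.mul_apply, ih, map_add, hσ, map_natCast]
      push_cast
      ring
  have hmem : ∀ n : ℕ, y + (n : L) ∈ Y := fun n => by
    rw [← hpow n]
    exact hst _ y hy
  have hinj : Function.Injective (fun n : ℕ => y + (n : L)) := by
    intro n m hnm
    have : (n : L) = (m : L) := add_left_cancel hnm
    exact_mod_cast this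
  exact Set.infinite_of_injective_forall_mem hinj hmem hfin

/-- an element fixed by `Aut(L/K)` is algebraic over `K`. -/
theorem isAlgebraic_of_forall_fixed [CharZero L] (y : L) (hfix : ∀ σ : L ≃ₐ[K] L, σ y = y) :
    IsAlgebraic K y :=
  isAlgebraic_of_finite_of_stable {y} (Set.finite_singleton y)
    (fun σ z hz => by rw [Set.mem_singleton_iff.mp hz, hfix σ]; exact Set.mem_singleton y)
    (Set.mem_singleton y)

/-- over an algebraically closed `K` an algebraic element is a constant. -/
theorem mem_range_of_isAlgebraic [IsAlgClosed K] {y : L} (hy : IsAlgebraic K y) :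
    y ∈ Set.range (algebraMap K L) := by
  have hint : IsIntegral K y := hy.isIntegral
  obtain ⟨c, hc⟩ := IsAlgClosed.exists_root (minpoly K y)
    (by
      have := minpoly.degree_pos hint
      exact this.ne')
  -- `minpoly` is irreducible with a root `c`, so `minpoly = X - C c`
  have hirr := minpoly.irreducible hint
  have hdvd : Polynomial.X - Polynomial.C c ∣ minpoly K y :=
    Polynomial.dvd_iff_isRoot.mpr hc
  obtain ⟨q, hq⟩ := hdvd
  have hu : IsUnit q := by
    rcases hirr.isUnit_or_isUnit hq with h | h
    · exact absurd h (Polynomial.not_isUnit_X_sub_C c)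
    · exact h
  have h0 : Polynomial.aeval y (minpoly K y) = 0 := minpoly.aeval K y
  rw [hq, map_mul] at h0
  obtain ⟨a, ha, haq⟩ := Polynomial.isUnit_iff.mp hu
  rw [← haq, Polynomial.aeval_C] at h0
  have ha0 : algebraMap K L a ≠ 0 := by
    rw [Ne, map_eq_zero]
    exact ha.ne_zero
  have h1 : Polynomial.aeval y (Polynomial.X - Polynomial.C c) = 0 :=
    (mul_eq_zero.mp h0).resolve_right ha0
  rw [map_sub, Polynomial.aeval_X, Polynomial.aeval_C, sub_eq_zero] at h1
  exact ⟨c, h1.symm⟩

end Aut

end Fermat.Agent.GR
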