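/-
Stage (I), package K5 DESC — helper3.
Extension of places along a constant field extension `FL = L·FK` (abstract setting of
`DESC_helper3_Psi`): a place `P` of `FK / K` with residue field `K` has a unique extension to
`FL / L`, with ramification index one.
-/
import Mathlib
import Fermat.Agent.GR.DESC_helper3_Psi
import Fermat.Agent.JA.BC_helper9_Dvr
import Fermat.Agent.FF.PlaceBasic

set_option autoImplicit false
set_option linter.style.haveILetI false
set_option linter.unusedSectionVars false

open Module AlgebraicCurve

namespace Fermat.Agent.GR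

open Fermat.Agent.FF Fermat.Agent.JA

section Ext

variable {K L FK FL : Type*} [Field K] [Field L] [Algebra K L] [Field FK] [Field FL]
  [Algebra K FK] [Algebra L FL] [Algebra FK FL] [Algebra K FL] [IsScalarTower K FK FL]
  [IsScalarTower K L FL]

/-- every element of the valuation ring of `P` has a value in `K` (the residue field is `K`). -/
def HasValues (P : Place K FK) : Prop :=
  ∀ x : FK, x ∈ P.toValuationSubring →
    ∃ c : K, x = algebraMap K FK c ∨ 0 < P.ord (x - algebraMap K FK c)

/-- the valuation subring `W` of `FL` contains `L`, the image of the valuation ring of `P`, and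
the image of the maximal ideal of `P` consists of non-units. -/
structure LiesOverPlace (W : ValuationSubring FL) (P : Place K FK) : Prop where
  const_mem : ∀ l : L, algebraMap L FL l ∈ W
  map_mem : ∀ x : FK, x ∈ P.toValuationSubring → algebraMap FK FL x ∈ W
  map_nonunit : ∀ x : FK, x ≠ 0 → 0 < P.ord x → W.valuation (algebraMap FK FL x) < 1

variable (P : Place K FK)

/-- the minimum of the orders of the coordinates. -/
noncomputable def minOrd (x : CIdx K L →₀ FK) : ℤ :=
  if h : x.support.Nonempty then x.support.inf' h (fun i => P.ord (x i)) else 0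

theorem minOrd_le {x : CIdx K L →₀ FK} {i : CIdx K L} (hi : i ∈ x.support) :
    minOrd P x ≤ P.ord (x i) := by
  have h : x.support.Nonempty := ⟨i, hi⟩
  rw [minOrd, dif_pos h]
  exact Finset.inf'_le _ hi

theorem exists_minOrd_eq {x : CIdx K L →₀ FK} (hx : x ≠ 0) :
    ∃ i ∈ x.support, P.ord (x i) = minOrd P x := by
  have h : x.support.Nonempty := Finsupp.support_nonempty_iff.mpr hx
  rw [minOrd, dif_pos h]
  obtain ⟨i, hi, h2⟩ := Finset.exists_mem_eq_inf' h (fun i => P.ord (x i))
  exact ⟨i, hi, h2.symm⟩

/-- a choice of values. -/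
noncomputable def valK (hval : HasValues P) (x : FK) : K := by
  classical
  exact if hx : x ∈ P.toValuationSubring then Classical.choose (hval x hx) else 0

theorem valK_spec (hval : HasValues P) {x : FK} (hx : x ∈ P.toValuationSubring) :
    x = algebraMap K FK (valK P hval x) ∨ 0 < P.ord (x - algebraMap K FK (valK P hval x)) := by
  classical
  rw [valK, dif_pos hx]
  exact Classical.choose_spec (hval x hx)

theorem valK_eq_zero_iff (hval : HasValues P) {x : FK} (hx : x ∈ P.toValuationSubring) :
    valK P hval x = 0 ↔ x = 0 ∨ 0 < P.ord x := by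
  constructor
  · intro h
    have := valK_spec P hval hx
    rw [h, map_zero, sub_zero] at this
    exact this
  · intro h
    by_contra hc
    have h0 : P.ord (algebraMap K FK (valK P hval x)) = 0 := PlaceAux.ord_algebraMap P _
    have hc' : algebraMap K FK (valK P hval x) ≠ 0 := by
      rwa [Ne, map_eq_zero]
    rcases h with rfl | h
    · rcases valK_spec P hval hx with h1 | h1
      · exact hc' h1.symm
      · rw [zero_sub, ← map_neg, PlaceAux.ord_algebraMap] at h1
        exact lt_irrefl _ h1
    · rcases valK_spec P hval hx with h1 | h1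
      · rw [← h1] at h0
        omega
      · -- `ord x > 0`, `ord c = 0` so `ord (x - c) = 0`
        have hx0 : x ≠ 0 := by
          rintro rfl
          rw [P.ord_zero] at h
          exact lt_irrefl _ h
        have hneg : -algebraMap K FK (valK P hval x) ≠ 0 := neg_ne_zero.mpr hc'
        have hordneg : P.ord (-algebraMap K FK (valK P hval x)) = 0 := by
          rw [← map_neg]
          exact PlaceAux.ord_algebraMap P _
        have h2 : P.ord (-algebraMap K FK (valK P hval x) + x) = 0 := by
          rw [PlaceAux.ord_add_eq_of_lt P hneg hx0 (by rw [hordneg]; exact h), hordneg]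
        rw [sub_eq_add_neg, add_comm] at h1
        omega

theorem valK_zero (hval : HasValues P) : valK P hval 0 = 0 :=
  (valK_eq_zero_iff P hval (P.toValuationSubring.zero_mem)).mpr (Or.inl rfl)

variable {P}

theorem psi_mem_of_forall_mem {W : ValuationSubring FL} (hW : LiesOverPlace (L := L) W P)
    (z : CIdx K L →₀ FK) (hz : ∀ i, z i ∈ P.toValuationSubring) : psi K L FK FL z ∈ W := by
  rw [psi_apply]
  exact W.toSubring.sum_mem fun i _ => W.mul_mem _ _ (hW.map_mem _ (hz i)) (hW.const_mem _)

/-- **Lemma B**: integral coordinates, one of them a unit: the value is one. -/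
theorem valuation_psi_eq_one (hval : HasValues P) {W : ValuationSubring FL}
    (hW : LiesOverPlace (L := L) W P) {τ : FK} (hτ : P.ord τ = 1)
    (y : CIdx K L →₀ FK) (hy : ∀ i, y i ∈ P.toValuationSubring)
    (hy0 : ∃ i, y i ≠ 0 ∧ P.ord (y i) = 0) : W.valuation (psi K L FK FL y) = 1 := by
  have hτ0 : τ ≠ 0 := by
    rintro rfl
    rw [P.ord_zero] at hτ
    exact zero_ne_one hτ
  -- the constant part and the remainder
  set c : CIdx K L →₀ K := y.mapRange (valK P hval) (valK_zero P hval) with hc
  set z : CIdx K L →₀ FK :=
    y.mapRange (fun a => (a - algebraMap K FK (valK P hval a)) * τ⁻¹)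
      (by rw [valK_zero, map_zero, sub_zero, zero_mul]) with hz
  set lam : L := Finsupp.linearCombination K (fun i : CIdx K L => (i : L)) c with hlam
  have hzmem : ∀ i, z i ∈ P.toValuationSubring := by
    intro i
    rw [hz, Finsupp.mapRange_apply]
    rcases valK_spec P hval (hy i) with h1 | h1
    · rw [← h1, sub_self, zero_mul]
      exact P.toValuationSubring.zero_mem
    · have hne : y i - algebraMap K FK (valK P hval (y i)) ≠ 0 := by
        intro h0
        rw [h0, P.ord_zero] at h1
        exact lt_irrefl _ h1
      rw [PlaceAux.mem_iff_ord_nonneg' P (mul_ne_zero hne (inv_ne_zero hτ0)),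
        P.ord_mul hne (inv_ne_zero hτ0), P.ord_inv, hτ]
      omega
  have hdecomp : y = c.mapRange (algebraMap K FK) (map_zero _) + τ • z := by
    ext i
    rw [Finsupp.add_apply, Finsupp.mapRange_apply, Finsupp.smul_apply, hc, hz,
      Finsupp.mapRange_apply, Finsupp.mapRange_apply, smul_eq_mul]
    field_simp
    ring
  have hconst : psi K L FK FL (c.mapRange (algebraMap K FK) (map_zero _)) =
      algebraMap L FL lam := by
    rw [psi_apply, Finsupp.sum_mapRange_index (by intro i; rw [map_zero, zero_mul]), hlam,
      Finsupp.linearCombination_apply, Finsupp.sum, Finsupp.sum, map_sum]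
    refine Finset.sum_congr rfl fun i _ => ?_
    rw [Algebra.smul_def, map_mul, ← IsScalarTower.algebraMap_apply K FK FL,
      ← IsScalarTower.algebraMap_apply K L FL]
  have hlam0 : lam ≠ 0 := by
    intro h0
    have hli := Basis.ofVectorSpaceIndex.linearIndependent K L
    have hc0 : c = 0 := (linearIndependent_iff.mp hli) c h0
    obtain ⟨i, hi0, hi⟩ := hy0
    have : valK P hval (y i) = 0 := by
      have := congrArg (fun f => f i) hc0
      simpa [hc, Finsupp.mapRange_apply] using this
    rcases (valK_eq_zero_iff P hval (hy i)).mp this with h | h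
    · exact hi0 h
    · omega
  have hpsi : psi K L FK FL y = algebraMap L FL lam + algebraMap FK FL τ * psi K L FK FL z := by
    conv_lhs => rw [hdecomp]
    rw [map_add, hconst, LinearMap.map_smul, Algebra.smul_def]
  have hv1 : W.valuation (algebraMap L FL lam) = 1 := by
    have h1 : W.valuation (algebraMap L FL lam) ≤ 1 :=
      (W.valuation_le_one_iff _).mpr (hW.const_mem lam)
    have h2 : W.valuation (algebraMap L FL lam⁻¹) ≤ 1 :=
      (W.valuation_le_one_iff _).mpr (hW.const_mem lam⁻¹)
    rw [map_inv₀, map_inv₀] at h2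
    have hne : W.valuation (algebraMap L FL lam) ≠ 0 := by
      rw [Ne, map_eq_zero, map_eq_zero]
      exact hlam0
    have h3 : 1 ≤ W.valuation (algebraMap L FL lam) := by
      rwa [inv_le_one₀ (zero_lt_iff.mpr hne)] at h2
    exact le_antisymm h1 h3
  have hv2 : W.valuation (algebraMap FK FL τ * psi K L FK FL z) < 1 := by
    rw [map_mul]
    have h1 := hW.map_nonunit τ hτ0 (by rw [hτ]; exact one_pos)
    have h2 : W.valuation (psi K L FK FL z) ≤ 1 :=
      (W.valuation_le_one_iff _).mpr (psi_mem_of_forall_mem hW z hzmem)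
    calc W.valuation (algebraMap FK FL τ) * W.valuation (psi K L FK FL z)
        ≤ W.valuation (algebraMap FK FL τ) * 1 := by gcongr
      _ < 1 := by rwa [mul_one]
  rw [hpsi, Valuation.map_add_eq_of_lt_left _ (by rw [hv1]; exact hv2), hv1]

/-- **Lemma A**: the value of `psi x` is the `minOrd`-th power of the value of a uniformizer. -/
theorem valuation_psi (hval : HasValues P) {W : ValuationSubring FL}
    (hW : LiesOverPlace (L := L) W P) {τ : FK} (hτ : P.ord τ = 1)
    (x : CIdx K L →₀ FK) (hx : x ≠ 0) :
    W.valuation (psi K L FK FL x) = W.valuation (algebraMap FK FL τ) ^ (minOrd P x) := by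
  have hτ0 : τ ≠ 0 := by
    rintro rfl
    rw [P.ord_zero] at hτ
    exact zero_ne_one hτ
  set n := minOrd P x with hn
  set y : CIdx K L →₀ FK := x.mapRange (fun a => a * (τ ^ n)⁻¹) (zero_mul _) with hy
  have hxy : x = (τ ^ n) • y := by
    ext i
    rw [Finsupp.smul_apply, hy, Finsupp.mapRange_apply, smul_eq_mul]
    field_simp
  have hymem : ∀ i, y i ∈ P.toValuationSubring := by
    intro i
    rw [hy, Finsupp.mapRange_apply]
    by_cases hi : i ∈ x.support
    · have hxi : x i ≠ 0 := Finsupp.mem_support_iff.mp hi
      rw [PlaceAux.mem_iff_ord_nonneg' P (mul_ne_zero hxi (inv_ne_zero (zpow_ne_zero _ hτ0))),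
        P.ord_mul hxi (inv_ne_zero (zpow_ne_zero _ hτ0)), P.ord_inv, P.ord_zpow, hτ, mul_one]
      have := minOrd_le (L := L) P hi
      omega
    · rw [Finsupp.notMem_support_iff.mp hi, zero_mul]
      exact P.toValuationSubring.zero_mem
  have hy0 : ∃ i, y i ≠ 0 ∧ P.ord (y i) = 0 := by
    obtain ⟨i, hi, hi2⟩ := exists_minOrd_eq (L := L) P hx
    have hxi : x i ≠ 0 := Finsupp.mem_support_iff.mp hi
    refine ⟨i, ?_, ?_⟩
    · rw [hy, Finsupp.mapRange_apply]
      exact mul_ne_zero hxi (inv_ne_zero (zpow_ne_zero _ hτ0))
    · rw [hy, Finsupp.mapRange_apply, P.ord_mul hxi (inv_ne_zero (zpow_ne_zero _ hτ0)),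
        P.ord_inv, P.ord_zpow, hτ, mul_one, hi2]
      omega
  conv_lhs => rw [hxy]
  rw [LinearMap.map_smul, Algebra.smul_def, map_mul, valuation_psi_eq_one hval hW hτ y hymem hy0,
    mul_one, map_zpow₀, map_zpow₀]

end Ext

end Fermat.Agent.GR
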