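/-
Stage (I), package K5 DESC — helper3.
Existence (Chevalley) and uniqueness of the extension of a place with residue field `K` along a
constant field extension `FL = L·FK`; the extension is a place of `FL / L` with the same orders.
-/
import Mathlib
import Fermat.Agent.GR.DESC_helper3_Ext

set_option autoImplicit false
set_option linter.style.haveILetI false
set_option linter.unusedSectionVars false

open Module AlgebraicCurve

namespace Fermat.Agent.GR

open Fermat.Agent.FF Fermat.Agent.JA

section PlaceExt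

variable {K L FK FL : Type*} [Field K] [Field L] [Algebra K L] [Field FK] [Field FL]
  [Algebra K FK] [Algebra L FL] [Algebra FK FL] [Algebra K FL] [IsScalarTower K FK FL]
  [IsScalarTower K L FL]

variable (L) in
/-- the elements of `FL` with coordinates in the valuation ring of `P`. -/
def intSet (P : Place K FK) : Set FL :=
  {s | ∃ z : CIdx K L →₀ FK, (∀ i, z i ∈ P.toValuationSubring) ∧ psi K L FK FL z = s}

variable (P : Place K FK)

theorem algebraMap_mem_intSet (l : L) : algebraMap L FL l ∈ intSet L P := by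
  refine ⟨coordsMul 1 l, fun i => ?_, by rw [psi_coordsMul, map_one, one_mul]⟩
  rw [coordsMul_apply, mul_one]
  exact P.algebraMap_mem' _

theorem map_mem_intSet {x : FK} (hx : x ∈ P.toValuationSubring) :
    algebraMap FK FL x ∈ intSet L P := by
  refine ⟨coordsMul x 1, fun i => ?_, by rw [psi_coordsMul, map_one, mul_one]⟩
  rw [coordsMul_apply]
  exact P.toValuationSubring.mul_mem _ _ (P.algebraMap_mem' _) hx

theorem intSet_eq_span :
    letI : Algebra ↥P.toValuationSubring FL :=
      ((algebraMap FK FL).comp P.toValuationSubring.subtype).toAlgebra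
    intSet L P =
      (Submodule.span ↥P.toValuationSubring (Set.range (algebraMap L FL)) : Set FL) := by
  letI alg : Algebra ↥P.toValuationSubring FL :=
    ((algebraMap FK FL).comp P.toValuationSubring.subtype).toAlgebra
  have hsmul : ∀ (v : ↥P.toValuationSubring) (y : FL), v • y = algebraMap FK FL (v : FK) * y :=
    fun v y => by rw [Algebra.smul_def]; rfl
  ext s
  constructor
  · rintro ⟨z, hz, rfl⟩
    rw [psi_apply]
    refine Submodule.sum_mem _ fun i _ => ?_
    have : algebraMap FK FL (z i) * algebraMap L FL (i : L) =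
        (⟨z i, hz i⟩ : ↥P.toValuationSubring) • algebraMap L FL (i : L) := by rw [hsmul]
    show algebraMap FK FL (z i) * algebraMap L FL (i : L) ∈ _
    rw [this]
    exact Submodule.smul_mem _ _ (Submodule.subset_span ⟨_, rfl⟩)
  · intro hs
    induction hs using Submodule.span_induction with
    | mem x hx =>
      obtain ⟨l, rfl⟩ := hx
      exact algebraMap_mem_intSet P l
    | zero => exact ⟨0, fun i => P.toValuationSubring.zero_mem, map_zero _⟩
    | add x y _ _ hx hy =>
      obtain ⟨z, hz, rfl⟩ := hx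
      obtain ⟨z', hz', rfl⟩ := hy
      exact ⟨z + z', fun i => P.toValuationSubring.add_mem _ _ (hz i) (hz' i), map_add _ _ _⟩
    | smul v x _ hx =>
      obtain ⟨z, hz, rfl⟩ := hx
      refine ⟨(v : FK) • z, fun i => ?_, ?_⟩
      · rw [Finsupp.smul_apply, smul_eq_mul]
        exact P.toValuationSubring.mul_mem _ _ v.2 (hz i)
      · rw [LinearMap.map_smul, hsmul, Algebra.smul_def]

theorem mul_mem_intSet {a b : FL} (ha : a ∈ intSet L P) (hb : b ∈ intSet L P) :
    a * b ∈ intSet L P := by
  letI alg : Algebra ↥P.toValuationSubring FL :=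
    ((algebraMap FK FL).comp P.toValuationSubring.subtype).toAlgebra
  have key := intSet_eq_span (L := L) (FL := FL) P
  rw [key] at ha hb ⊢
  have h := Submodule.mul_mem_mul ha hb
  rw [Submodule.span_mul_span] at h
  refine Submodule.span_mono ?_ h
  rintro _ ⟨_, ⟨l, rfl⟩, _, ⟨l', rfl⟩, rfl⟩
  exact ⟨l * l', map_mul _ _ _⟩

variable (L) in
/-- the subring of `FL` generated by `L` and the valuation ring of `P`. -/
def intRing : Subring FL where
  carrier := intSet L P
  mul_mem' ha hb := mul_mem_intSet P ha hb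
  one_mem' := by
    have := algebraMap_mem_intSet (L := L) (FL := FL) P 1
    rwa [map_one] at this
  add_mem' := by
    rintro _ _ ⟨z, hz, rfl⟩ ⟨z', hz', rfl⟩
    exact ⟨z + z', fun i => P.toValuationSubring.add_mem _ _ (hz i) (hz' i), map_add _ _ _⟩
  zero_mem' := ⟨0, fun i => P.toValuationSubring.zero_mem, map_zero _⟩
  neg_mem' := by
    rintro _ ⟨z, hz, rfl⟩
    exact ⟨-z, fun i => P.toValuationSubring.neg_mem _ (hz i), map_neg _ _⟩

theorem mem_intRing_iff {s : FL} : s ∈ intRing L P ↔ s ∈ intSet L P := Iff.rfl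

variable {P}

/-- the image of a uniformizer is not a unit of `intRing`. -/
theorem IsConstExt.not_isUnit_map (h : IsConstExt K L FK FL) {τ : FK} (hτ : P.ord τ = 1)
    (hτmem : algebraMap FK FL τ ∈ intRing L P) :
    ¬ IsUnit (⟨algebraMap FK FL τ, hτmem⟩ : ↥(intRing L P)) := by
  have hτ0 : τ ≠ 0 := by
    rintro rfl
    rw [P.ord_zero] at hτ
    exact zero_ne_one hτ
  intro hu
  obtain ⟨⟨s, hs⟩, hus⟩ := isUnit_iff_exists_inv.mp hu
  obtain ⟨z, hz, rfl⟩ := hs
  have h1 : algebraMap FK FL τ * psi K L FK FL z = 1 := congrArg Subtype.val hus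
  have h2 : psi K L FK FL (τ • z) = psi K L FK FL (coordsMul 1 (1 : L)) := by
    rw [LinearMap.map_smul, Algebra.smul_def, h1, psi_coordsMul, map_one, map_one, mul_one]
  have h3 := h.psi_injective h2
  -- some coordinate of `1` is nonzero
  have hrepr : (Basis.ofVectorSpace K L).repr (1 : L) ≠ 0 := by
    rw [Ne, LinearEquiv.map_eq_zero_iff]
    exact one_ne_zero
  obtain ⟨i, hi⟩ := Finsupp.ne_iff.mp hrepr
  rw [Finsupp.zero_apply] at hi
  have h4 := congrArg (fun f => f i) h3
  simp only [Finsupp.smul_apply, smul_eq_mul, coordsMul_apply, mul_one] at h4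
  have hc0 : algebraMap K FK ((Basis.ofVectorSpace K L).repr (1 : L) i) ≠ 0 := by
    rwa [Ne, map_eq_zero]
  have hzi : z i ≠ 0 := by
    intro h0
    rw [h0, mul_zero] at h4
    exact hc0 h4.symm
  have h5 : P.ord (τ * z i) = 0 := by
    rw [h4]
    exact PlaceAux.ord_algebraMap P _
  rw [P.ord_mul hτ0 hzi, hτ] at h5
  have h6 : 0 ≤ P.ord (z i) := PlaceAux.ord_nonneg_of_mem P (hz i)
  omega

/-- **existence** (Chevalley): a valuation subring of `FL` lying over `P`. -/
theorem IsConstExt.exists_liesOverPlace (h : IsConstExt K L FK FL) (P : Place K FK) :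
    ∃ W : ValuationSubring FL, LiesOverPlace (L := L) W P := by
  obtain ⟨τ', hτ'⟩ := IsDiscreteValuationRing.exists_irreducible ↥P.toValuationSubring
  set τ : FK := (τ' : FK) with hτdef
  have hτ : P.ord τ = 1 := P.ord_coe_irreducible hτ'
  have hτ0 : τ ≠ 0 := by
    rintro h0
    rw [h0, P.ord_zero] at hτ
    exact zero_ne_one hτ
  have hτmem : algebraMap FK FL τ ∈ intRing L P := map_mem_intSet P τ'.2
  have hI : Ideal.span {(⟨algebraMap FK FL τ, hτmem⟩ : ↥(intRing L P))} ≠ ⊤ := by
    rw [Ne, Ideal.span_singleton_eq_top]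
    exact h.not_isUnit_map hτ hτmem
  obtain ⟨W, hle, hnon⟩ := Ideal.image_subset_nonunits_valuationSubring _ hI
  have hτW : W.valuation (algebraMap FK FL τ) < 1 := by
    have : algebraMap FK FL τ ∈ W.nonunits :=
      hnon ⟨⟨algebraMap FK FL τ, hτmem⟩, Ideal.subset_span rfl, rfl⟩
    exact (ValuationSubring.mem_nonunits_iff W).mp this
  refine ⟨W, fun l => hle (algebraMap_mem_intSet P l), fun x hx => hle (map_mem_intSet P hx),
    fun x hx0 hx => ?_⟩
  -- `x = τ · (x / τ)`
  have hxτ : x * τ⁻¹ ∈ P.toValuationSubring := by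
    rw [PlaceAux.mem_iff_ord_nonneg' P (mul_ne_zero hx0 (inv_ne_zero hτ0)),
      P.ord_mul hx0 (inv_ne_zero hτ0), P.ord_inv, hτ]
    omega
  have h1 : W.valuation (algebraMap FK FL (x * τ⁻¹)) ≤ 1 :=
    (W.valuation_le_one_iff _).mpr (hle (map_mem_intSet P hxτ))
  have h2 : algebraMap FK FL x = algebraMap FK FL τ * algebraMap FK FL (x * τ⁻¹) := by
    rw [← map_mul]
    congr 1
    field_simp
  rw [h2, map_mul]
  calc W.valuation (algebraMap FK FL τ) * W.valuation (algebraMap FK FL (x * τ⁻¹))
      ≤ W.valuation (algebraMap FK FL τ) * 1 := by gcongr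
    _ < 1 := by rwa [mul_one]

/-- the value of an arbitrary element of `FL` under a valuation subring lying over `P`. -/
theorem IsConstExt.valuation_eq (_h : IsConstExt K L FK FL) (hval : HasValues P)
    {W : ValuationSubring FL} (hW : LiesOverPlace (L := L) W P) {τ : FK} (hτ : P.ord τ = 1)
    {z : FL} {a b : CIdx K L →₀ FK} (ha : a ≠ 0) (hb : b ≠ 0)
    (hab : z * psi K L FK FL b = psi K L FK FL a) :
    W.valuation z = W.valuation (algebraMap FK FL τ) ^ (minOrd P a - minOrd P b) := by
  have hτ0 : τ ≠ 0 := by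
    rintro rfl
    rw [P.ord_zero] at hτ
    exact zero_ne_one hτ
  have hφτ : W.valuation (algebraMap FK FL τ) ≠ 0 := by
    rw [Ne, map_eq_zero, map_eq_zero]
    exact hτ0
  have h1 := congrArg W.valuation hab
  rw [map_mul, valuation_psi hval hW hτ a ha, valuation_psi hval hW hτ b hb] at h1
  rw [zpow_sub₀ hφτ, ← h1, mul_div_assoc, div_self (zpow_ne_zero _ hφτ), mul_one]

/-- **uniqueness** of the valuation subring lying over `P`. -/
theorem IsConstExt.liesOverPlace_unique (h : IsConstExt K L FK FL) (hval : HasValues P)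
    {W W' : ValuationSubring FL} (hW : LiesOverPlace (L := L) W P)
    (hW' : LiesOverPlace (L := L) W' P) : W = W' := by
  obtain ⟨τ', hτ'⟩ := IsDiscreteValuationRing.exists_irreducible ↥P.toValuationSubring
  have hτ : P.ord (τ' : FK) = 1 := P.ord_coe_irreducible hτ'
  have hτ0 : (τ' : FK) ≠ 0 := by
    intro h0
    rw [h0, P.ord_zero] at hτ
    exact zero_ne_one hτ
  have key : ∀ {V : ValuationSubring FL}, LiesOverPlace (L := L) V P → ∀ z : FL,
      z ∈ V ↔ z = 0 ∨ ∃ a b : CIdx K L →₀ FK, a ≠ 0 ∧ b ≠ 0 ∧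
        z * psi K L FK FL b = psi K L FK FL a ∧ 0 ≤ minOrd P a - minOrd P b := by
    intro V hV z
    have hlt : V.valuation (algebraMap FK FL (τ' : FK)) < 1 :=
      hV.map_nonunit _ hτ0 (by rw [hτ]; exact one_pos)
    have hpos : 0 < V.valuation (algebraMap FK FL (τ' : FK)) := by
      rw [zero_lt_iff, Ne, map_eq_zero, map_eq_zero]
      exact hτ0
    constructor
    · intro hz
      by_cases hz0 : z = 0
      · exact Or.inl hz0
      · right
        obtain ⟨a, b, hb, hab⟩ := h.exists_mul_eq z
        have ha : a ≠ 0 := by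
          rintro rfl
          rw [map_zero] at hab
          rcases mul_eq_zero.mp hab with h1 | h1
          · exact hz0 h1
          · exact hb (h.psi_injective (by rw [h1, map_zero]))
        refine ⟨a, b, ha, hb, hab, ?_⟩
        have h1 := h.valuation_eq hval hV hτ ha hb hab
        have h2 : V.valuation z ≤ 1 := (V.valuation_le_one_iff _).mpr hz
        rw [h1] at h2
        exact (zpow_le_one_iff_right_of_lt_one₀ hpos hlt).mp h2
    · rintro (rfl | ⟨a, b, ha, hb, hab, hn⟩)
      · exact V.zero_mem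
      · rw [← V.valuation_le_one_iff, h.valuation_eq hval hV hτ ha hb hab]
        exact (zpow_le_one_iff_right_of_lt_one₀ hpos hlt).mpr hn
  ext z
  rw [key hW, key hW']

/-- a valuation subring lying over `P` is the valuation ring of a place of `FL / L` with the
same orders. -/
theorem IsConstExt.exists_place_of_liesOverPlace (h : IsConstExt K L FK FL) (hval : HasValues P)
    {W : ValuationSubring FL} (hW : LiesOverPlace (L := L) W P) :
    ∃ Q : Place L FL, Q.toValuationSubring = W ∧
      ∀ x : FK, Q.ord (algebraMap FK FL x) = P.ord x := by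
  obtain ⟨τ', hτ'⟩ := IsDiscreteValuationRing.exists_irreducible ↥P.toValuationSubring
  have hτ : P.ord (τ' : FK) = 1 := P.ord_coe_irreducible hτ'
  have hτ0 : (τ' : FK) ≠ 0 := by
    intro h0
    rw [h0, P.ord_zero] at hτ
    exact zero_ne_one hτ
  set ϖ : FL := algebraMap FK FL (τ' : FK) with hϖ
  have hϖ0 : ϖ ≠ 0 := by rw [hϖ, Ne, map_eq_zero]; exact hτ0
  have hϖ1 : W.valuation ϖ < 1 := hW.map_nonunit _ hτ0 (by rw [hτ]; exact one_pos)
  have hgood : ValGood W ϖ ⊤ := by
    intro z _ hz0
    obtain ⟨a, b, hb, hab⟩ := h.exists_mul_eq z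
    have ha : a ≠ 0 := by
      rintro rfl
      rw [map_zero] at hab
      rcases mul_eq_zero.mp hab with h1 | h1
      · exact hz0 h1
      · exact hb (h.psi_injective (by rw [h1, map_zero]))
    exact ⟨_, h.valuation_eq hval hW hτ ha hb hab⟩
  have hdvr : IsDiscreteValuationRing ↥W := isDiscreteValuationRing_of_valGood_top hϖ1 hϖ0 hgood
  have hirr := irreducible_of_valGood_top hϖ1 hϖ0 hgood
  have hpos := valuation_pos (P := W) hϖ0
  let Q : Place L FL :=
    { toValuationSubring := W
      algebraMap_mem' := hW.const_mem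
      ne_top' := by
        intro htop
        have h1 : ϖ⁻¹ ∈ W := by rw [htop]; exact ValuationSubring.mem_top _
        have h2 := (W.valuation_le_one_iff _).2 h1
        rw [map_inv₀, inv_le_one₀ hpos] at h2
        exact absurd hϖ1 (not_lt.2 h2)
      isPrincipalIdealRing' := inferInstance }
  refine ⟨Q, rfl, fun x => ?_⟩
  by_cases hx0 : x = 0
  · rw [hx0, map_zero, Place.ord_zero, Place.ord_zero]
  · obtain ⟨u, hu⟩ := P.exists_unit_mul_zpow hx0 hτ'
    let ψ : ↥P.toValuationSubring →+* ↥W :=
      ((algebraMap FK FL).comp P.toValuationSubring.subtype).codRestrict W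
        (fun y => hW.map_mem _ y.2)
    have h1 : algebraMap FK FL x =
        (((Units.map (ψ : ↥P.toValuationSubring →* ↥W) u : (↥W)ˣ) : ↥W) : FL) *
        (((⟨ϖ, (W.valuation_le_one_iff ϖ).1 hϖ1.le⟩ : ↥W) : FL) ^ (P.ord x)) := by
      conv_lhs => rw [hu]
      rw [map_mul, map_zpow₀]
      rfl
    rw [h1]
    exact Q.ord_unit_smul_zpow (Units.map (ψ : ↥P.toValuationSubring →* ↥W) u) hirr (P.ord x)

/-- **extension of places**: existence. -/
theorem IsConstExt.exists_place_ext (h : IsConstExt K L FK FL) (P : Place K FK)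
    (hval : HasValues P) :
    ∃ Q : Place L FL, ∀ x : FK, Q.ord (algebraMap FK FL x) = P.ord x := by
  obtain ⟨W, hW⟩ := h.exists_liesOverPlace (L := L) P
  obtain ⟨Q, -, hQ⟩ := h.exists_place_of_liesOverPlace hval hW
  exact ⟨Q, hQ⟩

/-- a place of `FL / L` whose orders on `FK` are a positive multiple of those of `P` lies over
`P`. -/
theorem liesOverPlace_of_ord_eq_mul (Q : Place L FL) (e : ℤ) (he : 0 < e)
    (hQ : ∀ x : FK, x ≠ 0 → Q.ord (algebraMap FK FL x) = e * P.ord x) :
    LiesOverPlace (L := L) Q.toValuationSubring P := by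
  refine ⟨Q.algebraMap_mem', fun x hx => ?_, fun x hx0 hx => ?_⟩
  · by_cases hx0 : x = 0
    · rw [hx0, map_zero]; exact Q.toValuationSubring.zero_mem
    · have hφ0 : algebraMap FK FL x ≠ 0 := by rwa [Ne, map_eq_zero]
      rw [PlaceAux.mem_iff_ord_nonneg' Q hφ0, hQ x hx0]
      have := (PlaceAux.mem_iff_ord_nonneg' P hx0).mp hx
      positivity
  · have hφ0 : algebraMap FK FL x ≠ 0 := by rwa [Ne, map_eq_zero]
    have h1 : 0 < Q.ord (algebraMap FK FL x) := by
      rw [hQ x hx0]; positivity
    -- the inverse is not in the valuation ring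
    have h2 : (algebraMap FK FL x)⁻¹ ∉ Q.toValuationSubring := by
      rw [PlaceAux.mem_iff_ord_nonneg' Q (inv_ne_zero hφ0), Q.ord_inv]
      omega
    by_contra h3
    rw [not_lt] at h3
    have h4 : Q.toValuationSubring.valuation (algebraMap FK FL x)⁻¹ ≤ 1 := by
      rw [map_inv₀]
      exact inv_le_one_of_one_le₀ h3
    exact h2 ((Q.toValuationSubring.valuation_le_one_iff _).mp h4)

/-- **extension of places**: uniqueness. -/
theorem IsConstExt.place_ext_unique (h : IsConstExt K L FK FL) (hval : HasValues P)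
    (Q Q' : Place L FL) (e e' : ℤ) (he : 0 < e) (he' : 0 < e')
    (hQ : ∀ x : FK, x ≠ 0 → Q.ord (algebraMap FK FL x) = e * P.ord x)
    (hQ' : ∀ x : FK, x ≠ 0 → Q'.ord (algebraMap FK FL x) = e' * P.ord x) : Q = Q' :=
  Place.ext (h.liesOverPlace_unique hval (liesOverPlace_of_ord_eq_mul Q e he hQ)
    (liesOverPlace_of_ord_eq_mul Q' e' he' hQ'))

end PlaceExt

end Fermat.Agent.GR
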