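/-
Stage (I), package K5 DESC — helper3.
The place extension map `P ↦ P_L`, the dichotomy for the places of `FL / L`, and the conorm map
on divisors and on `Pic⁰` along a constant field extension `FL = L·FK`.
-/
import Mathlib
import Fermat.Agent.GR.DESC_helper3_Place
import Fermat.Agent.FF.OfOrd
import Fermat.Agent.JA.ES_helper4_Value

set_option autoImplicit false
set_option linter.style.haveILetI false
set_option linter.unusedSectionVars false

open Module AlgebraicCurve

namespace Fermat.Agent.GR

open Fermat.Agent.FF Fermat.Agent.JA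

section Conorm

variable {K L FK FL : Type*} [Field K] [Field L] [Algebra K L] [Field FK] [Field FL]
  [Algebra K FK] [Algebra L FL] [Algebra FK FL] [Algebra K FL] [IsScalarTower K FK FL]
  [IsScalarTower K L FL]

theorem hasValues_of_deg_eq_one (P : Place K FK) (hdeg : P.deg = 1) : HasValues P := by
  intro x hx
  obtain ⟨c, hc⟩ := HasValueAt.exists_of_mem hdeg hx
  refine ⟨c, ?_⟩
  rcases HasValueAt.iff_ord.mp hc with h | h
  · exact Or.inl (sub_eq_zero.mp h)
  · exact Or.inr h

variable (h : IsConstExt K L FK FL) (hdeg : ∀ P : Place K FK, P.deg = 1)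

/-- the unique extension of a place of `FK / K` to `FL / L`. -/
noncomputable def placeExt (P : Place K FK) : Place L FL :=
  (h.exists_place_ext P (hasValues_of_deg_eq_one P (hdeg P))).choose

theorem ord_placeExt (P : Place K FK) (x : FK) :
    (placeExt h hdeg P).ord (algebraMap FK FL x) = P.ord x :=
  (h.exists_place_ext P (hasValues_of_deg_eq_one P (hdeg P))).choose_spec x

theorem eq_placeExt_of_ord_eq_mul (P : Place K FK) (Q : Place L FL) (e : ℤ) (he : 0 < e)
    (hQ : ∀ x : FK, x ≠ 0 → Q.ord (algebraMap FK FL x) = e * P.ord x) :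
    Q = placeExt h hdeg P :=
  h.place_ext_unique (hasValues_of_deg_eq_one P (hdeg P)) Q _ e 1 he one_pos hQ
    (fun x _ => by rw [ord_placeExt, one_mul])

theorem placeExt_injective : Function.Injective (placeExt (L := L) (FL := FL) h hdeg) := by
  intro P P' hPP'
  apply Place.ext
  ext x
  by_cases hx0 : x = 0
  · rw [hx0]
    exact ⟨fun _ => P'.toValuationSubring.zero_mem, fun _ => P.toValuationSubring.zero_mem⟩
  · rw [PlaceAux.mem_iff_ord_nonneg' P hx0, PlaceAux.mem_iff_ord_nonneg' P' hx0,
      ← ord_placeExt h hdeg P, ← ord_placeExt h hdeg P', hPP']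

/-- the restriction of the order function of a place of `FL / L` to `FK`. -/
noncomputable def restrictOrdFn (Q : Place L FL)
    (hnt : ∃ x : FK, x ≠ 0 ∧ Q.ord (algebraMap FK FL x) ≠ 0) : OrdFn K FK where
  ord x := Q.ord (algebraMap FK FL x)
  ord_mul {x y} hx hy := by
    rw [map_mul]
    exact Q.ord_mul (by rwa [Ne, map_eq_zero]) (by rwa [Ne, map_eq_zero])
  ord_add {x y} hx hy hxy := by
    rw [map_add]
    have hxy' : algebraMap FK FL x + algebraMap FK FL y ≠ 0 := by
      rw [← map_add, Ne, map_eq_zero]
      exact hxy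
    exact PlaceAux.ord_add_ge Q hxy' (Or.inr (min_le_left _ _)) (Or.inr (min_le_right _ _))
  ord_algebraMap a _ := by
    have h1 : algebraMap FK FL (algebraMap K FK a) = algebraMap L FL (algebraMap K L a) := by
      rw [← IsScalarTower.algebraMap_apply K FK FL, ← IsScalarTower.algebraMap_apply K L FL]
    rw [h1]
    exact PlaceAux.ord_algebraMap Q _
  nontrivial := hnt

/-- **dichotomy**: a place of `FL / L` which is non-trivial on `FK` is the extension of a place of
`FK / K`. -/
theorem exists_eq_placeExt (Q : Place L FL)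
    (hnt : ∃ x : FK, x ≠ 0 ∧ Q.ord (algebraMap FK FL x) ≠ 0) :
    ∃ P : Place K FK, Q = placeExt h hdeg P := by
  obtain ⟨m, hm, hmul⟩ := (restrictOrdFn (K := K) Q hnt).exists_ord_eq_mul
  exact ⟨(restrictOrdFn (K := K) Q hnt).toPlace,
    eq_placeExt_of_ord_eq_mul h hdeg _ Q m hm hmul⟩

theorem ord_map_eq_zero_of_notMem_range (Q : Place L FL)
    (hQ : Q ∉ Set.range (placeExt (L := L) (FL := FL) h hdeg)) (x : FK) :
    Q.ord (algebraMap FK FL x) = 0 := by
  by_contra hne
  have hx0 : x ≠ 0 := by
    rintro rfl
    rw [map_zero, Q.ord_zero] at hne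
    exact hne rfl
  obtain ⟨P, hP⟩ := exists_eq_placeExt h hdeg Q ⟨x, hx0, hne⟩
  exact hQ ⟨P, hP.symm⟩

/-- the conorm of divisors. -/
noncomputable def conorm : Divisor K FK →+ Divisor L FL :=
  Finsupp.mapDomain.addMonoidHom (placeExt (L := L) (FL := FL) h hdeg)

theorem conorm_single (P : Place K FK) (n : ℤ) :
    conorm h hdeg (Finsupp.single P n) = Finsupp.single (placeExt h hdeg P) n := by
  rw [conorm, Finsupp.mapDomain.addMonoidHom_apply, Finsupp.mapDomain_single]

theorem conorm_apply_placeExt (D : Divisor K FK) (P : Place K FK) :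
    conorm h hdeg D (placeExt h hdeg P) = D P := by
  rw [conorm, Finsupp.mapDomain.addMonoidHom_apply]
  exact Finsupp.mapDomain_apply (placeExt_injective h hdeg) D P

theorem conorm_apply_of_notMem_range (D : Divisor K FK) (Q : Place L FL)
    (hQ : Q ∉ Set.range (placeExt (L := L) (FL := FL) h hdeg)) : conorm h hdeg D Q = 0 := by
  rw [conorm, Finsupp.mapDomain.addMonoidHom_apply]
  exact Finsupp.mapDomain_of_notMem_range D Q hQ

theorem conorm_injective : Function.Injective (conorm (L := L) (FL := FL) h hdeg) := by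
  intro D D' hDD'
  ext P
  rw [← conorm_apply_placeExt h hdeg D P, ← conorm_apply_placeExt h hdeg D' P, hDD']

/-- the conorm of the divisor of `f` is the divisor of `f`. -/
theorem conorm_principal (D : Divisor K FK) (f : FK) (hD : ∀ P : Place K FK, D P = P.ord f)
    (Q : Place L FL) : conorm h hdeg D Q = Q.ord (algebraMap FK FL f) := by
  by_cases hQ : Q ∈ Set.range (placeExt (L := L) (FL := FL) h hdeg)
  · obtain ⟨P, rfl⟩ := hQ
    rw [conorm_apply_placeExt, ord_placeExt, hD]
  · rw [conorm_apply_of_notMem_range h hdeg D Q hQ, ord_map_eq_zero_of_notMem_range h hdeg Q hQ]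

theorem conorm_mem_principal {D : Divisor K FK} (hD : D ∈ Divisor.principal (K := K) (F := FK)) :
    conorm h hdeg D ∈ Divisor.principal (K := L) (F := FL) := by
  obtain ⟨f, hf, hD⟩ := hD
  exact ⟨algebraMap FK FL f, by rwa [Ne, map_eq_zero], conorm_principal h hdeg D f hD⟩

variable (hdegL : ∀ Q : Place L FL, Q.deg = 1)

include hdegL in
theorem degree_conorm (D : Divisor K FK) :
    Divisor.degree (conorm h hdeg D) = Divisor.degree D := by
  induction D using Finsupp.induction with
  | zero => simp
  | single_add P n D _ _ ih =>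
    rw [map_add, map_add, map_add, ih, conorm_single, Divisor.degree_single,
      Divisor.degree_single, hdeg P, hdegL]

include hdegL in
theorem conorm_mem_degZero {D : Divisor K FK} (hD : D ∈ Divisor.degZero (K := K) (F := FK)) :
    conorm h hdeg D ∈ Divisor.degZero (K := L) (F := FL) := by
  rw [Divisor.mem_degZero, degree_conorm h hdeg hdegL]
  exact hD

/-- the conorm on divisors of degree zero. -/
noncomputable def conormDegZero :
    Divisor.degZero (K := K) (F := FK) →+ Divisor.degZero (K := L) (F := FL) :=
  ((conorm h hdeg).domRestrict (Divisor.degZero (K := K) (F := FK))).codRestrict _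
    (fun D => conorm_mem_degZero h hdeg hdegL D.2)

@[simp]
theorem coe_conormDegZero (D : Divisor.degZero (K := K) (F := FK)) :
    (conormDegZero h hdeg hdegL D : Divisor L FL) = conorm h hdeg (D : Divisor K FK) := rfl

/-- the conorm on `Pic⁰`. -/
noncomputable def conormPic0 : Pic0 K FK →+ Pic0 L FL :=
  QuotientAddGroup.map _ _ (conormDegZero h hdeg hdegL) (by
    rintro ⟨D, hD0⟩ hD
    simp only [AddSubgroup.mem_addSubgroupOf] at hD
    simp only [AddSubgroup.mem_comap, AddSubgroup.mem_addSubgroupOf]
    exact conorm_mem_principal h hdeg hD)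

theorem conormPic0_mk (D : Divisor.degZero (K := K) (F := FK)) :
    conormPic0 h hdeg hdegL (Pic0.mk D) = Pic0.mk (conormDegZero h hdeg hdegL D) := rfl

end Conorm

end Fermat.Agent.GR
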