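/-
Stage (I), package K5 DESC — helper3.
Abstract Galois descent datum for a constant field extension `FL = L·FK` (`G = Aut(L/K)` acting
semilinearly on `FL`, fixing `FK`), invariance of extended places and conorms, and **injectivity
of the conorm map on `Pic⁰`**.
-/
import Mathlib
import Fermat.Agent.GR.DESC_helper3_Conorm
import Fermat.Agent.GR.DESC_helper3_Aut
import Fermat.Agent.FF.Residue

set_option autoImplicit false
set_option linter.style.haveILetI false
set_option linter.unusedSectionVars false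

open Module AlgebraicCurve

namespace Fermat.Agent.GR

open Fermat.Agent.FF Fermat.Agent.JA

section Const

variable {k F : Type*} [Field k] [Field F] [Algebra k F] [CharZero k]

/-- a function all of whose orders vanish is algebraic over the constants. -/
theorem isAlgebraic_of_forall_ord_eq_zero (c : Coord k F) (f : F)
    (hf : ∀ v : Place k F, v.ord f = 0) : IsAlgebraic k f := by
  by_contra htr
  have htr' : Transcendental k f := htr
  obtain ⟨S, hS, hsum⟩ := (c.ofTranscendental f htr').exists_poles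
  simp only [Coord.ofTranscendental_x] at hS hsum
  have hS0 : S = ∅ := by
    rw [Finset.eq_empty_iff_forall_notMem]
    intro v hv
    have := (hS v).mp hv
    rw [hf v] at this
    exact lt_irrefl _ this
  rw [hS0, Finset.sum_empty] at hsum
  have hpos := (c.ofTranscendental f htr').degree_pos
  omega

/-- over an algebraically closed constant field, a function all of whose orders vanish is a
constant. -/
theorem exists_const_of_forall_ord_eq_zero [IsAlgClosed k] (c : Coord k F) (f : F)
    (hf : ∀ v : Place k F, v.ord f = 0) : ∃ a : k, f = algebraMap k F a := by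
  have halg := isAlgebraic_of_forall_ord_eq_zero c f hf
  have hint : IsIntegral k f := halg.isIntegral
  have h1 : (minpoly k f).degree = 1 :=
    IsAlgClosed.degree_eq_one_of_irreducible k (minpoly.irreducible hint)
  obtain ⟨a, ha⟩ := minpoly.mem_range_of_degree_eq_one k f h1
  exact ⟨a, ha.symm⟩

end Const

section Gal

variable (K L FK FL : Type*) [Field K] [Field L] [Algebra K L] [Field FK] [Field FL]
  [Algebra K FK] [Algebra L FL] [Algebra FK FL] [Algebra K FL] [IsScalarTower K FK FL]
  [IsScalarTower K L FL]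

/-- a Galois descent datum for the constant field extension `FL = L·FK`: `Aut(L/K)` acts
semilinearly on `FL`, fixes `FK` pointwise, the fixed elements are exactly those of `FK`, and
eigenfunctions can be normalised to fixed functions. -/
structure GalDesc where
  /-- the action -/
  ρ : (L ≃ₐ[K] L) →* SemilinearAut L FL
  baseAut_ρ : ∀ (σ : L ≃ₐ[K] L) (a : L), SemilinearAut.baseAut (ρ σ) a = σ a
  smul_map : ∀ (σ : L ≃ₐ[K] L) (x : FK), ρ σ • algebraMap FK FL x = algebraMap FK FL x
  desc : ∀ y : FL, (∀ σ : L ≃ₐ[K] L, ρ σ • y = y) → y ∈ Set.range (algebraMap FK FL)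
  norm : ∀ y : FL, y ≠ 0 → (∀ σ : L ≃ₐ[K] L, ∃ a : L, ρ σ • y = algebraMap L FL a * y) →
    ∃ c : L, c ≠ 0 ∧ ∀ σ : L ≃ₐ[K] L, ρ σ • (algebraMap L FL c * y) = algebraMap L FL c * y

variable {K L FK FL}
variable (h : IsConstExt K L FK FL) (hdeg : ∀ P : Place K FK, P.deg = 1)
  (𝒢 : GalDesc K L FK FL)

/-- extended places are Galois invariant. -/
theorem GalDesc.smul_placeExt (σ : L ≃ₐ[K] L) (P : Place K FK) :
    𝒢.ρ σ • placeExt h hdeg P = placeExt h hdeg P := by
  refine eq_placeExt_of_ord_eq_mul h hdeg P _ 1 one_pos (fun x _ => ?_)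
  rw [one_mul, ← 𝒢.smul_map σ x, SemilinearAut.ord_smul, ord_placeExt]

/-- conorms are Galois invariant. -/
theorem GalDesc.smul_conorm (σ : L ≃ₐ[K] L) (D : Divisor K FK) :
    𝒢.ρ σ • conorm h hdeg D = conorm h hdeg D := by
  induction D using Finsupp.induction with
  | zero => rw [map_zero, smul_zero]
  | single_add P n D _ _ ih =>
    rw [map_add, smul_add, ih, conorm_single, SemilinearAut.smul_single,
      𝒢.smul_placeExt h hdeg]

/-- order of `g • f` at `Q`. -/
theorem ord_smul_eq (g : SemilinearAut L FL) (Q : Place L FL) (f : FL) :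
    Q.ord (g • f) = (g⁻¹ • Q).ord f := by
  have := SemilinearAut.ord_smul g (g⁻¹ • Q) f
  rwa [smul_inv_smul] at this

variable (hdegL : ∀ Q : Place L FL, Q.deg = 1)

include 𝒢 in
/-- a principal divisor of `FL` which is a conorm comes from a principal divisor of `FK`. -/
theorem GalDesc.principal_of_conorm_principal [CharZero L] [IsAlgClosed L] (cL : Coord L FL)
    (D : Divisor K FK)
    (hD : conorm h hdeg D ∈ Divisor.principal (K := L) (F := FL)) :
    D ∈ Divisor.principal (K := K) (F := FK) := by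
  obtain ⟨f, hf0, hf⟩ := hD
  -- `f` is an eigenfunction
  have heig : ∀ σ : L ≃ₐ[K] L, ∃ a : L, 𝒢.ρ σ • f = algebraMap L FL a * f := by
    intro σ
    have hσf0 : 𝒢.ρ σ • f ≠ 0 := by
      rw [Ne, smul_eq_zero_iff_eq]
      exact hf0
    have hord : ∀ Q : Place L FL, Q.ord (𝒢.ρ σ • f * f⁻¹) = 0 := by
      intro Q
      rw [Q.ord_mul hσf0 (inv_ne_zero hf0), Q.ord_inv, ord_smul_eq, ← hf, ← hf,
        ← SemilinearAut.divisor_smul_apply, 𝒢.smul_conorm h hdeg]
      ring
    obtain ⟨a, ha⟩ := exists_const_of_forall_ord_eq_zero cL _ hord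
    refine ⟨a, ?_⟩
    rw [← ha, mul_assoc, inv_mul_cancel₀ hf0, mul_one]
  obtain ⟨c, hc0, hc⟩ := 𝒢.norm f hf0 heig
  obtain ⟨f₀, hf₀⟩ := 𝒢.desc _ hc
  have hcF : algebraMap L FL c ≠ 0 := by
    rwa [Ne, map_eq_zero]
  have hf₀0 : f₀ ≠ 0 := by
    rintro rfl
    rw [map_zero] at hf₀
    exact mul_ne_zero hcF hf0 hf₀.symm
  refine ⟨f₀, hf₀0, fun P => ?_⟩
  rw [← ord_placeExt h hdeg P f₀, hf₀, (placeExt h hdeg P).ord_mul hcF hf0,
    PlaceAux.ord_algebraMap, zero_add, ← hf, conorm_apply_placeExt]

include 𝒢 in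
/-- **the conorm map on `Pic⁰` is injective**. -/
theorem GalDesc.conormPic0_injective [CharZero L] [IsAlgClosed L] (cL : Coord L FL) :
    Function.Injective (conormPic0 h hdeg hdegL) := by
  rw [injective_iff_map_eq_zero]
  intro x hx
  obtain ⟨D, rfl⟩ := Pic0.mk_surjective x
  rw [conormPic0_mk] at hx
  have h1 : (conormDegZero h hdeg hdegL D : Divisor L FL) ∈
      Divisor.principal (K := L) (F := FL) := by
    have := (QuotientAddGroup.eq_zero_iff _).mp hx
    simpa only [AddSubgroup.mem_addSubgroupOf] using this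
  rw [coe_conormDegZero] at h1
  have h2 := 𝒢.principal_of_conorm_principal h hdeg cL (D : Divisor K FK) h1
  exact (QuotientAddGroup.eq_zero_iff _).mpr (by
    simpa only [AddSubgroup.mem_addSubgroupOf] using h2)

include 𝒢 in
/-- torsion is detected after conorm. -/
theorem GalDesc.mem_torsion_of_conormPic0_mem [CharZero L] [IsAlgClosed L] (cL : Coord L FL)
    (n : ℕ) (x : Pic0 K FK) (hx : conormPic0 h hdeg hdegL x ∈ Pic0.torsion L FL n) :
    x ∈ Pic0.torsion K FK n := by
  rw [Pic0.mem_torsion] at hx ⊢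
  apply 𝒢.conormPic0_injective h hdeg hdegL cL
  rw [map_zsmul, hx, map_zero]

theorem conormPic0_mem_torsion (n : ℕ) (x : Pic0 K FK) (hx : x ∈ Pic0.torsion K FK n) :
    conormPic0 h hdeg hdegL x ∈ Pic0.torsion L FL n := by
  rw [Pic0.mem_torsion] at hx ⊢
  rw [← map_zsmul, hx, map_zero]

end Gal

end Fermat.Agent.GR
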