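/-
Stage (I), package K5 DESC — helper3.
**Surjectivity of the conorm map on torsion** for a constant field extension `FL = L·FK` with a
Galois descent datum, `K ⊆ L` algebraically closed of characteristic zero, under the hypothesis
that `Pic⁰(FL)[n]` is finite: the canonical effective divisor of a torsion class has a finite
Galois orbit, hence is supported on extended places.
-/
import Mathlib
import Fermat.Agent.GR.DESC_helper3_Gal
import Fermat.Agent.GR.DESC_helper3_Canon

set_option autoImplicit false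
set_option linter.style.haveILetI false
set_option linter.unusedSectionVars false

open Module AlgebraicCurve

namespace Fermat.Agent.GR

open Fermat.Agent.FF Fermat.Agent.JA

section Surj

variable {K L FK FL : Type*} [Field K] [Field L] [Algebra K L] [Field FK] [Field FL]
  [Algebra K FK] [Algebra L FL] [Algebra FK FL] [Algebra K FL] [IsScalarTower K FK FL]
  [IsScalarTower K L FL]

/-- the polar divisor of a non-zero function. -/
theorem exists_polarDivisor [HasPrincipalDivisors K FK] (x₀ : FK) (hx₀ : x₀ ≠ 0) :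
    ∃ B₀ : Divisor K FK, ∀ P : Place K FK, B₀ P = max 0 (-(P.ord x₀)) := by
  obtain ⟨D, hD, -⟩ := HasPrincipalDivisors.exists_divisor (K := K) x₀ hx₀
  refine ⟨D.mapRange (fun n => max 0 (-n)) (by simp), fun P => ?_⟩
  rw [Finsupp.mapRange_apply, hD]

variable (h : IsConstExt K L FK FL) (hdeg : ∀ P : Place K FK, P.deg = 1)

theorem conorm_polar (x₀ : FK) (B₀ : Divisor K FK)
    (hB₀ : ∀ P : Place K FK, B₀ P = max 0 (-(P.ord x₀))) (Q : Place L FL) :
    conorm h hdeg B₀ Q = max 0 (-(Q.ord (algebraMap FK FL x₀))) := by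
  by_cases hQ : Q ∈ Set.range (placeExt (L := L) (FL := FL) h hdeg)
  · obtain ⟨P, rfl⟩ := hQ
    rw [conorm_apply_placeExt, ord_placeExt, hB₀]
  · rw [conorm_apply_of_notMem_range h hdeg B₀ Q hQ,
      ord_map_eq_zero_of_notMem_range h hdeg Q hQ, neg_zero, max_self]

/-- a divisor of `FL` supported on extended places is a conorm. -/
theorem exists_conorm_eq (E : Divisor L FL)
    (hE : ∀ Q ∈ E.support, Q ∈ Set.range (placeExt (L := L) (FL := FL) h hdeg)) :
    ∃ E₀ : Divisor K FK, conorm h hdeg E₀ = E := by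
  refine ⟨E.comapDomain (placeExt h hdeg) (placeExt_injective h hdeg).injOn, ?_⟩
  rw [conorm, Finsupp.mapDomain.addMonoidHom_apply]
  exact Finsupp.mapDomain_comapDomain _ (placeExt_injective h hdeg) E
    (fun Q hQ => hE Q (Finset.mem_coe.mp hQ))

variable (hdegL : ∀ Q : Place L FL, Q.deg = 1) (𝒢 : GalDesc K L FK FL)

include 𝒢 in
/-- **surjectivity of the conorm on torsion classes**. -/
theorem GalDesc.exists_conormPic0_eq [CharZero K] [IsAlgClosed K] [CharZero L] [IsAlgClosed L]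
    (cK : Coord K FK) (cL : Coord L FL) (n : ℕ)
    (hfin : ((Pic0.torsion L FL n : AddSubgroup (Pic0 L FL)) : Set (Pic0 L FL)).Finite)
    (c : Pic0 L FL) (hc : c ∈ Pic0.torsion L FL n) :
    ∃ c₀ : Pic0 K FK, conormPic0 h hdeg hdegL c₀ = c := by
  classical
  haveI : HasPrincipalDivisors K FK := cK.hasPrincipalDivisors
  haveI : HasPrincipalDivisors L FL := cL.hasPrincipalDivisors
  -- the coordinate function
  set x₀ : FK := cK.x with hx₀def
  have hx₀tr : Transcendental K x₀ := cK.trans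
  have hx₀0 : x₀ ≠ 0 := by
    intro h0
    apply hx₀tr
    rw [h0]
    exact isAlgebraic_zero
  set x : FL := algebraMap FK FL x₀ with hxdef
  -- a pole of `x₀`
  obtain ⟨S, hS, hSsum⟩ := cK.exists_poles
  have hSne : S.Nonempty := by
    rw [Finset.nonempty_iff_ne_empty]
    intro hS0
    rw [hS0, Finset.sum_empty] at hSsum
    have := cK.degree_pos
    omega
  obtain ⟨P₀, hP₀⟩ := hSne
  have hP₀' : P₀.ord x₀ < 0 := (hS P₀).mp hP₀
  set Q₀ : Place L FL := placeExt h hdeg P₀ with hQ₀def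
  have hx : ∀ a : L, x ≠ algebraMap L FL a := by
    intro a ha
    have h1 : Q₀.ord x = P₀.ord x₀ := ord_placeExt h hdeg P₀ x₀
    rw [ha, PlaceAux.ord_algebraMap] at h1
    omega
  -- the polar divisor
  obtain ⟨B₀, hB₀⟩ := exists_polarDivisor (K := K) x₀ hx₀0
  have hBx : ∀ Q : Place L FL, conorm h hdeg B₀ Q = max 0 (-(Q.ord x)) :=
    conorm_polar h hdeg x₀ B₀ hB₀
  have hdom := exists_eff_of_polar hdegL x hx (conorm h hdeg B₀) hBx
  obtain ⟨m, hne⟩ := exists_effSet_nonempty (conorm h hdeg B₀) hdom c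
  rw [← map_nsmul] at hne
  set B : Divisor L FL := conorm h hdeg (m • B₀) with hBdef
  -- invariance
  have hBinv : ∀ σ : L ≃ₐ[K] L, 𝒢.ρ σ • B = B := fun σ => 𝒢.smul_conorm h hdeg σ _
  have hQ₀inv : ∀ σ : L ≃ₐ[K] L, 𝒢.ρ σ • Q₀ = Q₀ := fun σ => 𝒢.smul_placeExt h hdeg σ P₀
  have hxinv : ∀ σ : L ≃ₐ[K] L, 𝒢.ρ σ • x = x := fun σ => 𝒢.smul_map σ x₀
  -- the finite invariant set of places
  set T : Set (Pic0 L FL) := ((Pic0.torsion L FL n : AddSubgroup (Pic0 L FL)) : Set (Pic0 L FL))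
    with hTdef
  have hTinv : ∀ σ : L ≃ₐ[K] L, ∀ t ∈ T, 𝒢.ρ σ • t ∈ T := fun σ t ht =>
    SemilinearAut.smul_mem_torsion (𝒢.ρ σ) ht
  set Z : Set (Place L FL) := canonSupp T B Q₀ with hZdef
  have hZfin : Z.Finite := canonSupp_finite hfin B Q₀
  have hZinv : ∀ σ : L ≃ₐ[K] L, ∀ Q ∈ Z, 𝒢.ρ σ • Q ∈ Z := fun σ Q hQ =>
    smul_mem_canonSupp hdegL (𝒢.ρ σ) (hBinv σ) (hQ₀inv σ) (hTinv σ) hQ
  -- the finite invariant set of values
  set Y : Set L := valueSet Z x with hYdef
  have hYfin : Y.Finite := valueSet_finite hZfin x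
  have hYinv : ∀ σ : L ≃ₐ[K] L, ∀ y ∈ Y, σ y ∈ Y := by
    intro σ y hy
    have := baseAut_mem_valueSet (𝒢.ρ σ) (hZinv σ) (hxinv σ) hy
    rwa [𝒢.baseAut_ρ] at this
  have hYK : ∀ y ∈ Y, y ∈ Set.range (algebraMap K L) := fun y hy =>
    mem_range_of_isAlgebraic (isAlgebraic_of_finite_of_stable Y hYfin hYinv hy)
  -- the places of `Z` are extended places
  have hZext : ∀ Q ∈ Z, Q ∈ Set.range (placeExt (L := L) (FL := FL) h hdeg) := by
    intro Q hQ
    by_contra hQr
    have hord : ∀ z : FK, Q.ord (algebraMap FK FL z) = 0 :=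
      ord_map_eq_zero_of_notMem_range h hdeg Q hQr
    have hx0 : x ≠ 0 := by
      rw [hxdef, Ne, map_eq_zero]
      exact hx₀0
    have hxmem : x ∈ Q.toValuationSubring :=
      (PlaceAux.mem_iff_ord_nonneg' Q hx0).mpr (hord x₀).ge
    obtain ⟨y, hy⟩ := HasValueAt.exists_of_mem (hdegL Q) hxmem
    obtain ⟨y₀, rfl⟩ := hYK y ⟨Q, hQ, hy⟩
    have e : x - algebraMap L FL (algebraMap K L y₀) =
        algebraMap FK FL (x₀ - algebraMap K FK y₀) := by
      rw [map_sub, ← IsScalarTower.algebraMap_apply K FK FL,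
        ← IsScalarTower.algebraMap_apply K L FL]
    have hne0 : x₀ - algebraMap K FK y₀ ≠ 0 := by
      intro h0
      apply hx₀tr
      rw [sub_eq_zero.mp h0]
      exact isAlgebraic_algebraMap y₀
    rcases HasValueAt.iff_ord.mp hy with h1 | h1
    · rw [e, map_eq_zero] at h1
      exact hne0 h1
    · rw [e, hord] at h1
      exact lt_irrefl _ h1
  -- the canonical divisor of `c`
  obtain ⟨E', hE'⟩ := exists_isCanon hdegL c B Q₀ hne
  have hE := canon_spec ⟨E', hE'⟩
  set E : Divisor L FL := canon c B Q₀ with hEdef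
  have hEsupp : ∀ Q ∈ E.support, Q ∈ Set.range (placeExt (L := L) (FL := FL) h hdeg) :=
    fun Q hQ => hZext Q ⟨c, hc, hQ⟩
  obtain ⟨E₀, hE₀⟩ := exists_conorm_eq h hdeg E hEsupp
  obtain ⟨-, hd, hcE⟩ := hE.1
  have hconorm : conorm h hdeg (E₀ - m • B₀) = E - B := by
    rw [map_sub, hE₀]
  have hd₀ : E₀ - m • B₀ ∈ Divisor.degZero (K := K) (F := FK) := by
    rw [Divisor.mem_degZero, ← degree_conorm h hdeg hdegL, hconorm]
    exact hd
  refine ⟨Pic0.mk ⟨E₀ - m • B₀, hd₀⟩, ?_⟩
  rw [conormPic0_mk, ← hcE]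
  congr 1
  apply Subtype.ext
  rw [coe_conormDegZero]
  exact hconorm

end Surj

end Fermat.Agent.GR
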