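/-
STAGE (I), package BETTI, lead — part 2: instantiation with the Prelude's `parabolicHoms`.
For `Γ ≤ SL(2,ℤ)` finitely generated (e.g. `Gamma0 N`, `N ≠ 0`), `L := parabolicHoms ℤ Γ ℤ` is a free
`ℤ`-module of finite rank and for every commutative ring `R` and every `R`-module `A` whose additive
group is torsion-free, `A ⊗[ℤ] L ≃ₗ[R] parabolicHoms R Γ A`, `a ⊗ ψ ↦ (γ ↦ ψ γ • a)`, naturally
with respect to operators that are natural in the coefficient group.
-/
import Fermat.Agent.GR.BETTI_lead_Basic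
import Fermat.Prelude.Def_ModularCurve_PeriodMap

set_option autoImplicit false
set_option linter.unusedSectionVars false
set_option linter.unusedVariables false
set_option linter.style.haveILetI false

namespace Fermat.Agent.GR

open TensorProduct ModularCurve.Period

open scoped MatrixGroups

section Par

variable (R : Type*) [CommRing R] (Γ : Subgroup SL(2, ℤ)) (A : Type*) [AddCommGroup A] [Module R A]

/-- the elements of `Γ` with `trace² = 4` -/
def parSet : Set Γ :=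
  {γ | ((γ : SL(2, ℤ)) : Matrix (Fin 2) (Fin 2) ℤ).trace ^ 2 = 4}

theorem mem_parabolicHoms_iff_mem_killHoms {ψ : Additive Γ →+ A} :
    ψ ∈ parabolicHoms R Γ A ↔ ψ ∈ killHoms (parSet Γ) A := Iff.rfl

/-- `parabolicHoms` and `killHoms` have the same elements -/
def parEquivKill : ↥(parabolicHoms R Γ A) ≃+ ↥(killHoms (parSet Γ) A) where
  toFun ψ := ⟨ψ.1, ψ.2⟩
  invFun ψ := ⟨ψ.1, ψ.2⟩
  left_inv _ := rfl
  right_inv _ := rfl
  map_add' _ _ := rfl

@[simp] theorem parEquivKill_coe (ψ : ↥(parabolicHoms R Γ A)) :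
    ((parEquivKill R Γ A ψ : ↥(killHoms (parSet Γ) A)) : Additive Γ →+ A) = ψ.1 := rfl

/-- the `ℤ`-linear version for `R = ℤ`, `A = ℤ` -/
def parEquivKillInt : ↥(parabolicHoms ℤ Γ ℤ) ≃ₗ[ℤ] ↥(killHoms (parSet Γ) ℤ) :=
  (parEquivKill ℤ Γ ℤ).toIntLinearEquiv

variable {Γ} in
/-- `ψ, a ↦ (γ ↦ ψ γ • a)` as an element of `parabolicHoms R Γ A` -/
def parScal (a : A) (ψ : ↥(parabolicHoms ℤ Γ ℤ)) : ↥(parabolicHoms R Γ A) :=
  ⟨smulHom A ψ.1 a, smulHom_mem (parSet Γ) A ψ.2 a⟩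

variable {Γ} in
@[simp] theorem parScal_apply (a : A) (ψ : ↥(parabolicHoms ℤ Γ ℤ)) (γ : Additive Γ) :
    (parScal R A a ψ).1 γ = ψ.1 γ • a := rfl

variable {Γ} in
theorem parScal_coe_eq_comp (a : A) (ψ : ↥(parabolicHoms ℤ Γ ℤ)) :
    (parScal R A a ψ).1 = ((zmultiplesHom A a : ℤ →+ A)).comp ψ.1 := by
  ext γ
  rfl

/-- the natural `R`-linear map `A ⊗[ℤ] parabolicHoms ℤ Γ ℤ → parabolicHoms R Γ A` -/
def parThetaLin : A ⊗[ℤ] ↥(parabolicHoms ℤ Γ ℤ) →ₗ[R] ↥(parabolicHoms R Γ A) :=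
  TensorProduct.AlgebraTensorModule.lift
    { toFun := fun a =>
        { toFun := fun ψ => parScal R A a ψ
          map_add' := by
            intro ψ ψ'; apply Subtype.ext; ext γ
            show (ψ.1 γ + ψ'.1 γ) • a = ψ.1 γ • a + ψ'.1 γ • a
            exact add_smul _ _ _
          map_smul' := by
            intro c ψ; apply Subtype.ext; ext γ
            show (c • ψ.1 γ) • a = c • (ψ.1 γ • a)
            exact smul_assoc _ _ _ }
      map_add' := by
        intro a a'; apply LinearMap.ext; intro ψ; apply Subtype.ext; ext γ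
        show ψ.1 γ • (a + a') = ψ.1 γ • a + ψ.1 γ • a'
        exact smul_add _ _ _
      map_smul' := by
        intro r a; apply LinearMap.ext; intro ψ; apply Subtype.ext; ext γ
        show ψ.1 γ • (r • a) = r • (ψ.1 γ • a)
        exact smul_comm _ _ _ }

@[simp] theorem parThetaLin_tmul (a : A) (ψ : ↥(parabolicHoms ℤ Γ ℤ)) :
    parThetaLin R Γ A (a ⊗ₜ ψ) = parScal R A a ψ := rfl

theorem parThetaLin_tmul_apply (a : A) (ψ : ↥(parabolicHoms ℤ Γ ℤ)) (γ : Additive Γ) :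
    (parThetaLin R Γ A (a ⊗ₜ ψ)).1 γ = ψ.1 γ • a := rfl

/-- the comparison of the two tensor products -/
noncomputable def parCompare :
    A ⊗[ℤ] ↥(parabolicHoms ℤ Γ ℤ) ≃ₗ[ℤ] ↥(killHoms (parSet Γ) ℤ) ⊗[ℤ] A :=
  (TensorProduct.comm ℤ A ↥(parabolicHoms ℤ Γ ℤ)).trans
    (TensorProduct.congr (parEquivKillInt Γ) (LinearEquiv.refl ℤ A))

theorem parCompare_tmul (a : A) (ψ : ↥(parabolicHoms ℤ Γ ℤ)) :
    parCompare Γ A (a ⊗ₜ ψ) = (parEquivKillInt Γ ψ) ⊗ₜ a := rfl

/-- comparison with `thetaLin` of part 1 -/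
theorem parThetaLin_eq_thetaLin (x : A ⊗[ℤ] ↥(parabolicHoms ℤ Γ ℤ)) :
    parEquivKill R Γ A (parThetaLin R Γ A x) = thetaLin (parSet Γ) A (parCompare Γ A x) := by
  induction x using TensorProduct.induction_on with
  | zero =>
    rw [LinearMap.map_zero (parThetaLin R Γ A), LinearEquiv.map_zero (parCompare Γ A),
      LinearMap.map_zero (thetaLin (parSet Γ) A)]
    exact (parEquivKill R Γ A).map_zero
  | tmul a ψ => rfl
  | add x y hx hy =>
    rw [LinearMap.map_add (parThetaLin R Γ A), (parEquivKill R Γ A).map_add, hx, hy,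
      LinearEquiv.map_add (parCompare Γ A), LinearMap.map_add (thetaLin (parSet Γ) A)]

section Bij

variable [Group.FG Γ] [IsAddTorsionFree A]

theorem parThetaLin_bijective : Function.Bijective (parThetaLin R Γ A) := by
  have h1 : Function.Bijective (fun x : A ⊗[ℤ] ↥(parabolicHoms ℤ Γ ℤ) =>
      thetaLin (parSet Γ) A (parCompare Γ A x)) := by
    have e3 : Function.Bijective (thetaLin (parSet Γ) A) :=
      ⟨thetaLin_injective _ A, thetaLin_surjective _ A⟩
    exact e3.comp (parCompare Γ A).bijective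
  have h2 : (fun x => parEquivKill R Γ A (parThetaLin R Γ A x)) =
      (fun x : A ⊗[ℤ] ↥(parabolicHoms ℤ Γ ℤ) =>
      thetaLin (parSet Γ) A (parCompare Γ A x)) :=
    funext (parThetaLin_eq_thetaLin R Γ A)
  rw [← h2] at h1
  exact (Function.Bijective.of_comp_iff' (parEquivKill R Γ A).bijective _).1 h1

/-- **`A ⊗[ℤ] parabolicHoms ℤ Γ ℤ ≃ₗ[R] parabolicHoms R Γ A`** for `Γ` finitely generated and `A`
torsion-free: `a ⊗ ψ ↦ (γ ↦ ψ γ • a)`. -/
noncomputable def parTheta : A ⊗[ℤ] ↥(parabolicHoms ℤ Γ ℤ) ≃ₗ[R] ↥(parabolicHoms R Γ A) :=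
  LinearEquiv.ofBijective (parThetaLin R Γ A) (parThetaLin_bijective R Γ A)

@[simp] theorem parTheta_tmul (a : A) (ψ : ↥(parabolicHoms ℤ Γ ℤ)) :
    parTheta R Γ A (a ⊗ₜ ψ) = parScal R A a ψ := rfl

theorem parTheta_tmul_apply (a : A) (ψ : ↥(parabolicHoms ℤ Γ ℤ)) (γ : Additive Γ) :
    (parTheta R Γ A (a ⊗ₜ ψ)).1 γ = ψ.1 γ • a := rfl

theorem parTheta_apply (x : A ⊗[ℤ] ↥(parabolicHoms ℤ Γ ℤ)) :
    parTheta R Γ A x = parThetaLin R Γ A x := rfl

/-- **naturality**: if `Tℤ`, `TA` are operators on `parabolicHoms` with integer resp. `A`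
coefficients which correspond on pure tensors, they correspond under `parTheta`. -/
theorem parTheta_natural (Tℤ : ↥(parabolicHoms ℤ Γ ℤ) →ₗ[ℤ] ↥(parabolicHoms ℤ Γ ℤ))
    (TA : ↥(parabolicHoms R Γ A) →ₗ[R] ↥(parabolicHoms R Γ A))
    (hnat : ∀ (a : A) (ψ : ↥(parabolicHoms ℤ Γ ℤ)),
      TA (parScal R A a ψ) = parScal R A a (Tℤ ψ))
    (x : A ⊗[ℤ] ↥(parabolicHoms ℤ Γ ℤ)) :
    TA (parTheta R Γ A x) = parTheta R Γ A (LinearMap.lTensor A Tℤ x) := by
  induction x using TensorProduct.induction_on with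
  | zero => rw [map_zero, map_zero, map_zero, map_zero]
  | tmul a ψ =>
    rw [parTheta_tmul, LinearMap.lTensor_tmul, parTheta_tmul]
    exact hnat a ψ
  | add x y hx hy =>
    rw [map_add, map_add, hx, hy, map_add, map_add]

/-- **naturality, practical form**: a family of operators on all `Additive Γ →+ _` natural in the
coefficient group (`TA (f ∘ ψ) = f ∘ Tℤ ψ` for `f : ℤ →+ A`), restricted to `parabolicHoms`. -/
theorem parTheta_natural_of_comp
    (Tℤ : (Additive Γ →+ ℤ) →+ (Additive Γ →+ ℤ)) (TA : (Additive Γ →+ A) →+ (Additive Γ →+ A))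
    (hcomp : ∀ (f : ℤ →+ A) (ψ : Additive Γ →+ ℤ), TA (f.comp ψ) = f.comp (Tℤ ψ))
    (Tℤ' : ↥(parabolicHoms ℤ Γ ℤ) →ₗ[ℤ] ↥(parabolicHoms ℤ Γ ℤ))
    (hTℤ' : ∀ ψ, (Tℤ' ψ).1 = Tℤ ψ.1)
    (TA' : ↥(parabolicHoms R Γ A) →ₗ[R] ↥(parabolicHoms R Γ A))
    (hTA' : ∀ ψ, (TA' ψ).1 = TA ψ.1)
    (x : A ⊗[ℤ] ↥(parabolicHoms ℤ Γ ℤ)) :
    TA' (parTheta R Γ A x) = parTheta R Γ A (LinearMap.lTensor A Tℤ' x) := by
  refine parTheta_natural R Γ A Tℤ' TA' ?_ x
  intro a ψ
  apply Subtype.ext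
  rw [hTA', parScal_coe_eq_comp, hcomp, parScal_coe_eq_comp, hTℤ']

end Bij

end Par

section Lattice

variable (Γ : Subgroup SL(2, ℤ)) [Group.FG Γ]

instance parabolicHoms_int_finite : Module.Finite ℤ ↥(parabolicHoms ℤ Γ ℤ) :=
  Module.Finite.equiv (parEquivKillInt Γ).symm

instance parabolicHoms_int_free : Module.Free ℤ ↥(parabolicHoms ℤ Γ ℤ) :=
  Module.Free.of_equiv (parEquivKillInt Γ).symm

variable (R : Type*) [CommRing R] [IsAddTorsionFree R]

instance parabolicHoms_finite : Module.Finite R ↥(parabolicHoms R Γ R) :=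
  Module.Finite.equiv (parTheta R Γ R)

instance parabolicHoms_free : Module.Free R ↥(parabolicHoms R Γ R) :=
  Module.Free.of_equiv (parTheta R Γ R)

theorem finrank_parabolicHoms [Nontrivial R] :
    Module.finrank R ↥(parabolicHoms R Γ R) = Module.finrank ℤ ↥(parabolicHoms ℤ Γ ℤ) := by
  rw [← (parTheta R Γ R).finrank_eq]
  exact Module.finrank_baseChange

end Lattice

section Divisible

variable (R : Type*) [CommRing R] (Γ : Subgroup SL(2, ℤ)) (A : Type*) [AddCommGroup A] [Module R A]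

/-- **divisibility**: if `r • _` is injective on `A` and all values of `ψ ∈ parabolicHoms R Γ A` are
divisible by `r`, then `ψ = r • ψ'` with `ψ' ∈ parabolicHoms R Γ A`. -/
theorem exists_eq_smul_of_forall_exists (r : R) (hr : Function.Injective fun a : A => r • a)
    (ψ : ↥(parabolicHoms R Γ A)) (h : ∀ γ : Additive Γ, ∃ a : A, ψ.1 γ = r • a) :
    ∃ ψ' : ↥(parabolicHoms R Γ A), ψ = r • ψ' := by
  choose f hf using h
  have hadd : ∀ x y, f (x + y) = f x + f y := by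
    intro x y
    apply hr
    show r • f (x + y) = r • (f x + f y)
    rw [smul_add, ← hf, ← hf, ← hf, map_add]
  have hzero : f 0 = 0 := by
    apply hr
    show r • f 0 = r • (0 : A)
    rw [← hf, map_zero, smul_zero]
  let ψ' : Additive Γ →+ A := { toFun := f, map_zero' := hzero, map_add' := hadd }
  have hψ' : ψ' ∈ parabolicHoms R Γ A := by
    intro γ hγ
    apply hr
    show r • f (Additive.ofMul γ) = r • (0 : A)
    rw [← hf, smul_zero]
    exact ψ.2 γ hγ
  refine ⟨⟨ψ', hψ'⟩, ?_⟩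
  apply Subtype.ext
  ext γ
  exact hf γ

/-- **kernel of reduction**: if `f : A →+ B` has kernel `r • A` and `f ∘ ψ = 0` then
`ψ = r • ψ'`. -/
theorem exists_eq_smul_of_comp_eq_zero {B : Type*} [AddCommGroup B] (f : A →+ B) (r : R)
    (hr : Function.Injective fun a : A => r • a) (hf : ∀ a, f a = 0 → ∃ a', a = r • a')
    (ψ : ↥(parabolicHoms R Γ A)) (h : f.comp ψ.1 = 0) :
    ∃ ψ' : ↥(parabolicHoms R Γ A), ψ = r • ψ' := by
  refine exists_eq_smul_of_forall_exists R Γ A r hr ψ fun γ => hf _ ?_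
  exact DFunLike.congr_fun h γ

variable {R Γ A} in
/-- post-composition preserves `parabolicHoms` -/
theorem comp_mem_parabolicHoms {S : Type*} [CommRing S] {B : Type*} [AddCommGroup B] [Module S B]
    (f : A →+ B) {ψ : Additive Γ →+ A} (hψ : ψ ∈ parabolicHoms R Γ A) :
    f.comp ψ ∈ parabolicHoms S Γ B := by
  intro γ hγ
  show f (ψ (Additive.ofMul γ)) = 0
  rw [hψ γ hγ, map_zero]

end Divisible

section Gamma0

open CongruenceSubgroup

instance group_fg_SL2Z : Group.FG SL(2, ℤ) := by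
  rw [Group.fg_def]
  refine ⟨{ModularGroup.S, ModularGroup.T}, ?_⟩
  rw [Finset.coe_insert, Finset.coe_singleton]
  exact SpecialLinearGroup.SL2Z_generators

instance group_fg_Gamma0 (N : ℕ) [NeZero N] : Group.FG ↥(Gamma0 N) :=
  Subgroup.fg_of_index_ne_zero (Gamma0 N)

end Gamma0

end Fermat.Agent.GR
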