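/-
Stage (I), package K6(c) (helper2), part 1: **the group-theoretic Hecke operator on `Hom(Γ, A)`**.

A *Hecke datum* is a finite union `⋃ᵢ Γ αᵢ` of pairwise distinct left cosets of `Γ` inside a group
`G ⊇ Γ`, stable under right multiplication by `Γ`.  For `γ ∈ Γ` write `αᵢ γ = γᵢ α_{σ(i)}`; then
`(T ψ)(γ) := ∑ᵢ ψ(γᵢ)` defines an endomorphism of `Hom(Γ, A)` for every abelian group `A`
(= corestriction ∘ conjugation ∘ restriction on `H¹(Γ, A)`).
-/
import Mathlib

set_option autoImplicit false
set_option linter.unusedSectionVars false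

namespace Fermat.Agent.GR

/-- A Hecke datum: `e : Γ ↪ G` and representatives `α : ι → G` of pairwise distinct left cosets
`Γ αᵢ` whose union is stable under right multiplication by `Γ`. -/
structure HeckeDatum (Γ G ι : Type*) [Group Γ] [Group G] where
  /-- the embedding of `Γ` in the ambient group. -/
  e : Γ →* G
  e_inj : Function.Injective e
  /-- the coset representatives. -/
  α : ι → G
  exists_eq : ∀ (γ : Γ) (i : ι), ∃ (j : ι) (γ' : Γ), α i * e γ = e γ' * α j
  index_eq : ∀ (i j : ι) (γ' : Γ), α i = e γ' * α j → i = j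

namespace HeckeDatum

variable {Γ G ι : Type*} [Group Γ] [Group G] (D : HeckeDatum Γ G ι)

/-- the permutation of the cosets induced by right multiplication by `γ`. -/
noncomputable def perm (γ : Γ) (i : ι) : ι := (D.exists_eq γ i).choose

/-- the cocycle: `αᵢ γ = (cocycle γ i) α_{perm γ i}`. -/
noncomputable def cocycle (γ : Γ) (i : ι) : Γ := (D.exists_eq γ i).choose_spec.choose

theorem spec (γ : Γ) (i : ι) :
    D.α i * D.e γ = D.e (D.cocycle γ i) * D.α (D.perm γ i) :=
  (D.exists_eq γ i).choose_spec.choose_spec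

/-- uniqueness of the decomposition. -/
theorem eq_of_eq {γ γ' : Γ} {i j : ι} (h : D.α i * D.e γ = D.e γ' * D.α j) :
    D.perm γ i = j ∧ D.cocycle γ i = γ' := by
  have h1 := D.spec γ i
  have h2 : D.α j = D.e (γ'⁻¹ * D.cocycle γ i) * D.α (D.perm γ i) := by
    rw [map_mul, map_inv, mul_assoc, ← h1, h, ← mul_assoc, inv_mul_cancel, one_mul]
  have hj : j = D.perm γ i := D.index_eq _ _ _ h2
  refine ⟨hj.symm, ?_⟩
  rw [h, hj] at h1
  exact (D.e_inj (mul_right_cancel h1)).symm

theorem perm_eq {γ γ' : Γ} {i j : ι} (h : D.α i * D.e γ = D.e γ' * D.α j) : D.perm γ i = j :=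
  (D.eq_of_eq h).1

theorem cocycle_eq {γ γ' : Γ} {i j : ι} (h : D.α i * D.e γ = D.e γ' * D.α j) :
    D.cocycle γ i = γ' :=
  (D.eq_of_eq h).2

@[simp] theorem perm_one (i : ι) : D.perm 1 i = i :=
  D.perm_eq (γ' := 1) (by rw [map_one, mul_one, one_mul])

@[simp] theorem cocycle_one (i : ι) : D.cocycle 1 i = 1 :=
  D.cocycle_eq (j := i) (by rw [map_one, mul_one, one_mul])

theorem mul_aux (γ δ : Γ) (i : ι) :
    D.α i * D.e (γ * δ) =
      D.e (D.cocycle γ i * D.cocycle δ (D.perm γ i)) * D.α (D.perm δ (D.perm γ i)) := by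
  rw [map_mul, ← mul_assoc, D.spec γ i, mul_assoc, D.spec δ (D.perm γ i), ← mul_assoc, map_mul]

theorem perm_mul (γ δ : Γ) (i : ι) : D.perm (γ * δ) i = D.perm δ (D.perm γ i) :=
  D.perm_eq (D.mul_aux γ δ i)

theorem cocycle_mul (γ δ : Γ) (i : ι) :
    D.cocycle (γ * δ) i = D.cocycle γ i * D.cocycle δ (D.perm γ i) :=
  D.cocycle_eq (D.mul_aux γ δ i)

/-- the permutation as an equivalence. -/
noncomputable def permEquiv (γ : Γ) : ι ≃ ι where
  toFun := D.perm γ
  invFun := D.perm γ⁻¹
  left_inv i := by rw [← D.perm_mul, mul_inv_cancel, D.perm_one]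
  right_inv i := by rw [← D.perm_mul, inv_mul_cancel, D.perm_one]

@[simp] theorem permEquiv_apply (γ : Γ) (i : ι) : D.permEquiv γ i = D.perm γ i := rfl

theorem perm_pow (γ : Γ) (m : ℕ) (i : ι) : D.perm (γ ^ m) i = ((D.permEquiv γ) ^ m) i := by
  induction m generalizing i with
  | zero => simp
  | succ m ih =>
    rw [pow_succ, D.perm_mul, ih, pow_succ', Equiv.Perm.mul_apply, permEquiv_apply]

section Hecke

variable [Fintype ι] (A : Type*) [AddCommGroup A]

/-- the value of the Hecke operator. -/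
noncomputable def heckeFun (ψ : Additive Γ →+ A) : Additive Γ →+ A where
  toFun γ := ∑ i, ψ (Additive.ofMul (D.cocycle (Additive.toMul γ) i))
  map_zero' := by
    show ∑ i, ψ (Additive.ofMul (D.cocycle 1 i)) = 0
    simp
  map_add' γ δ := by
    show ∑ i, ψ (Additive.ofMul (D.cocycle (Additive.toMul γ * Additive.toMul δ) i)) =
      ∑ i, ψ (Additive.ofMul (D.cocycle (Additive.toMul γ) i)) +
        ∑ i, ψ (Additive.ofMul (D.cocycle (Additive.toMul δ) i))
    have h1 : ∀ i, ψ (Additive.ofMul (D.cocycle (Additive.toMul γ * Additive.toMul δ) i)) =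
        ψ (Additive.ofMul (D.cocycle (Additive.toMul γ) i)) +
          ψ (Additive.ofMul (D.cocycle (Additive.toMul δ) (D.perm (Additive.toMul γ) i))) := by
      intro i
      rw [D.cocycle_mul, ofMul_mul, map_add]
    rw [Finset.sum_congr rfl fun i _ => h1 i, Finset.sum_add_distrib]
    congr 1
    exact Equiv.sum_comp (D.permEquiv (Additive.toMul γ))
      (fun i => ψ (Additive.ofMul (D.cocycle (Additive.toMul δ) i)))

/-- **the group-theoretic Hecke operator** on `Hom(Γ, A)`. -/
noncomputable def heckeGrp : (Additive Γ →+ A) →+ (Additive Γ →+ A) where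
  toFun := D.heckeFun A
  map_zero' := by
    ext γ
    simp [heckeFun]
  map_add' ψ φ := by
    ext γ
    simp [heckeFun, Finset.sum_add_distrib]

variable {A}

theorem heckeGrp_apply (ψ : Additive Γ →+ A) (γ : Γ) :
    D.heckeGrp A ψ (Additive.ofMul γ) = ∑ i, ψ (Additive.ofMul (D.cocycle γ i)) := rfl

theorem heckeGrp_apply' (ψ : Additive Γ →+ A) (γ : Additive Γ) :
    D.heckeGrp A ψ γ = ∑ i, ψ (Additive.ofMul (D.cocycle (Additive.toMul γ) i)) := rfl

/-- naturality in the coefficient group. -/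
theorem heckeGrp_comp {B : Type*} [AddCommGroup B] (f : A →+ B) (ψ : Additive Γ →+ A) :
    D.heckeGrp B (f.comp ψ) = f.comp (D.heckeGrp A ψ) := by
  ext γ
  simp [heckeGrp_apply', map_sum]

variable (A)

/-- the Hecke operator as an `R`-linear map. -/
noncomputable def heckeGrpₗ (R : Type*) [Semiring R] [Module R A] :
    (Additive Γ →+ A) →ₗ[R] (Additive Γ →+ A) where
  toFun := D.heckeGrp A
  map_add' := map_add _
  map_smul' c ψ := by
    ext γ
    simp [heckeGrp_apply', Finset.smul_sum]

@[simp] theorem heckeGrpₗ_apply (R : Type*) [Semiring R] [Module R A] (ψ : Additive Γ →+ A) :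
    D.heckeGrpₗ A R ψ = D.heckeGrp A ψ := rfl

end Hecke

section Equivariance

variable [Fintype ι] {A : Type*} [AddCommGroup A]

/-- **equivariance / independence of the representatives**: a pair of compatible homomorphisms
`θ : Γ →* Γ`, `Θ : G →* G'` carrying the cosets of `D` to those of `D'` intertwines the Hecke
operators. (`θ = id`, `Θ = id`: independence of the choice of representatives.) -/
theorem heckeGrp_comp_hom {G' ι' : Type*} [Group G'] [Fintype ι'] (D' : HeckeDatum Γ G' ι')
    (θ : Γ →* Γ) (Θ : G →* G') (hΘ : ∀ γ, Θ (D.e γ) = D'.e (θ γ)) (π : ι ≃ ι') (δ : ι → Γ)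
    (hα : ∀ i, Θ (D.α i) = D'.e (δ i) * D'.α (π i)) (ψ : Additive Γ →+ A) :
    (D'.heckeGrp A ψ).comp (MonoidHom.toAdditive θ) =
      D.heckeGrp A (ψ.comp (MonoidHom.toAdditive θ)) := by
  have key : ∀ (γ : Γ) (i : ι), D'.cocycle (θ γ) (π i) =
      (δ i)⁻¹ * θ (D.cocycle γ i) * δ (D.perm γ i) := by
    intro γ i
    apply D'.cocycle_eq (j := π (D.perm γ i))
    have h1 := congrArg Θ (D.spec γ i)
    rw [map_mul, map_mul, hΘ, hΘ, hα, hα] at h1
    rw [map_mul, map_mul, map_inv]
    calc D'.α (π i) * D'.e (θ γ)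
        = (D'.e (δ i))⁻¹ * (D'.e (δ i) * D'.α (π i) * D'.e (θ γ)) := by group
      _ = (D'.e (δ i))⁻¹ * (D'.e (θ (D.cocycle γ i)) *
            (D'.e (δ (D.perm γ i)) * D'.α (π (D.perm γ i)))) := by rw [h1]
      _ = _ := by group
  refine AddMonoidHom.ext fun γ => ?_
  show D'.heckeGrp A ψ (Additive.ofMul (θ (Additive.toMul γ))) =
    D.heckeGrp A (ψ.comp (MonoidHom.toAdditive θ)) γ
  rw [heckeGrp_apply, heckeGrp_apply', ← Equiv.sum_comp π]
  have h2 : ∀ i, ψ (Additive.ofMul (D'.cocycle (θ (Additive.toMul γ)) (π i))) =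
      ψ (Additive.ofMul (θ (D.cocycle (Additive.toMul γ) i))) +
        (ψ (Additive.ofMul (δ (D.perm (Additive.toMul γ) i))) - ψ (Additive.ofMul (δ i))) := by
    intro i
    rw [key, ofMul_mul, ofMul_mul, ofMul_inv, map_add, map_add, map_neg]
    abel
  rw [Finset.sum_congr rfl fun i _ => h2 i, Finset.sum_add_distrib, Finset.sum_sub_distrib]
  have h3 : ∑ i, ψ (Additive.ofMul (δ (D.perm (Additive.toMul γ) i))) =
      ∑ i, ψ (Additive.ofMul (δ i)) :=
    Equiv.sum_comp (D.permEquiv (Additive.toMul γ)) (fun i => ψ (Additive.ofMul (δ i)))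
  rw [h3, sub_self, add_zero]
  rfl

/-- existence form of `heckeGrp_comp_hom` for an automorphism `θ` of `Γ` and an injective `Θ`:
it suffices that `Θ` carries every coset of `D` to some coset of `D'`. -/
theorem heckeGrp_comp_mulEquiv (D' : HeckeDatum Γ G ι) (θ : Γ ≃* Γ) (Θ : G →* G)
    (hΘinj : Function.Injective Θ) (hΘ : ∀ γ, Θ (D.e γ) = D'.e (θ γ))
    (hα : ∀ i, ∃ (j : ι) (δ : Γ), Θ (D.α i) = D'.e δ * D'.α j) (ψ : Additive Γ →+ A) :
    (D'.heckeGrp A ψ).comp (MonoidHom.toAdditive (θ : Γ →* Γ)) =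
      D.heckeGrp A (ψ.comp (MonoidHom.toAdditive (θ : Γ →* Γ))) := by
  choose π δ hπ using hα
  have hinj : Function.Injective π := by
    intro i i' hii
    have h1 := hπ i
    have h2 := hπ i'
    rw [hii] at h1
    have h3 : Θ (D.α i) = Θ (D.e (θ.symm (δ i * (δ i')⁻¹)) * D.α i') := by
      rw [map_mul, hΘ, MulEquiv.apply_symm_apply, h1, h2, map_mul, map_inv]
      group
    exact D.index_eq _ _ _ (hΘinj h3)
  have hbij : Function.Bijective π := Finite.injective_iff_bijective.mp hinj
  exact D.heckeGrp_comp_hom D' (θ : Γ →* Γ) Θ hΘ (Equiv.ofBijective π hbij) δ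
    (fun i => by rw [Equiv.ofBijective_apply]; exact hπ i) ψ

end Equivariance

section Cycle

/-- a sum over a finite set vanishes if all its partial sums along the cycles of a permutation
vanish. -/
theorem sum_eq_zero_of_cycle_sums {ι A : Type*} [Fintype ι] [AddCommGroup A] (σ : Equiv.Perm ι)
    (g : ι → A)
    (h : ∀ (i : ι) (m : ℕ), 0 < m → (σ ^ m) i = i → ∑ k ∈ Finset.range m, g ((σ ^ k) i) = 0) :
    ∑ i, g i = 0 := by
  classical
  have key : ∀ (n : ℕ) (S : Finset ι), S.card = n → (∀ i ∈ S, σ i ∈ S) → ∑ i ∈ S, g i = 0 := by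
    intro n
    induction n using Nat.strong_induction_on with
    | _ n ih =>
      intro S hS hcl
      rcases S.eq_empty_or_nonempty with rfl | ⟨i₀, hi₀⟩
      · simp
      have hper : ∃ m, 0 < m ∧ (σ ^ m) i₀ = i₀ :=
        ⟨orderOf σ, orderOf_pos σ, by rw [pow_orderOf_eq_one]; rfl⟩
      obtain ⟨hm0, hm⟩ := Nat.find_spec hper
      have hmin : ∀ k, 0 < k → k < Nat.find hper → (σ ^ k) i₀ ≠ i₀ :=
        fun k hk hkm hk' => Nat.find_min hper hkm ⟨hk, hk'⟩
      set m := Nat.find hper with hmdef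
      set O := (Finset.range m).image (fun k => (σ ^ k) i₀) with hOdef
      have hinj : Set.InjOn (fun k => (σ ^ k) i₀) (Finset.range m : Set ℕ) := by
        have haux : ∀ a b, a < b → b < m → (σ ^ a) i₀ ≠ (σ ^ b) i₀ := by
          intro a b hab hbm heq
          have h1 : (σ ^ (b - a)) i₀ = i₀ := by
            have h2 : (σ ^ b) i₀ = (σ ^ a) ((σ ^ (b - a)) i₀) := by
              rw [← Equiv.Perm.mul_apply, ← pow_add, Nat.add_sub_cancel' hab.le]
            rw [h2] at heq
            exact ((σ ^ a).injective heq).symm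
          exact hmin (b - a) (by omega) (by omega) h1
        intro a ha b hb hab
        have ha' : a < m := by simpa using ha
        have hb' : b < m := by simpa using hb
        by_contra hne
        rcases lt_or_gt_of_ne hne with hlt | hlt
        · exact haux a b hlt hb' hab
        · exact haux b a hlt ha' hab.symm
      have hO : ∑ i ∈ O, g i = 0 := by
        rw [hOdef, Finset.sum_image hinj]
        exact h i₀ m hm0 hm
      have hpowS : ∀ k, (σ ^ k) i₀ ∈ S := by
        intro k
        induction k with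
        | zero => simpa using hi₀
        | succ k ihk =>
          rw [pow_succ', Equiv.Perm.mul_apply]
          exact hcl _ ihk
      have hOS : O ⊆ S := by
        intro i hi
        rw [hOdef, Finset.mem_image] at hi
        obtain ⟨k, -, rfl⟩ := hi
        exact hpowS k
      have hclO : ∀ i ∈ O, σ i ∈ O := by
        intro i hi
        rw [hOdef, Finset.mem_image] at hi ⊢
        obtain ⟨k, hk, rfl⟩ := hi
        have hk' : k < m := by simpa using hk
        rcases Nat.lt_or_ge (k + 1) m with h1 | h1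
        · exact ⟨k + 1, by simpa using h1, by rw [pow_succ', Equiv.Perm.mul_apply]⟩
        · have hk1 : k + 1 = m := by omega
          refine ⟨0, by simpa using hm0, ?_⟩
          rw [pow_zero, Equiv.Perm.one_apply, ← Equiv.Perm.mul_apply, ← pow_succ', hk1, hm]
      have himg : O.image σ = O := by
        apply Finset.eq_of_subset_of_card_le
        · intro i hi
          rw [Finset.mem_image] at hi
          obtain ⟨j, hj, rfl⟩ := hi
          exact hclO j hj
        · rw [Finset.card_image_of_injective _ σ.injective]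
      have hcl' : ∀ i ∈ S \ O, σ i ∈ S \ O := by
        intro i hi
        rw [Finset.mem_sdiff] at hi ⊢
        refine ⟨hcl i hi.1, fun hσ => hi.2 ?_⟩
        rw [← himg, Finset.mem_image] at hσ
        obtain ⟨j, hj, hji⟩ := hσ
        rwa [← σ.injective hji]
      have hi₀O : i₀ ∈ O := by
        rw [hOdef, Finset.mem_image]
        exact ⟨0, by simpa using hm0, by simp⟩
      have hcard : (S \ O).card < n := by
        rw [← hS]
        apply Finset.card_lt_card
        refine ⟨Finset.sdiff_subset, fun hsub => ?_⟩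
        have := hsub hi₀
        rw [Finset.mem_sdiff] at this
        exact this.2 hi₀O
      rw [← Finset.sum_sdiff hOS, hO, add_zero]
      exact ih _ hcard _ rfl hcl'
  exact key _ Finset.univ rfl (fun i _ => Finset.mem_univ _)

variable [Fintype ι] {A : Type*} [AddCommGroup A]

/-- the cocycle of a power. -/
theorem map_cocycle_pow (ψ : Additive Γ →+ A) (γ : Γ) (m : ℕ) (i : ι) :
    ψ (Additive.ofMul (D.cocycle (γ ^ m) i)) =
      ∑ k ∈ Finset.range m, ψ (Additive.ofMul (D.cocycle γ (((D.permEquiv γ) ^ k) i))) := by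
  induction m with
  | zero => simp
  | succ m ih =>
    rw [pow_succ, D.cocycle_mul, ofMul_mul, map_add, ih, Finset.sum_range_succ, D.perm_pow]

/-- **cycle criterion**: `T ψ` vanishes at `γ` as soon as `ψ` vanishes at the elements
`αᵢ γ^m αᵢ⁻¹` of `Γ` (where `m > 0` and `γ^m` fixes the coset `Γ αᵢ`). -/
theorem heckeGrp_apply_eq_zero (ψ : Additive Γ →+ A) (γ : Γ)
    (h : ∀ (i : ι) (m : ℕ), 0 < m → D.perm (γ ^ m) i = i →
      ψ (Additive.ofMul (D.cocycle (γ ^ m) i)) = 0) :
    D.heckeGrp A ψ (Additive.ofMul γ) = 0 := by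
  rw [heckeGrp_apply]
  apply sum_eq_zero_of_cycle_sums (D.permEquiv γ)
  intro i m hm hi
  rw [← D.map_cocycle_pow]
  exact h i m hm (by rw [D.perm_pow]; exact hi)

/-- if `γ` fixes the coset `Γ αᵢ`, the cocycle is the conjugate `αᵢ γ αᵢ⁻¹`. -/
theorem e_cocycle_of_perm_eq {γ : Γ} {i : ι} (h : D.perm γ i = i) :
    D.e (D.cocycle γ i) = D.α i * D.e γ * (D.α i)⁻¹ := by
  have h1 := D.spec γ i
  rw [h] at h1
  rw [h1, mul_assoc, mul_inv_cancel, mul_one]

end Cycle

end HeckeDatum

end Fermat.Agent.GR
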