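/-
Stage (I), package K6(c) (helper2), part 2: **the Hecke data of `Γ₀(N)`** at a prime `ℓ`:
the cosets `Γ₀(N) (1 b; 0 ℓ)` (`b < ℓ`) and, for `ℓ ∤ N`, `Γ₀(N) (ℓ 0; 0 1)`, with the Prelude's
matrices `heckeMatrix ℓ b`, `heckeDiagMatrix ℓ` as representatives.
-/
import Mathlib
import Fermat.Prelude.Def_ModularForm_HeckeOperator
import Fermat.Agent.GR.HGRP_helper2_Abstract
import Fermat.Agent.Igusa.A_helper2_Hermite

set_option autoImplicit false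
set_option linter.unnecessarySeqFocus false

namespace Fermat.Agent.GR

open CongruenceSubgroup ModularForm Matrix
open scoped MatrixGroups

/-- the embedding `Γ₀(N) → GL₂(ℝ)`. -/
noncomputable def gammaEmb (N : ℕ) : Gamma0 N →* GL (Fin 2) ℝ :=
  (Matrix.SpecialLinearGroup.mapGL ℝ).comp (Gamma0 N).subtype

theorem gammaEmb_apply (N : ℕ) (γ : Gamma0 N) :
    gammaEmb N γ = ((γ : SL(2, ℤ)) : GL (Fin 2) ℝ) := rfl

theorem gammaEmb_injective (N : ℕ) : Function.Injective (gammaEmb N) :=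
  Matrix.SpecialLinearGroup.mapGL_injective.comp Subtype.val_injective

/-- integral upper triangular matrices. -/
def utZ (a b d : ℤ) : Matrix (Fin 2) (Fin 2) ℤ := !![a, b; 0, d]

theorem utZ_mul_eq_iff (a b d a' b' d' : ℤ) (γ δ : SL(2, ℤ)) :
    utZ a b d * (γ : Matrix (Fin 2) (Fin 2) ℤ) = (δ : Matrix (Fin 2) (Fin 2) ℤ) * utZ a' b' d' ↔
      (a * γ 0 0 + b * γ 1 0 = δ 0 0 * a' ∧
        a * γ 0 1 + b * γ 1 1 = δ 0 0 * b' + δ 0 1 * d' ∧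
        d * γ 1 0 = δ 1 0 * a' ∧
        d * γ 1 1 = δ 1 0 * b' + δ 1 1 * d') := by
  rw [← Matrix.ext_iff]
  simp only [Fin.forall_fin_two, utZ, Matrix.mul_apply, Fin.sum_univ_two, Matrix.of_apply,
    Matrix.cons_val', Matrix.cons_val_zero, Matrix.cons_val_one, Matrix.cons_val_fin_one,
    zero_mul, mul_zero, zero_add, add_zero]
  tauto

/-- the entries of the Hecke representatives. -/
def repA (ℓ : ℕ) : Option (Fin ℓ) → ℤ
  | none => ℓ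
  | some _ => 1

def repB (ℓ : ℕ) : Option (Fin ℓ) → ℤ
  | none => 0
  | some b => (b : ℕ)

def repD (ℓ : ℕ) : Option (Fin ℓ) → ℤ
  | none => 1
  | some _ => ℓ

def heckeRepZ (ℓ : ℕ) (i : Option (Fin ℓ)) : Matrix (Fin 2) (Fin 2) ℤ :=
  utZ (repA ℓ i) (repB ℓ i) (repD ℓ i)

/-- the Hecke representatives `(ℓ 0; 0 1)`, `(1 b; 0 ℓ)` in `GL₂(ℝ)`. -/
noncomputable def heckeRep (ℓ : ℕ) : Option (Fin ℓ) → GL (Fin 2) ℝ
  | none => heckeDiagMatrix ℓ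
  | some b => heckeMatrix ℓ (b : ℕ)

theorem val_heckeRep {ℓ : ℕ} (hℓ : ℓ ≠ 0) (i : Option (Fin ℓ)) :
    ((heckeRep ℓ i : GL (Fin 2) ℝ) : Matrix (Fin 2) (Fin 2) ℝ) =
      (heckeRepZ ℓ i).map (Int.castRingHom ℝ) := by
  cases i with
  | none =>
    show ((heckeDiagMatrix ℓ : GL (Fin 2) ℝ) : Matrix (Fin 2) (Fin 2) ℝ) = _
    rw [val_heckeDiagMatrix hℓ]
    ext i j
    fin_cases i <;> fin_cases j <;> simp [heckeRepZ, utZ, repA, repB, repD]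
  | some b =>
    show ((heckeMatrix ℓ (b : ℕ) : GL (Fin 2) ℝ) : Matrix (Fin 2) (Fin 2) ℝ) = _
    rw [val_heckeMatrix hℓ]
    ext i j
    fin_cases i <;> fin_cases j <;> simp [heckeRepZ, utZ, repA, repB, repD]

theorem val_mapGL_eq (γ : SL(2, ℤ)) :
    ((γ : GL (Fin 2) ℝ) : Matrix (Fin 2) (Fin 2) ℝ) =
      (γ : Matrix (Fin 2) (Fin 2) ℤ).map (Int.castRingHom ℝ) :=
  Matrix.SpecialLinearGroup.mapGL_coe_matrix γ

/-- an identity between Hecke representatives and elements of `SL₂(ℤ)` in `GL₂(ℝ)` is an identity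
of integral matrices. -/
theorem heckeRep_mul_eq_iff {ℓ : ℕ} (hℓ : ℓ ≠ 0) (i j : Option (Fin ℓ)) (γ δ : SL(2, ℤ)) :
    heckeRep ℓ i * (γ : GL (Fin 2) ℝ) = (δ : GL (Fin 2) ℝ) * heckeRep ℓ j ↔
      heckeRepZ ℓ i * (γ : Matrix (Fin 2) (Fin 2) ℤ) =
        (δ : Matrix (Fin 2) (Fin 2) ℤ) * heckeRepZ ℓ j := by
  rw [← Units.val_inj, Units.val_mul, Units.val_mul, val_heckeRep hℓ, val_heckeRep hℓ,
    val_mapGL_eq, val_mapGL_eq, ← Matrix.map_mul, ← Matrix.map_mul]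
  exact (Matrix.map_injective (Int.castRingHom ℝ).injective_int).eq_iff

theorem heckeRepZ_eq_utZ {ℓ : ℕ} (hℓ : 0 < ℓ) (i : Option (Fin ℓ)) :
    ∃ a b d : ℤ, 0 < a ∧ 0 < d ∧ a * d = ℓ ∧ heckeRepZ ℓ i = utZ a b d := by
  cases i with
  | none => exact ⟨ℓ, 0, 1, by exact_mod_cast hℓ, one_pos, mul_one _, rfl⟩
  | some b => exact ⟨1, (b : ℕ), ℓ, one_pos, by exact_mod_cast hℓ, one_mul _, rfl⟩

theorem exists_heckeRepZ_eq {ℓ : ℕ} (hℓ : ℓ.Prime) (a b d : ℤ) (ha : 0 < a) (hd : 0 < d)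
    (had : a * d = ℓ) (hb0 : 0 ≤ b) (hbd : b < d) :
    ∃ j : Option (Fin ℓ), heckeRepZ ℓ j = utZ a b d := by
  lift a to ℕ using ha.le
  lift d to ℕ using hd.le
  lift b to ℕ using hb0
  have had' : a * d = ℓ := by exact_mod_cast had
  have hbd' : b < d := by exact_mod_cast hbd
  rcases hℓ.eq_one_or_self_of_dvd a ⟨d, had'.symm⟩ with h1 | h1
  · subst h1
    rw [one_mul] at had'
    subst had'
    exact ⟨some ⟨b, hbd'⟩, rfl⟩
  · subst h1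
    have hd1 : d = 1 := by
      have := hℓ.pos
      nlinarith [Nat.eq_of_mul_eq_mul_left this (show a * d = a * 1 by rw [had', mul_one])]
    subst hd1
    have hb : b = 0 := by omega
    subst hb
    exact ⟨none, rfl⟩

/-- **right multiplication by `SL₂(ℤ)` permutes the cosets** (`ℓ` prime). -/
theorem exists_heckeRepZ_mul {ℓ : ℕ} (hℓ : ℓ.Prime) (i : Option (Fin ℓ)) (γ : SL(2, ℤ)) :
    ∃ (j : Option (Fin ℓ)) (δ : SL(2, ℤ)),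
      heckeRepZ ℓ i * (γ : Matrix (Fin 2) (Fin 2) ℤ) =
        (δ : Matrix (Fin 2) (Fin 2) ℤ) * heckeRepZ ℓ j := by
  obtain ⟨a, b, d, ha, hd, had, hi⟩ := heckeRepZ_eq_utZ hℓ.pos i
  obtain ⟨δ, a', b', d', ha', hd', had', hb0, hbd, h00, h01, h10, h11⟩ :=
    Fermat.Agent.Igusa.exists_hnf a b d ha hd γ
  obtain ⟨j, hj⟩ := exists_heckeRepZ_eq hℓ a' b' d' ha' hd' (had'.trans had) hb0 hbd
  refine ⟨j, δ, ?_⟩
  rw [hi, hj, utZ_mul_eq_iff]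
  exact ⟨h00, h01, h10, h11⟩

theorem SL2_det_eq (γ : SL(2, ℤ)) : γ 0 0 * γ 1 1 - γ 0 1 * γ 1 0 = 1 := by
  have := γ.det_coe
  rwa [Matrix.det_fin_two] at this

theorem repA_dvd (ℓ : ℕ) (i : Option (Fin ℓ)) : repA ℓ i ∣ (ℓ : ℤ) := by
  cases i with
  | none => exact dvd_rfl
  | some b => exact one_dvd _

theorem repA_mul_repD (ℓ : ℕ) (i : Option (Fin ℓ)) : repA ℓ i * repD ℓ i = ℓ := by
  cases i with
  | none => exact mul_one _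
  | some b => exact one_mul _

/-- **`Γ₀(N)` is preserved** (`ℓ ∤ N`). -/
theorem mem_Gamma0_of_heckeRepZ_mul {N ℓ : ℕ} (hℓ : ℓ.Prime) (hℓN : ¬ ℓ ∣ N)
    {i j : Option (Fin ℓ)} {γ δ : SL(2, ℤ)}
    (h : heckeRepZ ℓ i * (γ : Matrix (Fin 2) (Fin 2) ℤ) =
      (δ : Matrix (Fin 2) (Fin 2) ℤ) * heckeRepZ ℓ j) (hγ : γ ∈ Gamma0 N) : δ ∈ Gamma0 N := by
  rw [heckeRepZ, heckeRepZ, utZ_mul_eq_iff] at h
  obtain ⟨-, -, h10, -⟩ := h
  rw [Gamma0_mem, ZMod.intCast_zmod_eq_zero_iff_dvd] at hγ ⊢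
  have h1 : (N : ℤ) ∣ δ 1 0 * repA ℓ j := by
    rw [← h10]
    exact Dvd.dvd.mul_left hγ _
  have hcop : IsCoprime (N : ℤ) (repA ℓ j) := by
    have h2 : IsCoprime (N : ℤ) (ℓ : ℤ) := by
      rw [Int.isCoprime_iff_gcd_eq_one, Int.gcd_natCast_natCast]
      exact (Nat.Coprime.symm ((Nat.Prime.coprime_iff_not_dvd hℓ).mpr hℓN))
    exact h2.of_isCoprime_of_dvd_right (repA_dvd ℓ j)
  exact hcop.dvd_of_dvd_mul_right h1

/-- **the `U`-case** (`ℓ ∣ N`): the cosets `Γ (1 b; 0 ℓ)` are permuted among themselves by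
`Γ₀(N)`, and `Γ₀(N)` is preserved. -/
theorem some_of_heckeRepZ_mul {N ℓ : ℕ} (hℓ : ℓ.Prime) (hℓN : ℓ ∣ N)
    {b : Fin ℓ} {j : Option (Fin ℓ)} {γ δ : SL(2, ℤ)}
    (h : heckeRepZ ℓ (some b) * (γ : Matrix (Fin 2) (Fin 2) ℤ) =
      (δ : Matrix (Fin 2) (Fin 2) ℤ) * heckeRepZ ℓ j) (hγ : γ ∈ Gamma0 N) :
    (∃ b' : Fin ℓ, j = some b') ∧ δ ∈ Gamma0 N := by
  rw [Gamma0_mem, ZMod.intCast_zmod_eq_zero_iff_dvd] at hγ
  have hℓγ : (ℓ : ℤ) ∣ γ 1 0 := dvd_trans (by exact_mod_cast hℓN) hγ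
  cases j with
  | none =>
    exfalso
    rw [heckeRepZ, heckeRepZ, utZ_mul_eq_iff] at h
    obtain ⟨h00, -, -, -⟩ := h
    simp only [repA, repB] at h00
    have h1 : (ℓ : ℤ) ∣ γ 0 0 := by
      have h2 : (ℓ : ℤ) ∣ 1 * γ 0 0 + ((b : ℕ) : ℤ) * γ 1 0 := ⟨δ 0 0, by rw [h00]; ring⟩
      have h3 : (ℓ : ℤ) ∣ ((b : ℕ) : ℤ) * γ 1 0 := Dvd.dvd.mul_left hℓγ _
      have := (Int.dvd_add_left h3).mp h2
      rwa [one_mul] at this
    have h4 : (ℓ : ℤ) ∣ 1 := by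
      rw [← SL2_det_eq γ]
      exact dvd_sub (Dvd.dvd.mul_right h1 _) (Dvd.dvd.mul_left hℓγ _)
    have h5 : ℓ ∣ 1 := by exact_mod_cast h4
    exact hℓ.one_lt.ne' (Nat.dvd_one.mp h5)
  | some b' =>
    refine ⟨⟨b', rfl⟩, ?_⟩
    rw [heckeRepZ, heckeRepZ, utZ_mul_eq_iff] at h
    obtain ⟨-, -, h10, -⟩ := h
    simp only [repA, repD, mul_one] at h10
    rw [Gamma0_mem, ZMod.intCast_zmod_eq_zero_iff_dvd, ← h10]
    exact Dvd.dvd.mul_left hγ _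

/-- **the cosets are pairwise distinct.** -/
theorem eq_of_heckeRepZ_eq {ℓ : ℕ} (hℓ : 1 < ℓ) {i j : Option (Fin ℓ)} {δ : SL(2, ℤ)}
    (h : heckeRepZ ℓ i = (δ : Matrix (Fin 2) (Fin 2) ℤ) * heckeRepZ ℓ j) : i = j := by
  have h' : heckeRepZ ℓ i * ((1 : SL(2, ℤ)) : Matrix (Fin 2) (Fin 2) ℤ) =
      (δ : Matrix (Fin 2) (Fin 2) ℤ) * heckeRepZ ℓ j := by
    rw [Matrix.SpecialLinearGroup.coe_one, mul_one, h]
  rw [heckeRepZ, heckeRepZ, utZ_mul_eq_iff] at h'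
  obtain ⟨h00, h01, h10, h11⟩ := h'
  simp only [Matrix.SpecialLinearGroup.coe_one, Matrix.one_apply_eq, Matrix.one_apply_ne,
    ne_eq, one_ne_zero, zero_ne_one, not_false_eq_true, mul_one, mul_zero, add_zero,
    zero_add] at h00 h01 h10 h11
  have hdet := SL2_det_eq δ
  have hℓ' : (1 : ℤ) < ℓ := by exact_mod_cast hℓ
  have hApos : ∀ k : Option (Fin ℓ), 0 < repA ℓ k := by
    intro k; cases k <;> simp [repA] <;> omega
  have hδ10 : δ 1 0 = 0 := by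
    rcases mul_eq_zero.mp h10.symm with h | h
    · exact h
    · exact absurd h (hApos j).ne'
  rw [hδ10, mul_zero, sub_zero] at hdet
  rw [hδ10, zero_mul, zero_add] at h11
  -- `δ 0 0 = δ 1 1 = 1`
  -- `δ 0 0 = δ 1 1 = 1`
  have h1 : δ 0 0 = 1 ∧ δ 1 1 = 1 := by
    rcases Int.mul_eq_one_iff_eq_one_or_neg_one.mp hdet with h | h
    · exact h
    · exfalso
      have := hApos i
      rw [h00, h.1] at this
      have := hApos j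
      linarith
  rw [h1.1, one_mul] at h00
  rw [h1.1, one_mul] at h01
  rw [h1.2, one_mul] at h11
  cases i with
  | none =>
    cases j with
    | none => rfl
    | some b' =>
      exfalso
      simp only [repA] at h00
      omega
  | some b =>
    cases j with
    | none =>
      exfalso
      simp only [repA] at h00
      omega
    | some b' =>
      simp only [repB, repD] at h01
      have hb : ((b : ℕ) : ℤ) < ℓ := by exact_mod_cast b.2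
      have hb' : ((b' : ℕ) : ℤ) < ℓ := by exact_mod_cast b'.2
      have hb0 : (0 : ℤ) ≤ ((b : ℕ) : ℤ) := by positivity
      have hb0' : (0 : ℤ) ≤ ((b' : ℕ) : ℤ) := by positivity
      have h2 : ((b : ℕ) : ℤ) % ℓ = ((b' : ℕ) : ℤ) % ℓ := by
        rw [h01, Int.add_mul_emod_self_right]
      rw [Int.emod_eq_of_lt hb0 hb, Int.emod_eq_of_lt hb0' hb'] at h2
      have h3 : (b : ℕ) = (b' : ℕ) := by exact_mod_cast h2
      rw [Fin.ext h3]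

/-- **the Hecke datum of `T_ℓ`** (`ℓ ∤ N`): the `ℓ + 1` cosets of `Γ₀(N) (1 0; 0 ℓ) Γ₀(N)`. -/
noncomputable def heckeDatumT (N ℓ : ℕ) (hℓ : ℓ.Prime) (hℓN : ¬ ℓ ∣ N) :
    HeckeDatum (Gamma0 N) (GL (Fin 2) ℝ) (Option (Fin ℓ)) where
  e := gammaEmb N
  e_inj := gammaEmb_injective N
  α := heckeRep ℓ
  exists_eq γ i := by
    obtain ⟨j, δ, h⟩ := exists_heckeRepZ_mul hℓ i (γ : SL(2, ℤ))
    have hδ : δ ∈ Gamma0 N := mem_Gamma0_of_heckeRepZ_mul hℓ hℓN h γ.2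
    exact ⟨j, ⟨δ, hδ⟩, (heckeRep_mul_eq_iff hℓ.ne_zero i j _ _).mpr h⟩
  index_eq i j γ' h := by
    have h1 : heckeRep ℓ i * ((1 : SL(2, ℤ)) : GL (Fin 2) ℝ) =
        ((γ' : SL(2, ℤ)) : GL (Fin 2) ℝ) * heckeRep ℓ j := by
      have h0 : ((1 : SL(2, ℤ)) : GL (Fin 2) ℝ) = 1 :=
        map_one (Matrix.SpecialLinearGroup.mapGL ℝ)
      rw [h0, mul_one]
      exact h
    have h2 := (heckeRep_mul_eq_iff hℓ.ne_zero i j _ _).mp h1
    rw [Matrix.SpecialLinearGroup.coe_one, mul_one] at h2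
    exact eq_of_heckeRepZ_eq hℓ.one_lt h2

/-- **the Hecke datum of `U_ℓ`** (`ℓ ∣ N`): the `ℓ` cosets of `Γ₀(N) (1 0; 0 ℓ) Γ₀(N)`. -/
noncomputable def heckeDatumU (N ℓ : ℕ) (hℓ : ℓ.Prime) (hℓN : ℓ ∣ N) :
    HeckeDatum (Gamma0 N) (GL (Fin 2) ℝ) (Fin ℓ) where
  e := gammaEmb N
  e_inj := gammaEmb_injective N
  α b := heckeRep ℓ (some b)
  exists_eq γ b := by
    obtain ⟨j, δ, h⟩ := exists_heckeRepZ_mul hℓ (some b) (γ : SL(2, ℤ))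
    obtain ⟨⟨b', rfl⟩, hδ⟩ := some_of_heckeRepZ_mul hℓ hℓN h γ.2
    exact ⟨b', ⟨δ, hδ⟩, (heckeRep_mul_eq_iff hℓ.ne_zero _ _ _ _).mpr h⟩
  index_eq b b' γ' h := by
    have h1 : heckeRep ℓ (some b) * ((1 : SL(2, ℤ)) : GL (Fin 2) ℝ) =
        ((γ' : SL(2, ℤ)) : GL (Fin 2) ℝ) * heckeRep ℓ (some b') := by
      have h0 : ((1 : SL(2, ℤ)) : GL (Fin 2) ℝ) = 1 :=
        map_one (Matrix.SpecialLinearGroup.mapGL ℝ)
      rw [h0, mul_one]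
      exact h
    have h2 := (heckeRep_mul_eq_iff hℓ.ne_zero _ _ _ _).mp h1
    rw [Matrix.SpecialLinearGroup.coe_one, mul_one] at h2
    exact Option.some_injective _ (eq_of_heckeRepZ_eq hℓ.one_lt h2)

@[simp] theorem heckeDatumT_e (N ℓ : ℕ) (hℓ : ℓ.Prime) (hℓN : ¬ ℓ ∣ N) :
    (heckeDatumT N ℓ hℓ hℓN).e = gammaEmb N := rfl

@[simp] theorem heckeDatumT_α_none (N ℓ : ℕ) (hℓ : ℓ.Prime) (hℓN : ¬ ℓ ∣ N) :
    (heckeDatumT N ℓ hℓ hℓN).α none = heckeDiagMatrix ℓ := rfl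

@[simp] theorem heckeDatumT_α_some (N ℓ : ℕ) (hℓ : ℓ.Prime) (hℓN : ¬ ℓ ∣ N) (b : Fin ℓ) :
    (heckeDatumT N ℓ hℓ hℓN).α (some b) = heckeMatrix ℓ (b : ℕ) := rfl

@[simp] theorem heckeDatumU_e (N ℓ : ℕ) (hℓ : ℓ.Prime) (hℓN : ℓ ∣ N) :
    (heckeDatumU N ℓ hℓ hℓN).e = gammaEmb N := rfl

@[simp] theorem heckeDatumU_α (N ℓ : ℕ) (hℓ : ℓ.Prime) (hℓN : ℓ ∣ N) (b : Fin ℓ) :
    (heckeDatumU N ℓ hℓ hℓN).α b = heckeMatrix ℓ (b : ℕ) := rfl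

end Fermat.Agent.GR
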