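/-
Stage (I), package K6(c) (helper2), part 3: the Hecke operators `T_ℓ`, `U_ℓ` on
`Hom(Γ₀(N), A)` preserve the parabolic homomorphisms and commute with the involution
`ψ ↦ ψ ∘ (γ ↦ J γ J⁻¹)` (`charInvolution`).
-/
import Mathlib
import Fermat.Agent.GR.HGRP_helper2_Gamma0
import Fermat.Prelude.Def_ModularCurve_PeriodHomPair

set_option autoImplicit false
set_option linter.unnecessarySeqFocus false
set_option linter.unusedSectionVars false

namespace Fermat.Agent.GR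

open CongruenceSubgroup ModularForm Matrix ModularCurve.Period
open scoped MatrixGroups

/-- Cayley–Hamilton for `2 × 2` matrices. -/
theorem mul_self_fin_two (M : Matrix (Fin 2) (Fin 2) ℤ) :
    M * M = M.trace • M - M.det • (1 : Matrix (Fin 2) (Fin 2) ℤ) := by
  ext i j
  fin_cases i <;> fin_cases j <;>
    simp only [Matrix.mul_apply, Fin.sum_univ_two, Matrix.trace_fin_two, Matrix.det_fin_two,
      Matrix.sub_apply, Matrix.smul_apply, Matrix.one_apply_eq, Matrix.one_apply_ne, smul_eq_mul,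
      Fin.zero_eta, Fin.mk_one, Fin.isValue, ne_eq, one_ne_zero, zero_ne_one, not_false_eq_true,
      mul_zero, mul_one, sub_zero] <;> ring

/-- powers of a parabolic (or `± 1`) element of `SL₂(ℤ)` are parabolic (or `± 1`). -/
theorem trace_pow_sq_eq_four (γ : SL(2, ℤ))
    (h : (γ : Matrix (Fin 2) (Fin 2) ℤ).trace ^ 2 = 4) (m : ℕ) :
    ((γ ^ m : SL(2, ℤ)) : Matrix (Fin 2) (Fin 2) ℤ).trace ^ 2 = 4 := by
  set M : Matrix (Fin 2) (Fin 2) ℤ := (γ : Matrix (Fin 2) (Fin 2) ℤ) with hM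
  set t := M.trace with ht
  have hdet : M.det = 1 := γ.det_coe
  have hrec : ∀ k : ℕ, (M ^ (k + 2)).trace = t * (M ^ (k + 1)).trace - (M ^ k).trace := by
    intro k
    have h1 : M ^ (k + 2) = (M * M) * M ^ k := by rw [pow_succ', pow_succ', ← mul_assoc]
    rw [h1, mul_self_fin_two, hdet, one_smul, sub_mul, one_mul, smul_mul_assoc, Matrix.trace_sub,
      Matrix.trace_smul, smul_eq_mul, ← pow_succ']
  have key : ∀ k : ℕ, (M ^ k).trace ^ 2 = 4 ∧ 2 * (M ^ (k + 1)).trace = t * (M ^ k).trace := by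
    intro k
    induction k with
    | zero =>
      refine ⟨by simp, ?_⟩
      simp [← ht]
      ring
    | succ k ih =>
      obtain ⟨ih1, ih2⟩ := ih
      have h2 : (M ^ (k + 1)).trace ^ 2 = 4 := by
        have : (2 * (M ^ (k + 1)).trace) ^ 2 = 16 := by
          rw [ih2, mul_pow, h, ih1]; norm_num
        nlinarith
      refine ⟨h2, ?_⟩
      rw [hrec k]
      have h3 : t * (2 * (M ^ (k + 1)).trace) = 4 * (M ^ k).trace := by
        rw [ih2, ← mul_assoc, ← pow_two, h]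
      linarith
  rw [Matrix.SpecialLinearGroup.coe_pow]
  exact (key m).1

theorem trace_gammaEmb {N : ℕ} (γ : Gamma0 N) :
    ((gammaEmb N γ : GL (Fin 2) ℝ) : Matrix (Fin 2) (Fin 2) ℝ).trace =
      (((γ : SL(2, ℤ)) : Matrix (Fin 2) (Fin 2) ℤ).trace : ℝ) := by
  rw [gammaEmb_apply, val_mapGL_eq, Matrix.trace_fin_two, Matrix.trace_fin_two]
  simp

variable {N : ℕ} {ι : Type*} [Fintype ι] (D : HeckeDatum (Gamma0 N) (GL (Fin 2) ℝ) ι)

/-- **the Hecke operators preserve the parabolic homomorphisms** (any coefficient group). -/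
theorem heckeGrp_mem_parabolicHoms (hD : D.e = gammaEmb N) (R : Type*) [Semiring R]
    {A : Type*} [AddCommGroup A] [Module R A] {ψ : Additive (Gamma0 N) →+ A}
    (hψ : ψ ∈ parabolicHoms R (Gamma0 N) A) :
    D.heckeGrp A ψ ∈ parabolicHoms R (Gamma0 N) A := by
  rw [mem_parabolicHoms_iff] at hψ ⊢
  intro γ hγ
  apply D.heckeGrp_apply_eq_zero
  intro i m hm hi
  apply hψ
  have h1 := D.e_cocycle_of_perm_eq hi
  rw [hD] at h1
  have h2 : ((gammaEmb N (D.cocycle (γ ^ m) i) : GL (Fin 2) ℝ) : Matrix (Fin 2) (Fin 2) ℝ).trace =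
      ((gammaEmb N (γ ^ m) : GL (Fin 2) ℝ) : Matrix (Fin 2) (Fin 2) ℝ).trace := by
    rw [h1, Units.val_mul, Units.val_mul]
    exact Matrix.trace_units_conj (D.α i) _
  rw [trace_gammaEmb, trace_gammaEmb] at h2
  have h3 : (((D.cocycle (γ ^ m) i : Gamma0 N) : SL(2, ℤ)) : Matrix (Fin 2) (Fin 2) ℤ).trace =
      (((γ ^ m : Gamma0 N) : SL(2, ℤ)) : Matrix (Fin 2) (Fin 2) ℤ).trace := by
    exact_mod_cast h2
  rw [h3, SubgroupClass.coe_pow]
  exact trace_pow_sq_eq_four _ hγ m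

theorem J_inv : (UpperHalfPlane.J)⁻¹ = UpperHalfPlane.J := by
  apply inv_eq_of_mul_eq_one_right
  rw [← pow_two, UpperHalfPlane.J_sq]

/-- conjugation by `J = diag(-1, 1)` on integral matrices, in `GL₂(ℝ)`. -/
theorem val_conjJ_map (M : Matrix (Fin 2) (Fin 2) ℤ) :
    (UpperHalfPlane.J : Matrix (Fin 2) (Fin 2) ℝ) * M.map (Int.castRingHom ℝ) *
      (UpperHalfPlane.J : Matrix (Fin 2) (Fin 2) ℝ) = (jConjMat M).map (Int.castRingHom ℝ) := by
  rw [UpperHalfPlane.val_J]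
  ext i j
  fin_cases i <;> fin_cases j <;>
    simp [Matrix.mul_apply, Fin.sum_univ_two, jConjMat, Matrix.vecMul, dotProduct]

theorem conjJ_gammaEmb {N : ℕ} (γ : Gamma0 N) :
    UpperHalfPlane.J * gammaEmb N γ * (UpperHalfPlane.J)⁻¹ = gammaEmb N (jConjGamma0 N γ) := by
  rw [J_inv]
  apply Units.ext
  rw [Units.val_mul, Units.val_mul, gammaEmb_apply, gammaEmb_apply, val_mapGL_eq, val_mapGL_eq,
    val_conjJ_map]
  rfl

theorem jConjMat_utZ (a b d : ℤ) : jConjMat (utZ a b d) = utZ a (-b) d := by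
  ext i j
  fin_cases i <;> fin_cases j <;> simp [jConjMat, utZ]

/-- every integral upper triangular matrix of determinant `ℓ` with positive diagonal lies in one of
the cosets, with a translation as `SL₂(ℤ)`-factor. -/
theorem exists_heckeRepZ_eq_mul {ℓ : ℕ} (hℓ : ℓ.Prime) (a b d : ℤ) (ha : 0 < a) (hd : 0 < d)
    (had : a * d = ℓ) :
    ∃ (j : Option (Fin ℓ)) (δ : SL(2, ℤ)), δ 1 0 = 0 ∧ repA ℓ j = a ∧
      utZ a b d = (δ : Matrix (Fin 2) (Fin 2) ℤ) * heckeRepZ ℓ j := by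
  obtain ⟨δ, a', b', d', ha', hd', had', hb0, hbd, h00, h01, h10, h11⟩ :=
    Fermat.Agent.Igusa.exists_hnf a b d ha hd 1
  obtain ⟨j, hj⟩ := exists_heckeRepZ_eq hℓ a' b' d' ha' hd' (had'.trans had) hb0 hbd
  simp only [Matrix.SpecialLinearGroup.coe_one, Matrix.one_apply_eq, Matrix.one_apply_ne,
    ne_eq, one_ne_zero, zero_ne_one, not_false_eq_true, mul_one, mul_zero, add_zero,
    zero_add] at h00 h01 h10 h11
  have hδ10 : δ 1 0 = 0 := by
    rcases mul_eq_zero.mp h10.symm with h | h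
    · exact h
    · exact absurd h ha'.ne'
  have hdet := SL2_det_eq δ
  rw [hδ10, mul_zero, sub_zero] at hdet
  have h1 : δ 0 0 = 1 := by
    rcases Int.mul_eq_one_iff_eq_one_or_neg_one.mp hdet with h | h
    · exact h.1
    · exfalso
      rw [h00, h.1] at ha
      linarith
  have hjA : repA ℓ j = a' := by
    have h2 := congrFun (congrFun hj 0) 0
    simpa [heckeRepZ, utZ] using h2
  refine ⟨j, δ, hδ10, ?_, ?_⟩
  · rw [hjA, h00, h1, one_mul]
  · have h3 : utZ a b d * ((1 : SL(2, ℤ)) : Matrix (Fin 2) (Fin 2) ℤ) =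
        (δ : Matrix (Fin 2) (Fin 2) ℤ) * utZ a' b' d' := by
      rw [utZ_mul_eq_iff]
      simp only [Matrix.SpecialLinearGroup.coe_one, Matrix.one_apply_eq, Matrix.one_apply_ne,
        ne_eq, one_ne_zero, zero_ne_one, not_false_eq_true, mul_one, mul_zero, add_zero,
        zero_add]
      exact ⟨h00, h01, h10, h11⟩
    rw [Matrix.SpecialLinearGroup.coe_one, mul_one] at h3
    rw [h3, hj]

/-- conjugation by `J` permutes the cosets of the Hecke datum. -/
theorem exists_conjJ_heckeRep {N ℓ : ℕ} (hℓ : ℓ.Prime) (i : Option (Fin ℓ)) :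
    ∃ (j : Option (Fin ℓ)) (δ : Gamma0 N), repA ℓ j = repA ℓ i ∧
      UpperHalfPlane.J * heckeRep ℓ i * (UpperHalfPlane.J)⁻¹ = gammaEmb N δ * heckeRep ℓ j := by
  have hApos : 0 < repA ℓ i := by
    cases i <;> simp [repA]
    exact hℓ.pos
  have hDpos : 0 < repD ℓ i := by
    cases i <;> simp [repD]
    exact hℓ.pos
  obtain ⟨j, δ, hδ, hj, h⟩ := exists_heckeRepZ_eq_mul hℓ (repA ℓ i) (-repB ℓ i) (repD ℓ i)
    hApos hDpos (repA_mul_repD ℓ i)
  have hδmem : δ ∈ Gamma0 N := by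
    rw [Gamma0_mem, hδ]
    exact Int.cast_zero
  refine ⟨j, ⟨δ, hδmem⟩, hj, ?_⟩
  rw [J_inv]
  apply Units.ext
  rw [Units.val_mul, Units.val_mul, Units.val_mul, val_heckeRep hℓ.ne_zero, val_heckeRep hℓ.ne_zero,
    gammaEmb_apply, val_mapGL_eq, val_conjJ_map, ← Matrix.map_mul]
  have h4 : jConjMat (heckeRepZ ℓ i) = (δ : Matrix (Fin 2) (Fin 2) ℤ) * heckeRepZ ℓ j := by
    rw [heckeRepZ, jConjMat_utZ, h]
  rw [h4]

/-- the involution `γ ↦ J γ J⁻¹` of `Γ₀(N)` as a group automorphism. -/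
def jConjEquiv (N : ℕ) : Gamma0 N ≃* Gamma0 N where
  toFun := jConjGamma0 N
  invFun := jConjGamma0 N
  left_inv := jConjGamma0_jConjGamma0 N
  right_inv := jConjGamma0_jConjGamma0 N
  map_mul' := map_mul (jConjGamma0 N)

theorem coe_jConjEquiv (N : ℕ) : ((jConjEquiv N : Gamma0 N ≃* Gamma0 N) : Gamma0 N →* Gamma0 N) =
    jConjGamma0 N := rfl

section

variable {N ℓ : ℕ} (hℓ : ℓ.Prime) (R : Type*) [Semiring R] {A : Type*} [AddCommGroup A] [Module R A]

/-- **`T_ℓ` commutes with the involution `ψ ↦ ψ ∘ (γ ↦ J γ J⁻¹)`.** -/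
theorem heckeDatumT_charInvolution (hℓN : ¬ ℓ ∣ N) (ψ : Additive (Gamma0 N) →+ A) :
    (heckeDatumT N ℓ hℓ hℓN).heckeGrp A (charInvolution N R A ψ) =
      charInvolution N R A ((heckeDatumT N ℓ hℓ hℓN).heckeGrp A ψ) := by
  have h := (heckeDatumT N ℓ hℓ hℓN).heckeGrp_comp_mulEquiv (heckeDatumT N ℓ hℓ hℓN)
    (jConjEquiv N) (MulAut.conj UpperHalfPlane.J).toMonoidHom (MulAut.conj UpperHalfPlane.J).injective
    (fun γ => conjJ_gammaEmb γ)
    (fun i => by
      obtain ⟨j, δ, -, h⟩ := exists_conjJ_heckeRep (N := N) hℓ i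
      exact ⟨j, δ, h⟩) ψ
  exact h.symm

/-- **`U_ℓ` commutes with the involution.** -/
theorem heckeDatumU_charInvolution (hℓN : ℓ ∣ N) (ψ : Additive (Gamma0 N) →+ A) :
    (heckeDatumU N ℓ hℓ hℓN).heckeGrp A (charInvolution N R A ψ) =
      charInvolution N R A ((heckeDatumU N ℓ hℓ hℓN).heckeGrp A ψ) := by
  have h := (heckeDatumU N ℓ hℓ hℓN).heckeGrp_comp_mulEquiv (heckeDatumU N ℓ hℓ hℓN)
    (jConjEquiv N) (MulAut.conj UpperHalfPlane.J).toMonoidHom (MulAut.conj UpperHalfPlane.J).injective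
    (fun γ => conjJ_gammaEmb γ)
    (fun b => by
      obtain ⟨j, δ, hj, h⟩ := exists_conjJ_heckeRep (N := N) hℓ (some b)
      cases j with
      | none =>
        exfalso
        simp only [repA] at hj
        have := hℓ.one_lt
        omega
      | some b' => exact ⟨b', δ, h⟩) ψ
  exact h.symm

end


section Restrict

variable {N : ℕ} {ι : Type*} [Fintype ι] (D : HeckeDatum (Gamma0 N) (GL (Fin 2) ℝ) ι)
  (hD : D.e = gammaEmb N) (R : Type*) [Semiring R] (A : Type*) [AddCommGroup A] [Module R A]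

/-- the Hecke operator on the parabolic homomorphisms, as an `R`-linear endomorphism. -/
noncomputable def heckePar :
    parabolicHoms R (Gamma0 N) A →ₗ[R] parabolicHoms R (Gamma0 N) A :=
  (D.heckeGrpₗ A R).restrict (fun _ hψ => heckeGrp_mem_parabolicHoms D hD R hψ)

@[simp] theorem coe_heckePar (ψ : parabolicHoms R (Gamma0 N) A) :
    ((heckePar D hD R A ψ : parabolicHoms R (Gamma0 N) A) : Additive (Gamma0 N) →+ A) =
      D.heckeGrp A (ψ : Additive (Gamma0 N) →+ A) := rfl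

end Restrict

section TU

variable {N ℓ : ℕ} (hℓ : ℓ.Prime) (R : Type*) [Semiring R] {A : Type*} [AddCommGroup A] [Module R A]

theorem heckeDatumT_mem_parabolicHoms (hℓN : ¬ ℓ ∣ N) {ψ : Additive (Gamma0 N) →+ A}
    (hψ : ψ ∈ parabolicHoms R (Gamma0 N) A) :
    (heckeDatumT N ℓ hℓ hℓN).heckeGrp A ψ ∈ parabolicHoms R (Gamma0 N) A :=
  heckeGrp_mem_parabolicHoms _ rfl R hψ

theorem heckeDatumU_mem_parabolicHoms (hℓN : ℓ ∣ N) {ψ : Additive (Gamma0 N) →+ A}
    (hψ : ψ ∈ parabolicHoms R (Gamma0 N) A) :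
    (heckeDatumU N ℓ hℓ hℓN).heckeGrp A ψ ∈ parabolicHoms R (Gamma0 N) A :=
  heckeGrp_mem_parabolicHoms _ rfl R hψ

end TU

end Fermat.Agent.GR
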