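/-
Stage (I), package K7 (helper2), part 1: **the period map intertwines the Hecke operators**
`T_ℓ`, `U_ℓ` on `S₂(Γ₀(N))` with the group-theoretic Hecke operators on `Hom(Γ₀(N), ℂ)`.
-/
import Mathlib
import Fermat.Agent.GR.HGRP_helper2_Par
import Fermat.Agent.X0N.ES_helper5_Prim
import Fermat.Prelude.Def_ModularForm_HeckeOperatorForms

set_option autoImplicit false
set_option linter.unusedSectionVars false

namespace Fermat.Agent.GR

open CongruenceSubgroup ModularForm Matrix ModularCurve.Period Filter Topology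
open UpperHalfPlane hiding I
open scoped MatrixGroups
open Fermat.Agent.S22 Fermat.Agent.X0N.ES

/-- the weight 2 slash action of a matrix of positive determinant is the chain rule factor. -/
theorem slash_two_apply_of_det_pos (f : ℍ → ℂ) {g : GL (Fin 2) ℝ} (hg : 0 < g.val.det) (τ : ℍ) :
    (f ∣[(2 : ℤ)] g) τ = f (g • τ) * ((g.val.det : ℂ) / denom g τ ^ 2) := by
  rw [ModularForm.slash_apply]
  have h1 : σ g = ContinuousAlgEquiv.refl ℝ ℂ := by
    rw [UpperHalfPlane.σ, if_pos]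
    rwa [Matrix.GeneralLinearGroup.val_det_apply]
  rw [h1]
  simp only [ContinuousAlgEquiv.refl_apply]
  have h2 : |(g.det : ℝˣ).val| = g.val.det := by
    rw [Matrix.GeneralLinearGroup.val_det_apply, abs_of_pos hg]
  rw [h2]
  have hd : denom g τ ≠ 0 := denom_ne_zero g τ
  rw [show (2 : ℤ) - 1 = 1 by norm_num, zpow_one, _root_.zpow_neg, mul_assoc]
  congr 1

variable {N : ℕ} [NeZero N] {ι : Type*} [Fintype ι]
  (D : HeckeDatum (Gamma0 N) (GL (Fin 2) ℝ) ι)

/-- the canonical primitive of `∑ᵢ f ∣[2] αᵢ` is `∑ᵢ F ∘ αᵢ`. -/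
theorem canonPrim_eq_sum (hdet : ∀ i, 0 < (D.α i).val.det)
    (htend : ∀ i, Tendsto (fun τ : ℍ => D.α i • τ) atImInfty atImInfty)
    (f g : CuspForm (Gamma0 N) 2) (hg : ∀ τ, g τ = ∑ i, (⇑f ∣[(2 : ℤ)] D.α i) τ) :
    canonPrim g = fun τ => ∑ i, canonPrim f (D.α i • τ) := by
  symm
  apply eq_canonPrim
  · have h1 : ∀ i ∈ (Finset.univ : Finset ι), IsPrim (fun τ => canonPrim f (D.α i • τ))
        (fun τ => (⇑f ∣[(2 : ℤ)] D.α i) τ) := by
      intro i _
      refine ((canonPrim_isPrim f).comp_smul (hdet i)).congr fun τ => ?_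
      rw [slash_two_apply_of_det_pos _ (hdet i)]
    have h2 := IsPrim.sum Finset.univ h1
    exact h2.congr fun τ => (hg τ).symm
  · have h1 : ∀ i ∈ (Finset.univ : Finset ι),
        Tendsto (fun τ => canonPrim f (D.α i • τ)) atImInfty (𝓝 0) :=
      fun i _ => (canonPrim_tendsto f).comp (htend i)
    have h2 := tendsto_finsetSum Finset.univ h1
    simpa using h2

/-- **compatibility of the period map with Hecke operators** (general form). -/
theorem periodMap_eq_heckeGrp (hD : D.e = gammaEmb N) (hdet : ∀ i, 0 < (D.α i).val.det)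
    (htend : ∀ i, Tendsto (fun τ : ℍ => D.α i • τ) atImInfty atImInfty)
    (f g : CuspForm (Gamma0 N) 2) (hg : ∀ τ, g τ = ∑ i, (⇑f ∣[(2 : ℤ)] D.α i) τ) :
    ModularCurve.periodMap N g = D.heckeGrp ℂ (ModularCurve.periodMap N f) := by
  refine AddMonoidHom.ext fun γ => ?_
  obtain ⟨γ, rfl⟩ := Additive.ofMul.surjective γ
  rw [periodMap_apply g γ, canonPrim_eq_sum D hdet htend f g hg, HeckeDatum.heckeGrp_apply]
  simp only
  rw [← Finset.sum_sub_distrib]
  have h1 : ∀ i, canonPrim f (D.α i • ((γ : SL(2, ℤ)) • UpperHalfPlane.I)) =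
      canonPrim f (D.α (D.perm γ i) • UpperHalfPlane.I) +
        ModularCurve.periodMap N f (Additive.ofMul (D.cocycle γ i)) := by
    intro i
    have h2 : D.α i • ((γ : SL(2, ℤ)) • UpperHalfPlane.I) =
        ((D.cocycle γ i : Gamma0 N) : SL(2, ℤ)) • (D.α (D.perm γ i) • UpperHalfPlane.I) := by
      have h3 := D.spec γ i
      rw [hD] at h3
      show D.α i • (gammaEmb N γ • UpperHalfPlane.I) =
        gammaEmb N (D.cocycle γ i) • (D.α (D.perm γ i) • UpperHalfPlane.I)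
      rw [← mul_smul, ← mul_smul, h3]
    rw [h2, periodMap_apply' f (D.cocycle γ i) (D.α (D.perm γ i) • UpperHalfPlane.I)]
    ring
  rw [Finset.sum_congr rfl fun i _ => by rw [h1 i]]
  simp only [add_sub_right_comm]
  rw [Finset.sum_add_distrib, Finset.sum_sub_distrib]
  have h4 : ∑ i, canonPrim f (D.α (D.perm γ i) • UpperHalfPlane.I) =
      ∑ i, canonPrim f (D.α i • UpperHalfPlane.I) :=
    Equiv.sum_comp (D.permEquiv γ) (fun i => canonPrim f (D.α i • UpperHalfPlane.I))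
  rw [h4, sub_self, zero_add]

theorem det_heckeRep_pos (ℓ : ℕ) (i : Option (Fin ℓ)) : 0 < (heckeRep ℓ i).val.det := by
  rw [← Matrix.GeneralLinearGroup.val_det_apply]
  cases i with
  | none => exact det_heckeDiagMatrix_pos ℓ
  | some b => exact det_heckeMatrix_pos ℓ b

theorem tendsto_heckeRep_smul {ℓ : ℕ} (hℓ : ℓ ≠ 0) (i : Option (Fin ℓ)) :
    Tendsto (fun τ : ℍ => heckeRep ℓ i • τ) atImInfty atImInfty := by
  have hℓ' : (0 : ℝ) < ℓ := by exact_mod_cast Nat.pos_of_ne_zero hℓ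
  rw [atImInfty, tendsto_comap_iff]
  cases i with
  | none =>
    have h1 : (UpperHalfPlane.im ∘ fun τ : ℍ => heckeRep ℓ none • τ) =
        fun τ : ℍ => (ℓ : ℝ) * τ.im := by
      ext τ
      show (heckeDiagMatrix ℓ • τ).im = _
      rw [← UpperHalfPlane.coe_im, coe_heckeDiagMatrix_smul hℓ]
      simp
    rw [h1]
    exact (tendsto_comap (f := UpperHalfPlane.im) (x := atTop)).const_mul_atTop hℓ'
  | some b =>
    have h1 : (UpperHalfPlane.im ∘ fun τ : ℍ => heckeRep ℓ (some b) • τ) =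
        fun τ : ℍ => τ.im / (ℓ : ℝ) := by
      ext τ
      show (heckeMatrix ℓ (b : ℕ) • τ).im = _
      rw [← UpperHalfPlane.coe_im, coe_heckeMatrix_smul hℓ]
      have : (((τ : ℂ) + ((b : ℕ) : ℂ)) / (ℓ : ℂ)) = (((τ : ℂ) + ((b : ℕ) : ℂ)) / ((ℓ : ℝ) : ℂ)) := by
        norm_cast
      rw [this, Complex.div_ofReal_im]
      simp
    rw [h1]
    exact (tendsto_comap (f := UpperHalfPlane.im) (x := atTop)).atTop_div_const hℓ'

variable {ℓ : ℕ}

/-- **K7 for `T_ℓ`**: the period map intertwines `T_ℓ` on `S₂(Γ₀(N))` with the group-theoretic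
Hecke operator on `Hom(Γ₀(N), ℂ)`. -/
theorem periodMap_heckeTLin (hℓ : ℓ.Prime) (hℓN : ¬ ℓ ∣ N) (f : CuspForm (Gamma0 N) 2) :
    ModularCurve.periodMap N (CuspForm.heckeTLin 2 hℓ hℓN f) =
      (heckeDatumT N ℓ hℓ hℓN).heckeGrp ℂ (ModularCurve.periodMap N f) := by
  apply periodMap_eq_heckeGrp (heckeDatumT N ℓ hℓ hℓN) rfl
    (fun i => det_heckeRep_pos ℓ i) (fun i => tendsto_heckeRep_smul hℓ.ne_zero i)
  intro τ
  rw [CuspForm.heckeTLin_apply_apply, heckeT_def, Fintype.sum_option]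
  show _ = (⇑f ∣[(2 : ℤ)] heckeDiagMatrix ℓ) τ + ∑ b : Fin ℓ, (⇑f ∣[(2 : ℤ)] heckeMatrix ℓ (b : ℕ)) τ
  rw [Fin.sum_univ_eq_sum_range (fun j => (⇑f ∣[(2 : ℤ)] heckeMatrix ℓ j) τ) ℓ, Pi.add_apply,
    Finset.sum_apply, add_comm]

/-- **K7 for `U_ℓ`**. -/
theorem periodMap_heckeULin (hℓ : ℓ.Prime) (hℓN : ℓ ∣ N) (f : CuspForm (Gamma0 N) 2) :
    ModularCurve.periodMap N (CuspForm.heckeULin 2 hℓN f) =
      (heckeDatumU N ℓ hℓ hℓN).heckeGrp ℂ (ModularCurve.periodMap N f) := by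
  apply periodMap_eq_heckeGrp (heckeDatumU N ℓ hℓ hℓN) rfl
    (fun b => det_heckeRep_pos ℓ (some b)) (fun b => tendsto_heckeRep_smul hℓ.ne_zero (some b))
  intro τ
  rw [CuspForm.heckeULin_apply_apply, heckeU_def]
  show _ = ∑ b : Fin ℓ, (⇑f ∣[(2 : ℤ)] heckeMatrix ℓ (b : ℕ)) τ
  rw [Fin.sum_univ_eq_sum_range (fun j => (⇑f ∣[(2 : ℤ)] heckeMatrix ℓ j) τ) ℓ, Finset.sum_apply]


/-- `periodHomPair` intertwines `(T_ℓ, T_ℓ)` with the group-theoretic `T_ℓ`. -/
theorem periodHomPair_heckeTLin (hℓ : ℓ.Prime) (hℓN : ¬ ℓ ∣ N) (f g : CuspForm (Gamma0 N) 2) :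
    ModularCurve.periodHomPair N (CuspForm.heckeTLin 2 hℓ hℓN f, CuspForm.heckeTLin 2 hℓ hℓN g) =
      (heckeDatumT N ℓ hℓ hℓN).heckeGrp ℂ (ModularCurve.periodHomPair N (f, g)) := by
  rw [periodHomPair_apply, periodHomPair_apply, periodMap_heckeTLin, periodMap_heckeTLin,
    ← heckeDatumT_charInvolution, ← heckeDatumT_charInvolution, map_add, map_add, map_sub]

/-- `periodHomPair` intertwines `(U_ℓ, U_ℓ)` with the group-theoretic `U_ℓ`. -/
theorem periodHomPair_heckeULin (hℓ : ℓ.Prime) (hℓN : ℓ ∣ N) (f g : CuspForm (Gamma0 N) 2) :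
    ModularCurve.periodHomPair N (CuspForm.heckeULin 2 hℓN f, CuspForm.heckeULin 2 hℓN g) =
      (heckeDatumU N ℓ hℓ hℓN).heckeGrp ℂ (ModularCurve.periodHomPair N (f, g)) := by
  rw [periodHomPair_apply, periodHomPair_apply, periodMap_heckeULin hℓ, periodMap_heckeULin hℓ,
    ← heckeDatumU_charInvolution, ← heckeDatumU_charInvolution, map_add, map_add, map_sub]

end Fermat.Agent.GR
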