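/-
Stage (I), package (MULT1) (helper2), part 1: **the Hecke operators at all primes, uniformly**:
`heckeGrpP N ℓ A` on `Hom(Γ₀(N), A)` (`U_ℓ` if `ℓ ∣ N`, `T_ℓ` otherwise) and `heckeOpP N ℓ` on
`S₂(Γ₀(N))`, the compatibility of the period maps, and commutativity on the parabolic
homomorphisms with coefficients in subrings of `ℂ`.
-/
import Mathlib
import Fermat.Agent.GR.HGRP_helper2_Period
import Fermat.Agent.S21
import Fermat.Prelude.Def_CuspForm_HeckeAlgebra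

set_option autoImplicit false
set_option linter.unusedSectionVars false

namespace Fermat.Agent.GR

open CongruenceSubgroup ModularForm Matrix ModularCurve.Period
open scoped MatrixGroups

section Grp

variable (N : ℕ) (ℓ : Nat.Primes) (A : Type*) [AddCommGroup A]

/-- **the group-theoretic Hecke operator at a prime `ℓ`** on `Hom(Γ₀(N), A)`: `U_ℓ` if `ℓ ∣ N`,
`T_ℓ` otherwise. -/
noncomputable def heckeGrpP : (Additive (Gamma0 N) →+ A) →+ (Additive (Gamma0 N) →+ A) :=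
  if h : (ℓ : ℕ) ∣ N then (heckeDatumU N ℓ ℓ.2 h).heckeGrp A
  else (heckeDatumT N ℓ ℓ.2 h).heckeGrp A

variable {N ℓ}

theorem heckeGrpP_of_dvd (h : (ℓ : ℕ) ∣ N) :
    heckeGrpP N ℓ A = (heckeDatumU N ℓ ℓ.2 h).heckeGrp A := by
  rw [heckeGrpP, dif_pos h]

theorem heckeGrpP_of_not_dvd (h : ¬ (ℓ : ℕ) ∣ N) :
    heckeGrpP N ℓ A = (heckeDatumT N ℓ ℓ.2 h).heckeGrp A := by
  rw [heckeGrpP, dif_neg h]

variable (N ℓ) {A}

/-- naturality in the coefficient group. -/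
theorem heckeGrpP_comp {B : Type*} [AddCommGroup B] (f : A →+ B) (ψ : Additive (Gamma0 N) →+ A) :
    heckeGrpP N ℓ B (f.comp ψ) = f.comp (heckeGrpP N ℓ A ψ) := by
  by_cases h : (ℓ : ℕ) ∣ N
  · rw [heckeGrpP_of_dvd A h, heckeGrpP_of_dvd B h, HeckeDatum.heckeGrp_comp]
  · rw [heckeGrpP_of_not_dvd A h, heckeGrpP_of_not_dvd B h, HeckeDatum.heckeGrp_comp]

theorem heckeGrpP_mem_parabolicHoms (R : Type*) [Semiring R] [Module R A]
    {ψ : Additive (Gamma0 N) →+ A} (hψ : ψ ∈ parabolicHoms R (Gamma0 N) A) :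
    heckeGrpP N ℓ A ψ ∈ parabolicHoms R (Gamma0 N) A := by
  by_cases h : (ℓ : ℕ) ∣ N
  · rw [heckeGrpP_of_dvd A h]
    exact heckeDatumU_mem_parabolicHoms ℓ.2 R h hψ
  · rw [heckeGrpP_of_not_dvd A h]
    exact heckeDatumT_mem_parabolicHoms ℓ.2 R h hψ

theorem heckeGrpP_charInvolution (R : Type*) [Semiring R] [Module R A]
    (ψ : Additive (Gamma0 N) →+ A) :
    heckeGrpP N ℓ A (charInvolution N R A ψ) = charInvolution N R A (heckeGrpP N ℓ A ψ) := by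
  by_cases h : (ℓ : ℕ) ∣ N
  · rw [heckeGrpP_of_dvd A h]
    exact heckeDatumU_charInvolution ℓ.2 R h ψ
  · rw [heckeGrpP_of_not_dvd A h]
    exact heckeDatumT_charInvolution ℓ.2 R h ψ

variable (A)

/-- the Hecke operator at `ℓ` as an `R`-linear endomorphism of `Hom(Γ₀(N), A)`. -/
noncomputable def heckeGrpPₗ (R : Type*) [Semiring R] [Module R A] :
    (Additive (Gamma0 N) →+ A) →ₗ[R] (Additive (Gamma0 N) →+ A) where
  toFun := heckeGrpP N ℓ A
  map_add' := map_add _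
  map_smul' c ψ := by
    by_cases h : (ℓ : ℕ) ∣ N
    · rw [heckeGrpP_of_dvd A h]
      exact ((heckeDatumU N ℓ ℓ.2 h).heckeGrpₗ A R).map_smul c ψ
    · rw [heckeGrpP_of_not_dvd A h]
      exact ((heckeDatumT N ℓ ℓ.2 h).heckeGrpₗ A R).map_smul c ψ

@[simp] theorem heckeGrpPₗ_apply (R : Type*) [Semiring R] [Module R A]
    (ψ : Additive (Gamma0 N) →+ A) : heckeGrpPₗ N ℓ A R ψ = heckeGrpP N ℓ A ψ := rfl

/-- the Hecke operator at `ℓ` on the parabolic homomorphisms. -/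
noncomputable def heckeParP (R : Type*) [Semiring R] [Module R A] :
    parabolicHoms R (Gamma0 N) A →ₗ[R] parabolicHoms R (Gamma0 N) A :=
  (heckeGrpPₗ N ℓ A R).restrict (fun _ hψ => heckeGrpP_mem_parabolicHoms N ℓ R hψ)

@[simp] theorem coe_heckeParP (R : Type*) [Semiring R] [Module R A]
    (ψ : parabolicHoms R (Gamma0 N) A) :
    ((heckeParP N ℓ A R ψ : parabolicHoms R (Gamma0 N) A) : Additive (Gamma0 N) →+ A) =
      heckeGrpP N ℓ A (ψ : Additive (Gamma0 N) →+ A) := rfl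

end Grp

section Forms

variable (N : ℕ) [NeZero N] (ℓ : Nat.Primes)

/-- **the Hecke operator at a prime `ℓ`** on `S₂(Γ₀(N))`: `U_ℓ` if `ℓ ∣ N`, `T_ℓ` otherwise. -/
noncomputable def heckeOpP :
    CuspForm (Gamma0 N) 2 →ₗ[ℂ] CuspForm (Gamma0 N) 2 :=
  if h : (ℓ : ℕ) ∣ N then CuspForm.heckeULin 2 h else CuspForm.heckeTLin 2 ℓ.2 h

variable {N ℓ}

theorem heckeOpP_of_dvd (h : (ℓ : ℕ) ∣ N) : heckeOpP N ℓ = CuspForm.heckeULin 2 h := by
  rw [heckeOpP, dif_pos h]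

theorem heckeOpP_of_not_dvd (h : ¬ (ℓ : ℕ) ∣ N) : heckeOpP N ℓ = CuspForm.heckeTLin 2 ℓ.2 h := by
  rw [heckeOpP, dif_neg h]

variable (N ℓ)

theorem heckeOpP_comm (q : Nat.Primes) : Commute (heckeOpP N ℓ) (heckeOpP N q) := by
  by_cases h : (ℓ : ℕ) ∣ N <;> by_cases h' : (q : ℕ) ∣ N
  · rw [heckeOpP_of_dvd h, heckeOpP_of_dvd h']
    exact CuspForm.heckeULin_comm 2 h h'
  · rw [heckeOpP_of_dvd h, heckeOpP_of_not_dvd h']
    exact (CuspForm.heckeTLin_heckeULin_comm 2 q.2 h' h).symm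
  · rw [heckeOpP_of_not_dvd h, heckeOpP_of_dvd h']
    exact CuspForm.heckeTLin_heckeULin_comm 2 ℓ.2 h h'
  · rw [heckeOpP_of_not_dvd h, heckeOpP_of_not_dvd h']
    exact CuspForm.heckeTLin_comm 2 ℓ.2 h q.2 h'

/-- **K7, uniform form.** -/
theorem periodMap_heckeOpP (f : CuspForm (Gamma0 N) 2) :
    ModularCurve.periodMap N (heckeOpP N ℓ f) =
      heckeGrpP N ℓ ℂ (ModularCurve.periodMap N f) := by
  by_cases h : (ℓ : ℕ) ∣ N
  · rw [heckeOpP_of_dvd h, heckeGrpP_of_dvd ℂ h]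
    exact periodMap_heckeULin ℓ.2 h f
  · rw [heckeOpP_of_not_dvd h, heckeGrpP_of_not_dvd ℂ h]
    exact periodMap_heckeTLin ℓ.2 h f

theorem periodHomPair_heckeOpP (f g : CuspForm (Gamma0 N) 2) :
    ModularCurve.periodHomPair N (heckeOpP N ℓ f, heckeOpP N ℓ g) =
      heckeGrpP N ℓ ℂ (ModularCurve.periodHomPair N (f, g)) := by
  by_cases h : (ℓ : ℕ) ∣ N
  · rw [heckeOpP_of_dvd h, heckeGrpP_of_dvd ℂ h]
    exact periodHomPair_heckeULin ℓ.2 h f g
  · rw [heckeOpP_of_not_dvd h, heckeGrpP_of_not_dvd ℂ h]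
    exact periodHomPair_heckeTLin ℓ.2 h f g

/-- every parabolic homomorphism with complex coefficients is a period pair (S21). -/
theorem exists_periodHomPair_eq {ψ : Additive (Gamma0 N) →+ ℂ}
    (hψ : ψ ∈ parabolicHoms ℂ (Gamma0 N) ℂ) :
    ∃ f g : CuspForm (Gamma0 N) 2, ModularCurve.periodHomPair N (f, g) = ψ := by
  rw [← (Fermat.Agent.S21.result N).2] at hψ
  obtain ⟨⟨f, g⟩, h⟩ := hψ
  exact ⟨f, g, h⟩

/-- **commutativity on the complex parabolic homomorphisms.** -/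
theorem heckeGrpP_comm_complex (q : Nat.Primes) {ψ : Additive (Gamma0 N) →+ ℂ}
    (hψ : ψ ∈ parabolicHoms ℂ (Gamma0 N) ℂ) :
    heckeGrpP N ℓ ℂ (heckeGrpP N q ℂ ψ) = heckeGrpP N q ℂ (heckeGrpP N ℓ ℂ ψ) := by
  obtain ⟨f, g, rfl⟩ := exists_periodHomPair_eq N hψ
  rw [← periodHomPair_heckeOpP, ← periodHomPair_heckeOpP, ← periodHomPair_heckeOpP,
    ← periodHomPair_heckeOpP]
  have h1 : ∀ x, heckeOpP N ℓ (heckeOpP N q x) = heckeOpP N q (heckeOpP N ℓ x) := fun x =>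
    congrArg (fun T : Module.End ℂ (CuspForm (Gamma0 N) 2) => T x) (heckeOpP_comm N ℓ q).eq
  rw [h1 f, h1 g]

end Forms

section Subring

variable (N : ℕ) [NeZero N] (ℓ q : Nat.Primes)

/-- **commutativity on parabolic homomorphisms with coefficients in any abelian group embedded in
`ℂ`** (in particular `ℤ`, `ℚ`, number fields, …). -/
theorem heckeGrpP_comm_of_injective {A : Type*} [AddCommGroup A] (j : A →+ ℂ)
    (hj : Function.Injective j) {ψ : Additive (Gamma0 N) →+ A}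
    (hψ : ∀ γ : Gamma0 N, ((γ : SL(2, ℤ)) : Matrix (Fin 2) (Fin 2) ℤ).trace ^ 2 = 4 →
      ψ (Additive.ofMul γ) = 0) :
    heckeGrpP N ℓ A (heckeGrpP N q A ψ) = heckeGrpP N q A (heckeGrpP N ℓ A ψ) := by
  have hpar : j.comp ψ ∈ parabolicHoms ℂ (Gamma0 N) ℂ := by
    rw [mem_parabolicHoms_iff]
    intro γ hγ
    show j (ψ (Additive.ofMul γ)) = 0
    rw [hψ γ hγ, map_zero]
  have h := heckeGrpP_comm_complex N ℓ q hpar
  rw [heckeGrpP_comp, heckeGrpP_comp, heckeGrpP_comp, heckeGrpP_comp] at h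
  refine AddMonoidHom.ext fun γ => hj ?_
  exact congrArg (fun φ : Additive (Gamma0 N) →+ ℂ => φ γ) h

end Subring

end Fermat.Agent.GR
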