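/-
Stage (I), package (MULT1) (helper2), part 3: **base change of Hecke eigenspaces along a field
extension**.  For fields `K ⊆ F` of characteristic `0`:
* `finrank_iInf_ker_baseChange` (pure linear algebra): the simultaneous kernel of the base changes
  of a family of `K`-linear maps is the base change of the simultaneous kernel;
* `parFldBC : F ⊗[K] Hom_par(Γ, K) ≃ₗ[F] Hom_par(Γ, F)`, `c ⊗ ψ ↦ c • (algebraMap ∘ ψ)`;
* `finrank_par_inf_iInf_ker`: the dimension of a simultaneous kernel of operators which are natural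
  in the coefficients does not depend on the coefficient field;
* `finrank_eigenParOn_map`, `finrank_eigenPar_map`, `finrank_eigenParPlus_map`,
  `finrank_eigenParMinus_map`: the dimensions of the Hecke eigenspaces `E_a` (and their `±`-parts)
  are invariant under extension of the coefficient field.
-/
import Mathlib
import Fermat.Agent.GR.BETTI_lead_Par
import Fermat.Agent.GR.MULT1_helper2_Complex

set_option autoImplicit false
set_option linter.unusedSectionVars false

namespace Fermat.Agent.GR

open TensorProduct CongruenceSubgroup ModularCurve.Period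
open scoped MatrixGroups

section LemmaA

variable {K F V W : Type*} [Field K] [Field F] [Algebra K F] [AddCommGroup V] [Module K V]
  [AddCommGroup W] [Module K W] {ι : Type*}

/-- the simultaneous kernel of the base changes of a family of linear maps is the base change of
the simultaneous kernel. -/
theorem iInf_ker_baseChange_eq_range (f : ι → V →ₗ[K] W) :
    (⨅ i, LinearMap.ker ((f i).baseChange F)) =
      LinearMap.range ((⨅ i, LinearMap.ker (f i)).subtype.baseChange F) := by
  classical
  apply le_antisymm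
  · intro x hx
    rw [Submodule.mem_iInf] at hx
    let b := Module.Basis.ofVectorSpace K F
    obtain ⟨c, rfl⟩ := TensorProduct.eq_repr_basis_left b x
    have hc : ∀ i m, f i (c m) = 0 := by
      intro i m
      have h1 := hx i
      rw [LinearMap.mem_ker, Finsupp.sum, map_sum] at h1
      have h2 : (c.mapRange (f i) (map_zero _)).sum (fun m w => b m ⊗ₜ[K] w) = 0 := by
        rw [Finsupp.sum_mapRange_index (fun m => by rw [tmul_zero])]
        rw [Finsupp.sum]
        rw [← h1]
        refine Finset.sum_congr rfl fun m _ => ?_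
        rw [LinearMap.baseChange_tmul]
      have h3 := TensorProduct.sum_tmul_basis_left_eq_zero b _ h2
      have h4 := DFunLike.congr_fun h3 m
      rwa [Finsupp.mapRange_apply] at h4
    have hmem : ∀ m, c m ∈ ⨅ i, LinearMap.ker (f i) := by
      intro m
      rw [Submodule.mem_iInf]
      intro i
      exact hc i m
    refine ⟨c.sum fun m _ => b m ⊗ₜ[K] (⟨c m, hmem m⟩ : ↥(⨅ i, LinearMap.ker (f i))), ?_⟩
    rw [Finsupp.sum, map_sum, Finsupp.sum]
    refine Finset.sum_congr rfl fun m _ => ?_
    rw [LinearMap.baseChange_tmul]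
    rfl
  · rintro _ ⟨y, rfl⟩
    rw [Submodule.mem_iInf]
    intro i
    rw [LinearMap.mem_ker, ← LinearMap.comp_apply, ← LinearMap.baseChange_comp]
    have : (f i) ∘ₗ (⨅ i, LinearMap.ker (f i)).subtype = 0 := by
      apply LinearMap.ext
      intro u
      have := u.2
      rw [Submodule.mem_iInf] at this
      exact this i
    rw [this, LinearMap.baseChange_zero, LinearMap.zero_apply]

/-- **the dimension of the solution space of a (possibly infinite) linear system is invariant
under extension of the base field.** -/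
theorem finrank_iInf_ker_baseChange (f : ι → V →ₗ[K] W) :
    Module.finrank F ↥(⨅ i, LinearMap.ker ((f i).baseChange F)) =
      Module.finrank K ↥(⨅ i, LinearMap.ker (f i)) := by
  rw [iInf_ker_baseChange_eq_range]
  have hinj : Function.Injective ((⨅ i, LinearMap.ker (f i)).subtype.baseChange F) :=
    Module.Flat.lTensor_preserves_injective_linearMap _ (Submodule.injective_subtype _)
  rw [LinearMap.finrank_range_of_inj hinj]
  exact Module.finrank_baseChange

end LemmaA

section ParBC

variable (K F : Type*) [Field K] [Field F] [Algebra K F]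
  (Γ : Subgroup SL(2, ℤ))

/-- `ψ ↦ algebraMap K F ∘ ψ` on the parabolic homomorphisms. -/
def parMap : ↥(parabolicHoms K Γ K) →ₗ[K] ↥(parabolicHoms F Γ F) where
  toFun ψ := ⟨(algebraMap K F : K →+ F).comp ψ.1, comp_mem_parabolicHoms _ ψ.2⟩
  map_add' ψ φ := by
    apply Subtype.ext
    refine AddMonoidHom.ext fun γ => ?_
    show algebraMap K F (ψ.1 γ + φ.1 γ) = algebraMap K F (ψ.1 γ) + algebraMap K F (φ.1 γ)
    exact map_add _ _ _
  map_smul' c ψ := by
    apply Subtype.ext
    refine AddMonoidHom.ext fun γ => ?_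
    show algebraMap K F (c • ψ.1 γ) = c • algebraMap K F (ψ.1 γ)
    rw [smul_eq_mul, map_mul, Algebra.smul_def]

theorem parMap_coe (ψ : ↥(parabolicHoms K Γ K)) :
    ((parMap K F Γ ψ : ↥(parabolicHoms F Γ F)) : Additive Γ →+ F) =
      (algebraMap K F : K →+ F).comp ψ.1 := rfl

theorem parMap_apply (ψ : ↥(parabolicHoms K Γ K)) (γ : Additive Γ) :
    (parMap K F Γ ψ).1 γ = algebraMap K F (ψ.1 γ) := rfl

/-- the comparison map `F ⊗[K] P_K → P_F`, `c ⊗ ψ ↦ c • (algebraMap ∘ ψ)`. -/
noncomputable def parFldBCLin : F ⊗[K] ↥(parabolicHoms K Γ K) →ₗ[F] ↥(parabolicHoms F Γ F) :=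
  LinearMap.liftBaseChange F (parMap K F Γ)

theorem parFldBCLin_tmul (c : F) (ψ : ↥(parabolicHoms K Γ K)) :
    parFldBCLin K F Γ (c ⊗ₜ ψ) = c • parMap K F Γ ψ :=
  LinearMap.liftBaseChange_tmul _ _ _ _

theorem parFldBCLin_injective : Function.Injective (parFldBCLin K F Γ) := by
  classical
  rw [injective_iff_map_eq_zero]
  intro x hx
  let b := Module.Basis.ofVectorSpace K F
  obtain ⟨c, rfl⟩ := TensorProduct.eq_repr_basis_left b x
  have hc : c = 0 := by
    refine Finsupp.ext fun m => ?_
    apply Subtype.ext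
    refine AddMonoidHom.ext fun γ => ?_
    show (c m).1 γ = 0
    have h1 : ((parFldBCLin K F Γ (c.sum fun i n => b i ⊗ₜ[K] n) : ↥(parabolicHoms F Γ F)) :
        Additive Γ →+ F) γ = 0 := by rw [hx]; rfl
    rw [Finsupp.sum, map_sum] at h1
    rw [Submodule.coe_sum, AddMonoidHom.finsetSum_apply] at h1
    have h3 : ∑ i ∈ c.support, ((parFldBCLin K F Γ (b i ⊗ₜ[K] c i)).1 γ) =
        Finsupp.linearCombination K b
          (c.mapRange (fun ψ : ↥(parabolicHoms K Γ K) => ψ.1 γ) rfl) := by
      rw [Finsupp.linearCombination_apply,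
        Finsupp.sum_mapRange_index (h := fun i (a : K) => a • b i) (fun m => zero_smul _ _),
        Finsupp.sum]
      refine Finset.sum_congr rfl fun i _ => ?_
      rw [parFldBCLin_tmul]
      show b i • algebraMap K F ((c i).1 γ) = (c i).1 γ • b i
      rw [smul_eq_mul, Algebra.smul_def, mul_comm]
    rw [h3] at h1
    have h4 := (linearIndependent_iff.1 b.linearIndependent) _ h1
    have h5 := DFunLike.congr_fun h4 m
    rwa [Finsupp.mapRange_apply] at h5
  rw [hc, Finsupp.sum_zero_index]

variable [CharZero K] [CharZero F] [Group.FG Γ]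

theorem parFldBCLin_bijective : Function.Bijective (parFldBCLin K F Γ) := by
  refine ⟨parFldBCLin_injective K F Γ, ?_⟩
  have hfin : Module.finrank F (F ⊗[K] ↥(parabolicHoms K Γ K)) =
      Module.finrank F ↥(parabolicHoms F Γ F) := by
    rw [Module.finrank_baseChange, finrank_parabolicHoms Γ K, finrank_parabolicHoms Γ F]
  exact (LinearMap.injective_iff_surjective_of_finrank_eq_finrank hfin).1
    (parFldBCLin_injective K F Γ)

/-- **base change of the parabolic homomorphisms along a field extension.** -/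
noncomputable def parFldBC : F ⊗[K] ↥(parabolicHoms K Γ K) ≃ₗ[F] ↥(parabolicHoms F Γ F) :=
  LinearEquiv.ofBijective (parFldBCLin K F Γ) (parFldBCLin_bijective K F Γ)

theorem parFldBC_tmul (c : F) (ψ : ↥(parabolicHoms K Γ K)) :
    parFldBC K F Γ (c ⊗ₜ ψ) = c • parMap K F Γ ψ :=
  parFldBCLin_tmul K F Γ c ψ

/-- operators which correspond on `algebraMap ∘ ψ` correspond under `parFldBC`. -/
theorem parFldBC_natural (SK : ↥(parabolicHoms K Γ K) →ₗ[K] ↥(parabolicHoms K Γ K))
    (SF : ↥(parabolicHoms F Γ F) →ₗ[F] ↥(parabolicHoms F Γ F))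
    (hnat : ∀ ψ, SF (parMap K F Γ ψ) = parMap K F Γ (SK ψ))
    (x : F ⊗[K] ↥(parabolicHoms K Γ K)) :
    SF (parFldBC K F Γ x) = parFldBC K F Γ (SK.baseChange F x) := by
  induction x using TensorProduct.induction_on with
  | zero => rw [map_zero, map_zero, map_zero, map_zero]
  | tmul c ψ =>
    rw [parFldBC_tmul, LinearMap.baseChange_tmul, parFldBC_tmul, map_smul, hnat]
  | add x y hx hy =>
    rw [map_add, map_add, hx, hy, map_add, map_add]

theorem finrank_iInf_ker_par {I : Type*}
    (SK : I → ↥(parabolicHoms K Γ K) →ₗ[K] ↥(parabolicHoms K Γ K))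
    (SF : I → ↥(parabolicHoms F Γ F) →ₗ[F] ↥(parabolicHoms F Γ F))
    (hnat : ∀ i ψ, SF i (parMap K F Γ ψ) = parMap K F Γ (SK i ψ)) :
    Module.finrank F ↥(⨅ i, LinearMap.ker (SF i)) =
      Module.finrank K ↥(⨅ i, LinearMap.ker (SK i)) := by
  have h : (⨅ i, LinearMap.ker (SF i)) =
      (⨅ i, LinearMap.ker ((SK i).baseChange F)).map (parFldBC K F Γ : _ →ₗ[F] _) := by
    ext ψ
    rw [Submodule.mem_iInf, Submodule.mem_map]
    constructor
    · intro hψ
      refine ⟨(parFldBC K F Γ).symm ψ, ?_, LinearEquiv.apply_symm_apply _ _⟩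
      rw [Submodule.mem_iInf]
      intro i
      rw [LinearMap.mem_ker]
      apply (parFldBC K F Γ).injective
      rw [← parFldBC_natural K F Γ (SK i) (SF i) (hnat i), LinearEquiv.apply_symm_apply, map_zero]
      exact hψ i
    · rintro ⟨x, hx, rfl⟩ i
      rw [Submodule.mem_iInf] at hx
      rw [LinearMap.mem_ker]
      show SF i (parFldBC K F Γ x) = 0
      have hxi : (SK i).baseChange F x = 0 := hx i
      rw [parFldBC_natural K F Γ (SK i) (SF i) (hnat i), hxi, map_zero]
  rw [h, LinearEquiv.finrank_map_eq, finrank_iInf_ker_baseChange]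

omit [CharZero K] [CharZero F] [Group.FG Γ] [Algebra K F] in
theorem par_inf_iInf_ker_eq_map (R : Type*) [CommRing R] {I : Type*}
    (S : I → (Additive Γ →+ R) →ₗ[R] (Additive Γ →+ R))
    (hS : ∀ i, ∀ ψ ∈ parabolicHoms R Γ R, S i ψ ∈ parabolicHoms R Γ R) :
    (parabolicHoms R Γ R ⊓ ⨅ i, LinearMap.ker (S i)) =
      (⨅ i, LinearMap.ker ((S i).restrict (hS i))).map (parabolicHoms R Γ R).subtype := by
  ext ψ
  rw [Submodule.mem_inf, Submodule.mem_iInf, Submodule.mem_map]
  constructor
  · rintro ⟨hψ, h⟩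
    refine ⟨⟨ψ, hψ⟩, ?_, rfl⟩
    rw [Submodule.mem_iInf]
    intro i
    rw [LinearMap.mem_ker]
    apply Subtype.ext
    exact h i
  · rintro ⟨φ, hφ, rfl⟩
    rw [Submodule.mem_iInf] at hφ
    refine ⟨φ.2, fun i => ?_⟩
    have := hφ i
    rw [LinearMap.mem_ker] at this ⊢
    exact congrArg Subtype.val this

/-- **Lemma B**: the dimension of a simultaneous kernel (inside the parabolic homomorphisms) of
operators natural in the coefficients is invariant under extension of the coefficient field. -/
theorem finrank_par_inf_iInf_ker {I : Type*}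
    (SK : I → (Additive Γ →+ K) →ₗ[K] (Additive Γ →+ K))
    (SF : I → (Additive Γ →+ F) →ₗ[F] (Additive Γ →+ F))
    (hK : ∀ i, ∀ ψ ∈ parabolicHoms K Γ K, SK i ψ ∈ parabolicHoms K Γ K)
    (hF : ∀ i, ∀ ψ ∈ parabolicHoms F Γ F, SF i ψ ∈ parabolicHoms F Γ F)
    (hnat : ∀ i (ψ : Additive Γ →+ K), SF i ((algebraMap K F : K →+ F).comp ψ) =
      (algebraMap K F : K →+ F).comp (SK i ψ)) :
    Module.finrank F ↥(parabolicHoms F Γ F ⊓ ⨅ i, LinearMap.ker (SF i)) =
      Module.finrank K ↥(parabolicHoms K Γ K ⊓ ⨅ i, LinearMap.ker (SK i)) := by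
  rw [par_inf_iInf_ker_eq_map Γ F SF hF, par_inf_iInf_ker_eq_map Γ K SK hK,
    Submodule.finrank_map_subtype_eq, Submodule.finrank_map_subtype_eq]
  refine finrank_iInf_ker_par K F Γ _ _ ?_
  intro i ψ
  apply Subtype.ext
  show SF i (parMap K F Γ ψ).1 = (parMap K F Γ ((SK i).restrict (hK i) ψ)).1
  rw [parMap_coe, parMap_coe, hnat]
  rfl

end ParBC

end Fermat.Agent.GR
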