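/-
Stage (I), package (MULT1) (helper2), part 5: **(OCCUR)** — every character of the Hecke algebra
`𝕋_S = heckeAlgebra N 2 S` with values in an algebraically closed field `F` of characteristic `0`
occurs as a system of Hecke eigenvalues in `Hom_par(Γ₀(N), F)`.
* `aeval_int_intertwine`: intertwiners commute with integer polynomials in the operators;
* `aeval_heckeParP_charpoly`, `aeval_heckeOpP_charpoly`, `isIntegral_heckeOpP`,
  `isIntegral_heckeAlgebra`: integrality of the Hecke operators on `Hom_par` and on `S₂(Γ₀(N))`;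
* `eigenParOn_ne_bot_of_field`, `eigenParOn_ne_bot_of_domain`: occurrence of a system of eigenvalues
  does not depend on the embedding of its ring of definition;
* `eigenParOn_ne_bot_of_character`: occurrence (at the primes outside `S`) of a character of `𝕋_S`
  with values in a field of characteristic `0`;
* `heckeGrpP_comm_field`, `heckeParP_commute`: commutativity over fields of characteristic `0`;
* `exists_eigenPar_of_eigenParOn`: extension of a partial system to a full one;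
* `exists_eigenPar_of_character`: (OCCUR).
-/
import Mathlib
import Fermat.Agent.GR.MULT1_helper2_Field
import Fermat.Agent.Helper2.EigenChar
import Fermat.Agent.Helper2.CuspLattice

set_option autoImplicit false
set_option linter.unusedSectionVars false
set_option linter.style.haveILetI false

namespace Fermat.Agent.GR

open TensorProduct CongruenceSubgroup ModularCurve.Period Polynomial
open scoped MatrixGroups

/-- an additive map intertwining two endomorphisms intertwines all integer polynomials in them. -/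
theorem aeval_int_intertwine {R₁ R₂ M₁ M₂ : Type*} [CommRing R₁] [CommRing R₂]
    [AddCommGroup M₁] [Module R₁ M₁] [AddCommGroup M₂] [Module R₂ M₂]
    (f₁ : Module.End R₁ M₁) (f₂ : Module.End R₂ M₂) (φ : M₁ →+ M₂)
    (h : ∀ m, φ (f₁ m) = f₂ (φ m)) (p : ℤ[X]) (m : M₁) :
    φ (aeval f₁ p m) = aeval f₂ p (φ m) := by
  have hpow : ∀ (n : ℕ) (m : M₁), φ ((f₁ ^ n) m) = (f₂ ^ n) (φ m) := by
    intro n
    induction n with
    | zero => intro m; rfl
    | succ n ih =>
      intro m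
      rw [pow_succ, Module.End.mul_apply, ih, h, pow_succ, Module.End.mul_apply]
  induction p using Polynomial.induction_on' with
  | add p q hp hq =>
    rw [map_add, map_add, LinearMap.add_apply, LinearMap.add_apply, map_add, hp, hq]
  | monomial n a =>
    rw [aeval_monomial, aeval_monomial, Module.End.mul_apply, Module.End.mul_apply]
    rw [algebraMap_int_eq, algebraMap_int_eq, eq_intCast, eq_intCast]
    rw [Module.End.intCast_apply, Module.End.intCast_apply, map_zsmul, hpow]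

section Integrality

variable {N : ℕ} [NeZero N]

/-- `ψ₀ ↦ (γ ↦ ψ₀ γ • c)` as an additive map `Hom_par(Γ, ℤ) → Hom_par(Γ, F)`. -/
def parScalHom (F : Type*) [CommRing F] (c : F) :
    ↥(parabolicHoms ℤ (Gamma0 N) ℤ) →+ ↥(parabolicHoms F (Gamma0 N) F) where
  toFun ψ₀ := parScal F F c ψ₀
  map_zero' := by
    apply Subtype.ext
    refine AddMonoidHom.ext fun γ => ?_
    show (0 : ℤ) • c = 0
    exact zero_smul _ _
  map_add' ψ φ := by
    apply Subtype.ext
    refine AddMonoidHom.ext fun γ => ?_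
    show (ψ.1 γ + φ.1 γ) • c = ψ.1 γ • c + φ.1 γ • c
    exact add_smul _ _ _

theorem heckeParP_parScal (F : Type*) [CommRing F] (ℓ : Nat.Primes) (c : F)
    (ψ₀ : ↥(parabolicHoms ℤ (Gamma0 N) ℤ)) :
    heckeParP N ℓ F F (parScal F F c ψ₀) = parScal F F c (heckeParP N ℓ ℤ ℤ ψ₀) := by
  apply Subtype.ext
  rw [coe_heckeParP, parScal_coe_eq_comp, heckeGrpP_comp, parScal_coe_eq_comp, coe_heckeParP]

/-- the Hecke operator at `ℓ` on `Hom_par(Γ₀(N), F)` is killed by the characteristic polynomial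
of the integral Hecke operator. -/
theorem aeval_heckeParP_charpoly {F : Type*} [Field F] [CharZero F] (ℓ : Nat.Primes) :
    aeval (heckeParP N ℓ F F) (heckeParP N ℓ ℤ ℤ).charpoly = 0 := by
  apply LinearMap.ext
  intro ψ
  obtain ⟨x, rfl⟩ := (parTheta F (Gamma0 N) F).surjective ψ
  rw [LinearMap.zero_apply]
  induction x using TensorProduct.induction_on with
  | zero => rw [map_zero, map_zero]
  | tmul c ψ₀ =>
    rw [parTheta_tmul]
    have h := aeval_int_intertwine (heckeParP N ℓ ℤ ℤ) (heckeParP N ℓ F F) (parScalHom F c)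
      (fun m => (heckeParP_parScal F ℓ c m).symm) (heckeParP N ℓ ℤ ℤ).charpoly ψ₀
    rw [LinearMap.aeval_self_charpoly, LinearMap.zero_apply, map_zero] at h
    exact h.symm
  | add x y hx hy => rw [map_add, map_add, hx, hy, add_zero]

/-- `f ↦ Φ(f, 0)`, `S₂(Γ₀(N)) → Hom_par(Γ₀(N), ℂ)`. -/
noncomputable def periodPlusLin :
    CuspForm (Gamma0 N) 2 →ₗ[ℂ] ↥(parabolicHoms ℂ (Gamma0 N) ℂ) :=
  ((ModularCurve.periodHomPair N).comp (LinearMap.inl ℂ _ _)).codRestrict _
    (fun f => periodHomPair_mem_parabolicHoms f 0)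

theorem periodPlusLin_coe (f : CuspForm (Gamma0 N) 2) :
    ((periodPlusLin f : ↥(parabolicHoms ℂ (Gamma0 N) ℂ)) : Additive (Gamma0 N) →+ ℂ) =
      ModularCurve.periodHomPair N (f, 0) := rfl

theorem periodPlusLin_injective :
    Function.Injective (periodPlusLin : CuspForm (Gamma0 N) 2 →ₗ[ℂ] _) := by
  intro f g h
  have h1 := congrArg Subtype.val h
  rw [periodPlusLin_coe, periodPlusLin_coe] at h1
  exact (Prod.ext_iff.mp (periodHomPair_injective N h1)).1

theorem periodPlusLin_heckeOpP (ℓ : Nat.Primes) (f : CuspForm (Gamma0 N) 2) :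
    periodPlusLin (heckeOpP N ℓ f) = heckeParP N ℓ ℂ ℂ (periodPlusLin f) := by
  apply Subtype.ext
  rw [coe_heckeParP, periodPlusLin_coe, periodPlusLin_coe, ← periodHomPair_heckeOpP, map_zero]

/-- **the Hecke operators on `S₂(Γ₀(N))` are integral**: `T_ℓ` is killed by the characteristic
polynomial of the integral Hecke operator on `Hom_par(Γ₀(N), ℤ)`. -/
theorem aeval_heckeOpP_charpoly (ℓ : Nat.Primes) :
    aeval (heckeOpP N ℓ) (heckeParP N ℓ ℤ ℤ).charpoly = 0 := by
  apply LinearMap.ext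
  intro f
  rw [LinearMap.zero_apply]
  apply periodPlusLin_injective
  have h := aeval_int_intertwine (heckeOpP N ℓ) (heckeParP N ℓ ℂ ℂ)
    (periodPlusLin : CuspForm (Gamma0 N) 2 →ₗ[ℂ] _).toAddMonoidHom
    (fun m => periodPlusLin_heckeOpP ℓ m) (heckeParP N ℓ ℤ ℤ).charpoly f
  rw [aeval_heckeParP_charpoly, LinearMap.zero_apply] at h
  rw [map_zero]
  exact h

theorem isIntegral_heckeOpP (ℓ : Nat.Primes) : IsIntegral ℤ (heckeOpP N ℓ) :=
  ⟨(heckeParP N ℓ ℤ ℤ).charpoly, LinearMap.charpoly_monic _, aeval_heckeOpP_charpoly ℓ⟩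

variable (S : Set ℕ)

theorem heckeOpP_mem_heckeAlgebra {ℓ : Nat.Primes} (h : (ℓ : ℕ) ∉ S) :
    heckeOpP N ℓ ∈ CuspForm.heckeAlgebra N 2 S := by
  by_cases hN : (ℓ : ℕ) ∣ N
  · rw [heckeOpP_of_dvd hN]
    exact CuspForm.heckeULin_mem_heckeAlgebra ℓ.2 hN h
  · rw [heckeOpP_of_not_dvd hN]
    exact CuspForm.heckeTLin_mem_heckeAlgebra ℓ.2 hN h

/-- the generator of `𝕋_S` at a prime `ℓ ∉ S` (`U_ℓ` if `ℓ ∣ N`, `T_ℓ` otherwise). -/
noncomputable def heckeGenS (ℓ : Nat.Primes) (h : (ℓ : ℕ) ∉ S) : CuspForm.heckeAlgebra N 2 S :=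
  ⟨heckeOpP N ℓ, heckeOpP_mem_heckeAlgebra S h⟩

theorem heckeGenS_eq_T {ℓ : ℕ} (hℓ : ℓ.Prime) (hℓN : ¬ ℓ ∣ N) (hℓS : ℓ ∉ S) :
    heckeGenS S ⟨ℓ, hℓ⟩ hℓS = CuspForm.heckeAlgebra.T hℓ hℓN hℓS := by
  apply Subtype.ext
  show heckeOpP N ⟨ℓ, hℓ⟩ = CuspForm.heckeTLin 2 hℓ hℓN
  rw [heckeOpP_of_not_dvd (ℓ := ⟨ℓ, hℓ⟩) hℓN]

theorem heckeGenS_eq_U {q : ℕ} (hq : q.Prime) (hqN : q ∣ N) (hqS : q ∉ S) :
    heckeGenS S ⟨q, hq⟩ hqS = CuspForm.heckeAlgebra.U hq hqN hqS := by
  apply Subtype.ext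
  show heckeOpP N ⟨q, hq⟩ = CuspForm.heckeULin 2 hqN
  rw [heckeOpP_of_dvd (ℓ := ⟨q, hq⟩) hqN]

theorem isIntegral_heckeGenS (ℓ : Nat.Primes) (h : (ℓ : ℕ) ∉ S) :
    IsIntegral ℤ (heckeGenS (N := N) S ℓ h) := by
  obtain ⟨p, hp, hp0⟩ := isIntegral_heckeOpP (N := N) ℓ
  refine ⟨p, hp, ?_⟩
  apply Subtype.ext
  rw [← aeval_def]
  have h1 := Polynomial.aeval_algHom_apply (CuspForm.heckeAlgebra N 2 S).val (heckeGenS S ℓ h) p
  exact h1.symm.trans hp0

/-- **the Hecke algebra is integral over `ℤ`.** -/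
theorem isIntegral_heckeAlgebra (t : CuspForm.heckeAlgebra N 2 S) : IsIntegral ℤ t := by
  obtain ⟨t, ht⟩ := t
  induction ht using Algebra.adjoin_induction with
  | mem x hx =>
    rcases hx with ⟨ℓ, hℓ, hℓN, hℓS, rfl⟩ | ⟨q, hqN, hq, hqS, rfl⟩
    · have := isIntegral_heckeGenS (N := N) S ⟨ℓ, hℓ⟩ hℓS
      rw [heckeGenS_eq_T S hℓ hℓN hℓS] at this
      exact this
    · have := isIntegral_heckeGenS (N := N) S ⟨q, hq⟩ hqS
      rw [heckeGenS_eq_U S hq hqN hqS] at this
      exact this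
  | algebraMap r => exact isIntegral_algebraMap (R := ℤ) (A := CuspForm.heckeAlgebra N 2 S) (x := r)
  | add x y hx hy ihx ihy => exact IsIntegral.add ihx ihy
  | mul x y hx hy ihx ihy => exact IsIntegral.mul ihx ihy

end Integrality

section Transfer

variable {N : ℕ} [NeZero N] {F F' : Type*} [Field F] [CharZero F] [Field F'] [CharZero F']

/-- occurrence of a system of eigenvalues does not depend on the embedding of its field of
definition. -/
theorem eigenParOn_ne_bot_of_field {K : Type*} [Field K] (j : K →+* F) (j' : K →+* F')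
    (σ : Set Nat.Primes) (a₀ : Nat.Primes → K)
    (h : eigenParOn N F σ (fun ℓ => j (a₀ ℓ)) ≠ ⊥) :
    eigenParOn N F' σ (fun ℓ => j' (a₀ ℓ)) ≠ ⊥ := by
  haveI : CharZero K := j.charZero
  have hK : eigenParOn N K σ a₀ ≠ ⊥ := by
    letI : Algebra K F := j.toAlgebra
    have h1 := finrank_eigenParOn_map K F (N := N) σ a₀
    intro hbot
    rw [hbot, finrank_bot] at h1
    exact h (Submodule.finrank_eq_zero.1 h1)
  letI : Algebra K F' := j'.toAlgebra
  have h2 := finrank_eigenParOn_map K F' (N := N) σ a₀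
  intro hbot
  apply hK
  rw [← Submodule.finrank_eq_zero, ← h2]
  have h4 : Module.finrank F' ↥(eigenParOn N F' σ (fun ℓ => j' (a₀ ℓ))) = 0 := by
    rw [hbot, finrank_bot]
  exact h4

/-- occurrence of a system of eigenvalues does not depend on the embedding of its ring of
definition. -/
theorem eigenParOn_ne_bot_of_domain {D : Type*} [CommRing D] [IsDomain D] (g : D →+* F)
    (g' : D →+* F') (hg : Function.Injective g) (hg' : Function.Injective g')
    (σ : Set Nat.Primes) (d : Nat.Primes → D)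
    (h : eigenParOn N F σ (fun ℓ => g (d ℓ)) ≠ ⊥) :
    eigenParOn N F' σ (fun ℓ => g' (d ℓ)) ≠ ⊥ := by
  have h1 := eigenParOn_ne_bot_of_field (N := N) (IsFractionRing.lift hg : FractionRing D →+* F)
    (IsFractionRing.lift hg' : FractionRing D →+* F') σ (fun ℓ => algebraMap D _ (d ℓ)) (by
      simp only [IsFractionRing.lift_algebraMap]
      exact h)
  simp only [IsFractionRing.lift_algebraMap] at h1
  exact h1

end Transfer

section Occur

variable {N : ℕ} [NeZero N] {F : Type*} [Field F] [CharZero F] (S : Set ℕ)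

/-- the primes outside `S`. -/
def primesOutside (S : Set ℕ) : Set Nat.Primes := {ℓ | (ℓ : ℕ) ∉ S}

theorem mem_primesOutside {S : Set ℕ} {ℓ : Nat.Primes} : ℓ ∈ primesOutside S ↔ (ℓ : ℕ) ∉ S :=
  Iff.rfl

/-- **every character of the Hecke algebra `𝕋_S` with values in a field of characteristic `0`
occurs in the parabolic homomorphisms** (as a system of eigenvalues at the primes outside `S`). -/
theorem eigenParOn_ne_bot_of_character (χ : CuspForm.heckeAlgebra N 2 S →+* F)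
    (a : Nat.Primes → F) (ha : ∀ (ℓ : Nat.Primes) (h : (ℓ : ℕ) ∉ S), a ℓ = χ (heckeGenS S ℓ h)) :
    eigenParOn N F (primesOutside S) a ≠ ⊥ := by
  classical
  -- an eigenform whose eigencharacter has the same kernel as `χ`
  let ρ : CuspForm.heckeAlgebra N 2 S →+* Module.End ℂ (CuspForm (Gamma0 N) 2) :=
    (CuspForm.heckeAlgebra N 2 S).val.toRingHom
  haveI : (RingHom.ker χ).IsPrime := RingHom.ker_isPrime χ
  haveI : FiniteDimensional ℂ (CuspForm (Gamma0 N) 2) :=
    Fermat.Agent.Helper2.cuspForm_Gamma0_finiteDimensional N 2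
  obtain ⟨f, χ'', hf0, hfe, hχ''⟩ :=
    Fermat.Agent.Helper2.exists_eigenvector_character ρ (RingHom.ker χ) (by
      intro s hs
      have : s = 0 := Subtype.ext hs
      rw [this]
      exact Ideal.zero_mem _)
  have hle : RingHom.ker χ'' ≤ RingHom.ker χ := by
    intro s hs
    by_contra hns
    exact hχ'' s hns ((RingHom.mem_ker).1 hs)
  have hker : RingHom.ker χ'' = RingHom.ker χ := by
    by_contra hne
    have hlt : RingHom.ker χ'' < RingHom.ker χ := lt_of_le_of_ne hle hne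
    obtain ⟨x, hx, hnx⟩ := SetLike.exists_of_lt hlt
    haveI : (RingHom.ker χ'').IsPrime := RingHom.ker_isPrime χ''
    have h1 := Ideal.comap_lt_comap_of_integral_mem_sdiff (R := ℤ) hle ⟨hx, hnx⟩
      (isIntegral_heckeAlgebra S x)
    obtain ⟨n, hn, hnn⟩ := SetLike.exists_of_lt h1
    apply hnn
    rw [Ideal.mem_comap, RingHom.mem_ker, eq_intCast, map_intCast] at hn
    have hn0 : n = 0 := by exact_mod_cast hn
    rw [hn0]
    exact Ideal.zero_mem _
  -- the system occurs over `ℂ`, with the character `χ''`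
  haveI : IsDomain (CuspForm.heckeAlgebra N 2 S ⧸ RingHom.ker χ) := Ideal.Quotient.isDomain _
  have hinj' : Function.Injective (RingHom.kerLift χ) := RingHom.kerLift_injective χ
  let g'' : (CuspForm.heckeAlgebra N 2 S ⧸ RingHom.ker χ) →+* ℂ :=
    Ideal.Quotient.lift (RingHom.ker χ) χ'' (fun s hs => by rw [← hker] at hs; exact hs)
  have hinj'' : Function.Injective g'' :=
    RingHom.lift_injective_of_ker_le_ideal _ _ hker.le
  let d : Nat.Primes → (CuspForm.heckeAlgebra N 2 S ⧸ RingHom.ker χ) := fun ℓ =>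
    if h : (ℓ : ℕ) ∉ S then Ideal.Quotient.mk (RingHom.ker χ) (heckeGenS S ℓ h) else 0
  have hd' : ∀ (ℓ : Nat.Primes) (h : (ℓ : ℕ) ∉ S),
      RingHom.kerLift χ (d ℓ) = χ (heckeGenS S ℓ h) := by
    intro ℓ h
    show RingHom.kerLift χ (dite _ _ _) = _
    rw [dif_pos h]
    rfl
  have hd'' : ∀ (ℓ : Nat.Primes) (h : (ℓ : ℕ) ∉ S), g'' (d ℓ) = χ'' (heckeGenS S ℓ h) := by
    intro ℓ h
    show g'' (dite _ _ _) = _
    rw [dif_pos h]
    rfl
  have hC : eigenParOn N ℂ (primesOutside S) (fun ℓ => g'' (d ℓ)) ≠ ⊥ := by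
    rw [Submodule.ne_bot_iff]
    refine ⟨ModularCurve.periodHomPair N (f, 0), ⟨periodHomPair_mem_parabolicHoms f 0, ?_⟩, ?_⟩
    · intro ℓ hℓ
      have h1 : heckeOpP N ℓ f = χ'' (heckeGenS S ℓ hℓ) • f := hfe (heckeGenS S ℓ hℓ)
      show heckeGrpP N ℓ ℂ _ = g'' (d ℓ) • _
      rw [hd'' ℓ hℓ, ← map_smul, Prod.smul_mk, smul_zero, ← h1,
        ← periodHomPair_heckeOpP, map_zero]
    · intro h0
      apply hf0
      have := periodHomPair_injective N (h0.trans (map_zero _).symm)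
      exact (Prod.ext_iff.mp this).1
  have hF := eigenParOn_ne_bot_of_domain (N := N) g'' (RingHom.kerLift χ) hinj'' hinj'
    (primesOutside S) d hC
  have h3 : eigenParOn N F (primesOutside S) a =
      eigenParOn N F (primesOutside S) (fun ℓ => RingHom.kerLift χ (d ℓ)) :=
    eigenParOn_congr (fun ℓ hℓ => by rw [ha ℓ hℓ, hd' ℓ hℓ])
  rw [h3]
  exact hF

end Occur

section Extend

variable {N : ℕ} [NeZero N] {F : Type*} [Field F] [CharZero F]

/-- **the Hecke operators commute on `Hom_par(Γ₀(N), F)`** for every field `F` of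
characteristic `0`. -/
theorem heckeGrpP_comm_field (ℓ q : Nat.Primes) {ψ : Additive (Gamma0 N) →+ F}
    (hψ : ψ ∈ parabolicHoms F (Gamma0 N) F) :
    heckeGrpP N ℓ F (heckeGrpP N q F ψ) = heckeGrpP N q F (heckeGrpP N ℓ F ψ) := by
  obtain ⟨x, hx⟩ := (parTheta F (Gamma0 N) F).surjective ⟨ψ, hψ⟩
  have hψx : ψ = (parTheta F (Gamma0 N) F x).1 := by rw [hx]
  rw [hψx]
  clear hx hψx hψ
  induction x using TensorProduct.induction_on with
  | zero => rw [map_zero]; simp only [Submodule.coe_zero, map_zero]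
  | tmul c ψ₀ =>
    rw [parTheta_tmul, parScal_coe_eq_comp, heckeGrpP_comp, heckeGrpP_comp, heckeGrpP_comp,
      heckeGrpP_comp]
    congr 1
    refine heckeGrpP_comm_of_injective N ℓ q (Int.castAddHom ℂ) Int.cast_injective ?_
    intro γ hγ
    exact ψ₀.2 γ hγ
  | add x y hx hy =>
    rw [map_add, Submodule.coe_add, map_add, map_add, map_add, map_add, hx, hy]

theorem heckeParP_commute (ℓ q : Nat.Primes) :
    Commute (heckeParP N ℓ F F) (heckeParP N q F F) := by
  apply LinearMap.ext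
  intro ψ
  apply Subtype.ext
  exact heckeGrpP_comm_field ℓ q ψ.2

/-- **a system of eigenvalues at the primes of `σ` occurring in `Hom_par(Γ₀(N), F)`, `F`
algebraically closed of characteristic `0`, extends to a system of eigenvalues at all primes.** -/
theorem exists_eigenPar_of_eigenParOn [IsAlgClosed F] {σ : Set Nat.Primes} {a : Nat.Primes → F}
    (h : eigenParOn N F σ a ≠ ⊥) :
    ∃ a' : Nat.Primes → F, eigenPar N F a' ≠ ⊥ ∧ ∀ ℓ ∈ σ, a' ℓ = a ℓ := by
  obtain ⟨ψ, hψ, hψ0⟩ := (Submodule.ne_bot_iff _).1 h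
  let W : Submodule F ↥(parabolicHoms F (Gamma0 N) F) :=
    (eigenParOn N F σ a).comap (parabolicHoms F (Gamma0 N) F).subtype
  have hW : W ≠ ⊥ := by
    rw [Submodule.ne_bot_iff]
    exact ⟨⟨ψ, hψ.1⟩, hψ, fun h0 => hψ0 (congrArg Subtype.val h0)⟩
  obtain ⟨v, hvW, hv0, hv⟩ := Fermat.Agent.Helper2.exists_common_eigenvector
    (Set.range fun q : Nat.Primes => heckeParP N q F F)
    (by rintro _ ⟨ℓ, rfl⟩ _ ⟨q, rfl⟩; exact heckeParP_commute ℓ q) W hW (by
      rintro _ ⟨q, rfl⟩ w hw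
      refine ⟨(heckeParP N q F F w).2, fun ℓ hℓ => ?_⟩
      show heckeGrpP N ℓ F (heckeGrpP N q F w.1) = a ℓ • heckeGrpP N q F w.1
      have hw2 : heckeGrpP N ℓ F w.1 = a ℓ • w.1 := hw.2 ℓ hℓ
      rw [heckeGrpP_comm_field ℓ q w.2, hw2]
      have h1 := (heckeGrpPₗ N q F F).map_smul (a ℓ) w.1
      exact h1)
  choose a' ha' using fun q : Nat.Primes => hv (heckeParP N q F F) ⟨q, rfl⟩
  have hv0' : (v : Additive (Gamma0 N) →+ F) ≠ 0 := fun h0 => hv0 (Subtype.ext h0)
  have hmem : (v : Additive (Gamma0 N) →+ F) ∈ eigenPar N F a' :=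
    ⟨v.2, fun q => congrArg Subtype.val (ha' q)⟩
  refine ⟨a', (Submodule.ne_bot_iff _).2 ⟨v.1, hmem, hv0'⟩, fun ℓ hℓ => ?_⟩
  have hv2 : heckeGrpP N ℓ F v.1 = a ℓ • v.1 := hvW.2 ℓ hℓ
  have h1 : a' ℓ • v.1 = a ℓ • v.1 := by
    rw [← hmem.2 ℓ, hv2]
  exact smul_left_injective F hv0' h1

/-- **(OCCUR)**: every ring homomorphism `χ : 𝕋_S → F`, `F` algebraically closed of
characteristic `0`, extends to a system of eigenvalues `a` occurring in `Hom_par(Γ₀(N), F)`
(`E_a ≠ ⊥`) with `a ℓ = χ (T_ℓ)` (resp. `χ (U_ℓ)`) for all primes `ℓ ∉ S`. -/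
theorem exists_eigenPar_of_character [IsAlgClosed F] (S : Set ℕ)
    (χ : CuspForm.heckeAlgebra N 2 S →+* F) :
    ∃ a : Nat.Primes → F, eigenPar N F a ≠ ⊥ ∧
      (∀ (ℓ : ℕ) (hℓ : ℓ.Prime) (hℓN : ¬ ℓ ∣ N) (hℓS : ℓ ∉ S),
        a ⟨ℓ, hℓ⟩ = χ (CuspForm.heckeAlgebra.T hℓ hℓN hℓS)) ∧
      (∀ (q : ℕ) (hq : q.Prime) (hqN : q ∣ N) (hqS : q ∉ S),
        a ⟨q, hq⟩ = χ (CuspForm.heckeAlgebra.U hq hqN hqS)) := by
  classical
  let a₁ : Nat.Primes → F := fun ℓ => if h : (ℓ : ℕ) ∉ S then χ (heckeGenS S ℓ h) else 0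
  have ha₁ : ∀ (ℓ : Nat.Primes) (h : (ℓ : ℕ) ∉ S), a₁ ℓ = χ (heckeGenS S ℓ h) := by
    intro ℓ h
    show dite _ _ _ = _
    rw [dif_pos h]
  obtain ⟨a, ha, haσ⟩ := exists_eigenPar_of_eigenParOn
    (eigenParOn_ne_bot_of_character S χ a₁ ha₁)
  refine ⟨a, ha, ?_, ?_⟩
  · intro ℓ hℓ hℓN hℓS
    rw [haσ ⟨ℓ, hℓ⟩ hℓS, ha₁ ⟨ℓ, hℓ⟩ hℓS, heckeGenS_eq_T S hℓ hℓN hℓS]
  · intro q hq hqN hqS
    rw [haσ ⟨q, hq⟩ hqS, ha₁ ⟨q, hq⟩ hqS, heckeGenS_eq_U S hq hqN hqS]

end Extend

end Fermat.Agent.GR
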