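/-
Stage (I), package (MULT1) (helper2), part 6: complements for the top of S30/S29/S42.
* (DESC) `eigenPar_ne_bot_of_map`, `eigenPar_ne_bot_map`: occurrence of a system of eigenvalues
  descends and ascends along field extensions;
* (FIN) `exists_finset_eigenParOn_eq`, `exists_finset_forall_mem_adjoin`,
  `finiteDimensional_adjoin_range`: the field generated by a system of eigenvalues occurring in
  `Hom_par(Γ₀(N), F)` is a number field, generated by finitely many of the eigenvalues;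
* (EIGENFORM) `isNormalizedEigenform_mem_eigenForms`, `exists_eigenPar_of_isNormalizedEigenform`:
  a normalized eigenform is a common eigenvector of all Hecke operators, and its system of
  eigenvalues occurs in `Hom_par(Γ₀(N), ℂ)`.
-/
import Mathlib
import Fermat.Agent.GR.MULT1_helper2_Occur

set_option autoImplicit false
set_option linter.unusedSectionVars false
set_option linter.style.haveILetI false

namespace Fermat.Agent.GR

open TensorProduct CongruenceSubgroup ModularCurve.Period ModularFormClass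
open scoped MatrixGroups
open Fermat.Agent.S49E

section Desc

variable {N : ℕ} [NeZero N] (K F : Type*) [Field K] [Field F] [CharZero K] [Algebra K F]

/-- **(DESC)**: a system of eigenvalues with values in `K` which occurs over an extension `F`
of `K` occurs over `K`. -/
theorem eigenPar_ne_bot_of_map (a : Nat.Primes → K)
    (h : eigenPar N F (fun ℓ => algebraMap K F (a ℓ)) ≠ ⊥) : eigenPar N K a ≠ ⊥ := by
  haveI : CharZero F := charZero_of_injective_algebraMap (algebraMap K F).injective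
  have h1 := finrank_eigenPar_map K F (N := N) a
  intro hbot
  rw [hbot, finrank_bot] at h1
  exact h (Submodule.finrank_eq_zero.1 h1)

theorem eigenParOn_ne_bot_of_map (σ : Set Nat.Primes) (a : Nat.Primes → K)
    (h : eigenParOn N F σ (fun ℓ => algebraMap K F (a ℓ)) ≠ ⊥) : eigenParOn N K σ a ≠ ⊥ := by
  haveI : CharZero F := charZero_of_injective_algebraMap (algebraMap K F).injective
  have h1 := finrank_eigenParOn_map K F (N := N) σ a
  intro hbot
  rw [hbot, finrank_bot] at h1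
  exact h (Submodule.finrank_eq_zero.1 h1)

/-- a system of eigenvalues which occurs over `K` occurs over every extension of `K`. -/
theorem eigenPar_ne_bot_map (a : Nat.Primes → K) (h : eigenPar N K a ≠ ⊥) :
    eigenPar N F (fun ℓ => algebraMap K F (a ℓ)) ≠ ⊥ := by
  haveI : CharZero F := charZero_of_injective_algebraMap (algebraMap K F).injective
  have h1 := finrank_eigenPar_map K F (N := N) a
  intro hbot
  rw [hbot, finrank_bot] at h1
  exact h (Submodule.finrank_eq_zero.1 h1.symm)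

end Desc

section Fin

variable {N : ℕ} [NeZero N] {F : Type*} [Field F] [CharZero F]

theorem eigenParOn_anti {σ τ : Set Nat.Primes} (h : σ ⊆ τ) (a : Nat.Primes → F) :
    eigenParOn N F τ a ≤ eigenParOn N F σ a :=
  fun _ hψ => ⟨hψ.1, fun ℓ hℓ => hψ.2 ℓ (h hℓ)⟩

/-- finitely many primes suffice to cut out `E_a`. -/
theorem exists_finset_eigenParOn_eq (a : Nat.Primes → F) :
    ∃ s : Finset Nat.Primes, eigenParOn N F (↑s) a = eigenPar N F a := by
  classical
  obtain ⟨d, ⟨s₀, hs₀⟩, hmin⟩ := wellFounded_lt.has_min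
    (Set.range fun s : Finset Nat.Primes => Module.finrank F ↥(eigenParOn N F (↑s) a))
    ⟨_, ⟨∅, rfl⟩⟩
  refine ⟨s₀, le_antisymm ?_ (eigenPar_le_eigenParOn _ a)⟩
  intro ψ hψ
  refine ⟨hψ.1, fun q => ?_⟩
  have hle : eigenParOn N F (↑(insert q s₀)) a ≤ eigenParOn N F (↑s₀) a :=
    eigenParOn_anti (by rw [Finset.coe_insert]; exact Set.subset_insert _ _) a
  have hfin : Module.finrank F ↥(eigenParOn N F (↑s₀) a) ≤
      Module.finrank F ↥(eigenParOn N F (↑(insert q s₀)) a) := by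
    have h1 : ¬ Module.finrank F ↥(eigenParOn N F (↑(insert q s₀)) a) < d :=
      hmin _ ⟨insert q s₀, rfl⟩
    have h2 : Module.finrank F ↥(eigenParOn N F (↑s₀) a) = d := hs₀
    omega
  have heq := Submodule.eq_of_le_of_finrank_le hle hfin
  have hψ' : ψ ∈ eigenParOn N F (↑(insert q s₀)) a := heq ▸ hψ
  exact hψ'.2 q (by rw [Finset.coe_insert]; exact Set.mem_insert _ _)

/-- **(FIN)**: the field generated over `ℚ` by a system of eigenvalues occurring in
`Hom_par(Γ₀(N), F)` is generated by finitely many of them. -/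
theorem exists_finset_forall_mem_adjoin {a : Nat.Primes → F} (h : eigenPar N F a ≠ ⊥) :
    ∃ s : Finset Nat.Primes, ∀ ℓ, a ℓ ∈ IntermediateField.adjoin ℚ (a '' (s : Set Nat.Primes)) := by
  classical
  obtain ⟨s, hs⟩ := exists_finset_eigenParOn_eq (N := N) a
  refine ⟨s, ?_⟩
  let a₀ : Nat.Primes → IntermediateField.adjoin ℚ (a '' (s : Set Nat.Primes)) := fun ℓ =>
    if h : a ℓ ∈ IntermediateField.adjoin ℚ (a '' (s : Set Nat.Primes)) then ⟨a ℓ, h⟩ else 0
  have ha₀ : ∀ ℓ ∈ (s : Set Nat.Primes),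
      algebraMap (IntermediateField.adjoin ℚ (a '' (s : Set Nat.Primes))) F (a₀ ℓ) = a ℓ := by
    intro ℓ hℓ
    have hmem : a ℓ ∈ IntermediateField.adjoin ℚ (a '' (s : Set Nat.Primes)) :=
      IntermediateField.subset_adjoin ℚ _ ⟨ℓ, hℓ, rfl⟩
    show algebraMap _ F (dite _ _ _) = _
    rw [dif_pos hmem]
    rfl
  have h1 : eigenParOn N F (↑s)
      (fun ℓ => algebraMap (IntermediateField.adjoin ℚ (a '' (s : Set Nat.Primes))) F (a₀ ℓ)) =
      eigenPar N F a := by
    rw [← hs]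
    exact eigenParOn_congr ha₀
  have h2 : eigenParOn N (IntermediateField.adjoin ℚ (a '' (s : Set Nat.Primes))) (↑s) a₀ ≠ ⊥ := by
    apply eigenParOn_ne_bot_of_map _ F
    rw [h1]
    exact h
  obtain ⟨ψ₀, hψ₀, hψ₀0⟩ := (Submodule.ne_bot_iff _).1 h2
  obtain ⟨γ, hγ⟩ : ∃ γ, ψ₀ γ ≠ 0 := by
    by_contra hcon
    push Not at hcon
    exact hψ₀0 (AddMonoidHom.ext hcon)
  intro q
  -- `algebraMap ∘ ψ₀ ∈ E_a(F)`
  have hmem : (algebraMap (IntermediateField.adjoin ℚ (a '' (s : Set Nat.Primes))) F :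
      _ →+ F).comp ψ₀ ∈ eigenPar N F a := by
    rw [← h1]
    refine ⟨comp_mem_parabolicHoms _ hψ₀.1, fun ℓ hℓ => ?_⟩
    rw [heckeGrpP_comp, hψ₀.2 ℓ hℓ, comp_smul_algebraMap]
  have h3 := hmem.2 q
  rw [heckeGrpP_comp] at h3
  have h4 := DFunLike.congr_fun h3 γ
  have h5 : algebraMap (IntermediateField.adjoin ℚ (a '' (s : Set Nat.Primes))) F
      (heckeGrpP N q _ ψ₀ γ) = a q * algebraMap _ F (ψ₀ γ) := h4
  have hne : algebraMap (IntermediateField.adjoin ℚ (a '' (s : Set Nat.Primes))) F (ψ₀ γ) ≠ 0 :=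
    fun h0 => hγ ((map_eq_zero _).1 h0)
  have h6 : a q = algebraMap (IntermediateField.adjoin ℚ (a '' (s : Set Nat.Primes))) F
      (heckeGrpP N q _ ψ₀ γ / ψ₀ γ) := by
    rw [map_div₀, h5, mul_div_assoc, div_self hne, mul_one]
  rw [h6]
  exact (heckeGrpP N q _ ψ₀ γ / ψ₀ γ).2

/-- **(FIN)**: the field generated over `ℚ` by a system of eigenvalues occurring in
`Hom_par(Γ₀(N), F)` is a number field. -/
theorem finiteDimensional_adjoin_range {a : Nat.Primes → F} (h : eigenPar N F a ≠ ⊥) :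
    FiniteDimensional ℚ ↥(IntermediateField.adjoin ℚ (Set.range a)) := by
  obtain ⟨s, hs⟩ := exists_finset_forall_mem_adjoin h
  have heq : IntermediateField.adjoin ℚ (Set.range a) =
      IntermediateField.adjoin ℚ (a '' (s : Set Nat.Primes)) := by
    apply le_antisymm
    · rw [IntermediateField.adjoin_le_iff]
      rintro _ ⟨ℓ, rfl⟩
      exact hs ℓ
    · exact IntermediateField.adjoin.mono ℚ _ _ (Set.image_subset_range _ _)
  rw [heq]
  haveI : Finite ↑(a '' (s : Set Nat.Primes)) := (s.finite_toSet.image a).to_subtype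
  exact IntermediateField.finiteDimensional_adjoin fun x hx => by
    obtain ⟨ℓ, -, rfl⟩ := hx
    exact (isIntegral_of_eigenPar_ne_bot h ℓ).tower_top

/-- the subalgebra version of (FIN). -/
theorem exists_finset_forall_mem_algebra_adjoin {a : Nat.Primes → F} (h : eigenPar N F a ≠ ⊥) :
    ∃ s : Finset Nat.Primes, ∀ ℓ, a ℓ ∈ Algebra.adjoin ℚ (a '' (s : Set Nat.Primes)) := by
  obtain ⟨s, hs⟩ := exists_finset_forall_mem_adjoin h
  refine ⟨s, fun ℓ => ?_⟩
  have halg : ∀ x ∈ a '' (s : Set Nat.Primes), IsAlgebraic ℚ x := by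
    rintro _ ⟨q, -, rfl⟩
    exact ((isIntegral_of_eigenPar_ne_bot h q).tower_top (A := ℚ)).isAlgebraic
  rw [← IntermediateField.adjoin_toSubalgebra_of_isAlgebraic halg]
  exact hs ℓ

end Fin

section Eigenform

variable {N : ℕ} [NeZero N]

/-- the system of eigenvalues of a cusp form: `ℓ ↦ a_ℓ(g)`. -/
noncomputable def qSystem (g : CuspForm (Gamma0 N) 2) : Nat.Primes → ℂ :=
  fun ℓ => qCoeff g ℓ

theorem qSystem_apply (g : CuspForm (Gamma0 N) 2) {ℓ : ℕ} (hℓ : ℓ.Prime) :
    qSystem g ⟨ℓ, hℓ⟩ = qCoeff g ℓ := rfl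

/-- formal core: a multiplicative sequence with the Hecke recursion at `p` satisfies the
`T_p`-eigen-relation. -/
theorem hecke_relation_of_multiplicative {b : ℕ → ℂ} {p : ℕ} (hp : p.Prime) (ε : ℂ)
    (h0 : b 0 = 0) (h1 : b 1 = 1)
    (hmul : ∀ m n : ℕ, m.Coprime n → b (m * n) = b m * b n)
    (hrec : ∀ r : ℕ, b (p ^ (r + 2)) = b p * b (p ^ (r + 1)) - ε * b (p ^ r)) (n : ℕ) :
    b (n * p) + (if p ∣ n then ε * b (n / p) else 0) = b p * b n := by
  rcases Nat.eq_zero_or_pos n with rfl | hn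
  · simp [h0]
  obtain ⟨r, m, hm, rfl⟩ := Nat.exists_eq_pow_mul_and_not_dvd hn.ne' p hp.ne_one
  have hcop : ∀ k : ℕ, (p ^ k).Coprime m :=
    fun k => Nat.Coprime.pow_left k ((Nat.Prime.coprime_iff_not_dvd hp).2 hm)
  have e1 : p ^ r * m * p = p ^ (r + 1) * m := by ring
  rw [e1, hmul _ _ (hcop (r + 1)), hmul _ _ (hcop r)]
  cases r with
  | zero =>
    have hnd : ¬ p ∣ p ^ 0 * m := by rwa [pow_zero, one_mul]
    rw [if_neg hnd, zero_add, pow_one, pow_zero, h1]
    ring
  | succ r =>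
    have hd : p ∣ p ^ (r + 1) * m := Dvd.dvd.mul_right (dvd_pow_self p (Nat.succ_ne_zero r)) m
    have e2 : p ^ (r + 1) * m / p = p ^ r * m := by
      rw [pow_succ, mul_assoc, mul_comm p m, ← mul_assoc, Nat.mul_div_cancel _ hp.pos]
    rw [if_pos hd, e2, hmul _ _ (hcop r), hrec r]
    ring

/-- **(EIGENFORM)**: a normalized eigenform is a common eigenvector of all the Hecke operators
`T_ℓ` (`ℓ ∤ N`) and `U_ℓ` (`ℓ ∣ N`), with eigenvalues its `q`-coefficients. -/
theorem isNormalizedEigenform_mem_eigenForms {g : CuspForm (Gamma0 N) 2}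
    (hg : g.IsNormalizedEigenform) : g ∈ eigenForms N (qSystem g) := by
  intro ℓ
  have h0 : qCoeff g 0 = 0 := qCoeff_zero_eq_zero g
  rw [← sub_eq_zero]
  apply eq_zero_of_qCoeff_eq_zero
  intro n
  rw [qCoeff_sub, qCoeff_smul, sub_eq_zero]
  by_cases hN : (ℓ : ℕ) ∣ N
  · rw [heckeOpP_of_dvd hN, qCoeff_heckeULin ℓ.2 hN]
    have h := hecke_relation_of_multiplicative (b := fun n => qCoeff g n) ℓ.2 0 h0
      hg.qCoeff_one hg.qCoeff_mul_of_coprime (fun r => by
        rw [zero_mul, sub_zero]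
        exact hg.qCoeff_prime_pow_of_dvd ℓ r ℓ.2 hN) n
    simp only [zero_mul, ite_self, add_zero] at h
    exact h
  · rw [heckeOpP_of_not_dvd hN, qCoeff_heckeTLin ℓ.2 hN]
    exact hecke_relation_of_multiplicative (b := fun n => qCoeff g n) ℓ.2 (ℓ : ℂ) h0
      hg.qCoeff_one hg.qCoeff_mul_of_coprime
      (fun r => hg.qCoeff_prime_pow_of_not_dvd ℓ r ℓ.2 hN) n

theorem isNormalizedEigenform_ne_zero {g : CuspForm (Gamma0 N) 2}
    (hg : g.IsNormalizedEigenform) : g ≠ 0 := by
  intro h0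
  have h1 := hg.qCoeff_one
  rw [h0] at h1
  have h2 : qCoeff (⇑(0 : CuspForm (Gamma0 N) 2)) 1 = 0 := by
    have := qCoeff_smul (N := N) 0 0 1
    rw [zero_smul, zero_mul] at this
    exact this
  rw [h2] at h1
  exact zero_ne_one h1

/-- **(EIGENFORM)**: the system of eigenvalues of a normalized eigenform occurs in
`Hom_par(Γ₀(N), ℂ)`. -/
theorem eigenPar_qSystem_ne_bot {g : CuspForm (Gamma0 N) 2} (hg : g.IsNormalizedEigenform) :
    eigenPar N ℂ (qSystem g) ≠ ⊥ := by
  rw [Submodule.ne_bot_iff]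
  refine ⟨ModularCurve.periodHomPair N (g, 0),
    (periodHomPair_mem_eigenPar_iff g 0).2
      ⟨isNormalizedEigenform_mem_eigenForms hg, (eigenForms N _).zero_mem⟩, ?_⟩
  intro h0
  apply isNormalizedEigenform_ne_zero hg
  have := periodHomPair_injective N (h0.trans (map_zero _).symm)
  exact (Prod.ext_iff.mp this).1

theorem exists_eigenPar_of_isNormalizedEigenform {g : CuspForm (Gamma0 N) 2}
    (hg : g.IsNormalizedEigenform) :
    ∃ a : Nat.Primes → ℂ, eigenPar N ℂ a ≠ ⊥ ∧
      ∀ (ℓ : ℕ) (hℓ : ℓ.Prime), a ⟨ℓ, hℓ⟩ = qCoeff g ℓ :=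
  ⟨qSystem g, eigenPar_qSystem_ne_bot hg, fun _ _ => rfl⟩

end Eigenform

end Fermat.Agent.GR
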