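/-
STAGE (I), lead: the canonical ring homomorphism `ℤ_[p] →+* 𝒪` for a ring `𝒪` which is complete
for an ideal `I` containing `p`.
-/
import Mathlib

set_option autoImplicit false
set_option linter.unusedSectionVars false
set_option linter.unusedVariables false

namespace Fermat.Agent.GR

variable (p : ℕ) [hp : Fact p.Prime] {𝒪 : Type*} [CommRing 𝒪] (I : Ideal 𝒪)

/-- `ZMod (p^n) →+* 𝒪 ⧸ I^n` when `p ∈ I` -/
noncomputable def zmodToQuotPow (hpI : (p : 𝒪) ∈ I) (n : ℕ) : ZMod (p ^ n) →+* 𝒪 ⧸ I ^ n :=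
  (Ideal.Quotient.lift (Ideal.span {((p ^ n : ℕ) : ℤ)}) (Int.castRingHom (𝒪 ⧸ I ^ n)) (by
    intro a ha
    rw [Ideal.mem_span_singleton] at ha
    obtain ⟨b, rfl⟩ := ha
    rw [map_mul, eq_intCast, Int.cast_natCast, Nat.cast_pow]
    have h1 : ((p : 𝒪 ⧸ I ^ n) ^ n) = 0 := by
      rw [← map_natCast (Ideal.Quotient.mk (I ^ n)), ← map_pow, Ideal.Quotient.eq_zero_iff_mem]
      exact Ideal.pow_mem_pow hpI n
    rw [h1, zero_mul])).comp
    (Int.quotientSpanNatEquivZMod (p ^ n)).symm.toRingHom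

/-- the compatible family `ℤ_[p] →+* 𝒪 ⧸ I^n` -/
noncomputable def padicToQuotPow (hpI : (p : 𝒪) ∈ I) (n : ℕ) : ℤ_[p] →+* 𝒪 ⧸ I ^ n :=
  (zmodToQuotPow p I hpI n).comp (PadicInt.toZModPow n)

theorem padicToQuotPow_compat (hpI : (p : 𝒪) ∈ I) {m n : ℕ} (hle : m ≤ n) :
    (Ideal.Quotient.factorPow I hle).comp (padicToQuotPow p I hpI n) = padicToQuotPow p I hpI m := by
  have h1 : (Ideal.Quotient.factorPow I hle).comp (zmodToQuotPow p I hpI n) =
      (zmodToQuotPow p I hpI m).comp (ZMod.castHom (pow_dvd_pow p hle) (ZMod (p ^ m))) :=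
    Subsingleton.elim _ _
  rw [padicToQuotPow, ← RingHom.comp_assoc, h1, RingHom.comp_assoc,
    PadicInt.zmod_cast_comp_toZModPow m n hle]
  rfl

variable [IsAdicComplete I 𝒪]

/-- **the canonical map `ℤ_[p] →+* 𝒪`** -/
noncomputable def padicToComplete (hpI : (p : 𝒪) ∈ I) : ℤ_[p] →+* 𝒪 :=
  IsAdicComplete.liftRingHom I (padicToQuotPow p I hpI)
    (fun hle => padicToQuotPow_compat p I hpI hle)

theorem mk_padicToComplete (hpI : (p : 𝒪) ∈ I) (n : ℕ) (z : ℤ_[p]) :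
    Ideal.Quotient.mk (I ^ n) (padicToComplete p I hpI z) = padicToQuotPow p I hpI n z :=
  IsAdicComplete.mk_liftRingHom I _ _ n z

end Fermat.Agent.GR
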