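/-
STAGE (I), package K9 (DET), lead — part 2: Frobenius elements and roots of unity; the integers
`cycVal p n g` (values of the `p`-adic cyclotomic character modulo `p ^ n`).
-/
import Mathlib
import Fermat.Agent.TW.Kill_helper1_Cyc
import Fermat.Agent.TW.Kill_helper1_Frob

set_option autoImplicit false
set_option linter.unusedSectionVars false
set_option linter.unusedVariables false

namespace Fermat.Agent.GR

open Fermat.Agent.TW.Kill

/-- `Ω = AlgebraicClosure ℚ`. -/
local notation "Ω" => AlgebraicClosure ℚ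
/-- `GQ = Gal(Ω/ℚ)`. -/
local notation "GQ" => (AlgebraicClosure ℚ ≃ₐ[ℚ] AlgebraicClosure ℚ)

section Frobenius

variable {P : ValuationSubring Ω}

/-- two distinct powers of a primitive `m`-th root of unity are distinct modulo `P` when `m` is a
unit at `P`. -/
theorem valuation_pow_sub_pow_eq_one {m : ℕ} {ζ : Ω} (hζ : IsPrimitiveRoot ζ m)
    (hm : P.valuation (m : Ω) = 1) {a b : ℕ} (hab : a < b) (hd : ¬ m ∣ b - a) :
    P.valuation (ζ ^ a - ζ ^ b) = 1 := by
  have hm0 : m ≠ 0 := by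
    rintro rfl
    rw [Nat.cast_zero, map_zero] at hm
    exact zero_ne_one hm
  have hv1 : P.valuation ζ = 1 := by
    have hpow : P.valuation ζ ^ m = 1 := by rw [← map_pow, hζ.pow_eq_one, map_one]
    exact (pow_eq_one_iff_of_nonneg zero_le hm0).1 hpow
  have h3 : ζ ^ a - ζ ^ b = ζ ^ a * (1 - ζ ^ (b - a)) := by
    have : b = a + (b - a) := by omega
    conv_lhs => rw [this, pow_add]
    ring
  rw [h3, map_mul, map_pow, hv1, one_pow, one_mul, valuation_one_sub_pow_eq_one hζ hm hd]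

/-- **A Frobenius element at a place over `q` raises every root of unity of order prime to `q`
to the `q`-th power.** -/
theorem frobenius_apply_primitiveRoot {q m : ℕ} (hq : q.Prime) (hqm : ¬ q ∣ m)
    (hP : P.LiesOverPrime q) {φ : GQ} (hφ : P.IsFrobeniusAt φ q) {ζ : Ω}
    (hζ : IsPrimitiveRoot ζ m) : φ ζ = ζ ^ q := by
  have hm0 : m ≠ 0 := by
    rintro rfl
    exact hqm (dvd_zero q)
  haveI : NeZero m := ⟨hm0⟩
  have hζP : ζ ∈ P := mem_of_isIntegral_int P (hζ.isIntegral (Nat.pos_of_ne_zero hm0))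
  have hmv : P.valuation (m : Ω) = 1 := valuation_natCast_eq_one hq hqm hP
  obtain ⟨hφD, hfrob⟩ := hφ
  set z : P := ⟨ζ, hζP⟩ with hz
  have h1 := hfrob (IsLocalRing.residue P z)
  rw [← IsLocalRing.ResidueField.residue_smul, ← map_pow, ← sub_eq_zero, ← map_sub,
    IsLocalRing.residue_eq_zero_iff, P.valuation_lt_one_iff] at h1
  have h2 : P.valuation (φ ζ - ζ ^ q) < 1 := h1
  -- `φ ζ` is a power of `ζ`
  have hφζ : (φ ζ) ^ m = 1 := by rw [← map_pow, hζ.pow_eq_one, map_one]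
  obtain ⟨j, hj, hjζ⟩ := hζ.eq_pow_of_pow_eq_one hφζ
  -- reduce `q` modulo `m`
  have hqr : ζ ^ q = ζ ^ (q % m) := by
    conv_lhs => rw [← Nat.div_add_mod q m, pow_add, pow_mul, hζ.pow_eq_one, one_pow, one_mul]
  have hlt : q % m < m := Nat.mod_lt _ (Nat.pos_of_ne_zero hm0)
  rw [← hjζ, hqr] at h2 ⊢
  rcases lt_trichotomy j (q % m) with h | h | h
  · exfalso
    have := valuation_pow_sub_pow_eq_one (P := P) hζ hmv h
      (fun hd => by have := Nat.le_of_dvd (by omega) hd; omega)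
    rw [this] at h2
    exact lt_irrefl _ h2
  · rw [h]
  · exfalso
    have := valuation_pow_sub_pow_eq_one (P := P) hζ hmv h
      (fun hd => by have := Nat.le_of_dvd (by omega) hd; omega)
    rw [← Valuation.map_neg, neg_sub, this] at h2
    exact lt_irrefl _ h2

/-- a Frobenius element at a place over `q` raises every `m`-th root of unity (`q ∤ m`) to the
`q`-th power. -/
theorem frobenius_apply_rootOfUnity {q m : ℕ} (hq : q.Prime) (hqm : ¬ q ∣ m)
    (hP : P.LiesOverPrime q) {φ : GQ} (hφ : P.IsFrobeniusAt φ q) {t : Ω}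
    (ht : t ^ m = 1) : φ t = t ^ q := by
  have hm0 : m ≠ 0 := by
    rintro rfl
    exact hqm (dvd_zero q)
  haveI : NeZero m := ⟨hm0⟩
  obtain ⟨ζ, hζ⟩ := exists_primitiveRoot m
  obtain ⟨i, -, rfl⟩ := hζ.eq_pow_of_pow_eq_one ht
  rw [map_pow, frobenius_apply_primitiveRoot hq hqm hP hφ hζ, ← pow_mul, ← pow_mul, mul_comm]

end Frobenius

section CycVal

variable (p : ℕ) [Fact p.Prime]

/-- the value of the cyclotomic character modulo `p ^ n`, as a natural number `< p ^ n`. -/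
noncomputable def cycVal (n : ℕ) (g : GQ) : ℕ :=
  ((cyc (p ^ n) g : (ZMod (p ^ n))ˣ) : ZMod (p ^ n)).val

theorem cycVal_spec (n : ℕ) (g : GQ) {t : Ω} (ht : t ^ p ^ n = 1) :
    g t = t ^ cycVal p n g :=
  cyc_spec' (p ^ n) g ht

theorem natCast_cycVal (n : ℕ) (g : GQ) :
    ((cycVal p n g : ℕ) : ZMod (p ^ n)) = ((cyc (p ^ n) g : (ZMod (p ^ n))ˣ) : ZMod (p ^ n)) := by
  rw [cycVal, ZMod.natCast_val, ZMod.cast_id', id]

theorem pow_mod_of_pow_eq_one {m : ℕ} {t : Ω} (ht : t ^ m = 1) (a : ℕ) :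
    t ^ (a % m) = t ^ a := by
  conv_rhs => rw [← Nat.div_add_mod a m, pow_add, pow_mul, ht, one_pow, one_mul]

/-- uniqueness: an exponent describing the action of `g` on the `p ^ n`-th roots of unity is
congruent to `cycVal p n g`. -/
theorem cycVal_unique (n : ℕ) (g : GQ) {a : ℕ}
    (ha : ∀ t : Ω, t ^ p ^ n = 1 → g t = t ^ a) : a ≡ cycVal p n g [MOD p ^ n] := by
  have h1 : ((cyc (p ^ n) g : (ZMod (p ^ n))ˣ) : ZMod (p ^ n)) = ((a : ℕ) : ZMod (p ^ n)) := by
    refine cyc_unique (p ^ n) g fun t ht => ?_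
    rw [ZMod.val_natCast, pow_mod_of_pow_eq_one ht]
    exact ha t ht
  rw [← ZMod.natCast_eq_natCast_iff, natCast_cycVal, h1]

theorem cycVal_mul (n : ℕ) (g h : GQ) :
    cycVal p n (g * h) ≡ cycVal p n g * cycVal p n h [MOD p ^ n] := by
  rw [← ZMod.natCast_eq_natCast_iff, Nat.cast_mul, natCast_cycVal, natCast_cycVal,
    natCast_cycVal, map_mul, Units.val_mul]

theorem cycVal_one (n : ℕ) : cycVal p n 1 ≡ 1 [MOD p ^ n] := by
  rw [← ZMod.natCast_eq_natCast_iff, natCast_cycVal, map_one, Units.val_one, Nat.cast_one]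

theorem cycVal_of_cyc_eq_one (n : ℕ) {g : GQ} (hg : cyc (p ^ n) g = 1) :
    cycVal p n g ≡ 1 [MOD p ^ n] := by
  rw [← ZMod.natCast_eq_natCast_iff, natCast_cycVal, hg, Units.val_one, Nat.cast_one]

/-- compatibility of the levels -/
theorem cycVal_modEq_of_le {n m : ℕ} (hnm : n ≤ m) (g : GQ) :
    cycVal p m g ≡ cycVal p n g [MOD p ^ n] := by
  refine cycVal_unique p n g fun t ht => cycVal_spec p m g ?_
  obtain ⟨d, rfl⟩ := Nat.exists_eq_add_of_le hnm
  rw [pow_add, pow_mul, ht, one_pow]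

/-- the value at a Frobenius element at `q ≠ p` is `q`. -/
theorem cycVal_frobenius (n : ℕ) {q : ℕ} (hq : q.Prime) (hqp : q ≠ p)
    {P : ValuationSubring Ω} (hP : P.LiesOverPrime q) {φ : GQ} (hφ : P.IsFrobeniusAt φ q) :
    q ≡ cycVal p n φ [MOD p ^ n] := by
  refine cycVal_unique p n φ fun t ht => frobenius_apply_rootOfUnity hq ?_ hP hφ ht
  intro hd
  exact hqp ((Nat.prime_dvd_prime_iff_eq hq (Fact.out : p.Prime)).1 (hq.dvd_of_dvd_pow hd))

/-- congruent natural numbers have congruent images in any ring -/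
theorem natCast_sub_natCast_mem_span {R : Type*} [CommRing R] {a b m : ℕ}
    (h : a ≡ b [MOD m]) : (a : R) - (b : R) ∈ Ideal.span {((m : ℕ) : R)} := by
  have h1 : (m : ℤ) ∣ (a : ℤ) - (b : ℤ) := by
    have := (Nat.modEq_iff_dvd.1 h.symm)
    simpa using this
  obtain ⟨c, hc⟩ := h1
  rw [Ideal.mem_span_singleton]
  refine ⟨(c : R), ?_⟩
  have := congrArg (fun z : ℤ => (z : R)) hc
  push_cast at this
  exact this

end CycVal

end Fermat.Agent.GR
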