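/-
STAGE (I), package K9 (DET), lead — part 1: linear algebra of endomorphisms of a free module of
rank two over a domain: scalar endomorphisms, and the characteristic polynomial of a non-scalar
endomorphism killed by a monic quadratic polynomial.
-/
import Mathlib

set_option autoImplicit false
set_option linter.unusedSectionVars false
set_option linter.unusedVariables false

namespace Fermat.Agent.GR

open Polynomial

variable {R : Type*} [CommRing R] {V : Type*} [AddCommGroup V] [Module R V]

/-- an endomorphism which is multiplication by a scalar -/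
def IsScalarEnd (f : Module.End R V) : Prop := ∃ r : R, f = r • (1 : Module.End R V)

theorem isScalarEnd_smul_one (r : R) : IsScalarEnd (r • (1 : Module.End R V)) := ⟨r, rfl⟩

theorem isScalarEnd_one : IsScalarEnd (1 : Module.End R V) := ⟨1, (one_smul _ _).symm⟩

theorem IsScalarEnd.mul {f g : Module.End R V} (hf : IsScalarEnd f) (hg : IsScalarEnd g) :
    IsScalarEnd (f * g) := by
  obtain ⟨r, rfl⟩ := hf
  obtain ⟨s, rfl⟩ := hg
  exact ⟨r * s, by rw [smul_mul_smul_comm, mul_one]⟩

theorem IsScalarEnd.pow {f : Module.End R V} (hf : IsScalarEnd f) (n : ℕ) :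
    IsScalarEnd (f ^ n) := by
  induction n with
  | zero => rw [pow_zero]; exact isScalarEnd_one
  | succ n ih => rw [pow_succ]; exact ih.mul hf

/-- a scalar endomorphism commutes with everything -/
theorem IsScalarEnd.commute {f : Module.End R V} (hf : IsScalarEnd f) (g : Module.End R V) :
    f * g = g * f := by
  obtain ⟨r, rfl⟩ := hf
  rw [smul_mul_assoc, one_mul, mul_smul_comm, mul_one]

/-- conjugating a scalar endomorphism gives the same endomorphism -/
theorem IsScalarEnd.conj {f : Module.End R V} (hf : IsScalarEnd f) {u v : Module.End R V}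
    (huv : u * v = 1) : u * f * v = f := by
  rw [← hf.commute u, mul_assoc, huv, mul_one]

theorem isScalarEnd_of_conj {f : Module.End R V} {u v : Module.End R V}
    (huv : u * v = 1) (hvu : v * u = 1) (h : IsScalarEnd (u * f * v)) : IsScalarEnd f := by
  have h1 : v * (u * f * v) * u = f := by
    calc v * (u * f * v) * u = (v * u) * f * (v * u) := by simp only [mul_assoc]
      _ = f := by rw [hvu, one_mul, mul_one]
  rw [← h1]
  obtain ⟨r, hr⟩ := h
  rw [hr]
  exact ⟨r, by rw [mul_smul_comm, mul_one, smul_mul_assoc, hvu]⟩

section Domain

variable [IsDomain R] [Module.Free R V] [Module.Finite R V]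

/-- over a domain, on a free module: if a nonzero multiple of `f` is scalar, so is `f`. -/
theorem isScalarEnd_of_smul_eq_smul_one {f : Module.End R V} {s t : R} (hs : s ≠ 0)
    (h : s • f = t • (1 : Module.End R V)) : IsScalarEnd f := by
  classical
  let b := Module.Free.chooseBasis R V
  have hb : ∀ i, s • f (b i) = t • b i := fun i => by
    have := congrArg (fun g : Module.End R V => g (b i)) h
    simpa using this
  -- coefficients
  have hc : ∀ i j, s * b.repr (f (b i)) j = if j = i then t else 0 := by
    intro i j
    have := congrArg (fun v => b.repr v j) (hb i)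
    simp only [map_smul, Finsupp.smul_apply, smul_eq_mul, Module.Basis.repr_self] at this
    rw [this, Finsupp.single_apply]
    split_ifs with h1 h2 h2
    · rw [mul_one]
    · exact absurd h1.symm h2
    · exact absurd h2.symm h1
    · rw [mul_zero]
  by_cases hne : Nonempty (Module.Free.ChooseBasisIndex R V)
  · obtain ⟨i₀⟩ := hne
    refine ⟨b.repr (f (b i₀)) i₀, b.ext fun i => ?_⟩
    apply b.repr.injective
    ext j
    have hcancel : ∀ x y : R, s * x = s * y → x = y := fun x y hxy => mul_left_cancel₀ hs hxy
    apply hcancel
    rw [hc i j]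
    simp only [LinearMap.smul_apply, Module.End.one_apply, map_smul, Finsupp.smul_apply,
      smul_eq_mul, Module.Basis.repr_self, Finsupp.single_apply]
    split_ifs with h1 h2 h2
    · rw [mul_one, hc i₀ i₀, if_pos rfl]
    · exact absurd h1.symm h2
    · exact absurd h2.symm h1
    · rw [mul_zero, mul_zero]
  · refine ⟨0, b.ext fun i => ?_⟩
    exact absurd ⟨i⟩ hne

/-- `r • 1 = 0` on a nontrivial free module forces `r = 0`. -/
theorem eq_zero_of_smul_one_eq_zero [Nontrivial V] {r : R}
    (h : r • (1 : Module.End R V) = 0) : r = 0 := by
  classical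
  let b := Module.Free.chooseBasis R V
  have hne : Nonempty (Module.Free.ChooseBasisIndex R V) := by
    by_contra hempty
    rw [not_nonempty_iff] at hempty
    obtain ⟨x, hx⟩ := exists_ne (0 : V)
    apply hx
    have := b.repr.injective (a₁ := x) (a₂ := 0) (by ext i; exact (hempty.false i).elim)
    exact this
  obtain ⟨i⟩ := hne
  have h1 := congrArg (fun g : Module.End R V => b.repr (g (b i)) i) h
  simpa using h1

/-- **The characteristic polynomial of a non-scalar endomorphism of a free module of rank two
which is killed by `X² - aX + b` is `X² - aX + b`.** -/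
theorem charpoly_eq_of_quadratic (h2 : Module.finrank R V = 2) {f : Module.End R V} {a b : R}
    (hq : f * f - a • f + b • (1 : Module.End R V) = 0) (hns : ¬ IsScalarEnd f) :
    f.charpoly = X ^ 2 - C a * X + C b := by
  have hV : Nontrivial V := Module.nontrivial_of_finrank_pos (R := R) (by rw [h2]; norm_num)
  have hmonic : f.charpoly.Monic := LinearMap.charpoly_monic f
  have hdeg : f.charpoly.natDegree = 2 := by rw [LinearMap.charpoly_natDegree, h2]
  set c₁ := f.charpoly.coeff 1 with hc₁
  set c₀ := f.charpoly.coeff 0 with hc₀
  have hχ : f.charpoly = X ^ 2 + C c₁ * X + C c₀ := by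
    ext n
    rcases n with _ | _ | _ | n
    · simp [hc₀]
    · simp [hc₁]
    · have : f.charpoly.coeff 2 = 1 := by
        have := hmonic.coeff_natDegree
        rwa [hdeg] at this
      simp [this]
    · have h3 : f.charpoly.coeff (n + 3) = 0 :=
        coeff_eq_zero_of_natDegree_lt (by rw [hdeg]; omega)
      rw [h3]
      simp [coeff_X_pow]
  have hCH : f * f + c₁ • f + c₀ • (1 : Module.End R V) = 0 := by
    have := LinearMap.aeval_self_charpoly f
    rw [hχ, map_add, map_add, map_mul, map_pow, aeval_X, aeval_C, aeval_C,
      Algebra.algebraMap_eq_smul_one, Algebra.algebraMap_eq_smul_one, smul_mul_assoc, one_mul,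
      pow_two] at this
    exact this
  have hdiff : (c₁ + a) • f = (b - c₀) • (1 : Module.End R V) := by
    have : (c₁ + a) • f - (b - c₀) • (1 : Module.End R V)
        = (f * f + c₁ • f + c₀ • (1 : Module.End R V)) -
          (f * f - a • f + b • (1 : Module.End R V)) := by
      simp only [add_smul, sub_smul]
      abel
    rw [← sub_eq_zero, this, hCH, hq, sub_zero]
  have h1 : c₁ + a = 0 := by
    by_contra hne
    exact hns (isScalarEnd_of_smul_eq_smul_one hne hdiff)
  have h0 : b - c₀ = 0 := by
    rw [h1, zero_smul] at hdiff
    exact eq_zero_of_smul_one_eq_zero hdiff.symm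
  have e1 : c₁ = -a := eq_neg_of_add_eq_zero_left h1
  have e0 : c₀ = b := (sub_eq_zero.mp h0).symm
  rw [hχ, e1, e0, map_neg]
  ring

/-- the determinant of an endomorphism of a free module of rank two is the constant coefficient
of its characteristic polynomial -/
theorem det_eq_charpoly_coeff_zero (h2 : Module.finrank R V = 2) (f : Module.End R V) :
    LinearMap.det f = f.charpoly.coeff 0 := by
  have := LinearMap.det_eq_sign_charpoly_coeff f
  rw [this, h2]
  norm_num

end Domain

end Fermat.Agent.GR
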