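/-
STAGE (I), package K9 (DET), lead — part 3 (K9a): for a continuous two-dimensional representation
`ρ` of `G_ℚ` over a noetherian local domain `R` of characteristic zero with `p ∈ 𝔪`, such that
every Frobenius element `φ` at every prime `q ∉ T` satisfies `ρ(φ)² - a_q ρ(φ) + q = 0`, and such
that SOME element of `G_ℚ` acts non-scalarly:

* `det ρ` is the `p`-adic cyclotomic character (`GaloisRepAdic.DetIsCyclotomic`), and
* the characteristic polynomial of `ρ(φ)` is `X² - a_q X + q` for EVERY Frobenius element `φ` at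
  every prime `q ∉ T` (also when `ρ(φ)` is scalar).

Proof: helper4's Frobenius density theorem + a group-theoretic trick (the complement of a proper
subgroup generates).
-/
import Mathlib
import Fermat.Agent.GR.DET_lead_Linear
import Fermat.Agent.GR.DET_lead_Cyc
import Fermat.Agent.Density.Open_helper4
import Fermat.Prelude.Def_GaloisRep_LocalConditions

set_option autoImplicit false
set_option linter.unusedSectionVars false
set_option linter.unusedVariables false
set_option linter.style.haveILetI false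

namespace Fermat.Agent.GR

open Polynomial Fermat.Agent.TW.Kill IsLocalRing

/-- `Ω = AlgebraicClosure ℚ`. -/
local notation "Ω" => AlgebraicClosure ℚ
/-- `GQ = Gal(Ω/ℚ)`. -/
local notation "GQ" => (AlgebraicClosure ℚ ≃ₐ[ℚ] AlgebraicClosure ℚ)

variable {R : Type} [CommRing R] [IsLocalRing R]

section Subgroup

variable (ρ : GaloisRepAdic R) (p : ℕ) [Fact p.Prime]

/-- the subgroup of `G_ℚ` on which `det ρ` agrees with the cyclotomic character -/
noncomputable def detCycSubgroup : Subgroup GQ where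
  carrier := {g | ∀ n : ℕ, LinearMap.det (ρ.ρ g) - (cycVal p n g : R) ∈
    Ideal.span {((p ^ n : ℕ) : R)}}
  one_mem' := by
    intro n
    rw [map_one, map_one]
    have := natCast_sub_natCast_mem_span (R := R) (cycVal_one p n)
    rw [Nat.cast_one] at this
    rw [← neg_sub, neg_mem_iff]
    exact this
  mul_mem' := by
    intro g h hg hh n
    rw [map_mul, map_mul]
    have h1 := natCast_sub_natCast_mem_span (R := R) (cycVal_mul p n g h)
    rw [Nat.cast_mul] at h1
    set I := Ideal.span {((p ^ n : ℕ) : R)}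
    have h2 : LinearMap.det (ρ.ρ g) * LinearMap.det (ρ.ρ h) -
        (cycVal p n g : R) * (cycVal p n h : R) ∈ I := by
      have : LinearMap.det (ρ.ρ g) * LinearMap.det (ρ.ρ h) -
          (cycVal p n g : R) * (cycVal p n h : R) =
          LinearMap.det (ρ.ρ g) * (LinearMap.det (ρ.ρ h) - (cycVal p n h : R)) +
            (LinearMap.det (ρ.ρ g) - (cycVal p n g : R)) * (cycVal p n h : R) := by ring
      rw [this]
      exact I.add_mem (I.mul_mem_left _ (hh n)) (I.mul_mem_right _ (hg n))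
    have : LinearMap.det (ρ.ρ g) * LinearMap.det (ρ.ρ h) - (cycVal p n (g * h) : R) =
        (LinearMap.det (ρ.ρ g) * LinearMap.det (ρ.ρ h) -
          (cycVal p n g : R) * (cycVal p n h : R)) -
        ((cycVal p n (g * h) : R) - (cycVal p n g : R) * (cycVal p n h : R)) := by ring
    rw [this]
    exact I.sub_mem h2 h1
  inv_mem' := by
    intro g hg n
    set I := Ideal.span {((p ^ n : ℕ) : R)}
    set x := LinearMap.det (ρ.ρ g) with hx
    set x' := LinearMap.det (ρ.ρ g⁻¹) with hx'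
    have hxx' : x * x' = 1 := by
      rw [hx, hx', ← map_mul, ← map_mul, mul_inv_cancel, map_one, map_one]
    have h1 : ((cycVal p n g : ℕ) : R) * ((cycVal p n g⁻¹ : ℕ) : R) - 1 ∈ I := by
      have h2 := natCast_sub_natCast_mem_span (R := R) (cycVal_mul p n g g⁻¹)
      have h3 := natCast_sub_natCast_mem_span (R := R) (cycVal_one p n)
      rw [mul_inv_cancel] at h2
      rw [Nat.cast_mul] at h2
      rw [Nat.cast_one] at h3
      have : ((cycVal p n g : ℕ) : R) * ((cycVal p n g⁻¹ : ℕ) : R) - 1 =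
          ((cycVal p n 1 : ℕ) : R) - 1 -
            (((cycVal p n 1 : ℕ) : R) - ((cycVal p n g : ℕ) : R) * ((cycVal p n g⁻¹ : ℕ) : R)) := by
        ring
      rw [this]
      exact I.sub_mem h3 h2
    have : x' - ((cycVal p n g⁻¹ : ℕ) : R) =
        -(((cycVal p n g⁻¹ : ℕ) : R) * x' * (x - ((cycVal p n g : ℕ) : R))) -
          x' * (((cycVal p n g : ℕ) : R) * ((cycVal p n g⁻¹ : ℕ) : R) - 1) +
          ((cycVal p n g⁻¹ : ℕ) : R) * (x * x' - 1) := by ring
    rw [this, hxx', sub_self, mul_zero, add_zero]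
    exact I.sub_mem (I.neg_mem (I.mul_mem_left _ (hg n))) (I.mul_mem_left _ h1)

theorem mem_detCycSubgroup {g : GQ} : g ∈ detCycSubgroup ρ p ↔
    ∀ n : ℕ, LinearMap.det (ρ.ρ g) - (cycVal p n g : R) ∈ Ideal.span {((p ^ n : ℕ) : R)} :=
  Iff.rfl

end Subgroup

section Matrix

variable (ρ : GaloisRepAdic R)

/-- a basis of the underlying rank two module -/
noncomputable def gBasis : Module.Basis (Fin 2) R ρ.V :=
  Module.finBasisOfFinrankEq R ρ.V ρ.finrank_eq

/-- the matrix of `ρ(g)` -/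
noncomputable def matHom : GQ →* Matrix (Fin 2) (Fin 2) R :=
  (MonoidHomClass.toMonoidHom (LinearMap.toMatrixAlgEquiv (gBasis ρ))).comp ρ.ρ

theorem matHom_apply (g : GQ) : matHom ρ g = LinearMap.toMatrix (gBasis ρ) (gBasis ρ) (ρ.ρ g) :=
  rfl

theorem det_matHom (g : GQ) : (matHom ρ g).det = LinearMap.det (ρ.ρ g) := by
  rw [matHom_apply, LinearMap.det_toMatrix]

theorem charpoly_matHom (g : GQ) : (matHom ρ g).charpoly = (ρ.ρ g).charpoly := by
  rw [matHom_apply, LinearMap.charpoly_toMatrix]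

/-- `ρ(g)` is scalar iff its matrix is -/
theorem isScalarEnd_iff_matHom (g : GQ) :
    IsScalarEnd (ρ.ρ g) ↔ ∃ r : R, matHom ρ g = r • (1 : Matrix (Fin 2) (Fin 2) R) := by
  constructor
  · rintro ⟨r, hr⟩
    refine ⟨r, ?_⟩
    rw [matHom_apply, hr, map_smul]
    congr 1
    exact LinearMap.toMatrix_one (gBasis ρ)
  · rintro ⟨r, hr⟩
    refine ⟨r, ?_⟩
    apply (LinearMap.toMatrix (gBasis ρ) (gBasis ρ)).injective
    rw [map_smul, ← matHom_apply, hr]
    congr 1
    exact (LinearMap.toMatrix_one (gBasis ρ)).symm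

/-- the matrix of `ρ(g)` modulo `𝔪 ^ n` -/
noncomputable def matModHom (n : ℕ) : GQ →* Matrix (Fin 2) (Fin 2) (R ⧸ maximalIdeal R ^ n) :=
  (MonoidHomClass.toMonoidHom (Ideal.Quotient.mk (maximalIdeal R ^ n)).mapMatrix).comp (matHom ρ)

theorem matModHom_apply (n : ℕ) (g : GQ) :
    matModHom ρ n g = (Ideal.Quotient.mk (maximalIdeal R ^ n)).mapMatrix (matHom ρ g) := rfl

/-- `ρ(g)` is scalar modulo `𝔪 ^ n` -/
def IsScalarMod (n : ℕ) (g : GQ) : Prop :=
  ∃ r : R ⧸ maximalIdeal R ^ n, matModHom ρ n g = r • (1 : Matrix (Fin 2) (Fin 2) _)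

theorem isScalarMod_of_isScalarEnd {g : GQ} (h : IsScalarEnd (ρ.ρ g)) (n : ℕ) :
    IsScalarMod ρ n g := by
  obtain ⟨r, hr⟩ := (isScalarEnd_iff_matHom ρ g).1 h
  refine ⟨Ideal.Quotient.mk _ r, ?_⟩
  rw [matModHom_apply, hr]
  ext i j
  simp [Matrix.smul_apply, Matrix.one_apply]
  split_ifs <;> simp

theorem IsScalarMod.pow {n : ℕ} {g : GQ} (h : IsScalarMod ρ n g) (k : ℕ) :
    IsScalarMod ρ n (g ^ k) := by
  obtain ⟨r, hr⟩ := h
  refine ⟨r ^ k, ?_⟩
  rw [map_pow, hr, _root_.smul_pow, one_pow]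

theorem IsScalarMod.of_eq {n : ℕ} {g h : GQ} (hg : IsScalarMod ρ n g)
    (hgh : matModHom ρ n g = matModHom ρ n h) : IsScalarMod ρ n h := by
  obtain ⟨r, hr⟩ := hg
  exact ⟨r, by rw [← hgh, hr]⟩

theorem IsScalarMod.conj {n : ℕ} {g : GQ} (h : IsScalarMod ρ n g) (τ : GQ) :
    IsScalarMod ρ n (τ * g * τ⁻¹) := by
  obtain ⟨r, hr⟩ := h
  refine ⟨r, ?_⟩
  rw [map_mul, map_mul, hr, mul_smul_comm, mul_one, smul_mul_assoc, ← map_mul, mul_inv_cancel,
    map_one]

theorem isScalarMod_of_conj {n : ℕ} {g : GQ} (τ : GQ) (h : IsScalarMod ρ n (τ * g * τ⁻¹)) :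
    IsScalarMod ρ n g := by
  have := h.conj ρ τ⁻¹
  rw [inv_inv] at this
  have e : τ⁻¹ * (τ * g * τ⁻¹) * τ = g := by group
  rwa [e] at this

/-- coordinates of an element of `I • ⊤` lie in `I` -/
theorem repr_mem_of_mem_smul_top {M : Type*} [AddCommGroup M] [Module R M] {ι : Type*}
    (b : Module.Basis ι R M) (I : Ideal R) {v : M} (hv : v ∈ I • (⊤ : Submodule R M)) (i : ι) :
    b.repr v i ∈ I := by
  refine Submodule.smul_induction_on (p := fun x => b.repr x i ∈ I) hv ?_ ?_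
  · intro r hr w _
    rw [map_smul, Finsupp.smul_apply, smul_eq_mul]
    exact I.mul_mem_right _ hr
  · intro x y hx hy
    rw [map_add, Finsupp.add_apply]
    exact I.add_mem hx hy

theorem matModHom_eq_one_of_forall_mem {n : ℕ} {σ : GQ}
    (h : ∀ v : ρ.V, ρ.ρ σ v - v ∈ (maximalIdeal R ^ n) • (⊤ : Submodule R ρ.V)) :
    matModHom ρ n σ = 1 := by
  ext i j
  rw [matModHom_apply, RingHom.mapMatrix_apply, Matrix.map_apply, matHom_apply,
    LinearMap.toMatrix_apply, Matrix.one_apply]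
  have h1 := repr_mem_of_mem_smul_top (gBasis ρ) _ (h (gBasis ρ j)) i
  rw [map_sub, Finsupp.sub_apply, Module.Basis.repr_self, Finsupp.single_apply] at h1
  have h2 := (Ideal.Quotient.eq (I := maximalIdeal R ^ n)).2 h1
  rw [h2]
  split_ifs with h3 h4 h4
  · rw [map_one]
  · exact absurd h3.symm h4
  · exact absurd h4.symm h3
  · rw [map_zero]

section Noeth

variable [IsNoetherianRing R]

theorem eq_zero_of_forall_exists_mem_pow {x : R}
    (h : ∀ n₀ : ℕ, ∃ n, n₀ ≤ n ∧ x ∈ maximalIdeal R ^ n) : x = 0 := by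
  have h1 : x ∈ ⨅ i, maximalIdeal R ^ i := by
    rw [Ideal.mem_iInf]
    intro i
    obtain ⟨n, hn, hx⟩ := h i
    exact Ideal.pow_le_pow_right hn hx
  rw [Ideal.iInf_pow_eq_bot_of_isLocalRing _ (Ideal.IsMaximal.ne_top inferInstance)] at h1
  exact h1

/-- a non-scalar `ρ(g)` is non-scalar modulo `𝔪 ^ n` for all large `n`. -/
theorem exists_forall_not_isScalarMod {g : GQ} (hg : ¬ IsScalarEnd (ρ.ρ g)) :
    ∃ n₀ : ℕ, ∀ n, n₀ ≤ n → ¬ IsScalarMod ρ n g := by
  by_contra hcon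
  push Not at hcon
  apply hg
  rw [isScalarEnd_iff_matHom]
  set M := matHom ρ g with hM
  have key : ∀ n₀ : ℕ, ∃ n, n₀ ≤ n ∧ M 0 1 ∈ maximalIdeal R ^ n ∧ M 1 0 ∈ maximalIdeal R ^ n ∧
      M 0 0 - M 1 1 ∈ maximalIdeal R ^ n := by
    intro n₀
    obtain ⟨n, hn, r, hr⟩ := hcon n₀
    refine ⟨n, hn, ?_, ?_, ?_⟩
    · have := congrFun (congrFun hr 0) 1
      rw [matModHom_apply, RingHom.mapMatrix_apply, Matrix.map_apply] at this
      simp only [Matrix.smul_apply, Matrix.one_apply] at this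
      rw [← Ideal.Quotient.eq_zero_iff_mem, this]
      simp
    · have := congrFun (congrFun hr 1) 0
      rw [matModHom_apply, RingHom.mapMatrix_apply, Matrix.map_apply] at this
      simp only [Matrix.smul_apply, Matrix.one_apply] at this
      rw [← Ideal.Quotient.eq_zero_iff_mem, this]
      simp
    · have h0 := congrFun (congrFun hr 0) 0
      have h1 := congrFun (congrFun hr 1) 1
      rw [matModHom_apply, RingHom.mapMatrix_apply, Matrix.map_apply] at h0 h1
      simp only [Matrix.smul_apply, Matrix.one_apply] at h0 h1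
      rw [← Ideal.Quotient.eq_zero_iff_mem, map_sub, h0, h1]
      simp
  have h01 : M 0 1 = 0 := eq_zero_of_forall_exists_mem_pow fun n₀ => by
    obtain ⟨n, hn, h, -, -⟩ := key n₀; exact ⟨n, hn, h⟩
  have h10 : M 1 0 = 0 := eq_zero_of_forall_exists_mem_pow fun n₀ => by
    obtain ⟨n, hn, -, h, -⟩ := key n₀; exact ⟨n, hn, h⟩
  have h00 : M 0 0 - M 1 1 = 0 := eq_zero_of_forall_exists_mem_pow fun n₀ => by
    obtain ⟨n, hn, -, -, h⟩ := key n₀; exact ⟨n, hn, h⟩
  refine ⟨M 0 0, ?_⟩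
  ext i j
  fin_cases i <;> fin_cases j
  · simp
  · simpa using h01
  · simpa using h10
  · simp only [Fin.mk_one, Fin.isValue, Matrix.smul_apply, Matrix.one_apply_eq, smul_eq_mul,
      mul_one]
    exact (sub_eq_zero.1 h00).symm

end Noeth

end Matrix

section Level

variable (ρ : GaloisRepAdic R) (p : ℕ) [Fact p.Prime]

/-- the open normal subgroup of level `n` -/
noncomputable def levelSubgroup (n : ℕ) : Subgroup GQ :=
  (matModHom ρ n).ker ⊓ (cyc (p ^ n)).ker

instance levelSubgroup_normal (n : ℕ) : (levelSubgroup ρ p n).Normal := by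
  unfold levelSubgroup
  infer_instance

theorem mem_levelSubgroup {n : ℕ} {g : GQ} :
    g ∈ levelSubgroup ρ p n ↔ matModHom ρ n g = 1 ∧ cyc (p ^ n) g = 1 := by
  rw [levelSubgroup, Subgroup.mem_inf, MonoidHom.mem_ker, MonoidHom.mem_ker]

theorem levelSubgroup_isOpen (n : ℕ) : IsOpen (levelSubgroup ρ p n : Set GQ) := by
  obtain ⟨L, hL, h1⟩ := ρ.isAdicContinuous n
  obtain ⟨L', hL', h2⟩ := exists_finiteDimensional_cyc_eq_one (p ^ n)
  haveI : FiniteDimensional ℚ L := hL
  haveI : FiniteDimensional ℚ L' := hL'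
  haveI : FiniteDimensional ℚ (L ⊔ L' : IntermediateField ℚ Ω) :=
    IntermediateField.finiteDimensional_sup L L'
  refine Subgroup.isOpen_mono ?_ (IntermediateField.fixingSubgroup_isOpen (L ⊔ L'))
  intro σ hσ
  rw [IntermediateField.mem_fixingSubgroup_iff] at hσ
  rw [mem_levelSubgroup]
  refine ⟨matModHom_eq_one_of_forall_mem ρ (h1 σ fun x hx => hσ x ?_), h2 σ ?_⟩
  · exact (le_sup_left : L ≤ L ⊔ L') hx
  · rw [IntermediateField.mem_fixingSubgroup_iff]
    intro x hx
    exact hσ x ((le_sup_right : L' ≤ L ⊔ L') hx)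

theorem det_sub_one_mem_of_mem_levelSubgroup {n : ℕ} {ν : GQ} (hν : ν ∈ levelSubgroup ρ p n) :
    LinearMap.det (ρ.ρ ν) - 1 ∈ maximalIdeal R ^ n := by
  have h1 := ((mem_levelSubgroup ρ p).1 hν).1
  rw [← det_matHom, ← Ideal.Quotient.eq, RingHom.map_det, ← matModHom_apply, h1, Matrix.det_one,
    map_one]

theorem cycVal_conj (n : ℕ) (τ g : GQ) : cycVal p n g ≡ cycVal p n (τ * g * τ⁻¹) [MOD p ^ n] := by
  refine cycVal_unique p n _ fun t ht => ?_
  have hs : (τ⁻¹ t) ^ p ^ n = 1 := by rw [← map_pow, ht, map_one]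
  change τ (g (τ⁻¹ t)) = _
  rw [cycVal_spec p n g hs, map_pow]
  congr 1
  change τ (τ.symm t) = t
  exact τ.apply_symm_apply t

end Level

section Main

variable [IsDomain R] [IsNoetherianRing R]
variable (ρ : GaloisRepAdic R) (p : ℕ) [Fact p.Prime]

theorem span_pow_le_maximalIdeal_pow (hp : (p : R) ∈ maximalIdeal R) (n : ℕ) :
    Ideal.span {((p ^ n : ℕ) : R)} ≤ maximalIdeal R ^ n := by
  rw [Ideal.span_singleton_le_iff_mem, Nat.cast_pow]
  exact Ideal.pow_mem_pow hp n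

/-- closedness of the ideal `(p ^ n)`: Krull's intersection theorem for `R ⧸ (p ^ n)` -/
theorem mem_span_of_forall_mem_sup {I : Ideal R} {x : R} (m₀ : ℕ)
    (h : ∀ m, m₀ ≤ m → x ∈ maximalIdeal R ^ m ⊔ I) : x ∈ I := by
  have h1 : (Ideal.Quotient.mk I x : R ⧸ I) ∈
      ⨅ i, (maximalIdeal R ^ i) • (⊤ : Submodule R (R ⧸ I)) := by
    rw [Submodule.mem_iInf]
    intro i
    have hx := h (max m₀ i) (le_max_left _ _)
    obtain ⟨y, hy, z, hz, rfl⟩ := Submodule.mem_sup.1 hx
    have hy' : y ∈ maximalIdeal R ^ i := Ideal.pow_le_pow_right (le_max_right _ _) hy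
    have : (Ideal.Quotient.mk I (y + z) : R ⧸ I) = y • (1 : R ⧸ I) := by
      rw [map_add, Ideal.Quotient.eq_zero_iff_mem.2 hz, add_zero, Algebra.smul_def, mul_one]
      rfl
    rw [this]
    exact Submodule.smul_mem_smul hy' Submodule.mem_top
  rw [Ideal.iInf_pow_smul_eq_bot_of_isLocalRing _ (Ideal.IsMaximal.ne_top inferInstance)] at h1
  exact Ideal.Quotient.eq_zero_iff_mem.1 ((Submodule.mem_bot R).1 h1)

theorem isScalarEnd_inv {g : GQ} (hg : IsScalarEnd (ρ.ρ g)) : IsScalarEnd (ρ.ρ g⁻¹) := by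
  obtain ⟨r, hr⟩ := hg
  have hV : Nontrivial ρ.V :=
    Module.nontrivial_of_finrank_pos (R := R) (by rw [ρ.finrank_eq]; norm_num)
  have h1 : r • ρ.ρ g⁻¹ = (1 : R) • (1 : Module.End R ρ.V) := by
    rw [one_smul, ← map_one ρ.ρ, ← mul_inv_cancel g, map_mul, hr, smul_mul_assoc, one_mul]
  refine isScalarEnd_of_smul_eq_smul_one ?_ h1
  rintro rfl
  rw [zero_smul, one_smul] at h1
  exact zero_ne_one h1

variable (T : Finset ℕ) (a : ℕ → R)

/-- the hypothesis: quadratic relation for all Frobenius elements outside `T` -/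
def FrobeniusQuadraticOutside : Prop :=
  ∀ q : ℕ, q.Prime → q ∉ T → ∀ P : ValuationSubring Ω, P.LiesOverPrime q →
    ∀ φ : GQ, P.IsFrobeniusAt φ q →
      ρ.ρ φ * ρ.ρ φ - a q • ρ.ρ φ + (q : R) • (1 : Module.End R ρ.V) = 0

variable {ρ p T a}

theorem charpoly_of_not_isScalarEnd (hquad : FrobeniusQuadraticOutside ρ T a) {q : ℕ}
    (hq : q.Prime) (hqT : q ∉ T) {P : ValuationSubring Ω} (hP : P.LiesOverPrime q) {φ : GQ}
    (hφ : P.IsFrobeniusAt φ q) (hns : ¬ IsScalarEnd (ρ.ρ φ)) :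
    (ρ.ρ φ).charpoly = X ^ 2 - C (a q) * X + C (q : R) :=
  charpoly_eq_of_quadratic ρ.finrank_eq (hquad q hq hqT P hP φ hφ) hns

theorem det_of_charpoly {f : Module.End R ρ.V} {a b : R}
    (h : f.charpoly = X ^ 2 - C a * X + C b) : LinearMap.det f = b := by
  rw [det_eq_charpoly_coeff_zero ρ.finrank_eq, h]
  simp

theorem frobenius_mem_detCycSubgroup (hpT : p ∈ T) (hquad : FrobeniusQuadraticOutside ρ T a)
    {q : ℕ} (hq : q.Prime) (hqT : q ∉ T) {P : ValuationSubring Ω} (hP : P.LiesOverPrime q)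
    {φ : GQ} (hφ : P.IsFrobeniusAt φ q) (hns : ¬ IsScalarEnd (ρ.ρ φ)) :
    φ ∈ detCycSubgroup ρ p := by
  intro n
  have hqp : q ≠ p := fun h => hqT (h ▸ hpT)
  rw [det_of_charpoly (charpoly_of_not_isScalarEnd hquad hq hqT hP hφ hns)]
  exact natCast_sub_natCast_mem_span (cycVal_frobenius p n hq hqp hP hφ)

/-- **density step**: every element acting non-scalarly has `det = cyc`. -/
theorem mem_detCycSubgroup_of_not_isScalarEnd (hp : (p : R) ∈ maximalIdeal R) (hpT : p ∈ T)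
    (hquad : FrobeniusQuadraticOutside ρ T a) {g : GQ} (hg : ¬ IsScalarEnd (ρ.ρ g)) :
    g ∈ detCycSubgroup ρ p := by
  intro n
  obtain ⟨n₀, hn₀⟩ := exists_forall_not_isScalarMod ρ hg
  refine mem_span_of_forall_mem_sup (max n n₀) fun m hm => ?_
  have hnm : n ≤ m := le_trans (le_max_left _ _) hm
  have hn₀m : n₀ ≤ m := le_trans (le_max_right _ _) hm
  set N := levelSubgroup ρ p m with hN
  have hopen := levelSubgroup_isOpen ρ p m
  obtain ⟨q, hq, hqT, hall⟩ :=
    Fermat.Agent.Density.exists_prime_frobenius_conj_algClosure N hopen g T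
  haveI : Fact q.Prime := ⟨hq⟩
  have hP₀ : (padicPlace q).LiesOverPrime q := padicPlace_liesOverPrime q
  obtain ⟨φ₀, hφ₀⟩ := exists_isFrobeniusAt (padicPlace q) hq hP₀
  obtain ⟨τ, hτ⟩ := (hall _ hP₀).2 φ₀ hφ₀
  haveI : IsGalois ℚ Ω := IsAlgClosure.isGalois ℚ Ω
  haveI : Finite (GQ ⧸ N) := Subgroup.quotient_finite_of_isOpen N hopen
  obtain ⟨k, -, hk⟩ := Fermat.Agent.Density.exists_coprime_pow_eq_of_zpowers_eq
    (a := QuotientGroup.mk' N (τ * g * τ⁻¹)) (b := QuotientGroup.mk' N φ₀)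
    (isOfFinOrder_of_finite _) hτ.symm
  rw [← map_pow] at hk
  set ν : GQ := (φ₀ ^ k)⁻¹ * (τ * g * τ⁻¹) with hν
  have hνN : ν ∈ N := by
    have := hk.symm
    rw [QuotientGroup.mk'_apply, QuotientGroup.mk'_apply, QuotientGroup.eq] at this
    exact this
  have hdecomp : τ * g * τ⁻¹ = φ₀ ^ k * ν := by rw [hν, mul_inv_cancel_left]
  have hmat : matModHom ρ m (φ₀ ^ k) = matModHom ρ m (τ * g * τ⁻¹) := by
    rw [hdecomp, map_mul, ((mem_levelSubgroup ρ p).1 hνN).1, mul_one]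
  -- `ρ(φ₀)` is not scalar
  have hns : ¬ IsScalarEnd (ρ.ρ φ₀) := by
    intro hsc
    exact hn₀ m hn₀m (isScalarMod_of_conj ρ τ
      (((isScalarMod_of_isScalarEnd ρ hsc m).pow ρ k).of_eq ρ hmat))
  have hφk : φ₀ ^ k ∈ detCycSubgroup ρ p :=
    Subgroup.pow_mem _ (frobenius_mem_detCycSubgroup hpT hquad hq hqT hP₀ hφ₀ hns) k
  -- the computation modulo `𝔪 ^ m`
  set J := maximalIdeal R ^ m with hJ
  have hspanJ : Ideal.span {((p ^ m : ℕ) : R)} ≤ J := span_pow_le_maximalIdeal_pow p hp m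
  set X' := LinearMap.det (ρ.ρ (φ₀ ^ k)) with hX'
  set Y' := LinearMap.det (ρ.ρ ν) with hY'
  have hD : LinearMap.det (ρ.ρ g) = X' * Y' := by
    have h1 : LinearMap.det (ρ.ρ (τ * g * τ⁻¹)) = LinearMap.det (ρ.ρ g) := by
      have e : ρ.ρ (τ * g * τ⁻¹) = ρ.ρ τ * ρ.ρ g * ρ.ρ τ⁻¹ := by rw [map_mul, map_mul]
      have e2 : LinearMap.det (ρ.ρ τ) * LinearMap.det (ρ.ρ τ⁻¹) = 1 := by
        rw [← map_mul, ← map_mul, mul_inv_cancel, map_one, map_one]
      rw [e, map_mul, map_mul, mul_right_comm, e2, one_mul]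
    rw [← h1, hdecomp, map_mul, map_mul]
  have hY : Y' - 1 ∈ J := det_sub_one_mem_of_mem_levelSubgroup ρ p hνN
  have hX : X' - (cycVal p m (φ₀ ^ k) : R) ∈ J := hspanJ (hφk m)
  have hcν : ((cycVal p m ν : ℕ) : R) - 1 ∈ J := by
    have := natCast_sub_natCast_mem_span (R := R)
      (cycVal_of_cyc_eq_one p m ((mem_levelSubgroup ρ p).1 hνN).2)
    rw [Nat.cast_one] at this
    exact hspanJ this
  have hcg : ((cycVal p m g : ℕ) : R) -
      ((cycVal p m (φ₀ ^ k) : ℕ) : R) * ((cycVal p m ν : ℕ) : R) ∈ J := by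
    have h1 : cycVal p m g ≡ cycVal p m (φ₀ ^ k) * cycVal p m ν [MOD p ^ m] := by
      refine (cycVal_conj p m τ g).trans ?_
      rw [hdecomp]
      exact cycVal_mul p m _ _
    have := natCast_sub_natCast_mem_span (R := R) h1
    rw [Nat.cast_mul] at this
    exact hspanJ this
  have hmain : LinearMap.det (ρ.ρ g) - ((cycVal p m g : ℕ) : R) ∈ J := by
    have : LinearMap.det (ρ.ρ g) - ((cycVal p m g : ℕ) : R) =
        X' * (Y' - 1) + (X' - (cycVal p m (φ₀ ^ k) : R)) -
          ((cycVal p m (φ₀ ^ k) : ℕ) : R) * (((cycVal p m ν : ℕ) : R) - 1) -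
          (((cycVal p m g : ℕ) : R) -
            ((cycVal p m (φ₀ ^ k) : ℕ) : R) * ((cycVal p m ν : ℕ) : R)) := by
      rw [hD]; ring
    rw [this]
    exact J.sub_mem (J.sub_mem (J.add_mem (J.mul_mem_left _ hY) hX) (J.mul_mem_left _ hcν)) hcg
  have hlast : ((cycVal p m g : ℕ) : R) - ((cycVal p n g : ℕ) : R) ∈
      Ideal.span {((p ^ n : ℕ) : R)} :=
    natCast_sub_natCast_mem_span (cycVal_modEq_of_le p hnm g)
  have : LinearMap.det (ρ.ρ g) - ((cycVal p n g : ℕ) : R) =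
      (LinearMap.det (ρ.ρ g) - ((cycVal p m g : ℕ) : R)) +
        (((cycVal p m g : ℕ) : R) - ((cycVal p n g : ℕ) : R)) := by ring
  rw [this]
  exact Submodule.add_mem_sup hmain hlast

/-- **`det ρ = cyc` on all of `G_ℚ`.** -/
theorem detCycSubgroup_eq_top (hp : (p : R) ∈ maximalIdeal R) (hpT : p ∈ T)
    (hquad : FrobeniusQuadraticOutside ρ T a) {c : GQ} (hc : ¬ IsScalarEnd (ρ.ρ c)) :
    detCycSubgroup ρ p = ⊤ := by
  rw [eq_top_iff]
  intro g _
  by_cases hg : IsScalarEnd (ρ.ρ g)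
  · have h1 : ¬ IsScalarEnd (ρ.ρ (g * c)) := by
      intro h
      apply hc
      have : ρ.ρ c = ρ.ρ g⁻¹ * ρ.ρ (g * c) := by
        rw [← map_mul, inv_mul_cancel_left]
      rw [this]
      exact (isScalarEnd_inv ρ hg).mul h
    have h2 : ¬ IsScalarEnd (ρ.ρ c⁻¹) := by
      intro h
      apply hc
      have := isScalarEnd_inv ρ h
      rwa [inv_inv] at this
    have : g = (g * c) * c⁻¹ := by rw [mul_inv_cancel_right]
    rw [this]
    exact Subgroup.mul_mem _ (mem_detCycSubgroup_of_not_isScalarEnd hp hpT hquad h1)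
      (mem_detCycSubgroup_of_not_isScalarEnd hp hpT hquad h2)
  · exact mem_detCycSubgroup_of_not_isScalarEnd hp hpT hquad hg

/-- **K9a, first half: the determinant is the cyclotomic character** (the Prelude's
`DetIsCyclotomic`). -/
theorem detIsCyclotomic_of_frobeniusQuadratic (hp : (p : R) ∈ maximalIdeal R) (hpT : p ∈ T)
    (hquad : FrobeniusQuadraticOutside ρ T a) {c : GQ} (hc : ¬ IsScalarEnd (ρ.ρ c)) :
    ρ.DetIsCyclotomic p := by
  refine ⟨hp, fun n σ a' ha => ?_⟩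
  have hσ : σ ∈ detCycSubgroup ρ p := by
    rw [detCycSubgroup_eq_top hp hpT hquad hc]; exact Subgroup.mem_top σ
  have h1 := hσ n
  have h2 := natCast_sub_natCast_mem_span (R := R) (cycVal_unique p n σ ha)
  have : LinearMap.det (ρ.ρ σ) - (a' : R) =
      (LinearMap.det (ρ.ρ σ) - ((cycVal p n σ : ℕ) : R)) -
        ((a' : R) - ((cycVal p n σ : ℕ) : R)) := by ring
  rw [this]
  exact Ideal.sub_mem _ h1 h2

/-- **K9a, second half: the characteristic polynomial of EVERY Frobenius element outside `T`**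
(also the scalar ones) is `X² - a_q X + q`. -/
theorem charpoly_frobenius_of_frobeniusQuadratic [CharZero R] (hp : (p : R) ∈ maximalIdeal R)
    (hpT : p ∈ T) (hquad : FrobeniusQuadraticOutside ρ T a) {c : GQ}
    (hc : ¬ IsScalarEnd (ρ.ρ c)) {q : ℕ} (hq : q.Prime) (hqT : q ∉ T)
    {P : ValuationSubring Ω} (hP : P.LiesOverPrime q) {φ : GQ} (hφ : P.IsFrobeniusAt φ q) :
    (ρ.ρ φ).charpoly = X ^ 2 - C (a q) * X + C (q : R) := by
  by_cases hns : IsScalarEnd (ρ.ρ φ)
  swap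
  · exact charpoly_of_not_isScalarEnd hquad hq hqT hP hφ hns
  obtain ⟨r, hr⟩ := hns
  have hqp : q ≠ p := fun h => hqT (h ▸ hpT)
  have hV : Nontrivial ρ.V :=
    Module.nontrivial_of_finrank_pos (R := R) (by rw [ρ.finrank_eq]; norm_num)
  -- the determinant is `q`
  have hφmem : φ ∈ detCycSubgroup ρ p := by
    rw [detCycSubgroup_eq_top hp hpT hquad hc]; exact Subgroup.mem_top φ
  have hdet : LinearMap.det (ρ.ρ φ) = (q : R) := by
    rw [← sub_eq_zero]
    refine eq_zero_of_forall_exists_mem_pow fun n₀ => ⟨n₀, le_rfl, ?_⟩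
    have h1 := hφmem n₀
    have h2 := natCast_sub_natCast_mem_span (R := R) (cycVal_frobenius p n₀ hq hqp hP hφ)
    have : LinearMap.det (ρ.ρ φ) - (q : R) =
        (LinearMap.det (ρ.ρ φ) - ((cycVal p n₀ φ : ℕ) : R)) -
          ((q : R) - ((cycVal p n₀ φ : ℕ) : R)) := by ring
    rw [this]
    exact span_pow_le_maximalIdeal_pow p hp n₀ (Ideal.sub_mem _ h1 h2)
  have hr2 : r ^ 2 = (q : R) := by
    rw [← hdet, hr, LinearMap.det_smul, ρ.finrank_eq, map_one, mul_one]
  -- the quadratic relation on scalars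
  have hrel : r * r - a q * r + (q : R) = 0 := by
    have h1 := hquad q hq hqT P hP φ hφ
    rw [hr] at h1
    have h2 : (r * r - a q * r + (q : R)) • (1 : Module.End R ρ.V) = 0 := by
      rw [← h1, add_smul, sub_smul, smul_mul_smul_comm, mul_one, smul_smul]
    exact eq_zero_of_smul_one_eq_zero h2
  have hq0 : (q : R) ≠ 0 := Nat.cast_ne_zero.2 hq.ne_zero
  have hr0 : r ≠ 0 := by
    rintro rfl
    rw [zero_pow two_ne_zero] at hr2
    exact hq0 hr2.symm
  have ha : a q = 2 * r := by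
    have h3 : r * (2 * r - a q) = 0 := by
      have : r * (2 * r - a q) = (r * r - a q * r + (q : R)) + (r ^ 2 - (q : R)) := by ring
      rw [this, hrel, hr2, sub_self, add_zero]
    rcases mul_eq_zero.1 h3 with h | h
    · exact absurd h hr0
    · exact (sub_eq_zero.1 h).symm
  -- the characteristic polynomial of a scalar matrix
  have hmat : matHom ρ φ = r • (1 : Matrix (Fin 2) (Fin 2) R) := by
    obtain ⟨r', hr'⟩ := (isScalarEnd_iff_matHom ρ φ).1 ⟨r, hr⟩
    have : r' = r := by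
      have h4 : (r' - r) • (1 : Module.End R ρ.V) = 0 := by
        rw [sub_smul, ← hr, sub_eq_zero]
        apply (LinearMap.toMatrix (gBasis ρ) (gBasis ρ)).injective
        rw [map_smul, ← matHom_apply, hr']
        congr 1
        exact LinearMap.toMatrix_one (gBasis ρ)
      exact sub_eq_zero.1 (eq_zero_of_smul_one_eq_zero h4)
    rw [hr', this]
  rw [← charpoly_matHom, Matrix.charpoly_fin_two, hmat, Matrix.trace_smul, Matrix.trace_one,
    Matrix.det_smul, Matrix.det_one, Fintype.card_fin, mul_one, smul_eq_mul, ha, hr2]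
  rw [Nat.cast_ofNat, mul_comm r 2]

end Main

end Fermat.Agent.GR
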