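/-
STAGE (I), package TATE, lead — part 1: compatible sequences in `∏ ZMod (p^k)` and their limit in
`ℤ_[p]`.
-/
import Mathlib

set_option autoImplicit false
set_option linter.unusedSectionVars false
set_option linter.unusedVariables false

namespace Fermat.Agent.GR

variable (p : ℕ) [hp : Fact p.Prime]

/-- the reduction `ZMod (p^(k+1)) → ZMod (p^k)` -/
abbrev redSucc (k : ℕ) : ZMod (p ^ (k + 1)) →+* ZMod (p ^ k) :=
  ZMod.castHom (pow_dvd_pow p (Nat.le_succ k)) (ZMod (p ^ k))

/-- the ring of compatible sequences in `∏ ZMod (p^k)` -/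
def compatSeq : Subring (∀ k : ℕ, ZMod (p ^ k)) where
  carrier := {c | ∀ k, redSucc p k (c (k + 1)) = c k}
  mul_mem' := by
    intro a b ha hb k
    show redSucc p k (a (k + 1) * b (k + 1)) = a k * b k
    rw [map_mul, ha k, hb k]
  one_mem' := by
    intro k
    show redSucc p k 1 = 1
    rw [map_one]
  add_mem' := by
    intro a b ha hb k
    show redSucc p k (a (k + 1) + b (k + 1)) = a k + b k
    rw [map_add, ha k, hb k]
  zero_mem' := by
    intro k
    show redSucc p k 0 = 0
    rw [map_zero]
  neg_mem' := by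
    intro a ha k
    show redSucc p k (-a (k + 1)) = -a k
    rw [map_neg, ha k]

theorem mem_compatSeq {c : ∀ k : ℕ, ZMod (p ^ k)} :
    c ∈ compatSeq p ↔ ∀ k, redSucc p k (c (k + 1)) = c k := Iff.rfl

/-- the `k`-th component -/
def compatSeq.component (k : ℕ) : ↥(compatSeq p) →+* ZMod (p ^ k) :=
  (Pi.evalRingHom (fun k : ℕ => ZMod (p ^ k)) k).comp (compatSeq p).subtype

@[simp] theorem compatSeq.component_apply (k : ℕ) (c : ↥(compatSeq p)) :
    compatSeq.component p k c = c.1 k := rfl

theorem compatSeq.component_compat (k1 k2 : ℕ) (hk : k1 ≤ k2) :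
    (ZMod.castHom (pow_dvd_pow p hk) (ZMod (p ^ k1))).comp (compatSeq.component p k2) =
      compatSeq.component p k1 := by
  induction k2, hk using Nat.le_induction with
  | base =>
    ext c
    simp
  | succ n hn ih =>
    have h1 : (redSucc p n).comp (compatSeq.component p (n + 1)) = compatSeq.component p n := by
      ext c
      exact c.2 n
    have h2 : ZMod.castHom (pow_dvd_pow p (hn.trans (Nat.le_succ n))) (ZMod (p ^ k1)) =
        (ZMod.castHom (pow_dvd_pow p hn) (ZMod (p ^ k1))).comp (redSucc p n) :=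
      Subsingleton.elim _ _
    rw [h2, RingHom.comp_assoc, h1, ih]

/-- the limit of a compatible sequence -/
noncomputable def limZ : ↥(compatSeq p) →+* ℤ_[p] :=
  PadicInt.lift (compatSeq.component_compat p)

theorem toZModPow_limZ (c : ↥(compatSeq p)) (k : ℕ) :
    PadicInt.toZModPow k (limZ p c) = c.1 k := by
  have h := PadicInt.lift_spec (compatSeq.component_compat p) k
  exact DFunLike.congr_fun h c

/-- the compatible sequence of a `p`-adic integer -/
noncomputable def ofPadic (z : ℤ_[p]) : ↥(compatSeq p) :=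
  ⟨fun k => PadicInt.toZModPow k z, fun k => by
    show redSucc p k (PadicInt.toZModPow (k + 1) z) = PadicInt.toZModPow k z
    have h := PadicInt.zmod_cast_comp_toZModPow k (k + 1) (Nat.le_succ k) (p := p)
    exact DFunLike.congr_fun h z⟩

theorem limZ_ofPadic (z : ℤ_[p]) : limZ p (ofPadic p z) = z := by
  rw [← PadicInt.ext_of_toZModPow]
  intro n
  rw [toZModPow_limZ]
  rfl

theorem limZ_eq_iff (c : ↥(compatSeq p)) (z : ℤ_[p]) :
    limZ p c = z ↔ ∀ k, c.1 k = PadicInt.toZModPow k z := by
  rw [← PadicInt.ext_of_toZModPow]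
  constructor
  · intro h k
    rw [← h k, toZModPow_limZ]
  · intro h k
    rw [toZModPow_limZ, h k]

theorem limZ_eq_zero_iff (c : ↥(compatSeq p)) : limZ p c = 0 ↔ ∀ k, c.1 k = 0 := by
  rw [limZ_eq_iff]
  simp only [map_zero]

end Fermat.Agent.GR
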