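/-
STAGE (I), package TATE, lead — part 2: Tate sequences of an abelian group `J`, the data `KapData`
(= (TOP-0) of finding 216, first four clauses) and the additive bijection
`Φ : TateSeq J p ≃+ parabolicHoms ℤ_[p] Γ ℤ_[p]`.
-/
import Fermat.Agent.GR.TATE_lead_Lim
import Fermat.Agent.GR.BETTI_lead_Par

set_option autoImplicit false
set_option linter.unusedSectionVars false
set_option linter.unusedVariables false

namespace Fermat.Agent.GR

open ModularCurve.Period

open scoped MatrixGroups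

section Tors

variable (J : Type*) [AddCommGroup J]

/-- the `n`-torsion subgroup (natural-number scalar) -/
def torsionNat (n : ℕ) : AddSubgroup J where
  carrier := {x | n • x = 0}
  zero_mem' := smul_zero n
  add_mem' := by
    intro a b ha hb
    show n • (a + b) = 0
    rw [smul_add, ha, hb, add_zero]
  neg_mem' := by
    intro a ha
    show n • (-a) = 0
    rw [smul_neg, ha, neg_zero]

variable {J} in
theorem mem_torsionNat {n : ℕ} {x : J} : x ∈ torsionNat J n ↔ n • x = 0 := Iff.rfl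

/-- multiplication by `p` from `p^(k+1)`-torsion to `p^k`-torsion -/
def pMul (p k : ℕ) : ↥(torsionNat J (p ^ (k + 1))) →+ ↥(torsionNat J (p ^ k)) where
  toFun x := ⟨p • x.1, by
    show p ^ k • p • x.1 = 0
    rw [← mul_smul, ← pow_succ]
    exact x.2⟩
  map_zero' := Subtype.ext (smul_zero p)
  map_add' x y := Subtype.ext (smul_add p x.1 y.1)

@[simp] theorem pMul_coe (p k : ℕ) (x : ↥(torsionNat J (p ^ (k + 1)))) :
    ((pMul J p k x : ↥(torsionNat J (p ^ k))) : J) = p • x.1 := rfl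

/-- compatible sequences `x 0 = 0`, `p • x (k+1) = x k` -/
def TateSeq (p : ℕ) : AddSubgroup (ℕ → J) where
  carrier := {x | x 0 = 0 ∧ ∀ k, p • x (k + 1) = x k}
  zero_mem' := ⟨rfl, fun k => smul_zero p⟩
  add_mem' := by
    intro a b ha hb
    refine ⟨?_, fun k => ?_⟩
    · show a 0 + b 0 = 0
      rw [ha.1, hb.1, add_zero]
    · show p • (a (k + 1) + b (k + 1)) = a k + b k
      rw [smul_add, ha.2 k, hb.2 k]
  neg_mem' := by
    intro a ha
    refine ⟨?_, fun k => ?_⟩
    · show -a 0 = 0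
      rw [ha.1, neg_zero]
    · show p • (-a (k + 1)) = -a k
      rw [smul_neg, ha.2 k]

variable {J}

theorem TateSeq.zero_eq {p : ℕ} (x : ↥(TateSeq J p)) : x.1 0 = 0 := x.2.1

theorem TateSeq.smul_succ {p : ℕ} (x : ↥(TateSeq J p)) (k : ℕ) : p • x.1 (k + 1) = x.1 k :=
  x.2.2 k

theorem TateSeq.pow_smul {p : ℕ} (x : ↥(TateSeq J p)) (k : ℕ) : p ^ k • x.1 k = 0 := by
  induction k with
  | zero => rw [pow_zero, one_smul]; exact TateSeq.zero_eq x
  | succ k ih => rw [pow_succ, mul_smul, TateSeq.smul_succ x k]; exact ih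

/-- the `k`-th component as a torsion point -/
def TateSeq.comp {p : ℕ} (k : ℕ) : ↥(TateSeq J p) →+ ↥(torsionNat J (p ^ k)) where
  toFun x := ⟨x.1 k, TateSeq.pow_smul x k⟩
  map_zero' := rfl
  map_add' _ _ := rfl

@[simp] theorem TateSeq.comp_coe {p : ℕ} (k : ℕ) (x : ↥(TateSeq J p)) :
    ((TateSeq.comp k x : ↥(torsionNat J (p ^ k))) : J) = x.1 k := rfl

theorem TateSeq.pMul_comp {p : ℕ} (k : ℕ) (x : ↥(TateSeq J p)) :
    pMul J p k (TateSeq.comp (k + 1) x) = TateSeq.comp k x :=
  Subtype.ext (TateSeq.smul_succ x k)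

theorem TateSeq.ext_comp {p : ℕ} {x y : ↥(TateSeq J p)}
    (h : ∀ k, TateSeq.comp k x = TateSeq.comp k y) : x = y := by
  apply Subtype.ext
  funext k
  exact congrArg Subtype.val (h k)

/-- an additive endomorphism acts on Tate sequences componentwise -/
def TateSeq.map (p : ℕ) (f : J →+ J) : ↥(TateSeq J p) →+ ↥(TateSeq J p) where
  toFun x := ⟨fun k => f (x.1 k), by
    refine ⟨?_, fun k => ?_⟩
    · show f (x.1 0) = 0
      rw [TateSeq.zero_eq x, map_zero]
    · show p • f (x.1 (k + 1)) = f (x.1 k)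
      rw [← map_nsmul, TateSeq.smul_succ x k]⟩
  map_zero' := by
    apply Subtype.ext; funext k
    show f ((0 : ↥(TateSeq J p)).1 k) = 0
    exact map_zero f
  map_add' x y := by
    apply Subtype.ext; funext k
    show f (x.1 k + y.1 k) = f (x.1 k) + f (y.1 k)
    exact map_add f _ _

@[simp] theorem TateSeq.map_apply (p : ℕ) (f : J →+ J) (x : ↥(TateSeq J p)) (k : ℕ) :
    (TateSeq.map p f x).1 k = f (x.1 k) := rfl

theorem TateSeq.map_id (p : ℕ) (x : ↥(TateSeq J p)) :
    TateSeq.map p (AddMonoidHom.id J) x = x := rfl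

theorem TateSeq.map_comp (p : ℕ) (f g : J →+ J) (x : ↥(TateSeq J p)) :
    TateSeq.map p (f.comp g) x = TateSeq.map p f (TateSeq.map p g x) := rfl

/-- an additive endomorphism preserves torsion -/
def torsionNat.map (n : ℕ) (f : J →+ J) : ↥(torsionNat J n) →+ ↥(torsionNat J n) where
  toFun x := ⟨f x.1, by
    show n • f x.1 = 0
    rw [← map_nsmul, x.2, map_zero]⟩
  map_zero' := Subtype.ext (map_zero f)
  map_add' x y := Subtype.ext (map_add f x.1 y.1)

@[simp] theorem torsionNat.map_coe (n : ℕ) (f : J →+ J) (x : ↥(torsionNat J n)) :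
    ((torsionNat.map n f x : ↥(torsionNat J n)) : J) = f x.1 := rfl

theorem TateSeq.comp_map (p : ℕ) (f : J →+ J) (k : ℕ) (x : ↥(TateSeq J p)) :
    TateSeq.comp k (TateSeq.map p f x) = torsionNat.map (p ^ k) f (TateSeq.comp k x) := rfl

end Tors

section Kap

variable (J : Type*) [AddCommGroup J] (Γ : Subgroup SL(2, ℤ)) (p : ℕ) [hp : Fact p.Prime]

/-- **(TOP-0)**, the clauses not involving operators: a compatible family of injections
`kap k : J[p^k] → Hom(Γ, ℤ/p^k)` with parabolic values whose images contain the reductions of all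
`ℤ_p`-valued parabolic homs. -/
structure KapData where
  kap : ∀ k : ℕ, ↥(torsionNat J (p ^ k)) →+ (Additive Γ →+ ZMod (p ^ k))
  inj : ∀ k, Function.Injective (kap k)
  par : ∀ k x, kap k x ∈ parabolicHoms ℤ Γ (ZMod (p ^ k))
  sur : ∀ k (ψ : ↥(parabolicHoms ℤ_[p] Γ ℤ_[p])),
    ∃ x, kap k x = (PadicInt.toZModPow k).toAddMonoidHom.comp ψ.1
  compat : ∀ k (x : ↥(torsionNat J (p ^ (k + 1)))),
    kap k (pMul J p k x) = (redSucc p k).toAddMonoidHom.comp (kap (k + 1) x)

variable {J Γ p}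

namespace KapData

variable (D : KapData J Γ p)

/-- the compatible sequence of values at `γ` -/
def valSeq (x : ↥(TateSeq J p)) (γ : Additive Γ) : ↥(compatSeq p) :=
  ⟨fun k => D.kap k (TateSeq.comp k x) γ, by
    intro k
    show redSucc p k (D.kap (k + 1) (TateSeq.comp (k + 1) x) γ) = D.kap k (TateSeq.comp k x) γ
    have h := D.compat k (TateSeq.comp (k + 1) x)
    rw [TateSeq.pMul_comp] at h
    rw [h]
    rfl⟩

@[simp] theorem valSeq_coe (x : ↥(TateSeq J p)) (γ : Additive Γ) (k : ℕ) :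
    (D.valSeq x γ).1 k = D.kap k (TateSeq.comp k x) γ := rfl

theorem valSeq_add_right (x : ↥(TateSeq J p)) (γ γ' : Additive Γ) :
    D.valSeq x (γ + γ') = D.valSeq x γ + D.valSeq x γ' := by
  apply Subtype.ext; funext k
  show D.kap k (TateSeq.comp k x) (γ + γ') = _
  rw [map_add]
  rfl

theorem valSeq_zero_right (x : ↥(TateSeq J p)) : D.valSeq x 0 = 0 := by
  apply Subtype.ext; funext k
  show D.kap k (TateSeq.comp k x) 0 = 0
  rw [map_zero]

theorem valSeq_add_left (x y : ↥(TateSeq J p)) (γ : Additive Γ) :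
    D.valSeq (x + y) γ = D.valSeq x γ + D.valSeq y γ := by
  apply Subtype.ext; funext k
  show D.kap k (TateSeq.comp k (x + y)) γ = _
  rw [map_add, map_add]
  rfl

theorem valSeq_zero_left (γ : Additive Γ) : D.valSeq 0 γ = 0 := by
  apply Subtype.ext; funext k
  show D.kap k (TateSeq.comp k 0) γ = 0
  rw [map_zero, map_zero]
  rfl

/-- `Φ x` as an additive map `Γ → ℤ_p` -/
noncomputable def phiHom (x : ↥(TateSeq J p)) : Additive Γ →+ ℤ_[p] where
  toFun γ := limZ p (D.valSeq x γ)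
  map_zero' := by rw [valSeq_zero_right, map_zero]
  map_add' γ γ' := by rw [valSeq_add_right, map_add]

theorem toZModPow_phiHom (x : ↥(TateSeq J p)) (γ : Additive Γ) (k : ℕ) :
    PadicInt.toZModPow k (D.phiHom x γ) = D.kap k (TateSeq.comp k x) γ :=
  toZModPow_limZ p _ k

theorem toZModPow_comp_phiHom (x : ↥(TateSeq J p)) (k : ℕ) :
    (PadicInt.toZModPow k).toAddMonoidHom.comp (D.phiHom x) = D.kap k (TateSeq.comp k x) := by
  refine AddMonoidHom.ext fun γ => ?_
  exact D.toZModPow_phiHom x γ k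

theorem phiHom_mem (x : ↥(TateSeq J p)) : D.phiHom x ∈ parabolicHoms ℤ_[p] Γ ℤ_[p] := by
  intro γ hγ
  show limZ p (D.valSeq x (Additive.ofMul γ)) = 0
  rw [limZ_eq_zero_iff]
  intro k
  exact D.par k _ γ hγ

/-- **`Φ`** as an additive map -/
noncomputable def phi : ↥(TateSeq J p) →+ ↥(parabolicHoms ℤ_[p] Γ ℤ_[p]) where
  toFun x := ⟨D.phiHom x, D.phiHom_mem x⟩
  map_zero' := by
    apply Subtype.ext; refine AddMonoidHom.ext fun γ => ?_
    show limZ p (D.valSeq 0 γ) = 0
    rw [valSeq_zero_left, map_zero]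
  map_add' x y := by
    apply Subtype.ext; refine AddMonoidHom.ext fun γ => ?_
    show limZ p (D.valSeq (x + y) γ) = limZ p (D.valSeq x γ) + limZ p (D.valSeq y γ)
    rw [valSeq_add_left, map_add]

theorem toZModPow_phi (x : ↥(TateSeq J p)) (γ : Additive Γ) (k : ℕ) :
    PadicInt.toZModPow k ((D.phi x).1 γ) = D.kap k (TateSeq.comp k x) γ :=
  D.toZModPow_phiHom x γ k

theorem toZModPow_comp_phi (x : ↥(TateSeq J p)) (k : ℕ) :
    (PadicInt.toZModPow k).toAddMonoidHom.comp (D.phi x).1 = D.kap k (TateSeq.comp k x) :=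
  D.toZModPow_comp_phiHom x k

theorem phi_injective : Function.Injective D.phi := by
  rw [injective_iff_map_eq_zero]
  intro x hx
  apply TateSeq.ext_comp
  intro k
  apply D.inj k
  rw [map_zero, map_zero, ← D.toZModPow_comp_phi x k, hx]
  refine AddMonoidHom.ext fun γ => ?_
  show PadicInt.toZModPow k ((0 : ↥(parabolicHoms ℤ_[p] Γ ℤ_[p])).1 γ) = 0
  exact map_zero _

theorem phi_surjective : Function.Surjective D.phi := by
  intro ψ
  choose y hy using fun k => D.sur k ψ
  have hy0 : (y 0).1 = 0 := by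
    have h0 : p ^ 0 • (y 0).1 = 0 := (y 0).2
    have h1 : p ^ 0 • (y 0).1 = (y 0).1 := by
      show (p ^ 0) • ((y 0).1 : J) = (y 0).1
      simp only [pow_zero, one_smul]
    rw [← h1]
    exact h0
  have hsucc : ∀ k, pMul J p k (y (k + 1)) = y k := by
    intro k
    apply D.inj k
    rw [D.compat k, hy (k + 1), hy k]
    refine AddMonoidHom.ext fun γ => ?_
    show redSucc p k (PadicInt.toZModPow (k + 1) (ψ.1 γ)) = PadicInt.toZModPow k (ψ.1 γ)
    exact DFunLike.congr_fun (PadicInt.zmod_cast_comp_toZModPow k (k + 1) (Nat.le_succ k)) _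
  let x : ↥(TateSeq J p) := ⟨fun k => (y k).1, hy0, fun k => congrArg Subtype.val (hsucc k)⟩
  have hx : ∀ k, TateSeq.comp k x = y k := fun k => Subtype.ext rfl
  refine ⟨x, ?_⟩
  apply Subtype.ext
  refine AddMonoidHom.ext fun γ => ?_
  rw [← PadicInt.ext_of_toZModPow]
  intro k
  rw [D.toZModPow_phi, hx k, hy k]
  rfl

/-- **`Φ : T_p J ≃+ parabolicHoms ℤ_p Γ ℤ_p`** -/
noncomputable def phiEquiv : ↥(TateSeq J p) ≃+ ↥(parabolicHoms ℤ_[p] Γ ℤ_[p]) :=
  AddEquiv.ofBijective D.phi ⟨D.phi_injective, D.phi_surjective⟩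

@[simp] theorem phiEquiv_apply (x : ↥(TateSeq J p)) : D.phiEquiv x = D.phi x := rfl

end KapData

end Kap

end Fermat.Agent.GR
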