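/-
STAGE (I), package TATE, lead — part 3: transport of endomorphisms of `J` to
`P := parabolicHoms ℤ_[p] Γ ℤ_[p]` along `Φ`, automatic `ℤ_p`-linearity, intertwining with operators
natural in the coefficient group, continuity.
-/
import Fermat.Agent.GR.TATE_lead_Seq

set_option autoImplicit false
set_option linter.unusedSectionVars false
set_option linter.unusedVariables false

namespace Fermat.Agent.GR

open ModularCurve.Period

open scoped MatrixGroups

section Linear

variable (p : ℕ) [hp : Fact p.Prime]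

/-- additive maps into a `p`-adically separated `ℤ_p`-module are `ℤ_p`-linear -/
theorem map_padic_smul_of_separated {M M' : Type*} [AddCommGroup M] [Module ℤ_[p] M]
    [AddCommGroup M'] [Module ℤ_[p] M']
    (hsep : ∀ m : M', (∀ k : ℕ, ∃ m' : M', m = (p : ℤ_[p]) ^ k • m') → m = 0)
    (g : M →+ M') (z : ℤ_[p]) (m : M) : g (z • m) = z • g m := by
  rw [← sub_eq_zero]
  apply hsep
  intro k
  have h := PadicInt.appr_spec k z
  rw [Ideal.mem_span_singleton'] at h
  obtain ⟨w, hw⟩ := h
  refine ⟨g (w • m) - w • g m, ?_⟩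
  have hz : z = w * (p : ℤ_[p]) ^ k + (z.appr k : ℤ_[p]) := by
    rw [hw]; ring
  have h1 : g (z • m) = (p : ℤ_[p]) ^ k • g (w • m) + (z.appr k : ℤ_[p]) • g m := by
    conv_lhs => rw [hz]
    rw [add_smul, map_add, mul_comm, mul_smul]
    congr 1
    · have : ((p : ℤ_[p]) ^ k) • (w • m) = (p ^ k : ℕ) • (w • m) := by
        rw [← Nat.cast_smul_eq_nsmul ℤ_[p]]; push_cast; rfl
      rw [this, map_nsmul, ← Nat.cast_smul_eq_nsmul ℤ_[p]]; push_cast; rfl
    · rw [Nat.cast_smul_eq_nsmul, map_nsmul, Nat.cast_smul_eq_nsmul]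
  have h2 : z • g m = (p : ℤ_[p]) ^ k • (w • g m) + (z.appr k : ℤ_[p]) • g m := by
    conv_lhs => rw [hz]
    rw [add_smul, mul_comm, mul_smul]
  rw [h1, h2, smul_sub]
  abel

end Linear

section Transport

variable {J : Type*} [AddCommGroup J] {Γ : Subgroup SL(2, ℤ)} {p : ℕ} [hp : Fact p.Prime]

/-- `TateSeq.map` as a ring homomorphism -/
def TateSeq.mapRingHom (J : Type*) [AddCommGroup J] (p : ℕ) :
    AddMonoid.End J →+* AddMonoid.End ↥(TateSeq J p) where
  toFun f := TateSeq.map p f
  map_one' := rfl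
  map_mul' f g := rfl
  map_zero' := by
    refine AddMonoidHom.ext fun x => ?_
    apply Subtype.ext; funext k
    rfl
  map_add' f g := by
    refine AddMonoidHom.ext fun x => ?_
    apply Subtype.ext; funext k
    rfl

theorem TateSeq.map_congr {f g : J →+ J}
    (h : ∀ x : J, (∃ n : ℕ, p ^ n • x = 0) → f x = g x) (x : ↥(TateSeq J p)) :
    TateSeq.map p f x = TateSeq.map p g x := by
  apply Subtype.ext; funext k
  exact h _ ⟨k, TateSeq.pow_smul x k⟩

theorem parabolicHoms_padic_separated (ψ : ↥(parabolicHoms ℤ_[p] Γ ℤ_[p]))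
    (h : ∀ k : ℕ, ∃ ψ' : ↥(parabolicHoms ℤ_[p] Γ ℤ_[p]), ψ = (p : ℤ_[p]) ^ k • ψ') : ψ = 0 := by
  apply Subtype.ext
  refine AddMonoidHom.ext fun γ => ?_
  show ψ.1 γ = 0
  rw [← PadicInt.ext_of_toZModPow]
  intro k
  obtain ⟨ψ', hψ'⟩ := h k
  rw [hψ', map_zero]
  show PadicInt.toZModPow k ((p : ℤ_[p]) ^ k * ψ'.1 γ) = 0
  rw [map_mul, map_pow, map_natCast]
  have : ((p : ZMod (p ^ k)) ^ k) = 0 := by
    rw [← Nat.cast_pow]; exact ZMod.natCast_self (p ^ k)
  rw [this, zero_mul]

namespace KapData

variable (D : KapData J Γ p)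

/-- the additive endomorphism of `P` corresponding to an additive endomorphism of `J` -/
noncomputable def transportAdd (f : J →+ J) :
    ↥(parabolicHoms ℤ_[p] Γ ℤ_[p]) →+ ↥(parabolicHoms ℤ_[p] Γ ℤ_[p]) :=
  (D.phi.comp (TateSeq.map p f)).comp D.phiEquiv.symm.toAddMonoidHom

theorem transportAdd_phi (f : J →+ J) (x : ↥(TateSeq J p)) :
    D.transportAdd f (D.phi x) = D.phi (TateSeq.map p f x) := by
  show D.phi (TateSeq.map p f (D.phiEquiv.symm (D.phiEquiv x))) = _
  rw [AddEquiv.symm_apply_apply]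

/-- **transport of endomorphisms** `End(J) → End_{ℤ_p}(P)` along `Φ` -/
noncomputable def transport :
    AddMonoid.End J →+* Module.End ℤ_[p] ↥(parabolicHoms ℤ_[p] Γ ℤ_[p]) where
  toFun f :=
    { toFun := D.transportAdd f
      map_add' := map_add _
      map_smul' := fun z ψ =>
        map_padic_smul_of_separated p parabolicHoms_padic_separated (D.transportAdd f) z ψ }
  map_one' := by
    apply LinearMap.ext; intro ψ
    obtain ⟨x, rfl⟩ := D.phi_surjective ψ
    exact D.transportAdd_phi (AddMonoidHom.id J) x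
  map_mul' f g := by
    apply LinearMap.ext; intro ψ
    obtain ⟨x, rfl⟩ := D.phi_surjective ψ
    have h1 : D.transportAdd (AddMonoidHom.comp f g) (D.phi x) =
        D.phi (TateSeq.map p (AddMonoidHom.comp f g) x) := D.transportAdd_phi _ x
    have h2 : D.transportAdd g (D.phi x) = D.phi (TateSeq.map p g x) := D.transportAdd_phi g x
    have h3 : D.transportAdd f (D.phi (TateSeq.map p g x)) =
        D.phi (TateSeq.map p f (TateSeq.map p g x)) := D.transportAdd_phi f _
    show D.transportAdd (AddMonoidHom.comp f g) (D.phi x) =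
      D.transportAdd f (D.transportAdd g (D.phi x))
    rw [h1, h2, h3]
    rfl
  map_zero' := by
    apply LinearMap.ext; intro ψ
    obtain ⟨x, rfl⟩ := D.phi_surjective ψ
    have h1 : D.transportAdd (0 : J →+ J) (D.phi x) = D.phi (TateSeq.map p (0 : J →+ J) x) :=
      D.transportAdd_phi _ x
    have h2 : TateSeq.map p (0 : J →+ J) x = 0 := by
      apply Subtype.ext; funext k; rfl
    show D.transportAdd (0 : J →+ J) (D.phi x) = 0
    rw [h1, h2, map_zero]
  map_add' f g := by
    apply LinearMap.ext; intro ψ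
    obtain ⟨x, rfl⟩ := D.phi_surjective ψ
    have h1 : D.transportAdd ((f : J →+ J) + (g : J →+ J)) (D.phi x) =
        D.phi (TateSeq.map p ((f : J →+ J) + (g : J →+ J)) x) := D.transportAdd_phi _ x
    have h2 : D.transportAdd g (D.phi x) = D.phi (TateSeq.map p g x) := D.transportAdd_phi g x
    have h3 : D.transportAdd f (D.phi x) = D.phi (TateSeq.map p f x) := D.transportAdd_phi f x
    have h4 : TateSeq.map p ((f : J →+ J) + (g : J →+ J)) x =
        TateSeq.map p f x + TateSeq.map p g x := by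
      apply Subtype.ext; funext k; rfl
    show D.transportAdd ((f : J →+ J) + (g : J →+ J)) (D.phi x) =
      D.transportAdd f (D.phi x) + D.transportAdd g (D.phi x)
    rw [h1, h2, h3, h4, map_add]

theorem transport_phi (f : AddMonoid.End J) (x : ↥(TateSeq J p)) :
    D.transport f (D.phi x) = D.phi (TateSeq.map p f x) :=
  D.transportAdd_phi f x

/-- endomorphisms agreeing on `p`-power torsion have the same transport -/
theorem transport_congr {f g : AddMonoid.End J}
    (h : ∀ x : J, (∃ n : ℕ, p ^ n • x = 0) → f x = g x) : D.transport f = D.transport g := by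
  apply LinearMap.ext; intro ψ
  obtain ⟨x, rfl⟩ := D.phi_surjective ψ
  rw [transport_phi, transport_phi, TateSeq.map_congr h]

/-- an endomorphism vanishing on `p`-power torsion has zero transport -/
theorem transport_eq_zero {f : AddMonoid.End J}
    (h : ∀ x : J, (∃ n : ℕ, p ^ n • x = 0) → f x = 0) : D.transport f = 0 := by
  rw [← map_zero D.transport]
  exact D.transport_congr h

/-- **intertwining**: if `f` on `J` corresponds under all `kap k` to operators `Fk k` which are the
reductions of an operator `F` on `ℤ_p`-valued homs, then the transport of `f` is `F`. -/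
theorem transport_eq_of_intertwine (f : AddMonoid.End J)
    (Fk : ∀ k : ℕ, (Additive Γ →+ ZMod (p ^ k)) → (Additive Γ →+ ZMod (p ^ k)))
    (F : (Additive Γ →+ ℤ_[p]) → (Additive Γ →+ ℤ_[p]))
    (hf : ∀ k (x : ↥(torsionNat J (p ^ k))), D.kap k (torsionNat.map (p ^ k) f x) = Fk k (D.kap k x))
    (hF : ∀ k (ψ : Additive Γ →+ ℤ_[p]), (PadicInt.toZModPow k).toAddMonoidHom.comp (F ψ) =
      Fk k ((PadicInt.toZModPow k).toAddMonoidHom.comp ψ))
    (ψ : ↥(parabolicHoms ℤ_[p] Γ ℤ_[p])) : (D.transport f ψ).1 = F ψ.1 := by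
  obtain ⟨x, rfl⟩ := D.phi_surjective ψ
  rw [transport_phi]
  refine AddMonoidHom.ext fun γ => ?_
  rw [← PadicInt.ext_of_toZModPow]
  intro k
  have h1 := D.toZModPow_comp_phi (TateSeq.map p f x) k
  have h2 : TateSeq.comp k (TateSeq.map p f x) = torsionNat.map (p ^ k) f (TateSeq.comp k x) := rfl
  rw [h2, hf k, ← D.toZModPow_comp_phi x k, ← hF k] at h1
  exact DFunLike.congr_fun h1 γ

end KapData

end Transport

end Fermat.Agent.GR
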