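/-
STAGE (I), package TATE, lead — part 4: the Galois representation on
`P := parabolicHoms ℤ_[p] Γ ℤ_[p]` obtained by transport, its formal properties (commutation with
equivariant operators, triviality, quadratic relations) and continuity.
-/
import Fermat.Agent.GR.TATE_lead_Rep

set_option autoImplicit false
set_option linter.unusedSectionVars false
set_option linter.unusedVariables false
set_option linter.style.haveILetI false

namespace Fermat.Agent.GR

open ModularCurve.Period

open scoped MatrixGroups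

section Galois

variable {J : Type*} [AddCommGroup J] {Γ : Subgroup SL(2, ℤ)} {p : ℕ} [hp : Fact p.Prime]
variable {G : Type*} [Group G] [DistribMulAction G J]

namespace KapData

variable (D : KapData J Γ p)

/-- **the representation of `G` on `P`** -/
noncomputable def rho : G →* Module.End ℤ_[p] ↥(parabolicHoms ℤ_[p] Γ ℤ_[p]) :=
  (D.transport : AddMonoid.End J →* Module.End ℤ_[p] ↥(parabolicHoms ℤ_[p] Γ ℤ_[p])).comp
    (DistribMulAction.toAddMonoidEnd G J)

theorem rho_eq_transport (σ : G) :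
    D.rho σ = D.transport (DistribMulAction.toAddMonoidEnd G J σ) := rfl

theorem rho_phi (σ : G) (x : ↥(TateSeq J p)) :
    D.rho σ (D.phi x) = D.phi (TateSeq.map p (DistribMulAction.toAddMonoidEnd G J σ) x) :=
  D.transport_phi _ x

/-- equivariant endomorphisms of `J` give operators commuting with the Galois action -/
theorem transport_comm_rho (f : AddMonoid.End J) (σ : G) (hf : ∀ x : J, f (σ • x) = σ • f x) :
    D.transport f * D.rho σ = D.rho σ * D.transport f := by
  rw [rho_eq_transport, ← map_mul, ← map_mul]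
  congr 1
  refine AddMonoidHom.ext fun x => ?_
  exact hf x

/-- an element acting trivially on `p`-power torsion acts trivially on `P` -/
theorem rho_eq_one (σ : G) (h : ∀ x : J, (∃ n : ℕ, p ^ n • x = 0) → σ • x = x) : D.rho σ = 1 := by
  rw [rho_eq_transport, ← map_one D.transport]
  exact D.transport_congr h

/-- **quadratic relation**: if `σ² x − T (σ x) + q x = 0` on `p`-power torsion then
`ρ(σ)² − T^P ρ(σ) + q = 0` on `P`. -/
theorem rho_quadratic (σ : G) (T : AddMonoid.End J) (q : ℕ)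
    (h : ∀ x : J, (∃ n : ℕ, p ^ n • x = 0) → σ • σ • x - T (σ • x) + q • x = 0) :
    D.rho σ * D.rho σ - D.transport T * D.rho σ + (q : Module.End ℤ_[p] _) = 0 := by
  have h1 : D.rho σ * D.rho σ - D.transport T * D.rho σ + (q : Module.End ℤ_[p] _) =
      D.transport (DistribMulAction.toAddMonoidEnd G J σ * DistribMulAction.toAddMonoidEnd G J σ -
        T * DistribMulAction.toAddMonoidEnd G J σ + (q : AddMonoid.End J)) := by
    rw [map_add, map_sub, map_mul D.transport, map_mul D.transport, map_natCast]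
    rfl
  rw [h1]
  apply D.transport_eq_zero
  intro x hx
  have := h x hx
  show (DistribMulAction.toAddMonoidEnd G J σ) ((DistribMulAction.toAddMonoidEnd G J σ) x) -
    T ((DistribMulAction.toAddMonoidEnd G J σ) x) + (q : AddMonoid.End J) x = 0
  rw [AddMonoid.End.natCast_apply]
  exact this

/-- if `σ` fixes all `p^k`-torsion points then `ρ(σ) ψ − ψ ∈ p^k P` -/
theorem rho_sub_eq_smul (σ : G) (k : ℕ) (h : ∀ x : J, p ^ k • x = 0 → σ • x = x)
    (ψ : ↥(parabolicHoms ℤ_[p] Γ ℤ_[p])) :
    ∃ ψ' : ↥(parabolicHoms ℤ_[p] Γ ℤ_[p]), D.rho σ ψ - ψ = (p : ℤ_[p]) ^ k • ψ' := by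
  obtain ⟨x, rfl⟩ := D.phi_surjective ψ
  rw [rho_phi, ← map_sub]
  set y := TateSeq.map p (DistribMulAction.toAddMonoidEnd G J σ) x - x with hy
  have hyk : TateSeq.comp k y = 0 := by
    apply Subtype.ext
    show σ • x.1 k - x.1 k = 0
    rw [h _ (TateSeq.pow_smul x k), sub_self]
  refine exists_eq_smul_of_comp_eq_zero ℤ_[p] Γ ℤ_[p] (PadicInt.toZModPow k).toAddMonoidHom
    ((p : ℤ_[p]) ^ k) ?_ ?_ (D.phi y) ?_
  · intro a b hab
    have hp0 : ((p : ℤ_[p]) ^ k) ≠ 0 := pow_ne_zero _ (Nat.cast_ne_zero.2 hp.out.ne_zero)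
    exact mul_left_cancel₀ hp0 hab
  · intro a ha
    have : a ∈ RingHom.ker (PadicInt.toZModPow k (p := p)) := ha
    rw [PadicInt.ker_toZModPow, Ideal.mem_span_singleton'] at this
    obtain ⟨a', ha'⟩ := this
    exact ⟨a', by rw [← ha', smul_eq_mul, mul_comm]⟩
  · rw [D.toZModPow_comp_phi, hyk, map_zero]

end KapData

end Galois

section Finite

variable {J : Type*} [AddCommGroup J] {Γ : Subgroup SL(2, ℤ)} {p : ℕ} [hp : Fact p.Prime]

instance finite_addMonoidHom_zmod_of_fg (Γ : Type*) [Group Γ] [Group.FG Γ] (n : ℕ) [NeZero n] :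
    Finite (Additive Γ →+ ZMod n) := by
  obtain ⟨m, g, hg⟩ := exists_fintype_generators (Γ := Γ)
  exact Finite.of_injective _ (evalAt_injective (A := ZMod n) g hg)

theorem KapData.finite_torsion [Group.FG Γ] (D : KapData J Γ p) (k : ℕ) :
    Finite ↥(torsionNat J (p ^ k)) := by
  haveI : NeZero (p ^ k) := ⟨pow_ne_zero _ hp.out.ne_zero⟩
  exact Finite.of_injective _ (D.inj k)

end Finite

section Continuity

variable {J : Type*} [AddCommGroup J] {Γ : Subgroup SL(2, ℤ)} {p : ℕ} [hp : Fact p.Prime]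
variable [DistribMulAction (AlgebraicClosure ℚ ≃ₐ[ℚ] AlgebraicClosure ℚ) J]

/-- **continuity**: if every point of `J` is fixed by the absolute Galois group of a finite
extension, then for every `k` some such group acts trivially on `P / p^k P`. -/
theorem KapData.rho_continuous [Group.FG Γ] (D : KapData J Γ p)
    (hfix : ∀ x : J, ∃ L : IntermediateField ℚ (AlgebraicClosure ℚ), FiniteDimensional ℚ L ∧
      ∀ σ : AlgebraicClosure ℚ ≃ₐ[ℚ] AlgebraicClosure ℚ, (∀ a ∈ L, σ a = a) → σ • x = x)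
    (k : ℕ) :
    ∃ L : IntermediateField ℚ (AlgebraicClosure ℚ), FiniteDimensional ℚ L ∧
      ∀ σ : AlgebraicClosure ℚ ≃ₐ[ℚ] AlgebraicClosure ℚ, (∀ a ∈ L, σ a = a) →
        ∀ ψ : ↥(parabolicHoms ℤ_[p] Γ ℤ_[p]),
          ∃ ψ' : ↥(parabolicHoms ℤ_[p] Γ ℤ_[p]), D.rho σ ψ - ψ = (p : ℤ_[p]) ^ k • ψ' := by
  haveI := D.finite_torsion k
  choose L hLfin hL using hfix
  haveI : ∀ x : ↥(torsionNat J (p ^ k)), FiniteDimensional ℚ ↥(L x.1) := fun x => hLfin x.1
  refine ⟨⨆ x : ↥(torsionNat J (p ^ k)), L x.1,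
    IntermediateField.finiteDimensional_iSup_of_finite, ?_⟩
  intro σ hσ ψ
  refine D.rho_sub_eq_smul σ k ?_ ψ
  intro x hx
  refine hL x σ fun a ha => hσ a ?_
  exact (le_iSup (fun x : ↥(torsionNat J (p ^ k)) => L x.1) ⟨x, hx⟩) ha

end Continuity

end Fermat.Agent.GR
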