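/-
STAGE (I), package TOP, lead — part 1: from the stage-(I) data on `J = JZero N` (the structure
`StageIData`, = (TOP-0) of finding 216 + the S37 clauses) and a system of eigenvalues
`a : Nat.Primes → 𝒪` occurring in `eigenPar N (Frac 𝒪) a` with multiplicity one data, the Galois
representation `ρ : GaloisRepAdic 𝒪`, unramified outside `Np`, with
`charpoly ρ(Frob_q) = X² − a_q X + q` for ALL Frobenius elements at `q ∤ Np`.
-/
import Fermat.Agent.GR.LATTICE_lead_Rep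
import Fermat.Agent.GR.TATE_lead_Gal
import Fermat.Agent.GR.DET_lead_Main
import Fermat.Prelude.Def_ModularCurve_HeckeModule

set_option autoImplicit false
set_option linter.unusedSectionVars false
set_option linter.unusedVariables false
set_option linter.style.haveILetI false

namespace Fermat.Agent.GR

open CongruenceSubgroup ModularCurve ModularCurve.Period Polynomial

open scoped MatrixGroups

local notation "Ω" => AlgebraicClosure ℚ
local notation "GQ" => (AlgebraicClosure ℚ ≃ₐ[ℚ] AlgebraicClosure ℚ)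

/-- **the stage-(I) data** on `J = JZero N` at the prime `p`. -/
structure StageIData (N : ℕ) [NeZero N] (p : ℕ) [Fact p.Prime] where
  /-- the Kummer pairing data (inj), (par), (sur), (compat) -/
  D : KapData (JZero N) (Gamma0 N) p
  /-- the (swapped) Hecke correspondences on `J` -/
  T' : Nat.Primes → (JZero N →+ JZero N)
  /-- (hecke) -/
  hecke : ∀ (ℓ : Nat.Primes) (k : ℕ) (x : ↥(torsionNat (JZero N) (p ^ k))),
    D.kap k (torsionNat.map (p ^ k) (T' ℓ) x) = heckeGrpP N ℓ (ZMod (p ^ k)) (D.kap k x)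
  /-- (gal) -/
  gal : ∀ (ℓ : Nat.Primes) (σ : GQ) (x : JZero N), T' ℓ (σ • x) = σ • T' ℓ x
  /-- `T'_ℓ` is the Prelude's `T_ℓ` for `ℓ ∤ N` -/
  hT' : ∀ ℓ : Nat.Primes, ¬ (ℓ : ℕ) ∣ N → ∀ x : JZero N, T' ℓ x = heckeOperatorBar N ℓ x
  /-- (conj) -/
  c0 : GQ
  conj : ∀ (k : ℕ) (x : ↥(torsionNat (JZero N) (p ^ k))),
    D.kap k (torsionNat.map (p ^ k) (DistribMulAction.toAddMonoidEnd GQ (JZero N) c0) x) =
      -charInvolution N ℤ (ZMod (p ^ k)) (D.kap k x)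
  /-- every point is defined over a finite extension -/
  fix : ∀ x : JZero N, ∃ L : IntermediateField ℚ Ω, FiniteDimensional ℚ L ∧
      ∀ σ : GQ, (∀ a ∈ L, σ a = a) → σ • x = x
  /-- the clauses of S37 -/
  clause : ∀ ℓ : ℕ, (hℓ : ℓ.Prime) → ¬ ℓ ∣ N * p →
      ∀ A : ValuationSubring Ω, A.LiesOverPrime ℓ →
        ∃ (M : Type) (_ : AddCommGroup M) (red : JZero N →+ M) (Fr : M →+ M) (σ₀ : GQ),
          A.IsFrobeniusAt σ₀ ℓ ∧
          (∀ σ ∈ A.inertiaSubgroupIn ℚ, ∀ x : JZero N, red (σ • x) = red x) ∧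
          (∀ σ : GQ, A.IsFrobeniusAt σ ℓ → ∀ x : JZero N, red (σ • x) = Fr (red x)) ∧
          (∀ x : JZero N,
            red (σ₀ • σ₀ • x - heckeOperatorBar N ⟨ℓ, hℓ⟩ (σ₀ • x) + ℓ • x) = 0) ∧
          (∀ x : JZero N, (∃ n : ℕ, p ^ n • x = 0) → red x = 0 → x = 0)

namespace StageIData

variable {N : ℕ} [NeZero N] {p : ℕ} [hp : Fact p.Prime] (I : StageIData N p)

end StageIData

section Torsion

variable {J : Type*} [AddCommGroup J] {p : ℕ}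

theorem isTorsion_add {x y : J} (hx : ∃ n : ℕ, p ^ n • x = 0) (hy : ∃ n : ℕ, p ^ n • y = 0) :
    ∃ n : ℕ, p ^ n • (x + y) = 0 := by
  obtain ⟨n, hn⟩ := hx
  obtain ⟨m, hm⟩ := hy
  refine ⟨n + m, ?_⟩
  have h1 : p ^ (n + m) • x = 0 := by rw [pow_add, mul_nsmul, hn, nsmul_zero]
  have h2 : p ^ (n + m) • y = 0 := by rw [pow_add, mul_comm, mul_nsmul, hm, nsmul_zero]
  rw [nsmul_add, h1, h2, add_zero]

theorem isTorsion_neg {x : J} (hx : ∃ n : ℕ, p ^ n • x = 0) :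
    ∃ n : ℕ, p ^ n • (-x) = 0 := by
  obtain ⟨n, hn⟩ := hx
  exact ⟨n, by rw [smul_neg, hn, neg_zero]⟩

theorem isTorsion_map {x : J} (f : J →+ J) (hx : ∃ n : ℕ, p ^ n • x = 0) :
    ∃ n : ℕ, p ^ n • f x = 0 := by
  obtain ⟨n, hn⟩ := hx
  exact ⟨n, by rw [← map_nsmul, hn, map_zero]⟩

theorem isTorsion_nsmul {x : J} (m : ℕ) (hx : ∃ n : ℕ, p ^ n • x = 0) :
    ∃ n : ℕ, p ^ n • (m • x) = 0 := by
  obtain ⟨n, hn⟩ := hx
  exact ⟨n, by rw [nsmul_left_comm, hn, nsmul_zero]⟩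

theorem isTorsion_smul {G : Type*} [Monoid G] [DistribMulAction G J] {x : J} (σ : G)
    (hx : ∃ n : ℕ, p ^ n • x = 0) : ∃ n : ℕ, p ^ n • (σ • x) = 0 :=
  isTorsion_map (DistribSMul.toAddMonoidHom J σ) hx

end Torsion

namespace StageIData

variable {N : ℕ} [NeZero N] {p : ℕ} [hp : Fact p.Prime] (I : StageIData N p)

include I in
/-- inertia at `q ∤ Np` acts trivially on `p`-power torsion -/
theorem inertia_smul_eq {q : ℕ} (hq : q.Prime) (hqNp : ¬ q ∣ N * p) {A : ValuationSubring Ω}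
    (hA : A.LiesOverPrime q) {σ : GQ} (hσ : σ ∈ A.inertiaSubgroupIn ℚ) {x : JZero N}
    (hx : ∃ n : ℕ, p ^ n • x = 0) : σ • x = x := by
  obtain ⟨M, _, red, Fr, σ₀, hσ₀, hE1, hE2, hE3, hE4⟩ := I.clause q hq hqNp A hA
  rw [← sub_eq_zero]
  apply hE4
  · rw [sub_eq_add_neg]
    exact isTorsion_add (isTorsion_smul σ hx) (isTorsion_neg hx)
  · rw [map_sub, hE1 σ hσ x, sub_self]

/-- Frobenius elements at `q ∤ Np` satisfy the Eichler–Shimura relation on `p`-power torsion -/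
theorem frobenius_quadratic {q : ℕ} (hq : q.Prime) (hqNp : ¬ q ∣ N * p)
    {A : ValuationSubring Ω} (hA : A.LiesOverPrime q) {σ : GQ} (hσ : A.IsFrobeniusAt σ q)
    {x : JZero N} (hx : ∃ n : ℕ, p ^ n • x = 0) :
    σ • σ • x - I.T' ⟨q, hq⟩ (σ • x) + q • x = 0 := by
  obtain ⟨M, _, red, Fr, σ₀, hσ₀, hE1, hE2, hE3, hE4⟩ := I.clause q hq hqNp A hA
  have hqN : ¬ ((⟨q, hq⟩ : Nat.Primes) : ℕ) ∣ N := fun h => hqNp (Dvd.dvd.mul_right h p)
  apply hE4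
  · refine isTorsion_add ?_ (isTorsion_nsmul q hx)
    rw [sub_eq_add_neg]
    exact isTorsion_add (isTorsion_smul σ (isTorsion_smul σ hx))
      (isTorsion_neg (isTorsion_map _ (isTorsion_smul σ hx)))
  · have h3 := hE3 x
    rw [map_add, map_sub, hE2 σ₀ hσ₀, hE2 σ₀ hσ₀, map_nsmul] at h3
    rw [map_add, map_sub, hE2 σ hσ, hE2 σ hσ, map_nsmul]
    have h4 : red (I.T' ⟨q, hq⟩ (σ • x)) = red (heckeOperatorBar N ⟨q, hq⟩ (σ₀ • x)) := by
      have g1 := I.gal ⟨q, hq⟩ σ x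
      have g2 := I.gal ⟨q, hq⟩ σ₀ x
      have g3 := I.hT' ⟨q, hq⟩ hqN (σ₀ • x)
      rw [← g3, g1, g2, hE2 σ hσ, hE2 σ₀ hσ₀]
    rw [h4]
    exact h3

/-- the representation on `P` -/
noncomputable def rhoP : GQ →* Module.End ℤ_[p] ↥(parabolicHoms ℤ_[p] (Gamma0 N) ℤ_[p]) :=
  I.D.rho

theorem transport_T' (ℓ : Nat.Primes) :
    I.D.transport (I.T' ℓ) = heckeParP N ℓ ℤ_[p] ℤ_[p] := by
  apply LinearMap.ext
  intro ψ
  apply Subtype.ext
  exact I.D.transport_eq_of_intertwine (I.T' ℓ)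
    (fun k => heckeGrpP N ℓ (ZMod (p ^ k))) (heckeGrpP N ℓ ℤ_[p])
    (fun k x => I.hecke ℓ k x)
    (fun k ψ => (heckeGrpP_comp N ℓ _ ψ).symm) ψ

theorem rhoP_comm (σ : GQ) (ℓ : Nat.Primes) :
    I.rhoP σ * heckeParP N ℓ ℤ_[p] ℤ_[p] = heckeParP N ℓ ℤ_[p] ℤ_[p] * I.rhoP σ := by
  rw [← I.transport_T' ℓ]
  exact (I.D.transport_comm_rho (I.T' ℓ) σ (fun x => I.gal ℓ σ x)).symm

theorem rhoP_c0 : I.rhoP I.c0 + charInvPar N ℤ_[p] = 0 := by
  apply LinearMap.ext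
  intro ψ
  apply Subtype.ext
  have h := I.D.transport_eq_of_intertwine (DistribMulAction.toAddMonoidEnd GQ (JZero N) I.c0)
    (fun k ψ => -charInvolution N ℤ (ZMod (p ^ k)) ψ) (fun ψ => -charInvolution N ℤ ℤ_[p] ψ)
    (fun k x => I.conj k x) (fun k ψ => by
      refine AddMonoidHom.ext fun γ => ?_
      show PadicInt.toZModPow k (-(ψ (Additive.ofMul (jConjGamma0 N (Additive.toMul γ))))) =
        -(PadicInt.toZModPow k (ψ (Additive.ofMul (jConjGamma0 N (Additive.toMul γ)))))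
      exact map_neg _ _) ψ
  show (I.D.rho I.c0 ψ).1 + charInvolution N ℤ_[p] ℤ_[p] ψ.1 = 0
  rw [KapData.rho_eq_transport, h]
  exact neg_add_cancel _

theorem rhoP_continuous (k : ℕ) :
    ∃ L : IntermediateField ℚ Ω, FiniteDimensional ℚ L ∧
      ∀ σ : GQ, (∀ x ∈ L, σ x = x) →
        ∀ ψ : ↥(parabolicHoms ℤ_[p] (Gamma0 N) ℤ_[p]),
          ∃ ψ' : ↥(parabolicHoms ℤ_[p] (Gamma0 N) ℤ_[p]), I.rhoP σ ψ - ψ = (p : ℤ_[p]) ^ k • ψ' :=
  I.D.rho_continuous I.fix k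

theorem rhoP_inertia {q : ℕ} (hq : q.Prime) (hqNp : ¬ q ∣ N * p) {A : ValuationSubring Ω}
    (hA : A.LiesOverPrime q) {σ : GQ} (hσ : σ ∈ A.inertiaSubgroupIn ℚ) : I.rhoP σ = 1 :=
  I.D.rho_eq_one σ (fun x hx => I.inertia_smul_eq hq hqNp hA hσ hx)

theorem rhoP_quadratic {q : ℕ} (hq : q.Prime) (hqNp : ¬ q ∣ N * p)
    {A : ValuationSubring Ω} (hA : A.LiesOverPrime q) {σ : GQ} (hσ : A.IsFrobeniusAt σ q) :
    I.rhoP σ * I.rhoP σ - heckeParP N ⟨q, hq⟩ ℤ_[p] ℤ_[p] * I.rhoP σ +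
      (q : Module.End ℤ_[p] ↥(parabolicHoms ℤ_[p] (Gamma0 N) ℤ_[p])) = 0 := by
  rw [← I.transport_T' ⟨q, hq⟩]
  exact I.D.rho_quadratic σ (I.T' ⟨q, hq⟩) q (fun x hx => I.frobenius_quadratic hq hqNp hA hσ hx)

end StageIData

end Fermat.Agent.GR
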