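/-
STAGE (I), package TOP, lead — part 2: **the Galois representation attached to a system of
eigenvalues** `a : Nat.Primes → 𝒪` (from `StageIData` + multiplicity one).
-/
import Fermat.Agent.GR.TOP_lead_System

set_option autoImplicit false
set_option linter.unusedSectionVars false
set_option linter.unusedVariables false
set_option linter.style.haveILetI false

namespace Fermat.Agent.GR

open CongruenceSubgroup ModularCurve ModularCurve.Period Polynomial

open scoped MatrixGroups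

local notation "Ω" => AlgebraicClosure ℚ
local notation "GQ" => (AlgebraicClosure ℚ ≃ₐ[ℚ] AlgebraicClosure ℚ)

namespace StageIData

variable {N : ℕ} [NeZero N] {p : ℕ} [hp : Fact p.Prime] (I : StageIData N p)
  (𝒪 : Type) [CommRing 𝒪] [IsDomain 𝒪] [IsDiscreteValuationRing 𝒪] [CharZero 𝒪]
  [Algebra ℤ_[p] 𝒪] (hp𝒪 : (p : 𝒪) ∈ IsLocalRing.maximalIdeal 𝒪) (a : Nat.Primes → 𝒪)
  (K : Type*) [Field K] [Algebra 𝒪 K] [IsFractionRing 𝒪 K]
  (hrank : Module.finrank K ↥(eigenPar N K (mapSys 𝒪 K a)) = 2)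

/-- the representation attached to the system `a` -/
noncomputable def rep : GaloisRepAdic 𝒪 :=
  latticeRep N p 𝒪 a K I.rhoP I.rhoP_comm hp𝒪 hrank I.rhoP_continuous

theorem rep_ρ : (I.rep 𝒪 hp𝒪 a K hrank).ρ = rhoLattice N p 𝒪 a I.rhoP I.rhoP_comm := rfl

theorem rep_isUnramifiedAt {q : ℕ} (hq : q.Prime) (hqNp : ¬ q ∣ N * p) :
    (I.rep 𝒪 hp𝒪 a K hrank).IsUnramifiedAt q := by
  intro A hA σ hσ
  rw [rep_ρ]
  exact rhoLattice_eq_one N p 𝒪 a I.rhoP I.rhoP_comm (I.rhoP_inertia hq hqNp hA hσ)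

/-- the eigenvalues indexed by `ℕ` -/
noncomputable def natSys : ℕ → 𝒪 := fun q => if h : q.Prime then a ⟨q, h⟩ else 0

theorem natSys_prime {q : ℕ} (hq : q.Prime) : natSys 𝒪 a q = a ⟨q, hq⟩ := dif_pos hq

theorem rep_frobeniusQuadraticOutside :
    FrobeniusQuadraticOutside (I.rep 𝒪 hp𝒪 a K hrank) (N * p).primeFactors (natSys 𝒪 a) := by
  intro q hq hqT A hA φ hφ
  have hNp : N * p ≠ 0 := Nat.mul_ne_zero (NeZero.ne N) hp.out.ne_zero
  have hqNp : ¬ q ∣ N * p := fun h => hqT (Nat.mem_primeFactors.2 ⟨hq, h, hNp⟩)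
  rw [natSys_prime 𝒪 a hq, rep_ρ]
  exact rhoLattice_quadratic N p 𝒪 a I.rhoP I.rhoP_comm ⟨q, hq⟩ q
    (I.rhoP_quadratic hq hqNp hA hφ)

variable
  (hplus : ∃ e : Additive (Gamma0 N) →+ K, e ∈ eigenPar N K (mapSys 𝒪 K a) ∧ e ≠ 0 ∧
      charInvolution N K K e = e)
  (hminus : ∃ e : Additive (Gamma0 N) →+ K, e ∈ eigenPar N K (mapSys 𝒪 K a) ∧ e ≠ 0 ∧
      charInvolution N K K e = -e)

include hplus hminus in
theorem rep_c0_not_isScalarEnd :
    ¬ IsScalarEnd ((I.rep 𝒪 hp𝒪 a K hrank).ρ I.c0) := by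
  rw [rep_ρ]
  exact rhoLattice_not_isScalarEnd N p 𝒪 a K I.rhoP I.rhoP_comm I.rhoP_c0 hplus hminus

theorem mem_primeFactors_self : p ∈ (N * p).primeFactors :=
  Nat.mem_primeFactors.2 ⟨hp.out, Dvd.intro_left N rfl,
    Nat.mul_ne_zero (NeZero.ne N) hp.out.ne_zero⟩

include hplus hminus in
theorem rep_detIsCyclotomic : (I.rep 𝒪 hp𝒪 a K hrank).DetIsCyclotomic p :=
  detIsCyclotomic_of_frobeniusQuadratic hp𝒪 mem_primeFactors_self
    (I.rep_frobeniusQuadraticOutside 𝒪 hp𝒪 a K hrank)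
    (I.rep_c0_not_isScalarEnd 𝒪 hp𝒪 a K hrank hplus hminus)

include hplus hminus in
/-- **Eichler–Shimura + multiplicity one + Chebotarev**: the characteristic polynomial of every
Frobenius element at `q ∤ Np`. -/
theorem rep_charpoly_frobenius {q : ℕ} (hq : q.Prime) (hqNp : ¬ q ∣ N * p)
    {A : ValuationSubring Ω} (hA : A.LiesOverPrime q) {σ : GQ} (hσ : A.IsFrobeniusAt σ q) :
    LinearMap.charpoly ((I.rep 𝒪 hp𝒪 a K hrank).ρ σ) =
      X ^ 2 - C (a ⟨q, hq⟩) * X + C (q : 𝒪) := by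
  have hqT : q ∉ (N * p).primeFactors := fun h => hqNp (Nat.mem_primeFactors.1 h).2.1
  have h := charpoly_frobenius_of_frobeniusQuadratic hp𝒪 mem_primeFactors_self
    (I.rep_frobeniusQuadraticOutside 𝒪 hp𝒪 a K hrank)
    (I.rep_c0_not_isScalarEnd 𝒪 hp𝒪 a K hrank hplus hminus) hq hqT hA hσ
  rw [natSys_prime 𝒪 a hq] at h
  exact h

end StageIData

end Fermat.Agent.GR
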