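/-
STAGE (I), lead: **S30 from `StageIData`** (finding 228): uses helper2's multiplicity one over
fields, occurrence of characters of the Hecke algebra, integrality and descent.
-/
import Fermat.Agent.GR.TOP_lead_Rep
import Fermat.Agent.GR.PADICALG_lead
import Fermat.Agent.GR.MULT1_helper2_Occur
import Fermat.Agent.CFT.Local.IntClosure
import Fermat.Prelude.Def_CuspForm_HeckeAlgebra

set_option autoImplicit false
set_option linter.unusedSectionVars false
set_option linter.unusedVariables false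
set_option linter.style.haveILetI false

namespace Fermat.Agent.GR

open CongruenceSubgroup ModularCurve ModularCurve.Period Polynomial IsLocalRing

open scoped MatrixGroups

local notation "Ω" => AlgebraicClosure ℚ
local notation "GQ" => (AlgebraicClosure ℚ ≃ₐ[ℚ] AlgebraicClosure ℚ)

section Parts

variable {N : ℕ} [NeZero N]

/-- nonzero elements of the `±`-parts from multiplicity one -/
theorem exists_plus_minus_of_occ (F : Type) [Field F] [CharZero F]
    (a : Nat.Primes → F) (h : eigenPar N F a ≠ ⊥) :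
    (∃ e : Additive (Gamma0 N) →+ F, e ∈ eigenPar N F a ∧ e ≠ 0 ∧ charInvolution N F F e = e) ∧
    (∃ e : Additive (Gamma0 N) →+ F, e ∈ eigenPar N F a ∧ e ≠ 0 ∧
      charInvolution N F F e = -e) := by
  obtain ⟨h1, h2, _⟩ := mult1_field h
  constructor
  · have hpos : 0 < Module.finrank F ↥(eigenParPlus N F a) := by rw [h1]; exact one_pos
    haveI := Module.nontrivial_of_finrank_pos hpos
    obtain ⟨e, he⟩ := exists_ne (0 : ↥(eigenParPlus N F a))
    have hmem := mem_eigenParPlus.1 e.2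
    exact ⟨e.1, hmem.1, fun h0 => he (Subtype.ext h0), hmem.2⟩
  · have hpos : 0 < Module.finrank F ↥(eigenParMinus N F a) := by rw [h2]; exact one_pos
    haveI := Module.nontrivial_of_finrank_pos hpos
    obtain ⟨e, he⟩ := exists_ne (0 : ↥(eigenParMinus N F a))
    have hmem := mem_eigenParMinus.1 e.2
    exact ⟨e.1, hmem.1, fun h0 => he (Subtype.ext h0), hmem.2⟩

/-- integrality over `ℤ` (for the canonical `ℤ`-algebra structure) implies integrality over every
base ring -/
theorem isIntegral_of_isIntegral_int {R A : Type*} [CommRing R] [CommRing A] [Algebra R A] {x : A}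
    (h : @IsIntegral ℤ A _ _ (Ring.toIntAlgebra A) x) : IsIntegral R x := by
  obtain ⟨q, hq, hq0⟩ := h
  refine ⟨q.map (Int.castRingHom R), hq.map _, ?_⟩
  rw [Polynomial.eval₂_map]
  have : (algebraMap R A).comp (Int.castRingHom R) =
      @algebraMap ℤ A _ _ (Ring.toIntAlgebra A) := RingHom.ext_int _ _
  rw [this]
  exact hq0

/-- (DESC) occurrence descends to subfields containing the eigenvalues (and ascends) -/
theorem eigenPar_ne_bot_map_iff (K F : Type) [Field K] [Field F] [CharZero K] [Algebra K F]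
    (a : Nat.Primes → K) :
    eigenPar N F (fun ℓ => algebraMap K F (a ℓ)) ≠ ⊥ ↔ eigenPar N K a ≠ ⊥ := by
  haveI : CharZero F := charZero_of_injective_algebraMap (algebraMap K F).injective
  have h := finrank_eigenPar_map (N := N) K F a
  rw [← Submodule.one_le_finrank_iff, ← Submodule.one_le_finrank_iff, h]

end Parts

section Main

variable {N : ℕ} [NeZero N] {p : ℕ} [hp : Fact p.Prime]

/-- the core: a complete DVR `B` with fraction field `L`, a system `a : Nat.Primes → B` occurring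
over `L` ⇒ the conclusions of S30 for `B`. -/
theorem exists_rep_of_system (I : StageIData N p)
    (B : Type) [CommRing B] [IsDomain B] [IsDiscreteValuationRing B] [CharZero B]
    [IsAdicComplete (maximalIdeal B) B] (hpB : (p : B) ∈ maximalIdeal B)
    (L : Type) [Field L] [Algebra B L] [IsFractionRing B L]
    (a : Nat.Primes → B) (hocc : eigenPar N L (mapSys B L a) ≠ ⊥) :
    ∃ ρ : GaloisRepAdic B,
      (∀ (q : ℕ) (hq : q.Prime), ¬ q ∣ N * p →
        ∀ A : ValuationSubring Ω, A.LiesOverPrime q → ∀ σ : GQ, A.IsFrobeniusAt σ q →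
          LinearMap.charpoly (ρ.ρ σ) = X ^ 2 - C (a ⟨q, hq⟩) * X + C (q : B)) ∧
      (∀ q : ℕ, q.Prime → ¬ q ∣ N * p → ρ.IsUnramifiedAt q) ∧ ρ.DetIsCyclotomic p := by
  letI : Algebra ℤ_[p] B := (padicToComplete p (maximalIdeal B) hpB).toAlgebra
  haveI : CharZero L := charZero_of_injective_algebraMap (IsFractionRing.injective B L)
  obtain ⟨_, _, hrank⟩ := mult1_field hocc
  obtain ⟨hplus, hminus⟩ := exists_plus_minus_of_occ L (mapSys B L a) hocc
  refine ⟨I.rep B hpB a L hrank, ?_, ?_, ?_⟩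
  · intro q hq hqNp A hA σ hσ
    exact I.rep_charpoly_frobenius B hpB a L hrank hplus hminus hq hqNp hA hσ
  · intro q hq hqNp
    exact I.rep_isUnramifiedAt B hpB a L hrank hq hqNp
  · exact I.rep_detIsCyclotomic B hpB a L hrank hplus hminus

/-- Stage A: a finite extension `L` of the fraction field of a complete DVR `A` over which a
system of integral eigenvalues occurs ⇒ the S30 data for `B := integralClosure A L`. -/
theorem exists_ext_rep_of_finite (I : StageIData N p)
    (A : Type) [CommRing A] [IsDomain A] [IsDiscreteValuationRing A]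
    [IsAdicComplete (maximalIdeal A) A] [Finite (ResidueField A)] [CharZero A]
    (hpA : (p : A) ∈ maximalIdeal A)
    (K : Type) [Field K] [Algebra A K] [IsFractionRing A K]
    (L : Type) [Field L] [Algebra K L] [FiniteDimensional K L] [Algebra A L] [IsScalarTower A K L]
    (aL : Nat.Primes → L) (hint : ∀ ℓ, IsIntegral A (aL ℓ)) (hocc : eigenPar N L aL ≠ ⊥) :
    ∃ (B : Type) (_ : CommRing B) (_ : IsDomain B) (_ : IsDiscreteValuationRing B)
      (_ : IsAdicComplete (maximalIdeal B) B) (_ : Finite (ResidueField B)) (_ : CharZero B)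
      (_ : Algebra A B) (_ : Module.Finite A B) (_ : IsLocalHom (algebraMap A B)),
      Function.Injective (algebraMap A B) ∧
      ∃ ρ : GaloisRepAdic B,
        (∀ (q : ℕ) (hq : q.Prime), ¬ q ∣ N * p → ∀ x : A, algebraMap A L x = aL ⟨q, hq⟩ →
          ∀ V : ValuationSubring Ω, V.LiesOverPrime q → ∀ σ : GQ, V.IsFrobeniusAt σ q →
            LinearMap.charpoly (ρ.ρ σ) = X ^ 2 - C (algebraMap A B x) * X + C (q : B)) ∧
        (∀ q : ℕ, q.Prime → ¬ q ∣ N * p → ρ.IsUnramifiedAt q) ∧ ρ.DetIsCyclotomic p := by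
  haveI : CharZero K := charZero_of_injective_algebraMap (IsFractionRing.injective A K)
  haveI : Algebra.IsSeparable K L := Algebra.IsAlgebraic.isSeparable_of_perfectField
  obtain ⟨i1, i2, i3, i4, i5, i6, i7⟩ :=
    Fermat.Agent.CFT.Local.exists_localExt_instances A K L ↥(integralClosure A L)
  haveI := i1
  haveI := i2
  haveI := i3
  haveI := i4
  haveI := i5
  haveI := i6
  haveI hfinres : Finite (ResidueField ↥(integralClosure A L)) := i7 inferInstance
  have hinjL : Function.Injective (algebraMap A L) := by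
    rw [IsScalarTower.algebraMap_eq A K L]
    exact (algebraMap K L).injective.comp (IsFractionRing.injective A K)
  have hinj : Function.Injective (algebraMap A ↥(integralClosure A L)) := by
    intro x y hxy
    apply hinjL
    exact congrArg Subtype.val hxy
  haveI : CharZero ↥(integralClosure A L) := charZero_of_injective_algebraMap hinj
  have hpB : (p : ↥(integralClosure A L)) ∈ maximalIdeal ↥(integralClosure A L) := by
    have h1 : (p : ↥(integralClosure A L)) = algebraMap A ↥(integralClosure A L) (p : A) := by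
      rw [map_natCast]
    rw [h1]
    exact map_nonunit (algebraMap A ↥(integralClosure A L)) _ hpA
  let a'' : Nat.Primes → ↥(integralClosure A L) := fun ℓ => ⟨aL ℓ, hint ℓ⟩
  have hsys : mapSys ↥(integralClosure A L) L a'' = aL := rfl
  obtain ⟨ρ, h1, h2, h3⟩ := exists_rep_of_system I ↥(integralClosure A L) hpB L a''
    (by rw [hsys]; exact hocc)
  refine ⟨↥(integralClosure A L), inferInstance, inferInstance, inferInstance, inferInstance,
    hfinres, inferInstance, inferInstance, inferInstance, inferInstance, hinj, ρ, ?_, h2, h3⟩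
  intro q hq hqNp x hx V hV σ hσ
  rw [h1 q hq hqNp V hV σ hσ]
  have : a'' ⟨q, hq⟩ = algebraMap A ↥(integralClosure A L) x := Subtype.ext hx.symm
  rw [this]

/-- Stage B: **the S30 statement for `(p, N)` from a term of `StageIData N p`.** -/
theorem s30_of_stageIData (I : StageIData N p) (S : Finset ℕ)
    (hpS : p ∈ S) (hNS : ∀ q : ℕ, q.Prime → q ∣ N → q ∈ S)
    (𝒪' : Type) [CommRing 𝒪'] [IsDomain 𝒪'] [IsDiscreteValuationRing 𝒪']
    [IsAdicComplete (IsLocalRing.maximalIdeal 𝒪') 𝒪'] [Finite (IsLocalRing.ResidueField 𝒪')]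
    [CharZero 𝒪'] (hp𝒪' : (p : 𝒪') ∈ IsLocalRing.maximalIdeal 𝒪')
    (χ : CuspForm.heckeAlgebra N 2 (↑S : Set ℕ) →+* 𝒪') :
    ∃ (𝒪'' : Type) (_ : CommRing 𝒪'') (_ : IsDomain 𝒪'') (_ : IsDiscreteValuationRing 𝒪'')
      (_ : IsAdicComplete (IsLocalRing.maximalIdeal 𝒪'') 𝒪'')
      (_ : Finite (IsLocalRing.ResidueField 𝒪'')) (_ : CharZero 𝒪'')
      (_ : Algebra 𝒪' 𝒪'') (_ : Module.Finite 𝒪' 𝒪'') (_ : IsLocalHom (algebraMap 𝒪' 𝒪'')),
    Function.Injective (algebraMap 𝒪' 𝒪'') ∧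
    ∃ ρ : GaloisRepAdic 𝒪'',
      (∀ (ℓ : ℕ) (hℓ : ℓ.Prime) (hℓN : ¬ ℓ ∣ N) (hℓS : ℓ ∉ (↑S : Set ℕ)),
        ∀ A : ValuationSubring (AlgebraicClosure ℚ), A.LiesOverPrime ℓ →
          ∀ σ : AlgebraicClosure ℚ ≃ₐ[ℚ] AlgebraicClosure ℚ, A.IsFrobeniusAt σ ℓ →
            LinearMap.charpoly (ρ.ρ σ) =
              X ^ 2 - C (algebraMap 𝒪' 𝒪'' (χ (CuspForm.heckeAlgebra.T hℓ hℓN hℓS))) * X
                + C ((ℓ : 𝒪''))) ∧
      (∀ q : ℕ, q.Prime → ¬ q ∣ N → q ≠ p → ρ.IsUnramifiedAt q) := by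
  haveI : CharZero (FractionRing 𝒪') :=
    charZero_of_injective_algebraMap (IsFractionRing.injective 𝒪' (FractionRing 𝒪'))
  -- the character over an algebraic closure
  obtain ⟨aF, hoccF, haT, -⟩ := exists_eigenPar_of_character (N := N)
    (F := AlgebraicClosure (FractionRing 𝒪')) (↑S : Set ℕ)
    ((algebraMap 𝒪' (AlgebraicClosure (FractionRing 𝒪'))).comp χ)
  have hint𝒪 : ∀ ℓ, IsIntegral 𝒪' (aF ℓ) := fun ℓ =>
    isIntegral_of_isIntegral_int (isIntegral_of_eigenPar_ne_bot hoccF ℓ)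
  have hintK : ∀ ℓ, IsIntegral (FractionRing 𝒪') (aF ℓ) := fun ℓ =>
    isIntegral_of_isIntegral_int (isIntegral_of_eigenPar_ne_bot hoccF ℓ)
  -- the finite extension generated by the eigenvalues at the primes in `S`
  have hfinset : ({ℓ : Nat.Primes | (ℓ : ℕ) ∈ S}).Finite := by
    refine Set.Finite.of_finite_image (f := fun ℓ : Nat.Primes => (ℓ : ℕ)) ?_
      (fun x _ y _ hxy => Subtype.ext hxy)
    refine S.finite_toSet.subset ?_
    rintro _ ⟨ℓ, hℓ, rfl⟩
    exact hℓ
  haveI : Finite ↑(aF '' {ℓ : Nat.Primes | (ℓ : ℕ) ∈ S}) := (hfinset.image aF).to_subtype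
  haveI hfd : FiniteDimensional (FractionRing 𝒪')
      ↥(IntermediateField.adjoin (FractionRing 𝒪') (aF '' {ℓ : Nat.Primes | (ℓ : ℕ) ∈ S})) :=
    IntermediateField.finiteDimensional_adjoin (by
      rintro _ ⟨ℓ, _, rfl⟩
      exact hintK ℓ)
  haveI : IsScalarTower 𝒪' (FractionRing 𝒪')
      ↥(IntermediateField.adjoin (FractionRing 𝒪') (aF '' {ℓ : Nat.Primes | (ℓ : ℕ) ∈ S})) :=
    IsScalarTower.of_algebraMap_eq fun x => Subtype.ext (by
      show algebraMap 𝒪' (AlgebraicClosure (FractionRing 𝒪')) x = _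
      rw [IsScalarTower.algebraMap_apply 𝒪' (FractionRing 𝒪') (AlgebraicClosure (FractionRing 𝒪'))]
      rfl)
  have hmem : ∀ ℓ : Nat.Primes, aF ℓ ∈
      IntermediateField.adjoin (FractionRing 𝒪') (aF '' {ℓ : Nat.Primes | (ℓ : ℕ) ∈ S}) := by
    intro ℓ
    by_cases hℓS : (ℓ : ℕ) ∈ S
    · exact IntermediateField.subset_adjoin _ _ ⟨ℓ, hℓS, rfl⟩
    · have hℓN : ¬ (ℓ : ℕ) ∣ N := fun h => hℓS (hNS _ ℓ.2 h)
      have h := haT ℓ.1 ℓ.2 hℓN (by simpa using hℓS)
      have h' : aF ℓ = aF ⟨ℓ.1, ℓ.2⟩ := rfl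
      rw [h', h, RingHom.comp_apply,
        IsScalarTower.algebraMap_apply 𝒪' (FractionRing 𝒪') (AlgebraicClosure (FractionRing 𝒪'))]
      exact IntermediateField.algebraMap_mem _ _
  let aL : Nat.Primes →
      ↥(IntermediateField.adjoin (FractionRing 𝒪') (aF '' {ℓ : Nat.Primes | (ℓ : ℕ) ∈ S})) :=
    fun ℓ => ⟨aF ℓ, hmem ℓ⟩
  haveI : IsScalarTower 𝒪'
      ↥(IntermediateField.adjoin (FractionRing 𝒪') (aF '' {ℓ : Nat.Primes | (ℓ : ℕ) ∈ S}))
      (AlgebraicClosure (FractionRing 𝒪')) :=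
    IsScalarTower.of_algebraMap_eq fun x => rfl
  have hintL : ∀ ℓ, IsIntegral 𝒪' (aL ℓ) := by
    intro ℓ
    have h := hint𝒪 ℓ
    have h2 : aF ℓ = algebraMap
      ↥(IntermediateField.adjoin (FractionRing 𝒪') (aF '' {ℓ : Nat.Primes | (ℓ : ℕ) ∈ S}))
      (AlgebraicClosure (FractionRing 𝒪')) (aL ℓ) := rfl
    rw [h2] at h
    exact (isIntegral_algebraMap_iff (RingHom.injective _)).1 h
  have hoccL : eigenPar N
      ↥(IntermediateField.adjoin (FractionRing 𝒪') (aF '' {ℓ : Nat.Primes | (ℓ : ℕ) ∈ S})) aL ≠ ⊥ := by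
    rw [← eigenPar_ne_bot_map_iff _ (AlgebraicClosure (FractionRing 𝒪'))]
    exact hoccF
  obtain ⟨B, i1, i2, i3, i4, i5, i6, i7, i8, i9, hinj, ρ, h1, h2, -⟩ :=
    exists_ext_rep_of_finite I 𝒪' hp𝒪' (FractionRing 𝒪')
      ↥(IntermediateField.adjoin (FractionRing 𝒪') (aF '' {ℓ : Nat.Primes | (ℓ : ℕ) ∈ S}))
      aL hintL hoccL
  refine ⟨B, i1, i2, i3, i4, i5, i6, i7, i8, i9, hinj, ρ, ?_, ?_⟩
  · intro ℓ hℓ hℓN hℓS A hA σ hσ
    have hℓp : ℓ ≠ p := fun h => hℓS (by rw [h]; exact hpS)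
    have hℓNp : ¬ ℓ ∣ N * p := by
      intro h
      rcases (Nat.Prime.dvd_mul hℓ).1 h with h | h
      · exact hℓN h
      · exact hℓp ((Nat.prime_dvd_prime_iff_eq hℓ hp.out).1 h)
    refine h1 ℓ hℓ hℓNp (χ (CuspForm.heckeAlgebra.T hℓ hℓN hℓS)) ?_ A hA σ hσ
    apply Subtype.ext
    show algebraMap 𝒪' (AlgebraicClosure (FractionRing 𝒪')) _ = aF ⟨ℓ, hℓ⟩
    rw [haT ℓ hℓ hℓN hℓS]
    rfl
  · intro q hq hqN hqp
    refine h2 q hq ?_
    intro h
    rcases (Nat.Prime.dvd_mul hq).1 h with h | h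
    · exact hqN h
    · exact hqp ((Nat.prime_dvd_prime_iff_eq hq hp.out).1 h)

end Main

end Fermat.Agent.GR
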