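/-
GR (stage I) — helper8 — package K10-ASM, part 1: the bridge between the realisation over a
subfield `K ⊆ ℂ` and the realisation over `ℂ` along the coefficientwise base change `bcHom`.
-/
import Mathlib
import Fermat.Agent.X0N.Mer_helper6_Degree
import Fermat.Agent.JA.BC_helper9_Main

set_option autoImplicit false
set_option linter.style.haveILetI false
set_option linter.unusedSectionVars false

open UpperHalfPlane hiding I
open Complex ModularCurve AlgebraicCurve
open scoped MatrixGroups

namespace Fermat.Agent.GR

open Fermat.Agent.X0N Fermat.Agent.JA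

section Bridge

variable {K : Type*} [Field K] [Algebra ℚ K] [Algebra K ℂ] [IsScalarTower ℚ K ℂ]
  (N : ℕ) [NeZero N]

/-- **bridge**: the realisation over `K ⊆ ℂ` is the realisation over `ℂ` of the coefficientwise
base change. -/
theorem realN_eq_realNC_bcHom (f : ↥(laurentBaseChange K (modularFunctionFieldFull N))) :
    realN (algebraMap K ℂ) N f = realNC N (bcHom (L := ℂ) (modularFunctionFieldFull N) f) := by
  induction f using modularFunctionField_induction with
  | hconst c =>
    rw [realN_algebraMap, bcHom_algebraMap, realNC_apply, realN_algebraMap]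
    rfl
  | hgen d hd =>
    rw [realN_jdBar, realNC_apply]
    have h1 : bcHom (L := ℂ) (modularFunctionFieldFull N) (jdBar (k := K) N hd) =
        jdBar (k := ℂ) N hd := by
      apply Subtype.ext
      rw [coe_bcHom]
      exact iota_coeffEmb _
    rw [h1, realN_jdBar]
  | hadd x y h1 h2 => rw [map_add, map_add, map_add, h1, h2]
  | hmul x y h1 h2 => rw [map_mul, map_mul, map_mul, h1, h2]
  | hinv x h1 => rw [map_inv₀, map_inv₀, map_inv₀, h1]

end Bridge

end Fermat.Agent.GR
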