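/-
GR (stage I) — helper8 — package K3 INV, part 2: finiteness of the torsion of `Pic⁰(F_ℂ)`,
from the injectivity of the Kummer map and the finite generation of `Γ₀(N)`.
-/
import Mathlib
import Fermat.Agent.GR.INV_helper8_Main
import Fermat.Agent.GR.BETTI_lead_Par

set_option autoImplicit false
set_option linter.style.haveILetI false
set_option linter.unusedSectionVars false

open UpperHalfPlane hiding I
open Complex ModularGroup ModularCurve CongruenceSubgroup AlgebraicCurve ModularForm
open scoped MatrixGroups

namespace Fermat.Agent.GR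

open Fermat.Agent.X0N

/-- homomorphisms from a finitely generated group to a finite abelian group form a finite set. -/
theorem finite_addMonoidHom_of_fg (Γ : Type*) [Group Γ] [Group.FG Γ] (A : Type*) [AddCommGroup A]
    [Finite A] : Finite (Additive Γ →+ A) := by
  obtain ⟨n, g, hg⟩ := exists_fintype_generators (Γ := Γ)
  exact Finite.of_injective _ (evalAt_injective (A := A) g hg)

instance finite_hom_Gamma0_zmod (N : ℕ) [NeZero N] (n : ℕ) [NeZero n] :
    Finite (Additive ↥(Gamma0 N) →+ ZMod n) :=
  finite_addMonoidHom_of_fg _ _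

/-- **the `n`-torsion of `Pic⁰(F_ℂ)` is finite** (`n ≠ 0`). -/
instance finite_torsion_pic0C (N : ℕ) [NeZero N] (n : ℕ) [NeZero n] :
    Finite ↥(Pic0.torsion ℂ ↥(laurentBaseChange ℂ (modularFunctionFieldFull N)) n) :=
  Finite.of_injective _ (kappa_injective (N := N) (n := n))

theorem finite_torsion_pic0C_of_ne_zero (N : ℕ) [NeZero N] {n : ℕ} (hn : n ≠ 0) :
    Finite ↥(Pic0.torsion ℂ ↥(laurentBaseChange ℂ (modularFunctionFieldFull N)) n) :=
  haveI : NeZero n := ⟨hn⟩
  inferInstance

end Fermat.Agent.GR
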