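/-
GR (stage I) — helper8 — package K10-ASM, part 2: the Kummer maps `kap k` on the `p^k`-torsion of
`J₀(N)(ℚ̄)` obtained by transporting `kappa N (p^k)` along a descent datum (K5), and the clauses
(inj), (par), (compat), (sur) of `KapData`; the description of `kap` by Kummer roots of functions
over `ℚ̄`.
-/
import Mathlib
import Fermat.Agent.GR.INV_helper8_Finite
import Fermat.Agent.GR.ASM_helper8_Bridge
import Fermat.Agent.GR.TATE_lead_Seq

set_option autoImplicit false
set_option linter.style.haveILetI false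
set_option linter.unusedSectionVars false

open UpperHalfPlane hiding I
open Complex ModularGroup ModularCurve CongruenceSubgroup AlgebraicCurve ModularCurve.Period
open scoped MatrixGroups

namespace Fermat.Agent.GR

open Fermat.Agent.X0N Fermat.Agent.JA

local notation "Ω" => AlgebraicClosure ℚ

/-- the `ℂ`-algebra structure on `ℂ` over `ℚ̄` given by the Prelude's `complexEmbedding`. -/
@[reducible] noncomputable def algebraQbarComplex : Algebra Ω ℂ :=
  complexEmbedding.toRingHom.toAlgebra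

attribute [local instance] algebraQbarComplex

theorem isScalarTower_rat_qbar_complex : IsScalarTower ℚ Ω ℂ :=
  IsScalarTower.of_algebraMap_eq' (Subsingleton.elim _ _)

attribute [local instance] isScalarTower_rat_qbar_complex

theorem algebraMap_qbar_complex (a : Ω) : algebraMap Ω ℂ a = complexEmbedding a := rfl

/-! ### generalities on torsion classes -/

section General

variable {K F : Type*} [Field K] [Field F] [Algebra K F]

/-- a degree-zero divisor whose class is killed by `n` is `n`-divisible up to a principal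
divisor. -/
theorem exists_fun_of_nsmul_mk_eq_zero (n : ℕ)
    (D : ↥(Divisor.degZero (K := K) (F := F))) (h : n • Pic0.mk D = 0) :
    ∃ f : F, f ≠ 0 ∧ ∀ v : Place K F, (n : ℤ) * (D : Divisor K F) v = v.ord f := by
  have h1 : Pic0.mk (n • D) = 0 := h
  have h2 : (n • D) ∈ (Divisor.principal (K := K) (F := F)).addSubgroupOf Divisor.degZero :=
    (QuotientAddGroup.eq_zero_iff _).mp h1
  rw [AddSubgroup.mem_addSubgroupOf] at h2
  obtain ⟨f, hf, hfD⟩ := h2
  refine ⟨f, hf, fun v => ?_⟩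
  rw [← hfD v]
  simp

/-- conversely. -/
theorem nsmul_mk_eq_zero_of_fun (n : ℕ)
    (D : ↥(Divisor.degZero (K := K) (F := F))) (f : F) (hf : f ≠ 0)
    (hD : ∀ v : Place K F, (n : ℤ) * (D : Divisor K F) v = v.ord f) : n • Pic0.mk D = 0 := by
  have h1 : n • Pic0.mk D = Pic0.mk (n • D) := rfl
  rw [h1, Pic0.mk, QuotientAddGroup.eq_zero_iff, AddSubgroup.mem_addSubgroupOf]
  refine ⟨f, hf, fun v => ?_⟩
  rw [← hD v]
  simp

end General

/-- existence of an `n`-th root of the realisation of a function with `n`-divisible divisor. -/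
theorem exists_root_realNC {N : ℕ} [NeZero N] {n : ℕ} [NeZero n]
    (D : Divisor ℂ ↥(laurentBaseChange ℂ (modularFunctionFieldFull N)))
    (f : ↥(laurentBaseChange ℂ (modularFunctionFieldFull N))) (hf : f ≠ 0)
    (hD : ∀ v : Place ℂ ↥(laurentBaseChange ℂ (modularFunctionFieldFull N)),
      (n : ℤ) * D v = v.ord f) : ∃ u : MerH, u ^ n = realNC N f := by
  have hdiv : ∀ τ : ℍ, (n : ℤ) ∣ MerH.ordAt τ (realNC N f) := by
    intro τ
    exact char_dvd_ordAt_realN (RingHom.id ℂ) N τ (jFun τ) rfl (n : ℤ) hf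
      (fun v => ⟨D v, (hD v).symm⟩)
  exact exists_root_merH n (NeZero.ne n) (realNC N f) (realNC_ne_zero hf) hdiv

/-! ### the descent datum (interface of K5) -/

/-- **the interface of K5 DESC**: an additive map `J₀(N)(ℚ̄) → Pic⁰(F_ℂ)`, injective, surjective on
torsion, compatible with divisors of functions, and natural for the Galois actions. -/
structure DescData (N : ℕ) [NeZero N] where
  /-- the base change map -/
  bc : JZero N →+ Pic0 ℂ ↥(laurentBaseChange ℂ (modularFunctionFieldFull N))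
  inj : Function.Injective bc
  sur : ∀ n : ℕ, n ≠ 0 →
    ∀ c ∈ Pic0.torsion ℂ ↥(laurentBaseChange ℂ (modularFunctionFieldFull N)) n,
      ∃ c₀ : JZero N, bc c₀ = c
  rep : ∀ (n : ℕ) (D : ↥(Divisor.degZero (K := Ω) (F := ↥(modularFunctionFieldBar N))))
    (f : ↥(modularFunctionFieldBar N)), f ≠ 0 →
    (∀ P : Place Ω ↥(modularFunctionFieldBar N), (n : ℤ) * (D : Divisor Ω _) P = P.ord f) →
    ∃ D' : ↥(Divisor.degZero (K := ℂ)
        (F := ↥(laurentBaseChange ℂ (modularFunctionFieldFull N)))),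
      bc (Pic0.mk D) = Pic0.mk D' ∧
      ∀ Q : Place ℂ ↥(laurentBaseChange ℂ (modularFunctionFieldFull N)),
        (n : ℤ) * (D' : Divisor ℂ _) Q = Q.ord (bcHom (L := ℂ) (modularFunctionFieldFull N) f)
  gal : ∀ (τ : Ω ≃ₐ[ℚ] Ω) (σ : ℂ ≃ₐ[ℚ] ℂ),
    (∀ a : Ω, σ (algebraMap Ω ℂ a) = algebraMap Ω ℂ (τ a)) →
    ∀ x : JZero N, bc (τ • x) = σ • bc x

namespace DescData

variable {N : ℕ} [NeZero N] (B : DescData N)

/-- the restriction of `bc` to `n`-torsion. -/
noncomputable def torsMap (n : ℕ) : ↥(torsionNat (JZero N) n) →+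
    ↥(Pic0.torsion ℂ ↥(laurentBaseChange ℂ (modularFunctionFieldFull N)) n) where
  toFun x := ⟨B.bc x.1, by
    rw [Pic0.mem_torsion, natCast_zsmul, ← map_nsmul, mem_torsionNat.mp x.2, map_zero]⟩
  map_zero' := Subtype.ext (map_zero B.bc)
  map_add' x y := Subtype.ext (map_add B.bc x.1 y.1)

@[simp] theorem coe_torsMap (n : ℕ) (x : ↥(torsionNat (JZero N) n)) :
    ((B.torsMap n x : ↥(Pic0.torsion ℂ ↥(laurentBaseChange ℂ (modularFunctionFieldFull N)) n)) :
      Pic0 ℂ ↥(laurentBaseChange ℂ (modularFunctionFieldFull N))) = B.bc x.1 := rfl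

theorem torsMap_injective (n : ℕ) : Function.Injective (B.torsMap n) := by
  intro x y h
  exact Subtype.ext (B.inj (congrArg Subtype.val h))

theorem torsMap_surjective {n : ℕ} (hn : n ≠ 0) : Function.Surjective (B.torsMap n) := by
  intro c
  obtain ⟨c₀, hc₀⟩ := B.sur n hn c.1 c.2
  have h1 : n • c₀ = 0 := by
    apply B.inj
    rw [map_nsmul, hc₀, map_zero, ← natCast_zsmul]
    exact Pic0.mem_torsion.mp c.2
  exact ⟨⟨c₀, h1⟩, Subtype.ext hc₀⟩

/-- **the Kummer map on the `n`-torsion of `J₀(N)(ℚ̄)`.** -/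
noncomputable def kapOf (n : ℕ) [NeZero n] :
    ↥(torsionNat (JZero N) n) →+ (Additive ↥(Gamma0 N) →+ ZMod n) :=
  (kappa N n).comp (B.torsMap n)

theorem kapOf_apply (n : ℕ) [NeZero n] (x : ↥(torsionNat (JZero N) n)) :
    B.kapOf n x = kappa N n (B.torsMap n x) := rfl

/-- (inj) -/
theorem kapOf_injective (n : ℕ) [NeZero n] : Function.Injective (B.kapOf n) :=
  kappa_injective.comp (B.torsMap_injective n)

/-- (par) -/
theorem kapOf_mem_parabolicHoms (n : ℕ) [NeZero n] (x : ↥(torsionNat (JZero N) n)) :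
    B.kapOf n x ∈ parabolicHoms ℤ (Gamma0 N) (ZMod n) :=
  kappa_mem_parabolicHoms _

/-- (compat) -/
theorem kapOf_compat (p : ℕ) [Fact p.Prime] (k : ℕ)
    (x : ↥(torsionNat (JZero N) (p ^ (k + 1)))) :
    B.kapOf (p ^ k) (pMul (JZero N) p k x) =
      (redSucc p k).toAddMonoidHom.comp (B.kapOf (p ^ (k + 1)) x) := by
  rw [kapOf_apply, kapOf_apply]
  refine kappa_eq_castHom_comp (m := p ^ (k + 1)) (n := p ^ k) (d := p) (pow_succ p k)
    (B.torsMap _ x) (B.torsMap _ (pMul (JZero N) p k x)) ?_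
  rw [coe_torsMap, coe_torsMap, pMul_coe, map_nsmul, natCast_zsmul]

/-- (sur), given the surjectivity of `kappa` onto the reductions (K4). -/
theorem kapOf_sur (p : ℕ) [Fact p.Prime]
    (hK4 : ∀ (k : ℕ) (ψ : ↥(parabolicHoms ℤ_[p] (Gamma0 N) ℤ_[p])),
      ∃ y : ↥(Pic0.torsion ℂ ↥(laurentBaseChange ℂ (modularFunctionFieldFull N)) (p ^ k)),
        kappa N (p ^ k) y = (PadicInt.toZModPow k).toAddMonoidHom.comp ψ.1)
    (k : ℕ) (ψ : ↥(parabolicHoms ℤ_[p] (Gamma0 N) ℤ_[p])) :
    ∃ x, B.kapOf (p ^ k) x = (PadicInt.toZModPow k).toAddMonoidHom.comp ψ.1 := by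
  obtain ⟨y, hy⟩ := hK4 k ψ
  obtain ⟨x, rfl⟩ := B.torsMap_surjective (NeZero.ne (p ^ k)) y
  exact ⟨x, hy⟩

/-- **the `KapData` of a descent datum**, given (sur) for `kappa`. -/
noncomputable def kapData (p : ℕ) [Fact p.Prime]
    (hK4 : ∀ (k : ℕ) (ψ : ↥(parabolicHoms ℤ_[p] (Gamma0 N) ℤ_[p])),
      ∃ y : ↥(Pic0.torsion ℂ ↥(laurentBaseChange ℂ (modularFunctionFieldFull N)) (p ^ k)),
        kappa N (p ^ k) y = (PadicInt.toZModPow k).toAddMonoidHom.comp ψ.1) :
    KapData (JZero N) (Gamma0 N) p where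
  kap k := B.kapOf (p ^ k)
  inj k := B.kapOf_injective (p ^ k)
  par k x := B.kapOf_mem_parabolicHoms (p ^ k) x
  sur k ψ := B.kapOf_sur p hK4 k ψ
  compat k x := B.kapOf_compat p k x

/-! ### `kap` in terms of Kummer roots of functions over `ℚ̄` -/

/-- **`kap` of the class of `D` with `n D = div f` is the Kummer character of any `n`-th root of
the realisation of `f`.** -/
theorem kapOf_eq_kummerChar (n : ℕ) [NeZero n]
    (D : ↥(Divisor.degZero (K := Ω) (F := ↥(modularFunctionFieldBar N))))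
    (f : ↥(modularFunctionFieldBar N)) (hf : f ≠ 0)
    (hD : ∀ P : Place Ω ↥(modularFunctionFieldBar N), (n : ℤ) * (D : Divisor Ω _) P = P.ord f)
    (x : ↥(torsionNat (JZero N) n)) (hx : (x : JZero N) = Pic0.mk D)
    {u : MerH} (hu : u ^ n = realN (algebraMap Ω ℂ) N f) :
    B.kapOf n x = kummerChar (Gamma0 N) n u := by
  obtain ⟨D', hbc, hD'⟩ := B.rep n D f hf hD
  have hf' : bcHom (L := ℂ) (modularFunctionFieldFull N) f ≠ 0 := by
    rw [Ne, map_eq_zero_iff _ (bcHom (L := ℂ) (modularFunctionFieldFull N)).injective]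
    exact hf
  have hroot : IsKummerRoot N n (D' : Divisor ℂ _) u :=
    ⟨bcHom (L := ℂ) (modularFunctionFieldFull N) f, hf', hD', by
      rw [hu, realN_eq_realNC_bcHom]⟩
  rw [kapOf_apply]
  refine kappa_eq_kummerChar _ D' ?_ hroot
  rw [coe_torsMap, hx, hbc]

/-- every torsion point has a representative `D` with `n D = div f` and a Kummer root. -/
theorem exists_rep_root (n : ℕ) [NeZero n] (x : ↥(torsionNat (JZero N) n)) :
    ∃ (D : ↥(Divisor.degZero (K := Ω) (F := ↥(modularFunctionFieldBar N))))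
      (f : ↥(modularFunctionFieldBar N)) (u : MerH), f ≠ 0 ∧
      (∀ P : Place Ω ↥(modularFunctionFieldBar N), (n : ℤ) * (D : Divisor Ω _) P = P.ord f) ∧
      (x : JZero N) = Pic0.mk D ∧ u ^ n = realN (algebraMap Ω ℂ) N f ∧
      IsKummerElt (Gamma0 N) n u ∧ B.kapOf n x = kummerChar (Gamma0 N) n u := by
  obtain ⟨D, hD⟩ := Pic0.mk_surjective (x : JZero N)
  have h0 : n • Pic0.mk D = 0 := by
    rw [hD]
    exact mem_torsionNat.mp x.2
  obtain ⟨f, hf, hfD⟩ := exists_fun_of_nsmul_mk_eq_zero n D h0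
  obtain ⟨D', hbc, hD'⟩ := B.rep n D f hf hfD
  have hf' : bcHom (L := ℂ) (modularFunctionFieldFull N) f ≠ 0 := by
    rw [Ne, map_eq_zero_iff _ (bcHom (L := ℂ) (modularFunctionFieldFull N)).injective]
    exact hf
  obtain ⟨u, hu⟩ := exists_root_realNC (n := n) (D' : Divisor ℂ _) _ hf' hD'
  have hun : u ^ n = realN (algebraMap Ω ℂ) N f := by
    rw [hu, realN_eq_realNC_bcHom]
  have hroot : IsKummerRoot N n (D' : Divisor ℂ _) u :=
    ⟨bcHom (L := ℂ) (modularFunctionFieldFull N) f, hf', hD', hu⟩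
  exact ⟨D, f, u, hf, hfD, hD.symm, hun, hroot.isKummerElt,
    B.kapOf_eq_kummerChar n D f hf hfD x hD.symm hun⟩

end DescData

end Fermat.Agent.GR
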