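/-
Stage (I), package K6(a) (helper4), part 1: **transport of correspondences along semilinear
automorphisms** (abstract).

`g` a semilinear automorphism of `F`, `g'` one of `F'`, two pairs of embeddings
`φ₁ ψ₁`, `φ₂ ψ₂ : F →ₐ[K] F'` with `g' • φ₁ x = φ₂ (g • x)` and `g' • ψ₁ x = ψ₂ (g • x)`.  Then
(all places of `F'` of degree one)
`correspondence φ₂ ψ₂ (g • D) = g • correspondence φ₁ ψ₁ D`.
Special cases: Galois equivariance of a correspondence (`φ₁ = φ₂`, `ψ₁ = ψ₂`) and invariance under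
an automorphism of the upper field (`g = 1`).
-/
import Mathlib
import Fermat.Agent.JA.ES_helper4_Main

set_option autoImplicit false
set_option linter.unusedSectionVars false
set_option linter.style.haveILetI false

open AlgebraicCurve

namespace Fermat.Agent.GR

open Fermat.Agent.JA

section Transport

variable {K F F' : Type*} [Field K] [Field F] [Field F'] [Algebra K F] [Algebra K F']

/-- `g, g'` transport the embedding `φ₁` to `φ₂`. -/
def Transports (g : SemilinearAut K F) (g' : SemilinearAut K F') (φ₁ φ₂ : F →ₐ[K] F') : Prop :=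
  ∀ x : F, g' • φ₁ x = φ₂ (g • x)

variable {g : SemilinearAut K F} {g' : SemilinearAut K F'} {φ₁ φ₂ ψ₁ ψ₂ : F →ₐ[K] F'}

theorem Transports.inv_apply (h : Transports g g' φ₁ φ₂) (x : F) :
    g'⁻¹ • φ₂ x = φ₁ (g⁻¹ • x) := by
  have hx := h (g⁻¹ • x)
  rw [smul_inv_smul] at hx
  rw [← hx, inv_smul_smul]

/-- restriction of places commutes with transport. -/
theorem Transports.restrictAlong_smul (h : Transports g g' φ₁ φ₂)
    (hφ₁ : φ₁.toRingHom.IsIntegral) (hφ₂ : φ₂.toRingHom.IsIntegral) (W : Place K F') :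
    (g' • W).restrictAlong φ₂ hφ₂ = g • W.restrictAlong φ₁ hφ₁ := by
  ext f
  show φ₂ f ∈ (g' • W).toValuationSubring ↔ f ∈ (g • W.restrictAlong φ₁ hφ₁).toValuationSubring
  rw [SemilinearAut.smul_toValuationSubring, SemilinearAut.smul_toValuationSubring,
    ValuationSubring.mem_pointwise_smul_iff_inv_smul_mem,
    ValuationSubring.mem_pointwise_smul_iff_inv_smul_mem, h.inv_apply]
  rfl

/-- ramification indices are invariant under transport. -/
theorem Transports.ramificationIndexAlong_smul (h : Transports g g' φ₁ φ₂)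
    (hφ₁ : φ₁.toRingHom.IsIntegral) (hφ₂ : φ₂.toRingHom.IsIntegral) (W : Place K F') :
    (g' • W).ramificationIndexAlong φ₂ = W.ramificationIndexAlong φ₁ := by
  obtain ⟨t, ht⟩ := IsDiscreteValuationRing.exists_irreducible
    (W.restrictAlong φ₁ hφ₁).toValuationSubring
  have ht1 : (W.restrictAlong φ₁ hφ₁).ord (t : F) = 1 := Place.ord_coe_irreducible _ ht
  have h1 := Place.ord_restrictAlong φ₁ hφ₁ W (t : F)
  have h2 := Place.ord_restrictAlong φ₂ hφ₂ (g' • W) (g • (t : F))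
  rw [h.restrictAlong_smul hφ₁ hφ₂, SemilinearAut.ord_smul, ht1, mul_one, ← h (t : F),
    SemilinearAut.ord_smul, h1, ht1, mul_one] at h2
  exact_mod_cast h2.symm

variable [HasPrincipalDivisors K F']

/-- pullback of divisors commutes with transport. -/
theorem Transports.pullbackAlong_smul (h : Transports g g' φ₁ φ₂)
    (hφ₁ : φ₁.toRingHom.IsIntegral) (hφ₂ : φ₂.toRingHom.IsIntegral) (D : Divisor K F) :
    Divisor.pullbackAlong φ₂ hφ₂ (g • D) = g' • Divisor.pullbackAlong φ₁ hφ₁ D := by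
  ext W
  rw [Divisor.pullbackAlong_apply, SemilinearAut.divisor_smul_apply,
    SemilinearAut.divisor_smul_apply, Divisor.pullbackAlong_apply]
  have e1 : W = g' • (g'⁻¹ • W) := (smul_inv_smul g' W).symm
  have e2 : W.restrictAlong φ₂ hφ₂ = g • (g'⁻¹ • W).restrictAlong φ₁ hφ₁ := by
    conv_lhs => rw [e1]
    exact h.restrictAlong_smul hφ₁ hφ₂ _
  have e3 : W.ramificationIndexAlong φ₂ = (g'⁻¹ • W).ramificationIndexAlong φ₁ := by
    conv_lhs => rw [e1]
    exact h.ramificationIndexAlong_smul hφ₁ hφ₂ _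
  rw [e2, e3, inv_smul_smul]

/-- pushforward of divisors commutes with transport (places upstairs of degree one). -/
theorem Transports.pushforwardAlong_smul (h : Transports g g' ψ₁ ψ₂)
    (hψ₁ : ψ₁.toRingHom.IsIntegral) (hψ₂ : ψ₂.toRingHom.IsIntegral)
    (hdeg' : ∀ W : Place K F', W.deg = 1) (E : Divisor K F') :
    Divisor.pushforwardAlong ψ₂ hψ₂ (g' • E) = g • Divisor.pushforwardAlong ψ₁ hψ₁ E := by
  induction E using Finsupp.induction_linear with
  | zero => simp
  | add D E hD hE => rw [smul_add, map_add, hD, hE, map_add, smul_add]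
  | single W n =>
    rw [SemilinearAut.smul_single, Divisor.pushforwardAlong_single,
      Divisor.pushforwardAlong_single, SemilinearAut.smul_single,
      h.restrictAlong_smul hψ₁ hψ₂, inertiaDegAlong_eq_one ψ₂ hψ₂ _ (hdeg' _),
      inertiaDegAlong_eq_one ψ₁ hψ₁ _ (hdeg' _)]

/-- **transport of a correspondence.** -/
theorem Transports.correspondence_smul (hφ : Transports g g' φ₁ φ₂) (hψ : Transports g g' ψ₁ ψ₂)
    (hφ₁ : φ₁.toRingHom.IsIntegral) (hφ₂ : φ₂.toRingHom.IsIntegral)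
    (hψ₁ : ψ₁.toRingHom.IsIntegral) (hψ₂ : ψ₂.toRingHom.IsIntegral)
    (hdeg' : ∀ W : Place K F', W.deg = 1) (D : Divisor K F) :
    Divisor.correspondence φ₂ ψ₂ hφ₂ hψ₂ (g • D)
      = g • Divisor.correspondence φ₁ ψ₁ hφ₁ hψ₁ D := by
  rw [Divisor.correspondence_apply, Divisor.correspondence_apply,
    hφ.pullbackAlong_smul hφ₁ hφ₂, hψ.pushforwardAlong_smul hψ₁ hψ₂ hdeg']

/-- **transport of a correspondence on `Pic⁰`.** -/
theorem Transports.pic0_correspondence_smul (hφ : Transports g g' φ₁ φ₂)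
    (hψ : Transports g g' ψ₁ ψ₂)
    (hφ₁ : φ₁.toRingHom.IsIntegral) (hφ₂ : φ₂.toRingHom.IsIntegral)
    (hψ₁ : ψ₁.toRingHom.IsIntegral) (hψ₂ : ψ₂.toRingHom.IsIntegral)
    (hFI₁ : FundamentalIdentityAlong K φ₁ hφ₁) (hFI₂ : FundamentalIdentityAlong K φ₂ hφ₂)
    (hfin₁ : FiniteAlong K ψ₁) (hfin₂ : FiniteAlong K ψ₂)
    (hN₁ : NormFormulaAlong K ψ₁ hfin₁) (hN₂ : NormFormulaAlong K ψ₂ hfin₂)
    (hdeg' : ∀ W : Place K F', W.deg = 1) (x : Pic0 K F) :
    Pic0.correspondence φ₂ ψ₂ hφ₂ hψ₂ hFI₂ hfin₂ hN₂ (g • x)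
      = g • Pic0.correspondence φ₁ ψ₁ hφ₁ hψ₁ hFI₁ hfin₁ hN₁ x := by
  obtain ⟨D, rfl⟩ := Pic0.mk_surjective x
  rw [SemilinearAut.pic0_smul_mk, Pic0.correspondence_mk, Pic0.correspondence_mk,
    SemilinearAut.pic0_smul_mk]
  refine congrArg Pic0.mk (Subtype.ext ?_)
  exact hφ.correspondence_smul hψ hφ₁ hφ₂ hψ₁ hψ₂ hdeg' (D : Divisor K F)

end Transport

end Fermat.Agent.GR
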