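/-
Stage (I), package K6(a) (helper4), part 2: **the swapped Hecke correspondence
`T'_ℓ = β_* α^*`** on `Pic⁰` of the modular function field, for every `ℓ ≥ 1` (no condition
`ℓ ∤ N`), over any algebraically closed field of characteristic zero with `j`-coordinates.

* `heckeSwapOf L N ℓ c c'`, `heckeSwapDivOf`, `heckeSwapBar N ℓ` (over `ℚ̄`), `heckeSwapC N ℓ`
  (over `ℂ`);
* `heckeSwapDivOf_apply_of_ord` : `T'_ℓ (div f) = div (N_β (α f))`, and the `n`-divisible form
  `heckeSwapDivOf_nsmul_apply_of_ord` : `n • D = div f → n • T'_ℓ D = div (N_β (α f))`;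
* Galois equivariance `heckeSwapBar_galois_smul`;
* `heckeSwapBar_eq_heckeOperatorBar` : `T'_ℓ = T_ℓ` for a prime `ℓ ∤ N` (Atkin–Lehner), generic
  form `heckeSwapOf_eq_heckeOperatorAlong`.
-/
import Mathlib
import Fermat.Agent.GR.TSWAP_helper4_Transport
import Fermat.Agent.JA.H0_helper7_Main
import Fermat.Agent.JA.ES1_helper2_Bar
import Fermat.Prelude.Def_GaloisRep_ComplexConjugation
import Fermat.Agent.X0N.S20_helper5_Coord
import Fermat.Prelude.Def_ModularCurve_HeckeModule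

set_option autoImplicit false
set_option linter.unusedSectionVars false
set_option linter.style.haveILetI false

open AlgebraicCurve HahnSeries IntermediateField

namespace Fermat.Agent.GR

open ModularCurve Fermat.Agent.JA Fermat.Agent.FF Fermat.Agent.X0N

section Generic

variable (L : Type*) [Field L] [Algebra ℚ L] [CharZero L] [IsAlgClosed L]
variable (N ℓ : ℕ) [NeZero N] [NeZero ℓ]

theorem heckeAlphaBarIntegral_of_coord
    (c : Coord L ↥(laurentBaseChange L (modularFunctionFieldFull N)))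
    (c' : Coord L ↥(laurentBaseChange L (modularFunctionFieldFull (N * ℓ)))) :
    HeckeAlphaBarIntegral L N ℓ :=
  isIntegral_of_finiteAlong _ (finiteAlong_of_coord c c' (heckeAlphaBar L N ℓ))

theorem heckeBetaBarIntegral_of_coord
    (c : Coord L ↥(laurentBaseChange L (modularFunctionFieldFull N)))
    (c' : Coord L ↥(laurentBaseChange L (modularFunctionFieldFull (N * ℓ)))) :
    HeckeBetaBarIntegral L N ℓ :=
  isIntegral_of_finiteAlong _ (finiteAlong_of_coord c c' (heckeBetaBar L N ℓ))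

/-- **`T'_ℓ = β_* α^*` on divisors.** -/
noncomputable def heckeSwapDivOf
    (c : Coord L ↥(laurentBaseChange L (modularFunctionFieldFull N)))
    (c' : Coord L ↥(laurentBaseChange L (modularFunctionFieldFull (N * ℓ)))) :
    Divisor L ↥(laurentBaseChange L (modularFunctionFieldFull N)) →+
      Divisor L ↥(laurentBaseChange L (modularFunctionFieldFull N)) :=
  haveI := c'.hasPrincipalDivisors
  heckeDivBarTranspose (heckeAlphaBarIntegral_of_coord L N ℓ c c')
    (heckeBetaBarIntegral_of_coord L N ℓ c c')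

/-- **`T'_ℓ = β_* α^*` on `Pic⁰`.** -/
noncomputable def heckeSwapOf
    (c : Coord L ↥(laurentBaseChange L (modularFunctionFieldFull N)))
    (c' : Coord L ↥(laurentBaseChange L (modularFunctionFieldFull (N * ℓ)))) :
    Pic0 L ↥(laurentBaseChange L (modularFunctionFieldFull N)) →+
      Pic0 L ↥(laurentBaseChange L (modularFunctionFieldFull N)) :=
  haveI := c'.hasPrincipalDivisors
  heckePic0BarTranspose (heckeAlphaBarIntegral_of_coord L N ℓ c c')
    (heckeBetaBarIntegral_of_coord L N ℓ c c')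
    (fundamentalIdentityAlong_of_coord c c' (heckeAlphaBar L N ℓ)
      (heckeAlphaBarIntegral_of_coord L N ℓ c c'))
    (finiteAlong_of_coord c c' (heckeBetaBar L N ℓ))
    (normFormulaAlong_of_coord c c' (heckeBetaBar L N ℓ)
      (finiteAlong_of_coord c c' (heckeBetaBar L N ℓ)))

theorem heckeSwapDivOf_mem_degZero
    (c : Coord L ↥(laurentBaseChange L (modularFunctionFieldFull N)))
    (c' : Coord L ↥(laurentBaseChange L (modularFunctionFieldFull (N * ℓ))))
    {D : Divisor L ↥(laurentBaseChange L (modularFunctionFieldFull N))}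
    (hD : D ∈ Divisor.degZero (K := L)
      (F := ↥(laurentBaseChange L (modularFunctionFieldFull N)))) :
    heckeSwapDivOf L N ℓ c c' D ∈ Divisor.degZero (K := L)
      (F := ↥(laurentBaseChange L (modularFunctionFieldFull N))) :=
  haveI := c'.hasPrincipalDivisors
  Divisor.correspondence_mem_degZero _ _ _ _
    (fundamentalIdentityAlong_of_coord c c' (heckeAlphaBar L N ℓ)
      (heckeAlphaBarIntegral_of_coord L N ℓ c c')) hD

theorem heckeSwapOf_mk
    (c : Coord L ↥(laurentBaseChange L (modularFunctionFieldFull N)))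
    (c' : Coord L ↥(laurentBaseChange L (modularFunctionFieldFull (N * ℓ))))
    (D : Divisor.degZero (K := L)
      (F := ↥(laurentBaseChange L (modularFunctionFieldFull N)))) :
    heckeSwapOf L N ℓ c c' (Pic0.mk D)
      = Pic0.mk ⟨heckeSwapDivOf L N ℓ c c' (D : Divisor L _),
          heckeSwapDivOf_mem_degZero L N ℓ c c' D.2⟩ :=
  rfl

/-- **`T'_ℓ (div f) = div (N_β (α f))`.** -/
theorem heckeSwapDivOf_apply_of_ord
    (c : Coord L ↥(laurentBaseChange L (modularFunctionFieldFull N)))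
    (c' : Coord L ↥(laurentBaseChange L (modularFunctionFieldFull (N * ℓ))))
    {f : ↥(laurentBaseChange L (modularFunctionFieldFull N))} (hf : f ≠ 0)
    {D : Divisor L ↥(laurentBaseChange L (modularFunctionFieldFull N))}
    (hD : ∀ P, D P = P.ord f)
    (P : Place L ↥(laurentBaseChange L (modularFunctionFieldFull N))) :
    heckeSwapDivOf L N ℓ c c' D P
      = P.ord (normAlong (heckeBetaBar L N ℓ) (heckeAlphaBar L N ℓ f)) := by
  haveI := c'.hasPrincipalDivisors
  have hα : (heckeAlphaBar L N ℓ).toRingHom.IsIntegral :=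
    heckeAlphaBarIntegral_of_coord L N ℓ c c'
  have hβ : (heckeBetaBar L N ℓ).toRingHom.IsIntegral :=
    heckeBetaBarIntegral_of_coord L N ℓ c c'
  have hfin := finiteAlong_of_coord c c' (heckeBetaBar L N ℓ)
  have hN := normFormulaAlong_of_coord c c' (heckeBetaBar L N ℓ) hfin
  -- the pullback is the divisor of `α f`
  have h1 : ∀ W, Divisor.pullbackAlong (heckeAlphaBar L N ℓ) hα D W
      = W.ord (heckeAlphaBar L N ℓ f) := by
    intro W
    rw [Divisor.pullbackAlong_apply, hD, ← Place.ord_restrictAlong]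
  have hαf : heckeAlphaBar L N ℓ f ≠ 0 := (map_ne_zero _).mpr hf
  show Divisor.pushforwardAlong (heckeBetaBar L N ℓ) hβ
    (Divisor.pullbackAlong (heckeAlphaBar L N ℓ) hα D) P = _
  letI := algebraAlong (heckeBetaBar L N ℓ)
  haveI := isScalarTower_along (heckeBetaBar L N ℓ)
  haveI := isIntegral_along (heckeBetaBar L N ℓ) hβ
  haveI : Module.Finite ↥(laurentBaseChange L (modularFunctionFieldFull N))
    ↥(laurentBaseChange L (modularFunctionFieldFull (N * ℓ))) := hfin
  exact hN _ hαf _ h1 P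

/-- the coordinates only enter through proofs: `T'_ℓ` does not depend on them. -/
theorem heckeSwapOf_congr
    (c d : Coord L ↥(laurentBaseChange L (modularFunctionFieldFull N)))
    (c' d' : Coord L ↥(laurentBaseChange L (modularFunctionFieldFull (N * ℓ)))) :
    heckeSwapOf L N ℓ c c' = heckeSwapOf L N ℓ d d' :=
  rfl

theorem heckeSwapDivOf_congr
    (c d : Coord L ↥(laurentBaseChange L (modularFunctionFieldFull N)))
    (c' d' : Coord L ↥(laurentBaseChange L (modularFunctionFieldFull (N * ℓ)))) :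
    heckeSwapDivOf L N ℓ c c' = heckeSwapDivOf L N ℓ d d' :=
  rfl

/-- **`n • D = div f → n • T'_ℓ D = div (N_β (α f))`.** -/
theorem heckeSwapDivOf_nsmul_apply_of_ord
    (c : Coord L ↥(laurentBaseChange L (modularFunctionFieldFull N)))
    (c' : Coord L ↥(laurentBaseChange L (modularFunctionFieldFull (N * ℓ))))
    {n : ℕ} {f : ↥(laurentBaseChange L (modularFunctionFieldFull N))} (hf : f ≠ 0)
    {D : Divisor L ↥(laurentBaseChange L (modularFunctionFieldFull N))}
    (hD : ∀ P, (n : ℤ) * D P = P.ord f)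
    (P : Place L ↥(laurentBaseChange L (modularFunctionFieldFull N))) :
    (n : ℤ) * heckeSwapDivOf L N ℓ c c' D P
      = P.ord (normAlong (heckeBetaBar L N ℓ) (heckeAlphaBar L N ℓ f)) := by
  have h1 : ∀ P, (n • D) P = P.ord f := by
    intro P
    rw [Finsupp.smul_apply, nsmul_eq_mul, hD]
  rw [← heckeSwapDivOf_apply_of_ord L N ℓ c c' hf h1 P, map_nsmul, Finsupp.smul_apply,
    nsmul_eq_mul]

end Generic

section Bar

variable (N ℓ : ℕ) [NeZero N] [NeZero ℓ]

/-- **`T'_ℓ = β_* α^*` on `J₀(N) = Pic⁰` over `ℚ̄`**, for every `ℓ ≥ 1`. -/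
noncomputable def heckeSwapBar : JZero N →+ JZero N :=
  heckeSwapOf (AlgebraicClosure ℚ) N ℓ (jCoordBar N) (jCoordBar (N * ℓ))

/-- **`T'_ℓ = β_* α^*` on divisors over `ℚ̄`.** -/
noncomputable def heckeSwapDivBar :
    Divisor (AlgebraicClosure ℚ) ↥(modularFunctionFieldBar N) →+
      Divisor (AlgebraicClosure ℚ) ↥(modularFunctionFieldBar N) :=
  heckeSwapDivOf (AlgebraicClosure ℚ) N ℓ (jCoordBar N) (jCoordBar (N * ℓ))

/-- **`T'_ℓ = β_* α^*` on `Pic⁰` over `ℂ`.** -/
noncomputable def heckeSwapC :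
    Pic0 ℂ ↥(laurentBaseChange ℂ (modularFunctionFieldFull N)) →+
      Pic0 ℂ ↥(laurentBaseChange ℂ (modularFunctionFieldFull N)) :=
  heckeSwapOf ℂ N ℓ (Dict.jCoordC N) (Dict.jCoordC (N * ℓ))

/-- **`T'_ℓ = β_* α^*` on divisors over `ℂ`.** -/
noncomputable def heckeSwapDivC :
    Divisor ℂ ↥(laurentBaseChange ℂ (modularFunctionFieldFull N)) →+
      Divisor ℂ ↥(laurentBaseChange ℂ (modularFunctionFieldFull N)) :=
  heckeSwapDivOf ℂ N ℓ (Dict.jCoordC N) (Dict.jCoordC (N * ℓ))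

end Bar

section Galois

variable {L : Type*} [Field L] [Algebra ℚ L]
variable (N ℓ : ℕ) [NeZero N] [NeZero ℓ]

/-- the arithmetic Galois action commutes with `α`. -/
theorem transports_arithmeticGalois_alpha (σ : L ≃ₐ[ℚ] L) :
    Transports (arithmeticGalois (modularFunctionFieldFull N) σ)
      (arithmeticGalois (modularFunctionFieldFull (N * ℓ)) σ)
      (heckeAlphaBar L N ℓ) (heckeAlphaBar L N ℓ) := by
  intro x
  apply Subtype.ext
  rw [coe_arithmeticGalois_smul, coe_heckeAlphaBar, coe_heckeAlphaBar, coe_arithmeticGalois_smul]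

/-- the arithmetic Galois action commutes with `β`. -/
theorem transports_arithmeticGalois_beta (σ : L ≃ₐ[ℚ] L) :
    Transports (arithmeticGalois (modularFunctionFieldFull N) σ)
      (arithmeticGalois (modularFunctionFieldFull (N * ℓ)) σ)
      (heckeBetaBar L N ℓ) (heckeBetaBar L N ℓ) := by
  intro x
  apply Subtype.ext
  rw [coe_arithmeticGalois_smul, coe_heckeBetaBar, coe_heckeBetaBar, coe_arithmeticGalois_smul,
    coeffMap_qExpand]

variable [CharZero L] [IsAlgClosed L]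

/-- **Galois equivariance of `T'_ℓ`** (generic form). -/
theorem heckeSwapOf_galois_smul
    (c : Coord L ↥(laurentBaseChange L (modularFunctionFieldFull N)))
    (c' : Coord L ↥(laurentBaseChange L (modularFunctionFieldFull (N * ℓ))))
    (σ : L ≃ₐ[ℚ] L)
    (x : Pic0 L ↥(laurentBaseChange L (modularFunctionFieldFull N))) :
    heckeSwapOf L N ℓ c c' (σ • x) = σ • heckeSwapOf L N ℓ c c' x := by
  haveI := c'.hasPrincipalDivisors
  have hα : (heckeAlphaBar L N ℓ).toRingHom.IsIntegral :=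
    heckeAlphaBarIntegral_of_coord L N ℓ c c'
  have hβ : (heckeBetaBar L N ℓ).toRingHom.IsIntegral :=
    heckeBetaBarIntegral_of_coord L N ℓ c c'
  have hFI : FundamentalIdentityAlong L (heckeAlphaBar L N ℓ) hα :=
    fundamentalIdentityAlong_of_coord c c' (heckeAlphaBar L N ℓ) hα
  have hfin : FiniteAlong L (heckeBetaBar L N ℓ) := finiteAlong_of_coord c c' (heckeBetaBar L N ℓ)
  have hN : NormFormulaAlong L (heckeBetaBar L N ℓ) hfin :=
    normFormulaAlong_of_coord c c' (heckeBetaBar L N ℓ) hfin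
  rw [galois_smul_pic0_def, galois_smul_pic0_def]
  exact (transports_arithmeticGalois_alpha N ℓ σ).pic0_correspondence_smul
    (transports_arithmeticGalois_beta N ℓ σ) hα hα hβ hβ hFI hFI hfin hfin hN hN
    (fun W => c'.deg_eq_one W) x

end Galois

section BarProps

variable (N ℓ : ℕ) [NeZero N] [NeZero ℓ]

/-- **Galois equivariance of `T'_ℓ` on `J₀(N)`.** -/
theorem heckeSwapBar_galois_smul (σ : AlgebraicClosure ℚ ≃ₐ[ℚ] AlgebraicClosure ℚ)
    (x : JZero N) : heckeSwapBar N ℓ (σ • x) = σ • heckeSwapBar N ℓ x :=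
  heckeSwapOf_galois_smul N ℓ _ _ σ x

/-- **`T'_ℓ (div f) = div (N_β (α f))`** over `ℚ̄`. -/
theorem heckeSwapDivBar_apply_of_ord {f : ↥(modularFunctionFieldBar N)} (hf : f ≠ 0)
    {D : Divisor (AlgebraicClosure ℚ) ↥(modularFunctionFieldBar N)}
    (hD : ∀ P, D P = P.ord f)
    (P : Place (AlgebraicClosure ℚ) ↥(modularFunctionFieldBar N)) :
    heckeSwapDivBar N ℓ D P
      = P.ord (normAlong (heckeBetaBar (AlgebraicClosure ℚ) N ℓ)
          (heckeAlphaBar (AlgebraicClosure ℚ) N ℓ f)) :=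
  heckeSwapDivOf_apply_of_ord _ N ℓ _ _ hf hD P

/-- **`T'_ℓ (div f) = div (N_β (α f))`** over `ℂ`. -/
theorem heckeSwapDivC_apply_of_ord
    {f : ↥(laurentBaseChange ℂ (modularFunctionFieldFull N))} (hf : f ≠ 0)
    {D : Divisor ℂ ↥(laurentBaseChange ℂ (modularFunctionFieldFull N))}
    (hD : ∀ P, D P = P.ord f)
    (P : Place ℂ ↥(laurentBaseChange ℂ (modularFunctionFieldFull N))) :
    heckeSwapDivC N ℓ D P
      = P.ord (normAlong (heckeBetaBar ℂ N ℓ) (heckeAlphaBar ℂ N ℓ f)) :=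
  heckeSwapDivOf_apply_of_ord _ N ℓ _ _ hf hD P

theorem heckeSwapDivBar_mem_degZero
    {D : Divisor (AlgebraicClosure ℚ) ↥(modularFunctionFieldBar N)}
    (hD : D ∈ Divisor.degZero (K := AlgebraicClosure ℚ) (F := ↥(modularFunctionFieldBar N))) :
    heckeSwapDivBar N ℓ D
      ∈ Divisor.degZero (K := AlgebraicClosure ℚ) (F := ↥(modularFunctionFieldBar N)) :=
  heckeSwapDivOf_mem_degZero (AlgebraicClosure ℚ) N ℓ (jCoordBar N) (jCoordBar (N * ℓ)) hD

theorem heckeSwapDivC_mem_degZero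
    {D : Divisor ℂ ↥(laurentBaseChange ℂ (modularFunctionFieldFull N))}
    (hD : D ∈ Divisor.degZero (K := ℂ)
      (F := ↥(laurentBaseChange ℂ (modularFunctionFieldFull N)))) :
    heckeSwapDivC N ℓ D ∈ Divisor.degZero (K := ℂ)
      (F := ↥(laurentBaseChange ℂ (modularFunctionFieldFull N))) :=
  heckeSwapDivOf_mem_degZero ℂ N ℓ (Dict.jCoordC N) (Dict.jCoordC (N * ℓ)) hD

/-- `T'_ℓ` on the class of a divisor (over `ℚ̄`). -/
theorem heckeSwapBar_mk (D : Divisor.degZero (K := AlgebraicClosure ℚ)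
    (F := ↥(modularFunctionFieldBar N))) :
    heckeSwapBar N ℓ (Pic0.mk D)
      = Pic0.mk ⟨heckeSwapDivBar N ℓ (D : Divisor (AlgebraicClosure ℚ) _),
          heckeSwapDivBar_mem_degZero N ℓ D.2⟩ :=
  heckeSwapOf_mk (AlgebraicClosure ℚ) N ℓ (jCoordBar N) (jCoordBar (N * ℓ)) D

/-- `T'_ℓ` on the class of a divisor (over `ℂ`). -/
theorem heckeSwapC_mk (D : Divisor.degZero (K := ℂ)
    (F := ↥(laurentBaseChange ℂ (modularFunctionFieldFull N)))) :
    heckeSwapC N ℓ (Pic0.mk D)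
      = Pic0.mk ⟨heckeSwapDivC N ℓ (D : Divisor ℂ _), heckeSwapDivC_mem_degZero N ℓ D.2⟩ :=
  heckeSwapOf_mk ℂ N ℓ (Dict.jCoordC N) (Dict.jCoordC (N * ℓ)) D

/-- **`n • D = div f → n • T'_ℓ D = div (N_β (α f))`** over `ℚ̄`. -/
theorem heckeSwapDivBar_nsmul_apply_of_ord {n : ℕ} {f : ↥(modularFunctionFieldBar N)}
    (hf : f ≠ 0) {D : Divisor (AlgebraicClosure ℚ) ↥(modularFunctionFieldBar N)}
    (hD : ∀ P, (n : ℤ) * D P = P.ord f)
    (P : Place (AlgebraicClosure ℚ) ↥(modularFunctionFieldBar N)) :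
    (n : ℤ) * heckeSwapDivBar N ℓ D P
      = P.ord (normAlong (heckeBetaBar (AlgebraicClosure ℚ) N ℓ)
          (heckeAlphaBar (AlgebraicClosure ℚ) N ℓ f)) :=
  heckeSwapDivOf_nsmul_apply_of_ord _ N ℓ _ _ hf hD P

/-- **`n • D = div f → n • T'_ℓ D = div (N_β (α f))`** over `ℂ`. -/
theorem heckeSwapDivC_nsmul_apply_of_ord {n : ℕ}
    {f : ↥(laurentBaseChange ℂ (modularFunctionFieldFull N))} (hf : f ≠ 0)
    {D : Divisor ℂ ↥(laurentBaseChange ℂ (modularFunctionFieldFull N))}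
    (hD : ∀ P, (n : ℤ) * D P = P.ord f)
    (P : Place ℂ ↥(laurentBaseChange ℂ (modularFunctionFieldFull N))) :
    (n : ℤ) * heckeSwapDivC N ℓ D P
      = P.ord (normAlong (heckeBetaBar ℂ N ℓ) (heckeAlphaBar ℂ N ℓ f)) :=
  heckeSwapDivOf_nsmul_apply_of_ord _ N ℓ _ _ hf hD P

/-- `T'_ℓ` preserves the `n`-torsion of `J₀(N)`. -/
theorem heckeSwapBar_mem_torsionBy (n : ℤ) {x : JZero N}
    (hx : x ∈ Submodule.torsionBy ℤ (JZero N) n) :
    heckeSwapBar N ℓ x ∈ Submodule.torsionBy ℤ (JZero N) n := by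
  rw [Submodule.mem_torsionBy_iff] at hx ⊢
  rw [← map_zsmul, hx, map_zero]

end BarProps

section AtkinLehner

variable {L : Type*} [Field L] [Algebra ℚ L] (ι : L →+* ℂ)
variable {N ℓ : ℕ} [NeZero N] [NeZero ℓ] {x y : ℤ} (h : (ℓ : ℤ) * x + N * y = 1)

/-- the Atkin–Lehner involution `W_ℓ` (prime `ℓ ∤ N`) as an `L`-algebra automorphism of the
function field of `X₀(N ℓ)` over `L ⊆ ℂ`. -/
noncomputable def atkinLehnerAlgEquivOf (hℓ : ℓ.Prime) :
    ↥(laurentBaseChange L (modularFunctionFieldFull (N * ℓ))) ≃ₐ[L]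
      ↥(laurentBaseChange L (modularFunctionFieldFull (N * ℓ))) :=
  AlgEquiv.ofRingEquiv
    (f := RingEquiv.ofBijective (atkinLehnerN ι h hℓ) (atkinLehnerN_bijective ι h hℓ))
    (fun c => atkinLehnerN_algebraMap ι h hℓ c)

theorem atkinLehnerAlgEquivOf_apply (hℓ : ℓ.Prime)
    (z : ↥(laurentBaseChange L (modularFunctionFieldFull (N * ℓ)))) :
    atkinLehnerAlgEquivOf ι h hℓ z = atkinLehnerN ι h hℓ z :=
  rfl

theorem transports_atkinLehner_beta_alpha (hℓ : ℓ.Prime) :
    Transports (1 : SemilinearAut L ↥(laurentBaseChange L (modularFunctionFieldFull N)))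
      (SemilinearAut.ofAlgAut (atkinLehnerAlgEquivOf ι h hℓ))
      (heckeBetaBar L N ℓ) (heckeAlphaBar L N ℓ) := by
  intro z
  rw [one_smul, SemilinearAut.ofAlgAut_smul]
  exact atkinLehnerN_beta ι h hℓ z

theorem transports_atkinLehner_alpha_beta (hℓ : ℓ.Prime) :
    Transports (1 : SemilinearAut L ↥(laurentBaseChange L (modularFunctionFieldFull N)))
      (SemilinearAut.ofAlgAut (atkinLehnerAlgEquivOf ι h hℓ))
      (heckeAlphaBar L N ℓ) (heckeBetaBar L N ℓ) := by
  intro z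
  rw [one_smul, SemilinearAut.ofAlgAut_smul]
  exact atkinLehnerN_alpha ι h hℓ z

variable [CharZero L] [IsAlgClosed L]

include ι in
/-- **`T'_ℓ = T_ℓ` for a prime `ℓ ∤ N`** (Atkin–Lehner symmetry), over any algebraically closed
`L ⊆ ℂ`. -/
theorem heckeSwapOf_eq_heckeOperatorAlong (hℓ : ℓ.Prime) (hℓN : ¬ ℓ ∣ N)
    (c : Coord L ↥(laurentBaseChange L (modularFunctionFieldFull N)))
    (c' : Coord L ↥(laurentBaseChange L (modularFunctionFieldFull (N * ℓ))))
    (z : Pic0 L ↥(laurentBaseChange L (modularFunctionFieldFull N))) :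
    heckeSwapOf L N ℓ c c' z = heckeOperatorAlong L N ℓ z := by
  obtain ⟨x, y, h⟩ := Fermat.Agent.JA.exists_bezout_of_coprime N ℓ
    ((Nat.Prime.coprime_iff_not_dvd hℓ).mpr hℓN)
  haveI : HasPrincipalDivisors L (laurentBaseChange L (modularFunctionFieldFull (N * ℓ))) :=
    c'.hasPrincipalDivisors
  have hα : (heckeAlphaBar L N ℓ).toRingHom.IsIntegral :=
    heckeAlphaBarIntegral_of_coord L N ℓ c c'
  have hβ : (heckeBetaBar L N ℓ).toRingHom.IsIntegral :=
    heckeBetaBarIntegral_of_coord L N ℓ c c'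
  have hFIβ : FundamentalIdentityAlong L (heckeBetaBar L N ℓ) hβ :=
    fundamentalIdentityAlong_of_coord c c' _ hβ
  have hFIα : FundamentalIdentityAlong L (heckeAlphaBar L N ℓ) hα :=
    fundamentalIdentityAlong_of_coord c c' _ hα
  have hfinα : FiniteAlong L (heckeAlphaBar L N ℓ) := finiteAlong_of_coord c c' _
  have hfinβ : FiniteAlong L (heckeBetaBar L N ℓ) := finiteAlong_of_coord c c' _
  have hNα : NormFormulaAlong L (heckeAlphaBar L N ℓ) hfinα :=
    normFormulaAlong_of_coord c c' _ hfinα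
  have hNβ : NormFormulaAlong L (heckeBetaBar L N ℓ) hfinβ :=
    normFormulaAlong_of_coord c c' _ hfinβ
  have e1 : heckeOperatorAlong L N ℓ z = heckePic0Bar hα hβ hFIβ hfinα hNα z :=
    congrFun (congrArg DFunLike.coe (heckeOperatorAlong_eq hα hβ hFIβ hfinα hNα)) z
  rw [e1]
  have h2 := (transports_atkinLehner_beta_alpha ι h hℓ).pic0_correspondence_smul
    (transports_atkinLehner_alpha_beta ι h hℓ) hβ hα hα hβ hFIβ hFIα hfinα hfinβ hNα hNβ
    (fun W => c'.deg_eq_one W) z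
  rw [one_smul, one_smul] at h2
  exact h2

end AtkinLehner

section AtkinLehnerBar

variable {N ℓ : ℕ} [NeZero N] [NeZero ℓ]

/-- **`T'_ℓ = T_ℓ` on `J₀(N)` for a prime `ℓ ∤ N`** (Atkin–Lehner symmetry). -/
theorem heckeSwapBar_eq_heckeOperatorBar (hℓ : ℓ.Prime) (hℓN : ¬ ℓ ∣ N) (x : JZero N) :
    heckeSwapBar N ℓ x = heckeOperatorBar N ⟨ℓ, hℓ⟩ x :=
  (heckeSwapOf_eq_heckeOperatorAlong complexEmbedding.toRingHom hℓ hℓN _ _ x).trans
    (heckeOperatorBar_apply N ⟨ℓ, hℓ⟩ x).symm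

/-- **`T'_ℓ = T_ℓ` over `ℂ` for a prime `ℓ ∤ N`.** -/
theorem heckeSwapC_eq_heckeOperatorAlong (hℓ : ℓ.Prime) (hℓN : ¬ ℓ ∣ N)
    (x : Pic0 ℂ ↥(laurentBaseChange ℂ (modularFunctionFieldFull N))) :
    heckeSwapC N ℓ x = heckeOperatorAlong ℂ N ℓ x :=
  heckeSwapOf_eq_heckeOperatorAlong (RingHom.id ℂ) hℓ hℓN _ _ x

/-- **Galois equivariance of the Hecke operator `T_ℓ` on `J₀(N)`** (prime `ℓ ∤ N`). -/
theorem heckeOperatorBar_galois_smul (hℓ : ℓ.Prime) (hℓN : ¬ ℓ ∣ N)
    (σ : AlgebraicClosure ℚ ≃ₐ[ℚ] AlgebraicClosure ℚ) (x : JZero N) :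
    heckeOperatorBar N ⟨ℓ, hℓ⟩ (σ • x) = σ • heckeOperatorBar N ⟨ℓ, hℓ⟩ x := by
  rw [← heckeSwapBar_eq_heckeOperatorBar hℓ hℓN, ← heckeSwapBar_eq_heckeOperatorBar hℓ hℓN,
    heckeSwapBar_galois_smul]

end AtkinLehnerBar

end Fermat.Agent.GR
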