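/-
GR (stage I) — helper8 — package K10-ASM, part 3: the clauses (hecke), (conj) for the transported
Kummer maps and the assembly of `StageIData N p` from the named inputs of K4 (sur), K5 (descent),
K6 (Hecke roots), (conj), (fix) and the S37 clauses.
-/
import Mathlib
import Fermat.Agent.GR.ASM_helper8_Kap
import Fermat.Agent.GR.TSWAP_helper4_Main
import Fermat.Agent.GR.TOP_lead_System

set_option autoImplicit false
set_option linter.style.haveILetI false
set_option linter.unusedSectionVars false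

open UpperHalfPlane hiding I
open Complex ModularGroup ModularCurve CongruenceSubgroup AlgebraicCurve ModularCurve.Period
open scoped MatrixGroups

namespace Fermat.Agent.GR

open Fermat.Agent.X0N Fermat.Agent.JA

local notation "Ω" => AlgebraicClosure ℚ
local notation "GQ" => (AlgebraicClosure ℚ ≃ₐ[ℚ] AlgebraicClosure ℚ)

attribute [local instance] algebraQbarComplex isScalarTower_rat_qbar_complex

/-- `T'_ℓ` for a prime `ℓ` (the swapped Hecke correspondence `β_* α^*` of helper4). -/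
noncomputable def swapT (N : ℕ) [NeZero N] (ℓ : Nat.Primes) : JZero N →+ JZero N :=
  haveI : NeZero (ℓ : ℕ) := ⟨ℓ.2.ne_zero⟩
  heckeSwapBar N ℓ

namespace DescData

variable {N : ℕ} [NeZero N] (B : DescData N)

/-- **(hecke)** for the transported Kummer map, from the analytic Hecke-root statement of K6. -/
theorem kapOf_hecke (n : ℕ) [NeZero n] (ℓ : Nat.Primes)
    (hroot : haveI : NeZero (ℓ : ℕ) := ⟨ℓ.2.ne_zero⟩
      ∀ (f : ↥(modularFunctionFieldBar N)), f ≠ 0 → ∀ u : MerH,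
      u ^ n = realN (algebraMap Ω ℂ) N f → IsKummerElt (Gamma0 N) n u →
      ∃ u' : MerH, u' ≠ 0 ∧
        u' ^ n = realN (algebraMap Ω ℂ) N
          (normAlong (heckeBetaBar Ω N ℓ) (heckeAlphaBar Ω N ℓ f)) ∧
        kummerChar (Gamma0 N) n u' = heckeGrpP N ℓ (ZMod n) (kummerChar (Gamma0 N) n u))
    (x : ↥(torsionNat (JZero N) n)) :
    B.kapOf n (torsionNat.map n (swapT N ℓ) x) = heckeGrpP N ℓ (ZMod n) (B.kapOf n x) := by
  haveI : NeZero (ℓ : ℕ) := ⟨ℓ.2.ne_zero⟩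
  obtain ⟨D, f, u, hf, hfD, hx, hun, hK, hkap⟩ := B.exists_rep_root n x
  obtain ⟨u', hu'0, hu', hchar⟩ := hroot f hf u hun hK
  set g : ↥(modularFunctionFieldBar N) :=
    normAlong (heckeBetaBar Ω N ℓ) (heckeAlphaBar Ω N ℓ f) with hg
  have hg0 : g ≠ 0 := by
    rintro h0
    rw [h0, map_zero] at hu'
    exact hu'0 (pow_eq_zero_iff (NeZero.ne n) |>.mp hu')
  have hTD : ∀ P : Place Ω ↥(modularFunctionFieldBar N),
      (n : ℤ) * heckeSwapDivBar N ℓ (D : Divisor Ω _) P = P.ord g :=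
    fun P => heckeSwapDivBar_nsmul_apply_of_ord N ℓ hf hfD P
  have hx' : ((torsionNat.map n (swapT N ℓ) x : ↥(torsionNat (JZero N) n)) : JZero N) =
      Pic0.mk ⟨heckeSwapDivBar N ℓ (D : Divisor Ω _), heckeSwapDivBar_mem_degZero N ℓ D.2⟩ := by
    rw [torsionNat.map_coe, hx]
    exact heckeSwapBar_mk N ℓ D
  rw [B.kapOf_eq_kummerChar n _ g hg0 hTD _ hx' hu', hchar, hkap]

/-- **(conj)** for the transported Kummer map, from (conj) for `kappa` over `ℂ`. -/
theorem kapOf_conj (n : ℕ) [NeZero n]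
    (hconj : ∀ y y' : ↥(Pic0.torsion ℂ ↥(laurentBaseChange ℂ (modularFunctionFieldFull N)) n),
      (y' : Pic0 ℂ ↥(laurentBaseChange ℂ (modularFunctionFieldFull N))) =
        complexConjAlgEquiv • (y : Pic0 ℂ ↥(laurentBaseChange ℂ (modularFunctionFieldFull N))) →
      kappa N n y' = -charInvolution N ℤ (ZMod n) (kappa N n y))
    (x : ↥(torsionNat (JZero N) n)) :
    B.kapOf n (torsionNat.map n
        (DistribMulAction.toAddMonoidEnd GQ (JZero N) complexConjugation) x) =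
      -charInvolution N ℤ (ZMod n) (B.kapOf n x) := by
  rw [kapOf_apply, kapOf_apply]
  apply hconj
  show B.bc (complexConjugation • x.1) = complexConjAlgEquiv • B.bc x.1
  refine B.gal complexConjugation complexConjAlgEquiv (fun a => ?_) x.1
  rw [algebraMap_qbar_complex, algebraMap_qbar_complex, complexEmbedding_complexConjugation]
  rfl

/-- **K10-ASM: the stage-(I) data**, assembled from a descent datum (K5), surjectivity of `kappa`
onto reductions (K4), the analytic Hecke-root statement (K6), (conj) over `ℂ`, (fix) and the S37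
clauses. -/
noncomputable def stageIData (p : ℕ) [Fact p.Prime]
    (hK4 : ∀ (k : ℕ) (ψ : ↥(parabolicHoms ℤ_[p] (Gamma0 N) ℤ_[p])),
      ∃ y : ↥(Pic0.torsion ℂ ↥(laurentBaseChange ℂ (modularFunctionFieldFull N)) (p ^ k)),
        kappa N (p ^ k) y = (PadicInt.toZModPow k).toAddMonoidHom.comp ψ.1)
    (hroot : ∀ (ℓ : Nat.Primes) (k : ℕ), haveI : NeZero (ℓ : ℕ) := ⟨ℓ.2.ne_zero⟩
      ∀ (f : ↥(modularFunctionFieldBar N)), f ≠ 0 → ∀ u : MerH,
      u ^ (p ^ k) = realN (algebraMap Ω ℂ) N f → IsKummerElt (Gamma0 N) (p ^ k) u →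
      ∃ u' : MerH, u' ≠ 0 ∧
        u' ^ (p ^ k) = realN (algebraMap Ω ℂ) N
          (normAlong (heckeBetaBar Ω N ℓ) (heckeAlphaBar Ω N ℓ f)) ∧
        kummerChar (Gamma0 N) (p ^ k) u' =
          heckeGrpP N ℓ (ZMod (p ^ k)) (kummerChar (Gamma0 N) (p ^ k) u))
    (hconj : ∀ (k : ℕ)
      (y y' : ↥(Pic0.torsion ℂ ↥(laurentBaseChange ℂ (modularFunctionFieldFull N)) (p ^ k))),
      (y' : Pic0 ℂ ↥(laurentBaseChange ℂ (modularFunctionFieldFull N))) =
        complexConjAlgEquiv • (y : Pic0 ℂ ↥(laurentBaseChange ℂ (modularFunctionFieldFull N))) →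
      kappa N (p ^ k) y' = -charInvolution N ℤ (ZMod (p ^ k)) (kappa N (p ^ k) y))
    (hfix : ∀ x : JZero N, ∃ L : IntermediateField ℚ Ω, FiniteDimensional ℚ L ∧
      ∀ σ : GQ, (∀ a ∈ L, σ a = a) → σ • x = x)
    (hclause : ∀ ℓ : ℕ, (hℓ : ℓ.Prime) → ¬ ℓ ∣ N * p →
      ∀ A : ValuationSubring Ω, A.LiesOverPrime ℓ →
        ∃ (M : Type) (_ : AddCommGroup M) (red : JZero N →+ M) (Fr : M →+ M) (σ₀ : GQ),
          A.IsFrobeniusAt σ₀ ℓ ∧
          (∀ σ ∈ A.inertiaSubgroupIn ℚ, ∀ x : JZero N, red (σ • x) = red x) ∧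
          (∀ σ : GQ, A.IsFrobeniusAt σ ℓ → ∀ x : JZero N, red (σ • x) = Fr (red x)) ∧
          (∀ x : JZero N,
            red (σ₀ • σ₀ • x - heckeOperatorBar N ⟨ℓ, hℓ⟩ (σ₀ • x) + ℓ • x) = 0) ∧
          (∀ x : JZero N, (∃ n : ℕ, p ^ n • x = 0) → red x = 0 → x = 0)) :
    StageIData N p where
  D := B.kapData p hK4
  T' := swapT N
  hecke ℓ k x := B.kapOf_hecke (p ^ k) ℓ (hroot ℓ k) x
  gal ℓ σ x := by
    haveI : NeZero (ℓ : ℕ) := ⟨ℓ.2.ne_zero⟩
    exact heckeSwapBar_galois_smul N ℓ σ x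
  hT' ℓ hℓN x := by
    haveI : NeZero (ℓ : ℕ) := ⟨ℓ.2.ne_zero⟩
    exact heckeSwapBar_eq_heckeOperatorBar ℓ.2 hℓN x
  c0 := complexConjugation
  conj k x := B.kapOf_conj (p ^ k) (hconj k) x
  fix := hfix
  clause := hclause

end DescData

end Fermat.Agent.GR
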