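/-
Stage (I), (conj) of TOP-0 (helper5), part 1: the complex conjugation operator
`u ↦ (τ ↦ conj (u (-conj τ)))` on `HolH` and `MerH`, its interplay with the action of `SL(2, ℤ)`,
and `q`-expansions with real coefficients.
-/
import Mathlib
import Fermat.Agent.X0N.ES_helper5_Injective
import Fermat.Agent.X0N.Mer_helper6_RealN

set_option autoImplicit false

namespace Fermat.Agent.X0N

open UpperHalfPlane hiding I
open Complex Filter Topology ModularForm ModularCurve.Period Fermat.Agent.RatStr
open scoped MatrixGroups Manifold ComplexConjugate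

theorem mdiff_cconj {f : ℍ → ℂ} (hf : MDiff f) :
    MDiff (fun z => conj (f (UpperHalfPlane.J • z))) := by
  have h1 : (fun z => conj (f (UpperHalfPlane.J • z))) = f ∣[(0 : ℤ)] UpperHalfPlane.J := by
    ext z
    simp [ModularForm.slash_apply]
  rw [h1]
  exact hf.slash 0 _

/-- complex conjugation `f ↦ (τ ↦ conj (f (-conj τ)))` as a ring endomorphism of `HolH`. -/
noncomputable def HolH.cconjHom : HolH →+* HolH where
  toFun f := ⟨fun z => conj ((f : ℍ → ℂ) (UpperHalfPlane.J • z)), mdiff_cconj f.2⟩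
  map_one' := by
    apply Subtype.ext
    funext z
    show conj ((1 : ℍ → ℂ) (UpperHalfPlane.J • z)) = 1
    simp
  map_mul' f g := by
    apply Subtype.ext
    funext z
    show conj (((f : ℍ → ℂ) * (g : ℍ → ℂ)) (UpperHalfPlane.J • z)) = _
    simp only [Pi.mul_apply, map_mul]
    rfl
  map_zero' := by
    apply Subtype.ext
    funext z
    show conj ((0 : ℍ → ℂ) (UpperHalfPlane.J • z)) = 0
    simp
  map_add' f g := by
    apply Subtype.ext
    funext z
    show conj (((f : ℍ → ℂ) + (g : ℍ → ℂ)) (UpperHalfPlane.J • z)) = _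
    simp only [Pi.add_apply, map_add]
    rfl

@[simp] theorem HolH.cconjHom_apply (f : HolH) (z : ℍ) :
    (HolH.cconjHom f : ℍ → ℂ) z = conj ((f : ℍ → ℂ) (UpperHalfPlane.J • z)) := rfl

theorem HolH.cconjHom_cconjHom (f : HolH) : HolH.cconjHom (HolH.cconjHom f) = f := by
  apply Subtype.ext
  funext z
  simp only [HolH.cconjHom_apply, ES.J_smul_J_smul, Complex.conj_conj]

theorem HolH.cconjHom_injective : Function.Injective HolH.cconjHom := by
  intro f g h
  rw [← HolH.cconjHom_cconjHom f, ← HolH.cconjHom_cconjHom g, h]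

theorem HolH.cconjHom_const (c : ℂ) : HolH.cconjHom (HolH.const c) = HolH.const (conj c) := rfl

theorem HolH.comp_cconjHom (γ : SL(2, ℤ)) (f : HolH) :
    HolH.comp γ (HolH.cconjHom f) = HolH.cconjHom (HolH.comp (jConjSL γ) f) := by
  apply Subtype.ext
  funext z
  show conj ((f : ℍ → ℂ) (UpperHalfPlane.J • (γ • z))) =
    conj ((f : ℍ → ℂ) (jConjSL γ • (UpperHalfPlane.J • z)))
  rw [ES.J_smul_SL]

/-- complex conjugation `u ↦ (τ ↦ conj (u (-conj τ)))` as a ring endomorphism of `MerH`. -/
noncomputable def MerH.cconj : MerH →+* MerH :=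
  IsFractionRing.map HolH.cconjHom_injective

@[simp] theorem MerH.cconj_ofHol (f : HolH) :
    MerH.cconj (MerH.ofHol f) = MerH.ofHol (HolH.cconjHom f) := by
  unfold MerH.cconj MerH.ofHol
  exact IsLocalization.map_eq _ f

theorem MerH.cconj_const (c : ℂ) : MerH.cconj (MerH.const c) = MerH.const (conj c) := by
  have h1 : ∀ c : ℂ, MerH.const c = MerH.ofHol (HolH.const c) := fun _ => rfl
  rw [h1, h1, MerH.cconj_ofHol, HolH.cconjHom_const]

theorem MerH.cconj_cconj (x : MerH) : MerH.cconj (MerH.cconj x) = x := by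
  obtain ⟨a, b, hb, rfl⟩ := MerH.exists_div x
  rw [map_div₀, map_div₀, MerH.cconj_ofHol, MerH.cconj_ofHol, MerH.cconj_ofHol, MerH.cconj_ofHol,
    HolH.cconjHom_cconjHom, HolH.cconjHom_cconjHom]

theorem MerH.cconj_injective : Function.Injective MerH.cconj := MerH.cconj.injective

/-- **conjugation and the modular action**: `(cconj u) ∘ γ = cconj (u ∘ JγJ⁻¹)`. -/
theorem MerH.comp_cconj (γ : SL(2, ℤ)) (x : MerH) :
    MerH.comp γ (MerH.cconj x) = MerH.cconj (MerH.comp (jConjSL γ) x) := by
  obtain ⟨a, b, hb, rfl⟩ := MerH.exists_div x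
  simp only [map_div₀, MerH.cconj_ofHol, MerH.comp_algebraMap, HolH.comp_cconjHom]

/-! ### `q`-expansions with real coefficients -/

theorem conj_qParam_J_smul (z : ℍ) :
    conj (Function.Periodic.qParam 1 ((UpperHalfPlane.J • z : ℍ) : ℂ)) =
      Function.Periodic.qParam 1 (z : ℂ) := by
  rw [UpperHalfPlane.coe_J_smul]
  simp only [Function.Periodic.qParam, ← Complex.exp_conj]
  congr 1
  simp only [map_div₀, map_mul, map_neg, Complex.conj_conj, Complex.conj_I, Complex.conj_ofReal,
    map_ofNat, map_one, ofReal_one]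
  ring

/-- a bounded holomorphic `1`-periodic function with real `q`-expansion coefficients is fixed by
the complex conjugation operator. -/
theorem conj_apply_J_smul_of_real {F : ℍ → ℂ} (hF : IsHolBdd 1 F)
    (hreal : ∀ m, conj ((qExpansion 1 F).coeff m) = (qExpansion 1 F).coeff m) (z : ℍ) :
    conj (F (UpperHalfPlane.J • z)) = F z := by
  have h1 := hasSum_qExpansion one_pos hF.per hF.hol hF.bdd (UpperHalfPlane.J • z)
  have h2 := hasSum_qExpansion one_pos hF.per hF.hol hF.bdd z
  have h4 : HasSum (fun m : ℕ => (qExpansion 1 F).coeff m • Function.Periodic.qParam 1 (z : ℂ) ^ m)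
      (conj (F (UpperHalfPlane.J • z))) := by
    have h5 := h1.map (starRingEnd ℂ) Complex.continuous_conj
    have h6 : (⇑(starRingEnd ℂ) ∘ fun m : ℕ => (qExpansion 1 F).coeff m •
        Function.Periodic.qParam 1 ((UpperHalfPlane.J • z : ℍ) : ℂ) ^ m) =
        fun m : ℕ => (qExpansion 1 F).coeff m • Function.Periodic.qParam 1 (z : ℂ) ^ m := by
      funext m
      simp only [Function.comp_apply, smul_eq_mul, map_mul, map_pow, hreal m,
        conj_qParam_J_smul]
    rw [h6] at h5
    exact h5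
  exact h4.unique h2

/-! ### the `j`-function -/

theorem qExpansion_jFun_mul_qf :
    qExpansion 1 (jFun * qf 1) =
      (ModularCurve.eisenstein4 ^ 3 * ModularCurve.dedekindEtaUnitInv).map (Int.castRingHom ℂ) := by
  rw [jFun_mul_qf, qExpansion_mul' one_pos (isHolBdd_E₄.pow 3) isHolBdd_etaInv24,
    qExpansion_etaInv24]
  have h3 : qExpansion 1 ((⇑E₄) ^ 3) = (qExpansion 1 E₄) ^ 3 := by
    rw [pow_succ, pow_succ, pow_one,
      qExpansion_mul' one_pos (isHolBdd_E₄.mul isHolBdd_E₄) isHolBdd_E₄,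
      qExpansion_mul' one_pos isHolBdd_E₄ isHolBdd_E₄]
    ring
  rw [h3, qExpansion_E₄, map_mul, map_pow]

/-- `j` has real Fourier coefficients: `conj (j (-conj τ)) = j τ`. -/
theorem conj_jFun_J_smul (z : ℍ) : conj (jFun (UpperHalfPlane.J • z)) = jFun z := by
  have hH : IsHolBdd 1 (jFun * qf 1) := by
    have := isHolBdd_jFun_mul_qf
    rwa [pow_one] at this
  have h1 := conj_apply_J_smul_of_real hH (fun m => by
    rw [qExpansion_jFun_mul_qf, PowerSeries.coeff_map]
    simp) z
  simp only [Pi.mul_apply, map_mul] at h1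
  have h2 : conj (qf 1 (UpperHalfPlane.J • z)) = qf 1 z := by
    rw [qf_apply, qf_apply]
    exact conj_qParam_J_smul z
  rw [h2] at h1
  exact mul_right_cancel₀ (qf_ne_zero 1 z) h1

theorem J_smul_heckeDiagMatrix_smul {d : ℕ} (hd : d ≠ 0) (z : ℍ) :
    UpperHalfPlane.J • (heckeDiagMatrix d • z) = heckeDiagMatrix d • (UpperHalfPlane.J • z) := by
  apply UpperHalfPlane.ext
  rw [UpperHalfPlane.coe_J_smul, coe_heckeDiagMatrix_smul hd, coe_heckeDiagMatrix_smul hd,
    UpperHalfPlane.coe_J_smul]
  simp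

theorem conj_jFunN_J_smul (d : ℕ) [NeZero d] (z : ℍ) :
    conj (jFunN d (UpperHalfPlane.J • z)) = jFunN d z := by
  rw [jFunN, dilate_apply, dilate_apply, ← J_smul_heckeDiagMatrix_smul (NeZero.ne d),
    conj_jFun_J_smul]

theorem HolH.cconjHom_jdHol (d : ℕ) [NeZero d] : HolH.cconjHom (jdHol d) = jdHol d := by
  apply Subtype.ext
  funext z
  exact conj_jFunN_J_smul d z

end Fermat.Agent.X0N
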