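/-
Stage (I), (conj) of TOP-0 (helper5), part 2: the realisation `realN` intertwines the coefficientwise
action of an automorphism `σ` of `k` lying over complex conjugation with the complex conjugation
operator `MerH.cconj`.
-/
import Mathlib
import Fermat.Agent.GR.CONJ_helper5_Mer

set_option autoImplicit false

namespace Fermat.Agent.X0N

open UpperHalfPlane hiding I
open Complex Filter Topology ModularCurve Fermat.Agent.RatStr
open scoped MatrixGroups Manifold ComplexConjugate

variable {k : Type*} [Field k] [Algebra ℚ k] (ι : k →+* ℂ) (N : ℕ)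

omit [Algebra ℚ k] in
theorem coeffMap_coeffEmb_self [Algebra ℚ k] (σ : k →+* k) (x : LaurentSeries ℚ) :
    coeffMap σ (coeffEmb k x) = coeffEmb k x := by
  rw [coeffEmb, coeffMap_coeffMap]
  exact coeffMap_congr (Subsingleton.elim _ _) x

theorem arithmeticRingAut_jdBar (σ : k ≃ₐ[ℚ] k) {d : ℕ} [NeZero d] (hd : d ∣ N) :
    arithmeticRingAut (modularFunctionFieldFull N) σ (jdBar N hd) = jdBar (k := k) N hd := by
  apply Subtype.ext
  rw [coe_arithmeticRingAut_apply]
  exact coeffMap_coeffEmb_self _ _

/-- **(C2)** `realN` intertwines an automorphism of `k` over complex conjugation with `cconj`. -/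
theorem realN_arithmeticRingAut (σ : k ≃ₐ[ℚ] k) (hσ : ∀ a : k, ι (σ a) = conj (ι a))
    (f : ↥(laurentBaseChange k (modularFunctionFieldFull N))) :
    realN ι N (arithmeticRingAut (modularFunctionFieldFull N) σ f) =
      MerH.cconj (realN ι N f) := by
  induction f using modularFunctionField_induction with
  | hconst c =>
    rw [arithmeticRingAut_algebraMap, realN_algebraMap, realN_algebraMap, MerH.cconj_const, hσ]
  | hgen d hd =>
    rw [arithmeticRingAut_jdBar, realN_jdBar, MerH.cconj_ofHol, HolH.cconjHom_jdHol]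
  | hadd x y h1 h2 => rw [map_add, map_add, map_add, map_add, h1, h2]
  | hmul x y h1 h2 => rw [map_mul, map_mul, map_mul, map_mul, h1, h2]
  | hinv x h1 => rw [map_inv₀, map_inv₀, map_inv₀, map_inv₀, h1]

theorem realN_arithmeticGalois_smul (σ : k ≃ₐ[ℚ] k) (hσ : ∀ a : k, ι (σ a) = conj (ι a))
    (f : ↥(laurentBaseChange k (modularFunctionFieldFull N))) :
    realN ι N (arithmeticGalois (modularFunctionFieldFull N) σ • f) =
      MerH.cconj (realN ι N f) :=
  realN_arithmeticRingAut ι N σ hσ f

/-- complex conjugation as a `ℚ`-algebra automorphism of `ℂ`. -/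
noncomputable def conjQ : ℂ ≃ₐ[ℚ] ℂ := Complex.conjAe.restrictScalars ℚ

@[simp] theorem conjQ_apply (z : ℂ) : conjQ z = conj z := rfl

theorem realN_conjQ_smul (f : ↥(laurentBaseChange ℂ (modularFunctionFieldFull N))) :
    realN (RingHom.id ℂ) N (arithmeticGalois (modularFunctionFieldFull N) conjQ • f) =
      MerH.cconj (realN (RingHom.id ℂ) N f) :=
  realN_arithmeticGalois_smul (RingHom.id ℂ) N conjQ (fun _ => rfl) f

end Fermat.Agent.X0N
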