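/-
Stage (I), (conj) of TOP-0 (helper5), part 3: over `ℂ`, the Kummer map `kappa` intertwines complex
conjugation (acting coefficientwise on the function field of `X₀(N)`, hence on `Pic⁰`) with
`ψ ↦ -(ψ ∘ (γ ↦ JγJ⁻¹))`.
-/
import Mathlib
import Fermat.Agent.GR.CONJ_helper5_RealN
import Fermat.Agent.GR.CHAR_helper8_Main

set_option autoImplicit false

namespace Fermat.Agent.GR

open UpperHalfPlane hiding I
open Complex ModularGroup ModularCurve CongruenceSubgroup AlgebraicCurve ModularCurve.Period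
open Fermat.Agent.X0N
open scoped MatrixGroups ComplexConjugate

variable {N : ℕ} [NeZero N] {n : ℕ} [NeZero n]

omit [NeZero N] [NeZero n] in
/-- the conjugate of a Kummer root is a Kummer root of the conjugate divisor. -/
theorem IsKummerRoot.cconj {D : Divisor ℂ ↥(laurentBaseChange ℂ (modularFunctionFieldFull N))}
    {u : MerH} (hu : IsKummerRoot N n D u) :
    IsKummerRoot N n (arithmeticGalois (modularFunctionFieldFull N) conjQ • D) (MerH.cconj u) := by
  obtain ⟨f, hf, hdiv, hun⟩ := hu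
  set g := arithmeticGalois (L := ℂ) (modularFunctionFieldFull N) conjQ with hg
  refine ⟨g • f, ?_, fun v => ?_, ?_⟩
  · intro h0
    apply hf
    have := congrArg (fun y => g⁻¹ • y) h0
    simpa using this
  · rw [SemilinearAut.divisor_smul_apply, hdiv (g⁻¹ • v)]
    have h := SemilinearAut.ord_smul g (g⁻¹ • v) f
    rw [smul_inv_smul] at h
    exact h.symm
  · rw [← map_pow, hun, realNC_apply, realNC_apply, realN_conjQ_smul]

theorem stdAddChar_neg_eq_conj (a : ZMod n) :
    (ZMod.stdAddChar (N := n) (-a) : ℂ) = conj (ZMod.stdAddChar (N := n) a : ℂ) :=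
  AddChar.map_neg_eq_conj _ _

/-- **(conj) over `ℂ`**: `kappa (conj • x) = -(kappa x) ∘ (γ ↦ JγJ⁻¹)`. -/
theorem kappa_conjQ_smul
    (x : ↥(Pic0.torsion ℂ ↥(laurentBaseChange ℂ (modularFunctionFieldFull N)) n)) :
    kappa N n (arithmeticGalois (modularFunctionFieldFull N) conjQ • x) =
      -(charInvolution N ℤ (ZMod n) (kappa N n x)) := by
  obtain ⟨D, u, hD, hu⟩ := exists_rep_isKummerRoot x
  set g := arithmeticGalois (L := ℂ) (modularFunctionFieldFull N) conjQ with hg
  have hD' : Pic0.mk (SemilinearAut.degZeroSMulHom g D) =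
      ((g • x : ↥(Pic0.torsion ℂ ↥(laurentBaseChange ℂ (modularFunctionFieldFull N)) n)) :
        Pic0 ℂ ↥(laurentBaseChange ℂ (modularFunctionFieldFull N))) := by
    rw [SemilinearAut.coe_torsion_smul, ← hD, SemilinearAut.pic0_smul_mk]
  have hu' : IsKummerRoot N n
      ((SemilinearAut.degZeroSMulHom g D : ↥(Divisor.degZero (K := ℂ)
        (F := ↥(laurentBaseChange ℂ (modularFunctionFieldFull N))))) : Divisor ℂ _)
      (MerH.cconj u) := by
    rw [SemilinearAut.coe_degZeroSMulHom]
    exact hu.cconj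
  have hu0 : MerH.cconj u ≠ 0 := hu'.ne_zero
  refine AddMonoidHom.ext fun γa => ?_
  obtain ⟨γ, rfl⟩ : ∃ γ : ↥(Gamma0 N), Additive.ofMul γ = γa := ⟨Additive.toMul γa, rfl⟩
  have h1 := kappa_spec (g • x) _ hD' hu' γ
  have h2 := kappa_spec x D hD hu (jConjGamma0 N γ)
  rw [jConjGamma0_coe] at h2
  rw [MerH.comp_cconj, h2, map_mul, MerH.cconj_const, ← stdAddChar_neg_eq_conj] at h1
  have h3 := mul_right_cancel₀ hu0 h1
  have h4 := ZMod.injective_stdAddChar (MerH.const_injective h3)
  rw [← h4]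
  rfl

end Fermat.Agent.GR
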