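/-
Stage (I), (conj) of TOP-0 (helper5), part 4: consumer forms of (conj):
* Kummer elements/characters under the complex conjugation operator (`kummerChar_cconj`);
* the `Ω`-divisor form (`cconj_pow_eq_realN`, `smul_divisor_ord`);
* (conj) over `ℂ` for the Prelude's `complexConjAlgEquiv`;
* the bridge `realN ι N f = realN id N (bcHom f)` between the realisations over `K ⊆ L ⊆ ℂ`.
-/
import Mathlib
import Fermat.Agent.GR.CONJ_helper5_Kappa
import Fermat.Agent.JA.BC_helper9_Main
import Fermat.Prelude.Def_GaloisRep_ComplexConjugation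

set_option autoImplicit false

namespace Fermat.Agent.GR

open UpperHalfPlane hiding I
open Complex ModularGroup ModularCurve CongruenceSubgroup AlgebraicCurve ModularCurve.Period
open Fermat.Agent.X0N
open scoped MatrixGroups ComplexConjugate

section Kummer

variable {N : ℕ} {n : ℕ} [NeZero n]

omit [NeZero n] in
/-- the conjugate of a Kummer element for `Γ₀(N)` is a Kummer element. -/
theorem IsKummerElt.cconj {u : MerH} (hu : IsKummerElt (Gamma0 N) n u) :
    IsKummerElt (Gamma0 N) n (MerH.cconj u) := by
  refine ⟨fun h0 => hu.1 (MerH.cconj_injective (h0.trans (map_zero _).symm)), fun γ hγ => ?_⟩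
  rw [← map_pow, MerH.comp_cconj, hu.2 _ (jConjSL_mem_Gamma0 hγ)]

/-- **the Kummer character of the conjugate**: `χ_{cconj u} = -χ_u ∘ (γ ↦ JγJ⁻¹)`. -/
theorem kummerChar_cconj {u : MerH} (hu : IsKummerElt (Gamma0 N) n u) :
    kummerChar (Gamma0 N) n (MerH.cconj u) =
      -(charInvolution N ℤ (ZMod n) (kummerChar (Gamma0 N) n u)) := by
  apply kummerChar_eq_of_spec hu.cconj.1
  intro γ
  have h2 := kummerChar_spec hu (jConjGamma0 N γ)
  rw [jConjGamma0_coe] at h2
  rw [MerH.comp_cconj, h2, map_mul, MerH.cconj_const, ← stdAddChar_neg_eq_conj]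
  rfl

end Kummer

section OmegaForm

variable {k : Type*} [Field k] [Algebra ℚ k] (ι : k →+* ℂ) (N : ℕ) {n : ℕ}

/-- **(conj), divisor form, analytic half**: if `u` is an `n`-th root of the realisation of `f` then
`cconj u` is an `n`-th root of the realisation of `σ • f`, for every automorphism `σ` of `k` lying
over complex conjugation. -/
theorem cconj_pow_eq_realN (σ : k ≃ₐ[ℚ] k) (hσ : ∀ a : k, ι (σ a) = conj (ι a))
    {f : ↥(laurentBaseChange k (modularFunctionFieldFull N))} {u : MerH}
    (hu : u ^ n = realN ι N f) :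
    (MerH.cconj u) ^ n = realN ι N (arithmeticGalois (modularFunctionFieldFull N) σ • f) := by
  rw [← map_pow, hu, realN_arithmeticGalois_smul ι N σ hσ]

/-- **(conj), divisor form, algebraic half**: `n D = div f ⇒ n (g • D) = div (g • f)`. -/
theorem smul_divisor_ord {K F : Type*} [Field K] [Field F] [Algebra K F]
    (g : SemilinearAut K F) {D : Divisor K F} {f : F} {m : ℤ}
    (h : ∀ P : Place K F, m * D P = P.ord f) (P : Place K F) :
    m * (g • D) P = P.ord (g • f) := by
  rw [SemilinearAut.divisor_smul_apply, h (g⁻¹ • P)]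
  have h1 := SemilinearAut.ord_smul g (g⁻¹ • P) f
  rw [smul_inv_smul] at h1
  exact h1.symm

/-- the instance for `Ω = AlgebraicClosure ℚ` with the Prelude's `complexEmbedding` and
`complexConjugation`. -/
theorem cconj_pow_eq_realN_complexConjugation
    {f : ↥(modularFunctionFieldBar N)} {u : MerH}
    (hu : u ^ n = realN (complexEmbedding : AlgebraicClosure ℚ →+* ℂ) N f) :
    (MerH.cconj u) ^ n = realN (complexEmbedding : AlgebraicClosure ℚ →+* ℂ) N
      (arithmeticGalois (modularFunctionFieldFull N) complexConjugation • f) :=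
  cconj_pow_eq_realN _ N complexConjugation
    (fun a => complexEmbedding_complexConjugation a) hu

end OmegaForm

section Complex

variable {N : ℕ} [NeZero N] {n : ℕ} [NeZero n]

theorem conjQ_eq_complexConjAlgEquiv : conjQ = complexConjAlgEquiv :=
  AlgEquiv.ext fun _ => rfl

/-- **(conj) over `ℂ`** for the Prelude's `complexConjAlgEquiv`. -/
theorem kappa_complexConjAlgEquiv_smul
    (x : ↥(Pic0.torsion ℂ ↥(laurentBaseChange ℂ (modularFunctionFieldFull N)) n)) :
    kappa N n (arithmeticGalois (modularFunctionFieldFull N) complexConjAlgEquiv • x) =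
      -(charInvolution N ℤ (ZMod n) (kappa N n x)) := by
  rw [← conjQ_eq_complexConjAlgEquiv]
  exact kappa_conjQ_smul x

end Complex

section Bridge

open Fermat.Agent.JA

variable {K L : Type*} [Field K] [Field L] [Algebra ℚ K] [Algebra ℚ L] [Algebra K L]
  [IsScalarTower ℚ K L] (ι : L →+* ℂ) (N : ℕ)

theorem bcHom_jdBar {d : ℕ} [NeZero d] (hd : d ∣ N) :
    bcHom (L := L) (modularFunctionFieldFull N) (jdBar (k := K) N hd) = jdBar (k := L) N hd := by
  apply Subtype.ext
  rw [coe_bcHom]
  show coeffMap (algebraMap K L) (coeffEmb K (qExpand ℚ d jq)) = coeffEmb L (qExpand ℚ d jq)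
  rw [coeffEmb, coeffMap_coeffMap]
  exact coeffMap_congr (Subsingleton.elim _ _) _

/-- **bridge**: the realisation over `K` (via `ι ∘ algebraMap K L`) is the realisation over `L` of
the coefficientwise base change. -/
theorem realN_bcHom (f : ↥(laurentBaseChange K (modularFunctionFieldFull N))) :
    realN ι N (bcHom (L := L) (modularFunctionFieldFull N) f) =
      realN (ι.comp (algebraMap K L)) N f := by
  induction f using modularFunctionField_induction with
  | hconst c =>
    rw [bcHom_algebraMap, realN_algebraMap, realN_algebraMap]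
    rfl
  | hgen d hd => rw [bcHom_jdBar, realN_jdBar, realN_jdBar]
  | hadd x y h1 h2 => rw [map_add, map_add, map_add, h1, h2]
  | hmul x y h1 h2 => rw [map_mul, map_mul, map_mul, h1, h2]
  | hinv x h1 => rw [map_inv₀, map_inv₀, map_inv₀, h1]

end Bridge

end Fermat.Agent.GR
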