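/-
Stage (I), package K5 DESC — helper3.
The Galois descent datum for the concrete constant field extension `L·F₀ / K·F₀`
(`K ⊆ L` algebraically closed of characteristic zero): `Aut(L/K)` acts coefficientwise.
-/
import Mathlib
import Fermat.Agent.GR.DESC_helper3_Laurent
import Fermat.Agent.GR.DESC_helper3_Gal

set_option autoImplicit false
set_option linter.style.haveILetI false
set_option linter.unusedSectionVars false

open Module HahnSeries ModularCurve AlgebraicCurve

namespace Fermat.Agent.GR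

open Fermat.Agent.X0N Fermat.Agent.JA

section LaurentGal

variable {K L : Type*} [Field K] [Field L] [Algebra ℚ K] [Algebra ℚ L] [Algebra K L]
  [IsScalarTower ℚ K L] (F₀ : IntermediateField ℚ (LaurentSeries ℚ))

/-- restriction of scalars `Aut(L/K) → Aut(L/ℚ)`. -/
def restrictQ (K L : Type*) [Field K] [Field L] [Algebra ℚ K] [Algebra ℚ L] [Algebra K L]
    [IsScalarTower ℚ K L] : (L ≃ₐ[K] L) →* (L ≃ₐ[ℚ] L) where
  toFun σ := σ.restrictScalars ℚ
  map_one' := rfl
  map_mul' _ _ := rfl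

@[simp]
theorem restrictQ_apply (σ : L ≃ₐ[K] L) (a : L) : restrictQ K L σ a = σ a := rfl

/-- the coefficientwise action of `Aut(L/K)` on `L·F₀`. -/
noncomputable def galAct : (L ≃ₐ[K] L) →* SemilinearAut L ↥(laurentBaseChange L F₀) :=
  (arithmeticGalois F₀).comp (restrictQ K L)

theorem coe_galAct_smul (σ : L ≃ₐ[K] L) (y : ↥(laurentBaseChange L F₀)) :
    ((galAct F₀ σ • y : ↥(laurentBaseChange L F₀)) : LaurentSeries L) =
      coeffMap ((restrictQ K L σ : L ≃ₐ[ℚ] L) : L →+* L) (y : LaurentSeries L) := rfl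

theorem coeff_galAct_smul (σ : L ≃ₐ[K] L) (y : ↥(laurentBaseChange L F₀)) (n : ℤ) :
    ((galAct F₀ σ • y : ↥(laurentBaseChange L F₀)) : LaurentSeries L).coeff n =
      σ ((y : LaurentSeries L).coeff n) := by
  rw [coe_galAct_smul, coeffMap_coeff]
  rfl

theorem baseAut_galAct (σ : L ≃ₐ[K] L) (a : L) :
    SemilinearAut.baseAut (galAct F₀ σ) a = σ a := rfl

theorem galAct_smul_bcHom (σ : L ≃ₐ[K] L) (x : ↥(laurentBaseChange K F₀)) :
    galAct F₀ σ • bcHom (L := L) F₀ x = bcHom (L := L) F₀ x := by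
  apply Subtype.ext
  ext n
  rw [coeff_galAct_smul, coe_bcHom, coeffMap_coeff, σ.commutes]

theorem coeff_algebraMap_mul' (a : L) (y : ↥(laurentBaseChange L F₀)) (n : ℤ) :
    ((algebraMap L ↥(laurentBaseChange L F₀) a * y : ↥(laurentBaseChange L F₀)) :
      LaurentSeries L).coeff n = a * (y : LaurentSeries L).coeff n := by
  rw [MulMemClass.coe_mul, IntermediateField.coe_algebraMap_apply, coeff_algebraMap_mul]

/-- fixed elements descend. -/
theorem galAct_desc [IsAlgClosed K] [IsAlgClosed L] (y : ↥(laurentBaseChange L F₀))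
    (hy : ∀ σ : L ≃ₐ[K] L, galAct F₀ σ • y = y) :
    ∃ x : ↥(laurentBaseChange K F₀), bcHom (L := L) F₀ x = y := by
  haveI : CharZero L := algebraRat.charZero L
  have hcoef : ∀ n : ℤ, (y : LaurentSeries L).coeff n ∈ (algebraMap K L).range := by
    intro n
    have hfix : ∀ σ : L ≃ₐ[K] L, σ ((y : LaurentSeries L).coeff n) =
        (y : LaurentSeries L).coeff n := by
      intro σ
      rw [← coeff_galAct_smul, hy σ]
    obtain ⟨a, ha⟩ := mem_range_of_isAlgebraic (isAlgebraic_of_forall_fixed _ hfix)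
    exact ⟨a, ha⟩
  obtain ⟨y₀, hy₀⟩ := exists_coeffMap_eq_of_forall_mem_range (algebraMap K L) _ hcoef
  have hmem : y₀ ∈ laurentBaseChange K F₀ := by
    apply mem_laurentBaseChange_of_iota_mem' (L := L) F₀
    rw [hy₀]
    exact y.2
  exact ⟨⟨y₀, hmem⟩, Subtype.ext hy₀⟩

/-- eigenfunctions can be normalised. -/
theorem galAct_norm (y : ↥(laurentBaseChange L F₀)) (hy0 : y ≠ 0)
    (hy : ∀ σ : L ≃ₐ[K] L, ∃ a : L,
      galAct F₀ σ • y = algebraMap L ↥(laurentBaseChange L F₀) a * y) :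
    ∃ c : L, c ≠ 0 ∧ ∀ σ : L ≃ₐ[K] L,
      galAct F₀ σ • (algebraMap L ↥(laurentBaseChange L F₀) c * y) =
        algebraMap L ↥(laurentBaseChange L F₀) c * y := by
  have hy0' : (y : LaurentSeries L) ≠ 0 := fun h0 => hy0 (Subtype.ext h0)
  set n₀ : ℤ := (y : LaurentSeries L).order with hn₀
  set c₀ : L := (y : LaurentSeries L).coeff n₀ with hc₀
  have hc₀0 : c₀ ≠ 0 := fun h0 => hy0' (HahnSeries.coeff_order_eq_zero.mp h0)
  refine ⟨c₀⁻¹, inv_ne_zero hc₀0, fun σ => ?_⟩
  obtain ⟨a, ha⟩ := hy σ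
  have h1 : σ c₀ = a * c₀ := by
    have := congrArg (fun z : ↥(laurentBaseChange L F₀) => (z : LaurentSeries L).coeff n₀) ha
    beta_reduce at this
    rwa [coeff_galAct_smul, coeff_algebraMap_mul'] at this
  have hσc₀ : σ c₀ ≠ 0 := by
    rw [Ne, map_eq_zero]
    exact hc₀0
  rw [smul_mul', SemilinearAut.smul_algebraMap, ha, baseAut_galAct, ← mul_assoc, ← map_mul]
  congr 2
  rw [map_inv₀, h1, mul_inv, mul_comm, ← mul_assoc]
  have ha0 : a ≠ 0 := by
    rintro rfl
    rw [zero_mul] at h1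
    exact hσc₀ h1
  rw [mul_inv_cancel₀ ha0, one_mul]

variable [Algebra ↥(laurentBaseChange K F₀) ↥(laurentBaseChange L F₀)]
  [Algebra K ↥(laurentBaseChange L F₀)] [hbc : BcCompat (K := K) (L := L) F₀]

/-- **the Galois descent datum of `L·F₀ / K·F₀`**. -/
noncomputable def galDesc_laurent [IsAlgClosed K] [IsAlgClosed L] :
    GalDesc K L ↥(laurentBaseChange K F₀) ↥(laurentBaseChange L F₀) where
  ρ := galAct F₀
  baseAut_ρ σ a := rfl
  smul_map σ x := by
    rw [bc_algebraMap_eq]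
    exact galAct_smul_bcHom F₀ σ x
  desc y hy := by
    obtain ⟨x, hx⟩ := galAct_desc F₀ y hy
    exact ⟨x, by rw [bc_algebraMap_eq, hx]⟩
  norm y hy0 hy := galAct_norm F₀ y hy0 hy

end LaurentGal

end Fermat.Agent.GR
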