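/-
Stage (I), package K5 DESC — helper3.
Naturality of place extension / conorm with respect to compatible pairs of semilinear
automorphisms of `FK / K` and `FL / L`.
-/
import Mathlib
import Fermat.Agent.GR.DESC_helper3_Conorm

set_option autoImplicit false
set_option linter.style.haveILetI false
set_option linter.unusedSectionVars false

open Module AlgebraicCurve

namespace Fermat.Agent.GR

open Fermat.Agent.FF Fermat.Agent.JA

section Semi

variable {K L FK FL : Type*} [Field K] [Field L] [Algebra K L] [Field FK] [Field FL]
  [Algebra K FK] [Algebra L FL] [Algebra FK FL] [Algebra K FL] [IsScalarTower K FK FL]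
  [IsScalarTower K L FL]

variable (h : IsConstExt K L FK FL) (hdeg : ∀ P : Place K FK, P.deg = 1)
  (gK : SemilinearAut K FK) (gL : SemilinearAut L FL)
  (hg : ∀ x : FK, gL • algebraMap FK FL x = algebraMap FK FL (gK • x))

include hg in
theorem placeExt_smul (P : Place K FK) :
    placeExt h hdeg (gK • P) = gL • placeExt h hdeg P := by
  symm
  refine eq_placeExt_of_ord_eq_mul h hdeg (gK • P) (gL • placeExt h hdeg P) 1 one_pos
    (fun x _ => ?_)
  have hx : algebraMap FK FL x = gL • algebraMap FK FL (gK⁻¹ • x) := by
    rw [hg, smul_inv_smul]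
  rw [one_mul, hx, SemilinearAut.ord_smul, ord_placeExt]
  have := SemilinearAut.ord_smul gK P (gK⁻¹ • x)
  rw [smul_inv_smul] at this
  exact this.symm

include hg in
theorem conorm_smul (D : Divisor K FK) :
    conorm h hdeg (gK • D) = gL • conorm h hdeg D := by
  induction D using Finsupp.induction with
  | zero => rw [smul_zero, map_zero, smul_zero]
  | single_add P n D _ _ ih =>
    rw [smul_add, map_add, map_add, smul_add, ih, SemilinearAut.smul_single, conorm_single,
      conorm_single, SemilinearAut.smul_single, placeExt_smul h hdeg gK gL hg]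

variable (hdegL : ∀ Q : Place L FL, Q.deg = 1)

include hg in
theorem conormPic0_smul (c : Pic0 K FK) :
    conormPic0 h hdeg hdegL (gK • c) = gL • conormPic0 h hdeg hdegL c := by
  obtain ⟨D, rfl⟩ := Pic0.mk_surjective c
  rw [SemilinearAut.pic0_smul_mk, conormPic0_mk, conormPic0_mk, SemilinearAut.pic0_smul_mk]
  congr 1
  apply Subtype.ext
  rw [coe_conormDegZero, SemilinearAut.coe_degZeroSMulHom, SemilinearAut.coe_degZeroSMulHom,
    coe_conormDegZero]
  exact conorm_smul h hdeg gK gL hg _

end Semi

end Fermat.Agent.GR
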