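/-
Stage (I), package K5 DESC — helper3.
**Descent of torsion classes along `K ⊆ L` (algebraically closed, characteristic zero) for the
function fields `K·F₀ ⊆ L·F₀`**: instance-free interface.

* `bcPlace`, `bcConorm`, `bcPic0` — extension of places, conorm of divisors, induced map on `Pic⁰`;
* `bcPic0_injective`, `exists_bcPic0_eq_of_mem_torsion`, `bcTorsionEquiv`;
* `bcPic0_galois_smul` — naturality for compatible pairs of automorphisms of `K` and `L`.
-/
import Mathlib
import Fermat.Agent.GR.DESC_helper3_Surj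
import Fermat.Agent.GR.DESC_helper3_LaurentGal
import Fermat.Agent.GR.DESC_helper3_Semi

set_option autoImplicit false
set_option linter.style.haveILetI false
set_option linter.unusedSectionVars false

open Module HahnSeries ModularCurve AlgebraicCurve

namespace Fermat.Agent.GR

open Fermat.Agent.X0N Fermat.Agent.JA Fermat.Agent.FF

theorem deg_eq_one_of_coord {k F : Type*} [Field k] [Algebra ℚ k] [IsAlgClosed k] [Field F]
    [Algebra k F] (c : Coord k F) (P : Place k F) : P.deg = 1 := by
  haveI : CharZero k := algebraRat.charZero k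
  exact c.deg_eq_one P

section Wrap

variable {K L : Type*} [Field K] [Field L] [Algebra ℚ K] [Algebra ℚ L] [Algebra K L]
  [IsScalarTower ℚ K L] [IsAlgClosed K] [IsAlgClosed L]
  (F₀ : IntermediateField ℚ (LaurentSeries ℚ))
  (cK : Coord K ↥(laurentBaseChange K F₀)) (cL : Coord L ↥(laurentBaseChange L F₀))

/-- the unique extension of a place of `K·F₀ / K` to `L·F₀ / L`. -/
noncomputable def bcPlace (P : Place K ↥(laurentBaseChange K F₀)) :
    Place L ↥(laurentBaseChange L F₀) :=
  letI := bcAlgebra (K := K) (L := L) F₀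
  letI := bcAlgebraBase (K := K) (L := L) F₀
  haveI := bcCompat_std (K := K) (L := L) F₀
  placeExt (isConstExt_laurent F₀) (deg_eq_one_of_coord cK) P

theorem ord_bcPlace (P : Place K ↥(laurentBaseChange K F₀)) (x : ↥(laurentBaseChange K F₀)) :
    (bcPlace (L := L) F₀ cK P).ord (bcHom (L := L) F₀ x) = P.ord x := by
  letI := bcAlgebra (K := K) (L := L) F₀
  letI := bcAlgebraBase (K := K) (L := L) F₀
  haveI := bcCompat_std (K := K) (L := L) F₀
  exact ord_placeExt (isConstExt_laurent F₀) (deg_eq_one_of_coord cK) P x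

theorem bcPlace_injective : Function.Injective (bcPlace (L := L) F₀ cK) := by
  letI := bcAlgebra (K := K) (L := L) F₀
  letI := bcAlgebraBase (K := K) (L := L) F₀
  haveI := bcCompat_std (K := K) (L := L) F₀
  exact placeExt_injective (isConstExt_laurent F₀) (deg_eq_one_of_coord cK)

/-- uniqueness of the extension. -/
theorem eq_bcPlace_of_ord_eq (P : Place K ↥(laurentBaseChange K F₀))
    (Q : Place L ↥(laurentBaseChange L F₀))
    (hQ : ∀ x : ↥(laurentBaseChange K F₀), x ≠ 0 → Q.ord (bcHom (L := L) F₀ x) = P.ord x) :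
    Q = bcPlace F₀ cK P := by
  letI := bcAlgebra (K := K) (L := L) F₀
  letI := bcAlgebraBase (K := K) (L := L) F₀
  haveI := bcCompat_std (K := K) (L := L) F₀
  exact eq_placeExt_of_ord_eq_mul (isConstExt_laurent F₀) (deg_eq_one_of_coord cK) P Q 1 one_pos
    (fun x hx => by rw [one_mul]; exact hQ x hx)

/-- the conorm of divisors along `K·F₀ ⊆ L·F₀`. -/
noncomputable def bcConorm :
    Divisor K ↥(laurentBaseChange K F₀) →+ Divisor L ↥(laurentBaseChange L F₀) :=
  letI := bcAlgebra (K := K) (L := L) F₀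
  letI := bcAlgebraBase (K := K) (L := L) F₀
  haveI := bcCompat_std (K := K) (L := L) F₀
  conorm (isConstExt_laurent F₀) (deg_eq_one_of_coord cK)

theorem bcConorm_single (P : Place K ↥(laurentBaseChange K F₀)) (n : ℤ) :
    bcConorm (L := L) F₀ cK (Finsupp.single P n) = Finsupp.single (bcPlace F₀ cK P) n := by
  letI := bcAlgebra (K := K) (L := L) F₀
  letI := bcAlgebraBase (K := K) (L := L) F₀
  haveI := bcCompat_std (K := K) (L := L) F₀
  exact conorm_single (isConstExt_laurent F₀) (deg_eq_one_of_coord cK) P n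

theorem bcConorm_apply_bcPlace (D : Divisor K ↥(laurentBaseChange K F₀))
    (P : Place K ↥(laurentBaseChange K F₀)) :
    bcConorm (L := L) F₀ cK D (bcPlace F₀ cK P) = D P := by
  letI := bcAlgebra (K := K) (L := L) F₀
  letI := bcAlgebraBase (K := K) (L := L) F₀
  haveI := bcCompat_std (K := K) (L := L) F₀
  exact conorm_apply_placeExt (isConstExt_laurent F₀) (deg_eq_one_of_coord cK) D P

theorem bcConorm_apply_of_notMem_range (D : Divisor K ↥(laurentBaseChange K F₀))
    (Q : Place L ↥(laurentBaseChange L F₀)) (hQ : Q ∉ Set.range (bcPlace (L := L) F₀ cK)) :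
    bcConorm (L := L) F₀ cK D Q = 0 := by
  letI := bcAlgebra (K := K) (L := L) F₀
  letI := bcAlgebraBase (K := K) (L := L) F₀
  haveI := bcCompat_std (K := K) (L := L) F₀
  exact conorm_apply_of_notMem_range (isConstExt_laurent F₀) (deg_eq_one_of_coord cK) D Q hQ

theorem bcConorm_injective : Function.Injective (bcConorm (L := L) F₀ cK) := by
  letI := bcAlgebra (K := K) (L := L) F₀
  letI := bcAlgebraBase (K := K) (L := L) F₀
  haveI := bcCompat_std (K := K) (L := L) F₀
  exact conorm_injective (isConstExt_laurent F₀) (deg_eq_one_of_coord cK)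

/-- the conorm of the divisor of `f` is the divisor of `f`. -/
theorem bcConorm_apply_of_ord_one (D : Divisor K ↥(laurentBaseChange K F₀))
    (f : ↥(laurentBaseChange K F₀)) (hD : ∀ P : Place K ↥(laurentBaseChange K F₀), D P = P.ord f)
    (Q : Place L ↥(laurentBaseChange L F₀)) :
    bcConorm (L := L) F₀ cK D Q = Q.ord (bcHom (L := L) F₀ f) := by
  letI := bcAlgebra (K := K) (L := L) F₀
  letI := bcAlgebraBase (K := K) (L := L) F₀
  haveI := bcCompat_std (K := K) (L := L) F₀
  exact conorm_principal (isConstExt_laurent F₀) (deg_eq_one_of_coord cK) D f hD Q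

/-- if `n·D = div f` then `n·conorm D = div f`. -/
theorem bcConorm_apply_of_ord {n : ℕ} (D : Divisor K ↥(laurentBaseChange K F₀))
    (f : ↥(laurentBaseChange K F₀))
    (hD : ∀ P : Place K ↥(laurentBaseChange K F₀), (n : ℤ) * D P = P.ord f)
    (Q : Place L ↥(laurentBaseChange L F₀)) :
    (n : ℤ) * bcConorm (L := L) F₀ cK D Q = Q.ord (bcHom (L := L) F₀ f) := by
  have h1 := bcConorm_apply_of_ord_one (L := L) F₀ cK ((n : ℤ) • D) f (fun P => by
    rw [Finsupp.smul_apply, smul_eq_mul]
    exact hD P) Q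
  rw [map_zsmul, Finsupp.smul_apply, smul_eq_mul] at h1
  exact h1

include cL in
theorem degree_bcConorm (D : Divisor K ↥(laurentBaseChange K F₀)) :
    Divisor.degree (bcConorm (L := L) F₀ cK D) = Divisor.degree D := by
  letI := bcAlgebra (K := K) (L := L) F₀
  letI := bcAlgebraBase (K := K) (L := L) F₀
  haveI := bcCompat_std (K := K) (L := L) F₀
  exact degree_conorm (isConstExt_laurent F₀) (deg_eq_one_of_coord cK) (deg_eq_one_of_coord cL) D

include cL in
theorem bcConorm_mem_degZero {D : Divisor K ↥(laurentBaseChange K F₀)}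
    (hD : D ∈ Divisor.degZero (K := K) (F := ↥(laurentBaseChange K F₀))) :
    bcConorm (L := L) F₀ cK D ∈ Divisor.degZero (K := L) (F := ↥(laurentBaseChange L F₀)) := by
  rw [Divisor.mem_degZero, degree_bcConorm F₀ cK cL]
  exact hD

/-- the map induced by the conorm on `Pic⁰`. -/
noncomputable def bcPic0 :
    Pic0 K ↥(laurentBaseChange K F₀) →+ Pic0 L ↥(laurentBaseChange L F₀) :=
  letI := bcAlgebra (K := K) (L := L) F₀
  letI := bcAlgebraBase (K := K) (L := L) F₀
  haveI := bcCompat_std (K := K) (L := L) F₀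
  conormPic0 (isConstExt_laurent F₀) (deg_eq_one_of_coord cK) (deg_eq_one_of_coord cL)

theorem bcPic0_mk (D : Divisor.degZero (K := K) (F := ↥(laurentBaseChange K F₀))) :
    bcPic0 (L := L) F₀ cK cL (Pic0.mk D) =
      Pic0.mk ⟨bcConorm (L := L) F₀ cK (D : Divisor K ↥(laurentBaseChange K F₀)),
        bcConorm_mem_degZero F₀ cK cL D.2⟩ := rfl

theorem bcPic0_injective : Function.Injective (bcPic0 (L := L) F₀ cK cL) := by
  letI := bcAlgebra (K := K) (L := L) F₀
  letI := bcAlgebraBase (K := K) (L := L) F₀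
  haveI := bcCompat_std (K := K) (L := L) F₀
  haveI : CharZero L := algebraRat.charZero L
  exact (galDesc_laurent F₀).conormPic0_injective (isConstExt_laurent F₀)
    (deg_eq_one_of_coord cK) (deg_eq_one_of_coord cL) cL

theorem bcPic0_mem_torsion_iff (n : ℕ) (x : Pic0 K ↥(laurentBaseChange K F₀)) :
    bcPic0 (L := L) F₀ cK cL x ∈ Pic0.torsion L ↥(laurentBaseChange L F₀) n ↔
      x ∈ Pic0.torsion K ↥(laurentBaseChange K F₀) n := by
  rw [Pic0.mem_torsion, Pic0.mem_torsion, ← map_zsmul]
  constructor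
  · intro h
    apply bcPic0_injective F₀ cK cL
    rw [h, map_zero]
  · intro h
    rw [h, map_zero]

/-- **surjectivity on torsion**, given the finiteness of the `n`-torsion over `L`. -/
theorem exists_bcPic0_eq_of_mem_torsion (n : ℕ)
    (hfin : Finite ↥(Pic0.torsion L ↥(laurentBaseChange L F₀) n))
    (c : Pic0 L ↥(laurentBaseChange L F₀)) (hc : c ∈ Pic0.torsion L ↥(laurentBaseChange L F₀) n) :
    ∃ c₀ ∈ Pic0.torsion K ↥(laurentBaseChange K F₀) n, bcPic0 (L := L) F₀ cK cL c₀ = c := by
  letI := bcAlgebra (K := K) (L := L) F₀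
  letI := bcAlgebraBase (K := K) (L := L) F₀
  haveI := bcCompat_std (K := K) (L := L) F₀
  haveI : CharZero L := algebraRat.charZero L
  haveI : CharZero K := algebraRat.charZero K
  have hfin' : ((Pic0.torsion L ↥(laurentBaseChange L F₀) n :
      AddSubgroup (Pic0 L ↥(laurentBaseChange L F₀))) :
      Set (Pic0 L ↥(laurentBaseChange L F₀))).Finite := Set.toFinite _
  obtain ⟨c₀, hc₀⟩ := (galDesc_laurent F₀).exists_conormPic0_eq (isConstExt_laurent F₀)
    (deg_eq_one_of_coord cK) (deg_eq_one_of_coord cL) cK cL n hfin' c hc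
  refine ⟨c₀, ?_, hc₀⟩
  rw [← bcPic0_mem_torsion_iff F₀ cK cL]
  show conormPic0 _ _ _ c₀ ∈ _
  rw [hc₀]
  exact hc

/-- **the descent isomorphism on `n`-torsion**. -/
noncomputable def bcTorsionEquiv (n : ℕ)
    (hfin : Finite ↥(Pic0.torsion L ↥(laurentBaseChange L F₀) n)) :
    ↥(Pic0.torsion K ↥(laurentBaseChange K F₀) n) ≃+
      ↥(Pic0.torsion L ↥(laurentBaseChange L F₀) n) :=
  AddEquiv.ofBijective
    (((bcPic0 (L := L) F₀ cK cL).comp
      (Pic0.torsion K ↥(laurentBaseChange K F₀) n).subtype).codRestrict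
      (Pic0.torsion L ↥(laurentBaseChange L F₀) n)
      (fun x => (bcPic0_mem_torsion_iff F₀ cK cL n _).mpr x.2))
    ⟨fun x y hxy => Subtype.ext (bcPic0_injective F₀ cK cL (congrArg Subtype.val hxy)),
      fun c => by
        obtain ⟨c₀, hc₀, hc⟩ := exists_bcPic0_eq_of_mem_torsion F₀ cK cL n hfin c.1 c.2
        exact ⟨⟨c₀, hc₀⟩, Subtype.ext hc⟩⟩

@[simp]
theorem coe_bcTorsionEquiv_apply (n : ℕ)
    (hfin : Finite ↥(Pic0.torsion L ↥(laurentBaseChange L F₀) n))
    (x : ↥(Pic0.torsion K ↥(laurentBaseChange K F₀) n)) :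
    ((bcTorsionEquiv F₀ cK cL n hfin x : ↥(Pic0.torsion L ↥(laurentBaseChange L F₀) n)) :
      Pic0 L ↥(laurentBaseChange L F₀)) = bcPic0 F₀ cK cL (x : Pic0 K ↥(laurentBaseChange K F₀)) :=
  rfl

section Naturality

variable (τ : K ≃ₐ[ℚ] K) (σ : L ≃ₐ[ℚ] L)
  (hστ : ∀ a : K, σ (algebraMap K L a) = algebraMap K L (τ a))

include hστ in
theorem arithmeticGalois_smul_bcHom (x : ↥(laurentBaseChange K F₀)) :
    arithmeticGalois F₀ σ • bcHom (L := L) F₀ x = bcHom (L := L) F₀ (arithmeticGalois F₀ τ • x) := by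
  apply Subtype.ext
  ext n
  rw [coe_arithmeticGalois_smul, coeffMap_coeff, coe_bcHom, coeffMap_coeff, coe_bcHom,
    coeffMap_coeff, coe_arithmeticGalois_smul, coeffMap_coeff]
  exact hστ _

include hστ in
theorem bcPlace_galois_smul (P : Place K ↥(laurentBaseChange K F₀)) :
    bcPlace (L := L) F₀ cK (arithmeticGalois F₀ τ • P) =
      arithmeticGalois F₀ σ • bcPlace (L := L) F₀ cK P := by
  letI := bcAlgebra (K := K) (L := L) F₀
  letI := bcAlgebraBase (K := K) (L := L) F₀
  haveI := bcCompat_std (K := K) (L := L) F₀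
  exact placeExt_smul (isConstExt_laurent F₀) (deg_eq_one_of_coord cK) (arithmeticGalois F₀ τ)
    (arithmeticGalois F₀ σ) (arithmeticGalois_smul_bcHom F₀ τ σ hστ) P

include hστ in
theorem bcConorm_galois_smul (D : Divisor K ↥(laurentBaseChange K F₀)) :
    bcConorm (L := L) F₀ cK (arithmeticGalois F₀ τ • D) =
      arithmeticGalois F₀ σ • bcConorm (L := L) F₀ cK D := by
  letI := bcAlgebra (K := K) (L := L) F₀
  letI := bcAlgebraBase (K := K) (L := L) F₀
  haveI := bcCompat_std (K := K) (L := L) F₀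
  exact conorm_smul (isConstExt_laurent F₀) (deg_eq_one_of_coord cK) (arithmeticGalois F₀ τ)
    (arithmeticGalois F₀ σ) (arithmeticGalois_smul_bcHom F₀ τ σ hστ) D

include hστ in
/-- **naturality of the descent map** for a compatible pair of automorphisms. -/
theorem bcPic0_galois_smul (x : Pic0 K ↥(laurentBaseChange K F₀)) :
    bcPic0 (L := L) F₀ cK cL (τ • x) = σ • bcPic0 (L := L) F₀ cK cL x := by
  letI := bcAlgebra (K := K) (L := L) F₀
  letI := bcAlgebraBase (K := K) (L := L) F₀
  haveI := bcCompat_std (K := K) (L := L) F₀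
  rw [galois_smul_pic0_def, galois_smul_pic0_def]
  exact conormPic0_smul (isConstExt_laurent F₀) (deg_eq_one_of_coord cK)
    (arithmeticGalois F₀ τ) (arithmeticGalois F₀ σ) (arithmeticGalois_smul_bcHom F₀ τ σ hστ)
    (deg_eq_one_of_coord cL) x

end Naturality

end Wrap

end Fermat.Agent.GR
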