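/-
Stage (I), package K6(b) (helper5), part 4: the functions `τ ↦ j((τ + b)/ℓ)` (`b < ℓ`) and
`τ ↦ j(ℓ τ)` are pairwise distinct (injectivity of `j` on the fundamental domain).
-/
import Mathlib
import Fermat.Agent.X0N.J_helper8_Inj
import Fermat.Prelude.Def_ModularForm_HeckeOperator

set_option autoImplicit false

namespace Fermat.Agent.X0N

open UpperHalfPlane Complex ModularForm ModularGroup
open scoped MatrixGroups Modular

theorem jFun_eq_imp_eq_of_mem_fdo {z w : ℍ} (hz : z ∈ 𝒟ᵒ) (hw : w ∈ 𝒟ᵒ)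
    (h : jFun z = jFun w) : z = w := by
  obtain ⟨γ, hγ⟩ := exists_smul_eq_of_jFun_eq h
  have h1 := ModularGroup.eq_smul_self_of_mem_fdo_mem_fdo hz (hγ ▸ hw)
  rw [h1, hγ]

theorem re_heckeMatrix_smul {ℓ : ℕ} (hℓ : ℓ ≠ 0) (j : ℕ) (τ : ℍ) :
    (heckeMatrix ℓ j • τ : ℍ).re = (τ.re + j) / ℓ := by
  have h := congrArg Complex.re (coe_heckeMatrix_smul hℓ j τ)
  rw [Complex.div_natCast_re, Complex.add_re, Complex.natCast_re] at h
  exact h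

theorem im_heckeMatrix_smul {ℓ : ℕ} (hℓ : ℓ ≠ 0) (j : ℕ) (τ : ℍ) :
    (heckeMatrix ℓ j • τ : ℍ).im = τ.im / ℓ := by
  have h := congrArg Complex.im (coe_heckeMatrix_smul hℓ j τ)
  rw [Complex.div_natCast_im, Complex.add_im, Complex.natCast_im, add_zero] at h
  exact h

theorem mem_fdo_of_re_im {z : ℍ} (hre : |z.re| < 1 / 2) (him : 1 < z.im) : z ∈ 𝒟ᵒ := by
  refine ⟨?_, hre⟩
  rw [Complex.normSq_apply]
  have h1 : 0 ≤ (z : ℂ).re * (z : ℂ).re := mul_self_nonneg _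
  have h2 : (1 : ℝ) < (z : ℂ).im * (z : ℂ).im := by
    have : (z : ℂ).im = z.im := rfl
    rw [this]
    nlinarith
  linarith

/-- `j((τ + b)/ℓ) ≠ j((τ + b')/ℓ)` for `b ≠ b' < ℓ`. -/
theorem exists_jFun_heckeMatrix_ne {ℓ : ℕ} (hℓ : ℓ ≠ 0) {b b' : ℕ} (hb : b < ℓ) (hb' : b' < ℓ)
    (hne : b ≠ b') :
    ∃ τ : ℍ, jFun (heckeMatrix ℓ b • τ) ≠ jFun (heckeMatrix ℓ b' • τ) := by
  have hℓR : (0 : ℝ) < ℓ := by exact_mod_cast Nat.pos_of_ne_zero hℓ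
  set τ₀ : ℍ := UpperHalfPlane.mk ⟨-((b : ℝ) + b') / 2, 2 * ℓ⟩ (by simpa using hℓR) with hτ₀
  have hre₀ : τ₀.re = -((b : ℝ) + b') / 2 := rfl
  have him₀ : τ₀.im = 2 * ℓ := rfl
  have hbR : (b : ℝ) < ℓ := by exact_mod_cast hb
  have hb'R : (b' : ℝ) < ℓ := by exact_mod_cast hb'
  have hb0 : (0 : ℝ) ≤ b := Nat.cast_nonneg b
  have hb'0 : (0 : ℝ) ≤ b' := Nat.cast_nonneg b'
  refine ⟨τ₀, fun h => hne ?_⟩
  have him : ∀ j : ℕ, (heckeMatrix ℓ j • τ₀ : ℍ).im = 2 := by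
    intro j
    rw [im_heckeMatrix_smul hℓ, him₀]
    field_simp
  have h1 : heckeMatrix ℓ b • τ₀ ∈ 𝒟ᵒ := by
    apply mem_fdo_of_re_im
    · rw [re_heckeMatrix_smul hℓ, hre₀, abs_lt]
      constructor
      · rw [lt_div_iff₀ hℓR]; linarith
      · rw [div_lt_iff₀ hℓR]; linarith
    · rw [him]; norm_num
  have h2 : heckeMatrix ℓ b' • τ₀ ∈ 𝒟ᵒ := by
    apply mem_fdo_of_re_im
    · rw [re_heckeMatrix_smul hℓ, hre₀, abs_lt]
      constructor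
      · rw [lt_div_iff₀ hℓR]; linarith
      · rw [div_lt_iff₀ hℓR]; linarith
    · rw [him]; norm_num
  have h3 := jFun_eq_imp_eq_of_mem_fdo h1 h2 h
  have h4 := congrArg UpperHalfPlane.re h3
  rw [re_heckeMatrix_smul hℓ, re_heckeMatrix_smul hℓ, div_left_inj' hℓR.ne'] at h4
  have h5 : (b : ℝ) = b' := by linarith
  exact_mod_cast h5

/-- `j((τ + b)/ℓ) ≠ j(ℓ τ)` for `ℓ ≥ 2`. -/
theorem exists_jFun_heckeMatrix_ne_heckeDiagMatrix {ℓ : ℕ} (hℓ : 2 ≤ ℓ) (b : ℕ) :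
    ∃ τ : ℍ, jFun (heckeMatrix ℓ b • τ) ≠ jFun (heckeDiagMatrix ℓ • τ) := by
  have hℓ0 : ℓ ≠ 0 := by omega
  have hℓR : (0 : ℝ) < ℓ := by exact_mod_cast Nat.pos_of_ne_zero hℓ0
  have hℓ2 : (2 : ℝ) ≤ ℓ := by exact_mod_cast hℓ
  set τ₀ : ℍ := UpperHalfPlane.mk ⟨-(b : ℝ), 2 * ℓ⟩ (by simpa using hℓR) with hτ₀
  have hre₀ : τ₀.re = -(b : ℝ) := rfl
  have him₀ : τ₀.im = 2 * ℓ := rfl
  refine ⟨τ₀, fun h => ?_⟩
  -- translate `ℓ τ₀` back to the imaginary axis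
  set w : ℍ := ModularGroup.T ^ ((ℓ * b : ℕ) : ℤ) • (heckeDiagMatrix ℓ • τ₀) with hw
  have hjw : jFun w = jFun (heckeDiagMatrix ℓ • τ₀) := jFun_smul _ _
  have hwcoe : (w : ℂ) = (ℓ : ℂ) * (τ₀ : ℂ) + ((ℓ * b : ℕ) : ℤ) := by
    rw [hw, ModularGroup.coe_T_zpow_smul_eq, coe_heckeDiagMatrix_smul hℓ0]
  have hwre : w.re = 0 := by
    have h1 := congrArg Complex.re hwcoe
    rw [Complex.add_re, Complex.mul_re, Complex.natCast_re, Complex.natCast_im, zero_mul, sub_zero,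
      Complex.intCast_re] at h1
    have : (τ₀ : ℂ).re = -(b : ℝ) := hre₀
    rw [this] at h1
    have h2 : w.re = (w : ℂ).re := rfl
    rw [h2, h1]
    push_cast
    ring
  have hwim : w.im = 2 * ℓ * ℓ := by
    have h1 := congrArg Complex.im hwcoe
    rw [Complex.add_im, Complex.mul_im, Complex.natCast_re, Complex.natCast_im, zero_mul, add_zero,
      Complex.intCast_im, add_zero] at h1
    have : (τ₀ : ℂ).im = 2 * ℓ := him₀
    rw [this] at h1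
    have h2 : w.im = (w : ℂ).im := rfl
    rw [h2, h1]
    ring
  have h1 : heckeMatrix ℓ b • τ₀ ∈ 𝒟ᵒ := by
    apply mem_fdo_of_re_im
    · rw [re_heckeMatrix_smul hℓ0, hre₀]
      simp
    · rw [im_heckeMatrix_smul hℓ0, him₀]
      rw [lt_div_iff₀ hℓR]; linarith
  have h2 : w ∈ 𝒟ᵒ := by
    apply mem_fdo_of_re_im
    · rw [hwre]; simp
    · rw [hwim]; nlinarith
  have h3 := jFun_eq_imp_eq_of_mem_fdo h1 h2 (h.trans hjw.symm)
  have h4 := congrArg UpperHalfPlane.im h3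
  rw [im_heckeMatrix_smul hℓ0, him₀, hwim] at h4
  have h5 : (2 : ℝ) * ℓ / ℓ = 2 := by field_simp
  rw [h5] at h4
  nlinarith

end Fermat.Agent.X0N
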