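/-
Stage (I), package K6(b) (helper5), part 3: the norm of a finite separable extension as the product
over a full family of embeddings into an arbitrary field.
-/
import Mathlib

set_option autoImplicit false
set_option linter.style.haveILetI false

namespace Fermat.Agent.GR

/-- if `σ i : F' →+* M` (`i ∈ I`) are `[F' : F]` pairwise distinct ring homomorphisms into a field
`M`, all restricting to `φ₀` on `F`, then `φ₀ (N_{F'/F} z) = ∏ i, σ i z`. -/
theorem norm_eq_prod_of_card_eq {F F' M : Type*} [Field F] [Field F'] [Field M] [Algebra F F']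
    [FiniteDimensional F F'] [Algebra.IsSeparable F F'] (φ₀ : F →+* M) {I : Type*} [Fintype I]
    (σ : I → (F' →+* M)) (hσ : ∀ i r, σ i (algebraMap F F' r) = φ₀ r)
    (hinj : Function.Injective σ) (hcard : Fintype.card I = Module.finrank F F') (z : F') :
    φ₀ (Algebra.norm F z) = ∏ i, σ i z := by
  let Ebar := AlgebraicClosure M
  let ιE : M →+* Ebar := algebraMap M Ebar
  have hιE : Function.Injective ιE := ιE.injective
  letI algFE : Algebra F Ebar := (ιE.comp φ₀).toAlgebra
  let emb : I → (F' →ₐ[F] Ebar) := fun i =>
    { toRingHom := ιE.comp (σ i)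
      commutes' := fun r => by
        show ιE (σ i (algebraMap F F' r)) = ιE (φ₀ r)
        rw [hσ] }
  have hemb : ∀ i w, emb i w = ιE (σ i w) := fun _ _ => rfl
  have hembinj : Function.Injective emb := by
    intro i i' h
    apply hinj
    ext w
    have h1 := congrArg (fun τ : F' →ₐ[F] Ebar => τ w) h
    exact hιE h1
  have hcard' : Fintype.card I = Fintype.card (F' →ₐ[F] Ebar) := by
    rw [AlgHom.card F F' Ebar, hcard]
  have hbij : Function.Bijective emb :=
    (Fintype.bijective_iff_injective_and_card emb).mpr ⟨hembinj, hcard'⟩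
  have hnorm := Algebra.norm_eq_prod_embeddings F Ebar z
  rw [← Fintype.prod_bijective emb hbij (fun i => emb i z) (fun τ => τ z) (fun _ => rfl)] at hnorm
  have hL : algebraMap F Ebar (Algebra.norm F z) = ιE (φ₀ (Algebra.norm F z)) := rfl
  rw [hL, Finset.prod_congr rfl (fun i _ => hemb i z), ← map_prod] at hnorm
  exact hιE hnorm

end Fermat.Agent.GR
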