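/-
Stage (I), package K6(b) (helper5), part 5: **the analytic norm formula**.  For every prime `ℓ`,
every field `k ⊆ ℂ` and `f ∈ F_N = k(j(q^d) : d ∣ N)`:
`realN (N_{F_{Nℓ}/βF_N} (α f)) (τ) = ∏_{b < ℓ} realN f ((τ + b)/ℓ) · [ℓ ∤ N] realN f (ℓ τ)`.
-/
import Mathlib
import Fermat.Agent.GR.ANORM_helper5_Fricke
import Fermat.Agent.GR.ANORM_helper5_NormGen
import Fermat.Agent.GR.ANORM_helper5_Distinct
import Fermat.Agent.JA.H0_helper7_Main

set_option autoImplicit false
set_option linter.style.haveILetI false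
set_option linter.unusedSectionVars false

namespace Fermat.Agent.X0N

open UpperHalfPlane Complex Filter Topology ModularCurve IntermediateField ModularForm
open Fermat.Agent.RatStr AlgebraicCurve Fermat.Agent.GR
open scoped MatrixGroups Manifold

/-! ### the maps `τ ↦ (τ + b)/ℓ` -/

theorem T_zpow_mem_Gamma0 (N : ℕ) (n : ℤ) : ModularGroup.T ^ n ∈ CongruenceSubgroup.Gamma0 N := by
  rw [CongruenceSubgroup.Gamma0_mem, ModularGroup.coe_T_zpow]
  simp

theorem heckeDiagMatrix_smul_heckeMatrix_smul {ℓ : ℕ} (hℓ : ℓ ≠ 0) (b : ℕ) (τ : ℍ) :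
    heckeDiagMatrix ℓ • (heckeMatrix ℓ b • τ) =
      ((ModularGroup.T ^ (b : ℤ) : SL(2, ℤ)) : GL (Fin 2) ℝ) • τ := by
  have hℓC : (ℓ : ℂ) ≠ 0 := by exact_mod_cast hℓ
  have h1 : ((ModularGroup.T ^ (b : ℤ) : SL(2, ℤ)) : GL (Fin 2) ℝ) • τ =
      (ModularGroup.T ^ (b : ℤ)) • τ := rfl
  apply UpperHalfPlane.ext
  rw [h1, coe_heckeDiagMatrix_smul hℓ, coe_heckeMatrix_smul hℓ, ModularGroup.coe_T_zpow_smul_eq]
  push_cast
  field_simp

/-- `x(ℓ · (τ + b)/ℓ) = x(τ)` for a `T`-invariant `x`. -/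
theorem MerH.compGL_heckeMatrix_dilate {ℓ : ℕ} (hℓ : ℓ ≠ 0) (b : ℕ) (x : MerH)
    (hx : MerH.comp (ModularGroup.T ^ (b : ℤ)) x = x) :
    MerH.compGL (heckeMatrix ℓ b) (det_heckeMatrix_pos ℓ b) (MerH.dilate ℓ x) = x := by
  have hdet : 0 < ((((ModularGroup.T ^ (b : ℤ) : SL(2, ℤ)) : GL (Fin 2) ℝ)).det : ℝ) := by simp
  rw [← MerH.compGL_heckeDiagMatrix,
    MerH.compGL_compGL_of_smul (det_heckeMatrix_pos ℓ b) (det_heckeDiagMatrix_pos ℓ) hdet
      (heckeDiagMatrix_smul_heckeMatrix_smul hℓ b) x,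
    MerH.compGL_mapGL, hx]

section Embeddings

variable {k : Type*} [Field k] [Algebra ℚ k] [Algebra k ℂ] [IsScalarTower ℚ k ℂ]
  (N ℓ : ℕ) [NeZero N] [NeZero ℓ] [NeZero (N * ℓ)]

/-- the conjugate embedding `z ↦ z((τ + b)/ℓ)` of `F_{Nℓ}` over `β F_N`. -/
noncomputable def sigmaB (b : ℕ) :
    ↥(laurentBaseChange k (modularFunctionFieldFull (N * ℓ))) →+* MerH :=
  (MerH.compGL (heckeMatrix ℓ b) (det_heckeMatrix_pos ℓ b)).comp (realN (algebraMap k ℂ) (N * ℓ))

theorem sigmaB_apply (b : ℕ) (z : ↥(laurentBaseChange k (modularFunctionFieldFull (N * ℓ)))) :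
    sigmaB N ℓ b z = MerH.compGL (heckeMatrix ℓ b) (det_heckeMatrix_pos ℓ b)
      (realN (algebraMap k ℂ) (N * ℓ) z) := rfl

theorem sigmaB_beta (b : ℕ) (r : ↥(laurentBaseChange k (modularFunctionFieldFull N))) :
    sigmaB N ℓ b (heckeBetaBar k N ℓ r) = realN (algebraMap k ℂ) N r := by
  rw [sigmaB_apply, realN_heckeBetaBar]
  exact MerH.compGL_heckeMatrix_dilate (NeZero.ne ℓ) b _
    (comp_realN_of_mem_Gamma0 (algebraMap k ℂ) N (T_zpow_mem_Gamma0 N b) r)

theorem sigmaB_alpha (b : ℕ) (f : ↥(laurentBaseChange k (modularFunctionFieldFull N))) :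
    sigmaB N ℓ b (heckeAlphaBar k N ℓ f) =
      MerH.compGL (heckeMatrix ℓ b) (det_heckeMatrix_pos ℓ b) (realN (algebraMap k ℂ) N f) := by
  rw [sigmaB_apply, realN_heckeAlphaBar]

theorem sigmaB_jGen (b : ℕ) :
    sigmaB N ℓ b (heckeAlphaBar k N ℓ (jGen k N)) =
      MerH.ofHol (HolH.compGLHom (heckeMatrix ℓ b) (det_heckeMatrix_pos ℓ b) jHol) := by
  rw [sigmaB_alpha, realN_jGen, MerH.compGL_ofHol]

theorem sigmaB_injective : Function.Injective (fun b : Fin ℓ => sigmaB (k := k) N ℓ (b : ℕ)) := by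
  intro b b' h
  by_contra hne
  have hne' : (b : ℕ) ≠ (b' : ℕ) := fun h' => hne (Fin.ext h')
  obtain ⟨τ, hτ⟩ := exists_jFun_heckeMatrix_ne (NeZero.ne ℓ) b.2 b'.2 hne'
  apply hτ
  have h1 := congrArg (fun σ : ↥(laurentBaseChange k (modularFunctionFieldFull (N * ℓ))) →+* MerH =>
    σ (heckeAlphaBar k N ℓ (jGen k N))) h
  simp only [sigmaB_jGen] at h1
  have h2 := MerH.ofHol_injective h1
  have h3 := congrFun (congrArg Subtype.val h2) τ
  exact h3

variable {N ℓ} {x y : ℤ} (h : (ℓ : ℤ) * x + N * y = 1)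

/-- the conjugate embedding at infinity `z ↦ (W z)(τ)` of `F_{Nℓ}` over `β F_N` (`ℓ ∤ N`). -/
noncomputable def sigmaInfty :
    ↥(laurentBaseChange k (modularFunctionFieldFull (N * ℓ))) →+* MerH :=
  (MerH.atkinLehner h).comp (realN (algebraMap k ℂ) (N * ℓ))

theorem sigmaInfty_apply (z : ↥(laurentBaseChange k (modularFunctionFieldFull (N * ℓ)))) :
    sigmaInfty (k := k) h z = MerH.atkinLehner h (realN (algebraMap k ℂ) (N * ℓ) z) := rfl

theorem sigmaInfty_beta (r : ↥(laurentBaseChange k (modularFunctionFieldFull N))) :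
    sigmaInfty (k := k) h (heckeBetaBar k N ℓ r) = realN (algebraMap k ℂ) N r := by
  rw [sigmaInfty_apply, atkinLehner_realN_beta, realN_heckeAlphaBar]

theorem sigmaInfty_alpha (f : ↥(laurentBaseChange k (modularFunctionFieldFull N))) :
    sigmaInfty (k := k) h (heckeAlphaBar k N ℓ f) =
      MerH.compGL (heckeDiagMatrix ℓ) (det_heckeDiagMatrix_pos ℓ)
        (realN (algebraMap k ℂ) N f) := by
  rw [sigmaInfty_apply, atkinLehner_realN_alpha, realN_heckeBetaBar, MerH.compGL_heckeDiagMatrix]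

theorem sigmaInfty_jGen :
    sigmaInfty (k := k) h (heckeAlphaBar k N ℓ (jGen k N)) =
      MerH.ofHol (HolH.compGLHom (heckeDiagMatrix ℓ) (det_heckeDiagMatrix_pos ℓ) jHol) := by
  rw [sigmaInfty_alpha, realN_jGen, MerH.compGL_ofHol]

end Embeddings

section NormFormula

variable {k : Type*} [Field k] [Algebra ℚ k] [Algebra k ℂ] [IsScalarTower ℚ k ℂ]
  (N ℓ : ℕ) [NeZero N] [NeZero ℓ] [NeZero (N * ℓ)]

theorem finiteAlong_heckeBetaBar_of_le_complex :
    FiniteAlong k (heckeBetaBar k N ℓ) :=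
  Fermat.Agent.JA.finiteAlong_of_coord (jCoordK k N) (jCoordK k (N * ℓ)) _

theorem finiteAlong_heckeAlphaBar_of_le_complex :
    FiniteAlong k (heckeAlphaBar k N ℓ) :=
  Fermat.Agent.JA.finiteAlong_of_coord (jCoordK k N) (jCoordK k (N * ℓ)) _

/-- **the analytic norm formula, `ℓ ∣ N`**: for `z ∈ F_{Nℓ}`,
`(N_{F_{Nℓ}/βF_N} z)(τ) = ∏_{b < ℓ} z((τ + b)/ℓ)`. -/
theorem realN_norm_heckeBetaBar_of_dvd (hℓ : ℓ.Prime) (hℓN : ℓ ∣ N)
    (z : ↥(laurentBaseChange k (modularFunctionFieldFull (N * ℓ)))) :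
    letI := algebraAlong (heckeBetaBar k N ℓ)
    realN (algebraMap k ℂ) N
        (Algebra.norm ↥(laurentBaseChange k (modularFunctionFieldFull N)) z) =
      ∏ b : Fin ℓ, MerH.compGL (heckeMatrix ℓ b) (det_heckeMatrix_pos ℓ b)
        (realN (algebraMap k ℂ) (N * ℓ) z) := by
  letI := algebraAlong (heckeBetaBar k N ℓ)
  haveI hfin : FiniteDimensional ↥(laurentBaseChange k (modularFunctionFieldFull N))
      ↥(laurentBaseChange k (modularFunctionFieldFull (N * ℓ))) :=
    finiteAlong_heckeBetaBar_of_le_complex N ℓ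
  haveI : CharZero k := algebraRat.charZero k
  haveI : CharZero ↥(laurentBaseChange k (modularFunctionFieldFull N)) :=
    charZero_of_injective_algebraMap
      (algebraMap k ↥(laurentBaseChange k (modularFunctionFieldFull N))).injective
  haveI : Algebra.IsSeparable ↥(laurentBaseChange k (modularFunctionFieldFull N))
      ↥(laurentBaseChange k (modularFunctionFieldFull (N * ℓ))) :=
    Algebra.IsAlgebraic.isSeparable_of_perfectField
  have hdeg := finrankAlong_heckeBetaBar (k := k) N ℓ hℓ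
  rw [if_pos hℓN] at hdeg
  exact norm_eq_prod_of_card_eq (realN (algebraMap k ℂ) N)
    (fun b : Fin ℓ => sigmaB (k := k) N ℓ (b : ℕ)) (fun b r => sigmaB_beta N ℓ b r)
    (sigmaB_injective N ℓ) (by rw [Fintype.card_fin]; exact hdeg.symm) z

/-- **the analytic norm formula, `ℓ ∤ N`**: for `z ∈ F_{Nℓ}`,
`(N_{F_{Nℓ}/βF_N} z)(τ) = ∏_{b < ℓ} z((τ + b)/ℓ) · (W z)(τ)`. -/
theorem realN_norm_heckeBetaBar_of_not_dvd (hℓ : ℓ.Prime) (hℓN : ¬ ℓ ∣ N) {x y : ℤ}
    (h : (ℓ : ℤ) * x + N * y = 1)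
    (z : ↥(laurentBaseChange k (modularFunctionFieldFull (N * ℓ)))) :
    letI := algebraAlong (heckeBetaBar k N ℓ)
    realN (algebraMap k ℂ) N
        (Algebra.norm ↥(laurentBaseChange k (modularFunctionFieldFull N)) z) =
      (∏ b : Fin ℓ, MerH.compGL (heckeMatrix ℓ b) (det_heckeMatrix_pos ℓ b)
        (realN (algebraMap k ℂ) (N * ℓ) z)) *
        MerH.atkinLehner h (realN (algebraMap k ℂ) (N * ℓ) z) := by
  letI := algebraAlong (heckeBetaBar k N ℓ)
  haveI hfin : FiniteDimensional ↥(laurentBaseChange k (modularFunctionFieldFull N))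
      ↥(laurentBaseChange k (modularFunctionFieldFull (N * ℓ))) :=
    finiteAlong_heckeBetaBar_of_le_complex N ℓ
  haveI : CharZero k := algebraRat.charZero k
  haveI : CharZero ↥(laurentBaseChange k (modularFunctionFieldFull N)) :=
    charZero_of_injective_algebraMap
      (algebraMap k ↥(laurentBaseChange k (modularFunctionFieldFull N))).injective
  haveI : Algebra.IsSeparable ↥(laurentBaseChange k (modularFunctionFieldFull N))
      ↥(laurentBaseChange k (modularFunctionFieldFull (N * ℓ))) :=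
    Algebra.IsAlgebraic.isSeparable_of_perfectField
  have hdeg := finrankAlong_heckeBetaBar (k := k) N ℓ hℓ
  rw [if_neg hℓN] at hdeg
  let σ : Option (Fin ℓ) → (↥(laurentBaseChange k (modularFunctionFieldFull (N * ℓ))) →+* MerH) :=
    fun o => o.elim (sigmaInfty (k := k) h) (fun b => sigmaB (k := k) N ℓ (b : ℕ))
  have hσβ : ∀ o r, σ o (algebraMap _ _ r) = realN (algebraMap k ℂ) N r := by
    intro o r
    cases o with
    | none => exact sigmaInfty_beta h r
    | some b => exact sigmaB_beta N ℓ b r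
  have hσinj : Function.Injective σ := by
    intro o o' hoo'
    cases o with
    | none =>
      cases o' with
      | none => rfl
      | some b' =>
        exfalso
        obtain ⟨τ, hτ⟩ := exists_jFun_heckeMatrix_ne_heckeDiagMatrix hℓ.two_le (b' : ℕ)
        apply hτ
        have h1 := congrArg (fun φ : ↥(laurentBaseChange k (modularFunctionFieldFull (N * ℓ))) →+*
          MerH => φ (heckeAlphaBar k N ℓ (jGen k N))) hoo'
        have h1' : sigmaInfty (k := k) h (heckeAlphaBar k N ℓ (jGen k N)) =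
            sigmaB (k := k) N ℓ (b' : ℕ) (heckeAlphaBar k N ℓ (jGen k N)) := h1
        rw [sigmaInfty_jGen, sigmaB_jGen] at h1'
        have h2 := MerH.ofHol_injective h1'
        exact (congrFun (congrArg Subtype.val h2) τ).symm
    | some b =>
      cases o' with
      | none =>
        exfalso
        obtain ⟨τ, hτ⟩ := exists_jFun_heckeMatrix_ne_heckeDiagMatrix hℓ.two_le (b : ℕ)
        apply hτ
        have h1 := congrArg (fun φ : ↥(laurentBaseChange k (modularFunctionFieldFull (N * ℓ))) →+*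
          MerH => φ (heckeAlphaBar k N ℓ (jGen k N))) hoo'
        have h1' : sigmaB (k := k) N ℓ (b : ℕ) (heckeAlphaBar k N ℓ (jGen k N)) =
            sigmaInfty (k := k) h (heckeAlphaBar k N ℓ (jGen k N)) := h1
        rw [sigmaInfty_jGen, sigmaB_jGen] at h1'
        have h2 := MerH.ofHol_injective h1'
        exact congrFun (congrArg Subtype.val h2) τ
      | some b' =>
        have h1 : (fun b : Fin ℓ => sigmaB (k := k) N ℓ (b : ℕ)) b =
            (fun b : Fin ℓ => sigmaB (k := k) N ℓ (b : ℕ)) b' := hoo'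
        exact congrArg some (sigmaB_injective N ℓ h1)
  have hmain := norm_eq_prod_of_card_eq (realN (algebraMap k ℂ) N) σ hσβ hσinj
    (by rw [Fintype.card_option, Fintype.card_fin]; exact hdeg.symm) z
  rw [hmain, Fintype.prod_option, mul_comm]
  rfl

/-- **the analytic norm formula for `α f`** (every prime `ℓ`):
`(N_{F_{Nℓ}/βF_N} (α f))(τ) = ∏_{b < ℓ} f((τ + b)/ℓ) · [ℓ ∤ N] f(ℓ τ)`. -/
theorem realN_norm_heckeAlphaBar (hℓ : ℓ.Prime)
    (f : ↥(laurentBaseChange k (modularFunctionFieldFull N))) :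
    letI := algebraAlong (heckeBetaBar k N ℓ)
    realN (algebraMap k ℂ) N
        (Algebra.norm ↥(laurentBaseChange k (modularFunctionFieldFull N))
          (heckeAlphaBar k N ℓ f)) =
      (∏ b : Fin ℓ, MerH.compGL (heckeMatrix ℓ b) (det_heckeMatrix_pos ℓ b)
        (realN (algebraMap k ℂ) N f)) *
        (if ℓ ∣ N then 1 else MerH.compGL (heckeDiagMatrix ℓ) (det_heckeDiagMatrix_pos ℓ)
          (realN (algebraMap k ℂ) N f)) := by
  by_cases hℓN : ℓ ∣ N
  · rw [if_pos hℓN, mul_one, realN_norm_heckeBetaBar_of_dvd N ℓ hℓ hℓN]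
    refine Finset.prod_congr rfl fun b _ => ?_
    rw [realN_heckeAlphaBar]
  · rw [if_neg hℓN]
    have hcop : IsCoprime (ℓ : ℤ) (N : ℤ) := by
      rw [Nat.isCoprime_iff_coprime]
      exact (Nat.Prime.coprime_iff_not_dvd hℓ).mpr hℓN
    obtain ⟨x, y, hxy⟩ := hcop
    have h : (ℓ : ℤ) * x + N * y = 1 := by rw [← hxy]; ring
    have e := sigmaInfty_alpha (k := k) h f
    rw [sigmaInfty_apply] at e
    rw [realN_norm_heckeBetaBar_of_not_dvd N ℓ hℓ hℓN h, e, realN_heckeAlphaBar]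

end NormFormula

end Fermat.Agent.X0N
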