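/-
Stage (I), package K6(c), second half (helper4), part 1 (generic): **the Kummer character of
`u' = ∏ᵢ u ∘ αᵢ` is the group-theoretic Hecke transform of the Kummer character of `u`.**

`D` a Hecke datum for a subgroup `Γ ≤ SL(2, ℤ)` inside `GL₂(ℝ)` with representatives `αᵢ` of
positive determinant; `u ∈ MerH` with `u ∘ γ = χ(γ) u`.  Writing `αᵢ γ = cᵢ α_{σ i}`,
`u' ∘ γ = ∏ᵢ u ∘ (cᵢ α_{σ i}) = (∏ᵢ χ(cᵢ)) u'`.
-/
import Mathlib
import Fermat.Agent.GR.HGRP_helper2_Abstract
import Fermat.Agent.GR.CHAR_helper8_Kummer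
import Fermat.Agent.GR.ANORM_helper5_CompGL

set_option autoImplicit false
set_option linter.style.haveILetI false
set_option linter.unusedSectionVars false

open UpperHalfPlane hiding I
open Complex
open scoped MatrixGroups

namespace Fermat.Agent.GR

open Fermat.Agent.X0N

section CompGL

/-- positivity of the determinant of a product. -/
theorem det_mul_pos_of_pos {g h : GL (Fin 2) ℝ} (hg : 0 < (g.det : ℝ)) (hh : 0 < (h.det : ℝ)) :
    0 < ((h * g).det : ℝ) := by
  rw [map_mul, Units.val_mul]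
  exact mul_pos hh hg

theorem det_mapGL_pos (γ : SL(2, ℤ)) : 0 < (((γ : GL (Fin 2) ℝ)).det : ℝ) := by
  simp

/-- `x ∘ h ∘ g = x ∘ h' ∘ g'` if `h g = h' g'`. -/
theorem compGL_compGL_of_mul_eq {g h g' h' : GL (Fin 2) ℝ} (hg : 0 < (g.det : ℝ))
    (hh : 0 < (h.det : ℝ)) (hg' : 0 < (g'.det : ℝ)) (hh' : 0 < (h'.det : ℝ))
    (e : h * g = h' * g') (x : MerH) :
    MerH.compGL g hg (MerH.compGL h hh x) = MerH.compGL g' hg' (MerH.compGL h' hh' x) := by
  rw [MerH.compGL_compGL g h hg hh (det_mul_pos_of_pos hg hh),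
    MerH.compGL_compGL g' h' hg' hh' (det_mul_pos_of_pos hg' hh')]
  exact MerH.compGL_congr _ _ (fun τ => by rw [e]) x

end CompGL

/-- an additive character maps finite sums to products. -/
theorem addChar_map_finset_sum {A M ι : Type*} [AddCommMonoid A] [CommMonoid M] (ψ : AddChar A M)
    (s : Finset ι) (f : ι → A) : ψ (∑ i ∈ s, f i) = ∏ i ∈ s, ψ (f i) := by
  classical
  induction s using Finset.induction_on with
  | empty => simp
  | insert a s ha ih =>
    rw [Finset.sum_insert ha, Finset.prod_insert ha, AddChar.map_add_eq_mul, ih]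

section HeckeProd

variable {Γ : Subgroup SL(2, ℤ)} {ι : Type*} [Fintype ι]
  (D : HeckeDatum ↥Γ (GL (Fin 2) ℝ) ι) (hdet : ∀ i, 0 < ((D.α i).det : ℝ))

/-- `u' = ∏ᵢ u ∘ αᵢ`, the product of the translates of `u` by the Hecke representatives. -/
noncomputable def heckeProd (u : MerH) : MerH := ∏ i, MerH.compGL (D.α i) (hdet i) u

theorem heckeProd_ne_zero {u : MerH} (hu : u ≠ 0) : heckeProd D hdet u ≠ 0 :=
  Finset.prod_ne_zero_iff.mpr fun _ _ => (map_ne_zero _).mpr hu

theorem heckeProd_pow (u : MerH) (n : ℕ) : heckeProd D hdet u ^ n = heckeProd D hdet (u ^ n) := by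
  unfold heckeProd
  rw [← Finset.prod_pow]
  exact Finset.prod_congr rfl fun i _ => (map_pow _ _ _).symm

theorem heckeProd_mul (u v : MerH) :
    heckeProd D hdet (u * v) = heckeProd D hdet u * heckeProd D hdet v := by
  unfold heckeProd
  rw [← Finset.prod_mul_distrib]
  exact Finset.prod_congr rfl fun i _ => map_mul _ _ _

variable (hD : ∀ γ : Γ, D.e γ = ((γ : SL(2, ℤ)) : GL (Fin 2) ℝ))

include hD in
/-- `(u ∘ αᵢ) ∘ γ = χ(cᵢ) · u ∘ α_{σ i}` where `αᵢ γ = cᵢ α_{σ i}`. -/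
theorem comp_compGL_of_char {u : MerH} (χ : Γ → ℂ)
    (hχ : ∀ γ : Γ, MerH.comp (γ : SL(2, ℤ)) u = MerH.const (χ γ) * u) (γ : Γ) (i : ι) :
    MerH.comp (γ : SL(2, ℤ)) (MerH.compGL (D.α i) (hdet i) u) =
      MerH.const (χ (D.cocycle γ i)) *
        MerH.compGL (D.α (D.perm γ i)) (hdet (D.perm γ i)) u := by
  rw [← MerH.compGL_mapGL (γ : SL(2, ℤ)) (det_mapGL_pos _),
    compGL_compGL_of_mul_eq (det_mapGL_pos _) (hdet i) (hdet (D.perm γ i))
      (det_mapGL_pos ((D.cocycle γ i : Γ) : SL(2, ℤ)))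
      (by rw [← hD, ← hD]; exact D.spec γ i) u,
    MerH.compGL_mapGL, hχ, map_mul, MerH.compGL_const]

variable {n : ℕ} [NeZero n]

include hD in
/-- **the character of `u' = ∏ᵢ u ∘ αᵢ` is the group-theoretic Hecke transform of the character
of `u`.** -/
theorem comp_heckeProd_of_char {u : MerH} (ψ : Additive Γ →+ ZMod n)
    (hψ : ∀ γ : Γ, MerH.comp (γ : SL(2, ℤ)) u =
      MerH.const (ZMod.stdAddChar (ψ (Additive.ofMul γ))) * u) (γ : Γ) :
    MerH.comp (γ : SL(2, ℤ)) (heckeProd D hdet u) =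
      MerH.const (ZMod.stdAddChar (D.heckeGrp (ZMod n) ψ (Additive.ofMul γ))) *
        heckeProd D hdet u := by
  unfold heckeProd
  rw [map_prod, Finset.prod_congr rfl (fun i _ => comp_compGL_of_char D hdet hD
      (fun γ => ZMod.stdAddChar (ψ (Additive.ofMul γ))) hψ γ i),
    Finset.prod_mul_distrib]
  congr 1
  · rw [HeckeDatum.heckeGrp_apply, addChar_map_finset_sum, map_prod]
  · exact Equiv.prod_comp (D.permEquiv γ) (fun i => MerH.compGL (D.α i) (hdet i) u)

include hD in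
theorem isKummerElt_heckeProd {u : MerH} (hu : IsKummerElt Γ n u) :
    IsKummerElt Γ n (heckeProd D hdet u) :=
  isKummerElt_of_char (heckeProd_ne_zero D hdet hu.1)
    (fun γ => D.heckeGrp (ZMod n) (kummerChar Γ n u) (Additive.ofMul γ))
    (comp_heckeProd_of_char D hdet hD (kummerChar Γ n u) (kummerChar_spec hu))

include hD in
/-- **`χ_{u'} = T^grp χ_u`.** -/
theorem kummerChar_heckeProd {u : MerH} (hu : IsKummerElt Γ n u) :
    kummerChar Γ n (heckeProd D hdet u) = D.heckeGrp (ZMod n) (kummerChar Γ n u) :=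
  kummerChar_eq_of_spec (heckeProd_ne_zero D hdet hu.1) _
    (comp_heckeProd_of_char D hdet hD (kummerChar Γ n u) (kummerChar_spec hu))

end HeckeProd

end Fermat.Agent.GR
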