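/-
Stage (I), package K6(c), second half (helper4), part 2: **(hecke) `κ (T'_ℓ x) = T^grp_ℓ (κ x)`**.

* `heckeProdP N ℓ u = ∏_b u((τ + b)/ℓ) · [ℓ ∤ N] u(ℓ τ)` (helper2's representatives);
  `heckeProdP_pow_eq` : it is an `n`-th root of `N_β(α f)` if `u ^ n = f` (helper5's analytic norm
  formula), for every field `k ⊆ ℂ`; `kummerChar_heckeProdP` : `χ_{u'} = T^grp_ℓ χ_u`;
* `kappa_heckeSwapCTors` : `κ (T'_ℓ x) = T^grp_ℓ (κ x)` over `ℂ` for every prime `ℓ`;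
* `hecke_compat_of_kummerChar` : the same for any map computed by Kummer characters of roots, in
  `k`-divisor form (`k ⊆ ℂ` algebraically closed) — for the final `kap` on `J₀(N)(ℚ̄)[n]`.
-/
import Mathlib
import Fermat.Agent.GR.KHECKE_helper4_Generic
import Fermat.Agent.GR.CHAR_helper8_Main
import Fermat.Agent.GR.MULT1_helper2_Ops
import Fermat.Agent.GR.ANORM_helper5_Main
import Fermat.Agent.GR.TSWAP_helper4_Main

set_option autoImplicit false
set_option linter.style.haveILetI false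
set_option linter.unusedSectionVars false

open UpperHalfPlane hiding I
open Complex ModularGroup ModularCurve CongruenceSubgroup AlgebraicCurve ModularForm
open scoped MatrixGroups

namespace Fermat.Agent.GR

open Fermat.Agent.X0N Fermat.Agent.JA Fermat.Agent.FF

section Roots

variable {k : Type*} [Field k] [Algebra ℚ k] [Algebra k ℂ] [IsScalarTower ℚ k ℂ]
  (N ℓ : ℕ) [NeZero N]

theorem det_heckeDatumT_pos (hℓ : ℓ.Prime) (hℓN : ¬ ℓ ∣ N) (i : Option (Fin ℓ)) :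
    0 < (((heckeDatumT N ℓ hℓ hℓN).α i).det : ℝ) := by
  cases i with
  | none => exact det_heckeDiagMatrix_pos ℓ
  | some b => exact det_heckeMatrix_pos ℓ b

theorem det_heckeDatumU_pos (hℓ : ℓ.Prime) (hℓN : ℓ ∣ N) (b : Fin ℓ) :
    0 < (((heckeDatumU N ℓ hℓ hℓN).α b).det : ℝ) :=
  det_heckeMatrix_pos ℓ b

/-- the product of the `T_ℓ`-translates of `u` (`ℓ ∤ N`). -/
noncomputable def heckeProdT (hℓ : ℓ.Prime) (hℓN : ¬ ℓ ∣ N) (u : MerH) : MerH :=
  heckeProd (heckeDatumT N ℓ hℓ hℓN) (det_heckeDatumT_pos N ℓ hℓ hℓN) u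

/-- the product of the `U_ℓ`-translates of `u` (`ℓ ∣ N`). -/
noncomputable def heckeProdU (hℓ : ℓ.Prime) (hℓN : ℓ ∣ N) (u : MerH) : MerH :=
  heckeProd (heckeDatumU N ℓ hℓ hℓN) (det_heckeDatumU_pos N ℓ hℓ hℓN) u

/-- **`u'` is an `n`-th root of `N_β(α f)`** (`ℓ ∤ N`). -/
theorem heckeProdT_pow_eq [NeZero ℓ] (hℓ : ℓ.Prime) (hℓN : ¬ ℓ ∣ N) {n : ℕ}
    {f : ↥(laurentBaseChange k (modularFunctionFieldFull N))} {u : MerH}
    (hu : u ^ n = realN (algebraMap k ℂ) N f) :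
    heckeProdT N ℓ hℓ hℓN u ^ n =
      realN (algebraMap k ℂ) N (normAlong (heckeBetaBar k N ℓ) (heckeAlphaBar k N ℓ f)) := by
  have h := realN_norm_heckeAlphaBar (k := k) N ℓ hℓ f
  rw [if_neg hℓN] at h
  unfold heckeProdT
  rw [heckeProd_pow, hu]
  unfold heckeProd
  rw [Fintype.prod_option, mul_comm]
  exact h.symm

/-- **`u'` is an `n`-th root of `N_β(α f)`** (`ℓ ∣ N`). -/
theorem heckeProdU_pow_eq [NeZero ℓ] (hℓ : ℓ.Prime) (hℓN : ℓ ∣ N) {n : ℕ}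
    {f : ↥(laurentBaseChange k (modularFunctionFieldFull N))} {u : MerH}
    (hu : u ^ n = realN (algebraMap k ℂ) N f) :
    heckeProdU N ℓ hℓ hℓN u ^ n =
      realN (algebraMap k ℂ) N (normAlong (heckeBetaBar k N ℓ) (heckeAlphaBar k N ℓ f)) := by
  have h := realN_norm_heckeAlphaBar (k := k) N ℓ hℓ f
  rw [if_pos hℓN, mul_one] at h
  unfold heckeProdU
  rw [heckeProd_pow, hu]
  exact h.symm

end Roots

section Uniform

variable {k : Type*} [Field k] [Algebra ℚ k] [Algebra k ℂ] [IsScalarTower ℚ k ℂ]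
  (N : ℕ) [NeZero N] (ℓ : Nat.Primes)

/-- **`u' = ∏_b u((τ + b)/ℓ) · [ℓ ∤ N] u(ℓ τ)`**, uniformly in the prime `ℓ`. -/
noncomputable def heckeProdP (u : MerH) : MerH :=
  if h : (ℓ : ℕ) ∣ N then heckeProdU N ℓ ℓ.2 h u else heckeProdT N ℓ ℓ.2 h u

variable {N ℓ}

theorem heckeProdP_of_dvd (h : (ℓ : ℕ) ∣ N) (u : MerH) :
    heckeProdP N ℓ u = heckeProdU N ℓ ℓ.2 h u := by
  rw [heckeProdP, dif_pos h]

theorem heckeProdP_of_not_dvd (h : ¬ (ℓ : ℕ) ∣ N) (u : MerH) :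
    heckeProdP N ℓ u = heckeProdT N ℓ ℓ.2 h u := by
  rw [heckeProdP, dif_neg h]

variable (N ℓ)

theorem heckeProdP_ne_zero {u : MerH} (hu : u ≠ 0) : heckeProdP N ℓ u ≠ 0 := by
  by_cases h : (ℓ : ℕ) ∣ N
  · rw [heckeProdP_of_dvd h]
    exact heckeProd_ne_zero (heckeDatumU N ℓ ℓ.2 h) (det_heckeDatumU_pos N ℓ ℓ.2 h) hu
  · rw [heckeProdP_of_not_dvd h]
    exact heckeProd_ne_zero (heckeDatumT N ℓ ℓ.2 h) (det_heckeDatumT_pos N ℓ ℓ.2 h) hu

/-- **`u'` is an `n`-th root of (the realisation of) `N_β(α f)`**, for every prime `ℓ` and every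
field `k ⊆ ℂ`. -/
theorem heckeProdP_pow_eq {n : ℕ}
    {f : ↥(laurentBaseChange k (modularFunctionFieldFull N))} {u : MerH}
    (hu : u ^ n = realN (algebraMap k ℂ) N f) :
    haveI : NeZero (ℓ : ℕ) := ⟨ℓ.2.ne_zero⟩
    heckeProdP N ℓ u ^ n =
      realN (algebraMap k ℂ) N
        (normAlong (heckeBetaBar k N ℓ) (heckeAlphaBar k N ℓ f)) := by
  haveI : NeZero (ℓ : ℕ) := ⟨ℓ.2.ne_zero⟩
  by_cases h : (ℓ : ℕ) ∣ N
  · rw [heckeProdP_of_dvd h]
    exact heckeProdU_pow_eq N ℓ ℓ.2 h hu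
  · rw [heckeProdP_of_not_dvd h]
    exact heckeProdT_pow_eq N ℓ ℓ.2 h hu

variable {n : ℕ} [NeZero n]

theorem isKummerElt_heckeProdP {u : MerH} (hu : IsKummerElt (Gamma0 N) n u) :
    IsKummerElt (Gamma0 N) n (heckeProdP N ℓ u) := by
  by_cases h : (ℓ : ℕ) ∣ N
  · rw [heckeProdP_of_dvd h]
    exact isKummerElt_heckeProd (heckeDatumU N ℓ ℓ.2 h) (det_heckeDatumU_pos N ℓ ℓ.2 h)
      (fun γ => rfl) hu
  · rw [heckeProdP_of_not_dvd h]
    exact isKummerElt_heckeProd (heckeDatumT N ℓ ℓ.2 h) (det_heckeDatumT_pos N ℓ ℓ.2 h)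
      (fun γ => rfl) hu

/-- **`χ_{u'} = T^grp_ℓ χ_u`**, uniformly in the prime `ℓ`. -/
theorem kummerChar_heckeProdP {u : MerH} (hu : IsKummerElt (Gamma0 N) n u) :
    kummerChar (Gamma0 N) n (heckeProdP N ℓ u) =
      heckeGrpP N ℓ (ZMod n) (kummerChar (Gamma0 N) n u) := by
  by_cases h : (ℓ : ℕ) ∣ N
  · rw [heckeProdP_of_dvd h, heckeGrpP_of_dvd _ h]
    exact kummerChar_heckeProd (heckeDatumU N ℓ ℓ.2 h) (det_heckeDatumU_pos N ℓ ℓ.2 h)
      (fun γ => rfl) hu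
  · rw [heckeProdP_of_not_dvd h, heckeGrpP_of_not_dvd _ h]
    exact kummerChar_heckeProd (heckeDatumT N ℓ ℓ.2 h) (det_heckeDatumT_pos N ℓ ℓ.2 h)
      (fun γ => rfl) hu

/-- an `n`-th root of the realisation of a non-zero function is a Kummer element. -/
theorem isKummerElt_of_pow_eq_realN
    {f : ↥(laurentBaseChange k (modularFunctionFieldFull N))} (hf : f ≠ 0) {u : MerH}
    (hu : u ^ n = realN (algebraMap k ℂ) N f) : IsKummerElt (Gamma0 N) n u := by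
  refine ⟨?_, fun γ hγ => ?_⟩
  · rintro rfl
    rw [zero_pow (NeZero.ne n)] at hu
    exact hf ((map_eq_zero_iff _ (realN_injective (algebraMap k ℂ) N)).mp hu.symm)
  · rw [hu]
    exact comp_realN_of_mem_Gamma0 (algebraMap k ℂ) N hγ f

end Uniform

section Kappa

theorem normAlong_ne_zero {K F F' : Type*} [Field K] [Field F] [Field F'] [Algebra K F]
    [Algebra K F'] (φ : F →ₐ[K] F') (hfin : FiniteAlong K φ) {z : F'} (hz : z ≠ 0) :
    normAlong φ z ≠ 0 := by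
  letI := algebraAlong φ
  haveI : Module.Finite F F' := hfin
  show Algebra.norm F z ≠ 0
  rwa [Ne, Algebra.norm_eq_zero_iff]

variable (N ℓ n : ℕ) [NeZero N] [NeZero ℓ]

/-- `T'_ℓ` on the `n`-torsion of `Pic⁰` over `ℂ`. -/
noncomputable def heckeSwapCTors :
    ↥(Pic0.torsion ℂ ↥(laurentBaseChange ℂ (modularFunctionFieldFull N)) n) →+
      ↥(Pic0.torsion ℂ ↥(laurentBaseChange ℂ (modularFunctionFieldFull N)) n) :=
  ((heckeSwapC N ℓ).comp
    (Pic0.torsion ℂ ↥(laurentBaseChange ℂ (modularFunctionFieldFull N)) n).subtype).codRestrict _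
    (fun x => by
      have hx := x.2
      rw [Pic0.mem_torsion] at hx ⊢
      rw [AddMonoidHom.comp_apply, ← map_zsmul]
      show heckeSwapC N ℓ ((n : ℤ) • (x : Pic0 ℂ _)) = 0
      rw [hx, map_zero])

@[simp] theorem coe_heckeSwapCTors
    (x : ↥(Pic0.torsion ℂ ↥(laurentBaseChange ℂ (modularFunctionFieldFull N)) n)) :
    ((heckeSwapCTors N ℓ n x : ↥(Pic0.torsion ℂ _ n)) :
      Pic0 ℂ ↥(laurentBaseChange ℂ (modularFunctionFieldFull N))) = heckeSwapC N ℓ x :=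
  rfl

end Kappa

section Descent

variable {k : Type*} [Field k] [Algebra ℚ k] [CharZero k] [IsAlgClosed k] [Algebra k ℂ]
  [IsScalarTower ℚ k ℂ] {N n : ℕ} [NeZero N] [NeZero n]

/-- **(hecke) in `k`-divisor form** (`k ⊆ ℂ` algebraically closed, e.g. `k = ℚ̄`): if a map `kap` on
`Pic⁰(F_k)` is computed by the Kummer character of any `n`-th root `u` of (the realisation of) any
`f` with `div f = n D`, then `kap (T'_ℓ [D]) = T^grp_ℓ (kap [D])`. -/
theorem hecke_compat_of_kummerChar (ℓ : Nat.Primes)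
    (kap : Pic0 k ↥(laurentBaseChange k (modularFunctionFieldFull N)) →
      (Additive ↥(Gamma0 N) →+ ZMod n))
    (hkap : ∀ (D : ↥(Divisor.degZero (K := k)
        (F := ↥(laurentBaseChange k (modularFunctionFieldFull N)))))
      (f : ↥(laurentBaseChange k (modularFunctionFieldFull N))) (u : MerH), f ≠ 0 →
      (∀ v : Place k ↥(laurentBaseChange k (modularFunctionFieldFull N)),
        (n : ℤ) * (D : Divisor k _) v = v.ord f) →
      u ^ n = realN (algebraMap k ℂ) N f → kap (Pic0.mk D) = kummerChar (Gamma0 N) n u)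
    (c : Coord k ↥(laurentBaseChange k (modularFunctionFieldFull N)))
    (c' : Coord k ↥(laurentBaseChange k (modularFunctionFieldFull (N * ℓ))))
    (D : ↥(Divisor.degZero (K := k)
      (F := ↥(laurentBaseChange k (modularFunctionFieldFull N)))))
    {f : ↥(laurentBaseChange k (modularFunctionFieldFull N))} (hf : f ≠ 0)
    (hfD : ∀ v : Place k ↥(laurentBaseChange k (modularFunctionFieldFull N)),
      (n : ℤ) * (D : Divisor k _) v = v.ord f)
    {u : MerH} (hu : u ^ n = realN (algebraMap k ℂ) N f) :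
    haveI : NeZero (ℓ : ℕ) := ⟨ℓ.2.ne_zero⟩
    kap (heckeSwapOf k N ℓ c c' (Pic0.mk D)) = heckeGrpP N ℓ (ZMod n) (kap (Pic0.mk D)) := by
  haveI : NeZero (ℓ : ℕ) := ⟨ℓ.2.ne_zero⟩
  have hfin : FiniteAlong k (heckeBetaBar k N ℓ) := finiteAlong_of_coord c c' _
  have hg : normAlong (heckeBetaBar k N ℓ) (heckeAlphaBar k N ℓ f) ≠ 0 :=
    normAlong_ne_zero _ hfin ((map_ne_zero _).mpr hf)
  rw [heckeSwapOf_mk, hkap _ _ (heckeProdP N ℓ u) hg
      (fun v => heckeSwapDivOf_nsmul_apply_of_ord k N ℓ c c' hf hfD v)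
      (heckeProdP_pow_eq N ℓ hu),
    hkap D f u hf hfD hu]
  exact kummerChar_heckeProdP N ℓ (isKummerElt_of_pow_eq_realN N hf hu)

end Descent

section KappaHecke

variable {N n : ℕ} [NeZero N] [NeZero n]

/-- **(hecke) over `ℂ`: `κ (T'_ℓ x) = T^grp_ℓ (κ x)`** for EVERY prime `ℓ` (`T_ℓ` if `ℓ ∤ N`, `U_ℓ`
if `ℓ ∣ N`). -/
theorem kappa_heckeSwapCTors (ℓ : Nat.Primes)
    (x : ↥(Pic0.torsion ℂ ↥(laurentBaseChange ℂ (modularFunctionFieldFull N)) n)) :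
    haveI : NeZero (ℓ : ℕ) := ⟨ℓ.2.ne_zero⟩
    kappa N n (heckeSwapCTors N ℓ n x) = heckeGrpP N ℓ (ZMod n) (kappa N n x) := by
  haveI : NeZero (ℓ : ℕ) := ⟨ℓ.2.ne_zero⟩
  obtain ⟨D, u, hD, hu⟩ := exists_rep_isKummerRoot x
  have hu0 := hu
  obtain ⟨f, hf, hfD, hpow⟩ := hu
  set D' : ↥(Divisor.degZero (K := ℂ)
      (F := ↥(laurentBaseChange ℂ (modularFunctionFieldFull N)))) :=
    ⟨heckeSwapDivC N ℓ (D : Divisor ℂ _), heckeSwapDivC_mem_degZero N ℓ D.2⟩ with hD'def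
  have hD' : Pic0.mk D' = ((heckeSwapCTors N ℓ n x : ↥(Pic0.torsion ℂ _ n)) :
      Pic0 ℂ ↥(laurentBaseChange ℂ (modularFunctionFieldFull N))) := by
    rw [coe_heckeSwapCTors, ← hD, heckeSwapC_mk]
  have hfin : FiniteAlong ℂ (heckeBetaBar ℂ N ℓ) :=
    finiteAlong_of_coord (Dict.jCoordC N) (Dict.jCoordC (N * ℓ)) _
  have hg : normAlong (heckeBetaBar ℂ N ℓ) (heckeAlphaBar ℂ N ℓ f) ≠ 0 :=
    normAlong_ne_zero _ hfin ((map_ne_zero _).mpr hf)
  have hgD' : ∀ v : Place ℂ ↥(laurentBaseChange ℂ (modularFunctionFieldFull N)),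
      (n : ℤ) * (D' : Divisor ℂ _) v
        = v.ord (normAlong (heckeBetaBar ℂ N ℓ) (heckeAlphaBar ℂ N ℓ f)) :=
    fun v => heckeSwapDivC_nsmul_apply_of_ord N ℓ hf hfD v
  have hpow' : u ^ n = realN (algebraMap ℂ ℂ) N f := hpow
  by_cases h : (ℓ : ℕ) ∣ N
  · have hu' : IsKummerRoot N n (D' : Divisor ℂ _) (heckeProdU N ℓ ℓ.2 h u) :=
      ⟨_, hg, hgD', heckeProdU_pow_eq (k := ℂ) N ℓ ℓ.2 h hpow'⟩
    rw [kappa_eq_kummerChar _ D' hD' hu', kappa_eq_kummerChar x D hD hu0, heckeGrpP_of_dvd _ h]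
    exact kummerChar_heckeProd _ _ (fun γ => rfl) hu0.isKummerElt
  · have hu' : IsKummerRoot N n (D' : Divisor ℂ _) (heckeProdT N ℓ ℓ.2 h u) :=
      ⟨_, hg, hgD', heckeProdT_pow_eq (k := ℂ) N ℓ ℓ.2 h hpow'⟩
    rw [kappa_eq_kummerChar _ D' hD' hu', kappa_eq_kummerChar x D hD hu0,
      heckeGrpP_of_not_dvd _ h]
    exact kummerChar_heckeProd _ _ (fun γ => rfl) hu0.isKummerElt

end KappaHecke

end Fermat.Agent.GR
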