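/-
GR (stage I) — helper8 — package K10-ASM, part 4: the concrete inputs.  The descent datum from
helper3's DESC, the Hecke-root statement from helper4's KHECKE, (conj) from helper5's CONJ, and the
resulting `StageIData N p` from (sur) [K4], (fix) and the S37 clauses only.
-/
import Mathlib
import Fermat.Agent.GR.ASM_helper8_Main
import Fermat.Agent.GR.DESC_helper3_Main
import Fermat.Agent.GR.KHECKE_helper4_Main
import Fermat.Agent.GR.CONJ_helper5_Omega

set_option autoImplicit false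
set_option linter.style.haveILetI false
set_option linter.unusedSectionVars false

open UpperHalfPlane hiding I
open Complex ModularGroup ModularCurve CongruenceSubgroup AlgebraicCurve ModularCurve.Period
open scoped MatrixGroups

namespace Fermat.Agent.GR

open Fermat.Agent.X0N Fermat.Agent.JA Fermat.Agent.FF

local notation "Ω" => AlgebraicClosure ℚ
local notation "GQ" => (AlgebraicClosure ℚ ≃ₐ[ℚ] AlgebraicClosure ℚ)

attribute [local instance] algebraQbarComplex isScalarTower_rat_qbar_complex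

variable (N : ℕ) [NeZero N]

/-- **the descent datum of `X₀(N)`** (helper3's K5 DESC along `complexEmbedding : ℚ̄ → ℂ`). -/
noncomputable def descData : DescData N where
  bc := bcPic0 (L := ℂ) (modularFunctionFieldFull N) (jCoordBar N) (Dict.jCoordC N)
  inj := bcPic0_injective (L := ℂ) (modularFunctionFieldFull N) (jCoordBar N) (Dict.jCoordC N)
  sur n hn c hc := by
    obtain ⟨c₀, -, h⟩ := exists_bcPic0_eq_of_mem_torsion (L := ℂ) (modularFunctionFieldFull N)
      (jCoordBar N) (Dict.jCoordC N) n (finite_torsion_pic0C_of_ne_zero N hn) c hc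
    exact ⟨c₀, h⟩
  rep n D f _ hD :=
    ⟨⟨bcConorm (L := ℂ) (modularFunctionFieldFull N) (jCoordBar N) (D : Divisor Ω _),
        bcConorm_mem_degZero (modularFunctionFieldFull N) (jCoordBar N) (Dict.jCoordC N) D.2⟩,
      bcPic0_mk (L := ℂ) (modularFunctionFieldFull N) (jCoordBar N) (Dict.jCoordC N) D,
      fun Q => bcConorm_apply_of_ord (L := ℂ) (modularFunctionFieldFull N) (jCoordBar N)
        (D : Divisor Ω _) f hD Q⟩
  gal τ σ h x := bcPic0_galois_smul (L := ℂ) (modularFunctionFieldFull N) (jCoordBar N)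
    (Dict.jCoordC N) τ σ h x

variable {N}

/-- the Hecke-root statement (helper4's KHECKE). -/
theorem hroot_heckeProdP (n : ℕ) [NeZero n] (ℓ : Nat.Primes) :
    haveI : NeZero (ℓ : ℕ) := ⟨ℓ.2.ne_zero⟩
    ∀ (f : ↥(modularFunctionFieldBar N)), f ≠ 0 → ∀ u : MerH,
      u ^ n = realN (algebraMap Ω ℂ) N f → IsKummerElt (Gamma0 N) n u →
      ∃ u' : MerH, u' ≠ 0 ∧
        u' ^ n = realN (algebraMap Ω ℂ) N
          (normAlong (heckeBetaBar Ω N ℓ) (heckeAlphaBar Ω N ℓ f)) ∧
        kummerChar (Gamma0 N) n u' = heckeGrpP N ℓ (ZMod n) (kummerChar (Gamma0 N) n u) := by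
  intro f _ u hu hK
  exact ⟨heckeProdP N ℓ u, heckeProdP_ne_zero N ℓ hK.1, heckeProdP_pow_eq N ℓ hu,
    kummerChar_heckeProdP N ℓ hK⟩

/-- (conj) over `ℂ` (helper5's CONJ) in the shape consumed by `kapOf_conj`. -/
theorem hconj_kappa (n : ℕ) [NeZero n]
    (y y' : ↥(Pic0.torsion ℂ ↥(laurentBaseChange ℂ (modularFunctionFieldFull N)) n))
    (h : (y' : Pic0 ℂ ↥(laurentBaseChange ℂ (modularFunctionFieldFull N))) =
      complexConjAlgEquiv • (y : Pic0 ℂ ↥(laurentBaseChange ℂ (modularFunctionFieldFull N)))) :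
    kappa N n y' = -charInvolution N ℤ (ZMod n) (kappa N n y) := by
  have h1 : y' = arithmeticGalois (modularFunctionFieldFull N) complexConjAlgEquiv • y :=
    Subtype.ext h
  rw [h1]
  exact kappa_complexConjAlgEquiv_smul y

variable (N)

/-- **K10-ASM: `StageIData N p` from (sur) [K4], (fix) and the S37 clauses.** -/
noncomputable def stageIData_of_sur_fix_clause (p : ℕ) [Fact p.Prime]
    (hK4 : ∀ (k : ℕ) (ψ : ↥(parabolicHoms ℤ_[p] (Gamma0 N) ℤ_[p])),
      ∃ y : ↥(Pic0.torsion ℂ ↥(laurentBaseChange ℂ (modularFunctionFieldFull N)) (p ^ k)),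
        kappa N (p ^ k) y = (PadicInt.toZModPow k).toAddMonoidHom.comp ψ.1)
    (hfix : ∀ x : JZero N, ∃ L : IntermediateField ℚ Ω, FiniteDimensional ℚ L ∧
      ∀ σ : GQ, (∀ a ∈ L, σ a = a) → σ • x = x)
    (hclause : ∀ ℓ : ℕ, (hℓ : ℓ.Prime) → ¬ ℓ ∣ N * p →
      ∀ A : ValuationSubring Ω, A.LiesOverPrime ℓ →
        ∃ (M : Type) (_ : AddCommGroup M) (red : JZero N →+ M) (Fr : M →+ M) (σ₀ : GQ),
          A.IsFrobeniusAt σ₀ ℓ ∧
          (∀ σ ∈ A.inertiaSubgroupIn ℚ, ∀ x : JZero N, red (σ • x) = red x) ∧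
          (∀ σ : GQ, A.IsFrobeniusAt σ ℓ → ∀ x : JZero N, red (σ • x) = Fr (red x)) ∧
          (∀ x : JZero N,
            red (σ₀ • σ₀ • x - heckeOperatorBar N ⟨ℓ, hℓ⟩ (σ₀ • x) + ℓ • x) = 0) ∧
          (∀ x : JZero N, (∃ n : ℕ, p ^ n • x = 0) → red x = 0 → x = 0)) :
    StageIData N p :=
  (descData N).stageIData p hK4 (fun ℓ k => hroot_heckeProdP (p ^ k) ℓ)
    (fun k => hconj_kappa (p ^ k)) hfix hclause

end Fermat.Agent.GR
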