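/-
Stage (I), package K4 EIS (helper9), part 1: weighted Eisenstein series.

For a weight function `w : (Fin 2 → ℤ) → ℂ` with `‖w v‖ ≤ 1` and `3 ≤ k` the series
`eisW w k z = ∑_{(c,d)} w(c,d) (cz+d)^{-k}` converges locally uniformly on the upper half plane.
We prove: holomorphy (`mdiff_eisW`), the slash formula `eisW w k ∣[k] σ = eisW (w ∘ (· ᵥ* σ⁻¹)) k`
for `σ ∈ SL(2,ℤ)` (`eisW_slash`), boundedness at `i∞` (`isBoundedAtImInfty_eisW`; no periodicity
needed: the level one majorant is translation invariant), the limit along the imaginary axis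
(`tendsto_eisW_zAxis`) and the resulting nonvanishing criterion (`eisW_ne_zero`).
Mathlib only.
-/
import Mathlib

set_option autoImplicit false

open UpperHalfPlane EisensteinSeries ModularForm Complex Filter Matrix ModularGroup Topology
open scoped MatrixGroups Manifold

namespace Fermat.Agent.GR

noncomputable section

/-- weighted Eisenstein sum: `∑_{(c,d)} w(c,d) (cz+d)^{-k}`. -/
def eisW (w : (Fin 2 → ℤ) → ℂ) (k : ℤ) (z : ℍ) : ℂ :=
  ∑' v : Fin 2 → ℤ, w v * eisSummand k v z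

theorem vecMul_mul_inv (σ : SL(2, ℤ)) (v : Fin 2 → ℤ) :
    (v ᵥ* (σ : Matrix (Fin 2) (Fin 2) ℤ)) ᵥ* ((σ⁻¹ : SL(2, ℤ)) : Matrix (Fin 2) (Fin 2) ℤ) = v := by
  rw [vecMul_vecMul, ← Matrix.SpecialLinearGroup.coe_mul, mul_inv_cancel,
    Matrix.SpecialLinearGroup.coe_one, vecMul_one]

theorem vecMul_inv_mul (σ : SL(2, ℤ)) (v : Fin 2 → ℤ) :
    (v ᵥ* ((σ⁻¹ : SL(2, ℤ)) : Matrix (Fin 2) (Fin 2) ℤ)) ᵥ* (σ : Matrix (Fin 2) (Fin 2) ℤ) = v := by
  rw [vecMul_vecMul, ← Matrix.SpecialLinearGroup.coe_mul, inv_mul_cancel,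
    Matrix.SpecialLinearGroup.coe_one, vecMul_one]

/-- right multiplication by `σ ∈ SL(2,ℤ)` on integer row vectors. -/
def vecMulEquiv (σ : SL(2, ℤ)) : (Fin 2 → ℤ) ≃ (Fin 2 → ℤ) where
  toFun v := v ᵥ* (σ : Matrix (Fin 2) (Fin 2) ℤ)
  invFun v := v ᵥ* ((σ⁻¹ : SL(2, ℤ)) : Matrix (Fin 2) (Fin 2) ℤ)
  left_inv v := vecMul_mul_inv σ v
  right_inv v := vecMul_inv_mul σ v

@[simp] theorem vecMulEquiv_apply (σ : SL(2, ℤ)) (v : Fin 2 → ℤ) :
    vecMulEquiv σ v = v ᵥ* (σ : Matrix (Fin 2) (Fin 2) ℤ) := rfl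

variable {w : (Fin 2 → ℤ) → ℂ} {k : ℤ}

theorem norm_mul_eisSummand_le (hw : ∀ v, ‖w v‖ ≤ 1) (v : Fin 2 → ℤ) (z : ℍ) :
    ‖w v * eisSummand k v z‖ ≤ ‖eisSummand k v z‖ := by
  rw [norm_mul]
  exact mul_le_of_le_one_left (norm_nonneg _) (hw v)

theorem summable_norm_eisW (hw : ∀ v, ‖w v‖ ≤ 1) (hk : 3 ≤ k) (z : ℍ) :
    Summable fun v : Fin 2 → ℤ => ‖w v * eisSummand k v z‖ :=
  (summable_norm_eisSummand hk z).of_nonneg_of_le (fun _ => norm_nonneg _)
    fun v => norm_mul_eisSummand_le hw v z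

/-- linearity in the weight. -/
theorem eisW_const_mul (c : ℂ) (w : (Fin 2 → ℤ) → ℂ) (k : ℤ) :
    eisW (fun v => c * w v) k = fun z => c * eisW w k z := by
  ext z
  rw [eisW, eisW, ← tsum_mul_left]
  exact tsum_congr fun v => mul_assoc _ _ _

/-- **the slash formula**: slashing by `σ ∈ SL(2,ℤ)` moves the weight. -/
theorem eisW_slash (w : (Fin 2 → ℤ) → ℂ) (k : ℤ) (σ : SL(2, ℤ)) :
    eisW w k ∣[k] σ =
      eisW (fun v => w (v ᵥ* ((σ⁻¹ : SL(2, ℤ)) : Matrix (Fin 2) (Fin 2) ℤ))) k := by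
  ext1 z
  rw [SL_slash_apply, _root_.zpow_neg,
    mul_inv_eq_iff_eq_mul₀ (zpow_ne_zero _ <| denom_ne_zero _ z), eisW, eisW, ← tsum_mul_right,
    ← (vecMulEquiv σ).tsum_eq (fun v => w (v ᵥ* ((σ⁻¹ : SL(2, ℤ)) : Matrix (Fin 2) (Fin 2) ℤ)) *
      eisSummand k v z * denom σ z ^ k)]
  refine tsum_congr fun v => ?_
  rw [vecMulEquiv_apply, vecMul_mul_inv, eisSummand_SL2_apply]
  ring

/-! ### holomorphy -/

/-- locally uniform convergence of the weighted Eisenstein sums. -/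
theorem eisW_tendstoLocallyUniformly (hw : ∀ v, ‖w v‖ ≤ 1) (hk : 3 ≤ k) :
    TendstoLocallyUniformly
      (fun (s : Finset (Fin 2 → ℤ)) ↦ (fun z : ℍ => ∑ v ∈ s, w v * eisSummand k v z))
      (eisW w k) Filter.atTop := by
  have hk' : (2 : ℝ) < k := by norm_cast
  have p_sum : Summable fun x : Fin 2 → ℤ ↦ ‖x‖ ^ (-k) :=
    mod_cast (summable_one_div_norm_rpow hk')
  rw [tendstoLocallyUniformly_iff_forall_isCompact]
  intro K hK
  obtain ⟨A, B, hB, HABK⟩ := subset_verticalStrip_of_isCompact hK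
  refine (tendstoUniformlyOn_tsum (hu := p_sum.mul_left <| r ⟨⟨A, B⟩, hB⟩ ^ (-k : ℝ))
    (fun p z hz ↦ ?_)).mono HABK
  refine (norm_mul_eisSummand_le hw p z).trans ?_
  simpa only [eisSummand, one_div, ← _root_.zpow_neg, norm_zpow, ← Real.rpow_intCast,
    Int.cast_neg] using summand_bound_of_mem_verticalStrip (by positivity) p hB hz

theorem eisW_tendstoLocallyUniformlyOn (hw : ∀ v, ‖w v‖ ≤ 1) (hk : 3 ≤ k) :
    TendstoLocallyUniformlyOn (fun (s : Finset (Fin 2 → ℤ)) ↦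
      (fun (z : ℍ) ↦ ∑ v ∈ s, w v * eisSummand k v z) ∘ ofComplex) ((eisW w k) ∘ ofComplex)
          Filter.atTop {z : ℂ | 0 < z.im} := by
  rw [← upperHalfPlaneSet, ← range_coe, ← Set.image_univ]
  apply TendstoLocallyUniformlyOn.comp (s := ⊤) _ _ _ (OpenPartialHomeomorph.continuousOn_symm _)
  · simp only [Set.top_eq_univ, tendstoLocallyUniformlyOn_univ]
    exact eisW_tendstoLocallyUniformly hw hk
  · simp only [IsOpenEmbedding.toOpenPartialHomeomorph_target, Set.top_eq_univ,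
      Set.mapsTo_range_iff, Set.mem_univ, forall_const]

/-- the weighted Eisenstein series are holomorphic. -/
theorem mdiff_eisW (hw : ∀ v, ‖w v‖ ≤ 1) (hk : 3 ≤ k) : MDiff (eisW w k) := by
  intro τ
  suffices DifferentiableAt ℂ ((eisW w k) ∘ ofComplex) τ.1 by
    convert!
      MDifferentiableAt.comp τ (DifferentiableAt.mdifferentiableAt this) τ.mdifferentiable_coe
    exact funext fun z ↦ (comp_ofComplex (eisW w k) z).symm
  refine DifferentiableOn.differentiableAt ?_ (isOpen_upperHalfPlaneSet.mem_nhds τ.2)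
  refine (eisW_tendstoLocallyUniformlyOn hw hk).differentiableOn
    (Eventually.of_forall fun s ↦ ?_) isOpen_upperHalfPlaneSet
  have h1 : ((fun (z : ℍ) ↦ ∑ v ∈ s, w v * eisSummand k v z) ∘ ofComplex) =
      fun z : ℂ => ∑ v ∈ s, w v * ((eisSummand k v) ∘ ofComplex) z := by
    ext z
    simp [Function.comp]
  rw [h1]
  exact DifferentiableOn.fun_sum fun v _ ↦
    (eisSummand_extension_differentiableOn k v).const_mul (w v)

/-! ### boundedness at `i∞` -/

/-- the level one majorant is invariant under translations. -/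
theorem tsum_norm_eisSummand_T_zpow (k : ℤ) (n : ℤ) (z : ℍ) :
    ∑' v : Fin 2 → ℤ, ‖eisSummand k v (T ^ n • z)‖ = ∑' v : Fin 2 → ℤ, ‖eisSummand k v z‖ := by
  rw [← (vecMulEquiv (T ^ n)).tsum_eq (fun v => ‖eisSummand k v z‖)]
  refine tsum_congr fun v => ?_
  rw [eisSummand_SL2_apply, vecMulEquiv_apply]
  have h1 : denom ((T ^ n : SL(2, ℤ)) : GL (Fin 2) ℝ) z = 1 := by
    rw [denom_apply (T ^ n) z]
    have h10 : (T ^ n : SL(2, ℤ)) 1 0 = 0 := by
      have := congrFun (congrFun (ModularGroup.coe_T_zpow n) 1) 0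
      simpa using this
    have h11 : (T ^ n : SL(2, ℤ)) 1 1 = 1 := by
      have := congrFun (congrFun (ModularGroup.coe_T_zpow n) 1) 1
      simpa using this
    rw [h10, h11]
    simp
  rw [h1, _root_.one_zpow, one_mul]

theorem norm_eisW_le (hw : ∀ v, ‖w v‖ ≤ 1) (hk : 3 ≤ k) (z : ℍ) :
    ‖eisW w k z‖ ≤ ∑' v : Fin 2 → ℤ, ‖eisSummand k v z‖ := by
  refine (norm_tsum_le_tsum_norm (summable_norm_eisW hw hk z)).trans ?_
  exact (summable_norm_eisW hw hk z).tsum_le_tsum (fun v => norm_mul_eisSummand_le hw v z)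
    (summable_norm_eisSummand hk z)

/-- the weighted Eisenstein series are bounded at `i∞`. -/
theorem isBoundedAtImInfty_eisW (hw : ∀ v, ‖w v‖ ≤ 1) (hk : 3 ≤ k) :
    IsBoundedAtImInfty (eisW w k) := by
  rw [UpperHalfPlane.isBoundedAtImInfty_iff]
  refine ⟨∑' (x : Fin 2 → ℤ), r ⟨⟨1, 2⟩, Nat.ofNat_pos⟩ ^ (-k) * ‖x‖ ^ (-k), 2, ?_⟩
  intro z hz
  obtain ⟨n, hn⟩ := ModularGroup_T_zpow_mem_verticalStrip z (N := 1) one_pos
  refine (norm_eisW_le hw hk z).trans ?_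
  rw [← tsum_norm_eisSummand_T_zpow k ((1 : ℕ) * n) z]
  have hk' : (2 : ℝ) < k := by norm_cast
  apply (summable_norm_eisSummand hk _).tsum_le_tsum _
  · exact_mod_cast (summable_one_div_norm_rpow hk').mul_left <| r ⟨⟨1, 2⟩, Nat.ofNat_pos⟩ ^ (-k)
  · intro x
    simp_rw [eisSummand, norm_zpow]
    exact_mod_cast
      summand_bound_of_mem_verticalStrip (lt_trans two_pos hk').le x two_pos
      (verticalStrip_anti_right 1 hz (by simpa using hn))

/-! ### the limit along the imaginary axis -/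

/-- the point `i(n+1)` of the upper half plane. -/
def zAxis (n : ℕ) : ℍ := ⟨⟨0, (n : ℝ) + 1⟩, by show (0 : ℝ) < (n : ℝ) + 1; positivity⟩

theorem zAxis_re (n : ℕ) : (zAxis n).re = 0 := rfl

theorem zAxis_im (n : ℕ) : (zAxis n).im = (n : ℝ) + 1 := rfl

theorem zAxis_mem_verticalStrip (n : ℕ) : zAxis n ∈ verticalStrip 0 1 := by
  rw [mem_verticalStrip_iff, zAxis_re, zAxis_im]
  refine ⟨by simp, ?_⟩
  have : (0 : ℝ) ≤ n := Nat.cast_nonneg n
  linarith

theorem tendsto_eisSummand_zAxis (hk : 0 < k) (v : Fin 2 → ℤ) (hv : v 0 ≠ 0) :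
    Tendsto (fun n : ℕ => eisSummand k v (zAxis n)) atTop (𝓝 0) := by
  rw [tendsto_zero_iff_norm_tendsto_zero]
  have h1 : ∀ n : ℕ, ‖eisSummand k v (zAxis n)‖ = ‖(v 0 : ℂ) * (zAxis n : ℂ) + v 1‖ ^ (-k) := by
    intro n
    rw [eisSummand, norm_zpow]
  simp_rw [h1]
  have h2 : Tendsto (fun n : ℕ => ‖(v 0 : ℂ) * (zAxis n : ℂ) + v 1‖) atTop atTop := by
    have h3 : ∀ n : ℕ, (n : ℝ) ≤ ‖(v 0 : ℂ) * (zAxis n : ℂ) + v 1‖ := by
      intro n
      refine le_trans ?_ (Complex.abs_im_le_norm _)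
      have him : ((v 0 : ℂ) * (zAxis n : ℂ) + v 1).im = (v 0 : ℝ) * ((n : ℝ) + 1) := by
        simp [zAxis_im]
      rw [him, abs_mul]
      have hv1 : (1 : ℝ) ≤ |(v 0 : ℝ)| := by
        have : (1 : ℤ) ≤ |v 0| := Int.one_le_abs hv
        exact_mod_cast this
      have hn0 : (0 : ℝ) ≤ n := Nat.cast_nonneg n
      have hn1 : |(n : ℝ) + 1| = (n : ℝ) + 1 := abs_of_nonneg (by linarith)
      rw [hn1]
      nlinarith
    exact tendsto_atTop_mono h3 tendsto_natCast_atTop_atTop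
  exact (tendsto_zpow_atTop_zero (by omega : -k < 0)).comp h2

/-- **limit along the imaginary axis**: only the terms with `c = 0` survive. -/
theorem tendsto_eisW_zAxis (hw : ∀ v, ‖w v‖ ≤ 1) (hk : 3 ≤ k) :
    Tendsto (fun n : ℕ => eisW w k (zAxis n)) atTop
      (𝓝 (∑' v : Fin 2 → ℤ, if v 0 = 0 then w v * ((v 1 : ℂ)) ^ (-k) else 0)) := by
  have hk' : (2 : ℝ) < k := by norm_cast
  have p_sum : Summable fun x : Fin 2 → ℤ ↦ ‖x‖ ^ (-k) :=
    mod_cast (summable_one_div_norm_rpow hk')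
  refine tendsto_tsum_of_dominated_convergence
    (bound := fun v => r ⟨⟨0, 1⟩, one_pos⟩ ^ (-k : ℝ) * ‖v‖ ^ (-k))
    (p_sum.mul_left _) (fun v => ?_) (Eventually.of_forall fun n v => ?_)
  · by_cases hv : v 0 = 0
    · rw [if_pos hv]
      have : ∀ n : ℕ, w v * eisSummand k v (zAxis n) = w v * ((v 1 : ℂ)) ^ (-k) := by
        intro n
        rw [eisSummand, hv]
        simp
      simp_rw [this]
      exact tendsto_const_nhds
    · rw [if_neg hv]
      have := (tendsto_eisSummand_zAxis (by omega : 0 < k) v hv).const_mul (w v)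
      simpa using this
  · refine (norm_mul_eisSummand_le hw v (zAxis n)).trans ?_
    simpa only [eisSummand, one_div, ← _root_.zpow_neg, norm_zpow, ← Real.rpow_intCast,
      Int.cast_neg] using summand_bound_of_mem_verticalStrip (by positivity) v one_pos
        (zAxis_mem_verticalStrip n)

/-- **nonvanishing from the constant term.** -/
theorem eisW_ne_zero (hw : ∀ v, ‖w v‖ ≤ 1) (hk : 3 ≤ k)
    (hL : (∑' v : Fin 2 → ℤ, if v 0 = 0 then w v * ((v 1 : ℂ)) ^ (-k) else 0) ≠ 0) :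
    eisW w k ≠ 0 := by
  intro h0
  have h := tendsto_eisW_zAxis hw hk
  rw [h0] at h
  simp only [Pi.zero_apply] at h
  exact hL (tendsto_nhds_unique h tendsto_const_nhds)

end

end Fermat.Agent.GR
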