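/-
Stage (I), package K4 EIS (helper9), part 2: Eisenstein series with a character.

For a subgroup `Γ ≤ SL(2,ℤ)` and an additive character `ψ : Γ → ℤ/n` killing the parabolic elements
(`trace² = 4`), `χ = stdAddChar ∘ ψ`, the weight `chiW ψ (c,d) := χ(γ)⁻¹` (`γ ∈ Γ` any element with
bottom row `(c,d)`; `0` if there is none) is well defined, and
`eisChi ψ := eisW (chiW ψ) 4 = ∑_{γ ∈ Γ_∞\Γ} χ(γ)⁻¹ (cz+d)⁻⁴` satisfies
* `eisChi_slash` : `eisChi ψ ∣[4] γ = χ(γ) · eisChi ψ` for `γ ∈ Γ`;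
* `isMF_eisChi` : it is a modular form of weight `4` for `ker ψ` (`kerSub ψ`);
* `isMF_eisChi_pow` : its `n`-th power is a modular form of weight `4n` for `Γ`;
* `eisChi_ne_zero` : it does not vanish (constant term `2`) if `-1 ∈ Γ`.
-/
import Mathlib
import Fermat.Agent.GR.EIS_helper9_Weighted
import Fermat.Agent.RatStr.Basic
import Fermat.Prelude.Def_ModularCurve_PeriodMap

set_option autoImplicit false

open UpperHalfPlane EisensteinSeries ModularForm Complex Filter Matrix ModularGroup Topology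
open Fermat.Agent.RatStr ModularCurve.Period
open scoped MatrixGroups Manifold

namespace Fermat.Agent.GR

noncomputable section

/-! ### bottom rows -/

/-- the bottom row of a matrix of `SL(2,ℤ)`. -/
def botRow (γ : SL(2, ℤ)) : Fin 2 → ℤ := (γ : Matrix (Fin 2) (Fin 2) ℤ) 1

theorem botRow_mul (γ δ : SL(2, ℤ)) :
    botRow (γ * δ) = botRow γ ᵥ* (δ : Matrix (Fin 2) (Fin 2) ℤ) := by
  unfold botRow
  rw [Matrix.SpecialLinearGroup.coe_mul]
  exact Matrix.mul_apply_eq_vecMul _ _ _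

theorem botRow_one : botRow 1 = ![0, 1] := by
  ext i
  fin_cases i <;> simp [botRow]

theorem botRow_neg_one : botRow (-1) = ![0, -1] := by
  ext i
  fin_cases i <;> simp [botRow]

/-- a matrix of `SL(2,ℤ)` with bottom row `(0,1)` is parabolic. -/
theorem trace_sq_of_botRow_eq_one {δ : SL(2, ℤ)} (h : botRow δ = ![0, 1]) :
    (δ : Matrix (Fin 2) (Fin 2) ℤ).trace ^ 2 = 4 := by
  have h10 : (δ : Matrix (Fin 2) (Fin 2) ℤ) 1 0 = 0 := by
    have := congrFun h 0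
    simpa [botRow] using this
  have h11 : (δ : Matrix (Fin 2) (Fin 2) ℤ) 1 1 = 1 := by
    have := congrFun h 1
    simpa [botRow] using this
  have hdet : (δ : Matrix (Fin 2) (Fin 2) ℤ).det = 1 := δ.2
  rw [Matrix.det_fin_two, h10, h11, mul_one, mul_zero, sub_zero] at hdet
  rw [Matrix.trace_fin_two, hdet, h11]
  norm_num

/-- two matrices with the same bottom row differ by a parabolic element. -/
theorem trace_sq_of_botRow_eq {γ γ' : SL(2, ℤ)} (h : botRow γ = botRow γ') :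
    ((γ' * γ⁻¹ : SL(2, ℤ)) : Matrix (Fin 2) (Fin 2) ℤ).trace ^ 2 = 4 := by
  apply trace_sq_of_botRow_eq_one
  rw [botRow_mul, ← h, ← botRow_mul, mul_inv_cancel, botRow_one]

/-- a bottom row `(0, d)` has `d = ±1`. -/
theorem botRow_eq_of_apply_zero {γ : SL(2, ℤ)} (h : botRow γ 0 = 0) :
    botRow γ = ![0, 1] ∨ botRow γ = ![0, -1] := by
  have h10 : (γ : Matrix (Fin 2) (Fin 2) ℤ) 1 0 = 0 := h
  have hdet : (γ : Matrix (Fin 2) (Fin 2) ℤ).det = 1 := γ.2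
  rw [Matrix.det_fin_two, h10, mul_zero, sub_zero, mul_comm] at hdet
  rcases Int.eq_one_or_neg_one_of_mul_eq_one hdet with h1 | h1
  · left
    ext i
    fin_cases i
    · exact h
    · exact h1
  · right
    ext i
    fin_cases i
    · exact h
    · exact h1

/-- slash of a power. -/
theorem eis_slash_pow (k : ℤ) (γ : SL(2, ℤ)) (F : ℍ → ℂ) (m : ℕ) :
    (F ^ m) ∣[(m : ℤ) * k] γ = (F ∣[k] γ) ^ m := by
  induction m with
  | zero =>
    simp only [pow_zero, Nat.cast_zero, zero_mul]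
    exact is_invariant_one γ
  | succ m ih =>
    rw [pow_succ, pow_succ, ← ih, ← mul_slash_SL2]
    congr 1
    push_cast
    ring

/-! ### the weight attached to a character -/

variable {Γ : Subgroup SL(2, ℤ)} {n : ℕ} [NeZero n] (ψ : Additive ↥Γ →+ ZMod n)

theorem norm_stdAddChar (a : ZMod n) : ‖(ZMod.stdAddChar a : ℂ)‖ = 1 := by
  rw [ZMod.stdAddChar_apply]
  exact Circle.norm_coe _

open Classical in
/-- the weight `χ(γ)⁻¹` on the bottom rows of `Γ`. -/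
def chiW (v : Fin 2 → ℤ) : ℂ :=
  if h : ∃ γ : ↥Γ, botRow (γ : SL(2, ℤ)) = v then
    ZMod.stdAddChar (-(ψ (Additive.ofMul h.choose))) else 0

theorem norm_chiW_le (v : Fin 2 → ℤ) : ‖chiW ψ v‖ ≤ 1 := by
  unfold chiW
  split_ifs with h
  · exact (norm_stdAddChar _).le
  · rw [norm_zero]
    exact zero_le_one

variable {ψ}

/-- `ψ` only depends on the bottom row. -/
theorem map_eq_of_botRow_eq (hψ : IsParabolicHom Γ ψ) {γ γ' : ↥Γ}
    (h : botRow (γ : SL(2, ℤ)) = botRow (γ' : SL(2, ℤ))) :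
    ψ (Additive.ofMul γ') = ψ (Additive.ofMul γ) := by
  have h1 : ψ (Additive.ofMul (γ' * γ⁻¹)) = 0 := hψ (γ' * γ⁻¹) (trace_sq_of_botRow_eq h)
  have h2 : Additive.ofMul (γ' * γ⁻¹) = Additive.ofMul γ' - Additive.ofMul γ := by
    rw [ofMul_mul, ofMul_inv, sub_eq_add_neg]
  rw [h2, map_sub, sub_eq_zero] at h1
  exact h1

theorem chiW_botRow (hψ : IsParabolicHom Γ ψ) (γ : ↥Γ) :
    chiW ψ (botRow (γ : SL(2, ℤ))) = ZMod.stdAddChar (-(ψ (Additive.ofMul γ))) := by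
  have h : ∃ γ' : ↥Γ, botRow (γ' : SL(2, ℤ)) = botRow (γ : SL(2, ℤ)) := ⟨γ, rfl⟩
  unfold chiW
  rw [dif_pos h, map_eq_of_botRow_eq hψ h.choose_spec.symm]

theorem chiW_of_not_exists {v : Fin 2 → ℤ} (h : ¬ ∃ γ : ↥Γ, botRow (γ : SL(2, ℤ)) = v) :
    chiW ψ v = 0 := by
  unfold chiW
  rw [dif_neg h]

/-- **equivariance of the weight.** -/
theorem chiW_vecMul (hψ : IsParabolicHom Γ ψ) (γ : ↥Γ) (v : Fin 2 → ℤ) :
    chiW ψ (v ᵥ* ((γ : SL(2, ℤ)) : Matrix (Fin 2) (Fin 2) ℤ)) =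
      ZMod.stdAddChar (-(ψ (Additive.ofMul γ))) * chiW ψ v := by
  by_cases h : ∃ γ₀ : ↥Γ, botRow (γ₀ : SL(2, ℤ)) = v
  · obtain ⟨γ₀, rfl⟩ := h
    have h1 : botRow (γ₀ : SL(2, ℤ)) ᵥ* ((γ : SL(2, ℤ)) : Matrix (Fin 2) (Fin 2) ℤ) =
        botRow ((γ₀ * γ : ↥Γ) : SL(2, ℤ)) := by
      rw [Subgroup.coe_mul, botRow_mul]
    rw [h1, chiW_botRow hψ, chiW_botRow hψ, ofMul_mul, map_add, neg_add, AddChar.map_add_eq_mul,
      mul_comm]
  · have h' : ¬ ∃ γ₀ : ↥Γ, botRow (γ₀ : SL(2, ℤ)) =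
        v ᵥ* ((γ : SL(2, ℤ)) : Matrix (Fin 2) (Fin 2) ℤ) := by
      rintro ⟨γ₀, hγ₀⟩
      apply h
      refine ⟨γ₀ * γ⁻¹, ?_⟩
      rw [Subgroup.coe_mul, botRow_mul, hγ₀, Subgroup.coe_inv, vecMul_mul_inv]
    rw [chiW_of_not_exists h, chiW_of_not_exists h', mul_zero]

/-! ### the Eisenstein series with character -/

variable (ψ)

/-- the Eisenstein series of weight `4` with character `χ = stdAddChar ∘ ψ`. -/
def eisChi : ℍ → ℂ := eisW (chiW ψ) 4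

theorem mdiff_eisChi : MDiff (eisChi ψ) := mdiff_eisW (norm_chiW_le ψ) (by norm_num)

variable {ψ}

/-- **the transformation law**: `E_χ ∣[4] γ = χ(γ) E_χ` for `γ ∈ Γ`. -/
theorem eisChi_slash (hψ : IsParabolicHom Γ ψ) (γ : ↥Γ) :
    eisChi ψ ∣[(4 : ℤ)] (γ : SL(2, ℤ)) =
      fun z => ZMod.stdAddChar (ψ (Additive.ofMul γ)) * eisChi ψ z := by
  unfold eisChi
  rw [eisW_slash, ← eisW_const_mul]
  congr 1
  ext v
  have h := chiW_vecMul hψ γ⁻¹ v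
  have h1 : ψ (Additive.ofMul γ⁻¹) = -ψ (Additive.ofMul γ) := by
    rw [ofMul_inv, map_neg]
  rw [Subgroup.coe_inv, h1, neg_neg] at h
  exact h

variable (ψ)

/-- all slashes of `E_χ` are bounded at `i∞`. -/
theorem isBoundedAtImInfty_eisChi_slash (σ : SL(2, ℤ)) :
    IsBoundedAtImInfty (eisChi ψ ∣[(4 : ℤ)] σ) := by
  unfold eisChi
  rw [eisW_slash]
  exact isBoundedAtImInfty_eisW (fun v => norm_chiW_le ψ _) (by norm_num)

/-- the kernel of `ψ` as a subgroup of `SL(2,ℤ)`. -/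
def kerSub : Subgroup SL(2, ℤ) where
  carrier := {γ | ∃ h : γ ∈ Γ, ψ (Additive.ofMul (⟨γ, h⟩ : ↥Γ)) = 0}
  mul_mem' := by
    rintro a b ⟨ha, ha'⟩ ⟨hb, hb'⟩
    refine ⟨Γ.mul_mem ha hb, ?_⟩
    have : (⟨a * b, Γ.mul_mem ha hb⟩ : ↥Γ) = ⟨a, ha⟩ * ⟨b, hb⟩ := rfl
    rw [this, ofMul_mul, map_add, ha', hb', add_zero]
  one_mem' := ⟨Γ.one_mem, by
    have : (⟨1, Γ.one_mem⟩ : ↥Γ) = 1 := rfl
    rw [this, ofMul_one, map_zero]⟩
  inv_mem' := by
    rintro a ⟨ha, ha'⟩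
    refine ⟨Γ.inv_mem ha, ?_⟩
    have : (⟨a⁻¹, Γ.inv_mem ha⟩ : ↥Γ) = (⟨a, ha⟩ : ↥Γ)⁻¹ := rfl
    rw [this, ofMul_inv, map_neg, ha', neg_zero]

theorem mem_kerSub {γ : SL(2, ℤ)} :
    γ ∈ kerSub ψ ↔ ∃ h : γ ∈ Γ, ψ (Additive.ofMul (⟨γ, h⟩ : ↥Γ)) = 0 := Iff.rfl

theorem kerSub_le : kerSub ψ ≤ Γ := fun _ h => h.1

variable {ψ}

/-- parabolic elements of `Γ` lie in the kernel. -/
theorem mem_kerSub_of_trace (hψ : IsParabolicHom Γ ψ) {γ : SL(2, ℤ)} (hγ : γ ∈ Γ)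
    (htr : (γ : Matrix (Fin 2) (Fin 2) ℤ).trace ^ 2 = 4) : γ ∈ kerSub ψ :=
  ⟨hγ, hψ ⟨γ, hγ⟩ htr⟩

/-- **`E_χ` is a modular form of weight `4` for `ker ψ`.** -/
theorem isMF_eisChi (hψ : IsParabolicHom Γ ψ) : IsMF (kerSub ψ) 4 (eisChi ψ) := by
  refine ⟨mdiff_eisChi ψ, ?_, isBoundedAtImInfty_eisChi_slash ψ⟩
  rintro γ ⟨hγ, hγ0⟩
  have h := eisChi_slash hψ ⟨γ, hγ⟩
  rw [hγ0, AddChar.map_zero_eq_one] at h
  rw [h]
  ext z
  rw [one_mul]

/-- **`E_χ ^ n` is a modular form of weight `4n` for `Γ`.** -/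
theorem isMF_eisChi_pow (hψ : IsParabolicHom Γ ψ) :
    IsMF Γ ((n : ℤ) * 4) (eisChi ψ ^ n) := by
  have h1 : IsMF (kerSub ψ) ((n : ℤ) * 4) (eisChi ψ ^ n) := (isMF_eisChi hψ).pow n
  refine ⟨h1.holo, ?_, h1.bdd⟩
  intro γ hγ
  rw [eis_slash_pow, eisChi_slash hψ ⟨γ, hγ⟩]
  ext z
  simp only [Pi.pow_apply]
  rw [mul_pow, ← AddChar.map_nsmul_eq_pow]
  have h3 : n • ψ (Additive.ofMul (⟨γ, hγ⟩ : ↥Γ)) = 0 := by
    rw [nsmul_eq_mul, ZMod.natCast_self, zero_mul]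
  rw [h3, AddChar.map_zero_eq_one, one_mul]

/-! ### nonvanishing -/

theorem chiW_one (hψ : IsParabolicHom Γ ψ) : chiW ψ ![0, 1] = 1 := by
  have h := chiW_botRow hψ (1 : ↥Γ)
  rw [Subgroup.coe_one, botRow_one, ofMul_one, map_zero, neg_zero, AddChar.map_zero_eq_one] at h
  exact h

theorem chiW_neg_one (hψ : IsParabolicHom Γ ψ) (hneg : (-1 : SL(2, ℤ)) ∈ Γ) :
    chiW ψ ![0, -1] = 1 := by
  have h := chiW_botRow hψ (⟨-1, hneg⟩ : ↥Γ)
  have htr : (((⟨-1, hneg⟩ : ↥Γ) : SL(2, ℤ)) : Matrix (Fin 2) (Fin 2) ℤ).trace ^ 2 = 4 := by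
    show ((-1 : SL(2, ℤ)) : Matrix (Fin 2) (Fin 2) ℤ).trace ^ 2 = 4
    rw [Matrix.trace_fin_two]
    simp
  rw [hψ _ htr, neg_zero, AddChar.map_zero_eq_one] at h
  rw [← h]
  congr 1
  exact botRow_neg_one.symm

/-- the constant term of `E_χ` is `2`. -/
theorem tsum_chiW_const (hψ : IsParabolicHom Γ ψ) (hneg : (-1 : SL(2, ℤ)) ∈ Γ) :
    (∑' v : Fin 2 → ℤ, if v 0 = 0 then chiW ψ v * ((v 1 : ℂ)) ^ (-(4 : ℤ)) else 0) = 2 := by
  classical
  have hne : (![0, 1] : Fin 2 → ℤ) ≠ ![0, -1] := by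
    intro h
    have := congrFun h 1
    simp at this
  rw [tsum_eq_sum (s := {![0, 1], ![0, -1]})]
  · rw [Finset.sum_pair hne]
    simp only [Matrix.cons_val_zero, if_true, Matrix.cons_val_one]
    rw [chiW_one hψ, chiW_neg_one hψ hneg]
    norm_num
  · intro v hv
    rw [Finset.mem_insert, Finset.mem_singleton, not_or] at hv
    by_cases h0 : v 0 = 0
    · rw [if_pos h0]
      have hex : ¬ ∃ γ : ↥Γ, botRow (γ : SL(2, ℤ)) = v := by
        rintro ⟨γ, rfl⟩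
        rcases botRow_eq_of_apply_zero h0 with h1 | h1
        · exact hv.1 h1
        · exact hv.2 h1
      rw [chiW_of_not_exists hex, zero_mul]
    · rw [if_neg h0]

/-- **`E_χ ≠ 0`.** -/
theorem eisChi_ne_zero (hψ : IsParabolicHom Γ ψ) (hneg : (-1 : SL(2, ℤ)) ∈ Γ) :
    eisChi ψ ≠ 0 := by
  apply eisW_ne_zero (norm_chiW_le ψ) (by norm_num)
  rw [tsum_chiW_const hψ hneg]
  exact two_ne_zero

end

end Fermat.Agent.GR
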