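/-
Stage (I), ORD package (helper5), part 1: the imaginary shift `τ ↦ τ + i M` on the upper half plane
as an injective ring endomorphism of `HolH` and of `MerH`, commuting with the real translations.
-/
import Mathlib
import Fermat.Agent.X0N.Mer_helper6_Basic

set_option autoImplicit false

namespace Fermat.Agent.X0N

open UpperHalfPlane Complex Filter Topology ModularGroup
open scoped MatrixGroups Manifold

/-- the shift `τ ↦ τ + i M` of the upper half plane, `0 ≤ M`. -/
noncomputable def imShift (M : ℝ) (hM : 0 ≤ M) (τ : ℍ) : ℍ :=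
  ⟨(τ : ℂ) + M * Complex.I, by
    have := τ.im_pos
    have h1 : ((τ : ℂ) + M * Complex.I).im = τ.im + M := by simp
    rw [h1]
    linarith⟩

@[simp] theorem coe_imShift (M : ℝ) (hM : 0 ≤ M) (τ : ℍ) :
    ((imShift M hM τ : ℍ) : ℂ) = (τ : ℂ) + M * Complex.I := rfl

theorem im_imShift (M : ℝ) (hM : 0 ≤ M) (τ : ℍ) : (imShift M hM τ).im = τ.im + M := by
  show ((τ : ℂ) + M * Complex.I).im = τ.im + M
  simp

theorem le_im_imShift (M : ℝ) (hM : 0 ≤ M) (τ : ℍ) : M ≤ (imShift M hM τ).im := by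
  rw [im_imShift]
  linarith [τ.im_pos]

theorem imShift_T_zpow_smul (M : ℝ) (hM : 0 ≤ M) (t : ℤ) (τ : ℍ) :
    imShift M hM (T ^ t • τ) = T ^ t • imShift M hM τ := by
  apply UpperHalfPlane.ext
  rw [coe_imShift, ModularGroup.coe_T_zpow_smul_eq, ModularGroup.coe_T_zpow_smul_eq,
    coe_imShift]
  ring

theorem mdiff_comp_imShift (M : ℝ) (hM : 0 ≤ M) {f : ℍ → ℂ} (hf : MDiff f) :
    MDiff (fun τ => f (imShift M hM τ)) := by
  rw [UpperHalfPlane.mdifferentiable_iff] at hf ⊢
  have h1 : DifferentiableOn ℂ ((f ∘ ofComplex) ∘ fun z : ℂ => z + M * Complex.I)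
      {z : ℂ | 0 < z.im} := by
    apply hf.comp
    · exact (differentiable_id.add (differentiable_const _)).differentiableOn
    · intro z hz
      have hz0 : 0 < z.im := hz
      show 0 < (z + M * Complex.I).im
      have h1 : (z + M * Complex.I).im = z.im + M := by simp
      rw [h1]
      linarith
  refine h1.congr ?_
  intro z hz
  simp only [Function.comp_apply]
  congr 1
  apply UpperHalfPlane.ext
  have hz0 : 0 < z.im := hz
  have hz' : 0 < (z + M * Complex.I).im := by
    have h1 : (z + M * Complex.I).im = z.im + M := by simp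
    rw [h1]
    linarith
  rw [coe_imShift, ofComplex_apply_of_im_pos hz0, ofComplex_apply_of_im_pos hz']

/-- precomposition with the shift `τ ↦ τ + i M` as a ring endomorphism of `HolH`. -/
noncomputable def HolH.imShiftHom (M : ℝ) (hM : 0 ≤ M) : HolH →+* HolH where
  toFun f := ⟨fun τ => (f : ℍ → ℂ) (imShift M hM τ), mdiff_comp_imShift M hM f.2⟩
  map_one' := rfl
  map_mul' _ _ := rfl
  map_zero' := rfl
  map_add' _ _ := rfl

@[simp] theorem HolH.imShiftHom_apply (M : ℝ) (hM : 0 ≤ M) (f : HolH) (τ : ℍ) :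
    (HolH.imShiftHom M hM f : ℍ → ℂ) τ = (f : ℍ → ℂ) (imShift M hM τ) := rfl

theorem HolH.imShiftHom_const (M : ℝ) (hM : 0 ≤ M) (c : ℂ) :
    HolH.imShiftHom M hM (HolH.const c) = HolH.const c := rfl

theorem HolH.imShiftHom_injective (M : ℝ) (hM : 0 ≤ M) :
    Function.Injective (HolH.imShiftHom M hM) := by
  rw [injective_iff_map_eq_zero]
  intro f hf
  by_contra hf0
  -- `f` vanishes at all points of the open set `{M < im}`, so all its orders there are positive …
  have hord : ∀ τ : ℍ, M < τ.im → HolH.ord τ f ≠ 0 := by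
    intro τ hτ h0
    rw [HolH.ord_eq_zero_iff] at h0
    rcases h0 with h0 | h0
    · apply h0
      have hpos : 0 < ((τ : ℂ) - M * Complex.I).im := by
        have h1 : ((τ : ℂ) - M * Complex.I).im = τ.im - M := by simp
        rw [h1]
        linarith
      have h1 := congrFun (congrArg Subtype.val hf) ⟨(τ : ℂ) - M * Complex.I, hpos⟩
      have h2 : imShift M hM ⟨(τ : ℂ) - M * Complex.I, hpos⟩ = τ := by
        apply UpperHalfPlane.ext
        rw [coe_imShift]
        show (τ : ℂ) - M * Complex.I + M * Complex.I = τ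
        ring
      rw [HolH.imShiftHom_apply, h2] at h1
      exact h1
    · exact hf0 h0
  -- … but a non-zero analytic function has isolated zeros
  set τ₀ : ℍ := imShift (M + 1) (by linarith) UpperHalfPlane.I with hτ₀
  have hτ₀im : M < τ₀.im := by
    rw [hτ₀, im_imShift]
    have : UpperHalfPlane.I.im = 1 := UpperHalfPlane.I_im
    linarith
  have han := HolH.analyticAt f τ₀
  have hfin := HolH.order_ne_top hf0 τ₀
  have hev : ∀ᶠ z in 𝓝[≠] (τ₀ : ℂ), ((f : ℍ → ℂ) ∘ ofComplex) z ≠ 0 := by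
    rcases han.eventually_eq_zero_or_eventually_ne_zero with h | h
    · exact absurd (analyticOrderAt_eq_top.mpr h) hfin
    · exact h
  have hopen : {z : ℂ | M < z.im} ∈ 𝓝 (τ₀ : ℂ) :=
    (isOpen_lt continuous_const Complex.continuous_im).mem_nhds hτ₀im
  have hev2 : ∀ᶠ z in 𝓝[≠] (τ₀ : ℂ), M < z.im := nhdsWithin_le_nhds hopen
  obtain ⟨z, hz1, hz2⟩ := (hev.and hev2).exists
  have hzpos : 0 < z.im := lt_of_le_of_lt hM hz2
  have h3 := hord ⟨z, hzpos⟩ hz2
  rw [Ne, HolH.ord_eq_zero_iff, not_or] at h3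
  apply h3.1
  have : ((f : ℍ → ℂ) ∘ ofComplex) z = (f : ℍ → ℂ) ⟨z, hzpos⟩ := by
    simp only [Function.comp_apply]
    rw [ofComplex_apply_of_im_pos hzpos]
  rw [← this]
  exact hz1

/-- precomposition with the shift `τ ↦ τ + i M` as a ring endomorphism of `MerH`. -/
noncomputable def MerH.imShift (M : ℝ) (hM : 0 ≤ M) : MerH →+* MerH :=
  IsFractionRing.map (HolH.imShiftHom_injective M hM)

@[simp] theorem MerH.imShift_ofHol (M : ℝ) (hM : 0 ≤ M) (f : HolH) :
    MerH.imShift M hM (MerH.ofHol f) = MerH.ofHol (HolH.imShiftHom M hM f) := by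
  unfold MerH.imShift MerH.ofHol
  exact IsLocalization.map_eq _ f

theorem MerH.imShift_const (M : ℝ) (hM : 0 ≤ M) (c : ℂ) :
    MerH.imShift M hM (MerH.const c) = MerH.const c := by
  have h1 : MerH.const c = MerH.ofHol (HolH.const c) := rfl
  rw [h1, MerH.imShift_ofHol, HolH.imShiftHom_const]

theorem MerH.imShift_injective (M : ℝ) (hM : 0 ≤ M) :
    Function.Injective (MerH.imShift M hM) :=
  (MerH.imShift M hM).injective

theorem HolH.imShiftHom_comp_T_zpow (M : ℝ) (hM : 0 ≤ M) (t : ℤ) (f : HolH) :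
    HolH.imShiftHom M hM (HolH.comp (T ^ t) f) = HolH.comp (T ^ t) (HolH.imShiftHom M hM f) := by
  apply Subtype.ext
  funext τ
  show (f : ℍ → ℂ) (T ^ t • imShift M hM τ) = (f : ℍ → ℂ) (imShift M hM (T ^ t • τ))
  rw [imShift_T_zpow_smul]

/-- the imaginary shift commutes with the real translations. -/
theorem MerH.imShift_comp_T_zpow (M : ℝ) (hM : 0 ≤ M) (t : ℤ) (x : MerH) :
    MerH.imShift M hM (MerH.comp (T ^ t) x) = MerH.comp (T ^ t) (MerH.imShift M hM x) := by
  obtain ⟨a, b, hb, rfl⟩ := MerH.exists_div x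
  rw [map_div₀, map_div₀, map_div₀, map_div₀]
  simp only [MerH.comp_algebraMap, MerH.imShift_ofHol, HolH.imShiftHom_comp_T_zpow]

end Fermat.Agent.X0N
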