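/-
Stage (I), ORD package (helper5), part 2 (CUSP-ROOT): an `n`-th root `v ∈ MerH` of a function which,
up to an `n`-th power of a `T^t`-invariant function, is a ratio of two holomorphic functions with
non-zero limits at `i∞`, is itself `T^t`-invariant as soon as `v^n` is.
-/
import Mathlib
import Fermat.Agent.GR.ORD_helper5_Shift
import Fermat.Agent.GR.ROOT_helper8_Main

set_option autoImplicit false

namespace Fermat.Agent.X0N

open UpperHalfPlane Complex Filter Topology ModularGroup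
open scoped MatrixGroups Manifold

theorem mdiff_cexp {f : ℍ → ℂ} (hf : MDiff f) : MDiff (fun τ => Complex.exp (f τ)) := by
  rw [UpperHalfPlane.mdifferentiable_iff] at hf ⊢
  exact hf.cexp

/-- the exponential of a holomorphic function. -/
noncomputable def HolH.cexp (f : HolH) : HolH := ⟨fun τ => Complex.exp ((f : ℍ → ℂ) τ), mdiff_cexp f.2⟩

@[simp] theorem HolH.cexp_apply (f : HolH) (τ : ℍ) :
    (HolH.cexp f : ℍ → ℂ) τ = Complex.exp ((f : ℍ → ℂ) τ) := rfl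

/-- **holomorphic logarithm** of a holomorphic function on `ℍ` which is uniformly close to `1`. -/
theorem HolH.exists_log_of_norm_sub_one_le (G : HolH)
    (hG : ∀ τ : ℍ, ‖(G : ℍ → ℂ) τ - 1‖ ≤ 1 / 2) :
    ∃ L : HolH, (∀ τ, Complex.exp ((L : ℍ → ℂ) τ) = (G : ℍ → ℂ) τ) ∧
      ∀ τ, ‖(L : ℍ → ℂ) τ‖ ≤ 3 / 4 := by
  have hre : ∀ τ : ℍ, 0 < ((G : ℍ → ℂ) τ).re := by
    intro τ
    have h1 := (Complex.abs_re_le_norm ((G : ℍ → ℂ) τ - 1)).trans (hG τ)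
    rw [Complex.sub_re, Complex.one_re, abs_le] at h1
    linarith [h1.1]
  have hne : ∀ τ : ℍ, (G : ℍ → ℂ) τ ≠ 0 := by
    intro τ h0
    have := hre τ
    rw [h0, Complex.zero_re] at this
    exact lt_irrefl _ this
  have hmd : MDiff (fun τ => Complex.log ((G : ℍ → ℂ) τ)) := by
    have hG2 := G.2
    rw [mem_HolH, UpperHalfPlane.mdifferentiable_iff] at hG2
    rw [UpperHalfPlane.mdifferentiable_iff]
    refine hG2.clog ?_
    intro z _
    rw [Complex.mem_slitPlane_iff]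
    exact Or.inl (hre _)
  refine ⟨⟨fun τ => Complex.log ((G : ℍ → ℂ) τ), hmd⟩, ?_, ?_⟩
  · intro τ
    exact Complex.exp_log (hne τ)
  · intro τ
    show ‖Complex.log ((G : ℍ → ℂ) τ)‖ ≤ 3 / 4
    have h1 := Complex.norm_log_one_add_half_le_self (hG τ)
    rw [add_sub_cancel] at h1
    have h2 := hG τ
    linarith

/-- if `exp (δ / n)` is an `n`-th root of unity and `‖δ‖ < 2π` then it is `1`. -/
theorem exp_div_eq_one_of_pow_eq_one {n : ℕ} (hn : n ≠ 0) {δ : ℂ} (hδ : ‖δ‖ ≤ 3)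
    (h : Complex.exp (δ / n) ^ n = 1) : Complex.exp (δ / n) = 1 := by
  have hn' : (n : ℂ) ≠ 0 := Nat.cast_ne_zero.mpr hn
  rw [← Complex.exp_nat_mul, mul_div_cancel₀ _ hn', Complex.exp_eq_one_iff] at h
  obtain ⟨m, hm⟩ := h
  have hm0 : m = 0 := by
    by_contra hm0
    have h1 : (1 : ℝ) ≤ |(m : ℝ)| := by
      have : (1 : ℤ) ≤ |m| := Int.one_le_abs hm0
      exact_mod_cast this
    have h2 : ‖δ‖ = |(m : ℝ)| * (2 * Real.pi) := by
      rw [hm, norm_mul, norm_mul, Complex.norm_I, mul_one, norm_mul, Complex.norm_intCast]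
      simp [abs_of_pos Real.pi_pos]
    have h3 := Real.pi_gt_three
    nlinarith
  rw [hm0] at hm
  rw [hm]
  simp

/-- **(CUSP-ROOT)** Let `v ^ n = Q ^ n * (A / B)` in `MerH` with `A`, `B` holomorphic with non-zero
limits at `i∞` and `Q` invariant under `τ ↦ τ + t`. If `v ^ n` is invariant under `τ ↦ τ + t`
then so is `v`. -/
theorem MerH.comp_T_zpow_eq_of_pow_eq {n : ℕ} (hn : n ≠ 0) {v Q : MerH} {A B : HolH} {a b : ℂ}
    (ha : a ≠ 0) (hb : b ≠ 0) (hA : Tendsto (A : ℍ → ℂ) atImInfty (𝓝 a))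
    (hB : Tendsto (B : ℍ → ℂ) atImInfty (𝓝 b))
    (hv : v ^ n = Q ^ n * (MerH.ofHol A / MerH.ofHol B)) (t : ℤ)
    (hQ : MerH.comp (T ^ t) Q = Q) (hinv : MerH.comp (T ^ t) (v ^ n) = v ^ n) :
    MerH.comp (T ^ t) v = v := by
  by_cases hv0 : v = 0
  · rw [hv0, map_zero]
  have hQ0 : Q ≠ 0 := by
    rintro rfl
    rw [zero_pow hn, zero_mul] at hv
    exact hv0 (pow_eq_zero_iff hn |>.mp hv)
  obtain ⟨ζ, hζn, hζ⟩ := Fermat.Agent.GR.exists_const_mul_eq_of_pow_eq_merH hn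
    (x := MerH.comp (T ^ t) v) (y := v) (by rw [← map_pow, hinv])
  suffices hζ1 : ζ = 1 by rw [hζ, hζ1, map_one, one_mul]
  -- divide by `Q`
  set v' : MerH := v / Q with hv'
  have hv'n : v' ^ n = MerH.ofHol A / MerH.ofHol B := by
    rw [hv', div_pow, hv, mul_div_cancel_left₀ _ (pow_ne_zero n hQ0)]
  have hζ' : MerH.comp (T ^ t) v' = MerH.const ζ * v' := by
    rw [hv', map_div₀, hQ, hζ, mul_div_assoc]
  -- the height `M`
  have hA1 : ∀ᶠ τ in atImInfty, ‖a⁻¹ * (A : ℍ → ℂ) τ - 1‖ ≤ 1 / 2 := by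
    have h1 : Tendsto (fun τ => a⁻¹ * (A : ℍ → ℂ) τ) atImInfty (𝓝 (a⁻¹ * a)) :=
      hA.const_mul a⁻¹
    rw [inv_mul_cancel₀ ha] at h1
    have h2 := h1 (Metric.closedBall_mem_nhds (1 : ℂ) (by norm_num : (0 : ℝ) < 1 / 2))
    filter_upwards [h2] with τ hτ
    rw [Set.mem_preimage, Metric.mem_closedBall, dist_eq_norm] at hτ
    exact hτ
  have hB1 : ∀ᶠ τ in atImInfty, ‖b⁻¹ * (B : ℍ → ℂ) τ - 1‖ ≤ 1 / 2 := by
    have h1 : Tendsto (fun τ => b⁻¹ * (B : ℍ → ℂ) τ) atImInfty (𝓝 (b⁻¹ * b)) :=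
      hB.const_mul b⁻¹
    rw [inv_mul_cancel₀ hb] at h1
    have h2 := h1 (Metric.closedBall_mem_nhds (1 : ℂ) (by norm_num : (0 : ℝ) < 1 / 2))
    filter_upwards [h2] with τ hτ
    rw [Set.mem_preimage, Metric.mem_closedBall, dist_eq_norm] at hτ
    exact hτ
  obtain ⟨M₁, hM₁⟩ := (atImInfty_mem _).mp hA1
  obtain ⟨M₂, hM₂⟩ := (atImInfty_mem _).mp hB1
  set M : ℝ := max (max M₁ M₂) 0 with hM
  have hM0 : 0 ≤ M := le_max_right _ _
  have hMM₁ : M₁ ≤ M := (le_max_left _ _).trans (le_max_left _ _)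
  have hMM₂ : M₂ ≤ M := (le_max_right _ _).trans (le_max_left _ _)
  set GA : HolH := HolH.const a⁻¹ * HolH.imShiftHom M hM0 A with hGA
  set GB : HolH := HolH.const b⁻¹ * HolH.imShiftHom M hM0 B with hGB
  have hGA1 : ∀ τ : ℍ, ‖(GA : ℍ → ℂ) τ - 1‖ ≤ 1 / 2 := fun τ =>
    hM₁ (Fermat.Agent.X0N.imShift M hM0 τ) (hMM₁.trans (le_im_imShift M hM0 τ))
  have hGB1 : ∀ τ : ℍ, ‖(GB : ℍ → ℂ) τ - 1‖ ≤ 1 / 2 := fun τ =>
    hM₂ (Fermat.Agent.X0N.imShift M hM0 τ) (hMM₂.trans (le_im_imShift M hM0 τ))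
  obtain ⟨LA, hLA, hLA'⟩ := HolH.exists_log_of_norm_sub_one_le GA hGA1
  obtain ⟨LB, hLB, hLB'⟩ := HolH.exists_log_of_norm_sub_one_le GB hGB1
  have hn' : (n : ℂ) ≠ 0 := Nat.cast_ne_zero.mpr hn
  set Y : HolH := HolH.cexp (HolH.const (n : ℂ)⁻¹ * (LA - LB)) with hY
  have hYv : ∀ τ : ℍ, (Y : ℍ → ℂ) τ =
      Complex.exp (((LA : ℍ → ℂ) τ - (LB : ℍ → ℂ) τ) / n) := by
    intro τ
    rw [hY, HolH.cexp_apply]
    congr 1
    show (n : ℂ)⁻¹ * ((LA : ℍ → ℂ) τ - (LB : ℍ → ℂ) τ) = _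
    rw [div_eq_inv_mul]
  have hYn : Y ^ n * GB = GA := by
    apply Subtype.ext
    funext τ
    show (Y : ℍ → ℂ) τ ^ n * (GB : ℍ → ℂ) τ = (GA : ℍ → ℂ) τ
    rw [hYv, ← Complex.exp_nat_mul, mul_div_cancel₀ _ hn', Complex.exp_sub, hLA, hLB]
    have hGB0 : (GB : ℍ → ℂ) τ ≠ 0 := by
      rw [← hLB]
      exact Complex.exp_ne_zero _
    field_simp
  have hGB0 : GB ≠ 0 := by
    intro h0
    have h1 := hLB UpperHalfPlane.I
    rw [h0] at h1
    exact Complex.exp_ne_zero _ h1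
  have hB0 : HolH.imShiftHom M hM0 B ≠ 0 := by
    intro h0
    rw [hGB, h0, mul_zero] at hGB0
    exact hGB0 rfl
  -- the shifted root
  obtain ⟨c₀, hc₀⟩ := IsAlgClosed.exists_pow_nat_eq (a / b) (Nat.pos_of_ne_zero hn)
  have hc₀0 : c₀ ≠ 0 := by
    rintro rfl
    rw [zero_pow hn] at hc₀
    exact div_ne_zero ha hb hc₀.symm
  have hroot : (MerH.imShift M hM0 v') ^ n = (MerH.const c₀ * MerH.ofHol Y) ^ n := by
    rw [← map_pow, hv'n, map_div₀, MerH.imShift_ofHol, MerH.imShift_ofHol, mul_pow, ← map_pow,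
      ← map_pow, hc₀]
    have h1 : MerH.ofHol (Y ^ n) * MerH.ofHol GB = MerH.ofHol GA := by rw [← map_mul, hYn]
    have h2 : MerH.ofHol GA = MerH.const a⁻¹ * MerH.ofHol (HolH.imShiftHom M hM0 A) := by
      rw [hGA, map_mul]; rfl
    have h3 : MerH.ofHol GB = MerH.const b⁻¹ * MerH.ofHol (HolH.imShiftHom M hM0 B) := by
      rw [hGB, map_mul]; rfl
    have hB0' : MerH.ofHol (HolH.imShiftHom M hM0 B) ≠ 0 := MerH.ofHol_ne_zero hB0
    have ha' : MerH.const a ≠ 0 := by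
      rwa [Ne, map_eq_zero_iff _ MerH.const_injective]
    have hb' : MerH.const b ≠ 0 := by
      rwa [Ne, map_eq_zero_iff _ MerH.const_injective]
    rw [h2, h3, map_inv₀, map_inv₀] at h1
    rw [div_eq_iff hB0', map_div₀]
    field_simp at h1 ⊢
    linear_combination -h1
  obtain ⟨ξ, hξn, hξ⟩ := Fermat.Agent.GR.exists_const_mul_eq_of_pow_eq_merH hn hroot
  have hξ0 : ξ ≠ 0 := by
    rintro rfl
    rw [zero_pow hn] at hξn
    exact zero_ne_one hξn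
  -- transport the quasi-invariance
  have h1 := congrArg (MerH.imShift M hM0) hζ'
  rw [MerH.imShift_comp_T_zpow, map_mul, MerH.imShift_const, hξ, map_mul, map_mul,
    MerH.comp_const, MerH.comp_const, MerH.comp_algebraMap] at h1
  have hξ' : MerH.const ξ ≠ 0 := by rwa [Ne, map_eq_zero_iff _ MerH.const_injective]
  have hc₀' : MerH.const c₀ ≠ 0 := by rwa [Ne, map_eq_zero_iff _ MerH.const_injective]
  have h2 : MerH.ofHol (HolH.comp (T ^ t) Y) = MerH.ofHol (HolH.const ζ * Y) := by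
    rw [map_mul]
    have h3 : MerH.ofHol (HolH.const ζ) = MerH.const ζ := rfl
    rw [h3]
    apply mul_left_cancel₀ (mul_ne_zero hξ' hc₀')
    linear_combination h1
  have h3 := MerH.ofHol_injective h2
  have h4 := congrFun (congrArg Subtype.val h3) UpperHalfPlane.I
  have h5 : (Y : ℍ → ℂ) (T ^ t • UpperHalfPlane.I) = ζ * (Y : ℍ → ℂ) UpperHalfPlane.I := h4
  -- conclude
  set δ : ℂ := ((LA : ℍ → ℂ) (T ^ t • UpperHalfPlane.I) - (LB : ℍ → ℂ) (T ^ t • UpperHalfPlane.I)) -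
    ((LA : ℍ → ℂ) UpperHalfPlane.I - (LB : ℍ → ℂ) UpperHalfPlane.I) with hδ
  have hδn : ‖δ‖ ≤ 3 := by
    have e1 := hLA' (T ^ t • UpperHalfPlane.I)
    have e2 := hLB' (T ^ t • UpperHalfPlane.I)
    have e3 := hLA' UpperHalfPlane.I
    have e4 := hLB' UpperHalfPlane.I
    calc ‖δ‖ ≤ ‖(LA : ℍ → ℂ) (T ^ t • UpperHalfPlane.I) - (LB : ℍ → ℂ) (T ^ t • UpperHalfPlane.I)‖
          + ‖(LA : ℍ → ℂ) UpperHalfPlane.I - (LB : ℍ → ℂ) UpperHalfPlane.I‖ := norm_sub_le _ _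
      _ ≤ (‖(LA : ℍ → ℂ) (T ^ t • UpperHalfPlane.I)‖ + ‖(LB : ℍ → ℂ) (T ^ t • UpperHalfPlane.I)‖)
          + (‖(LA : ℍ → ℂ) UpperHalfPlane.I‖ + ‖(LB : ℍ → ℂ) UpperHalfPlane.I‖) :=
        add_le_add (norm_sub_le _ _) (norm_sub_le _ _)
      _ ≤ 3 := by linarith
  have hζe : ζ = Complex.exp (δ / n) := by
    rw [hYv, hYv] at h5
    have h6 : Complex.exp (((LA : ℍ → ℂ) UpperHalfPlane.I - (LB : ℍ → ℂ) UpperHalfPlane.I) / n) ≠ 0 :=
      Complex.exp_ne_zero _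
    rw [hδ, sub_div, Complex.exp_sub, h5, mul_div_assoc, div_self h6, mul_one]
  rw [hζe]
  apply exp_div_eq_one_of_pow_eq_one hn hδn
  rw [← hζe, hζn]

end Fermat.Agent.X0N
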