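/-
Stage (I), ORD package (helper5), part 3: the orders dictionary at the cusps with exact ramification
indices, and (ORD-K2): an `n`-th root in `MerH` of a function `f` of the function field of `X₀(N)`
over `ℂ` all of whose place-orders are divisible by `n` is invariant under all parabolic elements
of `Γ₀(N)`.
-/
import Mathlib
import Fermat.Agent.GR.ORD_helper5_CuspRoot
import Fermat.Agent.X0N.S24_helper7_Generic
import Fermat.Agent.X0N.ES_helper5_Parabolic

set_option autoImplicit false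
set_option linter.unusedSectionVars false

namespace Fermat.Agent.X0N

open UpperHalfPlane hiding I
open Complex Filter Topology ModularGroup CongruenceSubgroup ModularCurve AlgebraicCurve
open Fermat.Agent.RatStr Fermat.Agent.FF Cusp
open scoped MatrixGroups Manifold

/-! ### group theory -/

/-- an element of `SL(2, ℤ)` acting trivially on `ℍ` is `± 1`. -/
theorem eq_one_or_eq_neg_one_of_smul_eq (g : SL(2, ℤ)) (h : ∀ w : ℍ, g • w = w) :
    g = 1 ∨ g = -1 := by
  have hdet : g 0 0 * g 1 1 - g 0 1 * g 1 0 = 1 := by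
    have := g.det_coe
    rwa [Matrix.det_fin_two] at this
  have key : ∀ w : ℍ, ((g 1 0 : ℤ) : ℂ) * (w : ℂ) ^ 2 + (((g 1 1 : ℤ) : ℂ) - ((g 0 0 : ℤ) : ℂ)) * w -
      ((g 0 1 : ℤ) : ℂ) = 0 := by
    intro w
    have h1 := congrArg (fun z : ℍ => (z : ℂ)) (h w)
    simp only [UpperHalfPlane.coe_specialLinearGroup_apply] at h1
    have hden : (((algebraMap ℤ ℝ (g 1 0) : ℝ) : ℂ) * w + ((algebraMap ℤ ℝ (g 1 1) : ℝ) : ℂ)) ≠ 0 := by
      have := UpperHalfPlane.denom_ne_zero (g : GL (Fin 2) ℝ) w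
      simpa [UpperHalfPlane.denom] using this
    rw [div_eq_iff hden] at h1
    simp only [algebraMap_int_eq, Int.coe_castRingHom, ofReal_intCast] at h1
    linear_combination -h1
  -- evaluate at `i` and `2i`
  have hI := key UpperHalfPlane.I
  have h2pos : 0 < (2 * Complex.I : ℂ).im := by simp
  have h2I := key ⟨2 * Complex.I, h2pos⟩
  have hIc : ((UpperHalfPlane.I : ℍ) : ℂ) = Complex.I := rfl
  have h2Ic : ((⟨2 * Complex.I, h2pos⟩ : ℍ) : ℂ) = 2 * Complex.I := rfl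
  rw [hIc] at hI
  rw [h2Ic] at h2I
  have e1 := congrArg Complex.re hI
  have e2 := congrArg Complex.im hI
  have e3 := congrArg Complex.re h2I
  simp [pow_two] at e1 e2 e3
  have f1 : (g 1 0 : ℝ) = 0 := by linarith
  have f2 : (g 0 1 : ℝ) = 0 := by linarith
  have f3 : (g 1 1 : ℝ) = (g 0 0 : ℝ) := by linarith
  have g1 : g 1 0 = 0 := by exact_mod_cast f1
  have g2 : g 0 1 = 0 := by exact_mod_cast f2
  have g3 : g 1 1 = g 0 0 := by exact_mod_cast f3
  rw [g1, g2, g3] at hdet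
  have g4 : (g 0 0 - 1) * (g 0 0 + 1) = 0 := by linear_combination hdet
  rcases mul_eq_zero.mp g4 with h5 | h5
  · left
    ext i j
    fin_cases i <;> fin_cases j <;> simp [g1, g2, g3] <;> omega
  · right
    ext i j
    fin_cases i <;> fin_cases j <;> simp [g1, g2, g3] <;> omega

/-- a parabolic element of `Γ₀(N)` is conjugate in `SL(2, ℤ)` to a translation, at the level of the
action on `ℍ`, and the conjugate translation lies in `Γ₀(N)`. -/
theorem exists_conj_T_zpow_mem (N : ℕ) {γ : SL(2, ℤ)} (hγ : γ ∈ Gamma0 N)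
    (htr : (γ : Matrix (Fin 2) (Fin 2) ℤ).trace ^ 2 = 4) :
    ∃ (δ : SL(2, ℤ)) (t : ℤ), (∀ w : ℍ, (γ * δ) • w = (δ * T ^ t) • w) ∧
      δ * T ^ t * δ⁻¹ ∈ Gamma0 N := by
  obtain ⟨δ, t, h⟩ := ES.exists_conj_translation γ htr
  refine ⟨δ, t, fun w => by rw [mul_smul, mul_smul, h w], ?_⟩
  have h1 : ∀ w : ℍ, ((δ * T ^ t)⁻¹ * (γ * δ)) • w = w := by
    intro w
    have h0 : γ • δ • w = (δ * T ^ t) • w := by rw [h w, mul_smul]
    rw [mul_smul, mul_smul, h0, ← mul_smul, inv_mul_cancel, one_smul]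
  rcases eq_one_or_eq_neg_one_of_smul_eq _ h1 with h2 | h2
  · have h3 : γ * δ = δ * T ^ t := by
      have := congrArg (fun x => (δ * T ^ t) * x) h2
      simpa [mul_assoc] using this
    have h4 : δ * T ^ t * δ⁻¹ = γ := by rw [← h3, mul_inv_cancel_right]
    rw [h4]
    exact hγ
  · have h3 : γ * δ = -(δ * T ^ t) := by
      have := congrArg (fun x => (δ * T ^ t) * x) h2
      simpa [mul_assoc] using this
    have h4 : δ * T ^ t * δ⁻¹ = -γ := by
      have : δ * T ^ t = -(γ * δ) := by rw [h3, neg_neg]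
      rw [this, neg_mul, mul_inv_cancel_right]
    rw [h4]
    have : -γ = (-1 : SL(2, ℤ)) * γ := by simp
    rw [this]
    refine (Gamma0 N).mul_mem ?_ hγ
    rw [Gamma0_mem]
    simp

/-- `MerH.comp` only depends on the action on `ℍ`. -/
theorem MerH.comp_congr {γ γ' : SL(2, ℤ)} (h : ∀ w : ℍ, γ • w = γ' • w) (x : MerH) :
    MerH.comp γ x = MerH.comp γ' x := by
  obtain ⟨a, b, hb, rfl⟩ := MerH.exists_div x
  rw [map_div₀, map_div₀, MerH.comp_algebraMap, MerH.comp_algebraMap, MerH.comp_algebraMap,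
    MerH.comp_algebraMap]
  have e : ∀ f : HolH, HolH.comp γ f = HolH.comp γ' f := by
    intro f
    apply Subtype.ext
    funext w
    show (f : ℍ → ℂ) (γ • w) = (f : ℍ → ℂ) (γ' • w)
    rw [h w]
  rw [e a, e b]

/-! ### powers of the local parameter as elements of `HolH` -/

/-- `q_h ^ k`, `k ∈ ℤ`, as a holomorphic function on `ℍ`. -/
noncomputable def qzHol (h : ℕ) [NeZero h] (k : ℤ) : HolH :=
  ⟨qz (h : ℝ) k, (isMeroInfty_qz (natCast_pos h) k).hol⟩

theorem coe_qzHol (h : ℕ) [NeZero h] (k : ℤ) : ((qzHol h k : HolH) : ℍ → ℂ) = qz (h : ℝ) k := rfl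

theorem qzHol_add (h : ℕ) [NeZero h] (k l : ℤ) : qzHol h (k + l) = qzHol h k * qzHol h l := by
  apply Subtype.ext
  exact qz_add k l

theorem qzHol_zero (h : ℕ) [NeZero h] : qzHol h 0 = 1 := by
  apply Subtype.ext
  exact qz_zero

theorem qzHol_ne_zero (h : ℕ) [NeZero h] (k : ℤ) : qzHol h k ≠ 0 := by
  intro h0
  have h1 : qzHol h (-k) * qzHol h k = 1 := by rw [← qzHol_add, neg_add_cancel, qzHol_zero]
  rw [h0, mul_zero] at h1
  exact zero_ne_one h1

theorem qzHol_nat_mul (h : ℕ) [NeZero h] (n : ℕ) (k : ℤ) : qzHol h (n * k) = qzHol h k ^ n := by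
  induction n with
  | zero => simp [qzHol_zero]
  | succ n ih =>
    rw [pow_succ, ← ih, ← qzHol_add]
    congr 1
    push_cast
    ring

theorem comp_T_zpow_qzHol (h : ℕ) [NeZero h] (k t : ℤ) :
    HolH.comp (T ^ t) (qzHol h k) = HolH.const (zetaPow (h : ℝ) t ^ k) * qzHol h k := by
  apply Subtype.ext
  funext τ
  show qz (h : ℝ) k (T ^ t • τ) = zetaPow (h : ℝ) t ^ k * qz (h : ℝ) k τ
  exact qz_T_zpow_smul t k τ

/-- `q_h ^ k` is invariant under `τ ↦ τ + t` as soon as `h ∣ t * k`. -/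
theorem comp_T_zpow_qzHol_of_dvd (h : ℕ) [NeZero h] {k t : ℤ} (hd : (h : ℤ) ∣ t * k) :
    MerH.comp (T ^ t) (MerH.ofHol (qzHol h k)) = MerH.ofHol (qzHol h k) := by
  rw [MerH.comp_algebraMap, comp_T_zpow_qzHol]
  have h1 : zetaPow (h : ℝ) t ^ k = 1 := by
    obtain ⟨c, hc⟩ := hd
    rw [zetaPow, ← Complex.exp_int_mul, Complex.exp_eq_one_iff]
    refine ⟨c, ?_⟩
    have hh : ((h : ℝ) : ℂ) ≠ 0 := by
      have := (natCast_pos h).ne'
      exact_mod_cast this
    have hc' : (t : ℂ) * (k : ℂ) = (h : ℂ) * (c : ℂ) := by exact_mod_cast hc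
    have hh' : (h : ℂ) ≠ 0 := by exact_mod_cast hh
    calc (k : ℂ) * (2 * (Real.pi : ℂ) * Complex.I * (t : ℂ) / ((h : ℝ) : ℂ))
        = (2 * (Real.pi : ℂ) * Complex.I) * (((t : ℂ) * (k : ℂ)) / (h : ℂ)) := by
          push_cast; ring
      _ = (2 * (Real.pi : ℂ) * Complex.I) * (c : ℂ) := by
          rw [hc', mul_div_cancel_left₀ _ hh']
      _ = (c : ℂ) * (2 * (Real.pi : ℂ) * Complex.I) := by ring
  rw [h1, map_one, one_mul]

/-- **normal form at `i∞`**: a non-zero element of `MerInf h` is `q_h ^ ord` times a ratio of two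
holomorphic functions with non-zero limits at `i∞`. -/
theorem IsMerInf.exists_limit_decomp {h : ℕ} [NeZero h] {x : MerH} (hx : IsMerInf h x)
    (hx0 : x ≠ 0) :
    ∃ (A B : HolH) (a b : ℂ), a ≠ 0 ∧ b ≠ 0 ∧ Tendsto (A : ℍ → ℂ) atImInfty (𝓝 a) ∧
      Tendsto (B : ℍ → ℂ) atImInfty (𝓝 b) ∧
      x = MerH.ofHol (qzHol h (MerH.ordInf h x)) * (MerH.ofHol A / MerH.ofHol B) := by
  obtain ⟨a₀, b₀, ha, hb, hb0, rfl⟩ := hx
  have ha0 : a₀ ≠ 0 := by
    rintro rfl
    simp at hx0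
  have hh := natCast_pos h
  have hLa := Cusp.laurent_ne_zero ha ha0
  have hLb := Cusp.laurent_ne_zero hb hb0
  set oa := (laurent (h : ℝ) (a₀ : ℍ → ℂ)).order with hoa
  set ob := (laurent (h : ℝ) (b₀ : ℍ → ℂ)).order with hob
  refine ⟨a₀ * qzHol h (-oa), b₀ * qzHol h (-ob), _, _,
    fun h0 => hLa (HahnSeries.coeff_order_eq_zero.mp h0),
    fun h0 => hLb (HahnSeries.coeff_order_eq_zero.mp h0),
    tendsto_mul_qz_order hh ha, tendsto_mul_qz_order hh hb, ?_⟩
  have hord : MerH.ordInf h (MerH.ofHol a₀ / MerH.ofHol b₀) = oa - ob := by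
    rw [MerH.ordInf_div (isMerInf_ofHol ha) (isMerInf_ofHol hb) (MerH.ofHol_ne_zero ha0)
      (MerH.ofHol_ne_zero hb0), MerH.ordInf_ofHol ha, MerH.ordInf_ofHol hb]
  rw [hord]
  have e1 : qzHol h (oa - ob) * qzHol h (-oa) = qzHol h (-ob) := by
    rw [← qzHol_add]
    congr 1
    ring
  have e1' := congrArg MerH.ofHol e1
  rw [map_mul] at e1'
  have hb0' := MerH.ofHol_ne_zero hb0
  have hq0 := MerH.ofHol_ne_zero (qzHol_ne_zero h (oa - ob))
  have hq2 := MerH.ofHol_ne_zero (qzHol_ne_zero h (-oa))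
  rw [map_mul, map_mul, ← e1']
  field_simp

/-! ### the cusp dictionary with exact ramification, and (ORD-K2) -/

section Dict

variable (N : ℕ) [NeZero N]

/-- **cusp dictionary**: the cusp valuation at the coset `q` (order at `i∞` in the parameter `q_N`
of the `q`-th conjugate) is exactly `N / width` times the normalised order of its place. -/
theorem cuspOrdFn_ord_eq_mul (q : SL(2, ℤ) ⧸ Gamma0 N) :
    ∃ m : ℤ, m * (MulAction.period T q : ℤ) = N ∧
      ∀ x : ↥(laurentBaseChange ℂ (modularFunctionFieldFull N)), x ≠ 0 →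
        (cuspOrdFn (RingHom.id ℂ) N q).ord x =
          m * (cuspOrdFn (RingHom.id ℂ) N q).toPlace.ord x := by
  have hc : (jCoordK ℂ N).x = jB (k := ℂ) N := (jB_eq_jK (k := ℂ) N).symm
  have hdeg : (jCoordK ℂ N).degree = Nat.card (SL(2, ℤ) ⧸ Gamma0 N) := by
    rw [jCoordK_degree, card_cosets_eq_dedekindPsi]
  obtain ⟨-, hb, -, -⟩ := poles_jB_squeeze (k := ℂ) N (jCoordK ℂ N) hc hdeg
  obtain ⟨m, -, hm⟩ := (cuspOrdFn (RingHom.id ℂ) N q).exists_ord_eq_mul
  refine ⟨m, ?_, hm⟩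
  have h1 := hm (jK ℂ N) (jK_ne_zero (RingHom.id ℂ) N)
  rw [cuspOrdFn_ord_jK] at h1
  have h2 := hb q
  rw [card_orbit_T_eq_period] at h2
  have h3 : (cuspOrdFn (RingHom.id ℂ) N q).toPlace.ord (jK ℂ N) =
      -(MulAction.period T q : ℤ) := by
    have h4 : (cuspOrdFn (algebraMap ℂ ℂ) N q).toPlace.ord (jCoordK ℂ N).x =
        (cuspOrdFn (RingHom.id ℂ) N q).toPlace.ord (jK ℂ N) := rfl
    rw [← h4]
    linarith
  rw [h3] at h1
  linarith

/-- **(ORD-K2)**: let `f ≠ 0` be a function on `X₀(N)` over `ℂ` all of whose orders at places are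
divisible by `n`, and `u ∈ MerH` an `n`-th root of its realisation. Then `u` is invariant under all
parabolic elements (and `± 1`) of `Γ₀(N)`. -/
theorem comp_parabolic_eq_of_pow_eq_realN {n : ℕ} (hn : n ≠ 0)
    {f : ↥(laurentBaseChange ℂ (modularFunctionFieldFull N))} (hf : f ≠ 0)
    (hdiv : ∀ P : Place ℂ ↥(laurentBaseChange ℂ (modularFunctionFieldFull N)), (n : ℤ) ∣ P.ord f)
    {u : MerH} (hu : u ^ n = realN (RingHom.id ℂ) N f) {γ : SL(2, ℤ)} (hγ : γ ∈ Gamma0 N)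
    (hpar : (γ : Matrix (Fin 2) (Fin 2) ℤ).trace ^ 2 = 4) : MerH.comp γ u = u := by
  obtain ⟨δ, t, hact, hmem⟩ := exists_conj_T_zpow_mem N hγ hpar
  set q : SL(2, ℤ) ⧸ Gamma0 N := ((δ⁻¹ : SL(2, ℤ)) : SL(2, ℤ) ⧸ Gamma0 N) with hq
  have hmod := isModFun_realN (RingHom.id ℂ) N f
  have hF : cuspConj (RingHom.id ℂ) N q f = MerH.comp δ (realN (RingHom.id ℂ) N f) := by
    rw [cuspConj_apply, hq, conjM_mk hmod, inv_inv]
  have hTq : T ^ t • q = q := by
    rw [hq, MulAction.Quotient.smul_mk, QuotientGroup.eq, smul_eq_mul]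
    have : (T ^ t * δ⁻¹)⁻¹ * δ⁻¹ = (δ * T ^ t * δ⁻¹)⁻¹ := by group
    rw [this]
    exact (Gamma0 N).inv_mem hmem
  obtain ⟨m, hmw, hm⟩ := cuspOrdFn_ord_eq_mul N q
  have hwt : (MulAction.period T q : ℤ) ∣ t := MulAction.zpow_smul_eq_iff_period_dvd.mp hTq
  obtain ⟨a', ha'⟩ := hdiv (cuspOrdFn (RingHom.id ℂ) N q).toPlace
  set F : MerH := MerH.comp δ (realN (RingHom.id ℂ) N f) with hFdef
  have hF0 : F ≠ 0 := by
    rw [hFdef, Ne, map_eq_zero_iff _ (MerH.comp δ).injective,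
      map_eq_zero_iff _ (realN (RingHom.id ℂ) N).injective]
    exact hf
  have hFmer : IsMerInf N F := by
    rw [← hF]
    exact isMerInf_cuspConj (RingHom.id ℂ) N q f
  have hord : MerH.ordInf N F = (n : ℤ) * (m * a') := by
    have h1 := hm f hf
    rw [ha'] at h1
    have h2 : (cuspOrdFn (RingHom.id ℂ) N q).ord f = MerH.ordInf N F := by
      rw [← hF]
      rfl
    rw [← h2, h1]
    ring
  obtain ⟨A, B, a, b, ha, hb, hA, hB, hdec⟩ := hFmer.exists_limit_decomp hF0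
  set v : MerH := MerH.comp δ u with hv
  have hvn : v ^ n = F := by rw [hv, ← map_pow, hu]
  have hv' : v ^ n = (MerH.ofHol (qzHol N (m * a'))) ^ n * (MerH.ofHol A / MerH.ofHol B) := by
    rw [hvn, ← map_pow, ← qzHol_nat_mul, ← hord]
    exact hdec
  have hQ : MerH.comp (T ^ t) (MerH.ofHol (qzHol N (m * a'))) = MerH.ofHol (qzHol N (m * a')) := by
    apply comp_T_zpow_qzHol_of_dvd
    obtain ⟨t', ht'⟩ := hwt
    refine ⟨t' * a', ?_⟩
    rw [ht', ← hmw]
    ring
  have hinv : MerH.comp (T ^ t) (v ^ n) = v ^ n := by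
    rw [hvn, hFdef, ← MerH.comp_mul]
    have : δ * T ^ t = (δ * T ^ t * δ⁻¹) * δ := by group
    rw [this, MerH.comp_mul, comp_realN_of_mem_Gamma0 (RingHom.id ℂ) N hmem]
  have hvT := MerH.comp_T_zpow_eq_of_pow_eq hn ha hb hA hB hv' t hQ hinv
  have h1 : MerH.comp δ (MerH.comp γ u) = MerH.comp δ u := by
    rw [← MerH.comp_mul, MerH.comp_congr hact, MerH.comp_mul]
    exact hvT
  exact (MerH.comp δ).injective h1

end Dict

end Fermat.Agent.X0N
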