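/-
Stage (I), ORD package (helper5), part 4: the orders dictionary at the points of `ℍ` (ORD-FIN) and
(ORD-K4): if `u ∈ MerH` is an `n`-th root of the realisation of a function `f` on `X₀(N)` over `ℂ`
which is invariant under the parabolic and the finite order elements of `Γ₀(N)` and meromorphic at
all cusps, then all orders of `f` at places are divisible by `n`.
-/
import Mathlib
import Fermat.Agent.GR.ORD_helper5_Par
import Fermat.Agent.X0N.FinPt_helper8_Count
import Fermat.Agent.X0N.Dict_helper5_Finite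
import Fermat.Agent.X0N.ParHom_helper9_Main

set_option autoImplicit false
set_option linter.unusedSectionVars false

namespace Fermat.Agent.X0N

open UpperHalfPlane hiding I
open Complex Filter Topology ModularGroup CongruenceSubgroup ModularCurve AlgebraicCurve
open Fermat.Agent.RatStr Fermat.Agent.FF Cusp
open scoped MatrixGroups Manifold

variable (N : ℕ) [NeZero N]

/-! ### (ORD-FIN) -/

/-- **(ORD-FIN)**: the order at a point `τ ∈ ℍ` of the realisation is a positive multiple of the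
order at a place. -/
theorem exists_place_ordAt (τ : ℍ) :
    ∃ (P : Place ℂ ↥(laurentBaseChange ℂ (modularFunctionFieldFull N))) (e : ℤ), 0 < e ∧
      ∀ x : ↥(laurentBaseChange ℂ (modularFunctionFieldFull N)), x ≠ 0 →
        MerH.ordAt τ (realN (RingHom.id ℂ) N x) = e * P.ord x := by
  obtain ⟨m, hm0, hm⟩ := (Dict.ordFnAt (RingHom.id ℂ) N τ (jFun τ) rfl).exists_ord_eq_mul
  exact ⟨_, m, hm0, hm⟩

/-- input of (K1 ROOT): if all orders of `f` at places are divisible by `n` then so are all orders of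
its realisation at points of `ℍ`. -/
theorem dvd_ordAt_realN {n : ℕ} {f : ↥(laurentBaseChange ℂ (modularFunctionFieldFull N))}
    (hf : f ≠ 0)
    (hdiv : ∀ P : Place ℂ ↥(laurentBaseChange ℂ (modularFunctionFieldFull N)), (n : ℤ) ∣ P.ord f)
    (τ : ℍ) : (n : ℤ) ∣ MerH.ordAt τ (realN (RingHom.id ℂ) N f) := by
  obtain ⟨P, e, -, he⟩ := exists_place_ordAt N τ
  rw [he f hf]
  exact Dvd.dvd.mul_left (hdiv P) e

/-! ### auxiliary facts -/

theorem IsMerInf.pow' {h : ℕ} [NeZero h] {x : MerH} (hx : IsMerInf h x) (n : ℕ) :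
    IsMerInf h (x ^ n) := by
  induction n with
  | zero => simpa using isMerInf_one (h := h)
  | succ n ih => rw [pow_succ]; exact ih.mul hx

theorem MerH.ordInf_pow' {h : ℕ} [NeZero h] {x : MerH} (hx : IsMerInf h x) (hx0 : x ≠ 0) (n : ℕ) :
    MerH.ordInf h (x ^ n) = n * MerH.ordInf h x := by
  induction n with
  | zero => simp [MerH.ordInf_one]
  | succ n ih =>
    rw [pow_succ, MerH.ordInf_mul (hx.pow' n) hx (pow_ne_zero n hx0) hx0, ih]
    push_cast
    ring

/-- invariance of the conjugate `u ∘ q.out⁻¹` under `s` fixing the coset `q`, for `u` invariant under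
the element `q.out⁻¹ s q.out` of `Γ₀(N)`. -/
theorem comp_conj_eq_of_smul_eq {u : MerH} {s : SL(2, ℤ)} {q : SL(2, ℤ) ⧸ Gamma0 N}
    (hq : s • q = q) (hu : ∀ γ : SL(2, ℤ), γ ∈ Gamma0 N → γ = (q.out)⁻¹ * s * q.out →
      MerH.comp γ u = u) :
    MerH.comp s (MerH.comp (q.out)⁻¹ u) = MerH.comp (q.out)⁻¹ u := by
  have hmem : (q.out)⁻¹ * s * q.out ∈ Gamma0 N := by
    have h1 : s • ((q.out : SL(2, ℤ)) : SL(2, ℤ) ⧸ Gamma0 N) = ((q.out : SL(2, ℤ)) : _) := by
      rw [QuotientGroup.out_eq']
      exact hq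
    rw [MulAction.Quotient.smul_mk, QuotientGroup.eq, smul_eq_mul] at h1
    have h2 : (q.out)⁻¹ * s * q.out = ((s * q.out)⁻¹ * q.out)⁻¹ := by group
    rw [h2]
    exact (Gamma0 N).inv_mem h1
  rw [← MerH.comp_mul]
  have h3 : (q.out)⁻¹ * s = ((q.out)⁻¹ * s * q.out) * (q.out)⁻¹ := by group
  rw [h3, MerH.comp_mul, hu _ hmem rfl]

theorem isOfFinOrder_conj_S (r : SL(2, ℤ)) : IsOfFinOrder (r⁻¹ * S * r) := by
  rw [isOfFinOrder_iff_pow_eq_one]
  refine ⟨4, by norm_num, ?_⟩
  have h1 : (r⁻¹ * S * r) ^ 4 = r⁻¹ * S ^ 4 * r := by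
    have := conj_pow (a := r⁻¹) (b := S) (i := 4)
    rwa [inv_inv] at this
  have h2 : (S : SL(2, ℤ)) ^ 4 = 1 := by
    ext i j
    fin_cases i <;> fin_cases j <;> simp [pow_succ, ModularGroup.S, Matrix.mul_apply, Fin.sum_univ_two]
  rw [h1, h2]
  group

theorem isOfFinOrder_conj_ST (r : SL(2, ℤ)) : IsOfFinOrder (r⁻¹ * (S * T) * r) := by
  rw [isOfFinOrder_iff_pow_eq_one]
  refine ⟨6, by norm_num, ?_⟩
  have h1 : (r⁻¹ * (S * T) * r) ^ 6 = r⁻¹ * (S * T) ^ 6 * r := by
    have := conj_pow (a := r⁻¹) (b := S * T) (i := 6)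
    rwa [inv_inv] at this
  have h2 : ((S * T : SL(2, ℤ))) ^ 6 = 1 := by
    ext i j
    fin_cases i <;> fin_cases j <;>
      simp [pow_succ, ModularGroup.S, ModularGroup.T, Matrix.mul_apply, Fin.sum_univ_two]
  rw [h1, h2]
  group

/-! ### (ORD-K4) -/

section K4

variable {N}
variable {n : ℕ} {f : ↥(laurentBaseChange ℂ (modularFunctionFieldFull N))} {u : MerH}

/-- the finite places: abstract step. -/
theorem dvd_toPlace_ord_finOrdFn_aux (hf : f ≠ 0)
    (hu : u ^ n = realN (RingHom.id ℂ) N f) (τ₀ : ℍ) (a : ℂ)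
    (hτ : jFun τ₀ = (RingHom.id ℂ) a) (q : SL(2, ℤ) ⧸ Gamma0 N)
    (hdv : ∀ m : ℤ, 0 < m → (∀ x : ↥(laurentBaseChange ℂ (modularFunctionFieldFull N)), x ≠ 0 →
      (finOrdFn N (RingHom.id ℂ) τ₀ a hτ q).ord x =
        m * (finOrdFn N (RingHom.id ℂ) τ₀ a hτ q).toPlace.ord x) →
      m ∣ MerH.ordAt τ₀ (MerH.comp (q.out)⁻¹ u)) :
    (n : ℤ) ∣ (finOrdFn N (RingHom.id ℂ) τ₀ a hτ q).toPlace.ord f := by
  obtain ⟨m, hm0, hm⟩ := (finOrdFn N (RingHom.id ℂ) τ₀ a hτ q).exists_ord_eq_mul
  obtain ⟨k', hk'⟩ := hdv m hm0 hm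
  have h1 : (finOrdFn N (RingHom.id ℂ) τ₀ a hτ q).ord f =
      n * MerH.ordAt τ₀ (MerH.comp (q.out)⁻¹ u) := by
    rw [finOrdFn_ord]
    unfold conjM
    rw [← hu, map_pow, MerH.ordAt_pow]
  rw [hm f hf, hk'] at h1
  refine ⟨k', ?_⟩
  have h2 : m * ((finOrdFn N (RingHom.id ℂ) τ₀ a hτ q).toPlace.ord f) = m * (n * k') := by
    rw [h1]; ring
  exact mul_left_cancel₀ hm0.ne' h2

/-- **(ORD-K4)**: divisibility by `n` of the divisor of `f` from an `n`-th root `u` of its
realisation which is invariant under the parabolic and the finite order elements of `Γ₀(N)` and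
meromorphic at all cusps. -/
theorem dvd_ord_of_pow_eq_realN (hn : n ≠ 0) (hf : f ≠ 0)
    (hu : u ^ n = realN (RingHom.id ℂ) N f)
    (hinv : ∀ γ : SL(2, ℤ), γ ∈ Gamma0 N →
      ((γ : Matrix (Fin 2) (Fin 2) ℤ).trace ^ 2 = 4 ∨ IsOfFinOrder γ) → MerH.comp γ u = u)
    (hmer : ∀ σ : SL(2, ℤ), IsMerInf N (MerH.comp σ u))
    (P : Place ℂ ↥(laurentBaseChange ℂ (modularFunctionFieldFull N))) : (n : ℤ) ∣ P.ord f := by
  have hc : (jCoordK ℂ N).x = jGen ℂ N := rfl
  have hX : Nat.card (SL(2, ℤ) ⧸ Gamma0 N) = (jCoordK ℂ N).degree := by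
    rw [jCoordK_degree, card_cosets_eq_dedekindPsi]
  rcases (jCoordK ℂ N).mem_poles_or_exists_mem_zeros P with hP | ⟨a, hP⟩
  · -- cusps
    have hcB : (jCoordK ℂ N).x = jB (k := ℂ) N := (jB_eq_jK (k := ℂ) N).symm
    obtain ⟨-, -, -, hsurj⟩ := poles_jB_squeeze (k := ℂ) N (jCoordK ℂ N) hcB hX.symm
    obtain ⟨q, hq⟩ := hsurj P hP
    have hq' : (cuspOrdFn (RingHom.id ℂ) N q).toPlace = P := hq
    rw [← hq']
    obtain ⟨m, hmw, hm⟩ := cuspOrdFn_ord_eq_mul N q
    set x : MerH := MerH.comp (q.out)⁻¹ u with hx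
    have hxmer : IsMerInf N x := hmer _
    have hxn : x ^ n = cuspConj (RingHom.id ℂ) N q f := by
      rw [hx, ← map_pow, hu]
      rfl
    have hx0 : x ≠ 0 := by
      intro h0
      have h1 := cuspConj_ne_zero (RingHom.id ℂ) N q hf
      rw [← hxn, h0, zero_pow hn] at h1
      exact h1 rfl
    have hord : (cuspOrdFn (RingHom.id ℂ) N q).ord f = n * MerH.ordInf N x := by
      show MerH.ordInf N (cuspConj (RingHom.id ℂ) N q f) = _
      rw [← hxn, MerH.ordInf_pow' hxmer hx0]
    -- `m = N / width` divides the order of `x`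
    have hw := period_T_dvd N q
    have hwd : MulAction.period T q * (N / MulAction.period T q) = N := Nat.mul_div_cancel' hw
    have hw0 : (MulAction.period T q : ℤ) ≠ 0 := by
      intro h0
      rw [h0, mul_zero] at hmw
      exact (NeZero.ne N) (by exact_mod_cast hmw.symm)
    have hmd : m = ((N / MulAction.period T q : ℕ) : ℤ) := by
      have h1 : ((MulAction.period T q : ℕ) : ℤ) * ((N / MulAction.period T q : ℕ) : ℤ) = N := by
        exact_mod_cast hwd
      apply mul_right_cancel₀ hw0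
      rw [hmw, mul_comm, h1]
    have hTx : MerH.comp (T ^ MulAction.period T q) x = x := by
      apply comp_conj_eq_of_smul_eq N (MulAction.pow_period_smul T q)
      intro γ hγ hγe
      apply hinv γ hγ
      left
      rw [hγe, ParHom.trace_conj_T_pow]
      norm_num
    obtain ⟨k', hk'⟩ := MerH.dvd_ordInf_of_comp_eq hxmer hwd hTx
    rw [← hmd] at hk'
    refine ⟨k', ?_⟩
    have hm00 : m ≠ 0 := by
      rintro rfl
      rw [zero_mul] at hmw
      exact (NeZero.ne N) (by exact_mod_cast hmw.symm)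
    have h2 : m * (cuspOrdFn (RingHom.id ℂ) N q).toPlace.ord f = m * (n * k') := by
      rw [← hm f hf, hord, hk']
      ring
    exact mul_left_cancel₀ hm00 h2
  · -- finite places
    by_cases h0 : a = 0
    · -- `j = 0`
      subst h0
      obtain ⟨-, hb, -, hsurj⟩ := fin_squeeze_zero (RingHom.id ℂ) (jCoordK ℂ N) hc hX
        (fun g hg0 hg => finPt_isIntegral N (jCoordK ℂ N) hc 0 rhoH (jFun_rhoH_eq_map _) g hg0 hg)
      obtain ⟨q, rfl⟩ := hsurj P hP
      apply dvd_toPlace_ord_finOrdFn_aux hf hu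
      intro m hm0 hm
      have hj0 : jGen ℂ N - algebraMap ℂ _ (0 : ℂ) ≠ 0 := by
        intro h
        have h1 := finOrdFn_ord_jGen_sub (N := N) (ι := RingHom.id ℂ) rhoH 0
          (jFun_rhoH_eq_map _) q
        rw [h] at h1
        have h2 : (finOrdFn N (RingHom.id ℂ) rhoH 0 (jFun_rhoH_eq_map _) q).ord 0 = 0 := by
          show MerH.ordAt rhoH (conjRealN N (RingHom.id ℂ) q 0) = 0
          rw [map_zero, MerH.ordAt_zero]
        rw [h2] at h1
        simp at h1
      have h1 := hm _ hj0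
      rw [finOrdFn_ord_jGen_sub, if_pos (by simp), ← hc, hb q] at h1
      by_cases hfix : (S * T) • q = q
      · have h3 : (3 : ℤ) ∣ MerH.ordAt rhoH (MerH.comp (q.out)⁻¹ u) := by
          have hx : MerH.comp (S * T) (MerH.comp (q.out)⁻¹ u) = MerH.comp (q.out)⁻¹ u := by
            apply comp_conj_eq_of_smul_eq N hfix
            intro γ hγ hγe
            apply hinv γ hγ
            right
            rw [hγe]
            exact isOfFinOrder_conj_ST _
          have h := MerH.zpow_ordAt_eq_one_of_comp_eq ST_smul_rhoH hx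
          have : Fact (Nat.Prime 3) := ⟨Nat.prime_three⟩
          have := dvd_of_zpow_eq_one_of_prime (p := 3)
            (by rw [inv_denom_ST_rhoH_sq]; exact rhoH_sq_pow_three)
            (by rw [inv_denom_ST_rhoH_sq]; exact rhoH_sq_ne_one) h
          exact_mod_cast this
        exact Dvd.dvd.trans ⟨_, h1⟩ h3
      · have h2 : 2 ≤ Nat.card {q' // MulAction.orbitRel (Subgroup.zpowers (S * T))
            (SL(2, ℤ) ⧸ Gamma0 N) q' q} :=
          finPt_two_le_card_class _ (by
            have h1 := smul_orbitRel_zpowers (X := SL(2, ℤ) ⧸ Gamma0 N) (S * T) 1 q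
            rw [zpow_one] at h1
            exact h1) hfix
        have h2' : (2 : ℤ) ≤ (Nat.card {q' // MulAction.orbitRel (Subgroup.zpowers (S * T))
            (SL(2, ℤ) ⧸ Gamma0 N) q' q} : ℤ) := by exact_mod_cast h2
        have hm1 : m = 1 := by nlinarith
        rw [hm1]
        exact one_dvd _
    · by_cases h1 : a = 1728
      · -- `j = 1728`
        subst h1
        obtain ⟨-, hb, -, hsurj⟩ := fin_squeeze_1728 (RingHom.id ℂ) (jCoordK ℂ N) hc hX
          (fun g hg0 hg => finPt_isIntegral N (jCoordK ℂ N) hc 1728 UpperHalfPlane.I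
            (jFun_I_eq_map _) g hg0 hg)
        obtain ⟨q, rfl⟩ := hsurj P hP
        apply dvd_toPlace_ord_finOrdFn_aux hf hu
        intro m hm0 hm
        have hj0 : jGen ℂ N - algebraMap ℂ _ (1728 : ℂ) ≠ 0 := by
          intro h
          have h1 := finOrdFn_ord_jGen_sub (N := N) (ι := RingHom.id ℂ) UpperHalfPlane.I 1728
            (jFun_I_eq_map _) q
          rw [h] at h1
          have h2 : (finOrdFn N (RingHom.id ℂ) UpperHalfPlane.I 1728 (jFun_I_eq_map _) q).ord 0
              = 0 := by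
            show MerH.ordAt UpperHalfPlane.I (conjRealN N (RingHom.id ℂ) q 0) = 0
            rw [map_zero, MerH.ordAt_zero]
          rw [h2] at h1
          simp at h1
        have h1 := hm _ hj0
        rw [finOrdFn_ord_jGen_sub, if_neg (by simp), if_pos (by simp), ← hc, hb q] at h1
        by_cases hfix : S • q = q
        · have h3 : (2 : ℤ) ∣ MerH.ordAt UpperHalfPlane.I (MerH.comp (q.out)⁻¹ u) := by
            have hx : MerH.comp S (MerH.comp (q.out)⁻¹ u) = MerH.comp (q.out)⁻¹ u := by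
              apply comp_conj_eq_of_smul_eq N hfix
              intro γ hγ hγe
              apply hinv γ hγ
              right
              rw [hγe]
              exact isOfFinOrder_conj_S _
            have h := MerH.zpow_ordAt_eq_one_of_comp_eq S_smul_I hx
            have : Fact (Nat.Prime 2) := ⟨Nat.prime_two⟩
            have := dvd_of_zpow_eq_one_of_prime (p := 2)
              (by rw [inv_denom_S_I_sq]; norm_num) (by rw [inv_denom_S_I_sq]; norm_num) h
            exact_mod_cast this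
          exact Dvd.dvd.trans ⟨_, h1⟩ h3
        · have h2 : 2 ≤ Nat.card {q' // MulAction.orbitRel (Subgroup.zpowers S)
              (SL(2, ℤ) ⧸ Gamma0 N) q' q} :=
            finPt_two_le_card_class _ (by
              have h1 := smul_orbitRel_zpowers (X := SL(2, ℤ) ⧸ Gamma0 N) S 1 q
              rw [zpow_one] at h1
              exact h1) hfix
          have h2' : (2 : ℤ) ≤ (Nat.card {q' // MulAction.orbitRel (Subgroup.zpowers S)
              (SL(2, ℤ) ⧸ Gamma0 N) q' q} : ℤ) := by exact_mod_cast h2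
          have hm1 : m = 1 := by nlinarith
          rw [hm1]
          exact one_dvd _
      · -- generic fibres
        obtain ⟨τ₀, hτ⟩ := exists_jFun_eq ((RingHom.id ℂ) a)
        obtain ⟨-, hb, -, hsurj⟩ := fin_squeeze_generic (RingHom.id ℂ) (jCoordK ℂ N) hc hX a h0 h1
          τ₀ hτ (fun g hg0 hg => finPt_isIntegral N (jCoordK ℂ N) hc a τ₀ hτ g hg0 hg)
        obtain ⟨q, rfl⟩ := hsurj P hP
        apply dvd_toPlace_ord_finOrdFn_aux hf hu
        intro m hm0 hm
        have hj0 : jGen ℂ N - algebraMap ℂ _ a ≠ 0 := by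
          intro h
          have h1 := finOrdFn_ord_jGen_sub (N := N) (ι := RingHom.id ℂ) τ₀ a hτ q
          rw [h] at h1
          have h2 : (finOrdFn N (RingHom.id ℂ) τ₀ a hτ q).ord 0 = 0 := by
            show MerH.ordAt τ₀ (conjRealN N (RingHom.id ℂ) q 0) = 0
            rw [map_zero, MerH.ordAt_zero]
          rw [h2] at h1
          split_ifs at h1 <;> simp at h1
        have h2 := hm _ hj0
        rw [finOrdFn_ord_jGen_sub, if_neg (by simpa using h0), if_neg (by simpa using h1), ← hc,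
          hb q] at h2
        have hm1 : m = 1 := by linarith
        rw [hm1]
        exact one_dvd _

end K4

end Fermat.Agent.X0N
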