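/-
Stage (I), package K4 EIS (helper9), part 3: **surjectivity of the Kummer map** onto the characters
killing parabolic and finite order elements.

For `ψ : Γ₀(N) → ℤ/n` killing the elements with `trace² = 4` and the elements of finite order,
`u := E_χ / E_1 ∈ MerH` (`χ = stdAddChar ∘ ψ`, `E_χ` the weight `4` Eisenstein series with
character) satisfies `u ∘ γ = χ(γ) u`, `u ^ n = realNC f` for a function `f` on `X₀(N)` all of whose
orders are divisible by `n` (helper5's (ORD-K4)), so `D := div(f) / n` defines a class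
`x ∈ Pic⁰(F_ℂ)[n]` with `kappa N n x = ψ` (helper8's `kappa_eq_kummerChar`).
-/
import Mathlib
import Fermat.Agent.GR.EIS_helper9_Char
import Fermat.Agent.GR.CHAR_helper8_Compat
import Fermat.Agent.GR.INV_helper8_Main
import Fermat.Agent.GR.ORD_helper5_Fin

set_option autoImplicit false
set_option linter.unusedSectionVars false
set_option linter.style.haveILetI false

open UpperHalfPlane hiding I
open Complex ModularGroup ModularCurve CongruenceSubgroup AlgebraicCurve Matrix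
open Fermat.Agent.RatStr ModularCurve.Period
open scoped MatrixGroups

namespace Fermat.Agent.GR

open Fermat.Agent.X0N

noncomputable section

variable {N : ℕ} [NeZero N] {n : ℕ} [NeZero n] (ψ : Additive ↥(Gamma0 N) →+ ZMod n)

/-- `E_χ` as an element of `HolH`. -/
def eisHol : HolH := ⟨eisChi ψ, mdiff_eisChi ψ⟩

@[simp] theorem coe_eisHol : (eisHol ψ : ℍ → ℂ) = eisChi ψ := rfl

/-- the Kummer element `u = E_χ / E_1`. -/
def eisU : MerH :=
  MerH.ofHol (eisHol ψ) / MerH.ofHol (eisHol (0 : Additive ↥(Gamma0 N) →+ ZMod n))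

theorem eis_isParabolicHom_zero :
    IsParabolicHom (Gamma0 N) (0 : Additive ↥(Gamma0 N) →+ ZMod n) := fun _ _ => rfl

theorem eis_neg_one_mem_Gamma0 : (-1 : SL(2, ℤ)) ∈ Gamma0 N :=
  neg_mem_Gamma0 N (Gamma0 N).one_mem

variable {ψ}

theorem eisHol_ne_zero (hψ : IsParabolicHom (Gamma0 N) ψ) : eisHol ψ ≠ 0 := by
  intro h
  exact eisChi_ne_zero hψ eis_neg_one_mem_Gamma0 (congrArg Subtype.val h)

theorem eisU_ne_zero (hψ : IsParabolicHom (Gamma0 N) ψ) : eisU ψ ≠ 0 :=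
  div_ne_zero (MerH.ofHol_ne_zero (eisHol_ne_zero hψ))
    (MerH.ofHol_ne_zero (eisHol_ne_zero eis_isParabolicHom_zero))

theorem slashSL_eisHol (hψ : IsParabolicHom (Gamma0 N) ψ) (γ : ↥(Gamma0 N)) :
    HolH.slashSL 4 (γ : SL(2, ℤ)) (eisHol ψ) =
      HolH.const (ZMod.stdAddChar (ψ (Additive.ofMul γ))) * eisHol ψ := by
  apply Subtype.ext
  rw [HolH.coe_slashSL, coe_eisHol, eisChi_slash hψ γ]
  rfl

/-- **`u ∘ γ = χ(γ) u`.** -/
theorem comp_eisU (hψ : IsParabolicHom (Gamma0 N) ψ) (γ : ↥(Gamma0 N)) :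
    MerH.comp (γ : SL(2, ℤ)) (eisU ψ) =
      MerH.const (ZMod.stdAddChar (ψ (Additive.ofMul γ))) * eisU ψ := by
  unfold eisU
  rw [MerH.comp_div_eq_slash 4 (γ : SL(2, ℤ)) (eisHol ψ) (eisHol_ne_zero eis_isParabolicHom_zero),
    slashSL_eisHol hψ γ, slashSL_eisHol eis_isParabolicHom_zero γ, AddMonoidHom.zero_apply,
    AddChar.map_zero_eq_one, map_one, one_mul, map_mul, mul_div_assoc]
  rfl

theorem kerSub_le_kerSub_zero :
    kerSub ψ ≤ kerSub (0 : Additive ↥(Gamma0 N) →+ ZMod n) :=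
  fun _ h => ⟨h.1, rfl⟩

/-- `u` is a modular function for `ker ψ`. -/
theorem isModFun_eisU (hψ : IsParabolicHom (Gamma0 N) ψ) : IsModFun (kerSub ψ) (eisU ψ) :=
  ⟨4, eisHol ψ, eisHol 0, isMF_eisChi hψ,
    (isMF_eisChi eis_isParabolicHom_zero).mono kerSub_le_kerSub_zero,
    eisHol_ne_zero eis_isParabolicHom_zero, rfl⟩

/-- `u ^ n` is a modular function for `Γ₀(N)`. -/
theorem isModFun_eisU_pow (hψ : IsParabolicHom (Gamma0 N) ψ) :
    IsModFun (Gamma0 N) (eisU ψ ^ n) := by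
  refine ⟨(n : ℤ) * 4, eisHol ψ ^ n, eisHol 0 ^ n, isMF_eisChi_pow hψ,
    isMF_eisChi_pow eis_isParabolicHom_zero, pow_ne_zero n (eisHol_ne_zero eis_isParabolicHom_zero), ?_⟩
  unfold eisU
  rw [div_pow, map_pow, map_pow]

/-- `u` is meromorphic at all cusps. -/
theorem isMerInf_comp_eisU (hψ : IsParabolicHom (Gamma0 N) ψ) (σ : SL(2, ℤ)) :
    IsMerInf N (MerH.comp σ (eisU ψ)) := by
  apply isMerInf_comp_of_isModFun (isModFun_eisU hψ) σ
  have h1 : σ * T ^ N * σ⁻¹ ∈ Gamma0 N := Cusp.T_pow_mem_normalCore N σ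
  refine mem_kerSub_of_trace hψ h1 ?_
  have h2 : ((σ * T ^ N * σ⁻¹ : SL(2, ℤ)) : Matrix (Fin 2) (Fin 2) ℤ).trace =
      ((T ^ N : SL(2, ℤ)) : Matrix (Fin 2) (Fin 2) ℤ).trace := by
    rw [Matrix.SpecialLinearGroup.coe_mul, Matrix.SpecialLinearGroup.coe_mul,
      Matrix.trace_mul_cycle, ← Matrix.SpecialLinearGroup.coe_mul, inv_mul_cancel,
      Matrix.SpecialLinearGroup.coe_one, Matrix.one_mul]
  have h3 : ((T ^ N : SL(2, ℤ)) : Matrix (Fin 2) (Fin 2) ℤ) = !![1, (N : ℤ); 0, 1] := by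
    rw [← zpow_natCast]
    exact ModularGroup.coe_T_zpow (N : ℤ)
  rw [h2, h3, Matrix.trace_fin_two]
  norm_num

/-- the divisor `D₀ / n`. -/
theorem exists_divisor_div {F : Type*} [Field F] [Algebra ℂ F] [HasPrincipalDivisors ℂ F]
    {f : F} (hf : f ≠ 0) (hdiv : ∀ P : Place ℂ F, (n : ℤ) ∣ P.ord f) :
    ∃ D : Divisor ℂ F, (∀ P : Place ℂ F, (n : ℤ) * D P = P.ord f) ∧ Divisor.degree D = 0 := by
  obtain ⟨D₀, hD₀, hdeg⟩ := HasPrincipalDivisors.exists_divisor (K := ℂ) f hf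
  have hn : (n : ℤ) ≠ 0 := Nat.cast_ne_zero.mpr (NeZero.ne n)
  refine ⟨D₀.mapRange (· / (n : ℤ)) (Int.zero_ediv _), fun P => ?_, ?_⟩
  · rw [Finsupp.mapRange_apply, hD₀ P]
    exact Int.mul_ediv_cancel' (hdiv P)
  · have h1 : (n : ℤ) • D₀.mapRange (· / (n : ℤ)) (Int.zero_ediv _) = D₀ := by
      ext P
      rw [Finsupp.smul_apply, Finsupp.mapRange_apply, smul_eq_mul, hD₀ P]
      exact Int.mul_ediv_cancel' (hdiv P)
    have h2 := congrArg Divisor.degree h1
    rw [map_zsmul, hdeg, smul_eq_mul] at h2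
    rcases mul_eq_zero.mp h2 with h3 | h3
    · exact absurd h3 hn
    · exact h3

/-- **(K4 EIS) surjectivity of the Kummer map**: every character of `Γ₀(N)` with values in `ℤ/n`
which kills the parabolic elements and the elements of finite order is the Kummer character of an
`n`-torsion class of `Pic⁰` of the function field of `X₀(N)` over `ℂ`. -/
theorem kappa_surjective_onto (hψ : IsParabolicHom (Gamma0 N) ψ)
    (hfin : ∀ γ : ↥(Gamma0 N), IsOfFinOrder γ → ψ (Additive.ofMul γ) = 0) :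
    ∃ x : ↥(Pic0.torsion ℂ ↥(laurentBaseChange ℂ (modularFunctionFieldFull N)) n),
      kappa N n x = ψ := by
  haveI : HasPrincipalDivisors ℂ ↥(laurentBaseChange ℂ (modularFunctionFieldFull N)) :=
    (jCoordK ℂ N).hasPrincipalDivisors
  have hn : n ≠ 0 := NeZero.ne n
  have hu0 : eisU ψ ≠ 0 := eisU_ne_zero hψ
  obtain ⟨f, hf⟩ := mem_range_realNC_of_isModFun N (isModFun_eisU_pow hψ)
  have hf0 : f ≠ 0 := by
    rintro rfl
    rw [map_zero] at hf
    exact pow_ne_zero n hu0 hf.symm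
  have hinv : ∀ γ : SL(2, ℤ), γ ∈ Gamma0 N →
      ((γ : Matrix (Fin 2) (Fin 2) ℤ).trace ^ 2 = 4 ∨ IsOfFinOrder γ) →
      MerH.comp γ (eisU ψ) = eisU ψ := by
    intro γ hγ h
    have h0 : ψ (Additive.ofMul (⟨γ, hγ⟩ : ↥(Gamma0 N))) = 0 := by
      rcases h with h | h
      · exact hψ ⟨γ, hγ⟩ h
      · apply hfin
        exact (Submonoid.isOfFinOrder_coe (H := (Gamma0 N).toSubmonoid)
          (x := (⟨γ, hγ⟩ : ↥(Gamma0 N)))).mp h
    have h1 := comp_eisU hψ ⟨γ, hγ⟩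
    rw [h0, AddChar.map_zero_eq_one, map_one, one_mul] at h1
    exact h1
  have hdiv := dvd_ord_of_pow_eq_realN (N := N) hn hf0 hf.symm hinv (isMerInf_comp_eisU hψ)
  obtain ⟨D, hD, hdeg⟩ := exists_divisor_div (n := n) hf0 hdiv
  let D' : ↥(Divisor.degZero (K := ℂ)
      (F := ↥(laurentBaseChange ℂ (modularFunctionFieldFull N)))) := ⟨D, hdeg⟩
  have hroot : IsKummerRoot N n (D' : Divisor ℂ _) (eisU ψ) := ⟨f, hf0, hD, hf.symm⟩
  have htors : Pic0.mk D' ∈
      Pic0.torsion ℂ ↥(laurentBaseChange ℂ (modularFunctionFieldFull N)) n := by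
    rw [Pic0.mem_torsion]
    have h1 : (n : ℤ) • Pic0.mk D' = Pic0.mk ((n : ℤ) • D') := rfl
    rw [h1]
    apply (QuotientAddGroup.eq_zero_iff _).mpr
    rw [AddSubgroup.mem_addSubgroupOf]
    refine ⟨f, hf0, fun v => ?_⟩
    rw [← hD v]
    simp [D']
  refine ⟨⟨Pic0.mk D', htors⟩, ?_⟩
  rw [kappa_eq_kummerChar ⟨Pic0.mk D', htors⟩ D' rfl hroot]
  exact kummerChar_eq_of_spec hu0 ψ (comp_eisU hψ)

/-- a homomorphism to a torsion-free group kills the elements of finite order. -/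
theorem map_eq_zero_of_isOfFinOrder {Γ A : Type*} [Group Γ] [AddCommGroup A]
    [IsAddTorsionFree A] (φ : Additive Γ →+ A) {γ : Γ} (hγ : IsOfFinOrder γ) :
    φ (Additive.ofMul γ) = 0 := by
  obtain ⟨m, hm, hγm⟩ := isOfFinOrder_iff_pow_eq_one.mp hγ
  have h1 : m • φ (Additive.ofMul γ) = 0 := by
    rw [← map_nsmul, ← ofMul_pow, hγm, ofMul_one, map_zero]
  exact (nsmul_eq_zero_iff_right hm.ne').mp h1

/-- **(sur) of (TOP-0), over `ℂ`**: the reduction mod `p ^ k` of a parabolic homomorphism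
`Γ₀(N) → ℤ_p` is in the range of the Kummer map. -/
theorem exists_kappa_eq_toZModPow_comp (p : ℕ) [Fact p.Prime] (k : ℕ) [NeZero (p ^ k)]
    (φ : ↥(parabolicHoms ℤ_[p] (Gamma0 N) ℤ_[p])) :
    ∃ x : ↥(Pic0.torsion ℂ ↥(laurentBaseChange ℂ (modularFunctionFieldFull N)) (p ^ k)),
      kappa N (p ^ k) x = (PadicInt.toZModPow k).toAddMonoidHom.comp φ.1 := by
  apply kappa_surjective_onto
  · intro γ htr
    have h1 : φ.1 (Additive.ofMul γ) = 0 := φ.2 γ htr
    show PadicInt.toZModPow k (φ.1 (Additive.ofMul γ)) = 0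
    rw [h1, map_zero]
  · intro γ hγ
    show PadicInt.toZModPow k (φ.1 (Additive.ofMul γ)) = 0
    rw [map_eq_zero_of_isOfFinOrder φ.1 hγ, map_zero]

end

end Fermat.Agent.GR
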