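/-
Stage (I), clause `fix` of `StageIData` — helper3.
Every point of `J₀(N)(Ω)` is fixed by `Gal(Ω / L)` for a suitable number field `L`: the places in
the support of a representing divisor restrict to RATIONAL places of `L·F₀` (helper9's (RAT-fin)),
and a rational place has a unique extension (helper1/helper9's (UNIQ)).
-/
import Mathlib
import Fermat.Agent.JA.BCD_helper9_HostRat

set_option autoImplicit false
set_option linter.style.haveILetI false
set_option linter.unusedSectionVars false
set_option synthInstance.maxHeartbeats 200000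

open Module HahnSeries ModularCurve AlgebraicCurve IntermediateField

namespace Fermat.Agent.GR

open Fermat.Agent.X0N Fermat.Agent.JA Fermat.Agent.FF

/-- `Ω = AlgebraicClosure ℚ`. -/
local notation "Ω" => AlgebraicClosure ℚ

variable (N : ℕ) [NeZero N]

/-- an automorphism of `Ω` fixing `K₁` fixes the image of `K₁·F₀`. -/
theorem arithmeticGalois_smul_keyFqBC (K₁ : IntermediateField ℚ Ω) (σ : Ω ≃ₐ[ℚ] Ω)
    (hσ : ∀ a ∈ K₁, σ a = a) (x : ↥(keyFq ↥K₁ N)) :
    arithmeticGalois (modularFunctionFieldFull N) σ • keyFqBC N K₁ x = keyFqBC N K₁ x := by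
  apply Subtype.ext
  ext n
  rw [coe_arithmeticGalois_smul, coeffMap_coeff, coe_keyFqBC, coeffMap_coeff]
  exact hσ _ ((x : LaurentSeries ↥K₁).coeff n).2

/-- a place of `F_Ω` whose restriction to `K₁·F₀` is rational is fixed by `Gal(Ω / K₁)`. -/
theorem smul_place_eq_of_isRationalPlace (K₁ : IntermediateField ℚ Ω)
    (P : Place Ω ↥(keyFq Ω N))
    (hrat : IsRationalPlace (restrictBC (keyFqBC N K₁) (keyFqBC_algebraMap N K₁)
      (closure_range_keyFqBC N K₁) P))
    (σ : Ω ≃ₐ[ℚ] Ω) (hσ : ∀ a ∈ K₁, σ a = a) :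
    arithmeticGalois (modularFunctionFieldFull N) σ • P = P := by
  symm
  apply restrictBC_injOn_rational _ _ _ P _ hrat
  apply Place.ext
  ext x
  rw [mem_restrictBC_iff, mem_restrictBC_iff, SemilinearAut.smul_toValuationSubring,
    ValuationSubring.mem_pointwise_smul_iff_inv_smul_mem]
  have h1 : (arithmeticGalois (modularFunctionFieldFull N) σ)⁻¹ • keyFqBC N K₁ x =
      keyFqBC N K₁ x := by
    rw [inv_smul_eq_iff, arithmeticGalois_smul_keyFqBC N K₁ σ hσ]
  rw [h1]

/-- **clause `fix`**: every point of `J₀(N)` is fixed by an open subgroup of the Galois group. -/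
theorem jzero_fix (x : JZero N) :
    ∃ L : IntermediateField ℚ Ω, FiniteDimensional ℚ L ∧
      ∀ σ : Ω ≃ₐ[ℚ] Ω, (∀ a ∈ L, σ a = a) → σ • x = x := by
  classical
  obtain ⟨D, rfl⟩ := Pic0.mk_surjective x
  obtain ⟨t, ht⟩ := exists_finset_forall_isRationalPlace_keyFq N ⊥
    ((D : Divisor Ω ↥(keyFq Ω N))).support
  refine ⟨IntermediateField.adjoin ℚ (t : Set Ω), ?_, fun σ hσ => ?_⟩
  · exact IntermediateField.finiteDimensional_adjoin
      (fun c _ => (Algebra.IsIntegral.isIntegral c))
  · have hP : ∀ P ∈ (D : Divisor Ω ↥(keyFq Ω N)).support,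
        arithmeticGalois (modularFunctionFieldFull N) σ • P = P := fun P hP =>
      smul_place_eq_of_isRationalPlace N _ P
        (ht _ bot_le (fun c hc => IntermediateField.subset_adjoin ℚ _ (Finset.mem_coe.mpr hc)) P hP)
        σ hσ
    have hD : arithmeticGalois (modularFunctionFieldFull N) σ • (D : Divisor Ω ↥(keyFq Ω N)) =
        (D : Divisor Ω ↥(keyFq Ω N)) := by
      rw [SemilinearAut.divisor_smul_def]
      conv_rhs => rw [← Finsupp.mapDomain_id (v := (D : Divisor Ω ↥(keyFq Ω N)))]
      exact Finsupp.mapDomain_congr hP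
    rw [galois_smul_pic0_def, SemilinearAut.pic0_smul_mk]
    congr 1
    apply Subtype.ext
    rw [SemilinearAut.coe_degZeroSMulHom]
    exact hD

end Fermat.Agent.GR
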