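/-
GR (stage I) — helper8 — package K10-ASM, part 6: `StageIData N p` from the S37 clauses only
((fix) from helper3's FIX plugged).
-/
import Mathlib
import Fermat.Agent.GR.ASM_helper8_Final
import Fermat.Agent.GR.FIX_helper3

set_option autoImplicit false
set_option linter.style.haveILetI false
set_option linter.unusedSectionVars false

open UpperHalfPlane hiding I
open Complex ModularGroup ModularCurve CongruenceSubgroup AlgebraicCurve ModularCurve.Period
open scoped MatrixGroups

namespace Fermat.Agent.GR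

open Fermat.Agent.X0N Fermat.Agent.JA

local notation "Ω" => AlgebraicClosure ℚ
local notation "GQ" => (AlgebraicClosure ℚ ≃ₐ[ℚ] AlgebraicClosure ℚ)

variable (N : ℕ) [NeZero N]

/-- **K10-ASM: `StageIData N p` from the S37 clauses only.** -/
noncomputable def stageIData_of_clause (p : ℕ) [Fact p.Prime]
    (hclause : ∀ ℓ : ℕ, (hℓ : ℓ.Prime) → ¬ ℓ ∣ N * p →
      ∀ A : ValuationSubring Ω, A.LiesOverPrime ℓ →
        ∃ (M : Type) (_ : AddCommGroup M) (red : JZero N →+ M) (Fr : M →+ M) (σ₀ : GQ),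
          A.IsFrobeniusAt σ₀ ℓ ∧
          (∀ σ ∈ A.inertiaSubgroupIn ℚ, ∀ x : JZero N, red (σ • x) = red x) ∧
          (∀ σ : GQ, A.IsFrobeniusAt σ ℓ → ∀ x : JZero N, red (σ • x) = Fr (red x)) ∧
          (∀ x : JZero N,
            red (σ₀ • σ₀ • x - heckeOperatorBar N ⟨ℓ, hℓ⟩ (σ₀ • x) + ℓ • x) = 0) ∧
          (∀ x : JZero N, (∃ n : ℕ, p ^ n • x = 0) → red x = 0 → x = 0)) :
    StageIData N p :=
  stageIData_of_fix_clause N p (jzero_fix N) hclause

end Fermat.Agent.GR
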