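/-
GR (stage I) — helper8 — package K10-ASM, part 7: `StageIData N p` HYPOTHESIS-FREE: the S37 clauses
from helper6's `placeReductionData_h6` ((O1) closed) through helper7's `exists_red_of_placeReduction`
(no commutation hypothesis on the Hecke operators is needed).
-/
import Mathlib
import Fermat.Agent.GR.ASM_helper8_Clause
import Fermat.Agent.JA.O1_helper6_Final

set_option autoImplicit false
set_option linter.style.haveILetI false
set_option linter.unusedSectionVars false

open ModularCurve AlgebraicCurve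

namespace Fermat.Agent.GR

open Fermat.Agent.X0N Fermat.Agent.JA

local notation "Ω" => AlgebraicClosure ℚ
local notation "GQ" => (AlgebraicClosure ℚ ≃ₐ[ℚ] AlgebraicClosure ℚ)

variable (N : ℕ) [NeZero N]

set_option maxHeartbeats 1600000 in
/-- **the S37 clauses in the shape of lead's `StageIData.clause`**, for every `p ≠ 0`. -/
theorem s37_clause (p : ℕ) (ℓ : ℕ) (hℓ : ℓ.Prime) (hℓNp : ¬ ℓ ∣ N * p)
    (A : ValuationSubring Ω) (hA : A.LiesOverPrime ℓ) :
    ∃ (M : Type) (_ : AddCommGroup M) (red : JZero N →+ M) (Fr : M →+ M) (σ₀ : GQ),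
      A.IsFrobeniusAt σ₀ ℓ ∧
      (∀ σ ∈ A.inertiaSubgroupIn ℚ, ∀ x : JZero N, red (σ • x) = red x) ∧
      (∀ σ : GQ, A.IsFrobeniusAt σ ℓ → ∀ x : JZero N, red (σ • x) = Fr (red x)) ∧
      (∀ x : JZero N,
        red (σ₀ • σ₀ • x - heckeOperatorBar N ⟨ℓ, hℓ⟩ (σ₀ • x) + ℓ • x) = 0) ∧
      (∀ x : JZero N, (∃ n : ℕ, p ^ n • x = 0) → red x = 0 → x = 0) := by
  haveI : Fact ℓ.Prime := ⟨hℓ⟩
  have hℓN : ¬ ℓ ∣ N := fun hd => hℓNp (dvd_mul_of_dvd_left hd p)
  obtain ⟨⟨r, hr, hgen, hequiv, hES⟩, hkey, hconstC⟩ :=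
    placeReductionData_h6 hA N p hℓNp (gaussRes_residue hA N hℓN) 0
  have hp0 : p ≠ 0 := by
    rintro rfl
    exact hℓNp (by rw [mul_zero]; exact dvd_zero ℓ)
  haveI : IsAlgClosed (IsLocalRing.ResidueField A) := isAlgClosed_residueField A
  haveI : HasPrincipalDivisors (AlgebraicClosure ℚ) (modularFunctionFieldBar N) :=
    (Fermat.Agent.X0N.jCoordBar N).hasPrincipalDivisors
  refine exists_red_of_placeReduction hr hgen p hℓ hA hequiv hES ?_
  rintro x ⟨n, hn⟩ hx
  exact eq_zero_of_key IsLocalRing.residue_surjective hconstC hr hgen (pow_ne_zero n hp0)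
    (hkey n) x hn hx

/-- **STAGE (I): the stage-(I) data on `J₀(N)` at `p`, with no hypothesis left.** -/
noncomputable def stageIData (p : ℕ) [Fact p.Prime] : StageIData N p :=
  stageIData_of_clause N p (fun ℓ hℓ hℓNp A hA => s37_clause N p ℓ hℓ hℓNp A hA)

theorem nonempty_stageIData (p : ℕ) [Fact p.Prime] : Nonempty (StageIData N p) :=
  ⟨stageIData N p⟩

end Fermat.Agent.GR
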