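/-
S35 (I3), package (P1) (helper4), part 1: **the group-theoretic transfer on characters for two
groups** — the two-group version of helper2's `HeckeDatum` / `heckeGrp` (HGRP_helper2_Abstract).

A *transfer datum* is a finite family `Γ' αᵢ` of pairwise distinct left cosets of `Γ'` inside a
group `G ⊇ Γ', Γ`, whose union is stable under right multiplication by `Γ`.  For `γ ∈ Γ` write
`αᵢ γ = γ'ᵢ α_{σ(i)}` with `γ'ᵢ ∈ Γ'`; then `(tr ψ)(γ) := ∑ᵢ ψ(γ'ᵢ)` defines a homomorphism
`Hom(Γ', A) → Hom(Γ, A)` for every abelian group `A` (for `Γ' ≤ Γ` of finite index and `αᵢ` coset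
representatives in `Γ` this is the transfer = corestriction on `H¹`; for `Γ' = Γ` it is the Hecke
operator of the double coset).

* `TransferDatum`, `perm`, `cocycle`, `transferGrp`;
* `transferGrp_eq_of_reps` : independence of the representatives;
* `transferGrp_heckeGrp_comm` : the transfer intertwines the Hecke operators `D'` of `Γ'` and `D`
  of `Γ` as soon as the coset families `Γ' βₖ αᵢ` and `Γ' αₐ β'_b` coincide (coset-union principle);
* `transferGrp_apply_eq_zero` : the cycle criterion (for parabolic classes).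
-/
import Mathlib
import Fermat.Agent.GR.HGRP_helper2_Abstract

set_option autoImplicit false
set_option linter.unusedSectionVars false

namespace Fermat.Agent.GR

/-- A transfer datum: `e' : Γ' ↪ G`, `e : Γ → G` and representatives `α : ι → G` of pairwise
distinct left cosets `Γ' αᵢ` whose union is stable under right multiplication by `Γ`. -/
structure TransferDatum (Γ' Γ G ι : Type*) [Group Γ'] [Group Γ] [Group G] where
  /-- the embedding of the group carrying the characters. -/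
  e' : Γ' →* G
  e'_inj : Function.Injective e'
  /-- the group permuting the cosets. -/
  e : Γ →* G
  /-- the coset representatives. -/
  α : ι → G
  exists_eq : ∀ (γ : Γ) (i : ι), ∃ (j : ι) (γ' : Γ'), α i * e γ = e' γ' * α j
  index_eq : ∀ (i j : ι) (γ' : Γ'), α i = e' γ' * α j → i = j

namespace TransferDatum

variable {Γ' Γ G ι : Type*} [Group Γ'] [Group Γ] [Group G] (X : TransferDatum Γ' Γ G ι)

/-- the permutation of the cosets induced by right multiplication by `γ`. -/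
noncomputable def perm (γ : Γ) (i : ι) : ι := (X.exists_eq γ i).choose

/-- the cocycle: `αᵢ γ = (cocycle γ i) α_{perm γ i}`. -/
noncomputable def cocycle (γ : Γ) (i : ι) : Γ' := (X.exists_eq γ i).choose_spec.choose

theorem spec (γ : Γ) (i : ι) :
    X.α i * X.e γ = X.e' (X.cocycle γ i) * X.α (X.perm γ i) :=
  (X.exists_eq γ i).choose_spec.choose_spec

/-- uniqueness of the decomposition. -/
theorem eq_of_eq {γ : Γ} {γ' : Γ'} {i j : ι} (h : X.α i * X.e γ = X.e' γ' * X.α j) :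
    X.perm γ i = j ∧ X.cocycle γ i = γ' := by
  have h1 := X.spec γ i
  have h2 : X.α j = X.e' (γ'⁻¹ * X.cocycle γ i) * X.α (X.perm γ i) := by
    rw [map_mul, map_inv, mul_assoc, ← h1, h, ← mul_assoc, inv_mul_cancel, one_mul]
  have hj : j = X.perm γ i := X.index_eq _ _ _ h2
  refine ⟨hj.symm, ?_⟩
  rw [h, hj] at h1
  exact (X.e'_inj (mul_right_cancel h1)).symm

theorem perm_eq {γ : Γ} {γ' : Γ'} {i j : ι} (h : X.α i * X.e γ = X.e' γ' * X.α j) :
    X.perm γ i = j :=
  (X.eq_of_eq h).1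

theorem cocycle_eq {γ : Γ} {γ' : Γ'} {i j : ι} (h : X.α i * X.e γ = X.e' γ' * X.α j) :
    X.cocycle γ i = γ' :=
  (X.eq_of_eq h).2

@[simp] theorem perm_one (i : ι) : X.perm 1 i = i :=
  X.perm_eq (γ' := 1) (by rw [map_one, map_one, mul_one, one_mul])

@[simp] theorem cocycle_one (i : ι) : X.cocycle 1 i = 1 :=
  X.cocycle_eq (j := i) (by rw [map_one, map_one, mul_one, one_mul])

theorem mul_aux (γ δ : Γ) (i : ι) :
    X.α i * X.e (γ * δ) =
      X.e' (X.cocycle γ i * X.cocycle δ (X.perm γ i)) * X.α (X.perm δ (X.perm γ i)) := by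
  rw [map_mul, ← mul_assoc, X.spec γ i, mul_assoc, X.spec δ (X.perm γ i), ← mul_assoc, map_mul]

theorem perm_mul (γ δ : Γ) (i : ι) : X.perm (γ * δ) i = X.perm δ (X.perm γ i) :=
  X.perm_eq (X.mul_aux γ δ i)

theorem cocycle_mul (γ δ : Γ) (i : ι) :
    X.cocycle (γ * δ) i = X.cocycle γ i * X.cocycle δ (X.perm γ i) :=
  X.cocycle_eq (X.mul_aux γ δ i)

/-- the permutation as an equivalence. -/
noncomputable def permEquiv (γ : Γ) : ι ≃ ι where
  toFun := X.perm γ
  invFun := X.perm γ⁻¹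
  left_inv i := by rw [← X.perm_mul, mul_inv_cancel, X.perm_one]
  right_inv i := by rw [← X.perm_mul, inv_mul_cancel, X.perm_one]

@[simp] theorem permEquiv_apply (γ : Γ) (i : ι) : X.permEquiv γ i = X.perm γ i := rfl

theorem perm_pow (γ : Γ) (m : ℕ) (i : ι) : X.perm (γ ^ m) i = ((X.permEquiv γ) ^ m) i := by
  induction m generalizing i with
  | zero => simp
  | succ m ih =>
    rw [pow_succ, X.perm_mul, ih, pow_succ', Equiv.Perm.mul_apply]
    rfl

section Transfer

variable [Fintype ι] (A : Type*) [AddCommGroup A]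

/-- the value of the transfer. -/
noncomputable def transferFun (ψ : Additive Γ' →+ A) : Additive Γ →+ A where
  toFun γ := ∑ i, ψ (Additive.ofMul (X.cocycle (Additive.toMul γ) i))
  map_zero' := by
    show ∑ i, ψ (Additive.ofMul (X.cocycle 1 i)) = 0
    simp
  map_add' γ δ := by
    show ∑ i, ψ (Additive.ofMul (X.cocycle (Additive.toMul γ * Additive.toMul δ) i)) =
      ∑ i, ψ (Additive.ofMul (X.cocycle (Additive.toMul γ) i)) +
        ∑ i, ψ (Additive.ofMul (X.cocycle (Additive.toMul δ) i))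
    have h1 : ∀ i, ψ (Additive.ofMul (X.cocycle (Additive.toMul γ * Additive.toMul δ) i)) =
        ψ (Additive.ofMul (X.cocycle (Additive.toMul γ) i)) +
          ψ (Additive.ofMul (X.cocycle (Additive.toMul δ) (X.perm (Additive.toMul γ) i))) := by
      intro i
      rw [X.cocycle_mul, ofMul_mul, map_add]
    rw [Finset.sum_congr rfl fun i _ => h1 i, Finset.sum_add_distrib]
    congr 1
    exact Equiv.sum_comp (X.permEquiv (Additive.toMul γ))
      (fun i => ψ (Additive.ofMul (X.cocycle (Additive.toMul δ) i)))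

/-- **the group-theoretic transfer** `Hom(Γ', A) → Hom(Γ, A)` of a transfer datum. -/
noncomputable def transferGrp : (Additive Γ' →+ A) →+ (Additive Γ →+ A) where
  toFun := X.transferFun A
  map_zero' := by
    ext γ
    simp [transferFun]
  map_add' ψ φ := by
    ext γ
    simp [transferFun, Finset.sum_add_distrib]

variable {A}

theorem transferGrp_apply (ψ : Additive Γ' →+ A) (γ : Γ) :
    X.transferGrp A ψ (Additive.ofMul γ) = ∑ i, ψ (Additive.ofMul (X.cocycle γ i)) := rfl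

theorem transferGrp_apply' (ψ : Additive Γ' →+ A) (γ : Additive Γ) :
    X.transferGrp A ψ γ = ∑ i, ψ (Additive.ofMul (X.cocycle (Additive.toMul γ) i)) := rfl

/-- naturality in the coefficient group. -/
theorem transferGrp_comp {B : Type*} [AddCommGroup B] (f : A →+ B) (ψ : Additive Γ' →+ A) :
    X.transferGrp B (f.comp ψ) = f.comp (X.transferGrp A ψ) := by
  ext γ
  simp [transferGrp_apply', map_sum]

variable (A)

/-- the transfer as an `R`-linear map. -/
noncomputable def transferGrpₗ (R : Type*) [Semiring R] [Module R A] :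
    (Additive Γ' →+ A) →ₗ[R] (Additive Γ →+ A) where
  toFun := X.transferGrp A
  map_add' := map_add _
  map_smul' c ψ := by
    ext γ
    simp [transferGrp_apply', Finset.smul_sum]

@[simp] theorem transferGrpₗ_apply (R : Type*) [Semiring R] [Module R A]
    (ψ : Additive Γ' →+ A) : X.transferGrpₗ A R ψ = X.transferGrp A ψ := rfl

end Transfer

section Reps

variable [Fintype ι] {A : Type*} [AddCommGroup A]

/-- **independence of the representatives**: two transfer data with the same groups whose coset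
families coincide have the same transfer. -/
theorem transferGrp_eq_of_reps {ι' : Type*} [Fintype ι'] (X' : TransferDatum Γ' Γ G ι')
    (he' : X'.e' = X.e') (he : X'.e = X.e) (π : ι ≃ ι') (δ : ι → Γ')
    (hα : ∀ i, X.α i = X.e' (δ i) * X'.α (π i)) (ψ : Additive Γ' →+ A) :
    X'.transferGrp A ψ = X.transferGrp A ψ := by
  have key : ∀ (γ : Γ) (i : ι), X'.cocycle γ (π i) =
      (δ i)⁻¹ * X.cocycle γ i * δ (X.perm γ i) := by
    intro γ i
    apply X'.cocycle_eq (j := π (X.perm γ i))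
    have h1 := X.spec γ i
    rw [hα i, hα (X.perm γ i)] at h1
    rw [he', he, map_mul, map_mul, map_inv]
    calc X'.α (π i) * X.e γ
        = (X.e' (δ i))⁻¹ * (X.e' (δ i) * X'.α (π i) * X.e γ) := by group
      _ = (X.e' (δ i))⁻¹ * (X.e' (X.cocycle γ i) *
            (X.e' (δ (X.perm γ i)) * X'.α (π (X.perm γ i)))) := by rw [h1]
      _ = _ := by group
  refine AddMonoidHom.ext fun γ => ?_
  rw [transferGrp_apply', transferGrp_apply', ← Equiv.sum_comp π]
  have h2 : ∀ i, ψ (Additive.ofMul (X'.cocycle (Additive.toMul γ) (π i))) =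
      ψ (Additive.ofMul (X.cocycle (Additive.toMul γ) i)) +
        (ψ (Additive.ofMul (δ (X.perm (Additive.toMul γ) i))) - ψ (Additive.ofMul (δ i))) := by
    intro i
    rw [key, ofMul_mul, ofMul_mul, ofMul_inv, map_add, map_add, map_neg]
    abel
  rw [Finset.sum_congr rfl fun i _ => h2 i, Finset.sum_add_distrib, Finset.sum_sub_distrib]
  have h3 : ∑ i, ψ (Additive.ofMul (δ (X.perm (Additive.toMul γ) i))) =
      ∑ i, ψ (Additive.ofMul (δ i)) :=
    Equiv.sum_comp (X.permEquiv (Additive.toMul γ)) (fun i => ψ (Additive.ofMul (δ i)))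
  rw [h3, sub_self, add_zero]

end Reps

section Comp

variable {κ' κ : Type*}

/-- **the composite `Γ' βₖ αᵢ`** of a Hecke datum of `Γ'` with a transfer datum. -/
def compHecke (D' : HeckeDatum Γ' G κ') (hD' : D'.e = X.e')
    (hdist : ∀ (k k₂ : κ') (i i₂ : ι) (γ' : Γ'),
      D'.α k * X.α i = X.e' γ' * (D'.α k₂ * X.α i₂) → k = k₂ ∧ i = i₂) :
    TransferDatum Γ' Γ G (κ' × ι) where
  e' := X.e'
  e'_inj := X.e'_inj
  e := X.e
  α p := D'.α p.1 * X.α p.2
  exists_eq γ p := by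
    refine ⟨(D'.perm (X.cocycle γ p.2) p.1, X.perm γ p.2),
      D'.cocycle (X.cocycle γ p.2) p.1, ?_⟩
    show D'.α p.1 * X.α p.2 * X.e γ = X.e' (D'.cocycle (X.cocycle γ p.2) p.1) *
      (D'.α (D'.perm (X.cocycle γ p.2) p.1) * X.α (X.perm γ p.2))
    rw [mul_assoc, X.spec γ p.2, ← mul_assoc, ← hD', D'.spec, mul_assoc]
  index_eq p p₂ γ' h := by
    obtain ⟨h1, h2⟩ := hdist p.1 p₂.1 p.2 p₂.2 γ' h
    exact Prod.ext h1 h2

/-- **the composite `Γ' αₐ β_b`** of a transfer datum with a Hecke datum of `Γ`. -/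
def heckeComp (D : HeckeDatum Γ G κ) (hD : D.e = X.e)
    (hdist : ∀ (a a₂ : ι) (b b₂ : κ) (γ' : Γ'),
      X.α a * D.α b = X.e' γ' * (X.α a₂ * D.α b₂) → a = a₂ ∧ b = b₂) :
    TransferDatum Γ' Γ G (ι × κ) where
  e' := X.e'
  e'_inj := X.e'_inj
  e := X.e
  α p := X.α p.1 * D.α p.2
  exists_eq γ p := by
    refine ⟨(X.perm (D.cocycle γ p.2) p.1, D.perm γ p.2),
      X.cocycle (D.cocycle γ p.2) p.1, ?_⟩
    show X.α p.1 * D.α p.2 * X.e γ = X.e' (X.cocycle (D.cocycle γ p.2) p.1) *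
      (X.α (X.perm (D.cocycle γ p.2) p.1) * D.α (D.perm γ p.2))
    rw [mul_assoc, ← hD, D.spec γ p.2, ← mul_assoc, hD, X.spec, mul_assoc]
  index_eq p p₂ γ' h := by
    obtain ⟨h1, h2⟩ := hdist p.1 p₂.1 p.2 p₂.2 γ' h
    exact Prod.ext h1 h2

variable [Fintype ι] [Fintype κ'] [Fintype κ] {A : Type*} [AddCommGroup A]

theorem compHecke_cocycle (D' : HeckeDatum Γ' G κ') (hD' : D'.e = X.e')
    (hdist : ∀ (k k₂ : κ') (i i₂ : ι) (γ' : Γ'),
      D'.α k * X.α i = X.e' γ' * (D'.α k₂ * X.α i₂) → k = k₂ ∧ i = i₂) (γ : Γ) (p : κ' × ι) :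
    (X.compHecke D' hD' hdist).cocycle γ p = D'.cocycle (X.cocycle γ p.2) p.1 := by
  apply (X.compHecke D' hD' hdist).cocycle_eq
    (j := (D'.perm (X.cocycle γ p.2) p.1, X.perm γ p.2))
  show D'.α p.1 * X.α p.2 * X.e γ = X.e' (D'.cocycle (X.cocycle γ p.2) p.1) *
    (D'.α (D'.perm (X.cocycle γ p.2) p.1) * X.α (X.perm γ p.2))
  rw [mul_assoc, X.spec γ p.2, ← mul_assoc, ← hD', D'.spec, mul_assoc]

theorem heckeComp_cocycle (D : HeckeDatum Γ G κ) (hD : D.e = X.e)
    (hdist : ∀ (a a₂ : ι) (b b₂ : κ) (γ' : Γ'),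
      X.α a * D.α b = X.e' γ' * (X.α a₂ * D.α b₂) → a = a₂ ∧ b = b₂) (γ : Γ) (p : ι × κ) :
    (X.heckeComp D hD hdist).cocycle γ p = X.cocycle (D.cocycle γ p.2) p.1 := by
  apply (X.heckeComp D hD hdist).cocycle_eq
    (j := (X.perm (D.cocycle γ p.2) p.1, D.perm γ p.2))
  show X.α p.1 * D.α p.2 * X.e γ = X.e' (X.cocycle (D.cocycle γ p.2) p.1) *
    (X.α (X.perm (D.cocycle γ p.2) p.1) * D.α (D.perm γ p.2))
  rw [mul_assoc, ← hD, D.spec γ p.2, ← mul_assoc, hD, X.spec, mul_assoc]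

/-- the transfer of the composite `Γ' βₖ αᵢ` is `tr ∘ T'`. -/
theorem compHecke_transferGrp (D' : HeckeDatum Γ' G κ') (hD' : D'.e = X.e')
    (hdist : ∀ (k k₂ : κ') (i i₂ : ι) (γ' : Γ'),
      D'.α k * X.α i = X.e' γ' * (D'.α k₂ * X.α i₂) → k = k₂ ∧ i = i₂)
    (ψ : Additive Γ' →+ A) :
    (X.compHecke D' hD' hdist).transferGrp A ψ = X.transferGrp A (D'.heckeGrp A ψ) := by
  refine AddMonoidHom.ext fun γ => ?_
  rw [transferGrp_apply', transferGrp_apply', Fintype.sum_prod_type_right]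
  refine Finset.sum_congr rfl fun i _ => ?_
  rw [HeckeDatum.heckeGrp_apply]
  exact Finset.sum_congr rfl fun k _ => by rw [compHecke_cocycle]

/-- the transfer of the composite `Γ' αₐ β_b` is `T ∘ tr`. -/
theorem heckeComp_transferGrp (D : HeckeDatum Γ G κ) (hD : D.e = X.e)
    (hdist : ∀ (a a₂ : ι) (b b₂ : κ) (γ' : Γ'),
      X.α a * D.α b = X.e' γ' * (X.α a₂ * D.α b₂) → a = a₂ ∧ b = b₂)
    (ψ : Additive Γ' →+ A) :
    (X.heckeComp D hD hdist).transferGrp A ψ = D.heckeGrp A (X.transferGrp A ψ) := by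
  refine AddMonoidHom.ext fun γ => ?_
  rw [transferGrp_apply', HeckeDatum.heckeGrp_apply', Fintype.sum_prod_type_right]
  refine Finset.sum_congr rfl fun b _ => ?_
  rw [transferGrp_apply]
  exact Finset.sum_congr rfl fun a _ => by rw [heckeComp_cocycle]

/-- **the transfer intertwines the Hecke operators** (coset-union principle, explicit form): if
`βₖ αᵢ = δ(k, i) α_a β'_b` with `(a, b) = π (k, i)` for a bijection `π`, and the cosets
`Γ' α_a β'_b` are pairwise distinct, then `tr ∘ T' = T ∘ tr`. -/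
theorem transferGrp_heckeGrp_comm (D' : HeckeDatum Γ' G κ') (D : HeckeDatum Γ G κ)
    (hD' : D'.e = X.e') (hD : D.e = X.e) (π : κ' × ι ≃ ι × κ) (δ : κ' × ι → Γ')
    (hπ : ∀ p : κ' × ι, D'.α p.1 * X.α p.2 = X.e' (δ p) * (X.α (π p).1 * D.α (π p).2))
    (hdist : ∀ (a a₂ : ι) (b b₂ : κ) (γ' : Γ'),
      X.α a * D.α b = X.e' γ' * (X.α a₂ * D.α b₂) → a = a₂ ∧ b = b₂)
    (ψ : Additive Γ' →+ A) :
    X.transferGrp A (D'.heckeGrp A ψ) = D.heckeGrp A (X.transferGrp A ψ) := by
  have hdistL : ∀ (k k₂ : κ') (i i₂ : ι) (γ' : Γ'),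
      D'.α k * X.α i = X.e' γ' * (D'.α k₂ * X.α i₂) → k = k₂ ∧ i = i₂ := by
    intro k k₂ i i₂ γ' h
    have h1 := hπ (k, i)
    have h2 := hπ (k₂, i₂)
    simp only at h1 h2
    rw [h1, h2] at h
    have h3 : X.α (π (k, i)).1 * D.α (π (k, i)).2 =
        X.e' ((δ (k, i))⁻¹ * γ' * δ (k₂, i₂)) *
          (X.α (π (k₂, i₂)).1 * D.α (π (k₂, i₂)).2) := by
      rw [map_mul, map_mul, map_inv]
      calc X.α (π (k, i)).1 * D.α (π (k, i)).2
          = (X.e' (δ (k, i)))⁻¹ *
              (X.e' (δ (k, i)) * (X.α (π (k, i)).1 * D.α (π (k, i)).2)) := by group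
        _ = _ := by rw [h]; group
    obtain ⟨h4, h5⟩ := hdist _ _ _ _ _ h3
    have h6 : (k, i) = (k₂, i₂) := π.injective (Prod.ext h4 h5)
    exact ⟨congrArg Prod.fst h6, congrArg Prod.snd h6⟩
  rw [← X.compHecke_transferGrp D' hD' hdistL, ← X.heckeComp_transferGrp D hD hdist]
  exact ((X.compHecke D' hD' hdistL).transferGrp_eq_of_reps (X.heckeComp D hD hdist) rfl rfl π δ
    hπ ψ).symm

/-- **the transfer intertwines the Hecke operators**, existence form: every `βₖ αᵢ` lies in some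
`Γ' α_a β'_b`, both coset families are pairwise distinct, and `T'`, `T` have the same degree. -/
theorem transferGrp_heckeGrp_comm_of_exists (D' : HeckeDatum Γ' G κ') (D : HeckeDatum Γ G κ)
    (hD' : D'.e = X.e') (hD : D.e = X.e) (hcard : Fintype.card κ' = Fintype.card κ)
    (hex : ∀ (k : κ') (i : ι), ∃ (a : ι) (b : κ) (δ : Γ'),
      D'.α k * X.α i = X.e' δ * (X.α a * D.α b))
    (hdistL : ∀ (k k₂ : κ') (i i₂ : ι) (γ' : Γ'),
      D'.α k * X.α i = X.e' γ' * (D'.α k₂ * X.α i₂) → k = k₂ ∧ i = i₂)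
    (hdistR : ∀ (a a₂ : ι) (b b₂ : κ) (γ' : Γ'),
      X.α a * D.α b = X.e' γ' * (X.α a₂ * D.α b₂) → a = a₂ ∧ b = b₂)
    (ψ : Additive Γ' →+ A) :
    X.transferGrp A (D'.heckeGrp A ψ) = D.heckeGrp A (X.transferGrp A ψ) := by
  choose fa fb fδ hf using hex
  set π₀ : κ' × ι → ι × κ := fun p => (fa p.1 p.2, fb p.1 p.2) with hπ₀
  have hinj : Function.Injective π₀ := by
    rintro ⟨k, i⟩ ⟨k₂, i₂⟩ h
    have ha : fa k i = fa k₂ i₂ := congrArg Prod.fst h
    have hb : fb k i = fb k₂ i₂ := congrArg Prod.snd h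
    have h1 := hf k i
    have h2 := hf k₂ i₂
    rw [ha, hb] at h1
    have h3 : D'.α k * X.α i = X.e' (fδ k i * (fδ k₂ i₂)⁻¹) * (D'.α k₂ * X.α i₂) := by
      rw [h1, h2, map_mul, map_inv]; group
    obtain ⟨h4, h5⟩ := hdistL _ _ _ _ _ h3
    exact Prod.ext h4 h5
  have hbij : Function.Bijective π₀ := by
    rw [Fintype.bijective_iff_injective_and_card]
    refine ⟨hinj, ?_⟩
    rw [Fintype.card_prod, Fintype.card_prod, hcard, mul_comm]
  exact X.transferGrp_heckeGrp_comm D' D hD' hD (Equiv.ofBijective π₀ hbij)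
    (fun p => fδ p.1 p.2) (fun p => by rw [Equiv.ofBijective_apply]; exact hf p.1 p.2) hdistR ψ

end Comp

section Cycle

variable [Fintype ι] {A : Type*} [AddCommGroup A]

/-- the cocycle of a power. -/
theorem map_cocycle_pow (ψ : Additive Γ' →+ A) (γ : Γ) (m : ℕ) (i : ι) :
    ψ (Additive.ofMul (X.cocycle (γ ^ m) i)) =
      ∑ k ∈ Finset.range m, ψ (Additive.ofMul (X.cocycle γ (((X.permEquiv γ) ^ k) i))) := by
  induction m with
  | zero => simp
  | succ m ih =>
    rw [pow_succ, X.cocycle_mul, ofMul_mul, map_add, ih, Finset.sum_range_succ, X.perm_pow]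

/-- **cycle criterion**: `tr ψ` vanishes at `γ` as soon as `ψ` vanishes at the elements
`αᵢ γ^m αᵢ⁻¹` of `Γ'` (where `m > 0` and `γ^m` fixes the coset `Γ' αᵢ`). -/
theorem transferGrp_apply_eq_zero (ψ : Additive Γ' →+ A) (γ : Γ)
    (h : ∀ (i : ι) (m : ℕ), 0 < m → X.perm (γ ^ m) i = i →
      ψ (Additive.ofMul (X.cocycle (γ ^ m) i)) = 0) :
    X.transferGrp A ψ (Additive.ofMul γ) = 0 := by
  rw [transferGrp_apply]
  apply HeckeDatum.sum_eq_zero_of_cycle_sums (X.permEquiv γ)
  intro i m hm hi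
  rw [← X.map_cocycle_pow]
  exact h i m hm (by rw [X.perm_pow]; exact hi)

/-- if `γ` fixes the coset `Γ' αᵢ`, the cocycle is the conjugate `αᵢ γ αᵢ⁻¹`. -/
theorem e'_cocycle_of_perm_eq {γ : Γ} {i : ι} (h : X.perm γ i = i) :
    X.e' (X.cocycle γ i) = X.α i * X.e γ * (X.α i)⁻¹ := by
  have h1 := X.spec γ i
  rw [h] at h1
  rw [h1, mul_assoc, mul_inv_cancel, mul_one]

end Cycle

end TransferDatum

/-- a Hecke datum is a transfer datum with `Γ' = Γ`. -/
def HeckeDatum.toTransferDatum {Γ G ι : Type*} [Group Γ] [Group G] (D : HeckeDatum Γ G ι) :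
    TransferDatum Γ Γ G ι where
  e' := D.e
  e'_inj := D.e_inj
  e := D.e
  α := D.α
  exists_eq := D.exists_eq
  index_eq := D.index_eq

theorem HeckeDatum.toTransferDatum_cocycle {Γ G ι : Type*} [Group Γ] [Group G]
    (D : HeckeDatum Γ G ι) (γ : Γ) (i : ι) :
    D.toTransferDatum.cocycle γ i = D.cocycle γ i :=
  D.toTransferDatum.cocycle_eq (j := D.perm γ i) (D.spec γ i)

theorem HeckeDatum.toTransferDatum_transferGrp {Γ G ι : Type*} [Group Γ] [Group G] [Fintype ι]
    (D : HeckeDatum Γ G ι) {A : Type*} [AddCommGroup A] (ψ : Additive Γ →+ A) :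
    D.toTransferDatum.transferGrp A ψ = D.heckeGrp A ψ := by
  refine AddMonoidHom.ext fun γ => ?_
  rw [TransferDatum.transferGrp_apply', HeckeDatum.heckeGrp_apply']
  exact Finset.sum_congr rfl fun i _ => by rw [D.toTransferDatum_cocycle]

end Fermat.Agent.GR
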