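/-
S35 (I3), package (P1) (helper4), part 3: **transfer data of the form `Γ' σ gᵢ`** (`gᵢ ∈ Γ`
representatives of `H \ Γ`, `H = Γ ∩ σ⁻¹ Γ' σ` given by a predicate `P`), and a criterion for the
commutation of their transfer with Hecke operators with the same representatives upstairs and
downstairs.
-/
import Mathlib
import Fermat.Agent.GR.XFERD_helper4_Abstract

set_option autoImplicit false
set_option linter.unusedSectionVars false

namespace Fermat.Agent.GR

/-- representatives `σ gᵢ` of the cosets `Γ' σ gᵢ`, `gᵢ ∈ Γ`: `P` is the membership predicate of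
`H = Γ ∩ σ⁻¹ Γ' σ` and the `gᵢ` represent `H \ Γ`. -/
structure ConjReps (Γ' Γ G ι : Type*) [Group Γ'] [Group Γ] [Group G] where
  e' : Γ' →* G
  e'_inj : Function.Injective e'
  e : Γ →* G
  e_inj : Function.Injective e
  σ : G
  g : ι → Γ
  P : Γ → Prop
  conj : ∀ m : Γ, P m → ∃ γ' : Γ', σ * e m = e' γ' * σ
  cover : ∀ g₀ : Γ, ∃ j : ι, P (g₀ * (g j)⁻¹)
  distinct : ∀ i j : ι, P (g i * (g j)⁻¹) → i = j
  conj_back : ∀ γ' : Γ', ∃ m : Γ, P m ∧ e' γ' * σ = σ * e m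

namespace ConjReps

variable {Γ' Γ G ι : Type*} [Group Γ'] [Group Γ] [Group G] (C : ConjReps Γ' Γ G ι)

/-- the transfer datum of the cosets `Γ' σ gᵢ`. -/
def toTransferDatum : TransferDatum Γ' Γ G ι where
  e' := C.e'
  e'_inj := C.e'_inj
  e := C.e
  α i := C.σ * C.e (C.g i)
  exists_eq γ i := by
    obtain ⟨j, hj⟩ := C.cover (C.g i * γ)
    obtain ⟨γ', hγ'⟩ := C.conj _ hj
    refine ⟨j, γ', ?_⟩
    calc C.σ * C.e (C.g i) * C.e γ
        = C.σ * C.e (C.g i * γ * (C.g j)⁻¹) * C.e (C.g j) := by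
          rw [mul_assoc, mul_assoc, ← map_mul, ← map_mul, inv_mul_cancel_right]
      _ = C.e' γ' * (C.σ * C.e (C.g j)) := by rw [hγ', mul_assoc]
  index_eq i j γ' h := by
    obtain ⟨m, hm, hm'⟩ := C.conj_back γ'
    apply C.distinct
    have h1 : C.e (C.g i) = C.e (m * C.g j) := by
      rw [← mul_assoc, hm', mul_assoc, ← map_mul] at h
      exact mul_left_cancel h
    have h2 : C.g i = m * C.g j := C.e_inj h1
    rw [h2, mul_inv_cancel_right]
    exact hm

@[simp] theorem toTransferDatum_α (i : ι) : C.toTransferDatum.α i = C.σ * C.e (C.g i) := rfl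

@[simp] theorem toTransferDatum_e' : C.toTransferDatum.e' = C.e' := rfl

@[simp] theorem toTransferDatum_e : C.toTransferDatum.e = C.e := rfl

variable {κ : Type*} [Fintype ι] [Fintype κ] {A : Type*} [AddCommGroup A]

/-- **commutation of the transfer with Hecke operators**: `D'`, `D` Hecke data of `Γ'`, `Γ` with the
same index type; `hmove`: every `D'.α k σ g₀` (`g₀ ∈ Γ`) lies in some `σ Γ D.α b`; `hP`: an identity
`D'.α k σ g₀ = δ D'.α k₂ σ` (`δ ∈ Γ'`) forces `g₀ ∈ H`. -/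
theorem transferGrp_heckeGrp_comm (D' : HeckeDatum Γ' G κ) (D : HeckeDatum Γ G κ)
    (hD' : D'.e = C.e') (hD : D.e = C.e)
    (hmove : ∀ (k : κ) (g₀ : Γ), ∃ (b : κ) (γ : Γ),
      D'.α k * C.σ * C.e g₀ = C.σ * C.e γ * D.α b)
    (hP : ∀ (k k₂ : κ) (g₀ : Γ) (δ : Γ'),
      D'.α k * C.σ * C.e g₀ = C.e' δ * D'.α k₂ * C.σ → C.P g₀)
    (ψ : Additive Γ' →+ A) :
    C.toTransferDatum.transferGrp A (D'.heckeGrp A ψ) =
      D.heckeGrp A (C.toTransferDatum.transferGrp A ψ) := by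
  refine C.toTransferDatum.transferGrp_heckeGrp_comm_of_exists D' D hD' hD rfl ?_ ?_ ?_ ψ
  · -- hex
    intro k i
    obtain ⟨b, γ, hγ⟩ := hmove k (C.g i)
    obtain ⟨a, ha⟩ := C.cover γ
    obtain ⟨γ', hγ'⟩ := C.conj _ ha
    refine ⟨a, b, γ', ?_⟩
    show D'.α k * (C.σ * C.e (C.g i)) = C.e' γ' * (C.σ * C.e (C.g a) * D.α b)
    calc D'.α k * (C.σ * C.e (C.g i)) = C.σ * C.e γ * D.α b := by rw [← mul_assoc, hγ]
      _ = C.σ * C.e (γ * (C.g a)⁻¹) * C.e (C.g a) * D.α b := by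
          rw [mul_assoc C.σ (C.e (γ * (C.g a)⁻¹)), ← map_mul, inv_mul_cancel_right]
      _ = C.e' γ' * (C.σ * C.e (C.g a) * D.α b) := by
          rw [hγ', mul_assoc, mul_assoc, mul_assoc]
  · -- hdistL
    intro k k₂ i i₂ γ' h
    change D'.α k * (C.σ * C.e (C.g i)) = C.e' γ' * (D'.α k₂ * (C.σ * C.e (C.g i₂))) at h
    have h1 : D'.α k * C.σ * C.e (C.g i * (C.g i₂)⁻¹) = C.e' γ' * D'.α k₂ * C.σ := by
      rw [map_mul, map_inv]
      calc D'.α k * C.σ * (C.e (C.g i) * (C.e (C.g i₂))⁻¹)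
          = D'.α k * (C.σ * C.e (C.g i)) * (C.e (C.g i₂))⁻¹ := by group
        _ = C.e' γ' * (D'.α k₂ * (C.σ * C.e (C.g i₂))) * (C.e (C.g i₂))⁻¹ := by rw [h]
        _ = _ := by group
    have hi : i = i₂ := C.distinct _ _ (hP k k₂ _ γ' h1)
    subst hi
    refine ⟨?_, rfl⟩
    have h2 : D'.α k = C.e' γ' * D'.α k₂ := by
      have h3 : D'.α k * (C.σ * C.e (C.g i)) = C.e' γ' * D'.α k₂ * (C.σ * C.e (C.g i)) := by
        rw [h, mul_assoc]
      exact mul_right_cancel h3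
    rw [← hD'] at h2
    exact D'.index_eq _ _ _ h2
  · -- hdistR
    intro a a₂ b b₂ γ' h
    change C.σ * C.e (C.g a) * D.α b = C.e' γ' * (C.σ * C.e (C.g a₂) * D.α b₂) at h
    obtain ⟨m, hm, hm'⟩ := C.conj_back γ'
    have h1 : C.e (C.g a) * D.α b = C.e (m * C.g a₂) * D.α b₂ := by
      have h2 : C.σ * (C.e (C.g a) * D.α b) = C.σ * (C.e (m * C.g a₂) * D.α b₂) := by
        rw [← mul_assoc, h, ← mul_assoc, ← mul_assoc, hm', map_mul]
        group
      exact mul_left_cancel h2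
    have h3 : D.α b = D.e ((C.g a)⁻¹ * (m * C.g a₂)) * D.α b₂ := by
      rw [hD, map_mul, map_inv, mul_assoc, ← h1, inv_mul_cancel_left]
    have hb : b = b₂ := D.index_eq _ _ _ h3
    subst hb
    refine ⟨?_, rfl⟩
    have h4 : C.e (C.g a) = C.e (m * C.g a₂) := mul_right_cancel h1
    have h5 : C.g a = m * C.g a₂ := C.e_inj h4
    apply C.distinct
    rw [h5, mul_inv_cancel_right]
    exact hm

end ConjReps

end Fermat.Agent.GR
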