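/-
S35 (I3), package (P1) (helper4), part 4: **the two transfer data of `Γ₀(M q) ≤ Γ₀(M)`** (`q ∤ M`
prime) — `xferAlpha` (cosets `Γ₀(Mq) γᵢ`, `γᵢ` representatives of `Γ₀(Mq) \ Γ₀(M)`: the degeneracy map
`α`) and `xferBeta` (cosets `Γ₀(Mq) (1 b; 0 q)`, `Γ₀(Mq) γ₁ (q 0; 0 1)`: the degeneracy map `β`) —
their commutation with `T_ℓ` (`ℓ ∤ M q`), and the preservation of parabolic classes.
-/
import Mathlib
import Fermat.Agent.GR.XFERD_helper4_Conj
import Fermat.Agent.GR.XFERD_helper4_Kummer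
import Fermat.Agent.GR.HGRP_helper2_Par
import Fermat.Agent.GR.MULT1_helper2_Ops
import Fermat.Agent.JA.ES1_helper2_AL

set_option autoImplicit false
set_option linter.unusedSectionVars false
set_option linter.unnecessarySeqFocus false
set_option linter.style.haveILetI false

namespace Fermat.Agent.GR

open CongruenceSubgroup ModularForm Matrix ModularCurve.Period Fermat.Agent.X0N
open scoped MatrixGroups

/-! ### Integral matrices in `GL₂(ℝ)` -/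

/-- `a ∈ GL₂(ℝ)` is the image of the integral matrix `A`. -/
def IsZMat (a : GL (Fin 2) ℝ) (A : Matrix (Fin 2) (Fin 2) ℤ) : Prop :=
  (a : Matrix (Fin 2) (Fin 2) ℝ) = A.map (Int.castRingHom ℝ)

theorem IsZMat.mul {a b : GL (Fin 2) ℝ} {A B : Matrix (Fin 2) (Fin 2) ℤ} (ha : IsZMat a A)
    (hb : IsZMat b B) : IsZMat (a * b) (A * B) := by
  unfold IsZMat at *
  rw [Units.val_mul, ha, hb, Matrix.map_mul]

theorem IsZMat.eq_iff {a b : GL (Fin 2) ℝ} {A B : Matrix (Fin 2) (Fin 2) ℤ} (ha : IsZMat a A)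
    (hb : IsZMat b B) : a = b ↔ A = B := by
  unfold IsZMat at *
  rw [← Units.val_inj, ha, hb]
  exact (Matrix.map_injective (Int.castRingHom ℝ).injective_int).eq_iff

theorem isZMat_mapGL (γ : SL(2, ℤ)) : IsZMat (γ : GL (Fin 2) ℝ) (γ : Matrix (Fin 2) (Fin 2) ℤ) :=
  val_mapGL_eq γ

theorem isZMat_gammaEmb {N : ℕ} (γ : Gamma0 N) :
    IsZMat (gammaEmb N γ) ((γ : SL(2, ℤ)) : Matrix (Fin 2) (Fin 2) ℤ) :=
  val_mapGL_eq _

theorem isZMat_heckeRep {ℓ : ℕ} (hℓ : ℓ ≠ 0) (i : Option (Fin ℓ)) :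
    IsZMat (heckeRep ℓ i) (heckeRepZ ℓ i) :=
  val_heckeRep hℓ i

theorem isZMat_heckeMatrix_zero {q : ℕ} (hq : q ≠ 0) : IsZMat (heckeMatrix q 0) (utZ 1 0 q) := by
  unfold IsZMat
  rw [val_heckeMatrix hq]
  ext i j
  fin_cases i <;> fin_cases j <;> simp [utZ]

theorem isZMat_one : IsZMat 1 1 := by
  unfold IsZMat
  rw [Units.val_one, Matrix.map_one] <;> simp

/-! ### Entries of `a b⁻¹` in `SL₂(ℤ)` -/

theorem SL2_mul_inv_one_zero (a b : SL(2, ℤ)) :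
    (a * b⁻¹) 1 0 = a 1 0 * b 1 1 - a 1 1 * b 1 0 := by
  rw [Matrix.SpecialLinearGroup.coe_mul, Matrix.SpecialLinearGroup.coe_inv,
    Matrix.adjugate_fin_two, Matrix.mul_apply, Fin.sum_univ_two]
  simp
  ring

theorem SL2_mul_inv_zero_one (a b : SL(2, ℤ)) :
    (a * b⁻¹) 0 1 = a 0 1 * b 0 0 - a 0 0 * b 0 1 := by
  rw [Matrix.SpecialLinearGroup.coe_mul, Matrix.SpecialLinearGroup.coe_inv,
    Matrix.adjugate_fin_two, Matrix.mul_apply, Fin.sum_univ_two]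
  simp
  ring

/-- lower unipotent matrices. -/
def lowerUni (c : ℤ) : SL(2, ℤ) := ⟨!![1, 0; c, 1], by rw [Matrix.det_fin_two_of]; ring⟩

/-- upper unipotent matrices. -/
def upperUni (b : ℤ) : SL(2, ℤ) := ⟨!![1, b; 0, 1], by rw [Matrix.det_fin_two_of]; ring⟩

theorem lowerUni_mem (M : ℕ) (b : ℤ) : lowerUni (M * b) ∈ Gamma0 M := by
  rw [Gamma0_mem]
  show (((M : ℤ) * b : ℤ) : ZMod M) = 0
  simp

theorem upperUni_mem (M : ℕ) (b : ℤ) : upperUni b ∈ Gamma0 M := by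
  rw [Gamma0_mem]
  show (((0 : ℤ) : ℤ) : ZMod M) = 0
  simp

theorem mem_Gamma0_iff_dvd {N : ℕ} (γ : SL(2, ℤ)) : γ ∈ Gamma0 N ↔ (N : ℤ) ∣ γ 1 0 := by
  rw [Gamma0_mem, ZMod.intCast_zmod_eq_zero_iff_dvd]

/-- solvability of a linear congruence modulo a prime. -/
theorem exists_fin_dvd_sub_mul {q : ℕ} (hq : q.Prime) (c u : ℤ) (hu : ¬ (q : ℤ) ∣ u) :
    ∃ b : Fin q, (q : ℤ) ∣ c - u * ((b : ℕ) : ℤ) := by
  haveI := Fact.mk hq
  have hu' : (u : ZMod q) ≠ 0 := by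
    rwa [Ne, ZMod.intCast_zmod_eq_zero_iff_dvd]
  refine ⟨⟨((c : ZMod q) * (u : ZMod q)⁻¹).val, ZMod.val_lt _⟩, ?_⟩
  rw [← ZMod.intCast_zmod_eq_zero_iff_dvd]
  push_cast
  rw [ZMod.natCast_zmod_val, mul_comm (c : ZMod q), ← mul_assoc, mul_inv_cancel₀ hu', one_mul,
    sub_self]

theorem fin_eq_of_dvd_sub {q : ℕ} (b b' : Fin q) (h : (q : ℤ) ∣ ((b : ℕ) : ℤ) - ((b' : ℕ) : ℤ)) :
    b = b' := by
  have hb : ((b : ℕ) : ℤ) < q := by exact_mod_cast b.2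
  have hb' : ((b' : ℕ) : ℤ) < q := by exact_mod_cast b'.2
  have hb0 : (0 : ℤ) ≤ ((b : ℕ) : ℤ) := by positivity
  have hb0' : (0 : ℤ) ≤ ((b' : ℕ) : ℤ) := by positivity
  have h2 : ((b : ℕ) : ℤ) % q = ((b' : ℕ) : ℤ) % q :=
    Int.emod_eq_emod_iff_emod_sub_eq_zero.mpr (Int.emod_eq_zero_of_dvd h)
  rw [Int.emod_eq_of_lt hb0 hb, Int.emod_eq_of_lt hb0' hb'] at h2
  exact Fin.ext (by exact_mod_cast h2)

/-! ### The transfer datum of the degeneracy map `α` -/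

section Alpha

variable (M q : ℕ) {x y : ℤ} (h : (q : ℤ) * x + M * y = 1)

/-- the representatives of `Γ₀(M q) \ Γ₀(M)`: `(1 0; M b 1)` (`b < q`) and `γ₁ = (1 -y; M q x)`. -/
def alphaRep : Option (Fin q) → Gamma0 M
  | none => ⟨alGammaOne M q x y h, alGammaOne_mem h⟩
  | some b => ⟨lowerUni ((M : ℤ) * ((b : ℕ) : ℤ)), lowerUni_mem M _⟩

/-- the lower left entries of the representatives. -/
def alphaC : Option (Fin q) → ℤ
  | none => M
  | some b => (M : ℤ) * ((b : ℕ) : ℤ)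

/-- the lower right entries of the representatives. -/
def alphaD (x : ℤ) : Option (Fin q) → ℤ
  | none => (q : ℤ) * x
  | some _ => 1

theorem alphaRep_one_zero (i : Option (Fin q)) :
    ((alphaRep M q h i : Gamma0 M) : SL(2, ℤ)) 1 0 = alphaC M q i := by
  cases i <;> rfl

theorem alphaRep_one_one (i : Option (Fin q)) :
    ((alphaRep M q h i : Gamma0 M) : SL(2, ℤ)) 1 1 = alphaD q x i := by
  cases i <;> rfl

include h in
theorem xferd_not_dvd_of_bezout (hq : q.Prime) : ¬ (q : ℤ) ∣ (M : ℤ) := by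
  intro hdvd
  have h1 : (q : ℤ) ∣ 1 := by
    rw [← h]
    exact dvd_add (dvd_mul_right _ _) (Dvd.dvd.mul_right hdvd _)
  have h2 : q ∣ 1 := by exact_mod_cast h1
  exact hq.one_lt.ne' (Nat.dvd_one.mp h2)

include h in
theorem xferd_isCoprime_of_bezout : IsCoprime (M : ℤ) (q : ℤ) :=
  ⟨y, x, by linear_combination h⟩

variable {M q}

theorem alpha_cover (hq : q.Prime) (g₀ : Gamma0 M) :
    ∃ j : Option (Fin q), (q : ℤ) ∣ ((g₀ * (alphaRep M q h j)⁻¹ : Gamma0 M) : SL(2, ℤ)) 1 0 := by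
  have hqp : Prime (q : ℤ) := Nat.prime_iff_prime_int.mp hq
  have hM := xferd_not_dvd_of_bezout M q h hq
  by_cases hd : (q : ℤ) ∣ (g₀ : SL(2, ℤ)) 1 1
  · refine ⟨none, ?_⟩
    rw [Subgroup.coe_mul, Subgroup.coe_inv, SL2_mul_inv_one_zero, alphaRep_one_zero,
      alphaRep_one_one]
    exact dvd_sub (Dvd.dvd.mul_left (dvd_mul_right _ _) _) (Dvd.dvd.mul_right hd _)
  · have hu : ¬ (q : ℤ) ∣ (g₀ : SL(2, ℤ)) 1 1 * M := by
      intro hdvd
      rcases hqp.dvd_or_dvd hdvd with h1 | h1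
      exacts [hd h1, hM h1]
    obtain ⟨b, hb⟩ := exists_fin_dvd_sub_mul hq ((g₀ : SL(2, ℤ)) 1 0) _ hu
    refine ⟨some b, ?_⟩
    rw [Subgroup.coe_mul, Subgroup.coe_inv, SL2_mul_inv_one_zero, alphaRep_one_zero,
      alphaRep_one_one]
    have : (g₀ : SL(2, ℤ)) 1 0 * alphaD q x (some b) -
        (g₀ : SL(2, ℤ)) 1 1 * alphaC M q (some b) =
        (g₀ : SL(2, ℤ)) 1 0 - (g₀ : SL(2, ℤ)) 1 1 * M * ((b : ℕ) : ℤ) := by
      simp only [alphaC, alphaD]; ring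
    rw [this]
    exact hb

theorem alpha_distinct (hq : q.Prime) (i j : Option (Fin q))
    (hP : (q : ℤ) ∣ ((alphaRep M q h i * (alphaRep M q h j)⁻¹ : Gamma0 M) : SL(2, ℤ)) 1 0) :
    i = j := by
  have hqp : Prime (q : ℤ) := Nat.prime_iff_prime_int.mp hq
  have hM := xferd_not_dvd_of_bezout M q h hq
  have h1 : ¬ (q : ℤ) ∣ 1 := by
    intro h1
    have h2 : q ∣ 1 := by exact_mod_cast h1
    exact hq.one_lt.ne' (Nat.dvd_one.mp h2)
  rw [Subgroup.coe_mul, Subgroup.coe_inv, SL2_mul_inv_one_zero, alphaRep_one_zero,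
    alphaRep_one_one, alphaRep_one_zero, alphaRep_one_one] at hP
  cases i with
  | none =>
    cases j with
    | none => rfl
    | some b' =>
      exfalso
      simp only [alphaC, alphaD] at hP
      have h2 : (M : ℤ) * 1 - (q : ℤ) * x * ((M : ℤ) * ((b' : ℕ) : ℤ)) =
          (M : ℤ) * (1 - (q : ℤ) * (x * ((b' : ℕ) : ℤ))) := by ring
      rw [h2] at hP
      rcases hqp.dvd_or_dvd hP with h3 | h3
      · exact hM h3
      · exact h1 ((dvd_sub_left (dvd_mul_right _ _)).mp h3)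
  | some b =>
    cases j with
    | none =>
      exfalso
      simp only [alphaC, alphaD] at hP
      have h2 : (M : ℤ) * ((b : ℕ) : ℤ) * ((q : ℤ) * x) - 1 * (M : ℤ) =
          (M : ℤ) * ((q : ℤ) * (((b : ℕ) : ℤ) * x) - 1) := by ring
      rw [h2] at hP
      rcases hqp.dvd_or_dvd hP with h3 | h3
      · exact hM h3
      · exact h1 ((dvd_sub_right (dvd_mul_right _ _)).mp h3)
    | some b' =>
      simp only [alphaC, alphaD] at hP
      have h2 : (M : ℤ) * ((b : ℕ) : ℤ) * 1 - 1 * ((M : ℤ) * ((b' : ℕ) : ℤ)) =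
          (M : ℤ) * (((b : ℕ) : ℤ) - ((b' : ℕ) : ℤ)) := by ring
      rw [h2] at hP
      rcases hqp.dvd_or_dvd hP with h3 | h3
      · exact absurd h3 hM
      · rw [fin_eq_of_dvd_sub b b' h3]

variable (M q)

/-- **the coset representatives of the degeneracy map `α`** as a `ConjReps` (`σ = 1`). -/
noncomputable def conjRepsAlpha (hq : q.Prime) :
    ConjReps (Gamma0 (M * q)) (Gamma0 M) (GL (Fin 2) ℝ) (Option (Fin q)) where
  e' := gammaEmb (M * q)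
  e'_inj := gammaEmb_injective (M * q)
  e := gammaEmb M
  e_inj := gammaEmb_injective M
  σ := 1
  g := alphaRep M q h
  P m := (q : ℤ) ∣ (m : SL(2, ℤ)) 1 0
  conj m hm := by
    have hm' : (m : SL(2, ℤ)) ∈ Gamma0 (M * q) := by
      rw [mem_Gamma0_iff_dvd]
      push_cast
      exact (xferd_isCoprime_of_bezout M q h).mul_dvd ((mem_Gamma0_iff_dvd _).mp m.2) hm
    exact ⟨⟨(m : SL(2, ℤ)), hm'⟩, by rw [one_mul, mul_one]; rfl⟩
  cover g₀ := alpha_cover h hq g₀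
  distinct i j hP := alpha_distinct h hq i j hP
  conj_back γ' := by
    have h1 : ((M * q : ℕ) : ℤ) ∣ (γ' : SL(2, ℤ)) 1 0 := (mem_Gamma0_iff_dvd _).mp γ'.2
    push_cast at h1
    have hm' : (γ' : SL(2, ℤ)) ∈ Gamma0 M :=
      (mem_Gamma0_iff_dvd _).mpr (dvd_trans (dvd_mul_right _ _) h1)
    exact ⟨⟨(γ' : SL(2, ℤ)), hm'⟩, dvd_trans (dvd_mul_left _ _) h1, by rw [one_mul, mul_one]; rfl⟩

/-- **the transfer datum of the degeneracy map `α`**: the cosets `Γ₀(M q) γᵢ`. -/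
noncomputable def xferAlpha (hq : q.Prime) :
    TransferDatum (Gamma0 (M * q)) (Gamma0 M) (GL (Fin 2) ℝ) (Option (Fin q)) :=
  (conjRepsAlpha M q h hq).toTransferDatum

@[simp] theorem xferAlpha_e' (hq : q.Prime) : (xferAlpha M q h hq).e' = gammaEmb (M * q) := rfl

@[simp] theorem xferAlpha_e (hq : q.Prime) : (xferAlpha M q h hq).e = gammaEmb M := rfl

theorem xferAlpha_α (hq : q.Prime) (i : Option (Fin q)) :
    (xferAlpha M q h hq).α i = (((alphaRep M q h i : Gamma0 M) : SL(2, ℤ)) : GL (Fin 2) ℝ) := by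
  show (1 : GL (Fin 2) ℝ) * gammaEmb M (alphaRep M q h i) = _
  rw [one_mul]; rfl

theorem xferAlpha_α_none (hq : q.Prime) :
    (xferAlpha M q h hq).α none = ((alGammaOne M q x y h : SL(2, ℤ)) : GL (Fin 2) ℝ) :=
  xferAlpha_α M q h hq none

theorem xferAlpha_α_some (hq : q.Prime) (b : Fin q) :
    (xferAlpha M q h hq).α (some b) =
      ((lowerUni ((M : ℤ) * ((b : ℕ) : ℤ)) : SL(2, ℤ)) : GL (Fin 2) ℝ) :=
  xferAlpha_α M q h hq (some b)

theorem det_xferAlpha_pos (hq : q.Prime) (i : Option (Fin q)) :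
    0 < (((xferAlpha M q h hq).α i).det : ℝ) := by
  rw [xferAlpha_α]
  exact det_mapGL_pos _

end Alpha

/-! ### The transfer datum of the degeneracy map `β` -/

section Beta

variable (M q : ℕ) {x y : ℤ} (h : (q : ℤ) * x + M * y = 1)

/-- the representatives of `(Γ₀(M) ∩ Γ⁰(q)) \ Γ₀(M)`: `(1 b; 0 1)` (`b < q`) and
`γ₂ = (q -y; M x)`. -/
def betaRep : Option (Fin q) → Gamma0 M
  | none => ⟨alGammaTwo M q x y h, alGammaTwo_mem h⟩
  | some b => ⟨upperUni ((b : ℕ) : ℤ), upperUni_mem M _⟩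

/-- the upper left entries of the representatives. -/
def betaA : Option (Fin q) → ℤ
  | none => q
  | some _ => 1

/-- the upper right entries of the representatives. -/
def betaB (y : ℤ) : Option (Fin q) → ℤ
  | none => -y
  | some b => ((b : ℕ) : ℤ)

theorem betaRep_zero_zero (i : Option (Fin q)) :
    ((betaRep M q h i : Gamma0 M) : SL(2, ℤ)) 0 0 = betaA q i := by
  cases i <;> rfl

theorem betaRep_zero_one (i : Option (Fin q)) :
    ((betaRep M q h i : Gamma0 M) : SL(2, ℤ)) 0 1 = betaB q y i := by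
  cases i <;> rfl

include h in
theorem xferd_not_dvd_y_of_bezout (hq : q.Prime) : ¬ (q : ℤ) ∣ y := by
  intro hdvd
  have h1 : (q : ℤ) ∣ 1 := by
    rw [← h]
    exact dvd_add (dvd_mul_right _ _) (Dvd.dvd.mul_left hdvd _)
  have h2 : q ∣ 1 := by exact_mod_cast h1
  exact hq.one_lt.ne' (Nat.dvd_one.mp h2)

variable {M q}

theorem beta_cover (hq : q.Prime) (g₀ : Gamma0 M) :
    ∃ j : Option (Fin q), (q : ℤ) ∣ ((g₀ * (betaRep M q h j)⁻¹ : Gamma0 M) : SL(2, ℤ)) 0 1 := by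
  by_cases ha : (q : ℤ) ∣ (g₀ : SL(2, ℤ)) 0 0
  · refine ⟨none, ?_⟩
    rw [Subgroup.coe_mul, Subgroup.coe_inv, SL2_mul_inv_zero_one, betaRep_zero_zero,
      betaRep_zero_one]
    exact dvd_sub (dvd_mul_left _ _) (Dvd.dvd.mul_right ha _)
  · obtain ⟨b, hb⟩ := exists_fin_dvd_sub_mul hq ((g₀ : SL(2, ℤ)) 0 1) _ ha
    refine ⟨some b, ?_⟩
    rw [Subgroup.coe_mul, Subgroup.coe_inv, SL2_mul_inv_zero_one, betaRep_zero_zero,
      betaRep_zero_one]
    have : (g₀ : SL(2, ℤ)) 0 1 * betaA q (some b) - (g₀ : SL(2, ℤ)) 0 0 * betaB q y (some b) =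
        (g₀ : SL(2, ℤ)) 0 1 - (g₀ : SL(2, ℤ)) 0 0 * ((b : ℕ) : ℤ) := by
      simp only [betaA, betaB]; ring
    rw [this]
    exact hb

theorem beta_distinct (hq : q.Prime) (i j : Option (Fin q))
    (hP : (q : ℤ) ∣ ((betaRep M q h i * (betaRep M q h j)⁻¹ : Gamma0 M) : SL(2, ℤ)) 0 1) :
    i = j := by
  have hy := xferd_not_dvd_y_of_bezout M q h hq
  rw [Subgroup.coe_mul, Subgroup.coe_inv, SL2_mul_inv_zero_one, betaRep_zero_zero,
    betaRep_zero_one, betaRep_zero_zero, betaRep_zero_one] at hP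
  cases i with
  | none =>
    cases j with
    | none => rfl
    | some b' =>
      exfalso
      simp only [betaA, betaB] at hP
      have h2 : -y * 1 - (q : ℤ) * ((b' : ℕ) : ℤ) = -(y + (q : ℤ) * ((b' : ℕ) : ℤ)) := by ring
      rw [h2, dvd_neg] at hP
      exact hy ((dvd_add_left (dvd_mul_right _ _)).mp hP)
  | some b =>
    cases j with
    | none =>
      exfalso
      simp only [betaA, betaB] at hP
      have h2 : ((b : ℕ) : ℤ) * (q : ℤ) - 1 * -y = y + (q : ℤ) * ((b : ℕ) : ℤ) := by ring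
      rw [h2] at hP
      exact hy ((dvd_add_left (dvd_mul_right _ _)).mp hP)
    | some b' =>
      simp only [betaA, betaB] at hP
      have h2 : ((b : ℕ) : ℤ) * 1 - 1 * ((b' : ℕ) : ℤ) = ((b : ℕ) : ℤ) - ((b' : ℕ) : ℤ) := by ring
      rw [h2] at hP
      rw [fin_eq_of_dvd_sub b b' hP]

/-- conjugation by `diag(1, q)`: `(a b; c d) ↦ (a b/q; q c d)`. -/
def xferdConjDiag (q : ℕ) (m : SL(2, ℤ)) (hm : (q : ℤ) ∣ m 0 1) : SL(2, ℤ) :=
  ⟨!![m 0 0, m 0 1 / q; (q : ℤ) * m 1 0, m 1 1], by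
    rw [Matrix.det_fin_two_of]
    have h1 := SL2_det_eq m
    have h2 : m 0 1 / (q : ℤ) * ((q : ℤ) * m 1 0) = m 0 1 * m 1 0 := by
      rw [← mul_assoc, Int.ediv_mul_cancel hm]
    rw [h2]; exact h1⟩

/-- conjugation by `diag(1, q)⁻¹`: `(a b; c d) ↦ (a q b; c/q d)`. -/
def xferdConjDiagInv (q : ℕ) (m : SL(2, ℤ)) (hm : (q : ℤ) ∣ m 1 0) : SL(2, ℤ) :=
  ⟨!![m 0 0, (q : ℤ) * m 0 1; m 1 0 / q, m 1 1], by
    rw [Matrix.det_fin_two_of]
    have h1 := SL2_det_eq m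
    have h2 : (q : ℤ) * m 0 1 * (m 1 0 / (q : ℤ)) = m 0 1 * m 1 0 := by
      rw [mul_comm (q : ℤ), mul_assoc, Int.mul_ediv_cancel' hm]
    rw [h2]; exact h1⟩

theorem utZ_mul_xferdConjDiag (q : ℕ) (m : SL(2, ℤ)) (hm : (q : ℤ) ∣ m 0 1) :
    utZ 1 0 q * (m : Matrix (Fin 2) (Fin 2) ℤ) =
      (xferdConjDiag q m hm : Matrix (Fin 2) (Fin 2) ℤ) * utZ 1 0 q := by
  rw [utZ_mul_eq_iff]
  refine ⟨?_, ?_, ?_, ?_⟩
  · show 1 * m 0 0 + 0 * m 1 0 = m 0 0 * 1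
    ring
  · show 1 * m 0 1 + 0 * m 1 1 = m 0 0 * 0 + m 0 1 / (q : ℤ) * (q : ℤ)
    rw [Int.ediv_mul_cancel hm]; ring
  · show (q : ℤ) * m 1 0 = (q : ℤ) * m 1 0 * 1
    ring
  · show (q : ℤ) * m 1 1 = (q : ℤ) * m 1 0 * 0 + m 1 1 * (q : ℤ)
    ring

theorem utZ_mul_xferdConjDiagInv (q : ℕ) (m : SL(2, ℤ)) (hm : (q : ℤ) ∣ m 1 0) :
    utZ 1 0 q * (xferdConjDiagInv q m hm : Matrix (Fin 2) (Fin 2) ℤ) =
      (m : Matrix (Fin 2) (Fin 2) ℤ) * utZ 1 0 q := by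
  rw [utZ_mul_eq_iff]
  refine ⟨?_, ?_, ?_, ?_⟩
  · show 1 * m 0 0 + 0 * (m 1 0 / (q : ℤ)) = m 0 0 * 1
    ring
  · show 1 * ((q : ℤ) * m 0 1) + 0 * m 1 1 = m 0 0 * 0 + m 0 1 * (q : ℤ)
    ring
  · show (q : ℤ) * (m 1 0 / (q : ℤ)) = m 1 0 * 1
    rw [Int.mul_ediv_cancel' hm]; ring
  · show (q : ℤ) * m 1 1 = m 1 0 * 0 + m 1 1 * (q : ℤ)
    ring

variable (M q)

/-- **the coset representatives of the degeneracy map `β`** as a `ConjReps`
(`σ = diag(1, q)`). -/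
noncomputable def conjRepsBeta (hq : q.Prime) :
    ConjReps (Gamma0 (M * q)) (Gamma0 M) (GL (Fin 2) ℝ) (Option (Fin q)) where
  e' := gammaEmb (M * q)
  e'_inj := gammaEmb_injective (M * q)
  e := gammaEmb M
  e_inj := gammaEmb_injective M
  σ := heckeMatrix q 0
  g := betaRep M q h
  P m := (q : ℤ) ∣ (m : SL(2, ℤ)) 0 1
  conj m hm := by
    have hm' : xferdConjDiag q (m : SL(2, ℤ)) hm ∈ Gamma0 (M * q) := by
      rw [mem_Gamma0_iff_dvd]
      show ((M * q : ℕ) : ℤ) ∣ (q : ℤ) * (m : SL(2, ℤ)) 1 0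
      push_cast
      rw [mul_comm (M : ℤ)]
      exact mul_dvd_mul_left _ ((mem_Gamma0_iff_dvd _).mp m.2)
    refine ⟨⟨xferdConjDiag q (m : SL(2, ℤ)) hm, hm'⟩, ?_⟩
    exact (((isZMat_heckeMatrix_zero hq.ne_zero).mul (isZMat_gammaEmb m)).eq_iff
      ((isZMat_gammaEmb _).mul (isZMat_heckeMatrix_zero hq.ne_zero))).mpr
      (utZ_mul_xferdConjDiag q _ hm)
  cover g₀ := beta_cover h hq g₀
  distinct i j hP := beta_distinct h hq i j hP
  conj_back γ' := by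
    have h1 : ((M * q : ℕ) : ℤ) ∣ (γ' : SL(2, ℤ)) 1 0 := (mem_Gamma0_iff_dvd _).mp γ'.2
    push_cast at h1
    have hq' : (q : ℤ) ∣ (γ' : SL(2, ℤ)) 1 0 := dvd_trans (dvd_mul_left _ _) h1
    have hm' : xferdConjDiagInv q (γ' : SL(2, ℤ)) hq' ∈ Gamma0 M := by
      rw [mem_Gamma0_iff_dvd]
      show (M : ℤ) ∣ (γ' : SL(2, ℤ)) 1 0 / (q : ℤ)
      obtain ⟨t, ht⟩ := h1
      have hq0 : (q : ℤ) ≠ 0 := by exact_mod_cast hq.ne_zero
      refine ⟨t, ?_⟩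
      rw [ht, mul_comm (M : ℤ), mul_assoc, Int.mul_ediv_cancel_left _ hq0]
    refine ⟨⟨xferdConjDiagInv q (γ' : SL(2, ℤ)) hq', hm'⟩, ?_, ?_⟩
    · show (q : ℤ) ∣ (q : ℤ) * (γ' : SL(2, ℤ)) 0 1
      exact dvd_mul_right _ _
    · exact (((isZMat_gammaEmb γ').mul (isZMat_heckeMatrix_zero hq.ne_zero)).eq_iff
        ((isZMat_heckeMatrix_zero hq.ne_zero).mul (isZMat_gammaEmb _))).mpr
        (utZ_mul_xferdConjDiagInv q _ hq').symm

/-- **the transfer datum of the degeneracy map `β`**: the cosets `Γ₀(M q) (1 b; 0 q)` and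
`Γ₀(M q) γ₁ (q 0; 0 1)`. -/
noncomputable def xferBeta (hq : q.Prime) :
    TransferDatum (Gamma0 (M * q)) (Gamma0 M) (GL (Fin 2) ℝ) (Option (Fin q)) :=
  (conjRepsBeta M q h hq).toTransferDatum

@[simp] theorem xferBeta_e' (hq : q.Prime) : (xferBeta M q h hq).e' = gammaEmb (M * q) := rfl

@[simp] theorem xferBeta_e (hq : q.Prime) : (xferBeta M q h hq).e = gammaEmb M := rfl

theorem xferBeta_α (hq : q.Prime) (i : Option (Fin q)) :
    (xferBeta M q h hq).α i = heckeMatrix q 0 * gammaEmb M (betaRep M q h i) := rfl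

theorem xferBeta_α_some (hq : q.Prime) (b : Fin q) :
    (xferBeta M q h hq).α (some b) = heckeMatrix q (b : ℕ) := by
  rw [xferBeta_α]
  refine (((isZMat_heckeMatrix_zero hq.ne_zero).mul (isZMat_gammaEmb _)).eq_iff
    (isZMat_heckeRep hq.ne_zero (some b))).mpr ?_
  show utZ 1 0 q * !![1, ((b : ℕ) : ℤ); 0, 1] = utZ 1 ((b : ℕ) : ℤ) q
  ext i j
  fin_cases i <;> fin_cases j <;> simp [utZ, Matrix.mul_apply, Fin.sum_univ_two]

theorem xferBeta_α_none (hq : q.Prime) :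
    (xferBeta M q h hq).α none =
      ((alGammaOne M q x y h : SL(2, ℤ)) : GL (Fin 2) ℝ) * heckeDiagMatrix q := by
  rw [xferBeta_α]
  refine (((isZMat_heckeMatrix_zero hq.ne_zero).mul (isZMat_gammaEmb _)).eq_iff
    ((isZMat_mapGL _).mul (isZMat_heckeRep hq.ne_zero none))).mpr ?_
  show utZ 1 0 q * !![(q : ℤ), -y; (M : ℤ), x] = !![1, -y; (M : ℤ), (q : ℤ) * x] * utZ q 0 1
  ext i j
  fin_cases i <;> fin_cases j <;> simp [utZ, Matrix.mul_apply, Fin.sum_univ_two] <;> ring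

theorem det_xferBeta_pos (hq : q.Prime) (i : Option (Fin q)) :
    0 < (((xferBeta M q h hq).α i).det : ℝ) := by
  rw [xferBeta_α]
  exact det_mul_pos_of_pos (det_mapGL_pos _) (det_heckeMatrix_pos q 0)

end Beta

/-! ### Commutation with `T_ℓ`, `ℓ ∤ M q` -/

section Comm

variable (M q : ℕ) {x y : ℤ} (h : (q : ℤ) * x + M * y = 1)

theorem utZ_mul_utZ (a b d a' b' d' : ℤ) :
    utZ a b d * utZ a' b' d' = utZ (a * a') (a * b' + b * d') (d * d') := by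
  ext i j
  fin_cases i <;> fin_cases j <;> simp [utZ, Matrix.mul_apply, Fin.sum_univ_two]

theorem not_dvd_repA {ℓ q : ℕ} (hℓ : ℓ.Prime) (hq : q.Prime) (hne : q ≠ ℓ) (k : Option (Fin ℓ)) :
    ¬ (q : ℤ) ∣ repA ℓ k := by
  intro hdvd
  cases k with
  | none =>
    have h0 : (q : ℤ) ∣ ((ℓ : ℕ) : ℤ) := hdvd
    have h1 : q ∣ ℓ := by exact_mod_cast h0
    exact hne ((Nat.prime_dvd_prime_iff_eq hq hℓ).mp h1)
  | some b =>
    have h0 : (q : ℤ) ∣ ((1 : ℕ) : ℤ) := by simpa [repA] using hdvd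
    have h1 : q ∣ 1 := by exact_mod_cast h0
    exact hq.one_lt.ne' (Nat.dvd_one.mp h1)

theorem not_dvd_repD {ℓ q : ℕ} (hℓ : ℓ.Prime) (hq : q.Prime) (hne : q ≠ ℓ) (k : Option (Fin ℓ)) :
    ¬ (q : ℤ) ∣ repD ℓ k := by
  intro hdvd
  cases k with
  | none =>
    have h0 : (q : ℤ) ∣ ((1 : ℕ) : ℤ) := by simpa [repD] using hdvd
    have h1 : q ∣ 1 := by exact_mod_cast h0
    exact hq.one_lt.ne' (Nat.dvd_one.mp h1)
  | some b =>
    have h0 : (q : ℤ) ∣ ((ℓ : ℕ) : ℤ) := hdvd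
    have h1 : q ∣ ℓ := by exact_mod_cast h0
    exact hne ((Nat.prime_dvd_prime_iff_eq hq hℓ).mp h1)

/-- **`tr_α ∘ T_ℓ = T_ℓ ∘ tr_α`** for every prime `ℓ ∤ M q`. -/
theorem xferAlpha_transferGrp_heckeGrpP (hq : q.Prime) (ℓ : Nat.Primes)
    (hℓ : ¬ (ℓ : ℕ) ∣ M * q) (A : Type*) [AddCommGroup A]
    (ψ : Additive (Gamma0 (M * q)) →+ A) :
    (xferAlpha M q h hq).transferGrp A (heckeGrpP (M * q) ℓ A ψ) =
      heckeGrpP M ℓ A ((xferAlpha M q h hq).transferGrp A ψ) := by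
  have hℓM : ¬ (ℓ : ℕ) ∣ M := fun hd => hℓ (Dvd.dvd.mul_right hd q)
  have hne : q ≠ (ℓ : ℕ) := fun he => hℓ (he ▸ dvd_mul_left q M)
  have hqp : Prime (q : ℤ) := Nat.prime_iff_prime_int.mp hq
  rw [heckeGrpP_of_not_dvd A hℓ, heckeGrpP_of_not_dvd A hℓM]
  refine (conjRepsAlpha M q h hq).transferGrp_heckeGrp_comm (heckeDatumT (M * q) ℓ ℓ.2 hℓ)
    (heckeDatumT M ℓ ℓ.2 hℓM) rfl rfl ?_ ?_ ψ
  · intro k g₀
    refine ⟨(heckeDatumT M ℓ ℓ.2 hℓM).perm g₀ k, (heckeDatumT M ℓ ℓ.2 hℓM).cocycle g₀ k, ?_⟩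
    show heckeRep ℓ k * 1 * gammaEmb M g₀ = 1 * gammaEmb M _ * heckeRep ℓ _
    rw [mul_one, one_mul]
    exact (heckeDatumT M ℓ ℓ.2 hℓM).spec g₀ k
  · intro k k₂ g₀ δ hk
    change heckeRep ℓ k * 1 * gammaEmb M g₀ = gammaEmb (M * q) δ * heckeRep ℓ k₂ * 1 at hk
    rw [mul_one, mul_one] at hk
    have h1 := (heckeRep_mul_eq_iff ℓ.2.ne_zero k k₂ (g₀ : SL(2, ℤ)) (δ : SL(2, ℤ))).mp hk
    rw [heckeRepZ, heckeRepZ, utZ_mul_eq_iff] at h1
    obtain ⟨-, -, h10, -⟩ := h1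
    have h2 : ((M * q : ℕ) : ℤ) ∣ (δ : SL(2, ℤ)) 1 0 := (mem_Gamma0_iff_dvd _).mp δ.2
    push_cast at h2
    have h3 : (q : ℤ) ∣ repD ℓ k * (g₀ : SL(2, ℤ)) 1 0 := by
      rw [h10]
      exact Dvd.dvd.mul_right (dvd_trans (dvd_mul_left _ _) h2) _
    exact (hqp.dvd_or_dvd h3).resolve_left (not_dvd_repD ℓ.2 hq hne k)

/-- **`tr_β ∘ T_ℓ = T_ℓ ∘ tr_β`** for every prime `ℓ ∤ M q`. -/
theorem xferBeta_transferGrp_heckeGrpP (hq : q.Prime) (ℓ : Nat.Primes)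
    (hℓ : ¬ (ℓ : ℕ) ∣ M * q) (A : Type*) [AddCommGroup A]
    (ψ : Additive (Gamma0 (M * q)) →+ A) :
    (xferBeta M q h hq).transferGrp A (heckeGrpP (M * q) ℓ A ψ) =
      heckeGrpP M ℓ A ((xferBeta M q h hq).transferGrp A ψ) := by
  have hℓM : ¬ (ℓ : ℕ) ∣ M := fun hd => hℓ (Dvd.dvd.mul_right hd q)
  have hne : q ≠ (ℓ : ℕ) := fun he => hℓ (he ▸ dvd_mul_left q M)
  have hqp : Prime (q : ℤ) := Nat.prime_iff_prime_int.mp hq
  have hσ := isZMat_heckeMatrix_zero hq.ne_zero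
  rw [heckeGrpP_of_not_dvd A hℓ, heckeGrpP_of_not_dvd A hℓM]
  refine (conjRepsBeta M q h hq).transferGrp_heckeGrp_comm (heckeDatumT (M * q) ℓ ℓ.2 hℓ)
    (heckeDatumT M ℓ ℓ.2 hℓM) rfl rfl ?_ ?_ ψ
  · intro k g₀
    show ∃ (b : Option (Fin ℓ)) (γ : Gamma0 M),
      heckeRep ℓ k * heckeMatrix q 0 * gammaEmb M g₀ =
        heckeMatrix q 0 * gammaEmb M γ * heckeRep ℓ b
    obtain ⟨a, b, d, ha, hd, had, hk⟩ := heckeRepZ_eq_utZ ℓ.2.pos k
    obtain ⟨δ, a', b', d', ha', hd', had', hb0, hbd, h00, h01, h10, h11⟩ :=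
      Fermat.Agent.Igusa.exists_hnf a (b * q) d ha hd (g₀ : SL(2, ℤ))
    obtain ⟨j, hj⟩ := exists_heckeRepZ_eq ℓ.2 a' b' d' ha' hd' (had'.trans had) hb0 hbd
    have hδ : δ ∈ Gamma0 M := by
      rw [mem_Gamma0_iff_dvd]
      have h1 : (M : ℤ) ∣ δ 1 0 * a' := by
        rw [← h10]
        exact Dvd.dvd.mul_left ((mem_Gamma0_iff_dvd _).mp g₀.2) _
      have hcop : IsCoprime (M : ℤ) a' := by
        have h2 : IsCoprime (M : ℤ) ((ℓ : ℕ) : ℤ) := by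
          rw [Int.isCoprime_iff_gcd_eq_one, Int.gcd_natCast_natCast]
          exact (Nat.Coprime.symm ((Nat.Prime.coprime_iff_not_dvd ℓ.2).mpr hℓM))
        exact h2.of_isCoprime_of_dvd_right ⟨d', by rw [had', had]⟩
      exact hcop.dvd_of_dvd_mul_right h1
    refine ⟨j, ⟨δ, hδ⟩, ?_⟩
    refine ((((isZMat_heckeRep ℓ.2.ne_zero k).mul hσ).mul (isZMat_gammaEmb g₀)).eq_iff
      ((hσ.mul (isZMat_gammaEmb _)).mul (isZMat_heckeRep ℓ.2.ne_zero j))).mpr ?_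
    show heckeRepZ ℓ k * utZ 1 0 q * (g₀ : SL(2, ℤ)) =
      utZ 1 0 q * (δ : Matrix (Fin 2) (Fin 2) ℤ) * heckeRepZ ℓ j
    have e1 : heckeRepZ ℓ k * utZ 1 0 q = utZ 1 0 q * utZ a (b * q) d := by
      rw [hk, utZ_mul_utZ, utZ_mul_utZ]
      congr 1 <;> ring
    have e2 : utZ a (b * q) d * ((g₀ : SL(2, ℤ)) : Matrix (Fin 2) (Fin 2) ℤ) =
        (δ : Matrix (Fin 2) (Fin 2) ℤ) * utZ a' b' d' := by
      rw [utZ_mul_eq_iff]
      exact ⟨h00, h01, h10, h11⟩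
    rw [e1, mul_assoc, e2, hj, mul_assoc]
  · intro k k₂ g₀ δ hk
    change heckeRep ℓ k * heckeMatrix q 0 * gammaEmb M g₀ =
      gammaEmb (M * q) δ * heckeRep ℓ k₂ * heckeMatrix q 0 at hk
    have h1 := ((((isZMat_heckeRep ℓ.2.ne_zero k).mul hσ).mul (isZMat_gammaEmb g₀)).eq_iff
      (((isZMat_gammaEmb δ).mul (isZMat_heckeRep ℓ.2.ne_zero k₂)).mul hσ)).mp hk
    rw [heckeRepZ, heckeRepZ, utZ_mul_utZ, mul_assoc, utZ_mul_utZ, utZ_mul_eq_iff] at h1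
    obtain ⟨-, h01, -, -⟩ := h1
    have h3 : (q : ℤ) ∣ repA ℓ k * 1 * (g₀ : SL(2, ℤ)) 0 1 := by
      have h4 : repA ℓ k * 1 * (g₀ : SL(2, ℤ)) 0 1 =
          (δ : SL(2, ℤ)) 0 0 * (repA ℓ k₂ * 0 + repB ℓ k₂ * (q : ℤ)) +
            (δ : SL(2, ℤ)) 0 1 * (repD ℓ k₂ * (q : ℤ)) -
          (repA ℓ k * 0 + repB ℓ k * (q : ℤ)) * (g₀ : SL(2, ℤ)) 1 1 := by
        rw [← h01]; ring
      rw [h4]
      refine dvd_sub (dvd_add ?_ ?_) ?_
      · exact Dvd.dvd.mul_left (dvd_add (Dvd.dvd.mul_left (dvd_zero _) _) (dvd_mul_left _ _)) _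
      · exact Dvd.dvd.mul_left (dvd_mul_left _ _) _
      · exact Dvd.dvd.mul_right
          (dvd_add (Dvd.dvd.mul_left (dvd_zero _) _) (dvd_mul_left _ _)) _
    rw [mul_one] at h3
    exact (hqp.dvd_or_dvd h3).resolve_left (not_dvd_repA ℓ.2 hq hne k)

end Comm

/-! ### Parabolic classes -/

section Par

variable {N' N : ℕ} {ι : Type*} [Fintype ι]
  (X : TransferDatum (Gamma0 N') (Gamma0 N) (GL (Fin 2) ℝ) ι)

/-- **the transfer preserves the parabolic homomorphisms** (any coefficient group). -/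
theorem transferGrp_mem_parabolicHoms (hX' : X.e' = gammaEmb N') (hX : X.e = gammaEmb N)
    (R : Type*) [Semiring R] {A : Type*} [AddCommGroup A] [Module R A]
    {ψ : Additive (Gamma0 N') →+ A} (hψ : ψ ∈ parabolicHoms R (Gamma0 N') A) :
    X.transferGrp A ψ ∈ parabolicHoms R (Gamma0 N) A := by
  rw [mem_parabolicHoms_iff] at hψ ⊢
  intro γ hγ
  apply X.transferGrp_apply_eq_zero
  intro i m hm hi
  apply hψ
  have h1 := X.e'_cocycle_of_perm_eq hi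
  rw [hX', hX] at h1
  have h2 : ((gammaEmb N' (X.cocycle (γ ^ m) i) : GL (Fin 2) ℝ) :
      Matrix (Fin 2) (Fin 2) ℝ).trace =
      ((gammaEmb N (γ ^ m) : GL (Fin 2) ℝ) : Matrix (Fin 2) (Fin 2) ℝ).trace := by
    rw [h1, Units.val_mul, Units.val_mul]
    exact Matrix.trace_units_conj (X.α i) _
  rw [trace_gammaEmb, trace_gammaEmb] at h2
  have h3 : (((X.cocycle (γ ^ m) i : Gamma0 N') : SL(2, ℤ)) : Matrix (Fin 2) (Fin 2) ℤ).trace =
      (((γ ^ m : Gamma0 N) : SL(2, ℤ)) : Matrix (Fin 2) (Fin 2) ℤ).trace := by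
    exact_mod_cast h2
  rw [h3, SubgroupClass.coe_pow]
  exact trace_pow_sq_eq_four _ hγ m

end Par

/-! ### The analytic products -/

section Prod

variable (M q : ℕ) {x y : ℤ} (h : (q : ℤ) * x + M * y = 1)

theorem compGL_eq_of_eq {g g' : GL (Fin 2) ℝ} (e : g = g') (hg : 0 < (g.det : ℝ))
    (hg' : 0 < (g'.det : ℝ)) (u : MerH) : MerH.compGL g hg u = MerH.compGL g' hg' u := by
  subst e
  rfl

/-- **`∏ᵢ u ∘ αᵢ` for the `β`-datum is the product of helper5's analytic norm formula**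
(`realN_norm_heckeBetaBar_of_not_dvd`). -/
theorem transferProd_xferBeta (hq : q.Prime) (u : MerH) :
    transferProd (xferBeta M q h hq) (det_xferBeta_pos M q h hq) u =
      (∏ b : Fin q, MerH.compGL (heckeMatrix q b) (det_heckeMatrix_pos q b) u) *
        MerH.atkinLehner h u := by
  unfold transferProd
  rw [Fintype.prod_option, mul_comm]
  congr 1
  · exact Finset.prod_congr rfl fun b _ =>
      compGL_eq_of_eq (xferBeta_α_some M q h hq b) _ _ u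
  · rw [compGL_eq_of_eq (xferBeta_α_none M q h hq) _
      (det_mul_pos_of_pos (det_heckeDiagMatrix_pos q) (det_mapGL_pos _)) u,
      ← MerH.compGL_compGL (heckeDiagMatrix q) _ (det_heckeDiagMatrix_pos q) (det_mapGL_pos _),
      MerH.compGL_mapGL, MerH.compGL_heckeDiagMatrix, MerH.atkinLehner_apply]

/-- **`∏ᵢ u ∘ αᵢ` for the `α`-datum**: the product over the coset representatives of
`Γ₀(M q) \ Γ₀(M)`. -/
theorem transferProd_xferAlpha (hq : q.Prime) (u : MerH) :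
    transferProd (xferAlpha M q h hq) (det_xferAlpha_pos M q h hq) u =
      (∏ b : Fin q, MerH.comp (lowerUni ((M : ℤ) * ((b : ℕ) : ℤ))) u) *
        MerH.comp (alGammaOne M q x y h) u := by
  unfold transferProd
  rw [Fintype.prod_option, mul_comm]
  congr 1
  · exact Finset.prod_congr rfl fun b _ => by
      rw [compGL_eq_of_eq (xferAlpha_α_some M q h hq b) _ (det_mapGL_pos _) u, MerH.compGL_mapGL]
  · rw [compGL_eq_of_eq (xferAlpha_α_none M q h hq) _ (det_mapGL_pos _) u, MerH.compGL_mapGL]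

end Prod

/-! ### Corollaries in the consumer's shape -/

section Cor

variable (M q : ℕ) {x y : ℤ} (h : (q : ℤ) * x + M * y = 1)

theorem xferAlpha_mem_parabolicHoms (hq : q.Prime) (R : Type*) [Semiring R] {A : Type*}
    [AddCommGroup A] [Module R A] {ψ : Additive (Gamma0 (M * q)) →+ A}
    (hψ : ψ ∈ parabolicHoms R (Gamma0 (M * q)) A) :
    (xferAlpha M q h hq).transferGrp A ψ ∈ parabolicHoms R (Gamma0 M) A :=
  transferGrp_mem_parabolicHoms _ rfl rfl R hψ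

theorem xferBeta_mem_parabolicHoms (hq : q.Prime) (R : Type*) [Semiring R] {A : Type*}
    [AddCommGroup A] [Module R A] {ψ : Additive (Gamma0 (M * q)) →+ A}
    (hψ : ψ ∈ parabolicHoms R (Gamma0 (M * q)) A) :
    (xferBeta M q h hq).transferGrp A ψ ∈ parabolicHoms R (Gamma0 M) A :=
  transferGrp_mem_parabolicHoms _ rfl rfl R hψ

variable {n : ℕ} [NeZero n]

theorem isKummerElt_transferProd_xferAlpha (hq : q.Prime) {u : MerH}
    (hu : IsKummerElt (Gamma0 (M * q)) n u) :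
    IsKummerElt (Gamma0 M) n (transferProd (xferAlpha M q h hq) (det_xferAlpha_pos M q h hq) u) :=
  isKummerElt_transferProd _ _ (fun _ => rfl) (fun _ => rfl) hu

theorem kummerChar_transferProd_xferAlpha (hq : q.Prime) {u : MerH}
    (hu : IsKummerElt (Gamma0 (M * q)) n u) :
    kummerChar (Gamma0 M) n (transferProd (xferAlpha M q h hq) (det_xferAlpha_pos M q h hq) u) =
      (xferAlpha M q h hq).transferGrp (ZMod n) (kummerChar (Gamma0 (M * q)) n u) :=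
  kummerChar_transferProd _ _ (fun _ => rfl) (fun _ => rfl) hu

theorem isKummerElt_transferProd_xferBeta (hq : q.Prime) {u : MerH}
    (hu : IsKummerElt (Gamma0 (M * q)) n u) :
    IsKummerElt (Gamma0 M) n (transferProd (xferBeta M q h hq) (det_xferBeta_pos M q h hq) u) :=
  isKummerElt_transferProd _ _ (fun _ => rfl) (fun _ => rfl) hu

theorem kummerChar_transferProd_xferBeta (hq : q.Prime) {u : MerH}
    (hu : IsKummerElt (Gamma0 (M * q)) n u) :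
    kummerChar (Gamma0 M) n (transferProd (xferBeta M q h hq) (det_xferBeta_pos M q h hq) u) =
      (xferBeta M q h hq).transferGrp (ZMod n) (kummerChar (Gamma0 (M * q)) n u) :=
  kummerChar_transferProd _ _ (fun _ => rfl) (fun _ => rfl) hu

end Cor

end Fermat.Agent.GR
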