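/-
S35 (I3), package (P1) (helper4), part 5: **the transfer datum of the degeneracy map `α` with the
representatives `1`, `γ₁ T^b`** (`b < q`) of `Γ₀(M q) \ Γ₀(M)` (the ones dropping out of the analytic
`β`-norm formula through `Norm_α z = Norm_β (W z)`), its comparison with `xferAlpha`
(independence of the representatives), and the corollaries in the consumer's shape.
-/
import Mathlib
import Fermat.Agent.GR.XFERD_helper4_Gamma0

set_option autoImplicit false
set_option linter.unusedSectionVars false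
set_option linter.unnecessarySeqFocus false
set_option linter.style.haveILetI false

namespace Fermat.Agent.GR

open CongruenceSubgroup ModularForm Matrix ModularCurve.Period Fermat.Agent.X0N
open scoped MatrixGroups

/-! ### Independence of the representatives, existence forms -/

namespace TransferDatum

variable {Γ' Γ G ι : Type*} [Group Γ'] [Group Γ] [Group G] [Fintype ι]
  (X : TransferDatum Γ' Γ G ι) {A : Type*} [AddCommGroup A]

/-- **independence of the representatives**, existence form: every coset `Γ' αᵢ` of `X` is a coset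
of `X'` and the two families have the same cardinality. -/
theorem transferGrp_eq_of_exists {ι' : Type*} [Fintype ι'] (X' : TransferDatum Γ' Γ G ι')
    (he' : X'.e' = X.e') (he : X'.e = X.e) (hcard : Fintype.card ι = Fintype.card ι')
    (hex : ∀ i : ι, ∃ (j : ι') (δ : Γ'), X.α i = X.e' δ * X'.α j) (ψ : Additive Γ' →+ A) :
    X'.transferGrp A ψ = X.transferGrp A ψ := by
  choose f δ hf using hex
  have hinj : Function.Injective f := by
    intro i i₂ hi
    have h1 := hf i
    have h2 := hf i₂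
    rw [hi] at h1
    apply X.index_eq i i₂ (δ i * (δ i₂)⁻¹)
    rw [h1, h2, map_mul, map_inv]
    group
  have hbij : Function.Bijective f :=
    (Fintype.bijective_iff_injective_and_card f).mpr ⟨hinj, hcard⟩
  exact X.transferGrp_eq_of_reps X' he' he (Equiv.ofBijective f hbij) δ hf ψ

end TransferDatum

namespace ConjReps

variable {Γ' Γ G ι ι' : Type*} [Group Γ'] [Group Γ] [Group G] [Fintype ι] [Fintype ι']
  {A : Type*} [AddCommGroup A]

/-- two families of representatives `gᵢ`, `g'ⱼ` of the same `H \ Γ` (same `e'`, `e`, `σ`) give the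
same transfer. -/
theorem transferGrp_eq_of_same (C : ConjReps Γ' Γ G ι) (C' : ConjReps Γ' Γ G ι')
    (he' : C'.e' = C.e') (he : C'.e = C.e) (hσ : C'.σ = C.σ)
    (hcard : Fintype.card ι = Fintype.card ι') (ψ : Additive Γ' →+ A) :
    C'.toTransferDatum.transferGrp A ψ = C.toTransferDatum.transferGrp A ψ := by
  refine C.toTransferDatum.transferGrp_eq_of_exists C'.toTransferDatum he' he hcard ?_ ψ
  intro i
  obtain ⟨j, hj⟩ := C'.cover (C.g i)
  obtain ⟨γ', hγ'⟩ := C'.conj _ hj
  refine ⟨j, γ', ?_⟩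
  show C.σ * C.e (C.g i) = C.e' γ' * (C'.σ * C'.e (C'.g j))
  rw [← he', ← mul_assoc, ← hγ', ← hσ, ← he, mul_assoc, ← map_mul, inv_mul_cancel_right]

end ConjReps

/-! ### The representatives `1`, `γ₁ T^b` -/

theorem T_zpow_mem_Gamma0 (M : ℕ) (n : ℤ) : ModularGroup.T ^ n ∈ Gamma0 M := by
  rw [mem_Gamma0_iff_dvd, ModularGroup.coe_T_zpow]
  simp

section AlphaT

variable (M q : ℕ) {x y : ℤ} (h : (q : ℤ) * x + M * y = 1)

/-- the representatives of `Γ₀(M q) \ Γ₀(M)`: `1` and `γ₁ T^b = (1 b-y; M M b + q x)` (`b < q`). -/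
def alphaRepT : Option (Fin q) → Gamma0 M
  | none => 1
  | some b => ⟨alGammaOne M q x y h * ModularGroup.T ^ (((b : ℕ) : ℤ)),
      Subgroup.mul_mem _ (alGammaOne_mem h) (T_zpow_mem_Gamma0 M _)⟩

/-- the lower left entries of the representatives. -/
def alphaCT : Option (Fin q) → ℤ
  | none => 0
  | some _ => M

/-- the lower right entries of the representatives. -/
def alphaDT (x : ℤ) : Option (Fin q) → ℤ
  | none => 1
  | some b => (M : ℤ) * ((b : ℕ) : ℤ) + (q : ℤ) * x

theorem alGammaOne_mul_T_zpow_one_zero (n : ℤ) :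
    (alGammaOne M q x y h * ModularGroup.T ^ n) 1 0 = M := by
  rw [Matrix.SpecialLinearGroup.coe_mul, ModularGroup.coe_T_zpow, Matrix.mul_apply,
    Fin.sum_univ_two]
  show (M : ℤ) * 1 + (q : ℤ) * x * 0 = M
  ring

theorem alGammaOne_mul_T_zpow_one_one (n : ℤ) :
    (alGammaOne M q x y h * ModularGroup.T ^ n) 1 1 = (M : ℤ) * n + (q : ℤ) * x := by
  rw [Matrix.SpecialLinearGroup.coe_mul, ModularGroup.coe_T_zpow, Matrix.mul_apply,
    Fin.sum_univ_two]
  show (M : ℤ) * n + (q : ℤ) * x * 1 = _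
  ring

theorem alphaRepT_one_zero (i : Option (Fin q)) :
    ((alphaRepT M q h i : Gamma0 M) : SL(2, ℤ)) 1 0 = alphaCT M q i := by
  cases i with
  | none => rfl
  | some b => exact alGammaOne_mul_T_zpow_one_zero M q h _

theorem alphaRepT_one_one (i : Option (Fin q)) :
    ((alphaRepT M q h i : Gamma0 M) : SL(2, ℤ)) 1 1 = alphaDT M q x i := by
  cases i with
  | none => rfl
  | some b => exact alGammaOne_mul_T_zpow_one_one M q h _

variable {M q}

theorem alphaT_cover (hq : q.Prime) (g₀ : Gamma0 M) :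
    ∃ j : Option (Fin q), (q : ℤ) ∣ ((g₀ * (alphaRepT M q h j)⁻¹ : Gamma0 M) : SL(2, ℤ)) 1 0 := by
  have hqp : Prime (q : ℤ) := Nat.prime_iff_prime_int.mp hq
  have hM := xferd_not_dvd_of_bezout M q h hq
  by_cases hc : (q : ℤ) ∣ (g₀ : SL(2, ℤ)) 1 0
  · refine ⟨none, ?_⟩
    rw [Subgroup.coe_mul, Subgroup.coe_inv, SL2_mul_inv_one_zero, alphaRepT_one_zero,
      alphaRepT_one_one]
    simp only [alphaCT, alphaDT]
    rw [mul_one, mul_zero, sub_zero]
    exact hc
  · obtain ⟨b, hb⟩ := exists_fin_dvd_sub_mul hq ((g₀ : SL(2, ℤ)) 1 1) _ hc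
    refine ⟨some b, ?_⟩
    rw [Subgroup.coe_mul, Subgroup.coe_inv, SL2_mul_inv_one_zero, alphaRepT_one_zero,
      alphaRepT_one_one]
    have : (g₀ : SL(2, ℤ)) 1 0 * alphaDT M q x (some b) -
        (g₀ : SL(2, ℤ)) 1 1 * alphaCT M q (some b) =
        (q : ℤ) * ((g₀ : SL(2, ℤ)) 1 0 * x) -
          (M : ℤ) * ((g₀ : SL(2, ℤ)) 1 1 - (g₀ : SL(2, ℤ)) 1 0 * ((b : ℕ) : ℤ)) := by
      simp only [alphaCT, alphaDT]; ring
    rw [this]
    exact dvd_sub (dvd_mul_right _ _) (Dvd.dvd.mul_left hb _)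

theorem alphaT_distinct (hq : q.Prime) (i j : Option (Fin q))
    (hP : (q : ℤ) ∣ ((alphaRepT M q h i * (alphaRepT M q h j)⁻¹ : Gamma0 M) : SL(2, ℤ)) 1 0) :
    i = j := by
  have hqp : Prime (q : ℤ) := Nat.prime_iff_prime_int.mp hq
  have hM := xferd_not_dvd_of_bezout M q h hq
  rw [Subgroup.coe_mul, Subgroup.coe_inv, SL2_mul_inv_one_zero, alphaRepT_one_zero,
    alphaRepT_one_one, alphaRepT_one_zero, alphaRepT_one_one] at hP
  cases i with
  | none =>
    cases j with
    | none => rfl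
    | some b' =>
      exfalso
      simp only [alphaCT, alphaDT] at hP
      have h2 : (0 : ℤ) * ((M : ℤ) * ((b' : ℕ) : ℤ) + (q : ℤ) * x) - 1 * (M : ℤ) = -(M : ℤ) := by
        ring
      rw [h2, dvd_neg] at hP
      exact hM hP
  | some b =>
    cases j with
    | none =>
      exfalso
      simp only [alphaCT, alphaDT] at hP
      have h2 : (M : ℤ) * 1 - ((M : ℤ) * ((b : ℕ) : ℤ) + (q : ℤ) * x) * 0 = (M : ℤ) := by ring
      rw [h2] at hP
      exact hM hP
    | some b' =>
      simp only [alphaCT, alphaDT] at hP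
      have h2 : (M : ℤ) * ((M : ℤ) * ((b' : ℕ) : ℤ) + (q : ℤ) * x) -
          ((M : ℤ) * ((b : ℕ) : ℤ) + (q : ℤ) * x) * (M : ℤ) =
          (M : ℤ) * ((M : ℤ) * (((b' : ℕ) : ℤ) - ((b : ℕ) : ℤ))) := by ring
      rw [h2] at hP
      rcases hqp.dvd_or_dvd hP with h3 | h3
      · exact absurd h3 hM
      · rcases hqp.dvd_or_dvd h3 with h4 | h4
        · exact absurd h4 hM
        · rw [fin_eq_of_dvd_sub b' b h4]

variable (M q)

/-- **the coset representatives `1`, `γ₁ T^b` of the degeneracy map `α`** as a `ConjReps`. -/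
noncomputable def conjRepsAlphaT (hq : q.Prime) :
    ConjReps (Gamma0 (M * q)) (Gamma0 M) (GL (Fin 2) ℝ) (Option (Fin q)) where
  e' := gammaEmb (M * q)
  e'_inj := gammaEmb_injective (M * q)
  e := gammaEmb M
  e_inj := gammaEmb_injective M
  σ := 1
  g := alphaRepT M q h
  P m := (q : ℤ) ∣ (m : SL(2, ℤ)) 1 0
  conj := (conjRepsAlpha M q h hq).conj
  cover g₀ := alphaT_cover h hq g₀
  distinct i j hP := alphaT_distinct h hq i j hP
  conj_back := (conjRepsAlpha M q h hq).conj_back

/-- **the transfer datum of the degeneracy map `α`, representatives `1`, `γ₁ T^b`**. -/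
noncomputable def xferAlphaT (hq : q.Prime) :
    TransferDatum (Gamma0 (M * q)) (Gamma0 M) (GL (Fin 2) ℝ) (Option (Fin q)) :=
  (conjRepsAlphaT M q h hq).toTransferDatum

@[simp] theorem xferAlphaT_e' (hq : q.Prime) : (xferAlphaT M q h hq).e' = gammaEmb (M * q) := rfl

@[simp] theorem xferAlphaT_e (hq : q.Prime) : (xferAlphaT M q h hq).e = gammaEmb M := rfl

theorem xferAlphaT_α (hq : q.Prime) (i : Option (Fin q)) :
    (xferAlphaT M q h hq).α i = (((alphaRepT M q h i : Gamma0 M) : SL(2, ℤ)) : GL (Fin 2) ℝ) := by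
  show (1 : GL (Fin 2) ℝ) * gammaEmb M (alphaRepT M q h i) = _
  rw [one_mul]; rfl

theorem xferAlphaT_α_none (hq : q.Prime) :
    (xferAlphaT M q h hq).α none = 1 := by
  show (1 : GL (Fin 2) ℝ) * gammaEmb M 1 = 1
  rw [map_one, one_mul]

theorem xferAlphaT_α_none' (hq : q.Prime) :
    (xferAlphaT M q h hq).α none = ((1 : SL(2, ℤ)) : GL (Fin 2) ℝ) :=
  xferAlphaT_α M q h hq none

theorem xferAlphaT_α_some (hq : q.Prime) (b : Fin q) :
    (xferAlphaT M q h hq).α (some b) =
      ((alGammaOne M q x y h * ModularGroup.T ^ (((b : ℕ) : ℤ)) : SL(2, ℤ)) : GL (Fin 2) ℝ) :=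
  xferAlphaT_α M q h hq (some b)

theorem det_xferAlphaT_pos (hq : q.Prime) (i : Option (Fin q)) :
    0 < (((xferAlphaT M q h hq).α i).det : ℝ) := by
  rw [xferAlphaT_α]
  exact det_mapGL_pos _

/-- **`xferAlphaT` and `xferAlpha` have the same transfer.** -/
theorem xferAlphaT_transferGrp_eq (hq : q.Prime) (A : Type*) [AddCommGroup A]
    (ψ : Additive (Gamma0 (M * q)) →+ A) :
    (xferAlphaT M q h hq).transferGrp A ψ = (xferAlpha M q h hq).transferGrp A ψ :=
  ConjReps.transferGrp_eq_of_same (conjRepsAlpha M q h hq) (conjRepsAlphaT M q h hq) rfl rfl rfl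
    rfl ψ

theorem xferAlphaT_transferGrp_eq' (hq : q.Prime) (A : Type*) [AddCommGroup A] :
    (xferAlphaT M q h hq).transferGrp A = (xferAlpha M q h hq).transferGrp A :=
  AddMonoidHom.ext fun ψ => xferAlphaT_transferGrp_eq M q h hq A ψ

/-- **the transfer of `α` commutes with `T_ℓ`**, `ℓ ∤ M q`. -/
theorem xferAlphaT_transferGrp_heckeGrpP (hq : q.Prime) (ℓ : Nat.Primes)
    (hℓ : ¬ (ℓ : ℕ) ∣ M * q) (A : Type*) [AddCommGroup A]
    (ψ : Additive (Gamma0 (M * q)) →+ A) :
    (xferAlphaT M q h hq).transferGrp A (heckeGrpP (M * q) ℓ A ψ) =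
      heckeGrpP M ℓ A ((xferAlphaT M q h hq).transferGrp A ψ) := by
  rw [xferAlphaT_transferGrp_eq, xferAlphaT_transferGrp_eq]
  exact xferAlpha_transferGrp_heckeGrpP M q h hq ℓ hℓ A ψ

theorem xferAlphaT_mem_parabolicHoms (hq : q.Prime) (R : Type*) [Semiring R] {A : Type*}
    [AddCommGroup A] [Module R A] {ψ : Additive (Gamma0 (M * q)) →+ A}
    (hψ : ψ ∈ parabolicHoms R (Gamma0 (M * q)) A) :
    (xferAlphaT M q h hq).transferGrp A ψ ∈ parabolicHoms R (Gamma0 M) A :=
  transferGrp_mem_parabolicHoms _ rfl rfl R hψ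

/-- **`∏ᵢ u ∘ αᵢ` for the representatives `1`, `γ₁ T^b`.** -/
theorem transferProd_xferAlphaT (hq : q.Prime) (u : MerH) :
    transferProd (xferAlphaT M q h hq) (det_xferAlphaT_pos M q h hq) u =
      (∏ b : Fin q, MerH.comp (alGammaOne M q x y h * ModularGroup.T ^ (((b : ℕ) : ℤ))) u) * u := by
  unfold transferProd
  rw [Fintype.prod_option, mul_comm]
  congr 1
  · exact Finset.prod_congr rfl fun b _ => by
      rw [compGL_eq_of_eq (xferAlphaT_α_some M q h hq b) _ (det_mapGL_pos _) u, MerH.compGL_mapGL]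
  · rw [compGL_eq_of_eq (xferAlphaT_α_none' M q h hq) _ (det_mapGL_pos _) u, MerH.compGL_mapGL,
      MerH.comp_one]

/-- the same product with `comp γ₁ ∘ comp T^b` unfolded. -/
theorem transferProd_xferAlphaT' (hq : q.Prime) (u : MerH) :
    transferProd (xferAlphaT M q h hq) (det_xferAlphaT_pos M q h hq) u =
      (∏ b : Fin q, MerH.comp (ModularGroup.T ^ (((b : ℕ) : ℤ)))
        (MerH.comp (alGammaOne M q x y h) u)) * u := by
  rw [transferProd_xferAlphaT]
  congr 1
  exact Finset.prod_congr rfl fun b _ => by rw [MerH.comp_mul]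

variable {n : ℕ} [NeZero n]

theorem isKummerElt_transferProd_xferAlphaT (hq : q.Prime) {u : MerH}
    (hu : IsKummerElt (Gamma0 (M * q)) n u) :
    IsKummerElt (Gamma0 M) n
      (transferProd (xferAlphaT M q h hq) (det_xferAlphaT_pos M q h hq) u) :=
  isKummerElt_transferProd _ _ (fun _ => rfl) (fun _ => rfl) hu

theorem kummerChar_transferProd_xferAlphaT (hq : q.Prime) {u : MerH}
    (hu : IsKummerElt (Gamma0 (M * q)) n u) :
    kummerChar (Gamma0 M) n
        (transferProd (xferAlphaT M q h hq) (det_xferAlphaT_pos M q h hq) u) =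
      (xferAlphaT M q h hq).transferGrp (ZMod n) (kummerChar (Gamma0 (M * q)) n u) :=
  kummerChar_transferProd _ _ (fun _ => rfl) (fun _ => rfl) hu

/-- the Kummer character of the `α`-norm product, expressed through `xferAlpha`. -/
theorem kummerChar_transferProd_xferAlphaT' (hq : q.Prime) {u : MerH}
    (hu : IsKummerElt (Gamma0 (M * q)) n u) :
    kummerChar (Gamma0 M) n
        (transferProd (xferAlphaT M q h hq) (det_xferAlphaT_pos M q h hq) u) =
      (xferAlpha M q h hq).transferGrp (ZMod n) (kummerChar (Gamma0 (M * q)) n u) := by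
  rw [kummerChar_transferProd_xferAlphaT M q h hq hu, xferAlphaT_transferGrp_eq]

end AlphaT

end Fermat.Agent.GR
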