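/-
S35 (I3), package (P1) (helper4), part 2: **the Kummer character of `u' = ∏ᵢ u ∘ αᵢ` for a
transfer datum is the group-theoretic transfer of the Kummer character of `u`** (two-group version
of KHECKE_helper4_Generic).

`X` a transfer datum for subgroups `Γ', Γ ≤ SL(2, ℤ)` inside `GL₂(ℝ)` with representatives `αᵢ` of
positive determinant; `u ∈ MerH` with `u ∘ γ' = χ(γ') u` for `γ' ∈ Γ'`.  Writing
`αᵢ γ = cᵢ α_{σ i}` (`γ ∈ Γ`, `cᵢ ∈ Γ'`), `u' ∘ γ = ∏ᵢ u ∘ (cᵢ α_{σ i}) = (∏ᵢ χ(cᵢ)) u'`.
-/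
import Mathlib
import Fermat.Agent.GR.XFERD_helper4_Abstract
import Fermat.Agent.GR.KHECKE_helper4_Generic

set_option autoImplicit false
set_option linter.style.haveILetI false
set_option linter.unusedSectionVars false

open UpperHalfPlane hiding I
open Complex
open scoped MatrixGroups

namespace Fermat.Agent.GR

open Fermat.Agent.X0N

section TransferProd

variable {Γ' Γ : Subgroup SL(2, ℤ)} {ι : Type*} [Fintype ι]
  (X : TransferDatum ↥Γ' ↥Γ (GL (Fin 2) ℝ) ι) (hdet : ∀ i, 0 < ((X.α i).det : ℝ))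

/-- `u' = ∏ᵢ u ∘ αᵢ`, the product of the translates of `u` by the representatives of a transfer
datum (the analytic norm / the analytic Hecke correspondence between two levels). -/
noncomputable def transferProd (u : MerH) : MerH := ∏ i, MerH.compGL (X.α i) (hdet i) u

theorem transferProd_ne_zero {u : MerH} (hu : u ≠ 0) : transferProd X hdet u ≠ 0 :=
  Finset.prod_ne_zero_iff.mpr fun _ _ => (map_ne_zero _).mpr hu

theorem transferProd_pow (u : MerH) (n : ℕ) :
    transferProd X hdet u ^ n = transferProd X hdet (u ^ n) := by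
  unfold transferProd
  rw [← Finset.prod_pow]
  exact Finset.prod_congr rfl fun i _ => (map_pow _ _ _).symm

theorem transferProd_mul (u v : MerH) :
    transferProd X hdet (u * v) = transferProd X hdet u * transferProd X hdet v := by
  unfold transferProd
  rw [← Finset.prod_mul_distrib]
  exact Finset.prod_congr rfl fun i _ => map_mul _ _ _

variable (hX' : ∀ γ : Γ', X.e' γ = ((γ : SL(2, ℤ)) : GL (Fin 2) ℝ))
  (hX : ∀ γ : Γ, X.e γ = ((γ : SL(2, ℤ)) : GL (Fin 2) ℝ))

include hX' hX in
/-- `(u ∘ αᵢ) ∘ γ = χ(cᵢ) · u ∘ α_{σ i}` where `αᵢ γ = cᵢ α_{σ i}`. -/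
theorem comp_compGL_of_char_transfer {u : MerH} (χ : Γ' → ℂ)
    (hχ : ∀ γ : Γ', MerH.comp (γ : SL(2, ℤ)) u = MerH.const (χ γ) * u) (γ : Γ) (i : ι) :
    MerH.comp (γ : SL(2, ℤ)) (MerH.compGL (X.α i) (hdet i) u) =
      MerH.const (χ (X.cocycle γ i)) *
        MerH.compGL (X.α (X.perm γ i)) (hdet (X.perm γ i)) u := by
  rw [← MerH.compGL_mapGL (γ : SL(2, ℤ)) (det_mapGL_pos _),
    compGL_compGL_of_mul_eq (det_mapGL_pos _) (hdet i) (hdet (X.perm γ i))
      (det_mapGL_pos ((X.cocycle γ i : Γ') : SL(2, ℤ)))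
      (by rw [← hX, ← hX']; exact X.spec γ i) u,
    MerH.compGL_mapGL, hχ, map_mul, MerH.compGL_const]

variable {n : ℕ} [NeZero n]

include hX' hX in
/-- **the character of `u' = ∏ᵢ u ∘ αᵢ` is the group-theoretic transfer of the character of
`u`.** -/
theorem comp_transferProd_of_char {u : MerH} (ψ : Additive Γ' →+ ZMod n)
    (hψ : ∀ γ : Γ', MerH.comp (γ : SL(2, ℤ)) u =
      MerH.const (ZMod.stdAddChar (ψ (Additive.ofMul γ))) * u) (γ : Γ) :
    MerH.comp (γ : SL(2, ℤ)) (transferProd X hdet u) =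
      MerH.const (ZMod.stdAddChar (X.transferGrp (ZMod n) ψ (Additive.ofMul γ))) *
        transferProd X hdet u := by
  unfold transferProd
  rw [map_prod, Finset.prod_congr rfl (fun i _ => comp_compGL_of_char_transfer X hdet hX' hX
      (fun γ => ZMod.stdAddChar (ψ (Additive.ofMul γ))) hψ γ i),
    Finset.prod_mul_distrib]
  congr 1
  · rw [TransferDatum.transferGrp_apply, addChar_map_finset_sum, map_prod]
  · exact Equiv.prod_comp (X.permEquiv γ) (fun i => MerH.compGL (X.α i) (hdet i) u)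

include hX' hX in
theorem isKummerElt_transferProd {u : MerH} (hu : IsKummerElt Γ' n u) :
    IsKummerElt Γ n (transferProd X hdet u) :=
  isKummerElt_of_char (transferProd_ne_zero X hdet hu.1)
    (fun γ => X.transferGrp (ZMod n) (kummerChar Γ' n u) (Additive.ofMul γ))
    (comp_transferProd_of_char X hdet hX' hX (kummerChar Γ' n u) (kummerChar_spec hu))

include hX' hX in
/-- **`χ_{u'} = tr χ_u`.** -/
theorem kummerChar_transferProd {u : MerH} (hu : IsKummerElt Γ' n u) :
    kummerChar Γ n (transferProd X hdet u) = X.transferGrp (ZMod n) (kummerChar Γ' n u) :=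
  kummerChar_eq_of_spec (transferProd_ne_zero X hdet hu.1) _
    (comp_transferProd_of_char X hdet hX' hX (kummerChar Γ' n u) (kummerChar_spec hu))

end TransferProd

end Fermat.Agent.GR
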