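/-
S36, package [XFERD2] (helper4), part 1: **the two transfer data of `Γ₀(M q) ≤ Γ₀(M)` for a prime
`q ∣ M`** (index `q`) — `xferAlphaQ` (cosets `Γ₀(Mq) (1 0; -M b 1)`, `b < q`: the degeneracy map
`α`) and `xferBetaQ` (cosets `Γ₀(Mq) (1 b; 0 q)`, `b < q`: the degeneracy map `β`) — their
commutation with `T_ℓ` (`ℓ ∤ M q`), the preservation of parabolic classes, and the analytic
products.
-/
import Mathlib
import Fermat.Agent.GR.XFERD_helper4_Gamma0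

set_option autoImplicit false
set_option linter.unusedSectionVars false
set_option linter.unnecessarySeqFocus false
set_option linter.style.haveILetI false

namespace Fermat.Agent.GR

open CongruenceSubgroup ModularForm Matrix ModularCurve.Period Fermat.Agent.X0N
open scoped MatrixGroups

/-! ### Units modulo `q` in the rows and columns of `Γ₀(M)`, `q ∣ M` -/

theorem not_dvd_one_one_of_mem_Gamma0 {M q : ℕ} (hq : q.Prime) (hqM : q ∣ M) (g₀ : Gamma0 M) :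
    ¬ (q : ℤ) ∣ (g₀ : SL(2, ℤ)) 1 1 := by
  intro hd
  have hc : (q : ℤ) ∣ (g₀ : SL(2, ℤ)) 1 0 :=
    dvd_trans (Int.natCast_dvd_natCast.mpr hqM) ((mem_Gamma0_iff_dvd _).mp g₀.2)
  have h1 : (q : ℤ) ∣ 1 := by
    rw [← SL2_det_eq (g₀ : SL(2, ℤ))]
    exact dvd_sub (Dvd.dvd.mul_left hd _) (Dvd.dvd.mul_left hc _)
  have h2 : q ∣ 1 := by exact_mod_cast h1
  exact hq.one_lt.ne' (Nat.dvd_one.mp h2)

theorem not_dvd_zero_zero_of_mem_Gamma0 {M q : ℕ} (hq : q.Prime) (hqM : q ∣ M) (g₀ : Gamma0 M) :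
    ¬ (q : ℤ) ∣ (g₀ : SL(2, ℤ)) 0 0 := by
  intro hd
  have hc : (q : ℤ) ∣ (g₀ : SL(2, ℤ)) 1 0 :=
    dvd_trans (Int.natCast_dvd_natCast.mpr hqM) ((mem_Gamma0_iff_dvd _).mp g₀.2)
  have h1 : (q : ℤ) ∣ 1 := by
    rw [← SL2_det_eq (g₀ : SL(2, ℤ))]
    exact dvd_sub (Dvd.dvd.mul_right hd _) (Dvd.dvd.mul_left hc _)
  have h2 : q ∣ 1 := by exact_mod_cast h1
  exact hq.one_lt.ne' (Nat.dvd_one.mp h2)

/-! ### The transfer datum of the degeneracy map `α`, `q ∣ M` -/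

section AlphaQ

variable (M q : ℕ)

/-- the representatives of `Γ₀(M q) \ Γ₀(M)` for `q ∣ M`: `(1 0; -M b 1)` (`b < q`). -/
def alphaRepQ (b : Fin q) : Gamma0 M :=
  ⟨lowerUni ((M : ℤ) * (-((b : ℕ) : ℤ))), lowerUni_mem M _⟩

theorem alphaRepQ_one_zero (b : Fin q) :
    ((alphaRepQ M q b : Gamma0 M) : SL(2, ℤ)) 1 0 = (M : ℤ) * (-((b : ℕ) : ℤ)) := rfl

theorem alphaRepQ_one_one (b : Fin q) : ((alphaRepQ M q b : Gamma0 M) : SL(2, ℤ)) 1 1 = 1 := rfl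

variable {M q}

theorem alphaQ_cover (hq : q.Prime) (hqM : q ∣ M) (g₀ : Gamma0 M) :
    ∃ j : Fin q, ((M * q : ℕ) : ℤ) ∣ ((g₀ * (alphaRepQ M q j)⁻¹ : Gamma0 M) : SL(2, ℤ)) 1 0 := by
  obtain ⟨c', hc'⟩ := (mem_Gamma0_iff_dvd _).mp g₀.2
  have hu : ¬ (q : ℤ) ∣ -((g₀ : SL(2, ℤ)) 1 1) := by
    rw [dvd_neg]
    exact not_dvd_one_one_of_mem_Gamma0 hq hqM g₀
  obtain ⟨b, hb⟩ := exists_fin_dvd_sub_mul hq c' _ hu
  refine ⟨b, ?_⟩
  rw [Subgroup.coe_mul, Subgroup.coe_inv, SL2_mul_inv_one_zero, alphaRepQ_one_zero,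
    alphaRepQ_one_one, hc']
  have : (M : ℤ) * c' * 1 - (g₀ : SL(2, ℤ)) 1 1 * ((M : ℤ) * (-((b : ℕ) : ℤ))) =
      (M : ℤ) * (c' - -((g₀ : SL(2, ℤ)) 1 1) * ((b : ℕ) : ℤ)) := by ring
  rw [this]
  push_cast
  exact mul_dvd_mul_left _ hb

theorem alphaQ_distinct (hM : M ≠ 0) (i j : Fin q)
    (hP : ((M * q : ℕ) : ℤ) ∣
      ((alphaRepQ M q i * (alphaRepQ M q j)⁻¹ : Gamma0 M) : SL(2, ℤ)) 1 0) : i = j := by
  rw [Subgroup.coe_mul, Subgroup.coe_inv, SL2_mul_inv_one_zero, alphaRepQ_one_zero,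
    alphaRepQ_one_one, alphaRepQ_one_zero, alphaRepQ_one_one] at hP
  have h2 : (M : ℤ) * (-((i : ℕ) : ℤ)) * 1 - 1 * ((M : ℤ) * (-((j : ℕ) : ℤ))) =
      (M : ℤ) * (((j : ℕ) : ℤ) - ((i : ℕ) : ℤ)) := by ring
  rw [h2] at hP
  push_cast at hP
  have hM' : (M : ℤ) ≠ 0 := by exact_mod_cast hM
  exact (fin_eq_of_dvd_sub j i ((mul_dvd_mul_iff_left hM').mp hP)).symm

variable (M q)

/-- **the coset representatives of the degeneracy map `α`, `q ∣ M`,** as a `ConjReps`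
(`σ = 1`). -/
noncomputable def conjRepsAlphaQ (hq : q.Prime) (hqM : q ∣ M) (hM : M ≠ 0) :
    ConjReps (Gamma0 (M * q)) (Gamma0 M) (GL (Fin 2) ℝ) (Fin q) where
  e' := gammaEmb (M * q)
  e'_inj := gammaEmb_injective (M * q)
  e := gammaEmb M
  e_inj := gammaEmb_injective M
  σ := 1
  g := alphaRepQ M q
  P m := ((M * q : ℕ) : ℤ) ∣ (m : SL(2, ℤ)) 1 0
  conj m hm := by
    have hm' : (m : SL(2, ℤ)) ∈ Gamma0 (M * q) := (mem_Gamma0_iff_dvd _).mpr hm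
    exact ⟨⟨(m : SL(2, ℤ)), hm'⟩, by rw [one_mul, mul_one]; rfl⟩
  cover g₀ := alphaQ_cover hq hqM g₀
  distinct i j hP := alphaQ_distinct hM i j hP
  conj_back γ' := by
    have h1 : ((M * q : ℕ) : ℤ) ∣ (γ' : SL(2, ℤ)) 1 0 := (mem_Gamma0_iff_dvd _).mp γ'.2
    have hm' : (γ' : SL(2, ℤ)) ∈ Gamma0 M := by
      refine (mem_Gamma0_iff_dvd _).mpr (dvd_trans ?_ h1)
      push_cast
      exact dvd_mul_right _ _
    exact ⟨⟨(γ' : SL(2, ℤ)), hm'⟩, h1, by rw [one_mul, mul_one]; rfl⟩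

/-- **the transfer datum of the degeneracy map `α`, `q ∣ M`**: the cosets
`Γ₀(M q) (1 0; -M b 1)`. -/
noncomputable def xferAlphaQ (hq : q.Prime) (hqM : q ∣ M) (hM : M ≠ 0) :
    TransferDatum (Gamma0 (M * q)) (Gamma0 M) (GL (Fin 2) ℝ) (Fin q) :=
  (conjRepsAlphaQ M q hq hqM hM).toTransferDatum

@[simp] theorem xferAlphaQ_e' (hq : q.Prime) (hqM : q ∣ M) (hM : M ≠ 0) :
    (xferAlphaQ M q hq hqM hM).e' = gammaEmb (M * q) := rfl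

@[simp] theorem xferAlphaQ_e (hq : q.Prime) (hqM : q ∣ M) (hM : M ≠ 0) :
    (xferAlphaQ M q hq hqM hM).e = gammaEmb M := rfl

theorem xferAlphaQ_α (hq : q.Prime) (hqM : q ∣ M) (hM : M ≠ 0) (b : Fin q) :
    (xferAlphaQ M q hq hqM hM).α b =
      ((lowerUni ((M : ℤ) * (-((b : ℕ) : ℤ))) : SL(2, ℤ)) : GL (Fin 2) ℝ) := by
  show (1 : GL (Fin 2) ℝ) * gammaEmb M (alphaRepQ M q b) = _
  rw [one_mul]; rfl

theorem det_xferAlphaQ_pos (hq : q.Prime) (hqM : q ∣ M) (hM : M ≠ 0) (b : Fin q) :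
    0 < (((xferAlphaQ M q hq hqM hM).α b).det : ℝ) := by
  rw [xferAlphaQ_α]
  exact det_mapGL_pos _

end AlphaQ

/-! ### The transfer datum of the degeneracy map `β`, `q ∣ M` -/

section BetaQ

variable (M q : ℕ)

/-- the representatives of `(Γ₀(M) ∩ Γ⁰(q)) \ Γ₀(M)` for `q ∣ M`: `(1 b; 0 1)` (`b < q`). -/
def betaRepQ (b : Fin q) : Gamma0 M := ⟨upperUni ((b : ℕ) : ℤ), upperUni_mem M _⟩

theorem betaRepQ_zero_zero (b : Fin q) : ((betaRepQ M q b : Gamma0 M) : SL(2, ℤ)) 0 0 = 1 := rfl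

theorem betaRepQ_zero_one (b : Fin q) :
    ((betaRepQ M q b : Gamma0 M) : SL(2, ℤ)) 0 1 = ((b : ℕ) : ℤ) := rfl

variable {M q}

theorem betaQ_cover (hq : q.Prime) (hqM : q ∣ M) (g₀ : Gamma0 M) :
    ∃ j : Fin q, (q : ℤ) ∣ ((g₀ * (betaRepQ M q j)⁻¹ : Gamma0 M) : SL(2, ℤ)) 0 1 := by
  obtain ⟨b, hb⟩ := exists_fin_dvd_sub_mul hq ((g₀ : SL(2, ℤ)) 0 1) _
    (not_dvd_zero_zero_of_mem_Gamma0 hq hqM g₀)
  refine ⟨b, ?_⟩
  rw [Subgroup.coe_mul, Subgroup.coe_inv, SL2_mul_inv_zero_one, betaRepQ_zero_zero,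
    betaRepQ_zero_one, mul_one]
  exact hb

theorem betaQ_distinct (i j : Fin q)
    (hP : (q : ℤ) ∣ ((betaRepQ M q i * (betaRepQ M q j)⁻¹ : Gamma0 M) : SL(2, ℤ)) 0 1) :
    i = j := by
  rw [Subgroup.coe_mul, Subgroup.coe_inv, SL2_mul_inv_zero_one, betaRepQ_zero_zero,
    betaRepQ_zero_one, betaRepQ_zero_zero, betaRepQ_zero_one, mul_one, one_mul] at hP
  exact fin_eq_of_dvd_sub i j hP

variable (M q)

/-- **the coset representatives of the degeneracy map `β`, `q ∣ M`,** as a `ConjReps`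
(`σ = diag(1, q)`). -/
noncomputable def conjRepsBetaQ (hq : q.Prime) (hqM : q ∣ M) :
    ConjReps (Gamma0 (M * q)) (Gamma0 M) (GL (Fin 2) ℝ) (Fin q) where
  e' := gammaEmb (M * q)
  e'_inj := gammaEmb_injective (M * q)
  e := gammaEmb M
  e_inj := gammaEmb_injective M
  σ := heckeMatrix q 0
  g := betaRepQ M q
  P m := (q : ℤ) ∣ (m : SL(2, ℤ)) 0 1
  conj m hm := by
    have hm' : xferdConjDiag q (m : SL(2, ℤ)) hm ∈ Gamma0 (M * q) := by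
      rw [mem_Gamma0_iff_dvd]
      show ((M * q : ℕ) : ℤ) ∣ (q : ℤ) * (m : SL(2, ℤ)) 1 0
      push_cast
      rw [mul_comm (M : ℤ)]
      exact mul_dvd_mul_left _ ((mem_Gamma0_iff_dvd _).mp m.2)
    refine ⟨⟨xferdConjDiag q (m : SL(2, ℤ)) hm, hm'⟩, ?_⟩
    exact (((isZMat_heckeMatrix_zero hq.ne_zero).mul (isZMat_gammaEmb m)).eq_iff
      ((isZMat_gammaEmb _).mul (isZMat_heckeMatrix_zero hq.ne_zero))).mpr
      (utZ_mul_xferdConjDiag q _ hm)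
  cover g₀ := betaQ_cover hq hqM g₀
  distinct i j hP := betaQ_distinct i j hP
  conj_back γ' := by
    have h1 : ((M * q : ℕ) : ℤ) ∣ (γ' : SL(2, ℤ)) 1 0 := (mem_Gamma0_iff_dvd _).mp γ'.2
    push_cast at h1
    have hq' : (q : ℤ) ∣ (γ' : SL(2, ℤ)) 1 0 := dvd_trans (dvd_mul_left _ _) h1
    have hm' : xferdConjDiagInv q (γ' : SL(2, ℤ)) hq' ∈ Gamma0 M := by
      rw [mem_Gamma0_iff_dvd]
      show (M : ℤ) ∣ (γ' : SL(2, ℤ)) 1 0 / (q : ℤ)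
      obtain ⟨t, ht⟩ := h1
      have hq0 : (q : ℤ) ≠ 0 := by exact_mod_cast hq.ne_zero
      refine ⟨t, ?_⟩
      rw [ht, mul_comm (M : ℤ), mul_assoc, Int.mul_ediv_cancel_left _ hq0]
    refine ⟨⟨xferdConjDiagInv q (γ' : SL(2, ℤ)) hq', hm'⟩, ?_, ?_⟩
    · show (q : ℤ) ∣ (q : ℤ) * (γ' : SL(2, ℤ)) 0 1
      exact dvd_mul_right _ _
    · exact (((isZMat_gammaEmb γ').mul (isZMat_heckeMatrix_zero hq.ne_zero)).eq_iff
        ((isZMat_heckeMatrix_zero hq.ne_zero).mul (isZMat_gammaEmb _))).mpr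
        (utZ_mul_xferdConjDiagInv q _ hq').symm

/-- **the transfer datum of the degeneracy map `β`, `q ∣ M`**: the cosets
`Γ₀(M q) (1 b; 0 q)`. -/
noncomputable def xferBetaQ (hq : q.Prime) (hqM : q ∣ M) :
    TransferDatum (Gamma0 (M * q)) (Gamma0 M) (GL (Fin 2) ℝ) (Fin q) :=
  (conjRepsBetaQ M q hq hqM).toTransferDatum

@[simp] theorem xferBetaQ_e' (hq : q.Prime) (hqM : q ∣ M) :
    (xferBetaQ M q hq hqM).e' = gammaEmb (M * q) := rfl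

@[simp] theorem xferBetaQ_e (hq : q.Prime) (hqM : q ∣ M) :
    (xferBetaQ M q hq hqM).e = gammaEmb M := rfl

theorem xferBetaQ_α (hq : q.Prime) (hqM : q ∣ M) (b : Fin q) :
    (xferBetaQ M q hq hqM).α b = heckeMatrix q (b : ℕ) := by
  show heckeMatrix q 0 * gammaEmb M (betaRepQ M q b) = _
  refine (((isZMat_heckeMatrix_zero hq.ne_zero).mul (isZMat_gammaEmb _)).eq_iff
    (isZMat_heckeRep hq.ne_zero (some b))).mpr ?_
  show utZ 1 0 q * !![1, ((b : ℕ) : ℤ); 0, 1] = utZ 1 ((b : ℕ) : ℤ) q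
  ext i j
  fin_cases i <;> fin_cases j <;> simp [utZ, Matrix.mul_apply, Fin.sum_univ_two]

theorem det_xferBetaQ_pos (hq : q.Prime) (hqM : q ∣ M) (b : Fin q) :
    0 < (((xferBetaQ M q hq hqM).α b).det : ℝ) := by
  rw [xferBetaQ_α]
  exact det_heckeMatrix_pos q b

end BetaQ

/-! ### Commutation with `T_ℓ`, `ℓ ∤ M q` -/

section CommQ

variable (M q : ℕ)

theorem isCoprime_repD_of_not_dvd {ℓ N : ℕ} (hℓ : ℓ.Prime) (hℓN : ¬ ℓ ∣ N) (k : Option (Fin ℓ)) :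
    IsCoprime ((N : ℕ) : ℤ) (repD ℓ k) := by
  have h2 : IsCoprime ((N : ℕ) : ℤ) ((ℓ : ℕ) : ℤ) := by
    rw [Int.isCoprime_iff_gcd_eq_one, Int.gcd_natCast_natCast]
    exact (Nat.Coprime.symm ((Nat.Prime.coprime_iff_not_dvd hℓ).mpr hℓN))
  cases k with
  | none => exact isCoprime_one_right
  | some b => exact h2

/-- **`tr_α ∘ T_ℓ = T_ℓ ∘ tr_α`** for every prime `ℓ ∤ M q` (`q ∣ M`). -/
theorem xferAlphaQ_transferGrp_heckeGrpP (hq : q.Prime) (hqM : q ∣ M) (hM : M ≠ 0)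
    (ℓ : Nat.Primes) (hℓ : ¬ (ℓ : ℕ) ∣ M * q) (A : Type*) [AddCommGroup A]
    (ψ : Additive (Gamma0 (M * q)) →+ A) :
    (xferAlphaQ M q hq hqM hM).transferGrp A (heckeGrpP (M * q) ℓ A ψ) =
      heckeGrpP M ℓ A ((xferAlphaQ M q hq hqM hM).transferGrp A ψ) := by
  have hℓM : ¬ (ℓ : ℕ) ∣ M := fun hd => hℓ (Dvd.dvd.mul_right hd q)
  rw [heckeGrpP_of_not_dvd A hℓ, heckeGrpP_of_not_dvd A hℓM]
  refine (conjRepsAlphaQ M q hq hqM hM).transferGrp_heckeGrp_comm (heckeDatumT (M * q) ℓ ℓ.2 hℓ)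
    (heckeDatumT M ℓ ℓ.2 hℓM) rfl rfl ?_ ?_ ψ
  · intro k g₀
    refine ⟨(heckeDatumT M ℓ ℓ.2 hℓM).perm g₀ k, (heckeDatumT M ℓ ℓ.2 hℓM).cocycle g₀ k, ?_⟩
    show heckeRep ℓ k * 1 * gammaEmb M g₀ = 1 * gammaEmb M _ * heckeRep ℓ _
    rw [mul_one, one_mul]
    exact (heckeDatumT M ℓ ℓ.2 hℓM).spec g₀ k
  · intro k k₂ g₀ δ hk
    change heckeRep ℓ k * 1 * gammaEmb M g₀ = gammaEmb (M * q) δ * heckeRep ℓ k₂ * 1 at hk
    rw [mul_one, mul_one] at hk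
    have h1 := (heckeRep_mul_eq_iff ℓ.2.ne_zero k k₂ (g₀ : SL(2, ℤ)) (δ : SL(2, ℤ))).mp hk
    rw [heckeRepZ, heckeRepZ, utZ_mul_eq_iff] at h1
    obtain ⟨-, -, h10, -⟩ := h1
    have h2 : ((M * q : ℕ) : ℤ) ∣ (δ : SL(2, ℤ)) 1 0 := (mem_Gamma0_iff_dvd _).mp δ.2
    have h3 : ((M * q : ℕ) : ℤ) ∣ repD ℓ k * (g₀ : SL(2, ℤ)) 1 0 := by
      rw [h10]
      exact Dvd.dvd.mul_right h2 _
    show ((M * q : ℕ) : ℤ) ∣ (g₀ : SL(2, ℤ)) 1 0
    exact (isCoprime_repD_of_not_dvd ℓ.2 hℓ k).dvd_of_dvd_mul_left h3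

/-- **`tr_β ∘ T_ℓ = T_ℓ ∘ tr_β`** for every prime `ℓ ∤ M q` (`q ∣ M`). -/
theorem xferBetaQ_transferGrp_heckeGrpP (hq : q.Prime) (hqM : q ∣ M) (ℓ : Nat.Primes)
    (hℓ : ¬ (ℓ : ℕ) ∣ M * q) (A : Type*) [AddCommGroup A]
    (ψ : Additive (Gamma0 (M * q)) →+ A) :
    (xferBetaQ M q hq hqM).transferGrp A (heckeGrpP (M * q) ℓ A ψ) =
      heckeGrpP M ℓ A ((xferBetaQ M q hq hqM).transferGrp A ψ) := by
  have hℓM : ¬ (ℓ : ℕ) ∣ M := fun hd => hℓ (Dvd.dvd.mul_right hd q)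
  have hne : q ≠ (ℓ : ℕ) := fun he => hℓ (he ▸ dvd_mul_left q M)
  have hqp : Prime (q : ℤ) := Nat.prime_iff_prime_int.mp hq
  have hσ := isZMat_heckeMatrix_zero hq.ne_zero
  rw [heckeGrpP_of_not_dvd A hℓ, heckeGrpP_of_not_dvd A hℓM]
  refine (conjRepsBetaQ M q hq hqM).transferGrp_heckeGrp_comm (heckeDatumT (M * q) ℓ ℓ.2 hℓ)
    (heckeDatumT M ℓ ℓ.2 hℓM) rfl rfl ?_ ?_ ψ
  · intro k g₀
    show ∃ (b : Option (Fin ℓ)) (γ : Gamma0 M),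
      heckeRep ℓ k * heckeMatrix q 0 * gammaEmb M g₀ =
        heckeMatrix q 0 * gammaEmb M γ * heckeRep ℓ b
    obtain ⟨a, b, d, ha, hd, had, hk⟩ := heckeRepZ_eq_utZ ℓ.2.pos k
    obtain ⟨δ, a', b', d', ha', hd', had', hb0, hbd, h00, h01, h10, h11⟩ :=
      Fermat.Agent.Igusa.exists_hnf a (b * q) d ha hd (g₀ : SL(2, ℤ))
    obtain ⟨j, hj⟩ := exists_heckeRepZ_eq ℓ.2 a' b' d' ha' hd' (had'.trans had) hb0 hbd
    have hδ : δ ∈ Gamma0 M := by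
      rw [mem_Gamma0_iff_dvd]
      have h1 : (M : ℤ) ∣ δ 1 0 * a' := by
        rw [← h10]
        exact Dvd.dvd.mul_left ((mem_Gamma0_iff_dvd _).mp g₀.2) _
      have hcop : IsCoprime (M : ℤ) a' := by
        have h2 : IsCoprime (M : ℤ) ((ℓ : ℕ) : ℤ) := by
          rw [Int.isCoprime_iff_gcd_eq_one, Int.gcd_natCast_natCast]
          exact (Nat.Coprime.symm ((Nat.Prime.coprime_iff_not_dvd ℓ.2).mpr hℓM))
        exact h2.of_isCoprime_of_dvd_right ⟨d', by rw [had', had]⟩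
      exact hcop.dvd_of_dvd_mul_right h1
    refine ⟨j, ⟨δ, hδ⟩, ?_⟩
    refine ((((isZMat_heckeRep ℓ.2.ne_zero k).mul hσ).mul (isZMat_gammaEmb g₀)).eq_iff
      ((hσ.mul (isZMat_gammaEmb _)).mul (isZMat_heckeRep ℓ.2.ne_zero j))).mpr ?_
    show heckeRepZ ℓ k * utZ 1 0 q * (g₀ : SL(2, ℤ)) =
      utZ 1 0 q * (δ : Matrix (Fin 2) (Fin 2) ℤ) * heckeRepZ ℓ j
    have e1 : heckeRepZ ℓ k * utZ 1 0 q = utZ 1 0 q * utZ a (b * q) d := by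
      rw [hk, utZ_mul_utZ, utZ_mul_utZ]
      congr 1 <;> ring
    have e2 : utZ a (b * q) d * ((g₀ : SL(2, ℤ)) : Matrix (Fin 2) (Fin 2) ℤ) =
        (δ : Matrix (Fin 2) (Fin 2) ℤ) * utZ a' b' d' := by
      rw [utZ_mul_eq_iff]
      exact ⟨h00, h01, h10, h11⟩
    rw [e1, mul_assoc, e2, hj, mul_assoc]
  · intro k k₂ g₀ δ hk
    change heckeRep ℓ k * heckeMatrix q 0 * gammaEmb M g₀ =
      gammaEmb (M * q) δ * heckeRep ℓ k₂ * heckeMatrix q 0 at hk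
    have h1 := ((((isZMat_heckeRep ℓ.2.ne_zero k).mul hσ).mul (isZMat_gammaEmb g₀)).eq_iff
      (((isZMat_gammaEmb δ).mul (isZMat_heckeRep ℓ.2.ne_zero k₂)).mul hσ)).mp hk
    rw [heckeRepZ, heckeRepZ, utZ_mul_utZ, mul_assoc, utZ_mul_utZ, utZ_mul_eq_iff] at h1
    obtain ⟨-, h01, -, -⟩ := h1
    have h3 : (q : ℤ) ∣ repA ℓ k * 1 * (g₀ : SL(2, ℤ)) 0 1 := by
      have h4 : repA ℓ k * 1 * (g₀ : SL(2, ℤ)) 0 1 =
          (δ : SL(2, ℤ)) 0 0 * (repA ℓ k₂ * 0 + repB ℓ k₂ * (q : ℤ)) +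
            (δ : SL(2, ℤ)) 0 1 * (repD ℓ k₂ * (q : ℤ)) -
          (repA ℓ k * 0 + repB ℓ k * (q : ℤ)) * (g₀ : SL(2, ℤ)) 1 1 := by
        rw [← h01]; ring
      rw [h4]
      refine dvd_sub (dvd_add ?_ ?_) ?_
      · exact Dvd.dvd.mul_left (dvd_add (Dvd.dvd.mul_left (dvd_zero _) _) (dvd_mul_left _ _)) _
      · exact Dvd.dvd.mul_left (dvd_mul_left _ _) _
      · exact Dvd.dvd.mul_right
          (dvd_add (Dvd.dvd.mul_left (dvd_zero _) _) (dvd_mul_left _ _)) _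
    rw [mul_one] at h3
    exact (hqp.dvd_or_dvd h3).resolve_left (not_dvd_repA ℓ.2 hq hne k)

end CommQ

/-! ### The analytic products -/

section ProdQ

variable (M q : ℕ)

/-- **`∏ᵢ u ∘ αᵢ` for the `β`-datum, `q ∣ M`, is the product of helper5's analytic norm formula**
(`realN_norm_heckeBetaBar_of_dvd`). -/
theorem transferProd_xferBetaQ (hq : q.Prime) (hqM : q ∣ M) (u : MerH) :
    transferProd (xferBetaQ M q hq hqM) (det_xferBetaQ_pos M q hq hqM) u =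
      ∏ b : Fin q, MerH.compGL (heckeMatrix q b) (det_heckeMatrix_pos q b) u := by
  unfold transferProd
  exact Finset.prod_congr rfl fun b _ => compGL_eq_of_eq (xferBetaQ_α M q hq hqM b) _ _ u

/-- **`∏ᵢ u ∘ αᵢ` for the `α`-datum, `q ∣ M`**: the product over the coset representatives
`(1 0; -M b 1)` of `Γ₀(M q) \ Γ₀(M)`. -/
theorem transferProd_xferAlphaQ (hq : q.Prime) (hqM : q ∣ M) (hM : M ≠ 0) (u : MerH) :
    transferProd (xferAlphaQ M q hq hqM hM) (det_xferAlphaQ_pos M q hq hqM hM) u =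
      ∏ b : Fin q, MerH.comp (lowerUni ((M : ℤ) * (-((b : ℕ) : ℤ)))) u := by
  unfold transferProd
  exact Finset.prod_congr rfl fun b _ => by
    rw [compGL_eq_of_eq (xferAlphaQ_α M q hq hqM hM b) _ (det_mapGL_pos _) u, MerH.compGL_mapGL]

end ProdQ

/-! ### Corollaries in the consumer's shape -/

section CorQ

variable (M q : ℕ)

theorem xferAlphaQ_mem_parabolicHoms (hq : q.Prime) (hqM : q ∣ M) (hM : M ≠ 0) (R : Type*)
    [Semiring R] {A : Type*} [AddCommGroup A] [Module R A] {ψ : Additive (Gamma0 (M * q)) →+ A}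
    (hψ : ψ ∈ parabolicHoms R (Gamma0 (M * q)) A) :
    (xferAlphaQ M q hq hqM hM).transferGrp A ψ ∈ parabolicHoms R (Gamma0 M) A :=
  transferGrp_mem_parabolicHoms _ rfl rfl R hψ

theorem xferBetaQ_mem_parabolicHoms (hq : q.Prime) (hqM : q ∣ M) (R : Type*) [Semiring R]
    {A : Type*} [AddCommGroup A] [Module R A] {ψ : Additive (Gamma0 (M * q)) →+ A}
    (hψ : ψ ∈ parabolicHoms R (Gamma0 (M * q)) A) :
    (xferBetaQ M q hq hqM).transferGrp A ψ ∈ parabolicHoms R (Gamma0 M) A :=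
  transferGrp_mem_parabolicHoms _ rfl rfl R hψ

end CorQ

end Fermat.Agent.GR
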