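/-
S36, package [XFERD2] (helper4), part 2: **the analytic norm formula along `α` for `ℓ ∣ N`**:
for `z ∈ F_{N ℓ}`

  `(N_{F_{Nℓ}/αF_N} z)(τ) = ∏_{b < ℓ} z((1 0; -N b 1) τ)`,

deduced from helper5's formula along `β` (`realN_norm_heckeBetaBar_of_dvd`) through the Fricke
involutions: `N_α z = W_N (N_β (W_{Nℓ} z))`.
-/
import Mathlib
import Fermat.Agent.GR.ANORM_helper5_Main
import Fermat.Agent.GR.XFERQ_helper4_Gamma0

set_option autoImplicit false
set_option linter.unusedSectionVars false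
set_option linter.unusedVariables false
set_option linter.style.haveILetI false

open UpperHalfPlane hiding I
open ModularCurve AlgebraicCurve ModularForm Fermat.Agent.GR
open scoped MatrixGroups

namespace Fermat.Agent.X0N

/-- `W_{Nℓ} ∘ (1 b; 0 ℓ) ∘ W_N = (1 0; -N b 1)` on `ℍ`. -/
theorem frickeMatrix_smul_heckeMatrix_smul_frickeMatrix_smul (N ℓ : ℕ) [NeZero N] [NeZero ℓ]
    [NeZero (N * ℓ)] (b : ℕ) (τ : ℍ) :
    frickeMatrix (N * ℓ) • ((heckeMatrix ℓ b * frickeMatrix N) • τ) =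
      ((lowerUni ((N : ℤ) * (-(b : ℤ))) : SL(2, ℤ)) : GL (Fin 2) ℝ) • τ := by
  have hN : (N : ℂ) ≠ 0 := by exact_mod_cast NeZero.ne N
  have hℓ : (ℓ : ℂ) ≠ 0 := by exact_mod_cast NeZero.ne ℓ
  have hτ : (τ : ℂ) ≠ 0 := UpperHalfPlane.ne_zero τ
  apply UpperHalfPlane.ext
  rw [mul_smul, coe_frickeMatrix_smul, coe_heckeMatrix_smul (NeZero.ne ℓ), coe_frickeMatrix_smul,
    UpperHalfPlane.coe_smul_of_det_pos (det_mapGL_pos _)]
  have hden : (UpperHalfPlane.denom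
      ((lowerUni ((N : ℤ) * (-(b : ℤ))) : SL(2, ℤ)) : GL (Fin 2) ℝ) τ) ≠ 0 :=
    UpperHalfPlane.denom_ne_zero _ τ
  have hnum : UpperHalfPlane.num
      ((lowerUni ((N : ℤ) * (-(b : ℤ))) : SL(2, ℤ)) : GL (Fin 2) ℝ) τ = (τ : ℂ) := by
    simp [UpperHalfPlane.num, lowerUni]
  have hden' : UpperHalfPlane.denom
      ((lowerUni ((N : ℤ) * (-(b : ℤ))) : SL(2, ℤ)) : GL (Fin 2) ℝ) τ =
        -((N : ℂ) * (b : ℂ)) * (τ : ℂ) + 1 := by
    simp [UpperHalfPlane.denom, lowerUni]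
  rw [hden'] at hden
  rw [hnum, hden']
  have h1 : -1 / ((N : ℂ) * (τ : ℂ)) + (b : ℂ) = (-1 + (N : ℂ) * (b : ℂ) * τ) / ((N : ℂ) * τ) := by
    field_simp
  have h2 : -1 + (N : ℂ) * (b : ℂ) * τ ≠ 0 := by
    intro h0
    apply hden
    linear_combination -h0
  have h3 : 1 - (N : ℂ) * (b : ℂ) * τ ≠ 0 := by
    intro h0
    apply hden
    linear_combination h0
  have h4 : -((N : ℂ) * (b : ℂ)) * (τ : ℂ) + 1 = 1 - (N : ℂ) * (b : ℂ) * τ := by ring
  push_cast
  rw [h1, h4]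
  field_simp
  ring

section NormAlphaQ

variable {k : Type*} [Field k] [Algebra ℚ k] [Algebra k ℂ] [IsScalarTower ℚ k ℂ]
  (N ℓ : ℕ) [NeZero N] [NeZero ℓ] [NeZero (N * ℓ)]

/-- `N_α z = W_N (N_β (W_{Nℓ} z))`. -/
theorem norm_heckeAlphaBar_eq_frickeN_norm_heckeBetaBar
    (z : ↥(laurentBaseChange k (modularFunctionFieldFull (N * ℓ)))) :
    @Algebra.norm ↥(laurentBaseChange k (modularFunctionFieldFull N)) _ _ _
        (algebraAlong (heckeAlphaBar k N ℓ)) z =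
      frickeN (algebraMap k ℂ) N
        (@Algebra.norm ↥(laurentBaseChange k (modularFunctionFieldFull N)) _ _ _
          (algebraAlong (heckeBetaBar k N ℓ)) (frickeN (algebraMap k ℂ) (N * ℓ) z)) := by
  have key := @Algebra.norm_eq_of_equiv_equiv
    ↥(laurentBaseChange k (modularFunctionFieldFull N))
    ↥(laurentBaseChange k (modularFunctionFieldFull (N * ℓ)))
    ↥(laurentBaseChange k (modularFunctionFieldFull N))
    ↥(laurentBaseChange k (modularFunctionFieldFull (N * ℓ))) _ _ _ _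
    (algebraAlong (heckeAlphaBar k N ℓ)) (algebraAlong (heckeBetaBar k N ℓ))
    (frickeNEquiv (algebraMap k ℂ) N) (frickeNEquiv (algebraMap k ℂ) (N * ℓ)) (by
      refine RingHom.ext fun r => ?_
      show heckeBetaBar k N ℓ (frickeN (algebraMap k ℂ) N r) =
        frickeN (algebraMap k ℂ) (N * ℓ) (heckeAlphaBar k N ℓ r)
      rw [frickeN_heckeAlphaBar]) z
  rw [key]
  apply (frickeNEquiv (algebraMap k ℂ) N).injective
  rw [RingEquiv.apply_symm_apply, frickeNEquiv_apply, frickeNEquiv_apply, frickeN_frickeN]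

/-- **the analytic norm formula along `α`, `ℓ ∣ N`**: for `z ∈ F_{N ℓ}`,
`(N_{F_{Nℓ}/αF_N} z)(τ) = ∏_{b < ℓ} z((1 0; -N b 1) τ)`. -/
theorem realN_norm_heckeAlphaBar_of_dvd (hℓ : ℓ.Prime) (hℓN : ℓ ∣ N)
    (z : ↥(laurentBaseChange k (modularFunctionFieldFull (N * ℓ)))) :
    letI := algebraAlong (heckeAlphaBar k N ℓ)
    realN (algebraMap k ℂ) N
        (Algebra.norm ↥(laurentBaseChange k (modularFunctionFieldFull N)) z) =
      ∏ b : Fin ℓ, MerH.comp (lowerUni ((N : ℤ) * (-((b : ℕ) : ℤ))))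
        (realN (algebraMap k ℂ) (N * ℓ) z) := by
  show realN (algebraMap k ℂ) N
      (@Algebra.norm ↥(laurentBaseChange k (modularFunctionFieldFull N)) _ _ _
        (algebraAlong (heckeAlphaBar k N ℓ)) z) = _
  rw [norm_heckeAlphaBar_eq_frickeN_norm_heckeBetaBar N ℓ z, realN_frickeN]
  have hβ := realN_norm_heckeBetaBar_of_dvd (k := k) N ℓ hℓ hℓN
    (frickeN (algebraMap k ℂ) (N * ℓ) z)
  rw [hβ, realN_frickeN, map_prod]
  set u := realN (algebraMap k ℂ) (N * ℓ) z with hu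
  refine Finset.prod_congr rfl fun b _ => ?_
  unfold MerH.fricke
  have hdet : 0 < ((heckeMatrix ℓ (b : ℕ) * frickeMatrix N).det : ℝ) :=
    det_mul_pos_of_pos (det_frickeMatrix_pos N) (det_heckeMatrix_pos ℓ b)
  rw [MerH.compGL_compGL (frickeMatrix N) (heckeMatrix ℓ (b : ℕ)) (det_frickeMatrix_pos N)
      (det_heckeMatrix_pos ℓ b) hdet,
    MerH.compGL_compGL_of_smul hdet (det_frickeMatrix_pos (N * ℓ)) (det_mapGL_pos _)
      (frickeMatrix_smul_heckeMatrix_smul_frickeMatrix_smul N ℓ (b : ℕ)), MerH.compGL_mapGL]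

end NormAlphaQ

end Fermat.Agent.X0N
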