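/-
STAGE (I), package K9b (helper4): **two continuous two-dimensional representations of `G_ℚ` over a
noetherian local ring whose characteristic polynomials agree at all Frobenius elements outside a
finite set of primes have the same characteristic polynomial everywhere.**

Proof: modulo `𝔪 ^ n` both representations factor through a finite Galois group; by the Frobenius
density theorem (`Density/Open_helper4`) every `g` is, modulo the level subgroup, conjugate to a
power `φ ^ k` of a Frobenius element at a prime outside the given finite set; for `2 × 2` matrices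
over any commutative ring the characteristic polynomial of `M ^ k` is determined by that of `M`
(Cayley–Hamilton recursion for the traces of powers); Krull's intersection theorem finishes.
-/
import Mathlib
import Fermat.Agent.GR.DET_lead_Main

set_option autoImplicit false
set_option linter.unusedSectionVars false
set_option linter.style.haveILetI false

namespace Fermat.Agent.GR

open Polynomial Matrix Fermat.Agent.TW.Kill IsLocalRing

/-- `Ω = AlgebraicClosure ℚ`. -/
local notation "Ω" => AlgebraicClosure ℚ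
/-- `GQ = Gal(Ω/ℚ)`. -/
local notation "GQ" => (AlgebraicClosure ℚ ≃ₐ[ℚ] AlgebraicClosure ℚ)

section TwoByTwo

variable {R : Type*} [CommRing R]

/-- Cayley–Hamilton for `2 × 2` matrices: `M² = tr(M) M - det(M)`. -/
theorem sq_eq_trace_smul_sub_det_fin_two (M : Matrix (Fin 2) (Fin 2) R) :
    M ^ 2 = M.trace • M - M.det • (1 : Matrix (Fin 2) (Fin 2) R) := by
  ext i j
  fin_cases i <;> fin_cases j <;>
    simp [pow_two, Matrix.mul_apply, Fin.sum_univ_two, Matrix.trace_fin_two, Matrix.det_fin_two]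
      <;> ring

/-- the recursion `tr(M^{k+2}) = tr(M) tr(M^{k+1}) - det(M) tr(M^k)`. -/
theorem trace_pow_add_two_fin_two (M : Matrix (Fin 2) (Fin 2) R) (k : ℕ) :
    (M ^ (k + 2)).trace = M.trace * (M ^ (k + 1)).trace - M.det * (M ^ k).trace := by
  have h : M ^ (k + 2) = M.trace • M ^ (k + 1) - M.det • M ^ k := by
    rw [pow_add, sq_eq_trace_smul_sub_det_fin_two, mul_sub, Matrix.mul_smul, Matrix.mul_smul,
      mul_one, ← pow_succ]
  rw [h, Matrix.trace_sub, Matrix.trace_smul, Matrix.trace_smul, smul_eq_mul, smul_eq_mul]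

/-- the trace of a power of a `2 × 2` matrix only depends on the trace and the determinant. -/
theorem trace_pow_eq_of_trace_eq_of_det_eq {M₁ M₂ : Matrix (Fin 2) (Fin 2) R}
    (ht : M₁.trace = M₂.trace) (hd : M₁.det = M₂.det) (k : ℕ) :
    (M₁ ^ k).trace = (M₂ ^ k).trace := by
  induction k using Nat.strong_induction_on with
  | _ k ih =>
    match k with
    | 0 => simp
    | 1 => simpa using ht
    | k + 2 =>
      rw [trace_pow_add_two_fin_two, trace_pow_add_two_fin_two, ht, hd, ih (k + 1) (by omega),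
        ih k (by omega)]

/-- **the characteristic polynomial of a power of a `2 × 2` matrix only depends on the
characteristic polynomial.** -/
theorem charpoly_pow_eq_of_charpoly_eq {M₁ M₂ : Matrix (Fin 2) (Fin 2) R}
    (h : M₁.charpoly = M₂.charpoly) (k : ℕ) : (M₁ ^ k).charpoly = (M₂ ^ k).charpoly := by
  nontriviality R
  have ht : M₁.trace = M₂.trace := by
    rw [Matrix.trace_eq_neg_charpoly_coeff, Matrix.trace_eq_neg_charpoly_coeff, h]
  have hd : M₁.det = M₂.det := by
    rw [Matrix.det_eq_sign_charpoly_coeff, Matrix.det_eq_sign_charpoly_coeff, h]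
  rw [Matrix.charpoly_fin_two, Matrix.charpoly_fin_two,
    trace_pow_eq_of_trace_eq_of_det_eq ht hd k, Matrix.det_pow, Matrix.det_pow, hd]

/-- conjugate matrices have the same characteristic polynomial. -/
theorem charpoly_conj_eq {n : Type*} [Fintype n] [DecidableEq n] (U V M : Matrix n n R)
    (hUV : U * V = 1) : (U * M * V).charpoly = M.charpoly := by
  rw [Matrix.charpoly_mul_comm, ← mul_assoc, mul_eq_one_comm.mp hUV, one_mul]

end TwoByTwo

section Density

variable {R : Type} [CommRing R] [IsLocalRing R] (ρ₁ ρ₂ : GaloisRepAdic R)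

theorem matModHom_ker_isOpen (ρ : GaloisRepAdic R) (n : ℕ) :
    IsOpen ((matModHom ρ n).ker : Set GQ) := by
  obtain ⟨L, hL, h1⟩ := ρ.isAdicContinuous n
  haveI : FiniteDimensional ℚ L := hL
  refine Subgroup.isOpen_mono ?_ (IntermediateField.fixingSubgroup_isOpen L)
  intro σ hσ
  rw [IntermediateField.mem_fixingSubgroup_iff] at hσ
  exact MonoidHom.mem_ker.mpr (matModHom_eq_one_of_forall_mem ρ (h1 σ fun x hx => hσ x hx))

/-- the open normal subgroup on which both representations are trivial modulo `𝔪 ^ n`. -/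
noncomputable def pairLevelSubgroup (n : ℕ) : Subgroup GQ :=
  (matModHom ρ₁ n).ker ⊓ (matModHom ρ₂ n).ker

instance pairLevelSubgroup_normal (n : ℕ) : (pairLevelSubgroup ρ₁ ρ₂ n).Normal := by
  unfold pairLevelSubgroup
  infer_instance

theorem pairLevelSubgroup_isOpen (n : ℕ) : IsOpen (pairLevelSubgroup ρ₁ ρ₂ n : Set GQ) := by
  unfold pairLevelSubgroup
  rw [Subgroup.coe_inf]
  exact (matModHom_ker_isOpen ρ₁ n).inter (matModHom_ker_isOpen ρ₂ n)

theorem charpoly_matModHom (ρ : GaloisRepAdic R) (n : ℕ) (g : GQ) :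
    (matModHom ρ n g).charpoly =
      (LinearMap.charpoly (ρ.ρ g)).map (Ideal.Quotient.mk (maximalIdeal R ^ n)) := by
  rw [matModHom_apply, RingHom.mapMatrix_apply, Matrix.charpoly_map, charpoly_matHom]

theorem charpoly_matModHom_conj (ρ : GaloisRepAdic R) (n : ℕ) (τ g : GQ) :
    (matModHom ρ n (τ * g * τ⁻¹)).charpoly = (matModHom ρ n g).charpoly := by
  rw [map_mul, map_mul]
  exact charpoly_conj_eq _ _ _ (by rw [← map_mul, mul_inv_cancel, map_one])

variable {ρ₁ ρ₂}

/-- **equal characteristic polynomials at Frobenius elements outside a finite set imply equal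
characteristic polynomials modulo `𝔪 ^ n` everywhere** (Frobenius density). -/
theorem charpoly_matModHom_eq_of_forall_frobenius (T : Finset ℕ)
    (h : ∀ ℓ : ℕ, ℓ.Prime → ℓ ∉ T → ∀ P : ValuationSubring Ω, P.LiesOverPrime ℓ →
      ∀ σ : GQ, P.IsFrobeniusAt σ ℓ →
        LinearMap.charpoly (ρ₁.ρ σ) = LinearMap.charpoly (ρ₂.ρ σ))
    (n : ℕ) (g : GQ) : (matModHom ρ₁ n g).charpoly = (matModHom ρ₂ n g).charpoly := by
  set N := pairLevelSubgroup ρ₁ ρ₂ n with hN
  have hopen := pairLevelSubgroup_isOpen ρ₁ ρ₂ n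
  obtain ⟨q, hq, hqT, hall⟩ :=
    Fermat.Agent.Density.exists_prime_frobenius_conj_algClosure N hopen g T
  haveI : Fact q.Prime := ⟨hq⟩
  have hP₀ : (padicPlace q).LiesOverPrime q := padicPlace_liesOverPrime q
  obtain ⟨φ₀, hφ₀⟩ := exists_isFrobeniusAt (padicPlace q) hq hP₀
  obtain ⟨τ, hτ⟩ := (hall _ hP₀).2 φ₀ hφ₀
  haveI : IsGalois ℚ Ω := IsAlgClosure.isGalois ℚ Ω
  haveI : Finite (GQ ⧸ N) := Subgroup.quotient_finite_of_isOpen N hopen
  obtain ⟨k, -, hk⟩ := Fermat.Agent.Density.exists_coprime_pow_eq_of_zpowers_eq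
    (a := QuotientGroup.mk' N (τ * g * τ⁻¹)) (b := QuotientGroup.mk' N φ₀)
    (isOfFinOrder_of_finite _) hτ.symm
  rw [← map_pow] at hk
  set ν : GQ := (φ₀ ^ k)⁻¹ * (τ * g * τ⁻¹) with hν
  have hνN : ν ∈ N := by
    have := hk.symm
    rw [QuotientGroup.mk'_apply, QuotientGroup.mk'_apply, QuotientGroup.eq] at this
    exact this
  have hdecomp : τ * g * τ⁻¹ = φ₀ ^ k * ν := by rw [hν, mul_inv_cancel_left]
  have hνN' : matModHom ρ₁ n ν = 1 ∧ matModHom ρ₂ n ν = 1 := by
    rw [hN, pairLevelSubgroup, Subgroup.mem_inf, MonoidHom.mem_ker, MonoidHom.mem_ker] at hνN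
    exact hνN
  have hmat₁ : matModHom ρ₁ n (τ * g * τ⁻¹) = (matModHom ρ₁ n φ₀) ^ k := by
    rw [hdecomp, map_mul, hνN'.1, mul_one, map_pow]
  have hmat₂ : matModHom ρ₂ n (τ * g * τ⁻¹) = (matModHom ρ₂ n φ₀) ^ k := by
    rw [hdecomp, map_mul, hνN'.2, mul_one, map_pow]
  have hφ : (matModHom ρ₁ n φ₀).charpoly = (matModHom ρ₂ n φ₀).charpoly := by
    rw [charpoly_matModHom, charpoly_matModHom, h q hq hqT _ hP₀ φ₀ hφ₀]
  rw [← charpoly_matModHom_conj ρ₁ n τ g, ← charpoly_matModHom_conj ρ₂ n τ g, hmat₁, hmat₂]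
  exact charpoly_pow_eq_of_charpoly_eq hφ k

variable [IsNoetherianRing R]

/-- **K9b: two continuous two-dimensional representations of `G_ℚ` over a noetherian local ring
whose characteristic polynomials agree at all Frobenius elements outside a finite set of primes
have the same characteristic polynomial at every element of `G_ℚ`.** -/
theorem charpoly_eq_of_forall_frobenius (T : Finset ℕ)
    (h : ∀ ℓ : ℕ, ℓ.Prime → ℓ ∉ T → ∀ P : ValuationSubring Ω, P.LiesOverPrime ℓ →
      ∀ σ : GQ, P.IsFrobeniusAt σ ℓ →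
        LinearMap.charpoly (ρ₁.ρ σ) = LinearMap.charpoly (ρ₂.ρ σ))
    (g : GQ) : LinearMap.charpoly (ρ₁.ρ g) = LinearMap.charpoly (ρ₂.ρ g) := by
  ext i
  rw [← sub_eq_zero]
  refine eq_zero_of_forall_exists_mem_pow fun n₀ => ⟨n₀, le_rfl, ?_⟩
  have h1 := charpoly_matModHom_eq_of_forall_frobenius T h n₀ g
  rw [charpoly_matModHom, charpoly_matModHom] at h1
  have h2 := congrArg (fun f => Polynomial.coeff f i) h1
  simp only [Polynomial.coeff_map] at h2
  exact (Ideal.Quotient.eq (I := maximalIdeal R ^ n₀)).mp h2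

/-- equal traces everywhere. -/
theorem trace_eq_of_forall_frobenius (T : Finset ℕ)
    (h : ∀ ℓ : ℕ, ℓ.Prime → ℓ ∉ T → ∀ P : ValuationSubring Ω, P.LiesOverPrime ℓ →
      ∀ σ : GQ, P.IsFrobeniusAt σ ℓ →
        LinearMap.charpoly (ρ₁.ρ σ) = LinearMap.charpoly (ρ₂.ρ σ))
    (g : GQ) : ρ₁.trace g = ρ₂.trace g := by
  have h1 := charpoly_eq_of_forall_frobenius T h g
  rw [← charpoly_matHom, ← charpoly_matHom] at h1
  unfold GaloisRepAdic.trace
  rw [LinearMap.trace_eq_matrix_trace R (gBasis ρ₁), LinearMap.trace_eq_matrix_trace R (gBasis ρ₂),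
    ← matHom_apply, ← matHom_apply, Matrix.trace_eq_neg_charpoly_coeff,
    Matrix.trace_eq_neg_charpoly_coeff, h1]

/-- equal determinants everywhere. -/
theorem det_eq_of_forall_frobenius (T : Finset ℕ)
    (h : ∀ ℓ : ℕ, ℓ.Prime → ℓ ∉ T → ∀ P : ValuationSubring Ω, P.LiesOverPrime ℓ →
      ∀ σ : GQ, P.IsFrobeniusAt σ ℓ →
        LinearMap.charpoly (ρ₁.ρ σ) = LinearMap.charpoly (ρ₂.ρ σ))
    (g : GQ) : LinearMap.det (ρ₁.ρ g) = LinearMap.det (ρ₂.ρ g) := by
  have h1 := charpoly_eq_of_forall_frobenius T h g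
  rw [← charpoly_matHom, ← charpoly_matHom] at h1
  rw [← det_matHom, ← det_matHom, Matrix.det_eq_sign_charpoly_coeff,
    Matrix.det_eq_sign_charpoly_coeff, h1]

/-- if moreover `ρ₂` is unramified at `q`, the trace of `ρ₁` is invariant under translation by the
inertia groups at `q` (input of the Burnside/Carayol step K9c). -/
theorem trace_mul_eq_of_isUnramifiedAt (T : Finset ℕ)
    (h : ∀ ℓ : ℕ, ℓ.Prime → ℓ ∉ T → ∀ P : ValuationSubring Ω, P.LiesOverPrime ℓ →
      ∀ σ : GQ, P.IsFrobeniusAt σ ℓ →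
        LinearMap.charpoly (ρ₁.ρ σ) = LinearMap.charpoly (ρ₂.ρ σ))
    {q : ℕ} (hunr : ρ₂.IsUnramifiedAt q) {P : ValuationSubring Ω} (hP : P.LiesOverPrime q)
    {σ : GQ} (hσ : σ ∈ P.inertiaSubgroupIn ℚ) (g : GQ) :
    ρ₁.trace (σ * g) = ρ₁.trace g := by
  rw [trace_eq_of_forall_frobenius T h (σ * g), trace_eq_of_forall_frobenius T h g]
  unfold GaloisRepAdic.trace
  rw [map_mul, hunr P hP σ hσ, one_mul]

end Density

end Fermat.Agent.GR
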