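/-
STAGE (I), package PADIC, lead — part 1: a criterion for discrete valuation rings (no domain
hypothesis): a local ring whose maximal ideal is generated by a non-nilpotent element `π` and which
is `𝔪`-adically separated is a domain and a DVR.
-/
import Mathlib

set_option autoImplicit false
set_option linter.unusedSectionVars false
set_option linter.unusedVariables false
set_option linter.style.haveILetI false

namespace Fermat.Agent.GR

open IsLocalRing

section Crit

variable {A : Type*} [CommRing A] [IsLocalRing A] (π : A)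
  (hπ : maximalIdeal A = Ideal.span {π}) (hsep : IsHausdorff (maximalIdeal A) A)
  (hnil : ∀ n : ℕ, π ^ n ≠ 0)

include hπ in
theorem crit_pow_eq (n : ℕ) : maximalIdeal A ^ n = Ideal.span {π ^ n} := by
  rw [hπ, Ideal.span_singleton_pow]

include hπ hsep in
/-- every nonzero element is a unit times a power of `π` -/
theorem crit_exists_eq {x : A} (hx : x ≠ 0) : ∃ (n : ℕ) (u : A), IsUnit u ∧ x = π ^ n * u := by
  classical
  have h1 : ∃ n : ℕ, x ∉ maximalIdeal A ^ n := by
    by_contra hcon
    push Not at hcon
    apply hx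
    apply hsep.haus'
    intro n
    rw [SModEq.zero, smul_eq_mul, Ideal.mul_top]
    exact hcon n
  let n := Nat.find h1
  have hn : x ∉ maximalIdeal A ^ n := Nat.find_spec h1
  have hn0 : n ≠ 0 := by
    intro h0
    rw [h0, pow_zero, Ideal.one_eq_top] at hn
    exact hn Submodule.mem_top
  obtain ⟨m, hm⟩ := Nat.exists_eq_succ_of_ne_zero hn0
  have hmem : x ∈ maximalIdeal A ^ m := by
    by_contra hcon
    have := Nat.find_min' h1 hcon
    omega
  rw [crit_pow_eq π hπ, Ideal.mem_span_singleton] at hmem
  obtain ⟨u, hu⟩ := hmem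
  refine ⟨m, u, ?_, hu⟩
  by_contra hnu
  have hu' : u ∈ maximalIdeal A := (mem_maximalIdeal u).2 hnu
  rw [hπ, Ideal.mem_span_singleton] at hu'
  obtain ⟨v, hv⟩ := hu'
  apply hn
  rw [hm, crit_pow_eq π hπ, Ideal.mem_span_singleton]
  exact ⟨v, by rw [hu, hv, pow_succ]; ring⟩

include hπ hsep hnil in
theorem crit_isDomain : IsDomain A := by
  haveI : NoZeroDivisors A := by
    constructor
    intro x y hxy
    by_contra hcon
    push Not at hcon
    obtain ⟨n, u, hu, rfl⟩ := crit_exists_eq π hπ hsep hcon.1
    obtain ⟨m, v, hv, rfl⟩ := crit_exists_eq π hπ hsep hcon.2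
    have h1 : π ^ (n + m) * (u * v) = 0 := by
      rw [← hxy, pow_add]; ring
    have h2 : π ^ (n + m) = 0 := (hu.mul hv).mul_left_eq_zero.1 h1
    exact hnil _ h2
  exact NoZeroDivisors.to_isDomain A

include hπ hsep hnil in
theorem crit_isDiscreteValuationRing :
    haveI := crit_isDomain π hπ hsep hnil
    IsDiscreteValuationRing A := by
  haveI := crit_isDomain π hπ hsep hnil
  apply IsDiscreteValuationRing.ofHasUnitMulPowIrreducibleFactorization
  have hπ0 : π ≠ 0 := by
    have := hnil 1
    rwa [pow_one] at this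
  have hprime : Prime π := by
    rw [← Ideal.span_singleton_prime hπ0, ← hπ]
    exact (maximalIdeal.isMaximal A).isPrime
  refine ⟨π, hprime.irreducible, ?_⟩
  intro x hx
  obtain ⟨n, u, hu, rfl⟩ := crit_exists_eq π hπ hsep hx
  obtain ⟨w, rfl⟩ := hu
  exact ⟨n, ⟨w, rfl⟩⟩

end Crit

end Fermat.Agent.GR
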