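/-
STAGE (I), package PADIC, lead — part 2: the adic completion of a discrete valuation ring is a
complete discrete valuation ring with the same residue field.
-/
import Fermat.Agent.GR.PADIC_lead_Crit

set_option autoImplicit false
set_option linter.unusedSectionVars false
set_option linter.unusedVariables false
set_option linter.style.haveILetI false

namespace Fermat.Agent.GR

open IsLocalRing

section Completion

variable (R : Type*) [CommRing R] [IsDomain R] [IsDiscreteValuationRing R]

/-- the completion of a DVR -/
abbrev dvrCompletion : Type _ := AdicCompletion (maximalIdeal R) R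

theorem dvrCompletion_algebraMap_injective :
    Function.Injective (algebraMap R (dvrCompletion R)) := by
  have h := AdicCompletion.of_injective (I := maximalIdeal R) (M := R)
  intro x y hxy
  apply h
  exact hxy

theorem dvrCompletion_maximalIdeal_eq {ϖ : R} (hϖ : Irreducible ϖ) :
    maximalIdeal (dvrCompletion R) = Ideal.span {algebraMap R (dvrCompletion R) ϖ} := by
  rw [AdicCompletion.maximalIdeal_eq_map]
  have h1 : Ideal.map (algebraMap R (dvrCompletion R)) (maximalIdeal R) =
      Ideal.map (algebraMap R (dvrCompletion R)) (Ideal.span {ϖ}) :=
    congrArg _ hϖ.maximalIdeal_eq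
  rw [h1, Ideal.map_span, Set.image_singleton]

theorem dvrCompletion_pow_ne_zero {ϖ : R} (hϖ : Irreducible ϖ) (n : ℕ) :
    (algebraMap R (dvrCompletion R) ϖ) ^ n ≠ 0 := by
  rw [← map_pow]
  intro h
  have := dvrCompletion_algebraMap_injective R (h.trans (map_zero _).symm)
  exact pow_ne_zero n hϖ.ne_zero this

instance dvrCompletion_isDomain : IsDomain (dvrCompletion R) := by
  obtain ⟨ϖ, hϖ⟩ := IsDiscreteValuationRing.exists_irreducible R
  exact crit_isDomain _ (dvrCompletion_maximalIdeal_eq R hϖ) inferInstance
    (dvrCompletion_pow_ne_zero R hϖ)

instance dvrCompletion_isDiscreteValuationRing : IsDiscreteValuationRing (dvrCompletion R) := by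
  obtain ⟨ϖ, hϖ⟩ := IsDiscreteValuationRing.exists_irreducible R
  exact crit_isDiscreteValuationRing _ (dvrCompletion_maximalIdeal_eq R hϖ) inferInstance
    (dvrCompletion_pow_ne_zero R hϖ)

example : IsAdicComplete (maximalIdeal (dvrCompletion R)) (dvrCompletion R) := inferInstance

example : IsLocalHom (algebraMap R (dvrCompletion R)) := inferInstance

instance dvrCompletion_charZero [CharZero R] : CharZero (dvrCompletion R) :=
  charZero_of_injective_algebraMap (dvrCompletion_algebraMap_injective R)

theorem dvrCompletion_residueField_bijective :
    Function.Bijective (ResidueField.map (algebraMap R (dvrCompletion R))) :=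
  AdicCompletion.residueField_map_bijective R

theorem dvrCompletion_finite_residueField [Finite (ResidueField R)] :
    Finite (ResidueField (dvrCompletion R)) :=
  Finite.of_surjective _ (dvrCompletion_residueField_bijective R).2

theorem dvrCompletion_natCast_mem {p : ℕ} (hp : (p : R) ∈ maximalIdeal R) :
    (p : dvrCompletion R) ∈ maximalIdeal (dvrCompletion R) := by
  rw [AdicCompletion.maximalIdeal_eq_map, ← map_natCast (algebraMap R (dvrCompletion R))]
  exact Ideal.mem_map_of_mem _ hp

end Completion

end Fermat.Agent.GR
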