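/-
STAGE (I), package PADIC, lead — part 3: for a Dedekind domain `O` of characteristic zero and a
maximal ideal `𝔭 ≠ ⊥` with finite residue field, a complete discrete valuation ring `𝒪` with a ring
map `j : O → 𝒪`, `j⁻¹(𝔪) = 𝔭`, inducing an isomorphism on residue fields.
-/
import Fermat.Agent.GR.PADIC_lead_Completion

set_option autoImplicit false
set_option linter.unusedSectionVars false
set_option linter.unusedVariables false
set_option linter.style.haveILetI false

namespace Fermat.Agent.GR

open IsLocalRing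

section Dedekind

variable (O : Type) [CommRing O] [IsDedekindDomain O] [CharZero O]
  (𝔭 : Ideal O) [h𝔭max : 𝔭.IsMaximal] (h𝔭 : 𝔭 ≠ ⊥) [hfin : Finite (O ⧸ 𝔭)]

include h𝔭 in
theorem exists_completeDVR_of_dedekind (p : ℕ) (hp : (p : O) ∈ 𝔭) :
    ∃ (𝒪 : Type) (_ : CommRing 𝒪) (_ : IsDomain 𝒪) (_ : IsDiscreteValuationRing 𝒪)
      (_ : IsAdicComplete (maximalIdeal 𝒪) 𝒪) (_ : Finite (ResidueField 𝒪)) (_ : CharZero 𝒪)
      (j : O →+* 𝒪), Function.Injective j ∧ (p : 𝒪) ∈ maximalIdeal 𝒪 ∧
        (∀ x, j x ∈ maximalIdeal 𝒪 ↔ x ∈ 𝔭) ∧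
        Function.Surjective (fun x => residue 𝒪 (j x)) := by
  let R := Localization.AtPrime 𝔭
  haveI : IsDiscreteValuationRing R :=
    IsLocalization.AtPrime.isDiscreteValuationRing_of_dedekind_domain O h𝔭 R
  have hinjR : Function.Injective (algebraMap O R) :=
    IsLocalization.injective R (Ideal.primeCompl_le_nonZeroDivisors 𝔭)
  haveI : CharZero R := charZero_of_injective_algebraMap hinjR
  have hmemR : ∀ x : O, algebraMap O R x ∈ maximalIdeal R ↔ x ∈ 𝔭 :=
    fun x => IsLocalization.AtPrime.to_map_mem_maximal_iff R 𝔭 x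
  have hsurjR : Function.Surjective (fun x : O => residue R (algebraMap O R x)) := by
    intro y
    let y' : R ⧸ maximalIdeal R := y
    obtain ⟨z, hz⟩ := Ideal.Quotient.mk_surjective
      ((IsLocalization.AtPrime.equivQuotMaximalIdeal 𝔭 R).symm y')
    refine ⟨z, ?_⟩
    have h1 := IsLocalization.AtPrime.equivQuotMaximalIdeal_apply_mk 𝔭 R z
    rw [hz, RingEquiv.apply_symm_apply] at h1
    exact h1.symm
  haveI : Finite (ResidueField R) :=
    Finite.of_surjective (fun x : O ⧸ 𝔭 => IsLocalization.AtPrime.equivQuotMaximalIdeal 𝔭 R x)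
      (IsLocalization.AtPrime.equivQuotMaximalIdeal 𝔭 R).surjective
  haveI := dvrCompletion_finite_residueField R
  refine ⟨dvrCompletion R, inferInstance, inferInstance, inferInstance, inferInstance,
    inferInstance, inferInstance, (algebraMap R (dvrCompletion R)).comp (algebraMap O R),
    (dvrCompletion_algebraMap_injective R).comp hinjR, ?_, ?_, ?_⟩
  · exact dvrCompletion_natCast_mem R (by
      rw [← map_natCast (algebraMap O R)]; exact (hmemR _).2 hp)
  · intro x
    rw [← hmemR x]
    show algebraMap R (dvrCompletion R) (algebraMap O R x) ∈ maximalIdeal (dvrCompletion R) ↔ _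
    constructor
    · intro h
      by_contra hcon
      have hu : IsUnit (algebraMap O R x) := by
        by_contra hnu
        exact hcon ((mem_maximalIdeal _).2 hnu)
      exact (mem_maximalIdeal _).1 h (hu.map _)
    · intro h
      rw [AdicCompletion.maximalIdeal_eq_map]
      exact Ideal.mem_map_of_mem _ h
  · intro y
    obtain ⟨z, rfl⟩ := (dvrCompletion_residueField_bijective R).2 y
    obtain ⟨x, hx⟩ := hsurjR z
    refine ⟨x, ?_⟩
    show residue (dvrCompletion R) (algebraMap R (dvrCompletion R) (algebraMap O R x)) = _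
    rw [← ResidueField.map_residue, ← hx]

end Dedekind

section Theta

/-- the induced embedding of residue fields -/
theorem exists_residue_lift {O 𝒪 k : Type*} [CommRing O] [CommRing 𝒪] [IsLocalRing 𝒪] [Field k]
    (j : O →+* 𝒪) (hsurj : Function.Surjective (fun x => residue 𝒪 (j x)))
    (φ : O →+* k) (hker : ∀ x, j x ∈ maximalIdeal 𝒪 → φ x = 0) :
    ∃ θ : ResidueField 𝒪 →+* k, ∀ x, θ (residue 𝒪 (j x)) = φ x := by
  let g : O →+* ResidueField 𝒪 := (residue 𝒪).comp j
  have hg : Function.Surjective g := hsurj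
  have hle : RingHom.ker g ≤ RingHom.ker φ := by
    intro x hx
    rw [RingHom.mem_ker] at hx ⊢
    exact hker x ((residue_eq_zero_iff _).1 hx)
  have hle' : ∀ a ∈ RingHom.ker g, φ a = 0 := fun a ha => hle ha
  refine ⟨(Ideal.Quotient.lift (RingHom.ker g) φ hle').comp
    (RingHom.quotientKerEquivOfSurjective hg).symm.toRingHom, ?_⟩
  intro x
  have h1 : (RingHom.quotientKerEquivOfSurjective hg).symm (g x) =
      Ideal.Quotient.mk (RingHom.ker g) x := by
    rw [RingEquiv.symm_apply_eq]
    rfl
  show (Ideal.Quotient.lift (RingHom.ker g) φ hle')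
    ((RingHom.quotientKerEquivOfSurjective hg).symm (g x)) = φ x
  rw [h1, Ideal.Quotient.lift_mk]

end Theta

end Fermat.Agent.GR
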