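/-
STAGE (I), package PADIC, lead — part 4: for a number field `E ⊆ ℂ`, a prime `p` and a ring map
`φ : ℤ̄ → k` into a field of characteristic `p`, a complete DVR `𝒪` (char 0, finite residue field,
`p ∈ 𝔪`) with an injection `j : 𝓞 E → 𝒪` and an embedding `θ` of the residue field of `𝒪` into `k`
such that `θ (j x mod 𝔪) = φ x`.
-/
import Fermat.Agent.GR.PADIC_lead_Dedekind

set_option autoImplicit false
set_option linter.unusedSectionVars false
set_option linter.unusedVariables false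
set_option linter.style.haveILetI false

namespace Fermat.Agent.GR

open IsLocalRing NumberField

section NF

variable (E : IntermediateField ℚ ℂ) [FiniteDimensional ℚ E]

instance numberField_of_finiteDimensional : NumberField ↥E where
  to_charZero := inferInstance
  to_finiteDimensional := inferInstance

/-- the inclusion of the ring of integers of `E ⊆ ℂ` into the integral closure of `ℤ` in `ℂ` -/
noncomputable def ringOfIntegersToIntegralClosure : 𝓞 ↥E →+* integralClosure ℤ ℂ :=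
  RingHom.codRestrict ((E.val : ↥E →+* ℂ).comp (algebraMap (𝓞 ↥E) ↥E)) (integralClosure ℤ ℂ)
    (fun x => by
      have h := RingOfIntegers.isIntegral_coe x
      exact h.map (E.val.restrictScalars ℤ))

@[simp] theorem ringOfIntegersToIntegralClosure_coe (x : 𝓞 ↥E) :
    ((ringOfIntegersToIntegralClosure E x : integralClosure ℤ ℂ) : ℂ) = ((x : ↥E) : ℂ) := rfl

theorem exists_padic_model {p : ℕ} (hp : p.Prime) {k : Type} [Field k] [CharP k p]
    (φ : integralClosure ℤ ℂ →+* k) :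
    ∃ (𝒪 : Type) (_ : CommRing 𝒪) (_ : IsDomain 𝒪) (_ : IsDiscreteValuationRing 𝒪)
      (_ : IsAdicComplete (maximalIdeal 𝒪) 𝒪) (_ : Finite (ResidueField 𝒪)) (_ : CharZero 𝒪)
      (j : 𝓞 ↥E →+* 𝒪) (θ : ResidueField 𝒪 →+* k),
        Function.Injective j ∧ (p : 𝒪) ∈ maximalIdeal 𝒪 ∧
        ∀ x : 𝓞 ↥E, θ (residue 𝒪 (j x)) = φ (ringOfIntegersToIntegralClosure E x) := by
  let φO : 𝓞 ↥E →+* k := φ.comp (ringOfIntegersToIntegralClosure E)
  let 𝔭 : Ideal (𝓞 ↥E) := RingHom.ker φO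
  have hpmem : (p : 𝓞 ↥E) ∈ 𝔭 := by
    show φO (p : 𝓞 ↥E) = 0
    rw [map_natCast]
    exact CharP.cast_eq_zero k p
  have h𝔭0 : 𝔭 ≠ ⊥ := by
    intro h
    rw [h, Ideal.mem_bot] at hpmem
    exact hp.ne_zero (by exact_mod_cast hpmem)
  haveI h𝔭prime : 𝔭.IsPrime := RingHom.ker_isPrime φO
  haveI h𝔭max : 𝔭.IsMaximal := h𝔭prime.isMaximal h𝔭0
  haveI : Finite (𝓞 ↥E ⧸ 𝔭) := Ideal.finiteQuotientOfFreeOfNeBot 𝔭 h𝔭0
  obtain ⟨𝒪, i1, i2, i3, i4, i5, i6, j, hj, hp𝒪, hmem, hsurj⟩ :=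
    exists_completeDVR_of_dedekind (𝓞 ↥E) 𝔭 h𝔭0 p hpmem
  obtain ⟨θ, hθ⟩ := exists_residue_lift j hsurj φO (fun x hx => (hmem x).1 hx)
  exact ⟨𝒪, i1, i2, i3, i4, i5, i6, j, θ, hj, hp𝒪, hθ⟩

end NF

end Fermat.Agent.GR
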