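/-
STAGE (I), package K9b, the PIECES used separately by the S31 top (helper4):

* (core) `exists_frobenius_pow_conj`: Frobenius density on a finite level `L`: every `g ∈ G_ℚ` is,
  on `L`, conjugate to a power of a Frobenius element at a prime outside any given finite set;
* (luc) the Lucas sequence `luc a b` and `trace_pow_eq_luc`: the trace of `f ^ m` for an
  endomorphism `f` of a free module of rank two with characteristic polynomial `X² - a X + b`;
* (cont) `trace_sub_trace_mem`: elements of `G_ℚ` agreeing on a level field of `ρ` modulo `𝔪 ^ n`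
  have traces congruent modulo `𝔪 ^ n`.
-/
import Mathlib
import Fermat.Agent.GR.K9B_helper4_Main

set_option autoImplicit false
set_option linter.unusedSectionVars false
set_option linter.style.haveILetI false

namespace Fermat.Agent.GR

open Polynomial Matrix Fermat.Agent.TW.Kill IsLocalRing

/-- `Ω = AlgebraicClosure ℚ`. -/
local notation "Ω" => AlgebraicClosure ℚ
/-- `GQ = Gal(Ω/ℚ)`. -/
local notation "GQ" => (AlgebraicClosure ℚ ≃ₐ[ℚ] AlgebraicClosure ℚ)

/-- **K9b core (Frobenius density on a finite level):** for every finite set `T` of primes, every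
number field `L ⊆ Ω` and every `g ∈ G_ℚ` there are a prime `ℓ ∉ T`, a place `P` of `Ω` over `ℓ`, a
Frobenius element `φ` at `P`, an exponent `m` and `τ ∈ G_ℚ` such that `τ g τ⁻¹` and `φ ^ m` agree
on `L`. -/
theorem exists_frobenius_pow_conj (T : Finset ℕ) (L : IntermediateField ℚ Ω)
    [FiniteDimensional ℚ L] (g : GQ) :
    ∃ (ℓ : ℕ) (_ : ℓ.Prime) (_ : ℓ ∉ T) (P : ValuationSubring Ω) (_ : P.LiesOverPrime ℓ)
      (φ : GQ) (_ : P.IsFrobeniusAt φ ℓ) (m : ℕ) (τ : GQ),
      ∀ x ∈ L, (τ * g * τ⁻¹) x = (φ ^ m) x := by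
  haveI : IsGalois ℚ Ω := IsAlgClosure.isGalois ℚ Ω
  set K : IntermediateField ℚ Ω := IntermediateField.normalClosure ℚ L Ω with hK
  haveI : FiniteDimensional ℚ K := normalClosure.is_finiteDimensional ℚ L Ω
  haveI : Normal ℚ K := normalClosure.normal ℚ L Ω
  haveI : IsGalois ℚ K := ⟨⟩
  set N : Subgroup GQ := K.fixingSubgroup with hN
  haveI : N.Normal := IsGalois.fixingSubgroup_normal_of_isGalois K
  have hopen : IsOpen (N : Set GQ) := IntermediateField.fixingSubgroup_isOpen K
  obtain ⟨q, hq, hqT, hall⟩ :=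
    Fermat.Agent.Density.exists_prime_frobenius_conj_algClosure N hopen g T
  haveI : Fact q.Prime := ⟨hq⟩
  have hP₀ : (padicPlace q).LiesOverPrime q := padicPlace_liesOverPrime q
  obtain ⟨φ₀, hφ₀⟩ := exists_isFrobeniusAt (padicPlace q) hq hP₀
  obtain ⟨τ, hτ⟩ := (hall _ hP₀).2 φ₀ hφ₀
  haveI : Finite (GQ ⧸ N) := Subgroup.quotient_finite_of_isOpen N hopen
  obtain ⟨k, -, hk⟩ := Fermat.Agent.Density.exists_coprime_pow_eq_of_zpowers_eq
    (a := QuotientGroup.mk' N (τ * g * τ⁻¹)) (b := QuotientGroup.mk' N φ₀)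
    (isOfFinOrder_of_finite _) hτ.symm
  rw [← map_pow] at hk
  have hνN : (φ₀ ^ k)⁻¹ * (τ * g * τ⁻¹) ∈ N := by
    have := hk.symm
    rw [QuotientGroup.mk'_apply, QuotientGroup.mk'_apply, QuotientGroup.eq] at this
    exact this
  refine ⟨q, hq, hqT, padicPlace q, hP₀, φ₀, hφ₀, k, τ, fun x hx => ?_⟩
  rw [hN, IntermediateField.mem_fixingSubgroup_iff] at hνN
  have h1 := hνN x (IntermediateField.le_normalClosure L hx)
  rw [AlgEquiv.mul_apply] at h1
  have h2 := congrArg (φ₀ ^ k) h1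
  rw [← AlgEquiv.mul_apply, mul_inv_cancel, AlgEquiv.one_apply] at h2
  exact h2

section Luc

/-- the Lucas sequence `V_m(a, b)`: `V_0 = 2`, `V_1 = a`, `V_{m+2} = a V_{m+1} - b V_m`; it is the
trace of the `m`-th power of any `2 × 2` matrix with characteristic polynomial `X² - a X + b`. -/
def luc {R : Type*} [CommRing R] (a b : R) : ℕ → R
  | 0 => 2
  | 1 => a
  | (m + 2) => a * luc a b (m + 1) - b * luc a b m

@[simp] theorem luc_zero {R : Type*} [CommRing R] (a b : R) : luc a b 0 = 2 := rfl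

@[simp] theorem luc_one {R : Type*} [CommRing R] (a b : R) : luc a b 1 = a := rfl

theorem luc_add_two {R : Type*} [CommRing R] (a b : R) (m : ℕ) :
    luc a b (m + 2) = a * luc a b (m + 1) - b * luc a b m := rfl

theorem map_luc {R R' : Type*} [CommRing R] [CommRing R'] (φ : R →+* R') (a b : R) (m : ℕ) :
    φ (luc a b m) = luc (φ a) (φ b) m := by
  induction m using Nat.strong_induction_on with
  | _ m ih =>
    match m with
    | 0 => rw [luc_zero, luc_zero, map_ofNat]
    | 1 => rw [luc_one, luc_one]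
    | m + 2 =>
      rw [luc_add_two, luc_add_two, map_sub, map_mul, map_mul, ih (m + 1) (by omega),
        ih m (by omega)]

/-- the traces of the powers of a `2 × 2` matrix are the Lucas sequence of its trace and
determinant. -/
theorem trace_pow_eq_luc_fin_two {R : Type*} [CommRing R] (M : Matrix (Fin 2) (Fin 2) R) (m : ℕ) :
    (M ^ m).trace = luc M.trace M.det m := by
  induction m using Nat.strong_induction_on with
  | _ m ih =>
    match m with
    | 0 => simp [Matrix.trace_fin_two]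
    | 1 => simp
    | m + 2 =>
      rw [trace_pow_add_two_fin_two, luc_add_two, ih (m + 1) (by omega), ih m (by omega)]

/-- **the traces of the powers of an endomorphism of a free module of rank two with characteristic
polynomial `X² - a X + b` are the Lucas sequence `V_m(a, b)`.** -/
theorem trace_pow_eq_luc {R V : Type*} [CommRing R] [AddCommGroup V] [Module R V]
    [Module.Free R V] [Module.Finite R V] (hV : Module.finrank R V = 2) (f : Module.End R V)
    (a b : R) (h : f.charpoly = X ^ 2 - C a * X + C b) (m : ℕ) :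
    LinearMap.trace R V (f ^ m) = luc a b m := by
  nontriviality R
  set bs : Module.Basis (Fin 2) R V := Module.finBasisOfFinrankEq R V hV with hbs
  set M : Matrix (Fin 2) (Fin 2) R := LinearMap.toMatrix bs bs f with hM
  have hch : M.charpoly = X ^ 2 - C a * X + C b := by
    rw [hM, LinearMap.charpoly_toMatrix, h]
  have hta : M.trace = a := by
    rw [Matrix.trace_eq_neg_charpoly_coeff, hch]
    simp [Polynomial.coeff_X_pow]
  have hdb : M.det = b := by
    rw [Matrix.det_eq_sign_charpoly_coeff, hch]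
    simp [Polynomial.coeff_X_pow]
  rw [LinearMap.trace_eq_matrix_trace R bs, ← LinearMap.toMatrix_pow, ← hM,
    trace_pow_eq_luc_fin_two, hta, hdb]

end Luc

section Cont

variable {A : Type} [CommRing A] [IsLocalRing A]

/-- the trace of `ρ(g)` is the trace of its matrix. -/
theorem trace_eq_trace_matHom (ρ : GaloisRepAdic A) (g : GQ) :
    LinearMap.trace A ρ.V (ρ.ρ g) = (matHom ρ g).trace := by
  rw [LinearMap.trace_eq_matrix_trace A (gBasis ρ), ← matHom_apply]

/-- the trace of `ρ(g)` modulo `𝔪 ^ n` is the trace of the matrix of `ρ(g)` modulo `𝔪 ^ n`. -/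
theorem mk_trace_eq_trace_matModHom (ρ : GaloisRepAdic A) (n : ℕ) (g : GQ) :
    Ideal.Quotient.mk (maximalIdeal A ^ n) (LinearMap.trace A ρ.V (ρ.ρ g)) =
      (matModHom ρ n g).trace := by
  rw [trace_eq_trace_matHom, matModHom_apply, RingHom.mapMatrix_apply]
  exact AddMonoidHom.map_trace (Ideal.Quotient.mk (maximalIdeal A ^ n)).toAddMonoidHom _

/-- two elements of `G_ℚ` agreeing on a level field of `ρ` modulo `𝔪 ^ n` have the same matrix
modulo `𝔪 ^ n`. -/
theorem matModHom_eq_of_forall_mem_eq (ρ : GaloisRepAdic A) (n : ℕ) (L : IntermediateField ℚ Ω)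
    (hL : ∀ σ : GQ, (∀ x ∈ L, σ x = x) →
      ∀ v : ρ.V, ρ.ρ σ v - v ∈ (maximalIdeal A ^ n) • (⊤ : Submodule A ρ.V))
    (a b : GQ) (hab : ∀ x ∈ L, a x = b x) : matModHom ρ n a = matModHom ρ n b := by
  have hν : ∀ x ∈ L, (b⁻¹ * a) x = x := by
    intro x hx
    rw [AlgEquiv.mul_apply, hab x hx, ← AlgEquiv.mul_apply, inv_mul_cancel, AlgEquiv.one_apply]
  have h1 : matModHom ρ n (b⁻¹ * a) = 1 := matModHom_eq_one_of_forall_mem ρ (hL _ hν)
  have h2 : a = b * (b⁻¹ * a) := by rw [mul_inv_cancel_left]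
  rw [h2, map_mul, h1, mul_one]

/-- **K9b (cont):** two elements of `G_ℚ` agreeing on a level field of `ρ` modulo `𝔪 ^ n` have
traces congruent modulo `𝔪 ^ n`. -/
theorem trace_sub_trace_mem (ρ : GaloisRepAdic A) (n : ℕ) (L : IntermediateField ℚ Ω)
    (hL : ∀ σ : GQ, (∀ x ∈ L, σ x = x) →
      ∀ v : ρ.V, ρ.ρ σ v - v ∈ (IsLocalRing.maximalIdeal A ^ n) • (⊤ : Submodule A ρ.V))
    (a b : GQ) (hab : ∀ x ∈ L, a x = b x) :
    LinearMap.trace A ρ.V (ρ.ρ a) - LinearMap.trace A ρ.V (ρ.ρ b) ∈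
      IsLocalRing.maximalIdeal A ^ n := by
  rw [← Ideal.Quotient.eq, mk_trace_eq_trace_matModHom, mk_trace_eq_trace_matModHom,
    matModHom_eq_of_forall_mem_eq ρ n L hL a b hab]

/-- same for the characteristic polynomials. -/
theorem charpoly_map_eq_of_forall_mem_eq (ρ : GaloisRepAdic A) (n : ℕ) (L : IntermediateField ℚ Ω)
    (hL : ∀ σ : GQ, (∀ x ∈ L, σ x = x) →
      ∀ v : ρ.V, ρ.ρ σ v - v ∈ (maximalIdeal A ^ n) • (⊤ : Submodule A ρ.V))
    (a b : GQ) (hab : ∀ x ∈ L, a x = b x) :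
    (LinearMap.charpoly (ρ.ρ a)).map (Ideal.Quotient.mk (maximalIdeal A ^ n)) =
      (LinearMap.charpoly (ρ.ρ b)).map (Ideal.Quotient.mk (maximalIdeal A ^ n)) := by
  rw [← charpoly_matModHom, ← charpoly_matModHom, matModHom_eq_of_forall_mem_eq ρ n L hL a b hab]

/-- the trace is invariant under conjugation. -/
theorem trace_conj_eq (ρ : GaloisRepAdic A) (τ g : GQ) :
    LinearMap.trace A ρ.V (ρ.ρ (τ * g * τ⁻¹)) = LinearMap.trace A ρ.V (ρ.ρ g) := by
  have h1 : ρ.ρ (τ * g * τ⁻¹) = ρ.ρ (τ * g) * ρ.ρ τ⁻¹ := map_mul ρ.ρ _ _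
  have h2 : ρ.ρ τ⁻¹ * ρ.ρ (τ * g) = ρ.ρ g := by
    rw [← map_mul ρ.ρ, inv_mul_cancel_left]
  rw [h1, LinearMap.trace_mul_comm, h2]

/-- the trace of `ρ(φ ^ m)` is the Lucas sequence in the coefficients of the characteristic
polynomial of `ρ(φ)`. -/
theorem trace_pow_eq_luc_of_charpoly (ρ : GaloisRepAdic A) (φ : GQ) (a b : A)
    (h : LinearMap.charpoly (ρ.ρ φ) = X ^ 2 - C a * X + C b) (m : ℕ) :
    LinearMap.trace A ρ.V (ρ.ρ (φ ^ m)) = luc a b m := by
  rw [map_pow]
  exact trace_pow_eq_luc ρ.finrank_eq (ρ.ρ φ) a b h m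

end Cont

end Fermat.Agent.GR
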