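import Fermat.Agent.GR.PETB_helper9_Weight

/-!
# (PET-B) the base weight for `SL(2, ℤ)` has finite mass; the hyperbolic measure is positive
on nonempty open sets
-/

open UpperHalfPlane ModularGroup MeasureTheory Matrix
open scoped Modular MatrixGroups NNReal ENNReal

namespace Fermat.Agent.GR

noncomputable section

/-! ### the hyperbolic measure charges nonempty open sets -/

/-- The density `1 / y ^ 2` of the hyperbolic measure is continuous. -/
theorem continuous_hypDensity :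
    Continuous fun z : ℍ => ((((1 / NNReal.mk z.im z.im_pos.le : ℝ≥0) ^ 2 : ℝ≥0)) : ℝ≥0∞) := by
  refine ENNReal.continuous_coe.comp ?_
  refine .pow (.div₀ continuous_const ?_ ?_) _
  · exact continuous_im.subtype_mk _
  · exact fun x ↦ NNReal.ne_iff.mp x.im_ne_zero

/-- Nonempty open subsets of the upper half plane have positive hyperbolic measure. -/
instance isOpenPosMeasure_volume_upperHalfPlane : (volume : Measure ℍ).IsOpenPosMeasure := by
  refine ⟨fun U hU hne h0 => ?_⟩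
  rw [volume_def, withDensity_apply_eq_zero' continuous_hypDensity.measurable.aemeasurable] at h0
  have hset : {x : ℍ | ((((1 / NNReal.mk x.im x.im_pos.le : ℝ≥0) ^ 2 : ℝ≥0)) : ℝ≥0∞) ≠ 0} ∩ U
      = U := by
    refine Set.inter_eq_right.2 fun x _ => ?_
    show ((((1 / NNReal.mk x.im x.im_pos.le : ℝ≥0) ^ 2 : ℝ≥0)) : ℝ≥0∞) ≠ 0
    have hx : NNReal.mk x.im x.im_pos.le ≠ 0 := NNReal.ne_iff.mp x.im_ne_zero
    have : (1 / NNReal.mk x.im x.im_pos.le : ℝ≥0) ^ 2 ≠ 0 := by positivity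
    exact_mod_cast this
  rw [hset, measurableEmbedding_coe.comap_apply] at h0
  exact (isOpenEmbedding_coe.isOpenMap U hU).measure_ne_zero volume (hne.image _) h0

/-! ### the standard fundamental domain has finite hyperbolic area -/

theorem quarter_lt_im_of_mem_fd {z : ℍ} (hz : z ∈ 𝒟) : 1 / 4 < z.im := by
  have h := three_le_four_mul_im_sq_of_mem_fd hz
  have hpos := z.im_pos
  nlinarith

/-- The strip `|x| ≤ 1/2`, `y > 1/4`, in real coordinates. -/
def fdBox : Set (ℝ × ℝ) := Set.Icc (-1 / 2 : ℝ) (1 / 2) ×ˢ Set.Ioi (1 / 4 : ℝ)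

theorem measurableSet_fdBox : MeasurableSet fdBox :=
  measurableSet_Icc.prod measurableSet_Ioi

theorem coe_image_fd_subset :
    ((↑) : ℍ → ℂ) '' 𝒟 ⊆ Complex.measurableEquivRealProd ⁻¹' fdBox := by
  rintro _ ⟨z, hz, rfl⟩
  have h1 : |z.re| ≤ 1 / 2 := hz.2
  have h2 := quarter_lt_im_of_mem_fd hz
  rw [abs_le] at h1
  refine ⟨⟨?_, ?_⟩, ?_⟩
  · show (-1 / 2 : ℝ) ≤ (z : ℂ).re
    rw [coe_re]; linarith [h1.1]
  · show (z : ℂ).re ≤ 1 / 2
    rw [coe_re]; exact h1.2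
  · show (1 / 4 : ℝ) < (z : ℂ).im
    rw [coe_im]; exact h2

theorem lintegral_Ioi_inv_sq_lt_top :
    ∫⁻ y in Set.Ioi (1 / 4 : ℝ), (((1 / ‖y‖₊) ^ 2 : ℝ≥0) : ℝ≥0∞) < ⊤ := by
  have hint : IntegrableOn (fun t : ℝ => t ^ (-2 : ℝ)) (Set.Ioi (1 / 4 : ℝ)) :=
    integrableOn_Ioi_rpow_of_lt (by norm_num) (by norm_num)
  have h := hint.setLIntegral_lt_top
  refine lt_of_eq_of_lt (setLIntegral_congr_fun measurableSet_Ioi fun y hy => ?_) h
  have hy0 : (0 : ℝ) < y := lt_trans (by norm_num) (Set.mem_Ioi.1 hy)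
  show (((1 / ‖y‖₊) ^ 2 : ℝ≥0) : ℝ≥0∞) = ENNReal.ofReal (y ^ (-2 : ℝ))
  rw [ENNReal.ofReal, ENNReal.coe_inj]
  ext
  rw [Real.coe_toNNReal _ (Real.rpow_nonneg hy0.le _)]
  push_cast
  rw [Real.norm_of_nonneg hy0.le, Real.rpow_neg hy0.le, one_div, inv_pow]
  norm_num [Real.rpow_two]

theorem volume_fd_lt_top : (volume : Measure ℍ) 𝒟 < ⊤ := by
  rw [volume_eq_lintegral]
  refine lt_of_le_of_lt (lintegral_mono_set coe_image_fd_subset) ?_
  have h1 := Complex.volume_preserving_equiv_real_prod.setLIntegral_comp_preimage_emb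
    Complex.measurableEquivRealProd.measurableEmbedding
    (fun p : ℝ × ℝ => (((1 / ‖p.2‖₊) ^ 2 : ℝ≥0) : ℝ≥0∞)) fdBox
  have h2 : (∫⁻ z : ℂ in Complex.measurableEquivRealProd ⁻¹' fdBox,
      (((1 / ‖z.im‖₊) ^ 2 : ℝ≥0) : ℝ≥0∞)) =
      ∫⁻ p : ℝ × ℝ in fdBox, (((1 / ‖p.2‖₊) ^ 2 : ℝ≥0) : ℝ≥0∞) := h1
  rw [h2, Measure.volume_eq_prod, fdBox, ← Measure.prod_restrict, lintegral_prod]
  · simp only [lintegral_const, Measure.restrict_apply_univ, Real.volume_Icc]
    exact ENNReal.mul_lt_top lintegral_Ioi_inv_sq_lt_top ENNReal.ofReal_lt_top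
  · refine Measurable.aemeasurable ?_
    fun_prop

/-! ### the main statement -/

theorem lintegral_fdWeight_ne_top :
    ∫⁻ z, (fdWeight z : ℝ≥0∞) ∂(volume : Measure ℍ) ≠ ⊤ := by
  refine ne_top_of_le_ne_top volume_fd_lt_top.ne ?_
  rw [← lintegral_indicator_one isClosed_fd.measurableSet]
  refine lintegral_mono fun z => ?_
  rw [coe_fdWeight]
  exact fdWeightE_le_indicator z

/-- **(PET-B)** a measurable weight for `SL(2, ℤ)` of finite hyperbolic mass: its translates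
sum to `1` at every point of the upper half plane. -/
theorem exists_weight_SL2Z : ∃ φ : ℍ → ℝ≥0, Measurable φ ∧
    (∀ z : ℍ, ∑' γ : SL(2, ℤ), (φ (γ • z) : ℝ≥0∞) = 1) ∧
    ∫⁻ z, (φ z : ℝ≥0∞) ∂(volume : Measure ℍ) ≠ ⊤ :=
  ⟨fdWeight, measurable_fdWeight, tsum_fdWeight_smul, lintegral_fdWeight_ne_top⟩

end

end Fermat.Agent.GR
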