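/-
K11 PET (helper5), part 1: weights for a measure preserving group action and the
independence of the weighted integral of an invariant function from the weight.
-/
import Mathlib

set_option autoImplicit false

namespace Fermat.Agent.GR.PET

open MeasureTheory
open scoped ENNReal NNReal

variable {G X : Type*} [Group G] [MulAction G X] [MeasurableSpace X] [MeasurableConstSMul G X]
  (ν : Measure X) [SMulInvariantMeasure G X ν]

/-- A *weight* for the subgroup `H`: a measurable function `φ ≥ 0` whose `H`-translates sum to `1`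
almost everywhere. -/
structure IsWeight (H : Subgroup G) (φ : X → ℝ≥0) : Prop where
  measurable : Measurable φ
  tsum_eq : ∀ᵐ x ∂ν, ∑' h : H, (φ ((h : G) • x) : ℝ≥0∞) = 1

variable {ν}

omit [SMulInvariantMeasure G X ν] in
theorem ae_smul_of_ae [SMulInvariantMeasure G X ν] {p : X → Prop} (hp : ∀ᵐ x ∂ν, p x) (g : G) :
    ∀ᵐ x ∂ν, p (g • x) :=
  (measurePreserving_smul g ν).quasiMeasurePreserving.tendsto_ae.eventually hp

theorem lintegral_smul_eq (f : X → ℝ≥0∞) (g : G) :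
    ∫⁻ x, f (g • x) ∂ν = ∫⁻ x, f x ∂ν :=
  (measurePreserving_smul g ν).lintegral_comp_emb (MeasurableEquiv.smul g).measurableEmbedding f

section
variable {H : Subgroup G} [Countable H] {φ ψ : X → ℝ≥0}

omit [SMulInvariantMeasure G X ν] in
/-- Unfolding against a second weight. -/
theorem IsWeight.lintegral_eq_tsum (hφ : IsWeight ν H φ) (hψ : IsWeight ν H ψ)
    {F : X → ℝ≥0∞} (hF : AEMeasurable F ν) :
    ∫⁻ x, φ x * F x ∂ν = ∑' h : H, ∫⁻ x, φ x * F x * ψ ((h : G) • x) ∂ν := by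
  calc ∫⁻ x, φ x * F x ∂ν = ∫⁻ x, ∑' h : H, φ x * F x * ψ ((h : G) • x) ∂ν := by
        refine lintegral_congr_ae ?_
        filter_upwards [hψ.tsum_eq] with x hx
        rw [ENNReal.tsum_mul_left, hx, mul_one]
    _ = ∑' h : H, ∫⁻ x, φ x * F x * ψ ((h : G) • x) ∂ν := by
        refine lintegral_tsum fun h => ?_
        refine (hφ.measurable.coe_nnreal_ennreal.aemeasurable.mul hF).mul ?_
        exact (hψ.measurable.comp (measurable_const_smul (h : G))).coe_nnreal_ennreal.aemeasurable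

/-- **Independence of the weight**, for nonnegative invariant functions. -/
theorem IsWeight.lintegral_mul_eq (hφ : IsWeight ν H φ) (hψ : IsWeight ν H ψ)
    {F : X → ℝ≥0∞} (hF : AEMeasurable F ν) (hinv : ∀ h ∈ H, ∀ x, F (h • x) = F x) :
    ∫⁻ x, φ x * F x ∂ν = ∫⁻ x, ψ x * F x ∂ν := by
  rw [hφ.lintegral_eq_tsum hψ hF, hψ.lintegral_eq_tsum hφ hF, ← (Equiv.inv H).tsum_eq]
  refine tsum_congr fun h => ?_
  rw [← lintegral_smul_eq (ν := ν)
    (fun x => φ x * F x * ψ ((((Equiv.inv H) h : H) : G) • x)) (h : G)]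
  refine lintegral_congr fun x => ?_
  simp only [Equiv.inv_apply, Subgroup.coe_inv, inv_smul_smul]
  rw [hinv _ h.2]
  ring

end

section Bochner

variable {E : Type*} [NormedAddCommGroup E] [NormedSpace ℝ E]
variable {H : Subgroup G} [Countable H] {φ ψ : X → ℝ≥0}

theorem enorm_coe_mul_smul (a b : ℝ≥0) (v : E) :
    ‖((a : ℝ) * (b : ℝ)) • v‖ₑ = a * ‖v‖ₑ * b := by
  rw [enorm_smul, ← NNReal.coe_mul, Real.enorm_eq_ofReal (NNReal.coe_nonneg _),
    ENNReal.ofReal_coe_nnreal, ENNReal.coe_mul]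
  ring

theorem enorm_coe_smul (a : ℝ≥0) (v : E) : ‖(a : ℝ) • v‖ₑ = a * ‖v‖ₑ := by
  rw [enorm_smul, Real.enorm_eq_ofReal (NNReal.coe_nonneg _), ENNReal.ofReal_coe_nnreal]

omit [SMulInvariantMeasure G X ν] in
theorem IsWeight.integral_eq_tsum (hφ : IsWeight ν H φ) (hψ : IsWeight ν H ψ)
    {F : X → E} (hF : AEStronglyMeasurable F ν) (hfin : ∫⁻ x, φ x * ‖F x‖ₑ ∂ν ≠ ∞) :
    ∫ x, (φ x : ℝ) • F x ∂ν
      = ∑' h : H, ∫ x, ((φ x : ℝ) * (ψ ((h : G) • x) : ℝ)) • F x ∂ν := by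
  have hmeas : ∀ h : H, AEStronglyMeasurable
      (fun x => ((φ x : ℝ) * (ψ ((h : G) • x) : ℝ)) • F x) ν := fun h =>
    ((hφ.measurable.coe_nnreal_real.mul
      (hψ.measurable.comp (measurable_const_smul (h : G))).coe_nnreal_real).aestronglyMeasurable).smul
      hF
  rw [← integral_tsum hmeas]
  · refine integral_congr_ae ?_
    filter_upwards [hψ.tsum_eq] with x hx
    have hsum : Summable fun h : H => ψ ((h : G) • x) :=
      ENNReal.tsum_coe_ne_top_iff_summable.mp (by rw [hx]; exact ENNReal.one_ne_top)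
    have h1 : ∑' h : H, ψ ((h : G) • x) = 1 := by
      have := ENNReal.coe_tsum hsum
      rw [hx] at this
      exact_mod_cast this
    have hsumR : Summable fun h : H => (ψ ((h : G) • x) : ℝ) := NNReal.summable_coe.mpr hsum
    have h1R : ∑' h : H, (ψ ((h : G) • x) : ℝ) = 1 := by
      rw [← NNReal.coe_tsum, h1, NNReal.coe_one]
    show (φ x : ℝ) • F x = ∑' h : H, ((φ x : ℝ) * (ψ ((h : G) • x) : ℝ)) • F x
    rw [(hsumR.mul_left _).tsum_smul_const, tsum_mul_left, h1R, mul_one]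
  · have : ∀ h : H, ∫⁻ x, ‖((φ x : ℝ) * (ψ ((h : G) • x) : ℝ)) • F x‖ₑ ∂ν
        = ∫⁻ x, φ x * ‖F x‖ₑ * ψ ((h : G) • x) ∂ν := fun h =>
      lintegral_congr fun x => enorm_coe_mul_smul _ _ _
    simp_rw [this]
    rw [← hφ.lintegral_eq_tsum hψ hF.enorm]
    exact hfin

/-- **Independence of the weight**, Bochner integral version. -/
theorem IsWeight.integral_smul_eq (hφ : IsWeight ν H φ) (hψ : IsWeight ν H ψ)
    {F : X → E} (hF : AEStronglyMeasurable F ν) (hinv : ∀ h ∈ H, ∀ x, F (h • x) = F x)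
    (hfin : ∫⁻ x, φ x * ‖F x‖ₑ ∂ν ≠ ∞) :
    ∫ x, (φ x : ℝ) • F x ∂ν = ∫ x, (ψ x : ℝ) • F x ∂ν := by
  have hfin' : ∫⁻ x, ψ x * ‖F x‖ₑ ∂ν ≠ ∞ := by
    rw [← hφ.lintegral_mul_eq hψ hF.enorm (fun h hh x => by rw [hinv h hh])]
    exact hfin
  rw [hφ.integral_eq_tsum hψ hF hfin, hψ.integral_eq_tsum hφ hF hfin', ← (Equiv.inv H).tsum_eq]
  refine tsum_congr fun h => ?_
  rw [← integral_smul_eq_self (μ := ν)
    (fun x => ((φ x : ℝ) * (ψ ((((Equiv.inv H) h : H) : G) • x) : ℝ)) • F x) (g := (h : G))]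
  refine integral_congr_ae (Filter.Eventually.of_forall fun x => ?_)
  simp only [Equiv.inv_apply, Subgroup.coe_inv, inv_smul_smul]
  rw [hinv _ h.2, mul_comm]

end Bochner

section Derived

variable {H : Subgroup G} {φ : X → ℝ≥0}

/-- Transport of a weight to a conjugate subgroup. -/
theorem IsWeight.conj [Countable H] (hφ : IsWeight ν H φ) (g : G) {H' : Subgroup G}
    (hH' : ∀ x, x ∈ H' ↔ g⁻¹ * x * g ∈ H) :
    IsWeight ν H' (fun x => φ (g⁻¹ • x)) := by
  refine ⟨hφ.measurable.comp (measurable_const_smul _), ?_⟩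
  let e : H' ≃ H :=
    { toFun := fun x => ⟨g⁻¹ * x * g, (hH' x).mp x.2⟩
      invFun := fun y => ⟨g * y * g⁻¹, (hH' _).mpr (by simp [mul_assoc])⟩
      left_inv := fun x => by ext; simp [mul_assoc]
      right_inv := fun y => by ext; simp [mul_assoc] }
  filter_upwards [ae_smul_of_ae hφ.tsum_eq g⁻¹] with x hx
  rw [← hx, ← e.tsum_eq]
  refine tsum_congr fun h' => ?_
  simp only [e, Equiv.coe_fn_mk, mul_smul, smul_inv_smul]

/-- A finite system of left coset representatives of `H'` in `H`, packaged as a bijection. -/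
theorem exists_leftTransversal {H' : Subgroup G} (hle : H' ≤ H) (hfin : H'.relIndex H ≠ 0) :
    ∃ (ι : Type u_1) (_ : Fintype ι) (r : ι → G) (e : ι × H' ≃ H),
      (∀ i, r i ∈ H) ∧ (∀ i (h' : H'), (e (i, h') : G) = r i * h') ∧
      Fintype.card ι = H'.relIndex H := by
  classical
  have : Finite (H ⧸ H'.subgroupOf H) := Nat.finite_of_card_ne_zero hfin
  let _ : Fintype (H ⧸ H'.subgroupOf H) := Fintype.ofFinite _
  let K := H'.subgroupOf H
  let f : (H ⧸ K) × H' → H := fun p => p.1.out * ⟨p.2.1, hle p.2.2⟩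
  have hf : Function.Bijective f := by
    constructor
    · rintro ⟨q, k⟩ ⟨q', k'⟩ h
      have hq : q = q' := by
        have h1 : (QuotientGroup.mk (q.out * ⟨k.1, hle k.2⟩ : H) : H ⧸ K) = q := by
          rw [QuotientGroup.mk_mul_of_mem _ (by simp [K, Subgroup.mem_subgroupOf]),
            QuotientGroup.out_eq']
        have h2 : (QuotientGroup.mk (q'.out * ⟨k'.1, hle k'.2⟩ : H) : H ⧸ K) = q' := by
          rw [QuotientGroup.mk_mul_of_mem _ (by simp [K, Subgroup.mem_subgroupOf]),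
            QuotientGroup.out_eq']
        rw [← h1, ← h2]
        exact congrArg _ h
      subst hq
      have h3 : (⟨k.1, hle k.2⟩ : H) = ⟨k'.1, hle k'.2⟩ := mul_left_cancel h
      have h4 : k.1 = k'.1 := congrArg (fun x : H => (x : G)) h3
      exact Prod.ext rfl (Subtype.ext h4)
    · intro h
      have hmem : ((h : H ⧸ K).out)⁻¹ * h ∈ K := by
        rw [← QuotientGroup.eq]
        exact QuotientGroup.out_eq' _
      refine ⟨((h : H ⧸ K), ⟨(((h : H ⧸ K).out)⁻¹ * h : H), hmem⟩), ?_⟩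
      apply Subtype.ext
      simp [f]
  refine ⟨H ⧸ K, inferInstance, fun q => (q.out : H), Equiv.ofBijective f hf,
    fun q => (q.out : H).2, fun i h' => rfl, ?_⟩
  rw [← Nat.card_eq_fintype_card]
  rfl

omit [SMulInvariantMeasure G X ν] in
/-- Passing to a subgroup of finite index: sum the weight over left coset representatives. -/
theorem IsWeight.sub [Countable H] (hφ : IsWeight ν H φ) {H' : Subgroup G} {ι : Type*}
    [Fintype ι] (r : ι → G) (e : ι × H' ≃ H) (he : ∀ i (h' : H'), (e (i, h') : G) = r i * h') :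
    IsWeight ν H' (fun x => ∑ i, φ (r i • x)) := by
  refine ⟨Finset.measurable_sum _ fun i _ => hφ.measurable.comp (measurable_const_smul _), ?_⟩
  filter_upwards [hφ.tsum_eq] with x hx
  rw [← hx, ← e.tsum_eq, ENNReal.tsum_prod']
  conv_rhs => rw [tsum_fintype]
  simp_rw [ENNReal.ofNNReal_finsetSum]
  rw [Summable.tsum_finsetSum fun i _ => ENNReal.summable]
  refine Finset.sum_congr rfl fun i _ => tsum_congr fun h' => ?_
  rw [he, mul_smul]

variable {E : Type*} [NormedAddCommGroup E] [NormedSpace ℝ E]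

theorem integral_sum_smul_eq {ι : Type*} [Fintype ι] (r : ι → G) (hφm : Measurable φ)
    {F : X → E} (hF : AEStronglyMeasurable F ν) (hinv : ∀ i x, F (r i • x) = F x)
    (hfin : ∫⁻ x, φ x * ‖F x‖ₑ ∂ν ≠ ∞) :
    ∫ x, ((∑ i, φ (r i • x) : ℝ≥0) : ℝ) • F x ∂ν
      = Fintype.card ι • ∫ x, (φ x : ℝ) • F x ∂ν := by
  have hint : Integrable (fun x => (φ x : ℝ) • F x) ν := by
    refine ⟨hφm.coe_nnreal_real.aestronglyMeasurable.smul hF, ?_⟩
    rw [hasFiniteIntegral_iff_enorm]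
    simp_rw [enorm_coe_smul]
    exact lt_of_le_of_ne le_top hfin
  have hint' : ∀ i, Integrable (fun x => (φ (r i • x) : ℝ) • F x) ν := fun i => by
    have := (measurePreserving_smul (r i) ν).integrable_comp_emb
      (MeasurableEquiv.smul (r i)).measurableEmbedding (g := fun x => (φ x : ℝ) • F x)
    have h2 := this.mpr hint
    refine h2.congr (Filter.Eventually.of_forall fun x => ?_)
    simp [Function.comp, hinv i x]
  simp_rw [NNReal.coe_sum, Finset.sum_smul]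
  rw [integral_finsetSum _ fun i _ => hint' i]
  have : ∀ i, ∫ x, (φ (r i • x) : ℝ) • F x ∂ν = ∫ x, (φ x : ℝ) • F x ∂ν := fun i => by
    rw [← integral_smul_eq_self (μ := ν) (fun x => (φ x : ℝ) • F x) (g := r i)]
    simp_rw [hinv i]
  simp_rw [this]
  rw [Finset.sum_const, Finset.card_univ]

end Derived

section Mean

variable {E : Type*} [NormedAddCommGroup E] [NormedSpace ℝ E]

variable (ν) in
/-- The mean of `F` against the weight `φ`. -/
noncomputable def wmean (φ : X → ℝ≥0) (F : X → E) : E :=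
  (∫ x, (φ x : ℝ) ∂ν)⁻¹ • ∫ x, (φ x : ℝ) • F x ∂ν

omit [MeasurableConstSMul G X] [SMulInvariantMeasure G X ν] [NormedSpace ℝ E] in
theorem lintegral_mul_enorm_ne_top {φ : X → ℝ≥0} (hφm : Measurable φ) {F : X → E} {C : ℝ}
    (hFb : ∀ x, ‖F x‖ ≤ C) (hφfin : ∫⁻ x, φ x ∂ν ≠ ∞) : ∫⁻ x, φ x * ‖F x‖ₑ ∂ν ≠ ∞ := by
  refine ne_top_of_le_ne_top (b := ∫⁻ x, φ x * ENNReal.ofReal C ∂ν) ?_
    (lintegral_mono fun x => mul_le_mul_right ?_ _)
  · rw [lintegral_mul_const _ hφm.coe_nnreal_ennreal]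
    exact ENNReal.mul_ne_top hφfin ENNReal.ofReal_ne_top
  · rw [← ofReal_norm]
    exact ENNReal.ofReal_le_ofReal (hFb x)

omit [MeasurableConstSMul G X] [SMulInvariantMeasure G X ν] in
theorem integral_coe_eq_integral_smul_one (φ : X → ℝ≥0) :
    ∫ x, (φ x : ℝ) ∂ν = ∫ x, (φ x : ℝ) • (1 : ℝ) ∂ν := by
  simp

/-- Two weights (of finite mass) for the same subgroup give the same mean. -/
theorem wmean_eq_of_isWeight {H : Subgroup G} [Countable H] {φ ψ : X → ℝ≥0}
    (hφ : IsWeight ν H φ) (hψ : IsWeight ν H ψ) (hφfin : ∫⁻ x, φ x ∂ν ≠ ∞)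
    {F : X → E} (hF : AEStronglyMeasurable F ν) {C : ℝ} (hFb : ∀ x, ‖F x‖ ≤ C)
    (hinv : ∀ h ∈ H, ∀ x, F (h • x) = F x) :
    wmean ν φ F = wmean ν ψ F := by
  unfold wmean
  rw [hφ.integral_smul_eq hψ hF hinv (lintegral_mul_enorm_ne_top hφ.measurable hFb hφfin),
    integral_coe_eq_integral_smul_one φ, integral_coe_eq_integral_smul_one ψ,
    hφ.integral_smul_eq hψ (F := fun _ => (1 : ℝ)) aestronglyMeasurable_const (fun _ _ _ => rfl)
      (lintegral_mul_enorm_ne_top hφ.measurable (C := 1) (fun _ => by simp) hφfin)]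

/-- The mean does not change when the weight is summed over finitely many translates which
fix `F`. -/
theorem wmean_sum_eq {ι : Type*} [Fintype ι] [Nonempty ι] (r : ι → G) {φ : X → ℝ≥0}
    (hφm : Measurable φ) (hφfin : ∫⁻ x, φ x ∂ν ≠ ∞)
    {F : X → E} (hF : AEStronglyMeasurable F ν) {C : ℝ} (hFb : ∀ x, ‖F x‖ ≤ C)
    (hinv : ∀ i x, F (r i • x) = F x) :
    wmean ν (fun x => ∑ i, φ (r i • x)) F = wmean ν φ F := by
  unfold wmean
  rw [integral_sum_smul_eq r hφm hF hinv (lintegral_mul_enorm_ne_top hφm hFb hφfin),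
    integral_coe_eq_integral_smul_one, integral_sum_smul_eq r hφm (F := fun _ => (1 : ℝ))
      aestronglyMeasurable_const (fun _ _ => rfl)
      (lintegral_mul_enorm_ne_top hφm (C := 1) (fun _ => by simp) hφfin),
    ← integral_coe_eq_integral_smul_one]
  have hc : (Fintype.card ι : ℝ) ≠ 0 := Nat.cast_ne_zero.mpr Fintype.card_ne_zero
  rw [← Nat.cast_smul_eq_nsmul ℝ, ← Nat.cast_smul_eq_nsmul ℝ, smul_eq_mul, mul_inv, smul_smul,
    mul_assoc, mul_comm _ (Fintype.card ι : ℝ), ← mul_assoc, inv_mul_cancel₀ hc, one_mul]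

omit [SMulInvariantMeasure G X ν] in
theorem lintegral_sum_smul_ne_top [SMulInvariantMeasure G X ν] {ι : Type*} [Fintype ι]
    (r : ι → G) {φ : X → ℝ≥0} (hφm : Measurable φ) (hφfin : ∫⁻ x, φ x ∂ν ≠ ∞) :
    ∫⁻ x, ((∑ i, φ (r i • x) : ℝ≥0) : ℝ≥0∞) ∂ν ≠ ∞ := by
  simp_rw [ENNReal.ofNNReal_finsetSum]
  rw [lintegral_finsetSum (f := fun i x => (φ (r i • x) : ℝ≥0∞)) _ fun i _ =>
    (hφm.comp (measurable_const_smul (r i))).coe_nnreal_ennreal]
  refine (ENNReal.sum_lt_top.mpr fun i _ => ?_).ne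
  rw [lintegral_smul_eq (fun x => (φ x : ℝ≥0∞)) (r i)]
  exact lt_of_le_of_ne le_top hφfin

/-- Change of variables. -/
theorem wmean_comp_smul (φ : X → ℝ≥0) (F : X → E) (g : G) :
    wmean ν (fun x => φ (g⁻¹ • x)) F = wmean ν φ (fun x => F (g • x)) := by
  unfold wmean
  rw [← integral_smul_eq_self (μ := ν) (fun x => (φ (g⁻¹ • x) : ℝ)) (g := g),
    ← integral_smul_eq_self (μ := ν) (fun x => (φ (g⁻¹ • x) : ℝ) • F x) (g := g)]
  simp only [inv_smul_smul]

/-- **Independence of the level.** -/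
theorem wmean_eq_of_inf {H K : Subgroup G} [Countable H] [Countable K] {φ ψ : X → ℝ≥0}
    (hφ : IsWeight ν H φ) (hψ : IsWeight ν K ψ) (hφfin : ∫⁻ x, φ x ∂ν ≠ ∞)
    (hψfin : ∫⁻ x, ψ x ∂ν ≠ ∞) (hH : (H ⊓ K).relIndex H ≠ 0) (hK : (H ⊓ K).relIndex K ≠ 0)
    {F : X → E} (hF : AEStronglyMeasurable F ν) {C : ℝ} (hFb : ∀ x, ‖F x‖ ≤ C)
    (hinvH : ∀ h ∈ H, ∀ x, F (h • x) = F x) (hinvK : ∀ h ∈ K, ∀ x, F (h • x) = F x) :
    wmean ν φ F = wmean ν ψ F := by
  obtain ⟨ι, _, r, e, hr, he, hcard⟩ := exists_leftTransversal (inf_le_left : H ⊓ K ≤ H) hH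
  obtain ⟨ι', _, r', e', hr', he', hcard'⟩ := exists_leftTransversal (inf_le_right : H ⊓ K ≤ K) hK
  have : Nonempty ι := Fintype.card_pos_iff.mp (by rw [hcard]; exact Nat.pos_of_ne_zero hH)
  have : Nonempty ι' := Fintype.card_pos_iff.mp (by rw [hcard']; exact Nat.pos_of_ne_zero hK)
  have : Countable ↥(H ⊓ K) :=
    (Subgroup.inclusion_injective (inf_le_left : H ⊓ K ≤ H)).countable
  rw [← wmean_sum_eq r hφ.measurable hφfin hF hFb (fun i x => hinvH _ (hr i) x),
    ← wmean_sum_eq r' hψ.measurable hψfin hF hFb (fun i x => hinvK _ (hr' i) x)]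
  exact wmean_eq_of_isWeight (hφ.sub r e he) (hψ.sub r' e' he')
    (lintegral_sum_smul_ne_top r hφ.measurable hφfin) hF hFb
    (fun h hh x => hinvH h hh.1 x)

omit [MeasurableConstSMul G X] [SMulInvariantMeasure G X ν] in
theorem integrable_coe_smul {φ : X → ℝ≥0} (hφm : Measurable φ) (hφfin : ∫⁻ x, φ x ∂ν ≠ ∞)
    {F : X → E} (hF : AEStronglyMeasurable F ν) {C : ℝ} (hFb : ∀ x, ‖F x‖ ≤ C) :
    Integrable (fun x => (φ x : ℝ) • F x) ν := by
  refine ⟨hφm.coe_nnreal_real.aestronglyMeasurable.smul hF, ?_⟩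
  rw [hasFiniteIntegral_iff_enorm]
  simp_rw [enorm_coe_smul]
  exact lt_of_le_of_ne le_top (lintegral_mul_enorm_ne_top hφm hFb hφfin)

omit [MeasurableConstSMul G X] [SMulInvariantMeasure G X ν] in
theorem wmean_add {φ : X → ℝ≥0} (hφm : Measurable φ) (hφfin : ∫⁻ x, φ x ∂ν ≠ ∞)
    {F₁ F₂ : X → E} (hF₁ : AEStronglyMeasurable F₁ ν) (hF₂ : AEStronglyMeasurable F₂ ν)
    {C₁ C₂ : ℝ} (hFb₁ : ∀ x, ‖F₁ x‖ ≤ C₁) (hFb₂ : ∀ x, ‖F₂ x‖ ≤ C₂) :
    wmean ν φ (fun x => F₁ x + F₂ x) = wmean ν φ F₁ + wmean ν φ F₂ := by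
  unfold wmean
  simp_rw [smul_add]
  rw [integral_add (integrable_coe_smul hφm hφfin hF₁ hFb₁)
    (integrable_coe_smul hφm hφfin hF₂ hFb₂), smul_add]

omit [MeasurableConstSMul G X] [SMulInvariantMeasure G X ν] in
theorem wmean_clm {E' : Type*} [NormedAddCommGroup E'] [NormedSpace ℝ E'] [CompleteSpace E]
    [CompleteSpace E'] (L : E →L[ℝ] E')
    {φ : X → ℝ≥0} (hφm : Measurable φ) (hφfin : ∫⁻ x, φ x ∂ν ≠ ∞)
    {F : X → E} (hF : AEStronglyMeasurable F ν) {C : ℝ} (hFb : ∀ x, ‖F x‖ ≤ C) :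
    wmean ν φ (fun x => L (F x)) = L (wmean ν φ F) := by
  unfold wmean
  rw [map_smul, ← L.integral_comp_comm (integrable_coe_smul hφm hφfin hF hFb)]
  simp_rw [map_smul]

omit [MeasurableConstSMul G X] [SMulInvariantMeasure G X ν] in
theorem wmean_nonneg (φ : X → ℝ≥0) {F : X → ℝ} (h0 : ∀ x, 0 ≤ F x) : 0 ≤ wmean ν φ F := by
  unfold wmean
  refine smul_nonneg (inv_nonneg.mpr (integral_nonneg fun x => NNReal.coe_nonneg _))
    (integral_nonneg fun x => smul_nonneg (NNReal.coe_nonneg _) (h0 x))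

/-- Definiteness: a nonnegative invariant function of mean zero vanishes almost everywhere. -/
theorem ae_eq_zero_of_wmean_eq_zero {H : Subgroup G} [Countable H] {φ : X → ℝ≥0}
    (hφ : IsWeight ν H φ) (hφfin : ∫⁻ x, φ x ∂ν ≠ ∞)
    {F : X → ℝ} (hF : AEStronglyMeasurable F ν) {C : ℝ} (hFb : ∀ x, ‖F x‖ ≤ C)
    (h0 : ∀ x, 0 ≤ F x) (hinv : ∀ h ∈ H, ∀ x, F (h • x) = F x) (hm : wmean ν φ F = 0) :
    F =ᵐ[ν] 0 := by
  have hint : ∀ {F : X → ℝ}, AEStronglyMeasurable F ν → (∀ x, ‖F x‖ ≤ C) →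
      Integrable (fun x => (φ x : ℝ) • F x) ν := fun {F} hF hFb => by
    refine ⟨hφ.measurable.coe_nnreal_real.aestronglyMeasurable.smul hF, ?_⟩
    rw [hasFiniteIntegral_iff_enorm]
    simp_rw [enorm_coe_smul]
    exact lt_of_le_of_ne le_top (lintegral_mul_enorm_ne_top hφ.measurable hFb hφfin)
  have hzero : ∀ᵐ x ∂ν, (φ x : ℝ) • F x = 0 := by
    unfold wmean at hm
    rcases smul_eq_zero.mp hm with h | h
    · rw [inv_eq_zero, integral_coe_eq_integral_smul_one] at h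
      have h1 : Integrable (fun x => (φ x : ℝ) • (1 : ℝ)) ν := by
        have hφi : Integrable (fun x => (φ x : ℝ)) ν := by
          refine ⟨hφ.measurable.coe_nnreal_real.aestronglyMeasurable, ?_⟩
          rw [hasFiniteIntegral_iff_enorm]
          have : ∀ x, ‖(φ x : ℝ)‖ₑ = φ x := fun x => by
            rw [Real.enorm_eq_ofReal (NNReal.coe_nonneg _), ENNReal.ofReal_coe_nnreal]
          simp_rw [this]
          exact lt_of_le_of_ne le_top hφfin
        simpa using hφi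
      have h2 := (integral_eq_zero_iff_of_nonneg
        (fun x => smul_nonneg (NNReal.coe_nonneg _) zero_le_one) h1).mp h
      filter_upwards [h2] with x hx
      have : (φ x : ℝ) = 0 := by simpa using hx
      rw [this, zero_smul]
    · exact (integral_eq_zero_iff_of_nonneg
        (fun x => smul_nonneg (NNReal.coe_nonneg _) (h0 x)) (hint hF hFb)).mp h
  have hall : ∀ᵐ x ∂ν, ∀ h : H, (φ ((h : G) • x) : ℝ) • F ((h : G) • x) = 0 :=
    ae_all_iff.mpr fun h => ae_smul_of_ae hzero (h : G)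
  filter_upwards [hall, hφ.tsum_eq] with x hx hsum
  by_contra hne
  have : ∀ h : H, (φ ((h : G) • x) : ℝ≥0∞) = 0 := fun h => by
    have := hx h
    rw [hinv _ h.2, smul_eq_mul] at this
    rcases mul_eq_zero.mp this with h' | h'
    · exact_mod_cast h'
    · exact absurd h' hne
  simp [this] at hsum

end Mean

end Fermat.Agent.GR.PET
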