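/-
K11 PET (helper5), part 2: levels (arithmetic subgroups inside SL(2,ℤ)), automorphic functions and
their normalised invariant mean; invariance of the mean under GL(2,ℚ).
-/
import Fermat.Agent.GR.PET_helper5_Weight

set_option autoImplicit false

namespace Fermat.Agent.GR.PET

open MeasureTheory UpperHalfPlane Matrix.SpecialLinearGroup
open scoped ENNReal NNReal MatrixGroups Pointwise

/-- The hypothesis that `SL(2,ℤ)` has a weight of finite mass (discharged in `PETB`). -/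
def HasBaseWeight : Prop :=
  ∃ φ : ℍ → ℝ≥0, Measurable φ ∧ (∀ z : ℍ, ∑' γ : SL(2, ℤ), (φ (γ • z) : ℝ≥0∞) = 1) ∧
    ∫⁻ z, (φ z : ℝ≥0∞) ∂(volume : Measure ℍ) ≠ ⊤

/-- A *level*: an arithmetic subgroup of `GL(2,ℝ)` contained in the image of `SL(2,ℤ)`. -/
def IsLevel (H : Subgroup (GL (Fin 2) ℝ)) : Prop := H ≤ 𝒮ℒ ∧ H.IsArithmetic

instance countable_SL2Z : Countable SL(2, ℤ) :=
  haveI : Countable (Matrix (Fin 2) (Fin 2) ℤ) := inferInstanceAs (Countable (Fin 2 → Fin 2 → ℤ))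
  Subtype.countable

instance countable_SL : Countable ↥(𝒮ℒ : Subgroup (GL (Fin 2) ℝ)) :=
  (Set.countable_range _).to_subtype

theorem IsLevel.countable {H : Subgroup (GL (Fin 2) ℝ)} (hH : IsLevel H) : Countable H :=
  (Subgroup.inclusion_injective hH.1).countable

theorem isLevel_SL : IsLevel (𝒮ℒ : Subgroup (GL (Fin 2) ℝ)) := ⟨le_rfl, inferInstance⟩

theorem IsLevel.inf {H K : Subgroup (GL (Fin 2) ℝ)} (hH : IsLevel H) (hK : IsLevel K) :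
    IsLevel (H ⊓ K) :=
  haveI := hH.2
  haveI := hK.2
  ⟨inf_le_left.trans hH.1, inferInstance⟩

theorem IsLevel.relIndex_ne_zero {H K : Subgroup (GL (Fin 2) ℝ)} (hH : IsLevel H)
    (hK : IsLevel K) : H.relIndex K ≠ 0 := fun h =>
  hH.2.is_commensurable.1 (Subgroup.relIndex_eq_zero_of_le_right hK.1 h)

/-- Conjugating a level by a rational matrix and intersecting with `SL(2,ℤ)` gives a level. -/
theorem IsLevel.conj_inf {H : Subgroup (GL (Fin 2) ℝ)} (hH : IsLevel H) (g : GL (Fin 2) ℚ) :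
    IsLevel ((ConjAct.toConjAct (g.map (Rat.castHom ℝ)) • H) ⊓ 𝒮ℒ) :=
  haveI := hH.2
  haveI := Subgroup.IsArithmetic.conj H g
  ⟨inf_le_right, inferInstance⟩

theorem mem_conj_iff {H : Subgroup (GL (Fin 2) ℝ)} (g x : GL (Fin 2) ℝ) :
    x ∈ ConjAct.toConjAct g • H ↔ g⁻¹ * x * g ∈ H := by
  rw [Subgroup.mem_pointwise_smul_iff_inv_smul_mem, ← ConjAct.toConjAct_inv,
    ConjAct.toConjAct_smul, inv_inv]

section Base

variable [hb : Fact HasBaseWeight]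

include hb in
theorem exists_isWeight_SL :
    ∃ φ : ℍ → ℝ≥0, IsWeight volume (𝒮ℒ : Subgroup (GL (Fin 2) ℝ)) φ ∧
      ∫⁻ z, (φ z : ℝ≥0∞) ≠ ⊤ := by
  obtain ⟨φ, hm, hsum, hfin⟩ := hb.out
  refine ⟨φ, ⟨hm, Filter.Eventually.of_forall fun z => ?_⟩, hfin⟩
  rw [← hsum z]
  let e : SL(2, ℤ) ≃ ↥(𝒮ℒ : Subgroup (GL (Fin 2) ℝ)) :=
    Equiv.ofInjective _ mapGL_injective
  rw [← e.tsum_eq]
  rfl

include hb in
theorem exists_isWeight_of_isLevel {H : Subgroup (GL (Fin 2) ℝ)} (hH : IsLevel H) :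
    ∃ φ : ℍ → ℝ≥0, IsWeight volume H φ ∧ ∫⁻ z, (φ z : ℝ≥0∞) ≠ ⊤ := by
  obtain ⟨φ, hφ, hfin⟩ := exists_isWeight_SL
  obtain ⟨ι, _, r, e, hr, he, hcard⟩ := exists_leftTransversal hH.1 hH.2.is_commensurable.1
  exact ⟨_, hφ.sub r e he, lintegral_sum_smul_ne_top r hφ.measurable hfin⟩

end Base

section MeanDef

variable {E : Type*} [NormedAddCommGroup E] [NormedSpace ℝ E]
variable {E' : Type*} [NormedAddCommGroup E'] [NormedSpace ℝ E']

/-- Bounded continuous functions on `ℍ` which are invariant under some level. -/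
structure IsAuto (F : ℍ → E) : Prop where
  cont : Continuous F
  bdd : ∃ C : ℝ, ∀ z, ‖F z‖ ≤ C
  inv : ∃ H : Subgroup (GL (Fin 2) ℝ), IsLevel H ∧ ∀ h ∈ H, ∀ z, F (h • z) = F z

open Classical in
/-- The normalised invariant mean of an automorphic function. -/
noncomputable def Mean (F : ℍ → E) : E :=
  if h : ∃ (H : Subgroup (GL (Fin 2) ℝ)) (φ : ℍ → ℝ≥0), IsLevel H ∧
      (∀ h ∈ H, ∀ z, F (h • z) = F z) ∧ IsWeight volume H φ ∧ ∫⁻ z, (φ z : ℝ≥0∞) ≠ ⊤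
  then wmean volume h.choose_spec.choose F else 0

theorem Mean_eq_wmean {F : ℍ → E} (hF : IsAuto F) {H : Subgroup (GL (Fin 2) ℝ)}
    (hH : IsLevel H) (hinv : ∀ h ∈ H, ∀ z, F (h • z) = F z) {φ : ℍ → ℝ≥0}
    (hφ : IsWeight volume H φ) (hφfin : ∫⁻ z, (φ z : ℝ≥0∞) ≠ ⊤) :
    Mean F = wmean volume φ F := by
  have hex : ∃ (H : Subgroup (GL (Fin 2) ℝ)) (φ : ℍ → ℝ≥0), IsLevel H ∧
      (∀ h ∈ H, ∀ z, F (h • z) = F z) ∧ IsWeight volume H φ ∧ ∫⁻ z, (φ z : ℝ≥0∞) ≠ ⊤ :=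
    ⟨H, φ, hH, hinv, hφ, hφfin⟩
  unfold Mean
  rw [dif_pos hex]
  obtain ⟨hH₀, hinv₀, hφ₀, hφ₀fin⟩ := hex.choose_spec.choose_spec
  obtain ⟨C, hC⟩ := hF.bdd
  have := hH.countable
  have := hH₀.countable
  refine wmean_eq_of_inf hφ₀ hφ hφ₀fin hφfin ?_ ?_ hF.cont.aestronglyMeasurable hC hinv₀ hinv
  · rw [Subgroup.inf_relIndex_left]
    exact hH.relIndex_ne_zero hH₀
  · rw [Subgroup.inf_relIndex_right]
    exact hH₀.relIndex_ne_zero hH

variable [hb : Fact HasBaseWeight]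

include hb in
/-- A weight adapted to a given automorphic function. -/
theorem IsAuto.exists_weight {F : ℍ → E} (hF : IsAuto F) {K : Subgroup (GL (Fin 2) ℝ)}
    (hK : IsLevel K) :
    ∃ (H : Subgroup (GL (Fin 2) ℝ)) (φ : ℍ → ℝ≥0), IsLevel H ∧ H ≤ K ∧
      (∀ h ∈ H, ∀ z, F (h • z) = F z) ∧ IsWeight volume H φ ∧ ∫⁻ z, (φ z : ℝ≥0∞) ≠ ⊤ ∧
      Mean F = wmean volume φ F := by
  obtain ⟨H, hH, hinv⟩ := hF.inv
  have hHK := hH.inf hK
  obtain ⟨φ, hφ, hφfin⟩ := exists_isWeight_of_isLevel hHK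
  have hinv' : ∀ h ∈ H ⊓ K, ∀ z, F (h • z) = F z := fun h hh z => hinv h hh.1 z
  exact ⟨H ⊓ K, φ, hHK, inf_le_right, hinv', hφ, hφfin, Mean_eq_wmean hF hHK hinv' hφ hφfin⟩

omit hb [NormedSpace ℝ E] in
theorem IsAuto.add {F₁ F₂ : ℍ → E} (h₁ : IsAuto F₁) (h₂ : IsAuto F₂) :
    IsAuto (fun z => F₁ z + F₂ z) := by
  obtain ⟨C₁, hC₁⟩ := h₁.bdd
  obtain ⟨C₂, hC₂⟩ := h₂.bdd
  obtain ⟨H₁, hH₁, hi₁⟩ := h₁.inv
  obtain ⟨H₂, hH₂, hi₂⟩ := h₂.inv
  exact ⟨h₁.cont.add h₂.cont, ⟨C₁ + C₂, fun z => (norm_add_le _ _).trans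
    (add_le_add (hC₁ z) (hC₂ z))⟩, ⟨H₁ ⊓ H₂, hH₁.inf hH₂, fun h hh z => by
      rw [hi₁ h hh.1, hi₂ h hh.2]⟩⟩

omit hb in
theorem IsAuto.clm (L : E →L[ℝ] E') {F : ℍ → E} (hF : IsAuto F) : IsAuto (fun z => L (F z)) := by
  obtain ⟨C, hC⟩ := hF.bdd
  obtain ⟨H, hH, hi⟩ := hF.inv
  exact ⟨L.continuous.comp hF.cont, ⟨‖L‖ * C, fun z => (L.le_opNorm _).trans
    (mul_le_mul_of_nonneg_left (hC z) (norm_nonneg _))⟩, ⟨H, hH, fun h hh z => by rw [hi h hh]⟩⟩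

omit hb [NormedSpace ℝ E] in
theorem isAuto_const (c : E) : IsAuto (fun _ : ℍ => c) :=
  ⟨continuous_const, ⟨‖c‖, fun _ => le_rfl⟩, ⟨_, isLevel_SL, fun _ _ _ => rfl⟩⟩

omit hb [NormedSpace ℝ E] in
theorem isAuto_zero : IsAuto (fun _ : ℍ => (0 : E)) := isAuto_const 0

omit hb [NormedSpace ℝ E] in
theorem IsAuto.sum {ι : Type*} (s : Finset ι) {F : ι → ℍ → E} (h : ∀ i ∈ s, IsAuto (F i)) :
    IsAuto (fun z => ∑ i ∈ s, F i z) := by
  classical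
  induction s using Finset.induction_on with
  | empty => simpa using isAuto_zero
  | insert a s ha ih =>
    simp only [Finset.sum_insert ha]
    exact (h a (Finset.mem_insert_self _ _)).add (ih fun i hi => h i (Finset.mem_insert_of_mem hi))

include hb in
theorem Mean_add {F₁ F₂ : ℍ → E} (h₁ : IsAuto F₁) (h₂ : IsAuto F₂) :
    Mean (fun z => F₁ z + F₂ z) = Mean F₁ + Mean F₂ := by
  obtain ⟨H₂, hH₂, hi₂⟩ := h₂.inv
  obtain ⟨H, φ, hH, hle, hi₁, hφ, hφfin, hM₁⟩ := h₁.exists_weight hH₂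
  have hi₂' : ∀ h ∈ H, ∀ z, F₂ (h • z) = F₂ z := fun h hh z => hi₂ h (hle hh) z
  obtain ⟨C₁, hC₁⟩ := h₁.bdd
  obtain ⟨C₂, hC₂⟩ := h₂.bdd
  rw [hM₁, Mean_eq_wmean h₂ hH hi₂' hφ hφfin, Mean_eq_wmean (h₁.add h₂) hH
    (fun h hh z => by rw [hi₁ h hh, hi₂' h hh]) hφ hφfin]
  exact wmean_add hφ.measurable hφfin h₁.cont.aestronglyMeasurable h₂.cont.aestronglyMeasurable
    hC₁ hC₂

include hb in
theorem Mean_clm [CompleteSpace E] [CompleteSpace E'] (L : E →L[ℝ] E') {F : ℍ → E}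
    (hF : IsAuto F) : Mean (fun z => L (F z)) = L (Mean F) := by
  obtain ⟨H, φ, hH, -, hi, hφ, hφfin, hM⟩ := hF.exists_weight isLevel_SL
  obtain ⟨C, hC⟩ := hF.bdd
  rw [hM, Mean_eq_wmean (hF.clm L) hH (fun h hh z => by rw [hi h hh]) hφ hφfin]
  exact wmean_clm L hφ.measurable hφfin hF.cont.aestronglyMeasurable hC

include hb in
theorem Mean_zero : Mean (fun _ : ℍ => (0 : E)) = 0 := by
  obtain ⟨H, φ, hH, -, hi, hφ, hφfin, hM⟩ := (isAuto_zero (E := E)).exists_weight isLevel_SL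
  rw [hM]
  simp [wmean]

include hb in
theorem Mean_sum {ι : Type*} (s : Finset ι) {F : ι → ℍ → E} (h : ∀ i ∈ s, IsAuto (F i)) :
    Mean (fun z => ∑ i ∈ s, F i z) = ∑ i ∈ s, Mean (F i) := by
  classical
  induction s using Finset.induction_on with
  | empty => simpa using Mean_zero
  | insert a s ha ih =>
    simp only [Finset.sum_insert ha]
    rw [Mean_add (h a (Finset.mem_insert_self _ _))
      (IsAuto.sum s fun i hi => h i (Finset.mem_insert_of_mem hi)),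
      ih fun i hi => h i (Finset.mem_insert_of_mem hi)]

omit hb [NormedSpace ℝ E] in
theorem IsAuto.comp_rat {F : ℍ → E} (hF : IsAuto F) (g : GL (Fin 2) ℚ) :
    IsAuto (fun z => F (g.map (Rat.castHom ℝ) • z)) := by
  obtain ⟨C, hC⟩ := hF.bdd
  obtain ⟨H, hH, hi⟩ := hF.inv
  refine ⟨hF.cont.comp (continuous_const_smul _), ⟨C, fun z => hC _⟩,
    ⟨_, hH.conj_inf g⁻¹, fun h hh z => ?_⟩⟩
  have h1 := (mem_conj_iff _ _).mp hh.1
  rw [map_inv, inv_inv] at h1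
  have := hi _ h1 (g.map (Rat.castHom ℝ) • z)
  rw [← this]
  congr 1
  simp only [← mul_smul]
  congr 1
  group

include hb in
/-- **Invariance of the mean under `GL(2,ℚ)`.** -/
theorem Mean_comp_rat {F : ℍ → E} (hF : IsAuto F) (g : GL (Fin 2) ℚ) :
    Mean (fun z => F (g.map (Rat.castHom ℝ) • z)) = Mean F := by
  set g' := g.map (Rat.castHom ℝ) with hg'
  obtain ⟨H, hH, hi⟩ := hF.inv
  -- the level `H₂ = g'⁻¹ H g' ∩ SL(2,ℤ)` of `F ∘ g'`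
  have hH₂ : IsLevel ((ConjAct.toConjAct ((g⁻¹).map (Rat.castHom ℝ)) • H) ⊓ 𝒮ℒ) :=
    hH.conj_inf g⁻¹
  set H₂ := (ConjAct.toConjAct ((g⁻¹).map (Rat.castHom ℝ)) • H) ⊓ 𝒮ℒ with hH₂def
  have hi₂ : ∀ h ∈ H₂, ∀ z, F (g' • h • z) = F (g' • z) := fun h hh z => by
    have h1 := (mem_conj_iff _ _).mp hh.1
    rw [map_inv, inv_inv, ← hg'] at h1
    have := hi _ h1 (g' • z)
    rw [← this]
    congr 1
    simp only [← mul_smul]
    congr 1
    group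
  obtain ⟨φ₂, hφ₂, hφ₂fin⟩ := exists_isWeight_of_isLevel hH₂
  -- the level `H₁ = g' H₂ g'⁻¹ ≤ H`
  have hH₁ : IsLevel (ConjAct.toConjAct g' • H₂) := by
    refine ⟨fun x hx => ?_, ?_⟩
    · have h1 := ((mem_conj_iff _ _).mp hx).1
      have h2 := (mem_conj_iff _ _).mp h1
      rw [map_inv, inv_inv, ← hg'] at h2
      have : g' * (g'⁻¹ * x * g') * g'⁻¹ = x := by group
      rw [this] at h2
      exact hH.1 h2
    · haveI := hH₂.2
      exact Subgroup.IsArithmetic.conj H₂ g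
  have hle : ConjAct.toConjAct g' • H₂ ≤ H := fun x hx => by
    have h1 := ((mem_conj_iff _ _).mp hx).1
    have h2 := (mem_conj_iff _ _).mp h1
    rw [map_inv, inv_inv, ← hg'] at h2
    have : g' * (g'⁻¹ * x * g') * g'⁻¹ = x := by group
    rwa [this] at h2
  have := hH₂.countable
  have hφ₁ : IsWeight volume (ConjAct.toConjAct g' • H₂) (fun z => φ₂ (g'⁻¹ • z)) :=
    hφ₂.conj g' (fun x => mem_conj_iff _ _)
  have hφ₁fin : ∫⁻ z, (φ₂ (g'⁻¹ • z) : ℝ≥0∞) ≠ ⊤ := by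
    rw [lintegral_smul_eq (fun z => (φ₂ z : ℝ≥0∞)) g'⁻¹]
    exact hφ₂fin
  rw [Mean_eq_wmean (hF.comp_rat g) hH₂ hi₂ hφ₂ hφ₂fin,
    Mean_eq_wmean hF hH₁ (fun h hh z => hi h (hle hh) z) hφ₁ hφ₁fin, wmean_comp_smul]

include hb in
theorem Mean_nonneg {F : ℍ → ℝ} (hF : IsAuto F) (h0 : ∀ z, 0 ≤ F z) : 0 ≤ Mean F := by
  obtain ⟨H, φ, hH, -, hi, hφ, hφfin, hM⟩ := hF.exists_weight isLevel_SL
  rw [hM]
  exact wmean_nonneg φ h0

include hb in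
/-- Definiteness of the mean on nonnegative automorphic functions. -/
theorem eq_zero_of_Mean_eq_zero [(volume : Measure ℍ).IsOpenPosMeasure] {F : ℍ → ℝ}
    (hF : IsAuto F) (h0 : ∀ z, 0 ≤ F z) (hM0 : Mean F = 0) (z : ℍ) : F z = 0 := by
  obtain ⟨H, φ, hH, -, hi, hφ, hφfin, hM⟩ := hF.exists_weight isLevel_SL
  obtain ⟨C, hC⟩ := hF.bdd
  have := hH.countable
  rw [hM] at hM0
  have hae := ae_eq_zero_of_wmean_eq_zero hφ hφfin hF.cont.aestronglyMeasurable hC h0 hi hM0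
  have := (hF.cont.ae_eq_iff_eq volume (continuous_const (y := (0 : ℝ)))).mp hae
  exact congrFun this z

end MeanDef

end Fermat.Agent.GR.PET
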