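/-
K11 PET (helper5), part 3: functions of cusp form type, the Petersson product `pet` as the
invariant mean of Mathlib's `petersson` integrand, sesquilinearity, positivity, and the
adjoint of the slash operators of rational matrices.
-/
import Fermat.Agent.GR.PET_helper5_Mean

set_option autoImplicit false

namespace Fermat.Agent.GR.PET

open MeasureTheory UpperHalfPlane Matrix.SpecialLinearGroup ModularForm
open scoped ENNReal NNReal MatrixGroups Pointwise ComplexConjugate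

/-- The rational matrices inside `GL(2,ℝ)`. -/
noncomputable def ratGL : Subgroup (GL (Fin 2) ℝ) :=
  MonoidHom.range (Matrix.GeneralLinearGroup.map (Rat.castHom ℝ))

theorem mapGL_mem_ratGL (γ : SL(2, ℤ)) : mapGL ℝ γ ∈ ratGL := by
  refine ⟨mapGL ℚ γ, ?_⟩
  ext i j
  simp [mapGL]

theorem SL_le_ratGL : (𝒮ℒ : Subgroup (GL (Fin 2) ℝ)) ≤ ratGL := by
  rintro _ ⟨γ, rfl⟩
  exact mapGL_mem_ratGL γ

theorem det_of_mem_SL {h : GL (Fin 2) ℝ} (hh : h ∈ (𝒮ℒ : Subgroup (GL (Fin 2) ℝ))) :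
    h.det.val = 1 := by
  obtain ⟨γ, rfl⟩ := hh
  simp

theorem σ_of_det_pos {g : GL (Fin 2) ℝ} (hg : 0 < g.det.val) : σ g = .refl ℝ ℂ := by
  rw [σ, if_pos hg]

theorem norm_petersson (k : ℤ) (F₁ F₂ : ℍ → ℂ) (z : ℍ) :
    ‖petersson k F₁ F₂ z‖ = ‖F₁ z‖ * ‖F₂ z‖ * z.im ^ k := by
  rw [petersson, norm_mul, norm_mul, Complex.norm_conj, norm_zpow, Complex.norm_real,
    Real.norm_of_nonneg z.im_pos.le]

theorem norm_petersson_sq (k : ℤ) (F₁ F₂ : ℍ → ℂ) (z : ℍ) :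
    ‖petersson k F₁ F₂ z‖ ^ 2 = ‖petersson k F₁ F₁ z‖ * ‖petersson k F₂ F₂ z‖ := by
  simp only [norm_petersson]
  ring

/-- invariance of the Petersson integrand under elements of determinant one. -/
theorem petersson_smul_of_slash_eq (k : ℤ) {F₁ F₂ : ℍ → ℂ} {h : GL (Fin 2) ℝ}
    (hdet : h.det.val = 1) (h₁ : F₁ ∣[k] h = F₁) (h₂ : F₂ ∣[k] h = F₂) (z : ℍ) :
    petersson k F₁ F₂ (h • z) = petersson k F₁ F₂ z := by
  have := petersson_slash k F₁ F₂ h z
  rw [h₁, h₂, hdet, σ_of_det_pos (by rw [hdet]; exact one_pos)] at this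
  simpa using this.symm

/-- Functions which behave like cusp forms of weight `k` of some level. -/
structure IsPetForm (k : ℤ) (F : ℍ → ℂ) : Prop where
  cont : Continuous F
  bdd : ∃ C : ℝ, ∀ z, ‖petersson k F F z‖ ≤ C
  inv : ∃ H : Subgroup (GL (Fin 2) ℝ), IsLevel H ∧ ∀ h ∈ H, F ∣[k] h = F

theorem IsPetForm.isAuto_petersson {k : ℤ} {F₁ F₂ : ℍ → ℂ} (h₁ : IsPetForm k F₁)
    (h₂ : IsPetForm k F₂) : IsAuto (petersson k F₁ F₂) := by
  obtain ⟨C₁, hC₁⟩ := h₁.bdd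
  obtain ⟨C₂, hC₂⟩ := h₂.bdd
  obtain ⟨H₁, hH₁, hi₁⟩ := h₁.inv
  obtain ⟨H₂, hH₂, hi₂⟩ := h₂.inv
  refine ⟨petersson_continuous k h₁.cont h₂.cont, ⟨Real.sqrt (C₁ * C₂), fun z => ?_⟩,
    ⟨H₁ ⊓ H₂, hH₁.inf hH₂, fun h hh z => ?_⟩⟩
  · refine Real.le_sqrt_of_sq_le ?_
    rw [norm_petersson_sq]
    exact mul_le_mul (hC₁ z) (hC₂ z) (norm_nonneg _) ((norm_nonneg _).trans (hC₁ z))
  · exact petersson_smul_of_slash_eq k (det_of_mem_SL (hH₁.1 hh.1)) (hi₁ h hh.1) (hi₂ h hh.2) z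

theorem continuous_slash {k : ℤ} {F : ℍ → ℂ} (hF : Continuous F) (g : GL (Fin 2) ℝ) :
    Continuous (F ∣[k] g) := by
  rw [slash_def]
  refine ((σ g).continuous.comp (hF.comp (continuous_const_smul g))).mul continuous_const |>.mul ?_
  exact (mdifferentiable_denom_zpow g (-k)).continuous

theorem IsPetForm.slash {k : ℤ} {F : ℍ → ℂ} (hF : IsPetForm k F) {g : GL (Fin 2) ℝ}
    (hg : g ∈ ratGL) : IsPetForm k (F ∣[k] g) := by
  obtain ⟨C, hC⟩ := hF.bdd
  obtain ⟨H, hH, hi⟩ := hF.inv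
  obtain ⟨g₀, rfl⟩ := hg
  refine ⟨continuous_slash hF.cont _, ⟨|(Matrix.GeneralLinearGroup.map (Rat.castHom ℝ) g₀).det.val|
    ^ (k - 2) * C, fun z => ?_⟩, ⟨_, hH.conj_inf g₀⁻¹, fun h hh => ?_⟩⟩
  · rw [petersson_slash, norm_mul, norm_σ, norm_zpow, Complex.norm_real, Real.norm_eq_abs, abs_abs]
    exact mul_le_mul_of_nonneg_left (hC _) (zpow_nonneg (abs_nonneg _) _)
  · have h1 := (mem_conj_iff _ _).mp hh.1
    rw [map_inv, inv_inv] at h1
    set g := Matrix.GeneralLinearGroup.map (Rat.castHom ℝ) g₀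
    have h2 : g * h = (g * h * g⁻¹) * g := by group
    rw [← SlashAction.slash_mul, h2, SlashAction.slash_mul, hi _ h1]

section Pet

variable [hb : Fact HasBaseWeight]

omit hb in
theorem IsAuto.const_mul {P : ℍ → ℂ} (hP : IsAuto P) (c : ℂ) : IsAuto (fun z => c * P z) :=
  hP.clm (c • ContinuousLinearMap.id ℝ ℂ)

include hb in
theorem Mean_const_mul {P : ℍ → ℂ} (hP : IsAuto P) (c : ℂ) :
    Mean (fun z => c * P z) = c * Mean P :=
  Mean_clm (c • ContinuousLinearMap.id ℝ ℂ) hP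

omit hb in
theorem IsAuto.conj {P : ℍ → ℂ} (hP : IsAuto P) : IsAuto (fun z => conj (P z)) :=
  hP.clm (Complex.conjCLE : ℂ →L[ℝ] ℂ)

include hb in
theorem Mean_conj {P : ℍ → ℂ} (hP : IsAuto P) : Mean (fun z => conj (P z)) = conj (Mean P) :=
  Mean_clm (Complex.conjCLE : ℂ →L[ℝ] ℂ) hP

omit hb in
theorem IsAuto.ofReal {R : ℍ → ℝ} (hR : IsAuto R) : IsAuto (fun z => (R z : ℂ)) :=
  hR.clm Complex.ofRealCLM

include hb in
theorem Mean_ofReal {R : ℍ → ℝ} (hR : IsAuto R) : Mean (fun z => (R z : ℂ)) = ((Mean R : ℝ) : ℂ) :=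
  Mean_clm Complex.ofRealCLM hR

/-- The Petersson product of two functions of cusp form type. -/
noncomputable def pet (k : ℤ) (F₁ F₂ : ℍ → ℂ) : ℂ := Mean (petersson k F₁ F₂)

variable {k : ℤ} {F₁ F₂ F₃ : ℍ → ℂ}

include hb in
theorem pet_add_left (h₁ : IsPetForm k F₁) (h₂ : IsPetForm k F₂) (h₃ : IsPetForm k F₃) :
    pet k (F₁ + F₂) F₃ = pet k F₁ F₃ + pet k F₂ F₃ := by
  unfold pet
  rw [← Mean_add (h₁.isAuto_petersson h₃) (h₂.isAuto_petersson h₃)]
  congr 1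
  ext z
  simp [petersson, add_mul]

include hb in
theorem pet_add_right (h₁ : IsPetForm k F₁) (h₂ : IsPetForm k F₂) (h₃ : IsPetForm k F₃) :
    pet k F₁ (F₂ + F₃) = pet k F₁ F₂ + pet k F₁ F₃ := by
  unfold pet
  rw [← Mean_add (h₁.isAuto_petersson h₂) (h₁.isAuto_petersson h₃)]
  congr 1
  ext z
  simp [petersson, add_mul, mul_add]

include hb in
theorem pet_sum_left {ι : Type*} (s : Finset ι) {F : ι → ℍ → ℂ}
    (hF : ∀ i ∈ s, IsPetForm k (F i)) (h₃ : IsPetForm k F₃) :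
    pet k (∑ i ∈ s, F i) F₃ = ∑ i ∈ s, pet k (F i) F₃ := by
  unfold pet
  rw [← Mean_sum s fun i hi => (hF i hi).isAuto_petersson h₃]
  congr 1
  ext z
  simp [petersson, Finset.sum_mul]

include hb in
theorem pet_sum_right {ι : Type*} (s : Finset ι) {F : ι → ℍ → ℂ}
    (hF : ∀ i ∈ s, IsPetForm k (F i)) (h₃ : IsPetForm k F₃) :
    pet k F₃ (∑ i ∈ s, F i) = ∑ i ∈ s, pet k F₃ (F i) := by
  unfold pet
  rw [← Mean_sum s fun i hi => h₃.isAuto_petersson (hF i hi)]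
  congr 1
  ext z
  simp [petersson, Finset.sum_mul, Finset.mul_sum]

include hb in
theorem pet_smul_left (h₁ : IsPetForm k F₁) (h₂ : IsPetForm k F₂) (c : ℂ) :
    pet k (c • F₁) F₂ = conj c * pet k F₁ F₂ := by
  unfold pet
  rw [← Mean_const_mul (h₁.isAuto_petersson h₂)]
  congr 1
  ext z
  simp [petersson, mul_assoc]

include hb in
theorem pet_smul_right (h₁ : IsPetForm k F₁) (h₂ : IsPetForm k F₂) (c : ℂ) :
    pet k F₁ (c • F₂) = c * pet k F₁ F₂ := by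
  unfold pet
  rw [← Mean_const_mul (h₁.isAuto_petersson h₂)]
  congr 1
  ext z
  simp only [petersson, Pi.smul_apply, smul_eq_mul]
  ring

include hb in
theorem pet_conj_symm (h₁ : IsPetForm k F₁) (h₂ : IsPetForm k F₂) :
    pet k F₂ F₁ = conj (pet k F₁ F₂) := by
  unfold pet
  rw [← Mean_conj (h₁.isAuto_petersson h₂)]
  congr 1
  ext z
  exact petersson_symm k F₁ F₂ z

include hb in
/-- Invariance of the Petersson product under rational matrices of positive determinant. -/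
theorem pet_slash_slash (h₁ : IsPetForm k F₁) (h₂ : IsPetForm k F₂) {g : GL (Fin 2) ℝ}
    (hg : g ∈ ratGL) (hdet : 0 < g.det.val) :
    pet k (F₁ ∣[k] g) (F₂ ∣[k] g) = (g.det.val : ℂ) ^ (k - 2) * pet k F₁ F₂ := by
  unfold pet
  obtain ⟨g₀, rfl⟩ := hg
  rw [← Mean_comp_rat (h₁.isAuto_petersson h₂) g₀,
    ← Mean_const_mul ((h₁.isAuto_petersson h₂).comp_rat g₀)]
  congr 1
  ext z
  rw [petersson_slash, σ_of_det_pos hdet, abs_of_pos hdet]
  rfl

include hb in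
/-- The adjoint of the slash operator. -/
theorem pet_slash_left (h₁ : IsPetForm k F₁) (h₂ : IsPetForm k F₂) {g : GL (Fin 2) ℝ}
    (hg : g ∈ ratGL) (hdet : 0 < g.det.val) :
    pet k (F₁ ∣[k] g) F₂ = (g.det.val : ℂ) ^ (k - 2) * pet k F₁ (F₂ ∣[k] g⁻¹) := by
  rw [← pet_slash_slash h₁ (h₂.slash (ratGL.inv_mem hg)) hg hdet, ← SlashAction.slash_mul,
    inv_mul_cancel, SlashAction.slash_one]

omit hb in
theorem petersson_self (k : ℤ) (F : ℍ → ℂ) (z : ℍ) :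
    petersson k F F z = ((‖F z‖ ^ 2 * z.im ^ k : ℝ) : ℂ) := by
  rw [petersson, Complex.conj_mul']
  push_cast
  rfl

omit hb in
theorem IsPetForm.isAuto_normSq (h : IsPetForm k F₁) :
    IsAuto (fun z : ℍ => ‖F₁ z‖ ^ 2 * z.im ^ k) := by
  have := (h.isAuto_petersson h).clm Complex.reCLM
  have heq : (fun z : ℍ => Complex.reCLM (petersson k F₁ F₁ z))
      = fun z : ℍ => ‖F₁ z‖ ^ 2 * z.im ^ k := by
    ext z
    show (petersson k F₁ F₁ z).re = _
    rw [petersson_self]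
    exact Complex.ofReal_re _
  rwa [heq] at this

include hb in
theorem pet_self (h : IsPetForm k F₁) :
    pet k F₁ F₁ = ((Mean (fun z : ℍ => ‖F₁ z‖ ^ 2 * z.im ^ k) : ℝ) : ℂ) := by
  have hR := h.isAuto_normSq
  unfold pet
  rw [← Mean_ofReal hR]
  congr 1
  ext z
  exact petersson_self k F₁ z

include hb in
theorem pet_self_nonneg (h : IsPetForm k F₁) : 0 ≤ (pet k F₁ F₁).re ∧ (pet k F₁ F₁).im = 0 := by
  have hR := h.isAuto_normSq
  rw [pet_self h]
  exact ⟨by simpa using Mean_nonneg hR fun z => mul_nonneg (sq_nonneg _) (zpow_nonneg z.im_pos.le _),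
    by simp⟩

include hb in
/-- Definiteness of the Petersson product. -/
theorem eq_zero_of_pet_self_eq_zero [(volume : Measure ℍ).IsOpenPosMeasure]
    (h : IsPetForm k F₁) (h0 : pet k F₁ F₁ = 0) : F₁ = 0 := by
  have hR := h.isAuto_normSq
  rw [pet_self h] at h0
  have hM : Mean (fun z : ℍ => ‖F₁ z‖ ^ 2 * z.im ^ k) = 0 := by exact_mod_cast h0
  ext z
  have := eq_zero_of_Mean_eq_zero hR
    (fun z => mul_nonneg (sq_nonneg _) (zpow_nonneg z.im_pos.le _)) hM z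
  rcases mul_eq_zero.mp this with h1 | h1
  · simpa using h1
  · exact absurd h1 (zpow_ne_zero _ z.im_pos.ne')

end Pet

end Fermat.Agent.GR.PET
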