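/-
K11 PET (helper5), part 4: cusp forms for Γ₀(N) are of cusp form type, the double coset
Γ₀(N) diag(1,p) Γ₀(N), self-adjointness of `T_p` (p ∤ N) for the Petersson product and the
reducedness of the Hecke algebra away from the level (relative to the base weight of `SL(2,ℤ)`).
-/
import Fermat.Agent.GR.PET_helper5_Pet
import Fermat.Prelude.Def_CuspForm_HeckeAlgebra

set_option autoImplicit false

namespace Fermat.Agent.GR.PET

open MeasureTheory UpperHalfPlane Matrix.SpecialLinearGroup ModularForm CongruenceSubgroup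
open scoped ENNReal NNReal MatrixGroups Pointwise ComplexConjugate

variable {N : ℕ} [NeZero N] {k : ℤ}

/-- `Γ₀(N)` inside `GL(2,ℝ)` is a level. -/
theorem isLevel_Gamma0 (N : ℕ) [NeZero N] :
    IsLevel ((Gamma0 N : Subgroup SL(2, ℤ)) : Subgroup (GL (Fin 2) ℝ)) :=
  ⟨Subgroup.map_le_range _ _, inferInstance⟩

/-- Cusp forms for `Γ₀(N)` are of cusp form type. -/
theorem isPetForm_cuspForm (f : CuspForm (Gamma0 N) k) : IsPetForm k ⇑f :=
  ⟨(CuspFormClass.holo f).continuous,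
    CuspFormClass.petersson_bounded_left k _ f f,
    ⟨_, isLevel_Gamma0 N, fun h hh => SlashInvariantFormClass.slash_action_eq f h hh⟩⟩

omit [NeZero N] in
theorem slash_mapGL_of_mem_Gamma0 (f : CuspForm (Gamma0 N) k) {δ : SL(2, ℤ)} (hδ : δ ∈ Gamma0 N) :
    (⇑f) ∣[k] (mapGL ℝ δ) = ⇑f :=
  SlashInvariantFormClass.slash_action_eq f _ (Subgroup.mem_map_of_mem _ hδ)

theorem det_mapGL_val (δ : SL(2, ℤ)) : (mapGL ℝ δ).det.val = 1 := by simp

section Matrices

theorem upperTriangularGL_mem_ratGL (a b d : ℚ) (had : ((a : ℝ)) * (d : ℝ) ≠ 0) :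
    upperTriangularGL a b d had ∈ ratGL := by
  have had' : a * d ≠ 0 := by
    intro h
    apply had
    exact_mod_cast h
  refine ⟨Matrix.GeneralLinearGroup.mkOfDetNeZero !![a, b; 0, d]
    (by rwa [Matrix.det_fin_two_of, mul_zero, sub_zero]), ?_⟩
  ext i j
  fin_cases i <;> fin_cases j <;> simp [upperTriangularGL]

theorem heckeMatrix_mem_ratGL (p j : ℕ) : heckeMatrix p j ∈ ratGL := by
  unfold heckeMatrix
  split_ifs with hp
  · exact ratGL.one_mem
  · have := upperTriangularGL_mem_ratGL 1 (j : ℚ) (p : ℚ) (by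
      rw [Rat.cast_one, one_mul]; exact_mod_cast hp)
    simpa using this

theorem heckeDiagMatrix_mem_ratGL (p : ℕ) : heckeDiagMatrix p ∈ ratGL := by
  unfold heckeDiagMatrix
  split_ifs with hp
  · exact ratGL.one_mem
  · have := upperTriangularGL_mem_ratGL (p : ℚ) 0 1 (by
      rw [Rat.cast_one, mul_one]; exact_mod_cast hp)
    simpa using this

theorem mapGL_apply_apply (γ : SL(2, ℤ)) (a b : Fin 2) :
    (mapGL ℝ γ : GL (Fin 2) ℝ) a b = ((γ.1 a b : ℤ) : ℝ) := by
  simp [mapGL]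

theorem heckeMatrix_eq_mul {p : ℕ} (hp : p ≠ 0) (j : ℕ) :
    heckeMatrix p j
      = mapGL ℝ (1 : SL(2, ℤ)) * heckeMatrix p 0 * mapGL ℝ (ModularGroup.T ^ (j : ℤ)) := by
  apply Matrix.GeneralLinearGroup.ext
  intro a b
  have hT : ((mapGL ℝ (ModularGroup.T ^ (j : ℤ)) : GL (Fin 2) ℝ) : Matrix (Fin 2) (Fin 2) ℝ)
      = !![(1 : ℝ), (j : ℝ); 0, 1] := by
    ext a b
    rw [mapGL_apply_apply, ModularGroup.coe_T_zpow]
    fin_cases a <;> fin_cases b <;> simp
  rw [map_one, one_mul, Matrix.GeneralLinearGroup.coe_mul, val_heckeMatrix hp, val_heckeMatrix hp,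
    hT]
  fin_cases a <;> fin_cases b <;> simp [Matrix.mul_apply, Fin.sum_univ_two]

omit [NeZero N] in
theorem heckeDiagMatrix_eq_mul {p : ℕ} (hp : p ≠ 0) (hpN : Nat.Coprime p N) :
    ∃ δ₁ ∈ Gamma0 N, ∃ δ₂ ∈ Gamma0 N,
      heckeDiagMatrix p = mapGL ℝ δ₁ * heckeMatrix p 0 * mapGL ℝ δ₂ := by
  obtain ⟨a, b, hab⟩ : IsCoprime (p : ℤ) (N : ℤ) := Nat.isCoprime_iff_coprime.mpr hpN
  -- `a * p + b * N = 1`
  refine ⟨⟨!![(p : ℤ) * a, -b; (N : ℤ), 1], by rw [Matrix.det_fin_two_of]; linarith⟩, ?_,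
    ⟨!![(p : ℤ), b; -(N : ℤ), a], by rw [Matrix.det_fin_two_of]; linarith⟩, ?_, ?_⟩
  · rw [Gamma0_mem]
    simp
  · rw [Gamma0_mem]
    simp
  · apply Matrix.GeneralLinearGroup.ext
    intro i j
    rw [Matrix.GeneralLinearGroup.coe_mul, Matrix.GeneralLinearGroup.coe_mul,
      val_heckeMatrix hp, val_heckeDiagMatrix hp]
    have habR : (a : ℝ) * p + b * N = 1 := by exact_mod_cast hab
    fin_cases i <;> fin_cases j <;>
      simp [Matrix.mul_apply, Fin.sum_univ_two, mapGL] <;> nlinarith [habR]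

end Matrices

section DoubleCoset

variable [hb : Fact HasBaseWeight]

include hb in
theorem pet_slash_double_left (f g : CuspForm (Gamma0 N) k) {α : GL (Fin 2) ℝ} (hα : α ∈ ratGL)
    {δ₁ δ₂ : SL(2, ℤ)} (h₁ : δ₁ ∈ Gamma0 N) (h₂ : δ₂ ∈ Gamma0 N) :
    pet k ((⇑f) ∣[k] (mapGL ℝ δ₁ * α * mapGL ℝ δ₂)) ⇑g = pet k ((⇑f) ∣[k] α) ⇑g := by
  rw [SlashAction.slash_mul, SlashAction.slash_mul, slash_mapGL_of_mem_Gamma0 f h₁]
  conv_lhs => rw [← slash_mapGL_of_mem_Gamma0 g h₂]
  rw [pet_slash_slash ((isPetForm_cuspForm f).slash hα) (isPetForm_cuspForm g)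
    (mapGL_mem_ratGL δ₂) (by rw [det_mapGL_val]; exact one_pos), det_mapGL_val]
  simp

include hb in
theorem pet_slash_double_right (f g : CuspForm (Gamma0 N) k) {α : GL (Fin 2) ℝ} (hα : α ∈ ratGL)
    {δ₁ δ₂ : SL(2, ℤ)} (h₁ : δ₁ ∈ Gamma0 N) (h₂ : δ₂ ∈ Gamma0 N) :
    pet k ⇑f ((⇑g) ∣[k] (mapGL ℝ δ₁ * α * mapGL ℝ δ₂)) = pet k ⇑f ((⇑g) ∣[k] α) := by
  rw [SlashAction.slash_mul, SlashAction.slash_mul, slash_mapGL_of_mem_Gamma0 g h₁]
  conv_lhs => rw [← slash_mapGL_of_mem_Gamma0 f h₂]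
  rw [pet_slash_slash (isPetForm_cuspForm f) ((isPetForm_cuspForm g).slash hα)
    (mapGL_mem_ratGL δ₂) (by rw [det_mapGL_val]; exact one_pos), det_mapGL_val]
  simp

omit hb in
/-- the product `diag(p,1) * diag(1,p)` acts by the scalar `p ^ (k - 2)`. -/
theorem slash_heckeDiag_mul_heckeMatrix {p : ℕ} (hp : p ≠ 0) (F : ℍ → ℂ) :
    F ∣[k] (heckeDiagMatrix p * heckeMatrix p 0) = ((p : ℂ) ^ (k - 2)) • F := by
  have hp' : (p : ℂ) ≠ 0 := by exact_mod_cast hp
  rw [SlashAction.slash_mul]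
  ext τ
  rw [slash_heckeMatrix_apply k hp, slash_heckeDiagMatrix_apply k hp]
  have : heckeDiagMatrix p • heckeMatrix p 0 • τ = τ := by
    ext
    rw [coe_heckeDiagMatrix_smul hp, coe_heckeMatrix_smul hp]
    simp only [Nat.cast_zero, add_zero]
    field_simp
  rw [this, Pi.smul_apply, smul_eq_mul, ← mul_assoc]
  congr 1
  rw [show k - 2 = -1 + (k - 1) by ring, zpow_add₀ hp', zpow_neg_one]

include hb in
/-- the adjoint of `f ↦ f ∣ diag(1,p)` is `g ↦ g ∣ diag(p,1)`. -/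
theorem pet_slash_heckeMatrix_zero {p : ℕ} (hp : p ≠ 0) (f g : CuspForm (Gamma0 N) k) :
    pet k ((⇑f) ∣[k] heckeMatrix p 0) ⇑g = pet k ⇑f ((⇑g) ∣[k] heckeDiagMatrix p) := by
  have hp' : (p : ℂ) ≠ 0 := by exact_mod_cast hp
  have hdet : 0 < (heckeMatrix p 0).det.val := det_heckeMatrix_pos p 0
  have h1 := pet_slash_slash (isPetForm_cuspForm f)
    ((isPetForm_cuspForm g).slash (heckeDiagMatrix_mem_ratGL p)) (heckeMatrix_mem_ratGL p 0) hdet
  rw [← SlashAction.slash_mul, slash_heckeDiag_mul_heckeMatrix hp,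
    pet_smul_right ((isPetForm_cuspForm f).slash (heckeMatrix_mem_ratGL p 0))
      (isPetForm_cuspForm g), det_heckeMatrix hp] at h1
  rw [Complex.ofReal_natCast] at h1
  exact mul_left_cancel₀ (zpow_ne_zero _ hp') h1

/-- The `p + 1` matrices of the Prelude's `heckeT`. -/
noncomputable def heckeMat (p i : ℕ) : GL (Fin 2) ℝ :=
  if i < p then heckeMatrix p i else heckeDiagMatrix p

omit hb in
theorem heckeT_eq_sum (p : ℕ) (F : ℍ → ℂ) :
    heckeT k p F = ∑ i ∈ Finset.range (p + 1), F ∣[k] heckeMat p i := by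
  rw [heckeT_def, Finset.sum_range_succ]
  congr 1
  · refine Finset.sum_congr rfl fun i hi => ?_
    rw [heckeMat, if_pos (Finset.mem_range.mp hi)]
  · rw [heckeMat, if_neg (lt_irrefl p)]

omit hb in
theorem heckeMat_mem_ratGL (p i : ℕ) : heckeMat p i ∈ ratGL := by
  unfold heckeMat
  split_ifs
  · exact heckeMatrix_mem_ratGL p i
  · exact heckeDiagMatrix_mem_ratGL p

omit hb in
theorem heckeMat_eq_mul {p : ℕ} (hp : p ≠ 0) (hpN : Nat.Coprime p N) (i : ℕ) :
    ∃ δ₁ ∈ Gamma0 N, ∃ δ₂ ∈ Gamma0 N,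
      heckeMat p i = mapGL ℝ δ₁ * heckeMatrix p 0 * mapGL ℝ δ₂ := by
  unfold heckeMat
  split_ifs
  · refine ⟨1, Subgroup.one_mem _, ModularGroup.T ^ (i : ℤ), ?_, heckeMatrix_eq_mul hp i⟩
    rw [Gamma0_mem, ModularGroup.coe_T_zpow]
    simp
  · exact heckeDiagMatrix_eq_mul hp hpN

include hb in
/-- **Self-adjointness of `T_p`, `p ∤ N`, for the Petersson product.** -/
theorem pet_heckeT_adjoint {p : ℕ} (hp : p ≠ 0) (hpN : Nat.Coprime p N)
    (f g : CuspForm (Gamma0 N) k) :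
    pet k (heckeT k p ⇑f) ⇑g = pet k ⇑f (heckeT k p ⇑g) := by
  have hα := heckeMatrix_mem_ratGL p 0
  rw [heckeT_eq_sum, heckeT_eq_sum,
    pet_sum_left _ (fun i _ => (isPetForm_cuspForm f).slash (heckeMat_mem_ratGL p i))
      (isPetForm_cuspForm g),
    pet_sum_right _ (fun i _ => (isPetForm_cuspForm g).slash (heckeMat_mem_ratGL p i))
      (isPetForm_cuspForm f)]
  refine Finset.sum_congr rfl fun i _ => ?_
  obtain ⟨δ₁, h₁, δ₂, h₂, hM⟩ := heckeMat_eq_mul hp hpN i
  obtain ⟨ε₁, e₁, ε₂, e₂, hD⟩ := heckeDiagMatrix_eq_mul (N := N) hp hpN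
  rw [hM, pet_slash_double_left f g hα h₁ h₂, pet_slash_double_right f g hα h₁ h₂,
    pet_slash_heckeMatrix_zero hp f g, hD, pet_slash_double_right f g hα e₁ e₂]

end DoubleCoset

section Reduced

variable [hb : Fact HasBaseWeight]

/-- The Petersson inner product on `S_k(Γ₀(N))`. -/
noncomputable def petC (f g : CuspForm (Gamma0 N) k) : ℂ := pet k ⇑f ⇑g

include hb in
theorem petC_add_left (f f' g : CuspForm (Gamma0 N) k) :
    petC (f + f') g = petC f g + petC f' g := by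
  unfold petC
  rw [FunLike.coe_add]
  exact pet_add_left (isPetForm_cuspForm f) (isPetForm_cuspForm f') (isPetForm_cuspForm g)

include hb in
theorem petC_add_right (f g g' : CuspForm (Gamma0 N) k) :
    petC f (g + g') = petC f g + petC f g' := by
  unfold petC
  rw [FunLike.coe_add]
  exact pet_add_right (isPetForm_cuspForm f) (isPetForm_cuspForm g) (isPetForm_cuspForm g')

include hb in
theorem petC_smul_left (c : ℂ) (f g : CuspForm (Gamma0 N) k) :
    petC (c • f) g = conj c * petC f g := by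
  unfold petC
  rw [FunLike.coe_smul]
  exact pet_smul_left (isPetForm_cuspForm f) (isPetForm_cuspForm g) c

include hb in
theorem petC_smul_right (c : ℂ) (f g : CuspForm (Gamma0 N) k) :
    petC f (c • g) = c * petC f g := by
  unfold petC
  rw [FunLike.coe_smul]
  exact pet_smul_right (isPetForm_cuspForm f) (isPetForm_cuspForm g) c

include hb in
theorem petC_conj_symm (f g : CuspForm (Gamma0 N) k) : petC g f = conj (petC f g) :=
  pet_conj_symm (isPetForm_cuspForm f) (isPetForm_cuspForm g)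

include hb in
theorem petC_self_nonneg (f : CuspForm (Gamma0 N) k) : 0 ≤ (petC f f).re ∧ (petC f f).im = 0 :=
  pet_self_nonneg (isPetForm_cuspForm f)

include hb in
theorem eq_zero_of_petC_self_eq_zero [(volume : Measure ℍ).IsOpenPosMeasure]
    (f : CuspForm (Gamma0 N) k) (h : petC f f = 0) : f = 0 :=
  DFunLike.coe_injective (eq_zero_of_pet_self_eq_zero (isPetForm_cuspForm f) h)

include hb in
/-- **`T_ℓ` (`ℓ ∤ N`) is self-adjoint for the Petersson inner product.** -/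
theorem petC_heckeTLin {ℓ : ℕ} (hℓ : ℓ.Prime) (hℓN : ¬ ℓ ∣ N) (f g : CuspForm (Gamma0 N) k) :
    petC (CuspForm.heckeTLin k hℓ hℓN f) g = petC f (CuspForm.heckeTLin k hℓ hℓN g) := by
  unfold petC
  rw [CuspForm.coe_heckeTLin_apply, CuspForm.coe_heckeTLin_apply]
  exact pet_heckeT_adjoint hℓ.ne_zero ((Nat.Prime.coprime_iff_not_dvd hℓ).mpr hℓN) f g

/-- Self-adjoint endomorphisms of `S_k(Γ₀(N))`. -/
def IsPetSelfAdjoint (t : Module.End ℂ (CuspForm (Gamma0 N) k)) : Prop :=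
  ∀ f g, petC (t f) g = petC f (t g)

include hb in
theorem isPetSelfAdjoint_of_mem_heckeAlgebra {S : Set ℕ}
    (hNS : ∀ q : ℕ, q.Prime → q ∣ N → q ∈ S) {t : Module.End ℂ (CuspForm (Gamma0 N) k)}
    (ht : t ∈ CuspForm.heckeAlgebra N k S) : IsPetSelfAdjoint t := by
  unfold CuspForm.heckeAlgebra at ht
  induction ht using Algebra.adjoin_induction with
  | mem t ht =>
    rcases ht with ⟨ℓ, hℓ, hℓN, -, rfl⟩ | ⟨q, hqN, hq, hqS, rfl⟩
    · exact fun f g => petC_heckeTLin hℓ hℓN f g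
    · exact absurd (hNS q hq hqN) hqS
  | algebraMap n =>
    intro f g
    have h1 : ∀ f : CuspForm (Gamma0 N) k,
        (algebraMap ℤ (Module.End ℂ (CuspForm (Gamma0 N) k)) n) f = (n : ℂ) • f := fun f => by
      rw [Algebra.algebraMap_eq_smul_one, LinearMap.smul_apply, Module.End.one_apply,
        Int.cast_smul_eq_zsmul]
    rw [h1, h1, petC_smul_left, petC_smul_right, map_intCast]
  | add x y _ _ hx hy =>
    intro f g
    rw [LinearMap.add_apply, LinearMap.add_apply, petC_add_left, petC_add_right, hx f g, hy f g]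
  | mul x y hx' hy' hx hy =>
    intro f g
    have hcomm : x * y = y * x :=
      congrArg Subtype.val (mul_comm (⟨x, hx'⟩ : CuspForm.heckeAlgebra N k S) ⟨y, hy'⟩)
    rw [Module.End.mul_apply, hx, hy, ← Module.End.mul_apply, ← hcomm]

include hb in
/-- **K11 PET, final statement**: the Hecke algebra away from a set `S` containing the primes of
the level is reduced. -/
theorem isReduced_heckeAlgebra_of_base [(volume : Measure ℍ).IsOpenPosMeasure] (S : Set ℕ)
    (hNS : ∀ q : ℕ, q.Prime → q ∣ N → q ∈ S) : IsReduced ↥(CuspForm.heckeAlgebra N k S) := by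
  rw [isReduced_iff_pow_one_lt 2 one_lt_two]
  intro x hx
  have hsa := isPetSelfAdjoint_of_mem_heckeAlgebra hNS x.2
  have hx2 : (x : Module.End ℂ (CuspForm (Gamma0 N) k)) * x = 0 := by
    have := congrArg Subtype.val hx
    simpa [pow_two] using this
  apply Subtype.ext
  refine LinearMap.ext fun f => ?_
  apply eq_zero_of_petC_self_eq_zero
  rw [hsa, ← Module.End.mul_apply, hx2, LinearMap.zero_apply]
  have := petC_smul_right (0 : ℂ) f (0 : CuspForm (Gamma0 N) k)
  rwa [zero_smul, zero_mul] at this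

end Reduced

end Fermat.Agent.GR.PET
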