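/-
K11 PET (helper5), final file: plug helper9's base weight for `SL(2,ℤ)` (PET-B) and state the
results without hypotheses.
-/
import Fermat.Agent.GR.PET_helper5_Hecke
import Fermat.Agent.GR.PETB_helper9_Main

set_option autoImplicit false

namespace Fermat.Agent.GR

open MeasureTheory UpperHalfPlane CongruenceSubgroup
open scoped MatrixGroups ComplexConjugate

instance PET.fact_hasBaseWeight : Fact PET.HasBaseWeight := ⟨exists_weight_SL2Z⟩

variable {N : ℕ} [NeZero N] {k : ℤ}

/-- The Petersson inner product on `S_k(Γ₀(N))` (normalised mean of Mathlib's `petersson`). -/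
noncomputable def petersonInner (f g : CuspForm (Gamma0 N) k) : ℂ := PET.petC f g

theorem petersonInner_add_left (f f' g : CuspForm (Gamma0 N) k) :
    petersonInner (f + f') g = petersonInner f g + petersonInner f' g :=
  PET.petC_add_left f f' g

theorem petersonInner_add_right (f g g' : CuspForm (Gamma0 N) k) :
    petersonInner f (g + g') = petersonInner f g + petersonInner f g' :=
  PET.petC_add_right f g g'

theorem petersonInner_smul_left (c : ℂ) (f g : CuspForm (Gamma0 N) k) :
    petersonInner (c • f) g = conj c * petersonInner f g :=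
  PET.petC_smul_left c f g

theorem petersonInner_smul_right (c : ℂ) (f g : CuspForm (Gamma0 N) k) :
    petersonInner f (c • g) = c * petersonInner f g :=
  PET.petC_smul_right c f g

theorem petersonInner_conj_symm (f g : CuspForm (Gamma0 N) k) :
    petersonInner g f = conj (petersonInner f g) :=
  PET.petC_conj_symm f g

theorem petersonInner_self_nonneg (f : CuspForm (Gamma0 N) k) :
    0 ≤ (petersonInner f f).re ∧ (petersonInner f f).im = 0 :=
  PET.petC_self_nonneg f

theorem eq_zero_of_petersonInner_self_eq_zero (f : CuspForm (Gamma0 N) k)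
    (h : petersonInner f f = 0) : f = 0 :=
  PET.eq_zero_of_petC_self_eq_zero f h

/-- **`T_ℓ`, `ℓ ∤ N`, is self-adjoint for the Petersson inner product.** -/
theorem petersonInner_heckeTLin {ℓ : ℕ} (hℓ : ℓ.Prime) (hℓN : ¬ ℓ ∣ N)
    (f g : CuspForm (Gamma0 N) k) :
    petersonInner (CuspForm.heckeTLin k hℓ hℓN f) g
      = petersonInner f (CuspForm.heckeTLin k hℓ hℓN g) :=
  PET.petC_heckeTLin hℓ hℓN f g

/-- Every element of the Hecke algebra away from `S ⊇ {primes of N}` is self-adjoint. -/
theorem petersonInner_apply_of_mem_heckeAlgebra {S : Set ℕ}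
    (hNS : ∀ q : ℕ, q.Prime → q ∣ N → q ∈ S) {t : Module.End ℂ (CuspForm (Gamma0 N) k)}
    (ht : t ∈ CuspForm.heckeAlgebra N k S) (f g : CuspForm (Gamma0 N) k) :
    petersonInner (t f) g = petersonInner f (t g) :=
  PET.isPetSelfAdjoint_of_mem_heckeAlgebra hNS ht f g

/-- general weight version of `isReduced_heckeAlgebra`. -/
theorem isReduced_heckeAlgebra_weight (N : ℕ) [NeZero N] (k : ℤ) (S : Set ℕ)
    (hNS : ∀ q : ℕ, q.Prime → q ∣ N → q ∈ S) : IsReduced ↥(CuspForm.heckeAlgebra N k S) :=
  PET.isReduced_heckeAlgebra_of_base S hNS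

/-- **K11 PET**: the weight-2 Hecke algebra of level `N` away from a set `S` of primes containing
the primes of `N` is reduced. -/
theorem isReduced_heckeAlgebra (N : ℕ) [NeZero N] (S : Set ℕ)
    (hNS : ∀ q : ℕ, q.Prime → q ∣ N → q ∈ S) : IsReduced ↥(CuspForm.heckeAlgebra N 2 S) :=
  isReduced_heckeAlgebra_weight N 2 S hNS

end Fermat.Agent.GR
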