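/-
STAGE (I), package (U) (helper2), part 1: the trace form of a reduced finite free `ℤ`-algebra.

For a commutative ring `𝕋`, finite and free as a `ℤ`-module:
* `exists_ringHom_eq_of_isRoot_charpoly`: every root (in an algebraically closed field `F`) of the
  characteristic polynomial of the multiplication by `z ∈ 𝕋` is the value `χ z` of a ring
  homomorphism `χ : 𝕋 →+* F`;
* `exists_trace_mul_ne_zero`: if `𝕋` is reduced, the trace form of `𝕋 / ℤ` is non-degenerate;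
* `traceMatrix_det_ne_zero`: hence the discriminant of a basis is non-zero;
* `dvd_det_mul_repr_of_forall_dvd_trace`: Cramer's rule for the coordinates of an element whose
  traces against a basis are divisible by `m`.
-/
import Mathlib

set_option autoImplicit false
set_option linter.unusedSectionVars false
set_option linter.style.haveILetI false

open Polynomial TensorProduct

namespace Fermat.Agent.GR

section Char

variable {𝕋 : Type*} [CommRing 𝕋] [Module.Finite ℤ 𝕋] [Module.Free ℤ 𝕋]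

/-- multiplication by `1 ⊗ z` on `A ⊗ 𝕋` is the base change of the multiplication by `z`. -/
theorem lmul_baseChange_apply (A : Type*) [CommRing A] (z : 𝕋) (v : A ⊗[ℤ] 𝕋) :
    (Algebra.lmul ℤ 𝕋 z).baseChange A v = ((1 : A) ⊗ₜ[ℤ] z) * v := by
  induction v using TensorProduct.induction_on with
  | zero => simp
  | tmul a x =>
    rw [LinearMap.baseChange_tmul, Algebra.TensorProduct.tmul_mul_tmul, one_mul]
    rfl
  | add x y hx hy => rw [map_add, hx, hy, mul_add]

variable {F : Type*} [Field F] [IsAlgClosed F]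

/-- every root of the characteristic polynomial of the multiplication by `z` is the value at `z`
of a ring homomorphism `𝕋 →+* F`. -/
theorem exists_ringHom_eq_of_isRoot_charpoly (z : 𝕋) (μ : F)
    (h : ((Algebra.lmul ℤ 𝕋 z).charpoly.map (algebraMap ℤ F)).IsRoot μ) :
    ∃ χ : 𝕋 →+* F, χ z = μ := by
  have h1 : ((Algebra.lmul ℤ 𝕋 z).baseChange F).charpoly.IsRoot μ := by
    rw [LinearMap.charpoly_baseChange]
    exact h
  rw [← Module.End.hasEigenvalue_iff_isRoot_charpoly] at h1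
  obtain ⟨v, hv⟩ := h1.exists_hasEigenvector
  have hv1 : ((1 : F) ⊗ₜ[ℤ] z) * v = μ • v := by
    rw [← lmul_baseChange_apply]
    exact hv.apply_eq_smul
  set a : F ⊗[ℤ] 𝕋 := (1 : F) ⊗ₜ[ℤ] z - algebraMap F (F ⊗[ℤ] 𝕋) μ with ha
  have hav : a * v = 0 := by
    rw [ha, sub_mul, hv1, Algebra.smul_def, sub_self]
  have hnu : a ∈ nonunits (F ⊗[ℤ] 𝕋) := by
    intro hu
    exact hv.2 ((hu.mul_right_eq_zero).mp hav)
  obtain ⟨M, hM, haM⟩ := exists_max_ideal_of_mem_nonunits hnu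
  haveI := hM
  letI : Field ((F ⊗[ℤ] 𝕋) ⧸ M) := Ideal.Quotient.field M
  haveI : Module.Finite F ((F ⊗[ℤ] 𝕋) ⧸ M) :=
    Module.Finite.of_surjective (Ideal.Quotient.mkₐ F M).toLinearMap
      (Ideal.Quotient.mkₐ_surjective F M)
  haveI : Algebra.IsIntegral F ((F ⊗[ℤ] 𝕋) ⧸ M) := Algebra.IsIntegral.of_finite F _
  have hbij : Function.Bijective (algebraMap F ((F ⊗[ℤ] 𝕋) ⧸ M)) :=
    IsAlgClosed.algebraMap_bijective_of_isIntegral
  let e : F ≃+* (F ⊗[ℤ] 𝕋) ⧸ M := RingEquiv.ofBijective _ hbij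
  refine ⟨(e.symm.toRingHom.comp (Ideal.Quotient.mk M)).comp
    (Algebra.TensorProduct.includeRight : 𝕋 →ₐ[ℤ] F ⊗[ℤ] 𝕋).toRingHom, ?_⟩
  show e.symm (Ideal.Quotient.mk M ((1 : F) ⊗ₜ[ℤ] z)) = μ
  rw [RingEquiv.symm_apply_eq]
  show _ = algebraMap F ((F ⊗[ℤ] 𝕋) ⧸ M) μ
  rw [IsScalarTower.algebraMap_apply F (F ⊗[ℤ] 𝕋) ((F ⊗[ℤ] 𝕋) ⧸ M),
    Ideal.Quotient.algebraMap_eq, Ideal.Quotient.eq]
  exact haM

end Char

section TraceForm

variable {𝕋 : Type*} [CommRing 𝕋] [Module.Finite ℤ 𝕋] [Module.Free ℤ 𝕋]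

/-- a non-zero quasi-idempotent (`e² = n e`, `n ≠ 0`) has non-zero trace. -/
theorem trace_ne_zero_of_mul_self_eq_smul {e : 𝕋} {n : ℤ} (hn : n ≠ 0) (hee : e * e = n • e)
    (he0 : e ≠ 0) : Algebra.trace ℤ 𝕋 e ≠ 0 := by
  intro htr
  have hnq : (n : ℚ) ≠ 0 := Int.cast_ne_zero.mpr hn
  set Lq : ℚ ⊗[ℤ] 𝕋 →ₗ[ℚ] ℚ ⊗[ℤ] 𝕋 := (Algebra.lmul ℤ 𝕋 e).baseChange ℚ with hLq
  have hLapp : ∀ v, Lq v = ((1 : ℚ) ⊗ₜ[ℤ] e) * v := lmul_baseChange_apply ℚ e
  have hee' : ((1 : ℚ) ⊗ₜ[ℤ] e) * ((1 : ℚ) ⊗ₜ[ℤ] e) = (n : ℚ) • ((1 : ℚ) ⊗ₜ[ℤ] e) := by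
    rw [Algebra.TensorProduct.tmul_mul_tmul, hee, one_mul, TensorProduct.tmul_smul,
      Int.cast_smul_eq_zsmul]
  set Pr : ℚ ⊗[ℤ] 𝕋 →ₗ[ℚ] ℚ ⊗[ℤ] 𝕋 := (n : ℚ)⁻¹ • Lq with hPr
  have hidem : IsIdempotentElem Pr := by
    apply LinearMap.ext
    intro v
    show Pr (Pr v) = Pr v
    simp only [hPr, LinearMap.smul_apply, hLapp, map_smul]
    rw [← mul_assoc, hee', smul_mul_assoc, smul_smul, smul_smul]
    congr 1
    field_simp
  have hproj := LinearMap.IsIdempotentElem.isProj_range Pr hidem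
  have htrP := hproj.trace
  have htrq : LinearMap.trace ℚ _ Lq = 0 := by
    rw [hLq, LinearMap.trace_baseChange, ← Algebra.trace_apply, htr, map_zero]
  have htr0 : LinearMap.trace ℚ _ Pr = 0 := by rw [hPr, map_smul, htrq, smul_zero]
  rw [htr0] at htrP
  have hfr : Module.finrank ℚ (LinearMap.range Pr) = 0 := by exact_mod_cast htrP.symm
  have hrange : LinearMap.range Pr = ⊥ := Submodule.finrank_eq_zero.mp hfr
  have hPr0 : Pr = 0 := LinearMap.range_eq_bot.mp hrange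
  have h1 : (1 : ℚ) ⊗ₜ[ℤ] e = 0 := by
    have h2 := LinearMap.congr_fun hPr0 ((1 : ℚ) ⊗ₜ[ℤ] (1 : 𝕋))
    simp only [hPr, LinearMap.smul_apply, hLapp, LinearMap.zero_apply,
      Algebra.TensorProduct.tmul_mul_tmul, mul_one] at h2
    exact (smul_eq_zero.mp h2).resolve_left (inv_ne_zero hnq)
  have hinj : Function.Injective
      (Algebra.TensorProduct.includeRight : 𝕋 →ₐ[ℤ] ℚ ⊗[ℤ] 𝕋) :=
    Algebra.TensorProduct.includeRight_injective (A := ℚ) (B := 𝕋)
      (fun a b hab => Int.cast_injective hab)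
  exact he0 (hinj (by rw [map_zero]; exact h1))

variable [IsReduced 𝕋]

/-- **the trace form of a reduced finite free `ℤ`-algebra is non-degenerate.** -/
theorem exists_trace_mul_ne_zero {x : 𝕋} (hx : x ≠ 0) :
    ∃ y : 𝕋, Algebra.trace ℤ 𝕋 (x * y) ≠ 0 := by
  set P := (Algebra.lmul ℤ 𝕋 x).charpoly with hP
  have hPx : aeval x P = 0 := by
    have h := LinearMap.aeval_self_charpoly (Algebra.lmul ℤ 𝕋 x)
    have h2 : aeval (Algebra.lmul ℤ 𝕋 x) P = Algebra.lmul ℤ 𝕋 (aeval x P) :=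
      aeval_algHom_apply (Algebra.lmul ℤ 𝕋) x P
    rw [← hP, h2] at h
    have h3 := LinearMap.congr_fun h (1 : 𝕋)
    simpa using h3
  have hP0 : P ≠ 0 := (LinearMap.charpoly_monic _).ne_zero
  obtain ⟨ν, hν, hnd⟩ := exists_eq_pow_rootMultiplicity_mul_and_not_dvd P hP0 0
  rw [C_0, sub_zero] at hν hnd
  set k := rootMultiplicity 0 P with hk
  have hn0 : ν.coeff 0 ≠ 0 := fun h => hnd (X_dvd_iff.mpr h)
  have h1 : x ^ k * aeval x ν = 0 := by
    rw [← hPx, hν, map_mul, map_pow, aeval_X]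
  have h2 : x * aeval x ν = 0 := by
    apply IsNilpotent.eq_zero
    refine ⟨k + 1, ?_⟩
    have : (x * aeval x ν) ^ (k + 1) = x * (x ^ k * aeval x ν) * (aeval x ν) ^ k := by ring
    rw [this, h1, mul_zero, zero_mul]
  have hνw : aeval x ν = aeval x ν.divX * x + algebraMap ℤ 𝕋 (ν.coeff 0) := by
    conv_lhs => rw [← divX_mul_X_add ν]
    rw [map_add, map_mul, aeval_X, aeval_C]
  set w := aeval x ν.divX with hw
  set e := x * w with he
  have hxe : x * e = (-ν.coeff 0) • x := by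
    have h3 : x * (w * x + algebraMap ℤ 𝕋 (ν.coeff 0)) = 0 := by rw [← hνw]; exact h2
    have h4 : x * e = -(x * algebraMap ℤ 𝕋 (ν.coeff 0)) := by
      rw [he]
      linear_combination h3
    rw [h4, neg_smul, Algebra.smul_def, mul_comm]
  have hee : e * e = (-ν.coeff 0) • e := by
    have : e * e = w * (x * e) := by rw [he]; ring
    rw [this, hxe, mul_smul_comm, he, mul_comm w x]
  have he0 : e ≠ 0 := by
    intro h0
    rw [h0, mul_zero] at hxe
    exact hx ((smul_eq_zero.mp hxe.symm).resolve_left (neg_ne_zero.mpr hn0))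
  exact ⟨w, trace_ne_zero_of_mul_self_eq_smul (neg_ne_zero.mpr hn0) hee he0⟩

variable {ι : Type*} [Fintype ι] [DecidableEq ι] (b : Module.Basis ι ℤ 𝕋)

/-- **the discriminant of a reduced finite free `ℤ`-algebra is non-zero.** -/
theorem traceMatrix_det_ne_zero : (Algebra.traceMatrix ℤ b).det ≠ 0 := by
  intro hdet
  obtain ⟨v, hv0, hv⟩ := Matrix.exists_mulVec_eq_zero_iff.mpr hdet
  set x : 𝕋 := ∑ j, v j • b j with hx
  have hx0 : x ≠ 0 := by
    intro h0
    apply hv0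
    have := Fintype.linearIndependent_iff.mp b.linearIndependent v h0
    exact funext this
  have htr : ∀ i, Algebra.trace ℤ 𝕋 (b i * x) = 0 := by
    intro i
    have h1 : ∑ j, Algebra.traceMatrix ℤ b i j * v j = 0 := by
      simpa [Matrix.mulVec, dotProduct] using congrFun hv i
    rw [hx, Finset.mul_sum, map_sum]
    refine Eq.trans (Finset.sum_congr rfl fun j _ => ?_) h1
    rw [mul_smul_comm, map_smul, Algebra.traceMatrix_apply, Algebra.traceForm_apply, smul_eq_mul,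
      mul_comm]
  obtain ⟨y, hy⟩ := exists_trace_mul_ne_zero hx0
  apply hy
  rw [← b.sum_repr y, Finset.mul_sum, map_sum]
  refine Finset.sum_eq_zero fun i _ => ?_
  rw [mul_smul_comm, map_smul, mul_comm, htr i, smul_zero]

omit [IsReduced 𝕋] in
/-- **Cramer's rule**: if all the traces `Tr (b i * r)` are divisible by `m` then `m` divides
`disc · (coordinates of r)`. -/
theorem dvd_det_mul_repr_of_forall_dvd_trace {m : ℤ} {r : 𝕋}
    (h : ∀ i, m ∣ Algebra.trace ℤ 𝕋 (b i * r)) (j : ι) :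
    m ∣ (Algebra.traceMatrix ℤ b).det * b.repr r j := by
  set G := Algebra.traceMatrix ℤ b with hG
  set c : ι → ℤ := fun j => b.repr r j with hc
  have h1 : G.mulVec c = fun i => Algebra.trace ℤ 𝕋 (b i * r) := by
    funext i
    rw [Matrix.mulVec, dotProduct]
    conv_rhs => rw [← b.sum_repr r, Finset.mul_sum, map_sum]
    refine Finset.sum_congr rfl fun j _ => ?_
    rw [mul_smul_comm, map_smul, hG, Algebra.traceMatrix_apply, Algebra.traceForm_apply,
      smul_eq_mul, mul_comm]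
  have h2 : G.adjugate.mulVec (G.mulVec c) = G.det • c := by
    rw [Matrix.mulVec_mulVec, Matrix.adjugate_mul, Matrix.smul_mulVec, Matrix.one_mulVec]
  have h3 : G.det * c j = (G.adjugate.mulVec (G.mulVec c)) j := by
    rw [h2]
    rfl
  rw [h3, h1, Matrix.mulVec, dotProduct]
  exact Finset.dvd_sum fun i _ => Dvd.dvd.mul_left (h i) _

end TraceForm

end Fermat.Agent.GR
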