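/-
STAGE (I), package (U) (helper2), part 2: the `p`-adic points of a reduced finite free `ℤ`-algebra
`𝕋` and bounded denominators.

`exists_padic_points_of_reduced`: there are finitely many complete discrete valuation rings `𝒪 i`
(characteristic `0`, finite residue field of characteristic `p`) with ring homomorphisms
`χ i : 𝕋 →+* 𝒪 i` and a constant `c` such that an element `r ∈ 𝕋` all of whose values `χ i r` are
divisible by `p ^ (M + c)` is divisible by `p ^ M` in `𝕋`.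

The points are ALL ring homomorphisms `χ : 𝕋 →+* AlgebraicClosure ℚ_[p]`, with values in the ring
of integers of the finite extension of `ℚ_[p]` generated by the image.
-/
import Mathlib
import Fermat.Agent.GR.UPTS_helper2_Trace
import Fermat.Agent.CFT.Local.IntClosure

set_option autoImplicit false
set_option linter.unusedSectionVars false
set_option linter.style.haveILetI false

open Polynomial TensorProduct IsLocalRing

namespace Fermat.Agent.GR

section Finite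

variable {𝕋 : Type*} [CommRing 𝕋] [Module.Finite ℤ 𝕋] [Module.Free ℤ 𝕋]

/-- an element of `𝕋` is killed by the characteristic polynomial of its multiplication. -/
theorem aeval_charpoly_lmul (x : 𝕋) : aeval x (Algebra.lmul ℤ 𝕋 x).charpoly = 0 := by
  have h := LinearMap.aeval_self_charpoly (Algebra.lmul ℤ 𝕋 x)
  have h2 : aeval (Algebra.lmul ℤ 𝕋 x) (Algebra.lmul ℤ 𝕋 x).charpoly =
      Algebra.lmul ℤ 𝕋 (aeval x (Algebra.lmul ℤ 𝕋 x).charpoly) :=
    aeval_algHom_apply (Algebra.lmul ℤ 𝕋) x _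
  rw [h2] at h
  have h3 := LinearMap.congr_fun h (1 : 𝕋)
  simpa using h3

/-- a ring homomorphism out of `𝕋` is determined by its values on a `ℤ`-basis. -/
theorem ringHom_ext_of_basis {R : Type*} [Ring R] {ι : Type*} [Fintype ι]
    (b : Module.Basis ι ℤ 𝕋) {χ χ' : 𝕋 →+* R} (h : ∀ j, χ (b j) = χ' (b j)) : χ = χ' := by
  ext x
  rw [← b.sum_repr x, map_sum, map_sum]
  refine Finset.sum_congr rfl fun j _ => ?_
  rw [map_zsmul, map_zsmul, h j]

/-- there are only finitely many ring homomorphisms from `𝕋` to a field of characteristic `0`. -/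
theorem finite_ringHom (F : Type*) [Field F] [CharZero F] : Finite (𝕋 →+* F) := by
  classical
  let b := Module.Free.chooseBasis ℤ 𝕋
  let P : Module.Free.ChooseBasisIndex ℤ 𝕋 → ℤ[X] := fun j => (Algebra.lmul ℤ 𝕋 (b j)).charpoly
  have hP0 : ∀ j, P j ≠ 0 := fun j => (LinearMap.charpoly_monic _).ne_zero
  have hmem : ∀ (χ : 𝕋 →+* F) j, χ (b j) ∈ (P j).rootSet F := by
    intro χ j
    rw [mem_rootSet]
    refine ⟨hP0 j, ?_⟩
    have h1 : aeval (χ (b j)) (P j) = χ (aeval (b j) (P j)) :=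
      aeval_algHom_apply χ.toIntAlgHom (b j) (P j)
    rw [h1, aeval_charpoly_lmul, map_zero]
  haveI : ∀ j, Finite ↥((P j).rootSet F) := fun j => (rootSet_finite (P j) F).to_subtype
  let Φ : (𝕋 →+* F) → (∀ j, ↥((P j).rootSet F)) := fun χ j => ⟨χ (b j), hmem χ j⟩
  refine Finite.of_injective Φ fun χ χ' h => ?_
  refine ringHom_ext_of_basis b fun j => ?_
  exact congrArg Subtype.val (congrFun h j)

end Finite

section Padic

variable (p : ℕ) [hp : Fact p.Prime]

local notation "Fp" => AlgebraicClosure ℚ_[p]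

/-- a sum of `c`-multiples of integral elements is a `c`-multiple of an integral element. -/
theorem multiset_sum_eq_mul_isIntegral (c : Fp) (s : Multiset Fp)
    (h : ∀ a ∈ s, ∃ u : Fp, IsIntegral ℤ_[p] u ∧ a = c * u) :
    ∃ u : Fp, IsIntegral ℤ_[p] u ∧ s.sum = c * u := by
  induction s using Multiset.induction_on with
  | empty => exact ⟨0, isIntegral_zero, by simp⟩
  | cons a s ih =>
    obtain ⟨u, hu, hau⟩ := h a (Multiset.mem_cons_self a s)
    obtain ⟨w, hw, hsw⟩ := ih fun a' ha' => h a' (Multiset.mem_cons_of_mem ha')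
    exact ⟨u + w, hu.add hw, by rw [Multiset.sum_cons, hau, hsw, mul_add]⟩

/-- an integer which is, in `AlgebraicClosure ℚ_[p]`, `p ^ k` times an element integral over
`ℤ_[p]` is divisible by `p ^ k`. -/
theorem pow_dvd_int_of_eq_mul_isIntegral (k : ℕ) (t : ℤ) (W : Fp) (hW : IsIntegral ℤ_[p] W)
    (h : (t : Fp) = (p : Fp) ^ k * W) : (p : ℤ) ^ k ∣ t := by
  have hp0 : (p : ℚ_[p]) ≠ 0 := Nat.cast_ne_zero.mpr hp.out.ne_zero
  have hpk : ((p : ℚ_[p]) ^ k) ≠ 0 := pow_ne_zero _ hp0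
  have hW' : W = algebraMap ℚ_[p] Fp ((t : ℚ_[p]) / (p : ℚ_[p]) ^ k) := by
    rw [map_div₀, map_pow, map_intCast, map_natCast, h]
    have : ((p : Fp) ^ k) ≠ 0 := by
      rw [← map_natCast (algebraMap ℚ_[p] Fp), ← map_pow]
      exact (_root_.map_ne_zero _).mpr hpk
    field_simp
  rw [hW', isIntegral_algebraMap_iff (algebraMap ℚ_[p] Fp).injective] at hW
  obtain ⟨v, hv⟩ := IsIntegrallyClosed.isIntegral_iff.mp hW
  have h1 : ((t : ℤ_[p]) : ℚ_[p]) = (((p : ℤ_[p]) ^ k * v : ℤ_[p]) : ℚ_[p]) := by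
    have hv' : (v : ℚ_[p]) = (t : ℚ_[p]) / (p : ℚ_[p]) ^ k := hv
    push_cast
    rw [hv']
    field_simp
  have h2 : (t : ℤ_[p]) = (p : ℤ_[p]) ^ k * v := PadicInt.ext h1
  exact (PadicInt.pow_p_dvd_int_iff k t).mp ⟨v, h2⟩

variable {𝕋 : Type*} [CommRing 𝕋] [Module.Finite ℤ 𝕋] [Module.Free ℤ 𝕋]

/-- the values of ring homomorphisms `𝕋 →+* Fp` are integral over `ℤ_[p]`. -/
theorem isIntegral_padicInt_ringHom_apply (χ : 𝕋 →+* Fp) (x : 𝕋) : IsIntegral ℤ_[p] (χ x) := by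
  have h1 : IsIntegral ℤ x := IsIntegral.of_finite ℤ x
  have h2 : IsIntegral ℤ (χ x) := h1.map χ.toIntAlgHom
  exact h2.tower_top

/-- **trace divisibility**: if all `p`-adic values of `r` are divisible by `p ^ k` then so are the
traces `Tr (r * y)`. -/
theorem pow_dvd_trace_mul_of_forall (k : ℕ) (r y : 𝕋)
    (h : ∀ χ : 𝕋 →+* Fp, ∃ u : Fp, IsIntegral ℤ_[p] u ∧ χ r = (p : Fp) ^ k * u) :
    (p : ℤ) ^ k ∣ Algebra.trace ℤ 𝕋 (r * y) := by
  set L := Algebra.lmul ℤ 𝕋 (r * y) with hL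
  have hsplit : (L.baseChange Fp).charpoly.Splits := IsAlgClosed.splits _
  have htr := Module.End.trace_eq_sum_roots_charpoly_of_splits hsplit
  rw [LinearMap.trace_baseChange] at htr
  have hroots : ∀ μ ∈ (L.baseChange Fp).charpoly.roots,
      ∃ u : Fp, IsIntegral ℤ_[p] u ∧ μ = (p : Fp) ^ k * u := by
    intro μ hμ
    have h1 : (L.charpoly.map (algebraMap ℤ Fp)).IsRoot μ := by
      rw [← LinearMap.charpoly_baseChange]
      exact isRoot_of_mem_roots hμ
    obtain ⟨χ, hχ⟩ := exists_ringHom_eq_of_isRoot_charpoly (r * y) μ h1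
    obtain ⟨u, hu, hru⟩ := h χ
    refine ⟨u * χ y, hu.mul (isIntegral_padicInt_ringHom_apply p χ y), ?_⟩
    rw [← hχ, map_mul, hru, mul_assoc]
  obtain ⟨W, hW, hsum⟩ := multiset_sum_eq_mul_isIntegral p _ _ hroots
  rw [hsum] at htr
  refine pow_dvd_int_of_eq_mul_isIntegral p k _ W hW ?_
  rw [← htr, hL, ← Algebra.trace_apply]
  rfl

end Padic

section Points

variable (p : ℕ) [hp : Fact p.Prime] {𝕋 : Type} [CommRing 𝕋] [Module.Finite ℤ 𝕋]
  [Module.Free ℤ 𝕋]

local notation "Fp" => AlgebraicClosure ℚ_[p]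

/-- the finite extension of `ℚ_[p]` generated by the image of `χ`. -/
noncomputable def uptsField (χ : 𝕋 →+* Fp) : IntermediateField ℚ_[p] Fp :=
  IntermediateField.adjoin ℚ_[p] (Set.range fun j => χ (Module.Free.chooseBasis ℤ 𝕋 j))

instance uptsField_finiteDimensional (χ : 𝕋 →+* Fp) : FiniteDimensional ℚ_[p] ↥(uptsField p χ) := by
  unfold uptsField
  haveI : Finite ↑(Set.range fun j => χ (Module.Free.chooseBasis ℤ 𝕋 j)) :=
    (Set.finite_range _).to_subtype
  refine IntermediateField.finiteDimensional_adjoin ?_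
  rintro _ ⟨j, rfl⟩
  exact (isIntegral_padicInt_ringHom_apply p χ _).tower_top

theorem apply_mem_uptsField (χ : 𝕋 →+* Fp) (x : 𝕋) : χ x ∈ uptsField p χ := by
  rw [← (Module.Free.chooseBasis ℤ 𝕋).sum_repr x, map_sum]
  refine sum_mem fun j _ => ?_
  rw [map_zsmul]
  exact zsmul_mem (IntermediateField.subset_adjoin ℚ_[p]
    (Set.range fun j => χ (Module.Free.chooseBasis ℤ 𝕋 j)) ⟨j, rfl⟩) _

instance uptsField_isScalarTower (χ : 𝕋 →+* Fp) : IsScalarTower ℤ_[p] ↥(uptsField p χ) Fp :=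
  IsScalarTower.of_algebraMap_eq fun _ => rfl

/-- the ring of integers of `uptsField p χ`. -/
noncomputable abbrev uptsRing (χ : 𝕋 →+* Fp) : Subalgebra ℤ_[p] ↥(uptsField p χ) :=
  integralClosure ℤ_[p] ↥(uptsField p χ)

/-- `χ` with values in `uptsField p χ`. -/
noncomputable def uptsHomField (χ : 𝕋 →+* Fp) : 𝕋 →+* ↥(uptsField p χ) :=
  χ.codRestrict (uptsField p χ) (apply_mem_uptsField p χ)

theorem isIntegral_uptsHomField (χ : 𝕋 →+* Fp) (x : 𝕋) : IsIntegral ℤ_[p] (uptsHomField p χ x) := by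
  rw [← isIntegral_algebraMap_iff (algebraMap ↥(uptsField p χ) Fp).injective]
  exact isIntegral_padicInt_ringHom_apply p χ x

/-- `χ` with values in the ring of integers of `uptsField p χ`. -/
noncomputable def uptsHom (χ : 𝕋 →+* Fp) : 𝕋 →+* ↥(uptsRing p χ) :=
  (uptsHomField p χ).codRestrict (uptsRing p χ) (isIntegral_uptsHomField p χ)

theorem coe_uptsHom (χ : 𝕋 →+* Fp) (x : 𝕋) :
    (((uptsHom p χ x : ↥(uptsRing p χ)) : ↥(uptsField p χ)) : Fp) = χ x := rfl

/-- the structure of the rings `uptsRing p χ`. -/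
theorem uptsRing_instances (χ : 𝕋 →+* Fp) :
    ∃ (_ : IsDomain ↥(uptsRing p χ)) (_ : IsDiscreteValuationRing ↥(uptsRing p χ)),
      IsAdicComplete (maximalIdeal ↥(uptsRing p χ)) ↥(uptsRing p χ) ∧
      Finite (ResidueField ↥(uptsRing p χ)) ∧ CharZero ↥(uptsRing p χ) ∧
      (p : ↥(uptsRing p χ)) ∈ maximalIdeal ↥(uptsRing p χ) := by
  haveI : Algebra.IsSeparable ℚ_[p] ↥(uptsField p χ) := Algebra.IsAlgebraic.isSeparable_of_perfectField
  obtain ⟨i1, i2, -, -, i5, i6, i7⟩ :=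
    Fermat.Agent.CFT.Local.exists_localExt_instances ℤ_[p] ℚ_[p] ↥(uptsField p χ) ↥(uptsRing p χ)
  haveI := i1
  haveI := i2
  haveI := i5
  refine ⟨i1, i2, i6, i7 inferInstance, ?_, ?_⟩
  · exact RingHom.charZero (algebraMap ↥(uptsRing p χ) ↥(uptsField p χ))
  · have h1 : (p : ↥(uptsRing p χ)) = algebraMap ℤ_[p] ↥(uptsRing p χ) (p : ℤ_[p]) := by
      rw [map_natCast]
    rw [h1]
    refine map_nonunit (algebraMap ℤ_[p] ↥(uptsRing p χ)) _ ?_
    rw [PadicInt.maximalIdeal_eq_span_p]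
    exact Ideal.mem_span_singleton_self _

end Points

/-- **(U) the `p`-adic points of a reduced finite free `ℤ`-algebra, with bounded denominators.** -/
theorem exists_padic_points_of_reduced (𝕋 : Type) [CommRing 𝕋] [Module.Finite ℤ 𝕋]
    [Module.Free ℤ 𝕋] [IsReduced 𝕋] (p : ℕ) [Fact p.Prime] :
    ∃ (ι : Type) (_ : Fintype ι) (𝒪 : ι → Type) (_ : ∀ i, CommRing (𝒪 i))
      (_ : ∀ i, IsDomain (𝒪 i)) (_ : ∀ i, IsDiscreteValuationRing (𝒪 i))
      (_ : ∀ i, IsAdicComplete (IsLocalRing.maximalIdeal (𝒪 i)) (𝒪 i))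
      (_ : ∀ i, Finite (IsLocalRing.ResidueField (𝒪 i))) (_ : ∀ i, CharZero (𝒪 i))
      (χ : ∀ i, 𝕋 →+* 𝒪 i) (c : ℕ),
      (∀ i, (p : 𝒪 i) ∈ IsLocalRing.maximalIdeal (𝒪 i)) ∧
      ∀ (M : ℕ) (r : 𝕋), (∀ i, (p : 𝒪 i) ^ (M + c) ∣ χ i r) →
        ∃ r' : 𝕋, r = (p : 𝕋) ^ M * r' := by
  classical
  have hp : p.Prime := Fact.out
  haveI : Finite (𝕋 →+* AlgebraicClosure ℚ_[p]) := finite_ringHom _
  let b := Module.Free.chooseBasis ℤ 𝕋
  have hd0 : (Algebra.traceMatrix ℤ b).det ≠ 0 := traceMatrix_det_ne_zero b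
  have hfin : FiniteMultiplicity (p : ℤ) (Algebra.traceMatrix ℤ b).det :=
    Int.finiteMultiplicity_iff.mpr ⟨by simpa using hp.ne_one, hd0⟩
  obtain ⟨d', hdd', hpd'⟩ := hfin.exists_eq_pow_mul_and_not_dvd
  have hinst := fun χ : 𝕋 →+* AlgebraicClosure ℚ_[p] => uptsRing_instances p χ
  refine ⟨𝕋 →+* AlgebraicClosure ℚ_[p], Fintype.ofFinite _, fun χ => ↥(uptsRing p χ),
    fun χ => inferInstance, fun χ => (hinst χ).choose, fun χ => (hinst χ).choose_spec.choose,
    fun χ => (hinst χ).choose_spec.choose_spec.1,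
    fun χ => (hinst χ).choose_spec.choose_spec.2.1,
    fun χ => (hinst χ).choose_spec.choose_spec.2.2.1, fun χ => uptsHom p χ,
    multiplicity (p : ℤ) (Algebra.traceMatrix ℤ b).det,
    fun χ => (hinst χ).choose_spec.choose_spec.2.2.2, ?_⟩
  intro M r hr
  set c := multiplicity (p : ℤ) (Algebra.traceMatrix ℤ b).det with hc
  have h1 : ∀ χ : 𝕋 →+* AlgebraicClosure ℚ_[p], ∃ u : AlgebraicClosure ℚ_[p],
      IsIntegral ℤ_[p] u ∧ χ r = (p : AlgebraicClosure ℚ_[p]) ^ (M + c) * u := by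
    intro χ
    obtain ⟨u', hu'⟩ := hr χ
    refine ⟨((u' : ↥(uptsField p χ)) : AlgebraicClosure ℚ_[p]), ?_, ?_⟩
    · exact u'.2.map (IsScalarTower.toAlgHom ℤ_[p] ↥(uptsField p χ) (AlgebraicClosure ℚ_[p]))
    · rw [← coe_uptsHom p χ r, hu']
      push_cast
      rfl
  have h2 : ∀ j, (p : ℤ) ^ (M + c) ∣ (Algebra.traceMatrix ℤ b).det * b.repr r j := by
    intro j
    refine dvd_det_mul_repr_of_forall_dvd_trace b (fun i => ?_) j
    rw [mul_comm]
    exact pow_dvd_trace_mul_of_forall p (M + c) r (b i) h1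
  have hp0 : (p : ℤ) ≠ 0 := by exact_mod_cast hp.ne_zero
  have h3 : ∀ j, (p : ℤ) ^ M ∣ b.repr r j := by
    intro j
    have h4 := h2 j
    rw [hdd', pow_add, mul_comm ((p : ℤ) ^ M), mul_assoc] at h4
    have h5 : (p : ℤ) ^ M ∣ d' * b.repr r j :=
      (mul_dvd_mul_iff_left (pow_ne_zero _ hp0)).mp h4
    exact (Nat.prime_iff_prime_int.mp hp).pow_dvd_of_dvd_mul_left M hpd' h5
  choose q hq using h3
  refine ⟨∑ j, q j • b j, ?_⟩
  conv_lhs => rw [← b.sum_repr r]
  rw [Finset.mul_sum]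
  refine Finset.sum_congr rfl fun j _ => ?_
  rw [hq j, mul_smul, zsmul_eq_mul]
  push_cast
  rfl

end Fermat.Agent.GR
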