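/-
STAGE (I), package (U) (helper2), part 3: the Hecke algebra `heckeAlgebra N k S` is a finite free
`ℤ`-module (S22 + torsion-freeness), and (U) for it.
-/
import Mathlib
import Fermat.Agent.S22.Final_helper9
import Fermat.Agent.GR.UPTS_helper2_Main

set_option autoImplicit false
set_option linter.style.haveILetI false

namespace Fermat.Agent.GR

open CuspForm

/-- **S22**: the Hecke algebra is a finitely generated `ℤ`-module. -/
theorem heckeAlgebra_moduleFinite (N : ℕ) [NeZero N] (k : ℤ) (S : Set ℕ) :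
    Module.Finite ℤ ↥(heckeAlgebra N k S) := by
  rcases le_or_gt k 0 with hk | hk
  · exact Fermat.Agent.S22.finite_heckeAlgebra_of_nonpos S hk
  rcases Int.even_or_odd k with he | ho
  · obtain ⟨r, hr⟩ := he
    have hr1 : 1 ≤ r := by omega
    obtain ⟨m, hm⟩ : ∃ m : ℕ, k = (m : ℤ) + 2 := by
      refine ⟨(2 * (r - 1)).toNat, ?_⟩
      rw [Int.toNat_of_nonneg (by omega)]
      omega
    exact Fermat.Agent.S22.finite_heckeAlgebra_of_periodData (Fermat.Agent.S22.periodData m hm) S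
  · exact Fermat.Agent.S22.finite_heckeAlgebra_of_odd S ho

/-- the Hecke algebra is a free `ℤ`-module. -/
theorem heckeAlgebra_moduleFree (N : ℕ) [NeZero N] (k : ℤ) (S : Set ℕ) :
    Module.Free ℤ ↥(heckeAlgebra N k S) := by
  haveI := heckeAlgebra_moduleFinite N k S
  exact Module.free_of_finite_type_torsion_free'

/-- **(U) for the Hecke algebra**: its `p`-adic points, with bounded denominators, from
reducedness. -/
theorem exists_padic_points_heckeAlgebra (N : ℕ) [NeZero N] (S : Set ℕ)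
    (hred : IsReduced ↥(heckeAlgebra N 2 S)) (p : ℕ) [Fact p.Prime] :
    ∃ (ι : Type) (_ : Fintype ι) (𝒪 : ι → Type) (_ : ∀ i, CommRing (𝒪 i))
      (_ : ∀ i, IsDomain (𝒪 i)) (_ : ∀ i, IsDiscreteValuationRing (𝒪 i))
      (_ : ∀ i, IsAdicComplete (IsLocalRing.maximalIdeal (𝒪 i)) (𝒪 i))
      (_ : ∀ i, Finite (IsLocalRing.ResidueField (𝒪 i))) (_ : ∀ i, CharZero (𝒪 i))
      (χ : ∀ i, ↥(heckeAlgebra N 2 S) →+* 𝒪 i) (c : ℕ),
      (∀ i, (p : 𝒪 i) ∈ IsLocalRing.maximalIdeal (𝒪 i)) ∧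
      ∀ (M : ℕ) (r : ↥(heckeAlgebra N 2 S)), (∀ i, (p : 𝒪 i) ^ (M + c) ∣ χ i r) →
        ∃ r' : ↥(heckeAlgebra N 2 S), r = (p : ↥(heckeAlgebra N 2 S)) ^ M * r' := by
  haveI := heckeAlgebra_moduleFinite N 2 S
  haveI := heckeAlgebra_moduleFree N 2 S
  exact exists_padic_points_of_reduced ↥(heckeAlgebra N 2 S) p

end Fermat.Agent.GR
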