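/-
STAGE (I), package BETTI, lead — part 3: base change of `parabolicHoms` along a ring map `R → R'`
(both torsion-free): `R' ⊗[R] parabolicHoms R Γ R ≃ₗ[R'] parabolicHoms R' Γ R'`,
`c ⊗ ψ ↦ c • (algebraMap ∘ ψ)`, and extension of endomorphisms.
-/
import Fermat.Agent.GR.BETTI_lead_Par

set_option autoImplicit false
set_option linter.unusedSectionVars false
set_option linter.unusedVariables false
set_option linter.style.haveILetI false

namespace Fermat.Agent.GR

open TensorProduct ModularCurve.Period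

open scoped MatrixGroups

section BC

variable (R R' : Type*) [CommRing R] [CommRing R'] [Algebra R R'] (Γ : Subgroup SL(2, ℤ))

/-- post-composition with the algebra map `R → R'` -/
def parMapAlg : ↥(parabolicHoms R Γ R) →ₗ[R] ↥(parabolicHoms R' Γ R') where
  toFun ψ := ⟨(algebraMap R R').toAddMonoidHom.comp ψ.1, comp_mem_parabolicHoms _ ψ.2⟩
  map_add' ψ φ := by
    apply Subtype.ext
    refine AddMonoidHom.ext fun γ => ?_
    show algebraMap R R' (ψ.1 γ + φ.1 γ) = algebraMap R R' (ψ.1 γ) + algebraMap R R' (φ.1 γ)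
    exact map_add _ _ _
  map_smul' r ψ := by
    apply Subtype.ext
    refine AddMonoidHom.ext fun γ => ?_
    show algebraMap R R' (r * ψ.1 γ) = r • algebraMap R R' (ψ.1 γ)
    rw [map_mul, Algebra.smul_def]

@[simp] theorem parMapAlg_apply (ψ : ↥(parabolicHoms R Γ R)) (γ : Additive Γ) :
    (parMapAlg R R' Γ ψ).1 γ = algebraMap R R' (ψ.1 γ) := rfl

/-- the natural `R'`-linear map `R' ⊗[R] parabolicHoms R Γ R → parabolicHoms R' Γ R'` -/
noncomputable def parBCLin : R' ⊗[R] ↥(parabolicHoms R Γ R) →ₗ[R'] ↥(parabolicHoms R' Γ R') :=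
  TensorProduct.AlgebraTensorModule.lift
    ((LinearMap.lsmul R' (↥(parabolicHoms R Γ R) →ₗ[R] ↥(parabolicHoms R' Γ R'))).flip
      (parMapAlg R R' Γ))

@[simp] theorem parBCLin_tmul (c : R') (ψ : ↥(parabolicHoms R Γ R)) :
    parBCLin R R' Γ (c ⊗ₜ ψ) = c • parMapAlg R R' Γ ψ := rfl

theorem parBCLin_tmul_apply (c : R') (ψ : ↥(parabolicHoms R Γ R)) (γ : Additive Γ) :
    (parBCLin R R' Γ (c ⊗ₜ ψ)).1 γ = c * algebraMap R R' (ψ.1 γ) := rfl

section Bij

variable [Group.FG Γ] [IsAddTorsionFree R] [IsAddTorsionFree R']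

/-- the chain `R' ⊗[R] P_R ≃ R' ⊗[R] (R ⊗[ℤ] L) ≃ R' ⊗[ℤ] L ≃ P_{R'}` -/
noncomputable def parBCChain : R' ⊗[R] ↥(parabolicHoms R Γ R) ≃ₗ[R'] ↥(parabolicHoms R' Γ R') :=
  ((TensorProduct.AlgebraTensorModule.congr (LinearEquiv.refl R' R') (parTheta R Γ R).symm).trans
    (TensorProduct.AlgebraTensorModule.cancelBaseChange ℤ R R' R' ↥(parabolicHoms ℤ Γ ℤ))).trans
    (parTheta R' Γ R')

theorem parBCChain_tmul_parTheta (c : R') (r : R) (φ : ↥(parabolicHoms ℤ Γ ℤ)) :
    parBCChain R R' Γ (c ⊗ₜ parTheta R Γ R (r ⊗ₜ φ)) = parScal R' R' (r • c) φ := by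
  show parTheta R' Γ R' (TensorProduct.AlgebraTensorModule.cancelBaseChange ℤ R R' R' _
    (c ⊗ₜ ((parTheta R Γ R).symm (parTheta R Γ R (r ⊗ₜ φ))))) = _
  rw [LinearEquiv.symm_apply_apply, TensorProduct.AlgebraTensorModule.cancelBaseChange_tmul,
    parTheta_tmul]

theorem parBCLin_eq_chain (x : R' ⊗[R] ↥(parabolicHoms R Γ R)) :
    parBCLin R R' Γ x = parBCChain R R' Γ x := by
  induction x using TensorProduct.induction_on with
  | zero => rw [LinearMap.map_zero (parBCLin R R' Γ), LinearEquiv.map_zero (parBCChain R R' Γ)]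
  | add x y hx hy =>
    rw [LinearMap.map_add (parBCLin R R' Γ), LinearEquiv.map_add (parBCChain R R' Γ), hx, hy]
  | tmul c ψ =>
    obtain ⟨y, rfl⟩ := (parTheta R Γ R).surjective ψ
    induction y using TensorProduct.induction_on with
    | zero =>
      rw [LinearEquiv.map_zero (parTheta R Γ R), TensorProduct.tmul_zero,
        LinearMap.map_zero (parBCLin R R' Γ), LinearEquiv.map_zero (parBCChain R R' Γ)]
    | add y z hy hz =>
      rw [LinearEquiv.map_add (parTheta R Γ R), TensorProduct.tmul_add,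
        LinearMap.map_add (parBCLin R R' Γ), LinearEquiv.map_add (parBCChain R R' Γ), hy, hz]
    | tmul r φ =>
      rw [parBCChain_tmul_parTheta]
      apply Subtype.ext
      refine AddMonoidHom.ext fun γ => ?_
      show c * algebraMap R R' (φ.1 γ • r) = φ.1 γ • (r • c)
      rw [zsmul_eq_mul, zsmul_eq_mul, map_mul, map_intCast, Algebra.smul_def]
      ring

theorem parBCLin_bijective : Function.Bijective (parBCLin R R' Γ) := by
  have h : ⇑(parBCLin R R' Γ) = ⇑(parBCChain R R' Γ) := funext (parBCLin_eq_chain R R' Γ)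
  rw [h]
  exact (parBCChain R R' Γ).bijective

/-- **`R' ⊗[R] parabolicHoms R Γ R ≃ₗ[R'] parabolicHoms R' Γ R'`**, `c ⊗ ψ ↦ c • (algebraMap ∘ ψ)`
-/
noncomputable def parBC : R' ⊗[R] ↥(parabolicHoms R Γ R) ≃ₗ[R'] ↥(parabolicHoms R' Γ R') :=
  LinearEquiv.ofBijective (parBCLin R R' Γ) (parBCLin_bijective R R' Γ)

@[simp] theorem parBC_tmul (c : R') (ψ : ↥(parabolicHoms R Γ R)) :
    parBC R R' Γ (c ⊗ₜ ψ) = c • parMapAlg R R' Γ ψ := rfl

theorem parBC_tmul_apply (c : R') (ψ : ↥(parabolicHoms R Γ R)) (γ : Additive Γ) :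
    (parBC R R' Γ (c ⊗ₜ ψ)).1 γ = c * algebraMap R R' (ψ.1 γ) := rfl

/-- **extension of endomorphisms** `End_R(P_R) → End_{R'}(P_{R'})` -/
noncomputable def parExt :
    Module.End R ↥(parabolicHoms R Γ R) →+* Module.End R' ↥(parabolicHoms R' Γ R') :=
  ((parBC R R' Γ).conjRingEquiv : _ →+* _).comp
    (Module.End.baseChangeHom R R' ↥(parabolicHoms R Γ R)).toRingHom

theorem parExt_apply_parBC (g : Module.End R ↥(parabolicHoms R Γ R))
    (x : R' ⊗[R] ↥(parabolicHoms R Γ R)) :
    parExt R R' Γ g (parBC R R' Γ x) = parBC R R' Γ (g.baseChange R' x) := by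
  show (parBC R R' Γ) ((g.baseChange R') ((parBC R R' Γ).symm (parBC R R' Γ x))) = _
  rw [LinearEquiv.symm_apply_apply]

theorem parExt_smul_parMapAlg (g : Module.End R ↥(parabolicHoms R Γ R)) (c : R')
    (ψ : ↥(parabolicHoms R Γ R)) :
    parExt R R' Γ g (c • parMapAlg R R' Γ ψ) = c • parMapAlg R R' Γ (g ψ) := by
  rw [← parBC_tmul, parExt_apply_parBC, LinearMap.baseChange_tmul, parBC_tmul]

theorem parExt_parMapAlg (g : Module.End R ↥(parabolicHoms R Γ R)) (ψ : ↥(parabolicHoms R Γ R)) :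
    parExt R R' Γ g (parMapAlg R R' Γ ψ) = parMapAlg R R' Γ (g ψ) := by
  have := parExt_smul_parMapAlg R R' Γ g 1 ψ
  rwa [one_smul, one_smul] at this

/-- an `R'`-linear endomorphism of `P_{R'}` which extends `g` on the image of `P_R` is `parExt g` -/
theorem eq_parExt_of_parMapAlg (g : Module.End R ↥(parabolicHoms R Γ R))
    (g' : Module.End R' ↥(parabolicHoms R' Γ R'))
    (h : ∀ ψ, g' (parMapAlg R R' Γ ψ) = parMapAlg R R' Γ (g ψ)) : g' = parExt R R' Γ g := by
  apply LinearMap.ext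
  intro m
  obtain ⟨x, rfl⟩ := (parBC R R' Γ).surjective m
  induction x using TensorProduct.induction_on with
  | zero => rw [LinearEquiv.map_zero (parBC R R' Γ), map_zero, map_zero]
  | add x y hx hy => rw [LinearEquiv.map_add (parBC R R' Γ), map_add, map_add, hx, hy]
  | tmul c ψ => rw [parBC_tmul, map_smul, h, parExt_smul_parMapAlg]

/-- every element of `P_{R'}` is a combination of images of elements of `P_R` -/
theorem parMapAlg_span : Submodule.span R' (Set.range (parMapAlg R R' Γ)) = ⊤ := by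
  rw [eq_top_iff]
  rintro m -
  obtain ⟨x, rfl⟩ := (parBC R R' Γ).surjective m
  induction x using TensorProduct.induction_on with
  | zero => rw [LinearEquiv.map_zero (parBC R R' Γ)]; exact Submodule.zero_mem _
  | add x y hx hy =>
    rw [LinearEquiv.map_add (parBC R R' Γ)]; exact Submodule.add_mem _ hx hy
  | tmul c ψ =>
    rw [parBC_tmul]
    exact Submodule.smul_mem _ c (Submodule.subset_span ⟨ψ, rfl⟩)

end Bij

end BC

end Fermat.Agent.GR
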