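/-
STAGE (I), lead: **S29 from `StageIData`** + (EIGENFORM) + (FIN) (finding 228): residual Galois
representations attached to normalized eigenforms of weight 2.
-/
import Fermat.Agent.GR.S30TOP_lead
import Fermat.Agent.GR.PADIC_lead_NumberField

set_option autoImplicit false
set_option linter.unusedSectionVars false
set_option linter.unusedVariables false
set_option linter.style.haveILetI false

namespace Fermat.Agent.GR

open CongruenceSubgroup ModularCurve ModularCurve.Period Polynomial IsLocalRing NumberField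

open scoped MatrixGroups TensorProduct

local notation "Ω" => AlgebraicClosure ℚ
local notation "GQ" => (AlgebraicClosure ℚ ≃ₐ[ℚ] AlgebraicClosure ℚ)

section Residual

/-- the characteristic polynomials of the residual representation -/
theorem residual_charpoly {A : Type} [CommRing A] [IsLocalRing A] (ρ : GaloisRepAdic A) (σ : GQ) :
    LinearMap.charpoly (ρ.residual.ρ σ) = (LinearMap.charpoly (ρ.ρ σ)).map (residue A) := by
  show LinearMap.charpoly ((ρ.ρ σ).baseChange (ResidueField A)) = _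
  rw [LinearMap.charpoly_baseChange]
  rfl

theorem residual_isUnramifiedAt {A : Type} [CommRing A] [IsLocalRing A] (ρ : GaloisRepAdic A)
    (q : ℕ) (h : ρ.IsUnramifiedAt q) : ρ.residual.IsUnramifiedAt q := by
  intro P hP σ hσ
  show (ρ.ρ σ).baseChange (ResidueField A) = 1
  rw [h P hP σ hσ, LinearMap.baseChange_one]

/-- the characteristic polynomials of a base change of a residual representation -/
theorem baseChangeAlong_charpoly {k k' : Type} [Field k] [Field k'] (φ : k →+* k')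
    (ρ : ResidualGaloisRep k) (σ : GQ) :
    LinearMap.charpoly ((ρ.baseChangeAlong φ).ρ σ) = (LinearMap.charpoly (ρ.ρ σ)).map φ := by
  letI : Algebra k k' := φ.toAlgebra
  show LinearMap.charpoly ((ρ.ρ σ).baseChange k') = _
  rw [LinearMap.charpoly_baseChange]
  rfl

theorem baseChangeAlong_isUnramifiedAt {k k' : Type} [Field k] [Field k'] (φ : k →+* k')
    (ρ : ResidualGaloisRep k) (q : ℕ) (h : ρ.IsUnramifiedAt q) :
    (ρ.baseChangeAlong φ).IsUnramifiedAt q := by
  letI : Algebra k k' := φ.toAlgebra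
  intro P hP σ hσ
  show (ρ.ρ σ).baseChange k' = 1
  rw [h P hP σ hσ, LinearMap.baseChange_one]

/-- the trivial two-dimensional residual representation -/
noncomputable def trivialResidualRep (k : Type) [Field k] : ResidualGaloisRep k where
  V := Fin 2 → k
  finrank_eq := by rw [Module.finrank_fin_fun]
  ρ := 1
  factorsThroughFiniteLevel := ⟨⊥, inferInstance, fun σ _ => rfl⟩

end Residual

section Inputs

variable (N : ℕ) [NeZero N]

/-- (EIGENFORM) the system of eigenvalues of a normalized eigenform occurs in the parabolic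
cohomology -/
def EigenformOcc : Prop :=
  ∀ g : CuspForm (Gamma0 N) 2, g.IsNormalizedEigenform →
    ∃ a : Nat.Primes → ℂ, eigenPar N ℂ a ≠ ⊥ ∧
      ∀ (ℓ : ℕ) (hℓ : ℓ.Prime), ¬ ℓ ∣ N → a ⟨ℓ, hℓ⟩ = ModularFormClass.qCoeff g ℓ

/-- (FIN) the field generated by an occurring system of eigenvalues is a number field -/
def FinEig : Prop :=
  ∀ a : Nat.Primes → ℂ, eigenPar N ℂ a ≠ ⊥ →
    FiniteDimensional ℚ ↥(IntermediateField.adjoin ℚ (Set.range a))

end Inputs

section Main

variable {N : ℕ} [NeZero N] {p : ℕ} [hp : Fact p.Prime]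

/-- **the S29 statement for `(N, p)`, `N ≠ 0`, from a term of `StageIData N p`** and the inputs
(EIGENFORM), (FIN). -/
theorem s29_of_stageIData (I : StageIData N p) (hE : EigenformOcc N) (hF : FinEig N)
    {g : CuspForm (Gamma0 N) 2} (hg : g.IsNormalizedEigenform)
    {k : Type} [Field k] [CharP k p] (φ : integralClosure ℤ ℂ →+* k) :
    ∃ ρ : ResidualGaloisRep k, ρ.IsAttachedTo g φ ∧
      ∀ ℓ : ℕ, ℓ.Prime → ¬ ℓ ∣ N * p → ρ.IsUnramifiedAt ℓ := by
  obtain ⟨a, hocc, haq⟩ := hE g hg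
  haveI hfd : FiniteDimensional ℚ ↥(IntermediateField.adjoin ℚ (Set.range a)) := hF a hocc
  have hintZ : ∀ ℓ, IsIntegral ℤ (a ℓ) := isIntegral_of_eigenPar_ne_bot hocc
  have hmem : ∀ ℓ, a ℓ ∈ IntermediateField.adjoin ℚ (Set.range a) := fun ℓ =>
    IntermediateField.subset_adjoin _ _ ⟨ℓ, rfl⟩
  -- the eigenvalues as elements of the ring of integers of `E`
  have hintE : ∀ ℓ, IsIntegral ℤ
      (⟨a ℓ, hmem ℓ⟩ : ↥(IntermediateField.adjoin ℚ (Set.range a))) := by
    intro ℓ
    have h := hintZ ℓ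
    have h2 : a ℓ = algebraMap ↥(IntermediateField.adjoin ℚ (Set.range a)) ℂ ⟨a ℓ, hmem ℓ⟩ := rfl
    rw [h2] at h
    exact (isIntegral_algebraMap_iff (RingHom.injective _)).1 h
  let aO : Nat.Primes → 𝓞 ↥(IntermediateField.adjoin ℚ (Set.range a)) :=
    fun ℓ => ⟨⟨a ℓ, hmem ℓ⟩, hintE ℓ⟩
  obtain ⟨𝒪, i1, i2, i3, i4, i5, i6, j, θ, hj, hp𝒪, hθ⟩ :=
    exists_padic_model (IntermediateField.adjoin ℚ (Set.range a)) hp.out φ
  haveI : CharZero (FractionRing 𝒪) :=
    charZero_of_injective_algebraMap (IsFractionRing.injective 𝒪 (FractionRing 𝒪))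
  -- occurrence over the fraction field of `𝒪`
  have hoccK : eigenPar N (FractionRing 𝒪) (mapSys 𝒪 (FractionRing 𝒪) (fun ℓ => j (aO ℓ))) ≠ ⊥ := by
    have h1 := eigenParOn_ne_bot_of_domain (N := N) (F := ℂ) (F' := FractionRing 𝒪)
      (D := 𝓞 ↥(IntermediateField.adjoin ℚ (Set.range a)))
      ((IntermediateField.adjoin ℚ (Set.range a)).val.toRingHom.comp (algebraMap _ _))
      ((algebraMap 𝒪 (FractionRing 𝒪)).comp j)
      (Subtype.val_injective.comp RingOfIntegers.coe_injective)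
      ((IsFractionRing.injective 𝒪 (FractionRing 𝒪)).comp hj) Set.univ aO
      (by rw [eigenParOn_univ]; exact hocc)
    rw [eigenParOn_univ] at h1
    exact h1
  obtain ⟨ρ, h1, h2, -⟩ := exists_rep_of_system I 𝒪 hp𝒪 (FractionRing 𝒪) (fun ℓ => j (aO ℓ)) hoccK
  refine ⟨(ρ.residual).baseChangeAlong θ, ?_, ?_⟩
  · intro ℓ hℓ hℓN hℓk A hA σ hσ
    have hℓp : ℓ ≠ p := by
      rintro rfl
      exact hℓk (CharP.cast_eq_zero k ℓ)
    have hℓNp : ¬ ℓ ∣ N * p := by
      intro h
      rcases (Nat.Prime.dvd_mul hℓ).1 h with h | h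
      · exact hℓN h
      · exact hℓp ((Nat.prime_dvd_prime_iff_eq hℓ hp.out).1 h)
    refine ⟨ringOfIntegersToIntegralClosure _ (aO ⟨ℓ, hℓ⟩), ?_, ?_⟩
    · rw [ringOfIntegersToIntegralClosure_coe]
      exact haq ℓ hℓ hℓN
    · rw [baseChangeAlong_charpoly, residual_charpoly, h1 ℓ hℓ hℓNp A hA σ hσ, ← hθ]
      simp only [Polynomial.map_add, Polynomial.map_sub, Polynomial.map_mul, Polynomial.map_pow,
        Polynomial.map_X, Polynomial.map_C, map_natCast, Polynomial.map_natCast]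
  · intro ℓ hℓ hℓNp
    exact baseChangeAlong_isUnramifiedAt θ _ ℓ (residual_isUnramifiedAt ρ ℓ (h2 ℓ hℓ hℓNp))

/-- the S29 statement at level `0` (all conditions are empty) -/
theorem s29_level_zero {g : CuspForm (Gamma0 0) 2} {p : ℕ} {k : Type} [Field k]
    (φ : integralClosure ℤ ℂ →+* k) :
    ∃ ρ : ResidualGaloisRep k, ρ.IsAttachedTo g φ ∧
      ∀ ℓ : ℕ, ℓ.Prime → ¬ ℓ ∣ 0 * p → ρ.IsUnramifiedAt ℓ := by
  refine ⟨trivialResidualRep k, ?_, ?_⟩
  · intro ℓ hℓ hℓN
    exact absurd (dvd_zero ℓ) hℓN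
  · intro ℓ hℓ hℓN
    rw [zero_mul] at hℓN
    exact absurd (dvd_zero ℓ) hℓN

/-- **the S29 statement from the three inputs** -/
theorem s29_of_inputs
    (hI : ∀ (N : ℕ) [NeZero N] (p : ℕ) [Fact p.Prime], Nonempty (StageIData N p))
    (hE : ∀ (N : ℕ) [NeZero N], EigenformOcc N) (hF : ∀ (N : ℕ) [NeZero N], FinEig N)
    {N : ℕ} {g : CuspForm (CongruenceSubgroup.Gamma0 N) 2} (hg : g.IsNormalizedEigenform)
    {p : ℕ} (hp : p.Prime) {k : Type} [Field k] [CharP k p]
    (φ : integralClosure ℤ ℂ →+* k) :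
    ∃ ρ : ResidualGaloisRep k, ρ.IsAttachedTo g φ ∧
      ∀ ℓ : ℕ, ℓ.Prime → ¬ ℓ ∣ N * p → ρ.IsUnramifiedAt ℓ := by
  rcases Nat.eq_zero_or_pos N with hN | hN
  · subst hN
    exact s29_level_zero φ
  · haveI : NeZero N := ⟨hN.ne'⟩
    haveI : Fact p.Prime := ⟨hp⟩
    obtain ⟨I⟩ := hI N p
    exact s29_of_stageIData I (hE N) (hF N) hg φ

end Main

end Fermat.Agent.GR
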