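/-
Stage (I), package K9c — helper3.
Burnside / Carayol for adic Galois representations: if the residual representation of
`ρ : GaloisRepAdic T` (`T` local) is absolutely irreducible, then the `T`-span of `ρ(G)` is the
whole endomorphism algebra, and an element `σ` with `tr ρ(σ g) = tr ρ(g)` for all `g` acts
trivially.  Thin wrap of helper1's matrix algebra for S53.
-/
import Mathlib
import Fermat.Agent.S53.L1_helper1_Slice

set_option autoImplicit false
set_option linter.style.haveILetI false
set_option linter.unusedSectionVars false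

open Module IsLocalRing

namespace Fermat.Agent.GR

open Fermat.Agent.S53 Fermat.Agent.S53.L1

open scoped TensorProduct

local notation "GQ" => (AlgebraicClosure ℚ ≃ₐ[ℚ] AlgebraicClosure ℚ)

section K9c

variable {T : Type} [CommRing T] [IsLocalRing T] (ρ : GaloisRepAdic T)

/-- a basis of the underlying free module of rank two. -/
noncomputable def repBasis : Basis (Fin 2) T ρ.V :=
  Module.finBasisOfFinrankEq T ρ.V ρ.finrank_eq

/-- the matrix form of `ρ` in `repBasis`. -/
noncomputable def repMat : GQ →* Mat2 T :=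
  ((LinearMap.toMatrixAlgEquiv (repBasis ρ) : Module.End T ρ.V ≃ₐ[T] Mat2 T) :
    Module.End T ρ.V →* Mat2 T).comp ρ.ρ

theorem repMat_apply (σ : GQ) : repMat ρ σ = LinearMap.toMatrix (repBasis ρ) (repBasis ρ) (ρ.ρ σ) :=
  rfl

theorem trace_repMat (σ : GQ) : Matrix.trace (repMat ρ σ) = LinearMap.trace T ρ.V (ρ.ρ σ) := by
  rw [repMat_apply, LinearMap.trace_eq_matrix_trace T (repBasis ρ)]

/-- the matrices of an adic representation with absolutely irreducible residual representation
span the full matrix algebra. -/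
theorem fullSpan_repMat (habs : ρ.residual.IsAbsolutelyIrreducible) : FullSpan (repMat ρ) := by
  apply fullSpan_of_residue
  let β : Basis (Fin 2) (ResidueField T) ρ.residual.V :=
    Algebra.TensorProduct.basis (ResidueField T) (repBasis ρ)
  refine fullSpan_of_absIrr ρ.residual β habs _ (fun σ => ?_)
  rw [mapRep_apply, repMat_apply]
  exact (LinearMap.toMatrix_baseChange (ResidueField T) (ρ.ρ σ) (repBasis ρ) (repBasis ρ)).symm

/-- **Burnside + Nakayama**: the `T`-span of `ρ(G)` is `End_T(V)`. -/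
theorem span_range_eq_top (habs : ρ.residual.IsAbsolutelyIrreducible) :
    Submodule.span T (Set.range ρ.ρ) = ⊤ := by
  have h := fullSpan_repMat ρ habs
  unfold FullSpan at h
  let e : Module.End T ρ.V ≃ₗ[T] Mat2 T := (LinearMap.toMatrix (repBasis ρ) (repBasis ρ))
  have h2 : (Submodule.span T (Set.range ρ.ρ)).map e.toLinearMap = ⊤ := by
    rw [Submodule.map_span, ← h]
    congr 1
    ext X
    constructor
    · rintro ⟨_, ⟨σ, rfl⟩, rfl⟩
      exact ⟨σ, rfl⟩
    · rintro ⟨σ, rfl⟩
      exact ⟨_, ⟨σ, rfl⟩, rfl⟩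
  rw [eq_top_iff]
  intro x _
  have hx : e x ∈ (Submodule.span T (Set.range ρ.ρ)).map e.toLinearMap := by
    rw [h2]; trivial
  obtain ⟨y, hy, hyx⟩ := hx
  have : y = x := e.injective hyx
  rwa [← this]

/-- **Carayol's trace argument**: if `tr ρ(σ g) = tr ρ(g)` for all `g` then `ρ(σ) = 1`. -/
theorem eq_one_of_forall_trace_mul_eq (habs : ρ.residual.IsAbsolutelyIrreducible) (σ : GQ)
    (h : ∀ g : GQ, LinearMap.trace T ρ.V (ρ.ρ (σ * g)) = LinearMap.trace T ρ.V (ρ.ρ g)) :
    ρ.ρ σ = 1 := by
  have hfull := fullSpan_repMat ρ habs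
  have hX : repMat ρ σ - 1 = 0 := by
    apply eq_zero_of_trace_mul_eq_zero
    intro Z
    have hZ : Z ∈ Submodule.span T (Set.range (repMat ρ)) := by
      rw [show Submodule.span T (Set.range (repMat ρ)) = ⊤ from hfull]; trivial
    induction hZ using Submodule.span_induction with
    | mem Z hZ =>
      obtain ⟨g, rfl⟩ := hZ
      rw [sub_mul, one_mul, ← map_mul, Matrix.trace_sub, trace_repMat, trace_repMat, h g, sub_self]
    | zero => rw [mul_zero, Matrix.trace_zero]
    | add Z Z' _ _ h1 h2 => rw [mul_add, Matrix.trace_add, h1, h2, add_zero]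
    | smul a Z _ h1 => rw [mul_smul_comm, Matrix.trace_smul, h1, smul_zero]
  have h1 : repMat ρ σ = 1 := sub_eq_zero.mp hX
  rw [repMat_apply] at h1
  have h2 : LinearMap.toMatrix (repBasis ρ) (repBasis ρ) (ρ.ρ σ) =
      LinearMap.toMatrix (repBasis ρ) (repBasis ρ) (1 : Module.End T ρ.V) := by
    rw [h1]
    exact (LinearMap.toMatrix_one (repBasis ρ)).symm
  exact (LinearMap.toMatrix (repBasis ρ) (repBasis ρ)).injective h2

/-- the same with traces compared after an injective additive map (e.g. `T ↪ ∏ Kᵢ`). -/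
theorem eq_one_of_forall_map_trace_mul_eq (habs : ρ.residual.IsAbsolutelyIrreducible)
    {B : Type*} [AddCommGroup B] (φ : T →+ B) (hφ : Function.Injective φ) (σ : GQ)
    (h : ∀ g : GQ, φ (LinearMap.trace T ρ.V (ρ.ρ (σ * g))) = φ (LinearMap.trace T ρ.V (ρ.ρ g))) :
    ρ.ρ σ = 1 :=
  eq_one_of_forall_trace_mul_eq ρ habs σ fun g => hφ (h g)

/-- unramifiedness from traces. -/
theorem isUnramifiedAt_of_forall_trace_mul_eq (habs : ρ.residual.IsAbsolutelyIrreducible) (q : ℕ)
    (h : ∀ P : ValuationSubring (AlgebraicClosure ℚ), P.LiesOverPrime q →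
      ∀ σ ∈ P.inertiaSubgroupIn ℚ, ∀ g : GQ,
        LinearMap.trace T ρ.V (ρ.ρ (σ * g)) = LinearMap.trace T ρ.V (ρ.ρ g)) :
    ρ.IsUnramifiedAt q :=
  fun P hP σ hσ => eq_one_of_forall_trace_mul_eq ρ habs σ (h P hP σ hσ)

end K9c

end Fermat.Agent.GR
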