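/-
STAGE (I+), lead: **S31 from its inputs** — the S30 statement, the `p`-adic points of the reduced
Hecke algebra with bounded denominators (U), Frobenius density (K9b) and Burnside/Nakayama (K9c).
-/
import Fermat.Agent.GR.K9C_helper3
import Fermat.Agent.GR.K9B_helper4_Pieces
import Fermat.Prelude.Def_CuspForm_HeckeGaloisRepDatum

set_option autoImplicit false
set_option linter.unusedSectionVars false
set_option linter.unusedVariables false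
set_option linter.style.haveILetI false

namespace Fermat.Agent.GR

open Polynomial IsLocalRing CuspForm

local notation "Ω" => AlgebraicClosure ℚ
local notation "GQ" => (AlgebraicClosure ℚ ≃ₐ[ℚ] AlgebraicClosure ℚ)

section Lemmas

/-- divisibility descends along an injective local homomorphism out of a valuation ring -/
theorem dvd_of_map_dvd_of_isLocalHom {A B : Type*} [CommRing A] [IsDomain A] [ValuationRing A]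
    [CommRing B] [IsDomain B] (f : A →+* B) [IsLocalHom f]
    (hf : Function.Injective f) {a x : A} (h : f a ∣ f x) : a ∣ x := by
  rcases ValuationRing.dvd_total a x with h1 | h1
  · exact h1
  · obtain ⟨z, hz⟩ := h1
    obtain ⟨y, hy⟩ := h
    by_cases hx : x = 0
    · rw [hx]; exact dvd_zero a
    · have hfx : f x ≠ 0 := fun h0 => hx (hf (by rw [h0, map_zero]))
      have h2 : f x * (f z * y) = f x * 1 := by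
        rw [mul_one, ← mul_assoc, ← map_mul, ← hz, hy]
      have h3 : f z * y = 1 := mul_left_cancel₀ hfx h2
      have hzu : IsUnit z := isUnit_of_map_unit f z (IsUnit.of_mul_eq_one _ h3)
      obtain ⟨u, rfl⟩ := hzu
      exact ⟨↑u⁻¹, by rw [hz, mul_assoc, Units.mul_inv, mul_one]⟩

/-- in a DVR, a power of the maximal ideal is contained in any nonzero principal ideal -/
theorem exists_pow_maximalIdeal_le_span {B : Type*} [CommRing B] [IsDomain B]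
    [IsDiscreteValuationRing B] {b : B} (hb : b ≠ 0) :
    ∃ k : ℕ, maximalIdeal B ^ k ≤ Ideal.span {b} := by
  obtain ⟨ϖ, hϖ⟩ := IsDiscreteValuationRing.exists_irreducible B
  obtain ⟨k, hk⟩ := IsDiscreteValuationRing.ideal_eq_span_pow_irreducible
    (s := Ideal.span {b}) (by rwa [Ne, Ideal.span_singleton_eq_bot]) hϖ
  refine ⟨k, ?_⟩
  rw [hk, (IsDiscreteValuationRing.irreducible_iff_uniformizer ϖ).1 hϖ, Ideal.span_singleton_pow]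

end Lemmas

section Statements

/-- the literal S30 statement -/
def S30Statement : Prop :=
  ∀ (p : ℕ) [Fact p.Prime] (N : ℕ) [NeZero N] (S : Finset ℕ)
    (_hpS : p ∈ S) (_hNS : ∀ q : ℕ, q.Prime → q ∣ N → q ∈ S)
    (𝒪' : Type) [CommRing 𝒪'] [IsDomain 𝒪'] [IsDiscreteValuationRing 𝒪']
    [IsAdicComplete (IsLocalRing.maximalIdeal 𝒪') 𝒪'] [Finite (IsLocalRing.ResidueField 𝒪')]
    [CharZero 𝒪'] (_hp𝒪' : (p : 𝒪') ∈ IsLocalRing.maximalIdeal 𝒪')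
    (χ : CuspForm.heckeAlgebra N 2 (↑S : Set ℕ) →+* 𝒪'),
    ∃ (𝒪'' : Type) (_ : CommRing 𝒪'') (_ : IsDomain 𝒪'') (_ : IsDiscreteValuationRing 𝒪'')
      (_ : IsAdicComplete (IsLocalRing.maximalIdeal 𝒪'') 𝒪'')
      (_ : Finite (IsLocalRing.ResidueField 𝒪'')) (_ : CharZero 𝒪'')
      (_ : Algebra 𝒪' 𝒪'') (_ : Module.Finite 𝒪' 𝒪'') (_ : IsLocalHom (algebraMap 𝒪' 𝒪'')),
    Function.Injective (algebraMap 𝒪' 𝒪'') ∧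
    ∃ ρ : GaloisRepAdic 𝒪'',
      (∀ (ℓ : ℕ) (hℓ : ℓ.Prime) (hℓN : ¬ ℓ ∣ N) (hℓS : ℓ ∉ (↑S : Set ℕ)),
        ∀ A : ValuationSubring (AlgebraicClosure ℚ), A.LiesOverPrime ℓ →
          ∀ σ : AlgebraicClosure ℚ ≃ₐ[ℚ] AlgebraicClosure ℚ, A.IsFrobeniusAt σ ℓ →
            LinearMap.charpoly (ρ.ρ σ) =
              X ^ 2 - C (algebraMap 𝒪' 𝒪'' (χ (CuspForm.heckeAlgebra.T hℓ hℓN hℓS))) * X
                + C ((ℓ : 𝒪''))) ∧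
      (∀ q : ℕ, q.Prime → ¬ q ∣ N → q ≠ p → ρ.IsUnramifiedAt q)

/-- (U): the `p`-adic points of a ring with bounded denominators -/
def PadicPoints (𝕋 : Type) [CommRing 𝕋] (p : ℕ) : Prop :=
  ∃ (ι : Type) (_ : Fintype ι) (𝒪 : ι → Type) (_ : ∀ i, CommRing (𝒪 i)) (_ : ∀ i, IsDomain (𝒪 i))
    (_ : ∀ i, IsDiscreteValuationRing (𝒪 i))
    (_ : ∀ i, IsAdicComplete (IsLocalRing.maximalIdeal (𝒪 i)) (𝒪 i))
    (_ : ∀ i, Finite (IsLocalRing.ResidueField (𝒪 i))) (_ : ∀ i, CharZero (𝒪 i))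
    (χ : ∀ i, 𝕋 →+* 𝒪 i) (c : ℕ),
    (∀ i, (p : 𝒪 i) ∈ IsLocalRing.maximalIdeal (𝒪 i)) ∧
    ∀ (M : ℕ) (r : 𝕋), (∀ i, (p : 𝒪 i) ^ (M + c) ∣ χ i r) → ∃ r' : 𝕋, r = (p : 𝕋) ^ M * r'

end Statements

section Point

variable {p : ℕ} [hp : Fact p.Prime] {N : ℕ} [NeZero N] {S : Finset ℕ}

/-- the contribution of one `p`-adic point of the Hecke algebra -/
theorem exists_level_of_point (h30 : S30Statement)
    (hpS : p ∈ S) (hNS : ∀ q : ℕ, q.Prime → q ∣ N → q ∈ S)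
    (𝒪' : Type) [CommRing 𝒪'] [IsDomain 𝒪'] [IsDiscreteValuationRing 𝒪']
    [IsAdicComplete (IsLocalRing.maximalIdeal 𝒪') 𝒪'] [Finite (IsLocalRing.ResidueField 𝒪')]
    [CharZero 𝒪'] (hp𝒪' : (p : 𝒪') ∈ IsLocalRing.maximalIdeal 𝒪')
    (χ : CuspForm.heckeAlgebra N 2 (↑S : Set ℕ) →+* 𝒪') (M : ℕ)
    (q : ℕ) (hq : q.Prime) (hqS : q ∉ S)
    (P : ValuationSubring Ω) (hP : P.LiesOverPrime q) (σ : GQ) (hσ : σ ∈ P.inertiaSubgroupIn ℚ)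
    (g : GQ) :
    ∃ L : IntermediateField ℚ Ω, FiniteDimensional ℚ L ∧
      ∀ (ℓ₁ : ℕ) (hℓ₁ : ℓ₁.Prime) (hℓ₁N : ¬ ℓ₁ ∣ N) (hℓ₁S : ℓ₁ ∉ (↑S : Set ℕ))
        (A₁ : ValuationSubring Ω) (hA₁ : A₁.LiesOverPrime ℓ₁) (φ₁ : GQ)
        (hφ₁ : A₁.IsFrobeniusAt φ₁ ℓ₁) (m₁ : ℕ) (τ₁ : GQ)
        (ℓ₂ : ℕ) (hℓ₂ : ℓ₂.Prime) (hℓ₂N : ¬ ℓ₂ ∣ N) (hℓ₂S : ℓ₂ ∉ (↑S : Set ℕ))
        (A₂ : ValuationSubring Ω) (hA₂ : A₂.LiesOverPrime ℓ₂) (φ₂ : GQ)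
        (hφ₂ : A₂.IsFrobeniusAt φ₂ ℓ₂) (m₂ : ℕ) (τ₂ : GQ),
        (∀ x ∈ L, (τ₁ * g * τ₁⁻¹) x = (φ₁ ^ m₁) x) →
        (∀ x ∈ L, (τ₂ * (σ * g) * τ₂⁻¹) x = (φ₂ ^ m₂) x) →
        (p : 𝒪') ^ M ∣ χ (luc (CuspForm.heckeAlgebra.T hℓ₁ hℓ₁N hℓ₁S)
            ((ℓ₁ : ℕ) : CuspForm.heckeAlgebra N 2 (↑S : Set ℕ)) m₁
          - luc (CuspForm.heckeAlgebra.T hℓ₂ hℓ₂N hℓ₂S)
            ((ℓ₂ : ℕ) : CuspForm.heckeAlgebra N 2 (↑S : Set ℕ)) m₂) := by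
  obtain ⟨𝒪'', i1, i2, i3, i4, i5, i6, i7, i8, i9, hinj, ρ, hchar, hunr⟩ :=
    h30 p N S hpS hNS 𝒪' hp𝒪' χ
  have hp0 : ((p : 𝒪'') ^ M) ≠ 0 := pow_ne_zero _ (Nat.cast_ne_zero.2 hp.out.ne_zero)
  obtain ⟨k, hk⟩ := exists_pow_maximalIdeal_le_span hp0
  obtain ⟨L, hLfd, hL⟩ := ρ.isAdicContinuous k
  refine ⟨L, hLfd, ?_⟩
  intro ℓ₁ hℓ₁ hℓ₁N hℓ₁S A₁ hA₁ φ₁ hφ₁ m₁ τ₁ ℓ₂ hℓ₂ hℓ₂N hℓ₂S A₂ hA₂ φ₂ hφ₂ m₂ τ₂ h₁ h₂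
  have hqN : ¬ q ∣ N := fun h => hqS (hNS q hq h)
  have hqp : q ≠ p := fun h => hqS (h ▸ hpS)
  have hσ1 : ρ.ρ σ = 1 := hunr q hq hqN hqp P hP σ hσ
  -- traces of Frobenius powers
  have e : ∀ (ℓ : ℕ) (hℓ : ℓ.Prime) (hℓN : ¬ ℓ ∣ N) (hℓS : ℓ ∉ (↑S : Set ℕ))
      (A : ValuationSubring Ω) (hA : A.LiesOverPrime ℓ) (φ : GQ) (hφ : A.IsFrobeniusAt φ ℓ)
      (m : ℕ), LinearMap.trace 𝒪'' ρ.V (ρ.ρ (φ ^ m)) =
        algebraMap 𝒪' 𝒪'' (χ (luc (CuspForm.heckeAlgebra.T hℓ hℓN hℓS)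
          ((ℓ : ℕ) : CuspForm.heckeAlgebra N 2 (↑S : Set ℕ)) m)) := by
    intro ℓ hℓ hℓN hℓS A hA φ hφ m
    rw [map_pow, trace_pow_eq_luc ρ.finrank_eq _ _ _ (hchar ℓ hℓ hℓN hℓS A hA φ hφ) m,
      map_luc χ, map_luc (algebraMap 𝒪' 𝒪''), map_natCast, map_natCast]
  have c₁ := trace_sub_trace_mem ρ k L hL _ _ h₁
  have c₂ := trace_sub_trace_mem ρ k L hL _ _ h₂
  rw [trace_conj_eq] at c₁ c₂
  have hσg : LinearMap.trace 𝒪'' ρ.V (ρ.ρ (σ * g)) = LinearMap.trace 𝒪'' ρ.V (ρ.ρ g) := by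
    rw [map_mul, hσ1, one_mul]
  rw [hσg] at c₂
  rw [e ℓ₁ hℓ₁ hℓ₁N hℓ₁S A₁ hA₁ φ₁ hφ₁ m₁] at c₁
  rw [e ℓ₂ hℓ₂ hℓ₂N hℓ₂S A₂ hA₂ φ₂ hφ₂ m₂] at c₂
  have hmem : algebraMap 𝒪' 𝒪'' (χ (luc (CuspForm.heckeAlgebra.T hℓ₁ hℓ₁N hℓ₁S)
            ((ℓ₁ : ℕ) : CuspForm.heckeAlgebra N 2 (↑S : Set ℕ)) m₁
          - luc (CuspForm.heckeAlgebra.T hℓ₂ hℓ₂N hℓ₂S)
            ((ℓ₂ : ℕ) : CuspForm.heckeAlgebra N 2 (↑S : Set ℕ)) m₂)) ∈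
      maximalIdeal 𝒪'' ^ k := by
    rw [map_sub, map_sub]
    have := Ideal.sub_mem _ c₂ c₁
    convert this using 1
    ring
  have hdvd := Ideal.mem_span_singleton.1 (hk hmem)
  have hpow : ((p : 𝒪'') ^ M) = algebraMap 𝒪' 𝒪'' ((p : 𝒪') ^ M) := by
    rw [map_pow, map_natCast]
  rw [hpow] at hdvd
  exact dvd_of_map_dvd_of_isLocalHom (algebraMap 𝒪' 𝒪'') hinj hdvd

end Point

section Main

variable {p : ℕ} {N : ℕ} [NeZero N] {S : Finset ℕ}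
  {𝒪 : Type} [CommRing 𝒪] [IsDomain 𝒪] [IsDiscreteValuationRing 𝒪]
  [IsAdicComplete (IsLocalRing.maximalIdeal 𝒪) 𝒪]
  {θ : CuspForm.heckeAlgebra N 2 (↑S : Set ℕ) →+* IsLocalRing.ResidueField 𝒪}
  {T : Type} [CommRing T] [IsLocalRing T] [IsNoetherianRing T]
  [IsAdicComplete (IsLocalRing.maximalIdeal T) T] [Algebra 𝒪 T] [IsLocalHom (algebraMap 𝒪 T)]
  [Module.Finite 𝒪 T] [Module.Free 𝒪 T]

/-- **the S31 statement from the S30 statement and the `p`-adic points (U) of the Hecke algebra** -/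
theorem s31_of_inputs (h30 : S30Statement)
    (hU : PadicPoints (CuspForm.heckeAlgebra N 2 (↑S : Set ℕ)) p)
    (hp : p.Prime)
    (hp𝒪 : (p : 𝒪) ∈ IsLocalRing.maximalIdeal 𝒪) (hpS : p ∈ S)
    (hNS : ∀ q : ℕ, q.Prime → q ∣ N → q ∈ S)
    (H : CuspForm.HeckeGaloisRepDatum N (↑S : Set ℕ) 𝒪 θ T)
    (q : ℕ) (hq : q.Prime) (hqS : q ∉ S) :
    H.ρ.IsUnramifiedAt q := by
  haveI : Fact p.Prime := ⟨hp⟩
  refine isUnramifiedAt_of_forall_trace_mul_eq H.ρ H.residual_absIrr q ?_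
  intro P hP σ hσ g
  -- `T` is separated
  have hsep : ∀ x : T, (∀ n : ℕ, x ∈ maximalIdeal T ^ n) → x = 0 := by
    intro x hx
    have hH : IsHausdorff (maximalIdeal T) T := inferInstance
    refine hH.haus' x (fun n => ?_)
    rw [SModEq.zero, smul_eq_mul, Ideal.mul_top]
    exact hx n
  have hpT : (p : T) ∈ maximalIdeal T := by
    have h1 : (p : T) = algebraMap 𝒪 T (p : 𝒪) := by rw [map_natCast]
    rw [h1]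
    exact map_nonunit (algebraMap 𝒪 T) _ hp𝒪
  rw [← sub_eq_zero]
  refine hsep _ (fun n => ?_)
  obtain ⟨ι, iF, 𝒪i, j1, j2, j3, j4, j5, j6, χ, c, hpi, hbd⟩ := hU
  have hpt := fun i => exists_level_of_point h30 hpS hNS (𝒪i i) (hpi i) (χ i) (n + c) q hq hqS
    P hP σ hσ g
  choose Li hLifd hLi using hpt
  obtain ⟨LT, hLTfd, hLT⟩ := H.ρ.isAdicContinuous n
  haveI := hLTfd
  haveI := hLifd
  haveI : FiniteDimensional ℚ ↥(LT ⊔ ⨆ i, Li i) := by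
    haveI : FiniteDimensional ℚ ↥(⨆ i, Li i) := IntermediateField.finiteDimensional_iSup_of_finite
    exact IntermediateField.finiteDimensional_sup _ _
  obtain ⟨ℓ₁, hℓ₁, hℓ₁S, A₁, hA₁, φ₁, hφ₁, m₁, τ₁, h₁⟩ :=
    exists_frobenius_pow_conj S (LT ⊔ ⨆ i, Li i) g
  obtain ⟨ℓ₂, hℓ₂, hℓ₂S, A₂, hA₂, φ₂, hφ₂, m₂, τ₂, h₂⟩ :=
    exists_frobenius_pow_conj S (LT ⊔ ⨆ i, Li i) (σ * g)
  have hℓ₁N : ¬ ℓ₁ ∣ N := fun h => hℓ₁S (hNS ℓ₁ hℓ₁ h)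
  have hℓ₂N : ¬ ℓ₂ ∣ N := fun h => hℓ₂S (hNS ℓ₂ hℓ₂ h)
  have hℓ₁S' : ℓ₁ ∉ (↑S : Set ℕ) := by simpa using hℓ₁S
  have hℓ₂S' : ℓ₂ ∉ (↑S : Set ℕ) := by simpa using hℓ₂S
  have hLT_le : LT ≤ LT ⊔ ⨆ i, Li i := le_sup_left
  have hLi_le : ∀ i, Li i ≤ LT ⊔ ⨆ i, Li i := fun i => le_trans (le_iSup Li i) le_sup_right
  obtain ⟨r', hr'⟩ := hbd n _ (fun i => hLi i ℓ₁ hℓ₁ hℓ₁N hℓ₁S' A₁ hA₁ φ₁ hφ₁ m₁ τ₁
    ℓ₂ hℓ₂ hℓ₂N hℓ₂S' A₂ hA₂ φ₂ hφ₂ m₂ τ₂ (fun x hx => h₁ x (hLi_le i hx))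
    (fun x hx => h₂ x (hLi_le i hx)))
  -- the `T`-side
  have e : ∀ (ℓ : ℕ) (hℓ : ℓ.Prime) (hℓN : ¬ ℓ ∣ N) (hℓS : ℓ ∉ (↑S : Set ℕ))
      (A : ValuationSubring Ω) (hA : A.LiesOverPrime ℓ) (φ : GQ) (hφ : A.IsFrobeniusAt φ ℓ)
      (m : ℕ), LinearMap.trace T H.ρ.V (H.ρ.ρ (φ ^ m)) =
        H.π (luc (CuspForm.heckeAlgebra.T hℓ hℓN hℓS)
          ((ℓ : ℕ) : CuspForm.heckeAlgebra N 2 (↑S : Set ℕ)) m) := by
    intro ℓ hℓ hℓN hℓS A hA φ hφ m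
    rw [map_pow, trace_pow_eq_luc H.ρ.finrank_eq _ _ _ (H.charpoly_frob ℓ hℓ hℓN hℓS A hA φ hφ) m,
      map_luc H.π, map_natCast]
  have c₁ := trace_sub_trace_mem H.ρ n LT hLT _ _ (fun x hx => h₁ x (hLT_le hx))
  have c₂ := trace_sub_trace_mem H.ρ n LT hLT _ _ (fun x hx => h₂ x (hLT_le hx))
  rw [trace_conj_eq] at c₁ c₂
  rw [e ℓ₁ hℓ₁ hℓ₁N hℓ₁S' A₁ hA₁ φ₁ hφ₁ m₁] at c₁
  rw [e ℓ₂ hℓ₂ hℓ₂N hℓ₂S' A₂ hA₂ φ₂ hφ₂ m₂] at c₂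
  have c₃ : H.π (luc (CuspForm.heckeAlgebra.T hℓ₁ hℓ₁N hℓ₁S')
            ((ℓ₁ : ℕ) : CuspForm.heckeAlgebra N 2 (↑S : Set ℕ)) m₁
          - luc (CuspForm.heckeAlgebra.T hℓ₂ hℓ₂N hℓ₂S')
            ((ℓ₂ : ℕ) : CuspForm.heckeAlgebra N 2 (↑S : Set ℕ)) m₂) ∈ maximalIdeal T ^ n := by
    rw [hr', map_mul, map_pow, map_natCast]
    exact Ideal.mul_mem_right _ _ (Ideal.pow_mem_pow hpT n)
  rw [map_sub] at c₃
  have := Ideal.sub_mem _ (Ideal.sub_mem _ c₂ c₁) c₃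
  convert this using 1
  ring

end Main

end Fermat.Agent.GR
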