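/-
STAGE (II) preparation (helper4): **S34 from its inputs** — the S30 statement enhanced by "unipotent
inertia at the primes exactly dividing the level" for the representations attached to the `p`-adic
points of the Hecke algebra, together with (U) (bounded denominators) and Frobenius density (K9b):
the representation of any Hecke–Galois datum has unipotent inertia at every `q ∥ N`, `q ≠ p`.
(Same argument as `s31_of_inputs`, for the trace AND the determinant of `ρ_T(σ)`, `σ ∈ I_q`.)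
-/
import Fermat.Agent.GR.S31TOP_lead

set_option autoImplicit false
set_option linter.unusedSectionVars false
set_option linter.unusedVariables false
set_option linter.style.haveILetI false

namespace Fermat.Agent.GR

open Polynomial IsLocalRing CuspForm

local notation "Ω" => AlgebraicClosure ℚ
local notation "GQ" => (AlgebraicClosure ℚ ≃ₐ[ℚ] AlgebraicClosure ℚ)

section RankTwo

variable {R V : Type*} [CommRing R] [AddCommGroup V] [Module R V] [Module.Free R V]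
  [Module.Finite R V]

/-- the characteristic polynomial of an endomorphism of a free module of rank two. -/
theorem charpoly_eq_of_finrank_eq_two (hV : Module.finrank R V = 2) (f : Module.End R V) :
    f.charpoly = X ^ 2 - C (LinearMap.trace R V f) * X + C (LinearMap.det f) := by
  nontriviality R
  set bs : Module.Basis (Fin 2) R V := Module.finBasisOfFinrankEq R V hV with hbs
  rw [← LinearMap.charpoly_toMatrix f bs, Matrix.charpoly_fin_two,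
    LinearMap.trace_eq_matrix_trace R bs, LinearMap.det_toMatrix]

/-- trace and determinant from the characteristic polynomial, rank two. -/
theorem trace_det_of_charpoly_eq [Nontrivial R] (hV : Module.finrank R V = 2)
    (f : Module.End R V) (a b : R) (h : f.charpoly = X ^ 2 - C a * X + C b) :
    LinearMap.trace R V f = a ∧ LinearMap.det f = b := by
  rw [charpoly_eq_of_finrank_eq_two hV f] at h
  constructor
  · have := congrArg (fun g : R[X] => g.coeff 1) h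
    simpa [Polynomial.coeff_X_pow] using this
  · have := congrArg (fun g : R[X] => g.coeff 0) h
    simpa [Polynomial.coeff_X_pow] using this

/-- unipotent characteristic polynomial: trace `2` and determinant `1`. -/
theorem trace_det_of_charpoly_eq_X_sub_one_sq [Nontrivial R] (hV : Module.finrank R V = 2)
    (f : Module.End R V) (h : f.charpoly = (X - 1) ^ 2) :
    LinearMap.trace R V f = 2 ∧ LinearMap.det f = 1 := by
  refine trace_det_of_charpoly_eq hV f 2 1 ?_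
  rw [h]
  simp only [map_ofNat, map_one]
  ring

theorem charpoly_eq_X_sub_one_sq_of_trace_det (hV : Module.finrank R V = 2)
    (f : Module.End R V) (ht : LinearMap.trace R V f = 2) (hd : LinearMap.det f = 1) :
    f.charpoly = (X - 1) ^ 2 := by
  rw [charpoly_eq_of_finrank_eq_two hV f, ht, hd]
  simp only [map_ofNat, map_one]
  ring

end RankTwo

section DetCont

variable {A : Type} [CommRing A] [IsLocalRing A]

/-- the determinant of `ρ(g)` modulo `𝔪 ^ n` is the determinant of the matrix modulo `𝔪 ^ n`. -/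
theorem mk_det_eq_det_matModHom (ρ : GaloisRepAdic A) (n : ℕ) (g : GQ) :
    Ideal.Quotient.mk (maximalIdeal A ^ n) (LinearMap.det (ρ.ρ g)) = (matModHom ρ n g).det := by
  rw [← det_matHom, matModHom_apply, RingHom.map_det]

/-- two elements of `G_ℚ` agreeing on a level field of `ρ` modulo `𝔪 ^ n` have determinants
congruent modulo `𝔪 ^ n`. -/
theorem det_sub_det_mem (ρ : GaloisRepAdic A) (n : ℕ) (L : IntermediateField ℚ Ω)
    (hL : ∀ σ : GQ, (∀ x ∈ L, σ x = x) →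
      ∀ v : ρ.V, ρ.ρ σ v - v ∈ (IsLocalRing.maximalIdeal A ^ n) • (⊤ : Submodule A ρ.V))
    (a b : GQ) (hab : ∀ x ∈ L, a x = b x) :
    LinearMap.det (ρ.ρ a) - LinearMap.det (ρ.ρ b) ∈ IsLocalRing.maximalIdeal A ^ n := by
  rw [← Ideal.Quotient.eq, mk_det_eq_det_matModHom, mk_det_eq_det_matModHom,
    matModHom_eq_of_forall_mem_eq ρ n L hL a b hab]

/-- the determinant is invariant under conjugation. -/
theorem det_conj_eq (ρ : GaloisRepAdic A) (τ g : GQ) :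
    LinearMap.det (ρ.ρ (τ * g * τ⁻¹)) = LinearMap.det (ρ.ρ g) := by
  have h1 : ρ.ρ (τ * g * τ⁻¹) = ρ.ρ τ * ρ.ρ g * ρ.ρ τ⁻¹ := by rw [map_mul, map_mul]
  have h2 : LinearMap.det (ρ.ρ τ) * LinearMap.det (ρ.ρ τ⁻¹) = 1 := by
    rw [← map_mul, ← map_mul, mul_inv_cancel, map_one, map_one]
  rw [h1, map_mul, map_mul, mul_comm (LinearMap.det (ρ.ρ τ)), mul_assoc, h2, mul_one]

end DetCont

section Statements

/-- the S30 statement with the unramifiedness clause replaced by **unipotent inertia at the primes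
exactly dividing the level** (the geometric input (SS-q): semistable reduction of `J₀(N)` at
`q ∥ N`). -/
def S30UnipStatement : Prop :=
  ∀ (p : ℕ) [Fact p.Prime] (N : ℕ) [NeZero N] (S : Finset ℕ)
    (_hpS : p ∈ S) (_hNS : ∀ q : ℕ, q.Prime → q ∣ N → q ∈ S)
    (𝒪' : Type) [CommRing 𝒪'] [IsDomain 𝒪'] [IsDiscreteValuationRing 𝒪']
    [IsAdicComplete (IsLocalRing.maximalIdeal 𝒪') 𝒪'] [Finite (IsLocalRing.ResidueField 𝒪')]
    [CharZero 𝒪'] (_hp𝒪' : (p : 𝒪') ∈ IsLocalRing.maximalIdeal 𝒪')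
    (χ : CuspForm.heckeAlgebra N 2 (↑S : Set ℕ) →+* 𝒪'),
    ∃ (𝒪'' : Type) (_ : CommRing 𝒪'') (_ : IsDomain 𝒪'') (_ : IsDiscreteValuationRing 𝒪'')
      (_ : IsAdicComplete (IsLocalRing.maximalIdeal 𝒪'') 𝒪'')
      (_ : Finite (IsLocalRing.ResidueField 𝒪'')) (_ : CharZero 𝒪'')
      (_ : Algebra 𝒪' 𝒪'') (_ : Module.Finite 𝒪' 𝒪'') (_ : IsLocalHom (algebraMap 𝒪' 𝒪'')),
    Function.Injective (algebraMap 𝒪' 𝒪'') ∧
    ∃ ρ : GaloisRepAdic 𝒪'',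
      (∀ (ℓ : ℕ) (hℓ : ℓ.Prime) (hℓN : ¬ ℓ ∣ N) (hℓS : ℓ ∉ (↑S : Set ℕ)),
        ∀ A : ValuationSubring (AlgebraicClosure ℚ), A.LiesOverPrime ℓ →
          ∀ σ : AlgebraicClosure ℚ ≃ₐ[ℚ] AlgebraicClosure ℚ, A.IsFrobeniusAt σ ℓ →
            LinearMap.charpoly (ρ.ρ σ) =
              X ^ 2 - C (algebraMap 𝒪' 𝒪'' (χ (CuspForm.heckeAlgebra.T hℓ hℓN hℓS))) * X
                + C ((ℓ : 𝒪''))) ∧
      (∀ q : ℕ, q.Prime → q ≠ p → q ∣ N → ¬ q ^ 2 ∣ N → ρ.IsUnipotentOnInertiaAt q)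

end Statements

section Point

variable {p : ℕ} [hp : Fact p.Prime] {N : ℕ} [NeZero N] {S : Finset ℕ}

/-- the contribution of one `p`-adic point of the Hecke algebra. -/
theorem exists_level_of_point_unip (h30 : S30UnipStatement)
    (hpS : p ∈ S) (hNS : ∀ q : ℕ, q.Prime → q ∣ N → q ∈ S)
    (𝒪' : Type) [CommRing 𝒪'] [IsDomain 𝒪'] [IsDiscreteValuationRing 𝒪']
    [IsAdicComplete (IsLocalRing.maximalIdeal 𝒪') 𝒪'] [Finite (IsLocalRing.ResidueField 𝒪')]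
    [CharZero 𝒪'] (hp𝒪' : (p : 𝒪') ∈ IsLocalRing.maximalIdeal 𝒪')
    (χ : CuspForm.heckeAlgebra N 2 (↑S : Set ℕ) →+* 𝒪') (M : ℕ)
    (q : ℕ) (hq : q.Prime) (hqp : q ≠ p) (hqN : q ∣ N) (hq2 : ¬ q ^ 2 ∣ N)
    (P : ValuationSubring Ω) (hP : P.LiesOverPrime q) (σ : GQ) (hσ : σ ∈ P.inertiaSubgroupIn ℚ) :
    ∃ L : IntermediateField ℚ Ω, FiniteDimensional ℚ L ∧
      ∀ (ℓ₁ : ℕ) (hℓ₁ : ℓ₁.Prime) (hℓ₁N : ¬ ℓ₁ ∣ N) (hℓ₁S : ℓ₁ ∉ (↑S : Set ℕ))
        (A₁ : ValuationSubring Ω) (hA₁ : A₁.LiesOverPrime ℓ₁) (φ₁ : GQ)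
        (hφ₁ : A₁.IsFrobeniusAt φ₁ ℓ₁) (m₁ : ℕ) (τ₁ : GQ),
        (∀ x ∈ L, (τ₁ * σ * τ₁⁻¹) x = (φ₁ ^ m₁) x) →
        (p : 𝒪') ^ M ∣ χ (luc (CuspForm.heckeAlgebra.T hℓ₁ hℓ₁N hℓ₁S)
            ((ℓ₁ : ℕ) : CuspForm.heckeAlgebra N 2 (↑S : Set ℕ)) m₁ - 2) ∧
        (p : 𝒪') ^ M ∣ χ (((ℓ₁ : ℕ) : CuspForm.heckeAlgebra N 2 (↑S : Set ℕ)) ^ m₁ - 1) := by
  obtain ⟨𝒪'', i1, i2, i3, i4, i5, i6, i7, i8, i9, hinj, ρ, hchar, hunip⟩ :=
    h30 p N S hpS hNS 𝒪' hp𝒪' χ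
  have hp0 : ((p : 𝒪'') ^ M) ≠ 0 := pow_ne_zero _ (Nat.cast_ne_zero.2 hp.out.ne_zero)
  obtain ⟨k, hk⟩ := exists_pow_maximalIdeal_le_span hp0
  obtain ⟨L, hLfd, hL⟩ := ρ.isAdicContinuous k
  refine ⟨L, hLfd, ?_⟩
  intro ℓ₁ hℓ₁ hℓ₁N hℓ₁S A₁ hA₁ φ₁ hφ₁ m₁ τ₁ h₁
  obtain ⟨hσt, hσd⟩ := trace_det_of_charpoly_eq_X_sub_one_sq ρ.finrank_eq (ρ.ρ σ)
    (hunip q hq hqp hqN hq2 P hP σ hσ)
  obtain ⟨hφt, hφd⟩ := trace_det_of_charpoly_eq ρ.finrank_eq (ρ.ρ φ₁) _ _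
    (hchar ℓ₁ hℓ₁ hℓ₁N hℓ₁S A₁ hA₁ φ₁ hφ₁)
  have hpow : ((p : 𝒪'') ^ M) = algebraMap 𝒪' 𝒪'' ((p : 𝒪') ^ M) := by
    rw [map_pow, map_natCast]
  constructor
  · -- the trace
    have e : LinearMap.trace 𝒪'' ρ.V (ρ.ρ (φ₁ ^ m₁)) =
        algebraMap 𝒪' 𝒪'' (χ (luc (CuspForm.heckeAlgebra.T hℓ₁ hℓ₁N hℓ₁S)
          ((ℓ₁ : ℕ) : CuspForm.heckeAlgebra N 2 (↑S : Set ℕ)) m₁)) := by
      rw [map_pow, trace_pow_eq_luc ρ.finrank_eq _ _ _ (hchar ℓ₁ hℓ₁ hℓ₁N hℓ₁S A₁ hA₁ φ₁ hφ₁) m₁,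
        map_luc χ, map_luc (algebraMap 𝒪' 𝒪''), map_natCast, map_natCast]
    have c₁ := trace_sub_trace_mem ρ k L hL _ _ h₁
    rw [trace_conj_eq, hσt, e] at c₁
    have hmem : algebraMap 𝒪' 𝒪'' (χ (luc (CuspForm.heckeAlgebra.T hℓ₁ hℓ₁N hℓ₁S)
        ((ℓ₁ : ℕ) : CuspForm.heckeAlgebra N 2 (↑S : Set ℕ)) m₁ - 2)) ∈ maximalIdeal 𝒪'' ^ k := by
      rw [map_sub, map_sub, map_ofNat, map_ofNat, ← neg_sub]
      exact Ideal.neg_mem_iff _ |>.mpr c₁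
    have hdvd := Ideal.mem_span_singleton.1 (hk hmem)
    rw [hpow] at hdvd
    exact dvd_of_map_dvd_of_isLocalHom (algebraMap 𝒪' 𝒪'') hinj hdvd
  · -- the determinant
    have e : LinearMap.det (ρ.ρ (φ₁ ^ m₁)) =
        algebraMap 𝒪' 𝒪'' (χ (((ℓ₁ : ℕ) : CuspForm.heckeAlgebra N 2 (↑S : Set ℕ)) ^ m₁)) := by
      rw [map_pow, map_pow, hφd, map_pow, map_pow, map_natCast, map_natCast]
    have c₁ := det_sub_det_mem ρ k L hL _ _ h₁
    rw [det_conj_eq, hσd, e] at c₁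
    have hmem : algebraMap 𝒪' 𝒪'' (χ (((ℓ₁ : ℕ) : CuspForm.heckeAlgebra N 2 (↑S : Set ℕ)) ^ m₁
        - 1)) ∈ maximalIdeal 𝒪'' ^ k := by
      rw [map_sub, map_sub, map_one, map_one, ← neg_sub]
      exact Ideal.neg_mem_iff _ |>.mpr c₁
    have hdvd := Ideal.mem_span_singleton.1 (hk hmem)
    rw [hpow] at hdvd
    exact dvd_of_map_dvd_of_isLocalHom (algebraMap 𝒪' 𝒪'') hinj hdvd

end Point

section Main

variable {p : ℕ} {N : ℕ} [NeZero N] {S : Finset ℕ}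
  {𝒪 : Type} [CommRing 𝒪] [IsDomain 𝒪] [IsDiscreteValuationRing 𝒪]
  [IsAdicComplete (IsLocalRing.maximalIdeal 𝒪) 𝒪]
  {θ : CuspForm.heckeAlgebra N 2 (↑S : Set ℕ) →+* IsLocalRing.ResidueField 𝒪}
  {T : Type} [CommRing T] [IsLocalRing T] [IsNoetherianRing T]
  [IsAdicComplete (IsLocalRing.maximalIdeal T) T] [Algebra 𝒪 T] [IsLocalHom (algebraMap 𝒪 T)]
  [Module.Finite 𝒪 T] [Module.Free 𝒪 T]

/-- **the S34 statement from the enhanced S30 statement (SS-q) and the `p`-adic points (U) of the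
Hecke algebra.** -/
theorem s34_of_inputs (h30 : S30UnipStatement)
    (hU : PadicPoints (CuspForm.heckeAlgebra N 2 (↑S : Set ℕ)) p)
    (hp : p.Prime)
    (hp𝒪 : (p : 𝒪) ∈ IsLocalRing.maximalIdeal 𝒪) (hpS : p ∈ S)
    (hNS : ∀ q : ℕ, q.Prime → q ∣ N → q ∈ S)
    (H : CuspForm.HeckeGaloisRepDatum N (↑S : Set ℕ) 𝒪 θ T)
    (q : ℕ) (hq : q.Prime) (hqp : q ≠ p) (hqN : q ∣ N) (hq2 : ¬ q ^ 2 ∣ N) :
    H.ρ.IsUnipotentOnInertiaAt q := by
  haveI : Fact p.Prime := ⟨hp⟩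
  intro P hP σ hσ
  -- `T` is separated
  have hsep : ∀ x : T, (∀ n : ℕ, x ∈ maximalIdeal T ^ n) → x = 0 := by
    intro x hx
    have hH : IsHausdorff (maximalIdeal T) T := inferInstance
    refine hH.haus' x (fun n => ?_)
    rw [SModEq.zero, smul_eq_mul, Ideal.mul_top]
    exact hx n
  have hpT : (p : T) ∈ maximalIdeal T := by
    have h1 : (p : T) = algebraMap 𝒪 T (p : 𝒪) := by rw [map_natCast]
    rw [h1]
    exact map_nonunit (algebraMap 𝒪 T) _ hp𝒪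
  -- both congruences at every level `n`
  have key : ∀ n : ℕ, LinearMap.trace T H.ρ.V (H.ρ.ρ σ) - 2 ∈ maximalIdeal T ^ n ∧
      LinearMap.det (H.ρ.ρ σ) - 1 ∈ maximalIdeal T ^ n := by
    intro n
    obtain ⟨ι, iF, 𝒪i, j1, j2, j3, j4, j5, j6, χ, c, hpi, hbd⟩ := hU
    have hpt := fun i => exists_level_of_point_unip h30 hpS hNS (𝒪i i) (hpi i) (χ i) (n + c)
      q hq hqp hqN hq2 P hP σ hσ
    choose Li hLifd hLi using hpt
    obtain ⟨LT, hLTfd, hLT⟩ := H.ρ.isAdicContinuous n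
    haveI := hLTfd
    haveI := hLifd
    haveI : FiniteDimensional ℚ ↥(LT ⊔ ⨆ i, Li i) := by
      haveI : FiniteDimensional ℚ ↥(⨆ i, Li i) :=
        IntermediateField.finiteDimensional_iSup_of_finite
      exact IntermediateField.finiteDimensional_sup _ _
    obtain ⟨ℓ₁, hℓ₁, hℓ₁S, A₁, hA₁, φ₁, hφ₁, m₁, τ₁, h₁⟩ :=
      exists_frobenius_pow_conj S (LT ⊔ ⨆ i, Li i) σ
    have hℓ₁N : ¬ ℓ₁ ∣ N := fun h => hℓ₁S (hNS ℓ₁ hℓ₁ h)
    have hℓ₁S' : ℓ₁ ∉ (↑S : Set ℕ) := by simpa using hℓ₁S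
    have hLT_le : LT ≤ LT ⊔ ⨆ i, Li i := le_sup_left
    have hLi_le : ∀ i, Li i ≤ LT ⊔ ⨆ i, Li i := fun i => le_trans (le_iSup Li i) le_sup_right
    have hpts := fun i => hLi i ℓ₁ hℓ₁ hℓ₁N hℓ₁S' A₁ hA₁ φ₁ hφ₁ m₁ τ₁
      (fun x hx => h₁ x (hLi_le i hx))
    obtain ⟨r', hr'⟩ := hbd n _ (fun i => (hpts i).1)
    obtain ⟨s', hs'⟩ := hbd n _ (fun i => (hpts i).2)
    obtain ⟨hφt, hφd⟩ := trace_det_of_charpoly_eq H.ρ.finrank_eq (H.ρ.ρ φ₁) _ _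
      (H.charpoly_frob ℓ₁ hℓ₁ hℓ₁N hℓ₁S' A₁ hA₁ φ₁ hφ₁)
    constructor
    · have e : LinearMap.trace T H.ρ.V (H.ρ.ρ (φ₁ ^ m₁)) =
          H.π (luc (CuspForm.heckeAlgebra.T hℓ₁ hℓ₁N hℓ₁S')
            ((ℓ₁ : ℕ) : CuspForm.heckeAlgebra N 2 (↑S : Set ℕ)) m₁) := by
        rw [map_pow, trace_pow_eq_luc H.ρ.finrank_eq _ _ _
          (H.charpoly_frob ℓ₁ hℓ₁ hℓ₁N hℓ₁S' A₁ hA₁ φ₁ hφ₁) m₁, map_luc H.π, map_natCast]
      have c₁ := trace_sub_trace_mem H.ρ n LT hLT _ _ (fun x hx => h₁ x (hLT_le hx))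
      rw [trace_conj_eq, e] at c₁
      have c₃ : H.π (luc (CuspForm.heckeAlgebra.T hℓ₁ hℓ₁N hℓ₁S')
          ((ℓ₁ : ℕ) : CuspForm.heckeAlgebra N 2 (↑S : Set ℕ)) m₁ - 2) ∈ maximalIdeal T ^ n := by
        rw [hr', map_mul, map_pow, map_natCast]
        exact Ideal.mul_mem_right _ _ (Ideal.pow_mem_pow hpT n)
      rw [map_sub, map_ofNat] at c₃
      have := Ideal.add_mem _ c₁ c₃
      convert this using 1
      ring
    · have e : LinearMap.det (H.ρ.ρ (φ₁ ^ m₁)) =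
          H.π (((ℓ₁ : ℕ) : CuspForm.heckeAlgebra N 2 (↑S : Set ℕ)) ^ m₁) := by
        rw [map_pow, map_pow, hφd, map_pow, map_natCast]
      have c₁ := det_sub_det_mem H.ρ n LT hLT _ _ (fun x hx => h₁ x (hLT_le hx))
      rw [det_conj_eq, e] at c₁
      have c₃ : H.π (((ℓ₁ : ℕ) : CuspForm.heckeAlgebra N 2 (↑S : Set ℕ)) ^ m₁ - 1) ∈
          maximalIdeal T ^ n := by
        rw [hs', map_mul, map_pow, map_natCast]
        exact Ideal.mul_mem_right _ _ (Ideal.pow_mem_pow hpT n)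
      rw [map_sub, map_one] at c₃
      have := Ideal.add_mem _ c₁ c₃
      convert this using 1
      ring
  refine charpoly_eq_X_sub_one_sq_of_trace_det H.ρ.finrank_eq _ ?_ ?_
  · exact sub_eq_zero.mp (hsep _ fun n => (key n).1)
  · exact sub_eq_zero.mp (hsep _ fun n => (key n).2)

end Main

end Fermat.Agent.GR
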