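/-
STAGE (I) extension, lead: **unipotent inertia**. From the geometric statement (SS-q)
`(σ − 1)² = 0` on the `p`-power torsion of `J₀(N)` for `σ` in the inertia at `q`, the
representations produced by the S30 construction are unipotent on inertia at `q`; assembly into
helper4's `S30UnipStatement`.
-/
import Fermat.Agent.GR.S30TOP_lead
import Fermat.Agent.GR.S34TOP_helper4

set_option autoImplicit false
set_option linter.unusedSectionVars false
set_option linter.unusedVariables false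
set_option linter.style.haveILetI false

namespace Fermat.Agent.GR

open CongruenceSubgroup ModularCurve ModularCurve.Period Polynomial IsLocalRing

open scoped MatrixGroups

local notation "Ω" => AlgebraicClosure ℚ
local notation "GQ" => (AlgebraicClosure ℚ ≃ₐ[ℚ] AlgebraicClosure ℚ)

section Algebra

/-- rank two over a domain: `(f − 1)² = 0` forces the characteristic polynomial `(X − 1)²`. -/
theorem charpoly_eq_X_sub_one_sq_of_sub_one_sq_eq_zero {R V : Type*} [CommRing R] [IsDomain R]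
    [AddCommGroup V] [Module R V] [Module.Free R V] [Module.Finite R V]
    (hV : Module.finrank R V = 2) (f : Module.End R V) (h : (f - 1) * (f - 1) = 0) :
    f.charpoly = (X - 1) ^ 2 := by
  have hnil : IsNilpotent (f - 1) := ⟨2, by rw [pow_two]; exact h⟩
  have h1 := IsNilpotent.charpoly_eq_X_pow_finrank hnil
  rw [hV] at h1
  -- pass to matrices
  set b := Module.Free.chooseBasis R V with hb
  have hf : f.charpoly = (LinearMap.toMatrix b b f).charpoly :=
    (LinearMap.charpoly_toMatrix f b).symm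
  have hg : (f - 1).charpoly = (LinearMap.toMatrix b b (f - 1)).charpoly :=
    (LinearMap.charpoly_toMatrix (f - 1) b).symm
  have hs : Matrix.scalar (Module.Free.ChooseBasisIndex R V) (-1 : R) = -1 := by
    rw [map_neg, map_one]
  have hmat : LinearMap.toMatrix b b f =
      LinearMap.toMatrix b b (f - 1) - Matrix.scalar _ (-1 : R) := by
    rw [hs, map_sub, LinearMap.toMatrix_one]
    abel
  rw [hf, hmat, Matrix.charpoly_sub_scalar, ← hg, h1]
  simp only [map_neg, map_one, pow_comp, X_comp]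
  ring

end Algebra

section Kap

variable {J : Type*} [AddCommGroup J] {Γ : Subgroup SL(2, ℤ)} {p : ℕ} [hp : Fact p.Prime]
variable {G : Type*} [Group G] [DistribMulAction G J]

/-- **unipotence transfers to `P`**: if `σ² x − 2 σ x + x = 0` on `p`-power torsion then
`(ρ(σ) − 1)² = 0` on `P`. -/
theorem KapData.rho_unipotent (D : KapData J Γ p) (σ : G)
    (h : ∀ x : J, (∃ n : ℕ, p ^ n • x = 0) → σ • σ • x - 2 • (σ • x) + x = 0) :
    (D.rho σ - 1) * (D.rho σ - 1) = 0 := by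
  have h2 := D.rho_quadratic σ ((2 : ℕ) : AddMonoid.End J) 1 (fun x hx => by
    have := h x hx
    rw [AddMonoid.End.natCast_apply, one_nsmul]
    exact this)
  rw [map_natCast] at h2
  have e : (D.rho σ - 1) * (D.rho σ - 1) =
      D.rho σ * D.rho σ - ((2 : ℕ) : Module.End ℤ_[p] _) * D.rho σ +
        ((1 : ℕ) : Module.End ℤ_[p] _) := by
    apply LinearMap.ext
    intro ψ
    simp only [Module.End.mul_apply, LinearMap.sub_apply, LinearMap.add_apply,
      Module.End.one_apply, map_sub, Module.End.natCast_apply, one_nsmul, two_nsmul]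
    abel
  rw [e]
  exact h2

end Kap

section Lattice

variable (N : ℕ) [NeZero N] (p : ℕ) [hp : Fact p.Prime]
  (𝒪 : Type) [CommRing 𝒪] [IsDomain 𝒪] [IsDiscreteValuationRing 𝒪] [CharZero 𝒪]
  [Algebra ℤ_[p] 𝒪] (a : Nat.Primes → 𝒪)
  {G : Type*} [Group G]
  (ρP : G →* Module.End ℤ_[p] ↥(parabolicHoms ℤ_[p] (Gamma0 N) ℤ_[p]))
  (hcomm : ∀ (σ : G) (ℓ : Nat.Primes),
    ρP σ * heckeParP N ℓ ℤ_[p] ℤ_[p] = heckeParP N ℓ ℤ_[p] ℤ_[p] * ρP σ)

/-- transfer of unipotence to the eigenlattice -/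
theorem rhoLattice_unipotent {σ : G} (h : (ρP σ - 1) * (ρP σ - 1) = 0) :
    (rhoLattice N p 𝒪 a ρP hcomm σ - 1) * (rhoLattice N p 𝒪 a ρP hcomm σ - 1) = 0 := by
  have h1 := congrArg (parExt ℤ_[p] 𝒪 (Gamma0 N)) h
  rw [map_mul, map_sub, map_one, map_zero] at h1
  apply LinearMap.ext; intro m; apply Subtype.ext
  have h2 := LinearMap.congr_fun h1 m.1
  simp only [Module.End.mul_apply, LinearMap.sub_apply, Module.End.one_apply,
    LinearMap.zero_apply] at h2
  show ((rhoLattice N p 𝒪 a ρP hcomm σ - 1) ((rhoLattice N p 𝒪 a ρP hcomm σ - 1) m)).1 = 0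
  simp only [LinearMap.sub_apply, Module.End.one_apply, Submodule.coe_sub, coe_rhoLattice,
    map_sub]
  show parExt ℤ_[p] 𝒪 (Gamma0 N) (ρP σ) (parExt ℤ_[p] 𝒪 (Gamma0 N) (ρP σ) m.1) -
    parExt ℤ_[p] 𝒪 (Gamma0 N) (ρP σ) m.1 - (parExt ℤ_[p] 𝒪 (Gamma0 N) (ρP σ) m.1 - m.1) = 0
  rw [map_sub] at h2
  exact h2

end Lattice

/-- **(SS-q)** for `(N, p, q)`: every element of an inertia group at `q` acts on the `p`-power
torsion of `J₀(N)` with `(σ − 1)² = 0`. -/
def SSq (N : ℕ) [NeZero N] (p q : ℕ) : Prop :=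
  ∀ A : ValuationSubring Ω, A.LiesOverPrime q → ∀ σ ∈ A.inertiaSubgroupIn ℚ,
    ∀ x : JZero N, (∃ n : ℕ, p ^ n • x = 0) → σ • σ • x - 2 • (σ • x) + x = 0

namespace StageIData

variable {N : ℕ} [NeZero N] {p : ℕ} [hp : Fact p.Prime] (I : StageIData N p)

theorem rhoP_unipotent {q : ℕ} (hSS : SSq N p q) {A : ValuationSubring Ω}
    (hA : A.LiesOverPrime q) {σ : GQ} (hσ : σ ∈ A.inertiaSubgroupIn ℚ) :
    (I.rhoP σ - 1) * (I.rhoP σ - 1) = 0 :=
  I.D.rho_unipotent σ (fun x hx => hSS A hA σ hσ x hx)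

variable (𝒪 : Type) [CommRing 𝒪] [IsDomain 𝒪] [IsDiscreteValuationRing 𝒪] [CharZero 𝒪]
  [Algebra ℤ_[p] 𝒪] (hp𝒪 : (p : 𝒪) ∈ IsLocalRing.maximalIdeal 𝒪) (a : Nat.Primes → 𝒪)
  (K : Type*) [Field K] [Algebra 𝒪 K] [IsFractionRing 𝒪 K]
  (hrank : Module.finrank K ↥(eigenPar N K (mapSys 𝒪 K a)) = 2)

theorem rep_isUnipotentOnInertiaAt {q : ℕ} (hSS : SSq N p q) :
    (I.rep 𝒪 hp𝒪 a K hrank).IsUnipotentOnInertiaAt q := by
  intro A hA σ hσ
  haveI : Module.Free 𝒪 (I.rep 𝒪 hp𝒪 a K hrank).V :=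
    inferInstanceAs (Module.Free 𝒪 ↥(eigenLattice N 𝒪 a))
  haveI : Module.Finite 𝒪 (I.rep 𝒪 hp𝒪 a K hrank).V :=
    inferInstanceAs (Module.Finite 𝒪 ↥(eigenLattice N 𝒪 a))
  refine charpoly_eq_X_sub_one_sq_of_sub_one_sq_eq_zero (I.rep 𝒪 hp𝒪 a K hrank).finrank_eq _ ?_
  rw [rep_ρ]
  exact rhoLattice_unipotent N p 𝒪 a I.rhoP I.rhoP_comm (I.rhoP_unipotent hSS hA hσ)

end StageIData

end Fermat.Agent.GR
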