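/-
STAGE (I) extension, lead: **unipotent inertia from the weak form of (SS-q)**. The geometric input
is only needed up to a fixed integer `c ≠ 0`: `(σ − 1)² (c • x) = 0` on the `p`-power torsion of
`J₀(N)` (`c` absorbs the degree of the host over the level-`N` function field in the norm
descent). Since `P = parabolicHoms ℤ_p Γ ℤ_p` is torsion-free this still gives `(ρ(σ) − 1)² = 0`.
-/
import Fermat.Agent.GR.UNIP_lead

set_option autoImplicit false
set_option linter.unusedSectionVars false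
set_option linter.unusedVariables false
set_option linter.style.haveILetI false

namespace Fermat.Agent.GR

open CongruenceSubgroup ModularCurve ModularCurve.Period Polynomial IsLocalRing

open scoped MatrixGroups

local notation "Ω" => AlgebraicClosure ℚ
local notation "GQ" => (AlgebraicClosure ℚ ≃ₐ[ℚ] AlgebraicClosure ℚ)

section Kap

variable {J : Type*} [AddCommGroup J] {Γ : Subgroup SL(2, ℤ)} {p : ℕ} [hp : Fact p.Prime]
variable {G : Type*} [Group G] [DistribMulAction G J]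

/-- `P` has no `ℕ`-torsion. -/
theorem parabolicHoms_padic_nsmul_eq_zero {c : ℕ} (hc : c ≠ 0)
    {ψ : ↥(parabolicHoms ℤ_[p] Γ ℤ_[p])} (h : c • ψ = 0) : ψ = 0 := by
  apply Subtype.ext
  refine AddMonoidHom.ext fun γ => ?_
  have h1 : (c • ψ).1 γ = 0 := by rw [h]; rfl
  have h2 : (c • ψ).1 γ = c • (ψ.1 γ) := rfl
  rw [h2, nsmul_eq_mul] at h1
  rcases mul_eq_zero.1 h1 with h3 | h3
  · exact absurd (Nat.cast_eq_zero.1 h3) hc
  · exact h3

/-- **unipotence transfers to `P`, weak form**: if `(σ − 1)² (c • x) = 0` on `p`-power torsion for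
a fixed `c ≠ 0` then `(ρ(σ) − 1)² = 0` on `P`. -/
theorem KapData.rho_unipotentW (D : KapData J Γ p) (σ : G) {c : ℕ} (hc : c ≠ 0)
    (h : ∀ x : J, (∃ n : ℕ, p ^ n • x = 0) →
      σ • σ • (c • x) - 2 • (σ • (c • x)) + c • x = 0) :
    (D.rho σ - 1) * (D.rho σ - 1) = 0 := by
  set s : AddMonoid.End J := DistribMulAction.toAddMonoidEnd G J σ with hs
  have h0 : D.transport ((s - 1) * (s - 1) * (c : AddMonoid.End J)) = 0 := by
    apply D.transport_eq_zero
    intro x hx
    have h1 := h x hx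
    have h2 : ((s - 1) * (s - 1) * (c : AddMonoid.End J)) x =
        σ • σ • (c • x) - 2 • (σ • (c • x)) + c • x := by
      show (s - 1) ((s - 1) ((c : AddMonoid.End J) x)) = _
      rw [AddMonoid.End.natCast_apply]
      show s (s (c • x) - c • x) - (s (c • x) - c • x) = _
      rw [map_sub]
      show σ • σ • (c • x) - σ • (c • x) - (σ • (c • x) - c • x) = _
      rw [two_nsmul]
      abel
    rw [h2, h1]
  rw [map_mul, map_mul, map_sub, map_one, map_natCast, ← rho_eq_transport] at h0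
  apply LinearMap.ext
  intro ψ
  have h3 := LinearMap.congr_fun h0 ψ
  rw [LinearMap.zero_apply, Module.End.mul_apply, Module.End.natCast_apply, map_nsmul] at h3
  rw [LinearMap.zero_apply]
  exact parabolicHoms_padic_nsmul_eq_zero hc h3

end Kap

/-- **(SS-q), weak form** for `(N, p, q)`: there is a fixed integer `c ≠ 0` (in practice the degree
of the host over the level-`N` function field) such that every element of an inertia group at `q`
acts on `c` times the `p`-power torsion of `J₀(N)` with `(σ − 1)² = 0`. -/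
def SSqW (N : ℕ) [NeZero N] (p q : ℕ) : Prop :=
  ∃ c : ℕ, c ≠ 0 ∧
    ∀ A : ValuationSubring Ω, A.LiesOverPrime q → ∀ σ ∈ A.inertiaSubgroupIn ℚ,
      ∀ x : JZero N, (∃ n : ℕ, p ^ n • x = 0) →
        σ • σ • (c • x) - 2 • (σ • (c • x)) + c • x = 0

theorem SSqW_of_SSq {N : ℕ} [NeZero N] {p q : ℕ} (h : SSq N p q) : SSqW N p q := by
  refine ⟨1, one_ne_zero, ?_⟩
  intro A hA σ hσ x hx
  exact h A hA σ hσ (1 • x) (isTorsion_nsmul 1 hx)

namespace StageIData

variable {N : ℕ} [NeZero N] {p : ℕ} [hp : Fact p.Prime] (I : StageIData N p)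

theorem rhoP_unipotentW {q : ℕ} (hSS : SSqW N p q) {A : ValuationSubring Ω}
    (hA : A.LiesOverPrime q) {σ : GQ} (hσ : σ ∈ A.inertiaSubgroupIn ℚ) :
    (I.rhoP σ - 1) * (I.rhoP σ - 1) = 0 :=
  I.D.rho_unipotentW σ (c := hSS.choose) hSS.choose_spec.1
    (fun x hx => hSS.choose_spec.2 A hA σ hσ x hx)

variable (𝒪 : Type) [CommRing 𝒪] [IsDomain 𝒪] [IsDiscreteValuationRing 𝒪] [CharZero 𝒪]
  [Algebra ℤ_[p] 𝒪] (hp𝒪 : (p : 𝒪) ∈ IsLocalRing.maximalIdeal 𝒪) (a : Nat.Primes → 𝒪)
  (K : Type*) [Field K] [Algebra 𝒪 K] [IsFractionRing 𝒪 K]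
  (hrank : Module.finrank K ↥(eigenPar N K (mapSys 𝒪 K a)) = 2)

theorem rep_isUnipotentOnInertiaAtW {q : ℕ} (hSS : SSqW N p q) :
    (I.rep 𝒪 hp𝒪 a K hrank).IsUnipotentOnInertiaAt q := by
  intro A hA σ hσ
  haveI : Module.Free 𝒪 (I.rep 𝒪 hp𝒪 a K hrank).V :=
    inferInstanceAs (Module.Free 𝒪 ↥(eigenLattice N 𝒪 a))
  haveI : Module.Finite 𝒪 (I.rep 𝒪 hp𝒪 a K hrank).V :=
    inferInstanceAs (Module.Finite 𝒪 ↥(eigenLattice N 𝒪 a))
  refine charpoly_eq_X_sub_one_sq_of_sub_one_sq_eq_zero (I.rep 𝒪 hp𝒪 a K hrank).finrank_eq _ ?_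
  rw [rep_ρ]
  exact rhoLattice_unipotent N p 𝒪 a I.rhoP I.rhoP_comm (I.rhoP_unipotentW hSS hA hσ)

end StageIData

end Fermat.Agent.GR
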