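/-
STAGE (I) extension, lead: the S30 construction **with the unipotent-inertia clause, weak (SS-q)**
(`SSqW`, the `12 • x` form): copies of
`exists_rep_of_system`, `exists_ext_rep_of_finite`, `s30_of_stageIData` (GR/S30TOP_lead) carrying
the extra conclusion `∀ q, SSqW N p q → ρ.IsUnipotentOnInertiaAt q`; then helper4's
`S30UnipStatement` and the S34 statement from (SS-q).
-/
import Fermat.Agent.GR.UNIPW_lead
import Fermat.Agent.GR.ASM_helper8_Done
import Fermat.Agent.GR.UPTS_helper2_Hecke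
import Fermat.Agent.GR.PET_helper5_Main

set_option autoImplicit false
set_option linter.unusedSectionVars false
set_option linter.unusedVariables false
set_option linter.style.haveILetI false

namespace Fermat.Agent.GR

open CongruenceSubgroup ModularCurve ModularCurve.Period Polynomial IsLocalRing

open scoped MatrixGroups

local notation "Ω" => AlgebraicClosure ℚ
local notation "GQ" => (AlgebraicClosure ℚ ≃ₐ[ℚ] AlgebraicClosure ℚ)

section Main

variable {N : ℕ} [NeZero N] {p : ℕ} [hp : Fact p.Prime]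

/-- the core: a complete DVR `B` with fraction field `L`, a system `a : Nat.Primes → B` occurring
over `L` ⇒ the conclusions of S30 for `B`. -/
theorem exists_rep_of_system_unipW (I : StageIData N p)
    (B : Type) [CommRing B] [IsDomain B] [IsDiscreteValuationRing B] [CharZero B]
    [IsAdicComplete (maximalIdeal B) B] (hpB : (p : B) ∈ maximalIdeal B)
    (L : Type) [Field L] [Algebra B L] [IsFractionRing B L]
    (a : Nat.Primes → B) (hocc : eigenPar N L (mapSys B L a) ≠ ⊥) :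
    ∃ ρ : GaloisRepAdic B,
      (∀ (q : ℕ) (hq : q.Prime), ¬ q ∣ N * p →
        ∀ A : ValuationSubring Ω, A.LiesOverPrime q → ∀ σ : GQ, A.IsFrobeniusAt σ q →
          LinearMap.charpoly (ρ.ρ σ) = X ^ 2 - C (a ⟨q, hq⟩) * X + C (q : B)) ∧
      (∀ q : ℕ, q.Prime → ¬ q ∣ N * p → ρ.IsUnramifiedAt q) ∧ ρ.DetIsCyclotomic p ∧
      (∀ q : ℕ, SSqW N p q → ρ.IsUnipotentOnInertiaAt q) := by
  letI : Algebra ℤ_[p] B := (padicToComplete p (maximalIdeal B) hpB).toAlgebra
  haveI : CharZero L := charZero_of_injective_algebraMap (IsFractionRing.injective B L)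
  obtain ⟨_, _, hrank⟩ := mult1_field hocc
  obtain ⟨hplus, hminus⟩ := exists_plus_minus_of_occ L (mapSys B L a) hocc
  refine ⟨I.rep B hpB a L hrank, ?_, ?_, ?_, ?_⟩
  · intro q hq hqNp A hA σ hσ
    exact I.rep_charpoly_frobenius B hpB a L hrank hplus hminus hq hqNp hA hσ
  · intro q hq hqNp
    exact I.rep_isUnramifiedAt B hpB a L hrank hq hqNp
  · exact I.rep_detIsCyclotomic B hpB a L hrank hplus hminus
  · intro q hSS
    exact I.rep_isUnipotentOnInertiaAtW B hpB a L hrank hSS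

/-- Stage A: a finite extension `L` of the fraction field of a complete DVR `A` over which a
system of integral eigenvalues occurs ⇒ the S30 data for `B := integralClosure A L`. -/
theorem exists_ext_rep_of_finite_unipW (I : StageIData N p)
    (A : Type) [CommRing A] [IsDomain A] [IsDiscreteValuationRing A]
    [IsAdicComplete (maximalIdeal A) A] [Finite (ResidueField A)] [CharZero A]
    (hpA : (p : A) ∈ maximalIdeal A)
    (K : Type) [Field K] [Algebra A K] [IsFractionRing A K]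
    (L : Type) [Field L] [Algebra K L] [FiniteDimensional K L] [Algebra A L] [IsScalarTower A K L]
    (aL : Nat.Primes → L) (hint : ∀ ℓ, IsIntegral A (aL ℓ)) (hocc : eigenPar N L aL ≠ ⊥) :
    ∃ (B : Type) (_ : CommRing B) (_ : IsDomain B) (_ : IsDiscreteValuationRing B)
      (_ : IsAdicComplete (maximalIdeal B) B) (_ : Finite (ResidueField B)) (_ : CharZero B)
      (_ : Algebra A B) (_ : Module.Finite A B) (_ : IsLocalHom (algebraMap A B)),
      Function.Injective (algebraMap A B) ∧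
      ∃ ρ : GaloisRepAdic B,
        (∀ (q : ℕ) (hq : q.Prime), ¬ q ∣ N * p → ∀ x : A, algebraMap A L x = aL ⟨q, hq⟩ →
          ∀ V : ValuationSubring Ω, V.LiesOverPrime q → ∀ σ : GQ, V.IsFrobeniusAt σ q →
            LinearMap.charpoly (ρ.ρ σ) = X ^ 2 - C (algebraMap A B x) * X + C (q : B)) ∧
        (∀ q : ℕ, q.Prime → ¬ q ∣ N * p → ρ.IsUnramifiedAt q) ∧ ρ.DetIsCyclotomic p ∧
      (∀ q : ℕ, SSqW N p q → ρ.IsUnipotentOnInertiaAt q) := by
  haveI : CharZero K := charZero_of_injective_algebraMap (IsFractionRing.injective A K)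
  haveI : Algebra.IsSeparable K L := Algebra.IsAlgebraic.isSeparable_of_perfectField
  obtain ⟨i1, i2, i3, i4, i5, i6, i7⟩ :=
    Fermat.Agent.CFT.Local.exists_localExt_instances A K L ↥(integralClosure A L)
  haveI := i1
  haveI := i2
  haveI := i3
  haveI := i4
  haveI := i5
  haveI := i6
  haveI hfinres : Finite (ResidueField ↥(integralClosure A L)) := i7 inferInstance
  have hinjL : Function.Injective (algebraMap A L) := by
    rw [IsScalarTower.algebraMap_eq A K L]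
    exact (algebraMap K L).injective.comp (IsFractionRing.injective A K)
  have hinj : Function.Injective (algebraMap A ↥(integralClosure A L)) := by
    intro x y hxy
    apply hinjL
    exact congrArg Subtype.val hxy
  haveI : CharZero ↥(integralClosure A L) := charZero_of_injective_algebraMap hinj
  have hpB : (p : ↥(integralClosure A L)) ∈ maximalIdeal ↥(integralClosure A L) := by
    have h1 : (p : ↥(integralClosure A L)) = algebraMap A ↥(integralClosure A L) (p : A) := by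
      rw [map_natCast]
    rw [h1]
    exact map_nonunit (algebraMap A ↥(integralClosure A L)) _ hpA
  let a'' : Nat.Primes → ↥(integralClosure A L) := fun ℓ => ⟨aL ℓ, hint ℓ⟩
  have hsys : mapSys ↥(integralClosure A L) L a'' = aL := rfl
  obtain ⟨ρ, h1, h2, h3, h4⟩ := exists_rep_of_system_unipW I ↥(integralClosure A L) hpB L a''
    (by rw [hsys]; exact hocc)
  refine ⟨↥(integralClosure A L), inferInstance, inferInstance, inferInstance, inferInstance,
    hfinres, inferInstance, inferInstance, inferInstance, inferInstance, hinj, ρ, ?_, h2, h3, h4⟩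
  intro q hq hqNp x hx V hV σ hσ
  rw [h1 q hq hqNp V hV σ hσ]
  have : a'' ⟨q, hq⟩ = algebraMap A ↥(integralClosure A L) x := Subtype.ext hx.symm
  rw [this]

/-- Stage B: **the S30 statement for `(p, N)` from a term of `StageIData N p`.** -/
theorem s30UnipW_of_stageIData (I : StageIData N p) (S : Finset ℕ)
    (hpS : p ∈ S) (hNS : ∀ q : ℕ, q.Prime → q ∣ N → q ∈ S)
    (𝒪' : Type) [CommRing 𝒪'] [IsDomain 𝒪'] [IsDiscreteValuationRing 𝒪']
    [IsAdicComplete (IsLocalRing.maximalIdeal 𝒪') 𝒪'] [Finite (IsLocalRing.ResidueField 𝒪')]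
    [CharZero 𝒪'] (hp𝒪' : (p : 𝒪') ∈ IsLocalRing.maximalIdeal 𝒪')
    (χ : CuspForm.heckeAlgebra N 2 (↑S : Set ℕ) →+* 𝒪') :
    ∃ (𝒪'' : Type) (_ : CommRing 𝒪'') (_ : IsDomain 𝒪'') (_ : IsDiscreteValuationRing 𝒪'')
      (_ : IsAdicComplete (IsLocalRing.maximalIdeal 𝒪'') 𝒪'')
      (_ : Finite (IsLocalRing.ResidueField 𝒪'')) (_ : CharZero 𝒪'')
      (_ : Algebra 𝒪' 𝒪'') (_ : Module.Finite 𝒪' 𝒪'') (_ : IsLocalHom (algebraMap 𝒪' 𝒪'')),
    Function.Injective (algebraMap 𝒪' 𝒪'') ∧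
    ∃ ρ : GaloisRepAdic 𝒪'',
      (∀ (ℓ : ℕ) (hℓ : ℓ.Prime) (hℓN : ¬ ℓ ∣ N) (hℓS : ℓ ∉ (↑S : Set ℕ)),
        ∀ A : ValuationSubring (AlgebraicClosure ℚ), A.LiesOverPrime ℓ →
          ∀ σ : AlgebraicClosure ℚ ≃ₐ[ℚ] AlgebraicClosure ℚ, A.IsFrobeniusAt σ ℓ →
            LinearMap.charpoly (ρ.ρ σ) =
              X ^ 2 - C (algebraMap 𝒪' 𝒪'' (χ (CuspForm.heckeAlgebra.T hℓ hℓN hℓS))) * X
                + C ((ℓ : 𝒪''))) ∧
      (∀ q : ℕ, q.Prime → ¬ q ∣ N → q ≠ p → ρ.IsUnramifiedAt q) ∧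
      (∀ q : ℕ, SSqW N p q → ρ.IsUnipotentOnInertiaAt q) := by
  haveI : CharZero (FractionRing 𝒪') :=
    charZero_of_injective_algebraMap (IsFractionRing.injective 𝒪' (FractionRing 𝒪'))
  -- the character over an algebraic closure
  obtain ⟨aF, hoccF, haT, -⟩ := exists_eigenPar_of_character (N := N)
    (F := AlgebraicClosure (FractionRing 𝒪')) (↑S : Set ℕ)
    ((algebraMap 𝒪' (AlgebraicClosure (FractionRing 𝒪'))).comp χ)
  have hint𝒪 : ∀ ℓ, IsIntegral 𝒪' (aF ℓ) := fun ℓ =>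
    isIntegral_of_isIntegral_int (isIntegral_of_eigenPar_ne_bot hoccF ℓ)
  have hintK : ∀ ℓ, IsIntegral (FractionRing 𝒪') (aF ℓ) := fun ℓ =>
    isIntegral_of_isIntegral_int (isIntegral_of_eigenPar_ne_bot hoccF ℓ)
  -- the finite extension generated by the eigenvalues at the primes in `S`
  have hfinset : ({ℓ : Nat.Primes | (ℓ : ℕ) ∈ S}).Finite := by
    refine Set.Finite.of_finite_image (f := fun ℓ : Nat.Primes => (ℓ : ℕ)) ?_
      (fun x _ y _ hxy => Subtype.ext hxy)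
    refine S.finite_toSet.subset ?_
    rintro _ ⟨ℓ, hℓ, rfl⟩
    exact hℓ
  haveI : Finite ↑(aF '' {ℓ : Nat.Primes | (ℓ : ℕ) ∈ S}) := (hfinset.image aF).to_subtype
  haveI hfd : FiniteDimensional (FractionRing 𝒪')
      ↥(IntermediateField.adjoin (FractionRing 𝒪') (aF '' {ℓ : Nat.Primes | (ℓ : ℕ) ∈ S})) :=
    IntermediateField.finiteDimensional_adjoin (by
      rintro _ ⟨ℓ, _, rfl⟩
      exact hintK ℓ)
  haveI : IsScalarTower 𝒪' (FractionRing 𝒪')
      ↥(IntermediateField.adjoin (FractionRing 𝒪') (aF '' {ℓ : Nat.Primes | (ℓ : ℕ) ∈ S})) :=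
    IsScalarTower.of_algebraMap_eq fun x => Subtype.ext (by
      show algebraMap 𝒪' (AlgebraicClosure (FractionRing 𝒪')) x = _
      rw [IsScalarTower.algebraMap_apply 𝒪' (FractionRing 𝒪') (AlgebraicClosure (FractionRing 𝒪'))]
      rfl)
  have hmem : ∀ ℓ : Nat.Primes, aF ℓ ∈
      IntermediateField.adjoin (FractionRing 𝒪') (aF '' {ℓ : Nat.Primes | (ℓ : ℕ) ∈ S}) := by
    intro ℓ
    by_cases hℓS : (ℓ : ℕ) ∈ S
    · exact IntermediateField.subset_adjoin _ _ ⟨ℓ, hℓS, rfl⟩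
    · have hℓN : ¬ (ℓ : ℕ) ∣ N := fun h => hℓS (hNS _ ℓ.2 h)
      have h := haT ℓ.1 ℓ.2 hℓN (by simpa using hℓS)
      have h' : aF ℓ = aF ⟨ℓ.1, ℓ.2⟩ := rfl
      rw [h', h, RingHom.comp_apply,
        IsScalarTower.algebraMap_apply 𝒪' (FractionRing 𝒪') (AlgebraicClosure (FractionRing 𝒪'))]
      exact IntermediateField.algebraMap_mem _ _
  let aL : Nat.Primes →
      ↥(IntermediateField.adjoin (FractionRing 𝒪') (aF '' {ℓ : Nat.Primes | (ℓ : ℕ) ∈ S})) :=
    fun ℓ => ⟨aF ℓ, hmem ℓ⟩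
  haveI : IsScalarTower 𝒪'
      ↥(IntermediateField.adjoin (FractionRing 𝒪') (aF '' {ℓ : Nat.Primes | (ℓ : ℕ) ∈ S}))
      (AlgebraicClosure (FractionRing 𝒪')) :=
    IsScalarTower.of_algebraMap_eq fun x => rfl
  have hintL : ∀ ℓ, IsIntegral 𝒪' (aL ℓ) := by
    intro ℓ
    have h := hint𝒪 ℓ
    have h2 : aF ℓ = algebraMap
      ↥(IntermediateField.adjoin (FractionRing 𝒪') (aF '' {ℓ : Nat.Primes | (ℓ : ℕ) ∈ S}))
      (AlgebraicClosure (FractionRing 𝒪')) (aL ℓ) := rfl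
    rw [h2] at h
    exact (isIntegral_algebraMap_iff (RingHom.injective _)).1 h
  have hoccL : eigenPar N
      ↥(IntermediateField.adjoin (FractionRing 𝒪') (aF '' {ℓ : Nat.Primes | (ℓ : ℕ) ∈ S})) aL ≠ ⊥ := by
    rw [← eigenPar_ne_bot_map_iff _ (AlgebraicClosure (FractionRing 𝒪'))]
    exact hoccF
  obtain ⟨B, i1, i2, i3, i4, i5, i6, i7, i8, i9, hinj, ρ, h1, h2, -, h4⟩ :=
    exists_ext_rep_of_finite_unipW I 𝒪' hp𝒪' (FractionRing 𝒪')
      ↥(IntermediateField.adjoin (FractionRing 𝒪') (aF '' {ℓ : Nat.Primes | (ℓ : ℕ) ∈ S}))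
      aL hintL hoccL
  refine ⟨B, i1, i2, i3, i4, i5, i6, i7, i8, i9, hinj, ρ, ?_, ?_, h4⟩
  · intro ℓ hℓ hℓN hℓS A hA σ hσ
    have hℓp : ℓ ≠ p := fun h => hℓS (by rw [h]; exact hpS)
    have hℓNp : ¬ ℓ ∣ N * p := by
      intro h
      rcases (Nat.Prime.dvd_mul hℓ).1 h with h | h
      · exact hℓN h
      · exact hℓp ((Nat.prime_dvd_prime_iff_eq hℓ hp.out).1 h)
    refine h1 ℓ hℓ hℓNp (χ (CuspForm.heckeAlgebra.T hℓ hℓN hℓS)) ?_ A hA σ hσ
    apply Subtype.ext
    show algebraMap 𝒪' (AlgebraicClosure (FractionRing 𝒪')) _ = aF ⟨ℓ, hℓ⟩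
    rw [haT ℓ hℓ hℓN hℓS]
    rfl
  · intro q hq hqN hqp
    refine h2 q hq ?_
    intro h
    rcases (Nat.Prime.dvd_mul hq).1 h with h | h
    · exact hqN h
    · exact hqp ((Nat.prime_dvd_prime_iff_eq hq hp.out).1 h)

end Main

/-- **(SS)**: the semistable-reduction input, for all levels: `(σ − 1)² = 0` on `J₀(N)[p^∞]` for
`σ` in an inertia group at `q`, `q ∥ N`, `q ≠ p`. -/
def SSWStatement : Prop :=
  ∀ (N : ℕ) [NeZero N] (p q : ℕ), p.Prime → q.Prime → q ≠ p → q ∣ N → ¬ q ^ 2 ∣ N → SSqW N p q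

/-- helper4's `S30UnipStatement` from (SS). -/
theorem s30UnipStatement_of_SSW (hSS : SSWStatement) : S30UnipStatement := by
  intro p _ N _ S hpS hNS 𝒪' _ _ _ _ _ _ hp𝒪' χ
  obtain ⟨B, i1, i2, i3, i4, i5, i6, i7, i8, i9, hinj, ρ, h1, -, h3⟩ :=
    s30UnipW_of_stageIData (stageIData N p) S hpS hNS 𝒪' hp𝒪' χ
  exact ⟨B, i1, i2, i3, i4, i5, i6, i7, i8, i9, hinj, ρ, h1,
    fun q hq hqp hqN hq2 => h3 q (hSS N p q (Fact.out) hq hqp hqN hq2)⟩

section S34

variable {p : ℕ} {N : ℕ} [NeZero N] {S : Finset ℕ}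
  {𝒪 : Type} [CommRing 𝒪] [IsDomain 𝒪] [IsDiscreteValuationRing 𝒪]
  [IsAdicComplete (IsLocalRing.maximalIdeal 𝒪) 𝒪]
  {θ : CuspForm.heckeAlgebra N 2 (↑S : Set ℕ) →+* IsLocalRing.ResidueField 𝒪}
  {T : Type} [CommRing T] [IsLocalRing T] [IsNoetherianRing T]
  [IsAdicComplete (IsLocalRing.maximalIdeal T) T] [Algebra 𝒪 T] [IsLocalHom (algebraMap 𝒪 T)]
  [Module.Finite 𝒪 T] [Module.Free 𝒪 T]

/-- **the S34 statement from (SS).** -/
theorem s34_of_SSW (hSS : SSWStatement) (hp : p.Prime)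
    (hp𝒪 : (p : 𝒪) ∈ IsLocalRing.maximalIdeal 𝒪) (hpS : p ∈ S)
    (hNS : ∀ q : ℕ, q.Prime → q ∣ N → q ∈ S)
    (H : CuspForm.HeckeGaloisRepDatum N (↑S : Set ℕ) 𝒪 θ T)
    (q : ℕ) (hq : q.Prime) (hqp : q ≠ p) (hqN : q ∣ N) (hq2 : ¬ q ^ 2 ∣ N) :
    H.ρ.IsUnipotentOnInertiaAt q := by
  haveI : Fact p.Prime := ⟨hp⟩
  exact s34_of_inputs (s30UnipStatement_of_SSW hSS)
    (exists_padic_points_heckeAlgebra N (↑S : Set ℕ)
      (isReduced_heckeAlgebra N (↑S : Set ℕ) (fun q hq hqN => Finset.mem_coe.mpr (hNS q hq hqN))) p)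
    hp hp𝒪 hpS hNS H q hq hqp hqN hq2

end S34

end Fermat.Agent.GR
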