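/-
Stage (I) (helper2): the literal targets (EIGENFORM) and (FIN) of the lead's message 788, as thin
wrappers around `GR/MULT1_helper2_Extra`.
-/
import Mathlib
import Fermat.Agent.GR.MULT1_helper2_Extra

set_option autoImplicit false

namespace Fermat.Agent.GR

open CongruenceSubgroup

/-- **(EIGENFORM)**, the lead's literal: the system of eigenvalues of a normalized eigenform occurs
in `Hom_par(Γ₀(N), ℂ)`. -/
theorem exists_eigenPar_of_isNormalizedEigenform_of_not_dvd {N : ℕ} [NeZero N]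
    {g : CuspForm (CongruenceSubgroup.Gamma0 N) 2} (hg : g.IsNormalizedEigenform) :
    ∃ a : Nat.Primes → ℂ, eigenPar N ℂ a ≠ ⊥ ∧
      ∀ (ℓ : ℕ) (hℓ : ℓ.Prime), ¬ ℓ ∣ N → a ⟨ℓ, hℓ⟩ = ModularFormClass.qCoeff g ℓ := by
  obtain ⟨a, ha, h⟩ := exists_eigenPar_of_isNormalizedEigenform hg
  exact ⟨a, ha, fun ℓ hℓ _ => h ℓ hℓ⟩

/-- **(FIN)**, the lead's literal: the field generated by a system of eigenvalues occurring in
`Hom_par(Γ₀(N), F)` is a number field. -/
theorem finiteDimensional_adjoin_of_eigenPar_ne_bot {N : ℕ} [NeZero N] {F : Type*} [Field F]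
    [CharZero F] {a : Nat.Primes → F} (h : eigenPar N F a ≠ ⊥) :
    FiniteDimensional ℚ ↥(IntermediateField.adjoin ℚ (Set.range a)) :=
  finiteDimensional_adjoin_range h

end Fermat.Agent.GR
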