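/-
STAGE (I), package LATTICE, lead — part A: for a domain `𝒪` with fraction field `K` (char 0) and a
system `a : Nat.Primes → 𝒪`, the eigenlattice `Λ = eigenPar N 𝒪 a ⊆ Hom(Γ₀(N), 𝒪)` is saturated,
its localization is `eigenPar N K a`, and over a PID it is free of rank `finrank K (eigenPar N K a)`.
-/
import Fermat.Agent.GR.BETTI_lead_BaseChange
import Fermat.Agent.GR.MULT1_helper2_Complex

set_option autoImplicit false
set_option linter.unusedSectionVars false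
set_option linter.unusedVariables false
set_option linter.style.haveILetI false

namespace Fermat.Agent.GR

open CongruenceSubgroup ModularCurve.Period

open scoped MatrixGroups

section Sat

variable (N : ℕ) (𝒪 : Type*) [CommRing 𝒪] [IsDomain 𝒪] (a : Nat.Primes → 𝒪)

/-- **saturation**: `r • ψ ∈ Λ`, `r ≠ 0` ⇒ `ψ ∈ Λ` -/
theorem mem_eigenPar_of_smul_mem {r : 𝒪} (hr : r ≠ 0) {ψ : Additive (Gamma0 N) →+ 𝒪}
    (h : r • ψ ∈ eigenPar N 𝒪 a) : ψ ∈ eigenPar N 𝒪 a := by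
  obtain ⟨h1, h2⟩ := h
  refine ⟨?_, fun ℓ => ?_⟩
  · intro γ hγ
    have := h1 γ hγ
    have h3 : r * ψ (Additive.ofMul γ) = 0 := this
    exact (mul_eq_zero.1 h3).resolve_left hr
  · have h3 := h2 ℓ
    have h4 : heckeGrpP N ℓ 𝒪 (r • ψ) = r • heckeGrpP N ℓ 𝒪 ψ :=
      (heckeGrpPₗ N ℓ 𝒪 𝒪).map_smul r ψ
    rw [h4, smul_comm] at h3
    refine AddMonoidHom.ext fun γ => ?_
    have h5 := DFunLike.congr_fun h3 γ
    have h6 : r * (heckeGrpP N ℓ 𝒪 ψ) γ = r * (a ℓ • ψ) γ := h5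
    exact mul_left_cancel₀ hr h6

end Sat

section Loc

variable (N : ℕ) [NeZero N] (𝒪 : Type*) [CommRing 𝒪] [IsDomain 𝒪]
  (K : Type*) [Field K] [Algebra 𝒪 K] [IsFractionRing 𝒪 K] (a : Nat.Primes → 𝒪)

/-- the system of eigenvalues over the fraction field -/
def mapSys : Nat.Primes → K := fun ℓ => algebraMap 𝒪 K (a ℓ)

theorem algebraMap_comp_mem_eigenPar {ψ : Additive (Gamma0 N) →+ 𝒪} (hψ : ψ ∈ eigenPar N 𝒪 a) :
    (algebraMap 𝒪 K).toAddMonoidHom.comp ψ ∈ eigenPar N K (mapSys 𝒪 K a) := by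
  refine ⟨comp_mem_parabolicHoms (R := 𝒪) _ hψ.1, fun ℓ => ?_⟩
  rw [heckeGrpP_comp, hψ.2 ℓ]
  refine AddMonoidHom.ext fun γ => ?_
  show algebraMap 𝒪 K (a ℓ * ψ γ) = algebraMap 𝒪 K (a ℓ) * algebraMap 𝒪 K (ψ γ)
  exact map_mul _ _ _

/-- the localization map `Λ → E_K` -/
def eigenParLoc : ↥(eigenPar N 𝒪 a) →ₗ[𝒪] ↥(eigenPar N K (mapSys 𝒪 K a)) where
  toFun ψ := ⟨(algebraMap 𝒪 K).toAddMonoidHom.comp ψ.1, algebraMap_comp_mem_eigenPar N 𝒪 K a ψ.2⟩
  map_add' ψ φ := by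
    apply Subtype.ext
    refine AddMonoidHom.ext fun γ => ?_
    show algebraMap 𝒪 K (ψ.1 γ + φ.1 γ) = algebraMap 𝒪 K (ψ.1 γ) + algebraMap 𝒪 K (φ.1 γ)
    exact map_add _ _ _
  map_smul' r ψ := by
    apply Subtype.ext
    refine AddMonoidHom.ext fun γ => ?_
    show algebraMap 𝒪 K (r * ψ.1 γ) = r • algebraMap 𝒪 K (ψ.1 γ)
    rw [map_mul, Algebra.smul_def]

@[simp] theorem eigenParLoc_apply (ψ : ↥(eigenPar N 𝒪 a)) (γ : Additive (Gamma0 N)) :
    (eigenParLoc N 𝒪 K a ψ).1 γ = algebraMap 𝒪 K (ψ.1 γ) := rfl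

theorem eigenParLoc_injective : Function.Injective (eigenParLoc N 𝒪 K a) := by
  intro ψ φ h
  apply Subtype.ext
  refine AddMonoidHom.ext fun γ => ?_
  have := DFunLike.congr_fun (congrArg Subtype.val h) γ
  exact IsFractionRing.injective 𝒪 K this

/-- clearing denominators: for `e : Γ → K` additive there is `s ≠ 0` with `s • e` integral -/
theorem exists_smul_integral (e : Additive (Gamma0 N) →+ K) :
    ∃ s : 𝒪, s ≠ 0 ∧ ∀ γ : Additive (Gamma0 N), ∃ x : 𝒪, algebraMap 𝒪 K x = s • e γ := by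
  classical
  obtain ⟨n, g, hg⟩ := exists_fintype_generators (Γ := ↥(Gamma0 N))
  obtain ⟨s, hs⟩ := IsLocalization.exist_integer_multiples_of_finset (nonZeroDivisors 𝒪)
    (Finset.univ.image fun i => e (Additive.ofMul (g i)))
  refine ⟨s.1, nonZeroDivisors.ne_zero s.2, ?_⟩
  let H : Subgroup ↥(Gamma0 N) :=
    { carrier := {γ | ∃ x : 𝒪, algebraMap 𝒪 K x = s.1 • e (Additive.ofMul γ)}
      one_mem' := ⟨0, by rw [ofMul_one, map_zero, map_zero, smul_zero]⟩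
      mul_mem' := by
        rintro γ δ ⟨x, hx⟩ ⟨y, hy⟩
        exact ⟨x + y, by rw [map_add, hx, hy, ofMul_mul, map_add, smul_add]⟩
      inv_mem' := by
        rintro γ ⟨x, hx⟩
        exact ⟨-x, by rw [map_neg, hx, ofMul_inv, map_neg, smul_neg]⟩ }
  have h1 : Subgroup.closure (Set.range g) ≤ H := by
    rw [Subgroup.closure_le]
    rintro _ ⟨i, rfl⟩
    have := hs (e (Additive.ofMul (g i))) (Finset.mem_image_of_mem _ (Finset.mem_univ i))
    obtain ⟨x, hx⟩ := this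
    exact ⟨x, by rw [hx]⟩
  rw [hg] at h1
  intro γ
  exact h1 (Subgroup.mem_top (Additive.toMul γ))

theorem eigenParLoc_surj (e : ↥(eigenPar N K (mapSys 𝒪 K a))) :
    ∃ (ψ : ↥(eigenPar N 𝒪 a)) (s : 𝒪), s ≠ 0 ∧ s • e = eigenParLoc N 𝒪 K a ψ := by
  obtain ⟨s, hs0, hs⟩ := exists_smul_integral N 𝒪 K e.1
  choose f hf using hs
  have hinj := IsFractionRing.injective 𝒪 K
  let ψ : Additive (Gamma0 N) →+ 𝒪 :=
    { toFun := f
      map_zero' := by
        apply hinj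
        rw [hf, map_zero, map_zero, smul_zero]
      map_add' := by
        intro x y
        apply hinj
        rw [hf, map_add, map_add, hf, hf, smul_add] }
  have hψe : (algebraMap 𝒪 K).toAddMonoidHom.comp ψ = s • e.1 := by
    refine AddMonoidHom.ext fun γ => ?_
    exact hf γ
  have hse : s • e.1 ∈ eigenPar N K (mapSys 𝒪 K a) :=
    (eigenPar N K _).smul_of_tower_mem s e.2
  have hψ : ψ ∈ eigenPar N 𝒪 a := by
    refine ⟨?_, fun ℓ => ?_⟩
    · intro γ hγ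
      apply hinj
      have h1 := hse.1 γ hγ
      rw [← hψe] at h1
      rw [map_zero]
      exact h1
    · have h1 := hse.2 ℓ
      rw [← hψe, heckeGrpP_comp] at h1
      refine AddMonoidHom.ext fun γ => ?_
      apply hinj
      have h2 := DFunLike.congr_fun h1 γ
      have h3 : algebraMap 𝒪 K (heckeGrpP N ℓ 𝒪 ψ γ) =
          algebraMap 𝒪 K (a ℓ) * algebraMap 𝒪 K (ψ γ) := h2
      rw [h3]
      show _ = algebraMap 𝒪 K (a ℓ * ψ γ)
      rw [map_mul]
  refine ⟨⟨ψ, hψ⟩, s, hs0, ?_⟩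
  apply Subtype.ext
  exact hψe.symm

instance eigenParLoc_isLocalizedModule :
    IsLocalizedModule (nonZeroDivisors 𝒪) (eigenParLoc N 𝒪 K a) where
  map_units s := by
    have hs : algebraMap 𝒪 K s.1 ≠ 0 :=
      IsFractionRing.to_map_ne_zero_of_mem_nonZeroDivisors s.2
    rw [Module.End.isUnit_iff]
    constructor
    · intro x y hxy
      have h1 : s.1 • x = s.1 • y := hxy
      rw [← algebraMap_smul K, ← algebraMap_smul K s.1 y] at h1
      exact smul_right_injective _ hs h1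
    · intro y
      refine ⟨(algebraMap 𝒪 K s.1)⁻¹ • y, ?_⟩
      show s.1 • ((algebraMap 𝒪 K s.1)⁻¹ • y) = y
      rw [← algebraMap_smul K, smul_smul, mul_inv_cancel₀ hs, one_smul]
  surj e := by
    obtain ⟨ψ, s, hs0, h⟩ := eigenParLoc_surj N 𝒪 K a e
    exact ⟨(ψ, ⟨s, mem_nonZeroDivisors_of_ne_zero hs0⟩), h⟩
  exists_of_eq {x y} h := ⟨1, by rw [eigenParLoc_injective N 𝒪 K a h]⟩

/-- **rank of the lattice** -/
theorem finrank_eigenPar_eq :
    Module.finrank 𝒪 ↥(eigenPar N 𝒪 a) = Module.finrank K ↥(eigenPar N K (mapSys 𝒪 K a)) := by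
  have h := (isLocalizedModule_iff_isBaseChange (nonZeroDivisors 𝒪) K
    (eigenParLoc N 𝒪 K a)).1 inferInstance
  exact (IsBaseChange.finrank_eq (R := 𝒪) (T := K) (M := ↥(eigenPar N 𝒪 a))
    (P := ↥(eigenPar N K (mapSys 𝒪 K a))) (g := eigenParLoc N 𝒪 K a) h).symm

end Loc

section Free

variable (N : ℕ) [NeZero N] (𝒪 : Type*) [CommRing 𝒪] [IsDomain 𝒪] [IsPrincipalIdealRing 𝒪]
  [CharZero 𝒪] (a : Nat.Primes → 𝒪)

/-- the inclusion of the eigenlattice into the parabolic homs -/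
def eigenParIncl : ↥(eigenPar N 𝒪 a) →ₗ[𝒪] ↥(parabolicHoms 𝒪 (Gamma0 N) 𝒪) where
  toFun ψ := ⟨ψ.1, ψ.2.1⟩
  map_add' _ _ := rfl
  map_smul' _ _ := rfl

theorem eigenParIncl_injective : Function.Injective (eigenParIncl N 𝒪 a) := by
  intro ψ φ h
  exact Subtype.ext (congrArg (fun x : ↥(parabolicHoms 𝒪 (Gamma0 N) 𝒪) => x.1) h)

instance eigenPar_finite : Module.Finite 𝒪 ↥(eigenPar N 𝒪 a) :=
  Module.Finite.of_injective (eigenParIncl N 𝒪 a) (eigenParIncl_injective N 𝒪 a)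

instance eigenPar_isTorsionFree : Module.IsTorsionFree 𝒪 ↥(eigenPar N 𝒪 a) :=
  Function.Injective.moduleIsTorsionFree (eigenParIncl N 𝒪 a) (eigenParIncl_injective N 𝒪 a)
    (fun r m => map_smul _ r m)

instance eigenPar_free : Module.Free 𝒪 ↥(eigenPar N 𝒪 a) :=
  Module.free_of_finite_type_torsion_free' (R := 𝒪) (M := ↥(eigenPar N 𝒪 a))

end Free

end Fermat.Agent.GR
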