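/-
(S42-FROM-S29) (helper7): the S42 statement (`FreyPackage.EigenformResidualAttachmentAt` for all
levels) from the S29 statement (residual Galois representations attached to eigenforms), taken
as a hypothesis.
-/
import Mathlib
import Fermat.Prelude.Def_FreyPackage_EigenformResidualAttachment
import Fermat.Prelude.Def_GaloisRep_Residual
import Fermat.Agent.EC.Tors_helper6_Frey
import Fermat.Agent.EC.GlobalTrivial_helper5

set_option autoImplicit false
set_option linter.unusedSectionVars false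
set_option linter.unusedVariables false
set_option linter.style.haveILetI false

open Polynomial WeierstrassCurve WeierstrassCurve.Affine WeierstrassCurve.Affine.Point

namespace Fermat.Agent.GR.S42Top

local notation "Ω" => AlgebraicClosure ℚ
local notation "GQ" => (AlgebraicClosure ℚ ≃ₐ[ℚ] AlgebraicClosure ℚ)

section LinAlg

variable {K V : Type*} [Field K] [AddCommGroup V] [Module K V] [Module.Finite K V]

theorem natDegree_charpoly_eq_two (hV : Module.finrank K V = 2) (f : Module.End K V) :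
    (LinearMap.charpoly f).natDegree = 2 := by
  rw [LinearMap.charpoly_natDegree, hV]

/-- in rank two the trace is read off the characteristic polynomial. -/
theorem trace_of_charpoly_eq (hV : Module.finrank K V = 2) (f : Module.End K V) (a b : K)
    (h : LinearMap.charpoly f = X ^ 2 - C a * X + C b) : LinearMap.trace K V f = a := by
  have hdeg := natDegree_charpoly_eq_two hV f
  rw [LinearMap.trace_eq_matrix_trace K (Module.Free.chooseBasis K V) f,
    Matrix.trace_eq_neg_charpoly_nextCoeff, ← LinearMap.charpoly_def,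
    Polynomial.nextCoeff_of_natDegree_pos (by rw [hdeg]; norm_num), hdeg, h]
  simp [Polynomial.coeff_C]

/-- in rank two the determinant is read off the characteristic polynomial. -/
theorem det_of_charpoly_eq (hV : Module.finrank K V = 2) (f : Module.End K V) (a b : K)
    (h : LinearMap.charpoly f = X ^ 2 - C a * X + C b) : LinearMap.det f = b := by
  rw [LinearMap.det_eq_sign_charpoly_coeff, hV, h]
  simp [Polynomial.coeff_X, Polynomial.coeff_C]

end LinAlg

section Galois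

/-- elements of the kernel of the restriction to a normal intermediate field fix it pointwise. -/
theorem mem_fixingSubgroup_of_mem_ker_restrictNormalHom (E : IntermediateField ℚ Ω)
    [Normal ℚ ↥E] {σ : GQ}
    (hσ : σ ∈ (AlgEquiv.restrictNormalHom (F := ℚ) (K₁ := Ω) ↥E).ker) :
    σ ∈ E.fixingSubgroup := by
  rw [IntermediateField.mem_fixingSubgroup_iff]
  intro x hx
  have h1 : AlgEquiv.restrictNormalHom (F := ℚ) (K₁ := Ω) ↥E σ = 1 := hσ
  have h2 := AlgEquiv.restrictNormal_commutes σ ↥E ⟨x, hx⟩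
  have h3 : σ.restrictNormal ↥E = 1 := h1
  rw [h3] at h2
  exact h2.symm

end Galois

section CharP

/-- a field in which the prime `p` vanishes has characteristic `p`. -/
theorem charP_of_prime_cast_eq_zero {K : Type*} [Field K] {p : ℕ} (hp : p.Prime)
    (h : (p : K) = 0) : CharP K p := by
  obtain ⟨q, hq⟩ := CharP.exists K
  have hdvd : q ∣ p := (CharP.cast_eq_zero_iff K q p).mp h
  rcases (Nat.dvd_prime hp).mp hdvd with h1 | h1
  · exact absurd h1 (CharP.char_ne_one K q)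
  · rw [← h1]; exact hq

end CharP

section Main

open Fermat.Agent.EC in
/-- **S42 from S29.** -/
theorem s42_of_s29
    (h29 : ∀ {N : ℕ} {g : CuspForm (CongruenceSubgroup.Gamma0 N) 2}
      (hg : g.IsNormalizedEigenform) {p : ℕ} (hp : p.Prime) {k : Type} [Field k] [CharP k p]
      (φ : integralClosure ℤ ℂ →+* k),
      ∃ ρ : ResidualGaloisRep k, ρ.IsAttachedTo g φ ∧
        ∀ ℓ : ℕ, ℓ.Prime → ¬ ℓ ∣ N * p → ρ.IsUnramifiedAt ℓ)
    (P : FreyPackage) : ∀ M : ℕ, 0 < M → P.EigenformResidualAttachmentAt M := by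
  intro M hM g hg 𝔪 h𝔪 hp𝔪
  letI : Field (integralClosure ℤ ℂ ⧸ 𝔪) := Ideal.Quotient.field 𝔪
  have hp0 : ((P.p : ℕ) : integralClosure ℤ ℂ ⧸ 𝔪) = 0 := by
    have h1 : Ideal.Quotient.mk 𝔪 (P.p : integralClosure ℤ ℂ) = 0 :=
      Ideal.Quotient.eq_zero_iff_mem.mpr hp𝔪
    rwa [map_natCast] at h1
  haveI : CharP (integralClosure ℤ ℂ ⧸ 𝔪) P.p := charP_of_prime_cast_eq_zero P.pp hp0
  obtain ⟨ρ, hatt, -⟩ := h29 hg P.pp (Ideal.Quotient.mk 𝔪)
  have hℓK : ∀ ℓ : ℕ, ℓ.Prime → ℓ ≠ P.p → ((ℓ : ℕ) : integralClosure ℤ ℂ ⧸ 𝔪) ≠ 0 := by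
    intro ℓ hℓ hℓp h0
    have h1 : P.p ∣ ℓ := (CharP.cast_eq_zero_iff (integralClosure ℤ ℂ ⧸ 𝔪) P.p ℓ).mp h0
    exact hℓp ((Nat.prime_dvd_prime_iff_eq P.pp hℓ).mp h1).symm
  -- the finite Galois level
  obtain ⟨L, hLfin, hL⟩ := ρ.factorsThroughFiniteLevel
  haveI := hLfin
  haveI hfin : Finite (Submodule.torsionBy ℤ ((P.freyCurve : Affine ℚ)⁄Ω).Point (P.p : ℤ)) :=
    frey_finite_torsionBy P
  have hopen1 : IsOpen ((torsionKernel (P.freyCurve : Affine ℚ) P.p : Subgroup GQ) : Set GQ) :=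
    isOpen_torsionKernel
  have hopen2 : IsOpen ((L.fixingSubgroup : Subgroup GQ) : Set GQ) := L.fixingSubgroup_isOpen
  have hnhds : ((torsionKernel (P.freyCurve : Affine ℚ) P.p : Subgroup GQ) : Set GQ) ∩
      ((L.fixingSubgroup : Subgroup GQ) : Set GQ) ∈ nhds (1 : GQ) :=
    (hopen1.inter hopen2).mem_nhds ⟨one_mem _, one_mem _⟩
  obtain ⟨E, hEfin, hEnorm, hE⟩ := (krullTopology_mem_nhds_one_iff_of_normal ℚ Ω _).mp hnhds
  have hEfin' : FiniteDimensional ℚ ↥E := hEfin
  have hEnorm' : Normal ℚ ↥E := hEnorm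
  haveI := hEfin'
  haveI := hEnorm'
  refine ⟨integralClosure ℤ ℂ ⧸ 𝔪, inferInstance, ZMod.algebra _ P.p, ρ.V, inferInstance,
    inferInstance, ρ.ρ, Ideal.Quotient.mk 𝔪, ↥E, inferInstance,
    { to_charZero := inferInstance, to_finiteDimensional := hEfin' },
    isGalois_iff.mpr ⟨inferInstance, hEnorm'⟩, inferInstance, inferInstance, ?_, ρ.finrank_eq,
    ?_, ?_, ?_⟩
  · rw [Ideal.mk_ker]
  · intro σ hσ
    have hs := hE (mem_fixingSubgroup_of_mem_ker_restrictNormalHom E hσ)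
    rw [Subgroup.mem_inf, MonoidHom.mem_ker, MonoidHom.mem_ker]
    exact ⟨LinearMap.ext fun x => hs.1 x,
      hL σ ((IntermediateField.mem_fixingSubgroup_iff _ _).mp hs.2)⟩
  · intro ℓ hℓ hℓM hℓp A hA τ hτ
    obtain ⟨a, ha, hch⟩ := hatt ℓ hℓ hℓM (hℓK ℓ hℓ hℓp) A hA τ hτ
    exact ⟨a, ha, trace_of_charpoly_eq ρ.finrank_eq _ _ _ hch⟩
  · intro ℓ hℓ hℓM hℓp A hA τ hτ
    obtain ⟨a, ha, hch⟩ := hatt ℓ hℓ hℓM (hℓK ℓ hℓ hℓp) A hA τ hτ
    exact det_of_charpoly_eq ρ.finrank_eq _ _ _ hch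

end Main

end Fermat.Agent.GR.S42Top
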