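/-
STAGE (I), package LATTICE, lead — part B: from a representation `ρP` of `G_ℚ` on
`P = parabolicHoms ℤ_[p] Γ ℤ_[p]` commuting with all Hecke operators, the representation on the
eigenlattice `Λ ⊆ parabolicHoms 𝒪 Γ 𝒪` of a system of eigenvalues `a : Nat.Primes → 𝒪`, as a
`GaloisRepAdic 𝒪`, with the transfer of triviality, quadratic relations and non-scalarity.
-/
import Fermat.Agent.GR.LATTICE_lead_Rank
import Fermat.Agent.GR.DET_lead_Linear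
import Fermat.Prelude.Def_GaloisRep_Adic

set_option autoImplicit false
set_option linter.unusedSectionVars false
set_option linter.unusedVariables false
set_option linter.style.haveILetI false

namespace Fermat.Agent.GR

open CongruenceSubgroup ModularCurve.Period TensorProduct

open scoped MatrixGroups

/-- shortcut instance (instance search through the `Submodule` coercion is fragile inside
unification problems) -/
instance instAddCommGroupParabolicHoms (N : ℕ) (R : Type*) [CommRing R] :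
    AddCommGroup ↥(parabolicHoms R (Gamma0 N) R) := inferInstance

section Ext

variable (N : ℕ) [NeZero N] (R R' : Type*) [CommRing R] [CommRing R'] [Algebra R R']
  [IsAddTorsionFree R] [IsAddTorsionFree R']

/-- the involution `ι` on the parabolic homs -/
def charInvPar (R : Type*) [CommRing R] :
    ↥(parabolicHoms R (Gamma0 N) R) →ₗ[R] ↥(parabolicHoms R (Gamma0 N) R) :=
  (charInvolution N R R).restrict (fun _ hψ => charInvolution_mem_parabolicHoms N R R hψ)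

@[simp] theorem coe_charInvPar (R : Type*) [CommRing R] (ψ : ↥(parabolicHoms R (Gamma0 N) R)) :
    (charInvPar N R ψ).1 = charInvolution N R R ψ.1 := rfl

theorem parExt_heckeParP (ℓ : Nat.Primes) :
    parExt R R' (Gamma0 N) (heckeParP N ℓ R R) = heckeParP N ℓ R' R' := by
  symm
  apply eq_parExt_of_parMapAlg
  intro ψ
  apply Subtype.ext
  show heckeGrpP N ℓ R' ((algebraMap R R').toAddMonoidHom.comp ψ.1) =
    (algebraMap R R').toAddMonoidHom.comp (heckeGrpP N ℓ R ψ.1)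
  exact heckeGrpP_comp N ℓ _ _

theorem parExt_charInvPar :
    parExt R R' (Gamma0 N) (charInvPar N R) = charInvPar N R' := by
  symm
  apply eq_parExt_of_parMapAlg
  intro ψ
  apply Subtype.ext
  rfl

end Ext

section Lattice

variable (N : ℕ) [NeZero N] (p : ℕ) [hp : Fact p.Prime]
  (𝒪 : Type) [CommRing 𝒪] [IsDomain 𝒪] [IsDiscreteValuationRing 𝒪] [CharZero 𝒪]
  [Algebra ℤ_[p] 𝒪] (a : Nat.Primes → 𝒪)
  {G : Type*} [Group G]
  (ρP : G →* Module.End ℤ_[p] ↥(parabolicHoms ℤ_[p] (Gamma0 N) ℤ_[p]))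

/-- the representation on `M = parabolicHoms 𝒪 Γ 𝒪` -/
noncomputable def rhoM : G →* Module.End 𝒪 ↥(parabolicHoms 𝒪 (Gamma0 N) 𝒪) :=
  (parExt ℤ_[p] 𝒪 (Gamma0 N) : _ →* _).comp ρP

/-- the eigenlattice as a submodule of `M` -/
def eigenLattice : Submodule 𝒪 ↥(parabolicHoms 𝒪 (Gamma0 N) 𝒪) :=
  (eigenPar N 𝒪 a).comap (parabolicHoms 𝒪 (Gamma0 N) 𝒪).subtype

/-- shortcut instance (instance search through two nested `Submodule` coercions is fragile) -/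
instance instAddCommGroupEigenLattice : AddCommGroup ↥(eigenLattice N 𝒪 a) := inferInstance

variable {N 𝒪 a} in
theorem mem_eigenLattice {m : ↥(parabolicHoms 𝒪 (Gamma0 N) 𝒪)} :
    m ∈ eigenLattice N 𝒪 a ↔ ∀ ℓ : Nat.Primes, heckeParP N ℓ 𝒪 𝒪 m = a ℓ • m := by
  constructor
  · intro h ℓ
    apply Subtype.ext
    exact h.2 ℓ
  · intro h
    refine ⟨m.2, fun ℓ => ?_⟩
    exact congrArg Subtype.val (h ℓ)

/-- `Λ ≃ eigenPar N 𝒪 a` -/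
def eigenLatticeEquiv : ↥(eigenLattice N 𝒪 a) ≃ₗ[𝒪] ↥(eigenPar N 𝒪 a) where
  toFun m := ⟨m.1.1, m.2⟩
  invFun ψ := ⟨⟨ψ.1, ψ.2.1⟩, ψ.2⟩
  left_inv _ := rfl
  right_inv _ := rfl
  map_add' _ _ := rfl
  map_smul' _ _ := rfl

instance eigenLattice_finite : Module.Finite 𝒪 ↥(eigenLattice N 𝒪 a) :=
  Module.Finite.equiv (eigenLatticeEquiv N 𝒪 a).symm

instance eigenLattice_free : Module.Free 𝒪 ↥(eigenLattice N 𝒪 a) :=
  Module.Free.of_equiv (eigenLatticeEquiv N 𝒪 a).symm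

theorem finrank_eigenLattice (K : Type*) [Field K] [Algebra 𝒪 K] [IsFractionRing 𝒪 K] :
    Module.finrank 𝒪 ↥(eigenLattice N 𝒪 a) =
      Module.finrank K ↥(eigenPar N K (mapSys 𝒪 K a)) := by
  rw [(eigenLatticeEquiv N 𝒪 a).finrank_eq]
  exact finrank_eigenPar_eq N 𝒪 K a

/-- saturation inside `M` -/
theorem mem_eigenLattice_of_smul_mem {r : 𝒪} (hr : r ≠ 0)
    {m : ↥(parabolicHoms 𝒪 (Gamma0 N) 𝒪)} (h : r • m ∈ eigenLattice N 𝒪 a) :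
    m ∈ eigenLattice N 𝒪 a :=
  mem_eigenPar_of_smul_mem N 𝒪 a hr h

variable (hcomm : ∀ (σ : G) (ℓ : Nat.Primes),
  ρP σ * heckeParP N ℓ ℤ_[p] ℤ_[p] = heckeParP N ℓ ℤ_[p] ℤ_[p] * ρP σ)

include hcomm in
theorem rhoM_comm (σ : G) (ℓ : Nat.Primes) :
    rhoM N p 𝒪 ρP σ * heckeParP N ℓ 𝒪 𝒪 = heckeParP N ℓ 𝒪 𝒪 * rhoM N p 𝒪 ρP σ := by
  have h := congrArg (parExt ℤ_[p] 𝒪 (Gamma0 N)) (hcomm σ ℓ)
  rw [map_mul, map_mul, parExt_heckeParP] at h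
  exact h

include hcomm in
theorem rhoM_mem (σ : G) {m : ↥(parabolicHoms 𝒪 (Gamma0 N) 𝒪)}
    (hm : m ∈ eigenLattice N 𝒪 a) : rhoM N p 𝒪 ρP σ m ∈ eigenLattice N 𝒪 a := by
  rw [mem_eigenLattice] at hm ⊢
  intro ℓ
  have h := LinearMap.congr_fun (rhoM_comm N p 𝒪 ρP hcomm σ ℓ) m
  rw [Module.End.mul_apply, Module.End.mul_apply, hm ℓ, map_smul] at h
  exact h.symm

/-- **the representation on the eigenlattice** -/
noncomputable def rhoLattice : G →* Module.End 𝒪 ↥(eigenLattice N 𝒪 a) where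
  toFun σ := (rhoM N p 𝒪 ρP σ).restrict (fun m hm => rhoM_mem N p 𝒪 a ρP hcomm σ hm)
  map_one' := by
    apply LinearMap.ext; intro m; apply Subtype.ext
    show rhoM N p 𝒪 ρP 1 m.1 = m.1
    rw [map_one]; rfl
  map_mul' σ τ := by
    apply LinearMap.ext; intro m; apply Subtype.ext
    show rhoM N p 𝒪 ρP (σ * τ) m.1 = rhoM N p 𝒪 ρP σ (rhoM N p 𝒪 ρP τ m.1)
    rw [map_mul]; rfl

@[simp] theorem coe_rhoLattice (σ : G) (m : ↥(eigenLattice N 𝒪 a)) :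
    (rhoLattice N p 𝒪 a ρP hcomm σ m).1 = rhoM N p 𝒪 ρP σ m.1 := rfl

/-- transfer of triviality -/
theorem rhoLattice_eq_one {σ : G} (h : ρP σ = 1) : rhoLattice N p 𝒪 a ρP hcomm σ = 1 := by
  apply LinearMap.ext; intro m; apply Subtype.ext
  show rhoM N p 𝒪 ρP σ m.1 = m.1
  show parExt ℤ_[p] 𝒪 (Gamma0 N) (ρP σ) m.1 = m.1
  rw [h, map_one]; rfl

/-- transfer of the quadratic relation -/
theorem rhoLattice_quadratic {σ : G} (ℓ : Nat.Primes) (q : ℕ)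
    (h : ρP σ * ρP σ - heckeParP N ℓ ℤ_[p] ℤ_[p] * ρP σ +
      (q : Module.End ℤ_[p] ↥(parabolicHoms ℤ_[p] (Gamma0 N) ℤ_[p])) = 0) :
    rhoLattice N p 𝒪 a ρP hcomm σ * rhoLattice N p 𝒪 a ρP hcomm σ -
      a ℓ • rhoLattice N p 𝒪 a ρP hcomm σ +
      (q : 𝒪) • (1 : Module.End 𝒪 ↥(eigenLattice N 𝒪 a)) = 0 := by
  have h' : ρP σ * ρP σ + (q : Module.End ℤ_[p] ↥(parabolicHoms ℤ_[p] (Gamma0 N) ℤ_[p])) =
      heckeParP N ℓ ℤ_[p] ℤ_[p] * ρP σ := by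
    rw [← sub_eq_zero, ← h]; abel
  have h1 := congrArg (parExt ℤ_[p] 𝒪 (Gamma0 N)) h'
  rw [map_add, map_mul, map_mul, map_natCast, parExt_heckeParP] at h1
  apply LinearMap.ext; intro m; apply Subtype.ext
  have h2 := LinearMap.congr_fun h1 m.1
  have hm := rhoM_mem N p 𝒪 a ρP hcomm σ m.2
  rw [mem_eigenLattice] at hm
  simp only [LinearMap.add_apply, Module.End.mul_apply] at h2
  have h3 : heckeParP N ℓ 𝒪 𝒪 (parExt ℤ_[p] 𝒪 (Gamma0 N) (ρP σ) m.1) =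
      a ℓ • parExt ℤ_[p] 𝒪 (Gamma0 N) (ρP σ) m.1 := hm ℓ
  rw [h3] at h2
  show rhoM N p 𝒪 ρP σ (rhoM N p 𝒪 ρP σ m.1) - a ℓ • rhoM N p 𝒪 ρP σ m.1 +
    (q : 𝒪) • m.1 = 0
  have h4 : (q : Module.End 𝒪 ↥(parabolicHoms 𝒪 (Gamma0 N) 𝒪)) m.1 = (q : 𝒪) • m.1 := by
    rw [Module.End.natCast_apply, Nat.cast_smul_eq_nsmul]
  rw [h4] at h2
  show parExt ℤ_[p] 𝒪 (Gamma0 N) (ρP σ) (parExt ℤ_[p] 𝒪 (Gamma0 N) (ρP σ) m.1) -
    a ℓ • parExt ℤ_[p] 𝒪 (Gamma0 N) (ρP σ) m.1 + (q : 𝒪) • m.1 = 0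
  rw [sub_add_eq_add_sub, h2, sub_self]

/-- congruence on `M`: if `ρP σ ≡ 1 mod p^k` on `P` then `ρM σ ≡ 1 mod p^k` on `M` -/
theorem rhoM_sub_eq_smul {σ : G} (k : ℕ)
    (h : ∀ ψ : ↥(parabolicHoms ℤ_[p] (Gamma0 N) ℤ_[p]),
      ∃ ψ' : ↥(parabolicHoms ℤ_[p] (Gamma0 N) ℤ_[p]), ρP σ ψ - ψ = (p : ℤ_[p]) ^ k • ψ')
    (m : ↥(parabolicHoms 𝒪 (Gamma0 N) 𝒪)) :
    ∃ m' : ↥(parabolicHoms 𝒪 (Gamma0 N) 𝒪), rhoM N p 𝒪 ρP σ m - m = (p : 𝒪) ^ k • m' := by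
  obtain ⟨x, rfl⟩ := (parBC ℤ_[p] 𝒪 (Gamma0 N)).surjective m
  induction x using TensorProduct.induction_on with
  | zero =>
    refine ⟨0, ?_⟩
    rw [LinearEquiv.map_zero (parBC ℤ_[p] 𝒪 (Gamma0 N)), map_zero, sub_zero, smul_zero]
  | add x y hx hy =>
    obtain ⟨m1, h1⟩ := hx
    obtain ⟨m2, h2⟩ := hy
    refine ⟨m1 + m2, ?_⟩
    rw [LinearEquiv.map_add (parBC ℤ_[p] 𝒪 (Gamma0 N)), map_add, smul_add, ← h1, ← h2]
    abel
  | tmul c ψ =>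
    obtain ⟨ψ', hψ'⟩ := h ψ
    refine ⟨c • parMapAlg ℤ_[p] 𝒪 (Gamma0 N) ψ', ?_⟩
    have h1 : rhoM N p 𝒪 ρP σ (parBC ℤ_[p] 𝒪 (Gamma0 N) (c ⊗ₜ ψ)) =
        c • parMapAlg ℤ_[p] 𝒪 (Gamma0 N) (ρP σ ψ) := by
      rw [parBC_tmul]
      exact parExt_smul_parMapAlg ℤ_[p] 𝒪 (Gamma0 N) (ρP σ) c ψ
    rw [h1, parBC_tmul, ← smul_sub, ← map_sub, hψ', map_smul, smul_comm c,
      ← algebraMap_smul 𝒪 ((p : ℤ_[p]) ^ k), map_pow, map_natCast]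

variable (hp𝒪 : (p : 𝒪) ∈ IsLocalRing.maximalIdeal 𝒪)

include hp𝒪 in
/-- congruence on the lattice -/
theorem rhoLattice_sub_mem {σ : G} (k : ℕ)
    (h : ∀ ψ : ↥(parabolicHoms ℤ_[p] (Gamma0 N) ℤ_[p]),
      ∃ ψ' : ↥(parabolicHoms ℤ_[p] (Gamma0 N) ℤ_[p]), ρP σ ψ - ψ = (p : ℤ_[p]) ^ k • ψ')
    (v : ↥(eigenLattice N 𝒪 a)) :
    rhoLattice N p 𝒪 a ρP hcomm σ v - v ∈
      (IsLocalRing.maximalIdeal 𝒪 ^ k) • (⊤ : Submodule 𝒪 ↥(eigenLattice N 𝒪 a)) := by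
  obtain ⟨m', hm'⟩ := rhoM_sub_eq_smul N p 𝒪 ρP k h v.1
  have hp0 : ((p : 𝒪) ^ k) ≠ 0 := pow_ne_zero _ (Nat.cast_ne_zero.2 hp.out.ne_zero)
  have hmem : (p : 𝒪) ^ k • m' ∈ eigenLattice N 𝒪 a := by
    rw [← hm']
    exact (eigenLattice N 𝒪 a).sub_mem (rhoM_mem N p 𝒪 a ρP hcomm σ v.2) v.2
  have hm'mem : m' ∈ eigenLattice N 𝒪 a := mem_eigenLattice_of_smul_mem N 𝒪 a hp0 hmem
  have heq : rhoLattice N p 𝒪 a ρP hcomm σ v - v =
      (p : 𝒪) ^ k • (⟨m', hm'mem⟩ : ↥(eigenLattice N 𝒪 a)) := by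
    apply Subtype.ext
    exact hm'
  rw [heq]
  exact Submodule.smul_mem_smul (Ideal.pow_mem_pow hp𝒪 k) Submodule.mem_top

end Lattice

end Fermat.Agent.GR
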