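/-
STAGE (I), package BETTI, lead — part 1: for a finitely generated group `Γ` and a set `Par ⊆ Γ`, the
groups `killHoms Par A = {ψ : Γ → A additive | ψ kills Par}`.  `L := killHoms Par ℤ` is a free
`ℤ`-module of finite rank, and for every torsion-free abelian group `A` the natural map
`L ⊗[ℤ] A → killHoms Par A`, `ψ ⊗ a ↦ (γ ↦ ψ γ • a)`, is bijective.
-/
import Mathlib

set_option autoImplicit false
set_option linter.unusedSectionVars false
set_option linter.unusedVariables false
set_option linter.style.haveILetI false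

namespace Fermat.Agent.GR

open TensorProduct

variable {Γ : Type*} [Group Γ] (Par : Set Γ)

/-- additive maps `Γ → A` killing `Par` -/
def killHoms (A : Type*) [AddCommGroup A] : AddSubgroup (Additive Γ →+ A) where
  carrier := {ψ | ∀ γ ∈ Par, ψ (Additive.ofMul γ) = 0}
  zero_mem' := fun _ _ => rfl
  add_mem' := by
    intro φ ψ hφ hψ γ hγ
    show φ (Additive.ofMul γ) + ψ (Additive.ofMul γ) = 0
    rw [hφ γ hγ, hψ γ hγ, add_zero]
  neg_mem' := by
    intro φ hφ γ hγ
    show -φ (Additive.ofMul γ) = 0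
    rw [hφ γ hγ, neg_zero]

theorem mem_killHoms {A : Type*} [AddCommGroup A] {ψ : Additive Γ →+ A} :
    ψ ∈ killHoms Par A ↔ ∀ γ ∈ Par, ψ (Additive.ofMul γ) = 0 := Iff.rfl

section Eval

variable {A : Type*} [AddCommGroup A]

/-- the subgroup of `Γ` on which two additive maps agree -/
def eqLocus (φ ψ : Additive Γ →+ A) : Subgroup Γ where
  carrier := {γ | φ (Additive.ofMul γ) = ψ (Additive.ofMul γ)}
  one_mem' := by
    show φ (Additive.ofMul 1) = ψ (Additive.ofMul 1)
    rw [ofMul_one, map_zero, map_zero]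
  mul_mem' := by
    intro a b ha hb
    show φ (Additive.ofMul (a * b)) = ψ (Additive.ofMul (a * b))
    rw [ofMul_mul, map_add, map_add, ha, hb]
  inv_mem' := by
    intro a ha
    show φ (Additive.ofMul a⁻¹) = ψ (Additive.ofMul a⁻¹)
    rw [ofMul_inv, map_neg, map_neg, ha]

/-- evaluation at a family of elements -/
def evalAt {ι : Type*} (g : ι → Γ) : (Additive Γ →+ A) →+ (ι → A) where
  toFun ψ i := ψ (Additive.ofMul (g i))
  map_zero' := rfl
  map_add' _ _ := rfl

@[simp] theorem evalAt_apply {ι : Type*} (g : ι → Γ) (ψ : Additive Γ →+ A) (i : ι) :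
    evalAt g ψ i = ψ (Additive.ofMul (g i)) := rfl

theorem evalAt_injective {ι : Type*} (g : ι → Γ) (hg : Subgroup.closure (Set.range g) = ⊤) :
    Function.Injective (evalAt (A := A) g) := by
  intro φ ψ h
  have h1 : Subgroup.closure (Set.range g) ≤ eqLocus φ ψ := by
    rw [Subgroup.closure_le]
    rintro _ ⟨i, rfl⟩
    exact congrFun h i
  rw [hg] at h1
  ext γ
  exact h1 (Subgroup.mem_top (Additive.toMul γ))

end Eval

section Lattice

/-- evaluation as a `ℤ`-linear map on `killHoms Par A` -/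
def evalLin (A : Type*) [AddCommGroup A] {ι : Type*} (g : ι → Γ) :
    ↥(killHoms Par A) →ₗ[ℤ] (ι → A) :=
  ((evalAt (A := A) g).comp (killHoms Par A).subtype).toIntLinearMap

@[simp] theorem evalLin_apply (A : Type*) [AddCommGroup A] {ι : Type*} (g : ι → Γ)
    (ψ : ↥(killHoms Par A)) (i : ι) :
    evalLin Par A g ψ i = (ψ : Additive Γ →+ A) (Additive.ofMul (g i)) := rfl

theorem evalLin_injective (A : Type*) [AddCommGroup A] {ι : Type*} (g : ι → Γ)
    (hg : Subgroup.closure (Set.range g) = ⊤) : Function.Injective (evalLin Par A g) := by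
  intro φ ψ h
  exact Subtype.ext (evalAt_injective g hg h)

variable [hΓ : Group.FG Γ]

/-- a finite generating family -/
theorem exists_fintype_generators :
    ∃ (n : ℕ) (g : Fin n → Γ), Subgroup.closure (Set.range g) = ⊤ := by
  obtain ⟨S, hS⟩ := Group.fg_def.1 hΓ
  classical
  refine ⟨S.card, fun i => (S.equivFin.symm i : Γ), ?_⟩
  rw [← hS]
  congr 1
  ext x
  constructor
  · rintro ⟨i, rfl⟩
    exact (S.equivFin.symm i).2
  · intro hx
    exact ⟨S.equivFin ⟨x, hx⟩, by simp⟩

instance killHoms_int_finite : Module.Finite ℤ ↥(killHoms Par ℤ) := by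
  obtain ⟨n, g, hg⟩ := exists_fintype_generators (Γ := Γ)
  exact Module.Finite.of_injective (evalLin Par ℤ g) (evalLin_injective Par ℤ g hg)

instance killHoms_isTorsionFree (A : Type*) [AddCommGroup A] [IsAddTorsionFree A] :
    Module.IsTorsionFree ℤ ↥(killHoms Par A) := by
  obtain ⟨n, g, hg⟩ := exists_fintype_generators (Γ := Γ)
  exact Function.Injective.moduleIsTorsionFree (evalLin Par A g) (evalLin_injective Par A g hg)
    (fun r m => map_smul _ r m)

instance killHoms_int_free : Module.Free ℤ ↥(killHoms Par ℤ) :=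
  Module.free_of_finite_type_torsion_free'

end Lattice

section Theta

variable (A : Type*) [AddCommGroup A]

/-- `ψ, a ↦ (γ ↦ ψ γ • a)` -/
def smulHom (ψ : Additive Γ →+ ℤ) (a : A) : Additive Γ →+ A where
  toFun γ := ψ γ • a
  map_zero' := by rw [map_zero, zero_smul]
  map_add' x y := by rw [map_add, add_smul]

@[simp] theorem smulHom_apply (ψ : Additive Γ →+ ℤ) (a : A) (γ : Additive Γ) :
    smulHom A ψ a γ = ψ γ • a := rfl

theorem smulHom_mem {ψ : Additive Γ →+ ℤ} (hψ : ψ ∈ killHoms Par ℤ) (a : A) :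
    smulHom A ψ a ∈ killHoms Par A := by
  intro γ hγ
  rw [smulHom_apply, hψ γ hγ, zero_smul]

/-- the natural map `killHoms Par ℤ ⊗ A → killHoms Par A` -/
def thetaLin : ↥(killHoms Par ℤ) ⊗[ℤ] A →ₗ[ℤ] ↥(killHoms Par A) :=
  TensorProduct.lift
    (LinearMap.mk₂ ℤ (fun (ψ : ↥(killHoms Par ℤ)) (a : A) =>
        (⟨smulHom A ψ.1 a, smulHom_mem Par A ψ.2 a⟩ : ↥(killHoms Par A)))
      (by
        intro ψ ψ' a; apply Subtype.ext; ext γ
        show (ψ.1 γ + ψ'.1 γ) • a = ψ.1 γ • a + ψ'.1 γ • a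
        exact add_smul _ _ _)
      (by
        intro c ψ a; apply Subtype.ext; ext γ
        show (c • ψ.1 γ) • a = c • (ψ.1 γ • a)
        exact smul_assoc _ _ _)
      (by
        intro ψ a a'; apply Subtype.ext; ext γ
        show ψ.1 γ • (a + a') = ψ.1 γ • a + ψ.1 γ • a'
        exact smul_add _ _ _)
      (by
        intro c ψ a; apply Subtype.ext; ext γ
        show ψ.1 γ • (c • a) = c • (ψ.1 γ • a)
        exact smul_comm _ _ _))

@[simp] theorem thetaLin_tmul (ψ : ↥(killHoms Par ℤ)) (a : A) (γ : Additive Γ) :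
    ((thetaLin Par A (ψ ⊗ₜ a) : ↥(killHoms Par A)) : Additive Γ →+ A) γ =
      (ψ : Additive Γ →+ ℤ) γ • a := by
  rfl

section Bijective

variable [hΓ : Group.FG Γ] [IsAddTorsionFree A]

theorem thetaLin_surjective : Function.Surjective (thetaLin Par A) := by
  classical
  intro ψ
  obtain ⟨n, g, hg⟩ := exists_fintype_generators (Γ := Γ)
  -- the finitely generated subgroup containing all values
  set A₀ : Submodule ℤ A := Submodule.span ℤ (Set.range fun i => ψ.1 (Additive.ofMul (g i)))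
    with hA₀
  have hval : ∀ γ : Additive Γ, ψ.1 γ ∈ A₀ := by
    let H : Subgroup Γ :=
      { carrier := {γ | ψ.1 (Additive.ofMul γ) ∈ A₀}
        one_mem' := by
          show ψ.1 (Additive.ofMul 1) ∈ A₀
          rw [ofMul_one, map_zero]; exact A₀.zero_mem
        mul_mem' := by
          intro a b ha hb
          show ψ.1 (Additive.ofMul (a * b)) ∈ A₀
          rw [ofMul_mul, map_add]; exact A₀.add_mem ha hb
        inv_mem' := by
          intro a ha
          show ψ.1 (Additive.ofMul a⁻¹) ∈ A₀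
          rw [ofMul_inv, map_neg]; exact A₀.neg_mem ha }
    have h1 : Subgroup.closure (Set.range g) ≤ H := by
      rw [Subgroup.closure_le]
      rintro _ ⟨i, rfl⟩
      exact Submodule.subset_span ⟨i, rfl⟩
    rw [hg] at h1
    intro γ
    exact h1 (Subgroup.mem_top (Additive.toMul γ))
  haveI : Module.Finite ℤ A₀ := Module.Finite.span_of_finite ℤ (Set.finite_range _)
  haveI : Module.Free ℤ A₀ := Module.free_of_finite_type_torsion_free'
  let b := Module.Free.chooseBasis ℤ A₀
  -- the corestriction of `ψ`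
  let ψ₀ : Additive Γ →+ A₀ :=
    { toFun := fun γ => ⟨ψ.1 γ, hval γ⟩
      map_zero' := Subtype.ext (map_zero ψ.1)
      map_add' := fun x y => Subtype.ext (map_add ψ.1 x y) }
  -- coordinates
  let coord : Module.Free.ChooseBasisIndex ℤ A₀ → (Additive Γ →+ ℤ) := fun j =>
    ((Finsupp.lapply j).comp b.repr.toLinearMap).toAddMonoidHom.comp ψ₀
  have hcoord : ∀ j, coord j ∈ killHoms Par ℤ := by
    intro j γ hγ
    have h0 : ψ₀ (Additive.ofMul γ) = 0 := Subtype.ext (ψ.2 γ hγ)
    show (Finsupp.lapply j).comp b.repr.toLinearMap (ψ₀ (Additive.ofMul γ)) = 0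
    rw [h0, map_zero]
  refine ⟨∑ j, (⟨coord j, hcoord j⟩ : ↥(killHoms Par ℤ)) ⊗ₜ[ℤ] ((b j : A₀) : A), ?_⟩
  apply Subtype.ext
  refine AddMonoidHom.ext fun γ => ?_
  rw [map_sum]
  have h1 : ((∑ j, thetaLin Par A ((⟨coord j, hcoord j⟩ : ↥(killHoms Par ℤ)) ⊗ₜ[ℤ]
      ((b j : A₀) : A)) : ↥(killHoms Par A)) : Additive Γ →+ A) γ =
      ∑ j, (coord j γ) • ((b j : A₀) : A) := by
    rw [AddSubgroup.val_finsetSum, AddMonoidHom.finsetSum_apply]
    refine Finset.sum_congr rfl fun j _ => ?_
    exact thetaLin_tmul Par A _ _ γ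
  rw [h1]
  have h2 := b.sum_repr (ψ₀ γ)
  have h3 := congrArg (fun x : A₀ => (x : A)) h2
  simp only [Submodule.coe_sum, Submodule.coe_smul] at h3
  exact h3

theorem thetaLin_injective : Function.Injective (thetaLin Par A) := by
  classical
  obtain ⟨n, g, hg⟩ := exists_fintype_generators (Γ := Γ)
  -- the comparison map into `Fin n → A`
  let e1 : ↥(killHoms Par ℤ) ⊗[ℤ] A →ₗ[ℤ] (Fin n → ℤ) ⊗[ℤ] A :=
    LinearMap.rTensor A (evalLin Par ℤ g)
  have he1 : Function.Injective e1 :=
    Module.Flat.rTensor_preserves_injective_linearMap _ (evalLin_injective Par ℤ g hg)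
  let e2 : (Fin n → ℤ) ⊗[ℤ] A ≃ₗ[ℤ] (Fin n → A) :=
    (TensorProduct.comm ℤ (Fin n → ℤ) A).trans (TensorProduct.piScalarRight ℤ ℤ A (Fin n))
  have hcomp : (evalLin Par A g).comp (thetaLin Par A) = e2.toLinearMap.comp e1 := by
    apply TensorProduct.ext'
    intro ψ a
    ext i
    show (ψ.1 (Additive.ofMul (g i))) • a =
      (TensorProduct.piScalarRight ℤ ℤ A (Fin n)) (a ⊗ₜ[ℤ] evalLin Par ℤ g ψ) i
    rw [TensorProduct.piScalarRight_apply, TensorProduct.piScalarRightHom_tmul]
    rfl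
  intro x y hxy
  apply he1
  apply e2.injective
  have := congrArg (evalLin Par A g) hxy
  have h1 := LinearMap.congr_fun hcomp x
  have h2 := LinearMap.congr_fun hcomp y
  simp only [LinearMap.comp_apply, LinearEquiv.coe_coe] at h1 h2
  rw [← h1, ← h2, this]

/-- **`killHoms Par ℤ ⊗ A ≃ killHoms Par A`** for torsion-free `A`. -/
noncomputable def thetaEquiv : ↥(killHoms Par ℤ) ⊗[ℤ] A ≃ₗ[ℤ] ↥(killHoms Par A) :=
  LinearEquiv.ofBijective (thetaLin Par A) ⟨thetaLin_injective Par A, thetaLin_surjective Par A⟩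

end Bijective

end Theta

end Fermat.Agent.GR
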