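/-
Stage (I), (conj) of TOP-0 (helper5), part 5: the literal `hconj` input of helper8's
`DescData.stageIData`.
-/
import Mathlib
import Fermat.Agent.GR.CONJ_helper5_Omega

set_option autoImplicit false

namespace Fermat.Agent.GR

open ModularCurve AlgebraicCurve ModularCurve.Period CongruenceSubgroup
open Fermat.Agent.X0N

variable {N : ℕ} [NeZero N] {n : ℕ} [NeZero n]

/-- **(conj) over `ℂ`**, in the shape consumed by the assembly of `StageIData`. -/
theorem kappa_eq_neg_charInvolution_of_eq_smul
    (y y' : ↥(Pic0.torsion ℂ ↥(laurentBaseChange ℂ (modularFunctionFieldFull N)) n))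
    (h : (y' : Pic0 ℂ ↥(laurentBaseChange ℂ (modularFunctionFieldFull N))) =
      complexConjAlgEquiv • (y : Pic0 ℂ ↥(laurentBaseChange ℂ (modularFunctionFieldFull N)))) :
    kappa N n y' = -charInvolution N ℤ (ZMod n) (kappa N n y) := by
  have h1 : y' = arithmeticGalois (modularFunctionFieldFull N) complexConjAlgEquiv • y :=
    Subtype.ext h
  rw [h1]
  exact kappa_complexConjAlgEquiv_smul y

end Fermat.Agent.GR
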