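/-
Stage (I), glue between K2 (`kappa`, helper8), K5 (`bcPic0`, helper3) and K6 (helper4):
**`κ ∘ bc` on the torsion of `Pic⁰(F_k)`, `k ⊆ ℂ` algebraically closed.**

* `realNC_bcHom` : the realisation over `ℂ` of the base change of `f ∈ F_k` is `realN ι N f`;
* `kappa_eq_kummerChar_of_bcPic0` : `κ (bc [D])` is the Kummer character of any `n`-th root of
  (the realisation of) any `f ∈ F_k` with `div f = n D`;
* `exists_rep_of_mem_torsion` : existence of such `D`, `f`, `u` for every torsion class over `k`;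
* `kappa_bcPic0_heckeSwapOf` : **(hecke)** `κ (bc (T'_ℓ x)) = T^grp_ℓ (κ (bc x))`, every prime `ℓ`.
-/
import Mathlib
import Fermat.Agent.GR.KHECKE_helper4_Main
import Fermat.Agent.GR.DESC_helper3_Main

set_option autoImplicit false
set_option linter.style.haveILetI false
set_option linter.unusedSectionVars false

open UpperHalfPlane hiding I
open Complex ModularGroup ModularCurve CongruenceSubgroup AlgebraicCurve ModularForm
open scoped MatrixGroups

namespace Fermat.Agent.GR

open Fermat.Agent.X0N Fermat.Agent.JA Fermat.Agent.FF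

section Bridge

variable {k : Type*} [Field k] [Algebra ℚ k] [Algebra k ℂ] [IsScalarTower ℚ k ℂ]
  (N : ℕ) [NeZero N]

/-- **(bridge)** the realisation over `ℂ` of the base change of `f ∈ F_k` is the realisation of
`f` along `k → ℂ`. -/
theorem realNC_bcHom (f : ↥(laurentBaseChange k (modularFunctionFieldFull N))) :
    realNC N (bcHom (L := ℂ) (modularFunctionFieldFull N) f) = realN (algebraMap k ℂ) N f := by
  rw [realNC_apply]
  show realN (algebraMap ℂ ℂ) N _ = _
  rw [realN_eq_realI, realN_eq_realI]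
  congr 1

end Bridge

section Rep

variable {k : Type*} [Field k] [Algebra ℚ k] [IsAlgClosed k] [Algebra k ℂ] [IsScalarTower ℚ k ℂ]
  {N n : ℕ} [NeZero N] [NeZero n]
  (cK : Coord k ↥(laurentBaseChange k (modularFunctionFieldFull N)))
  (cL : Coord ℂ ↥(laurentBaseChange ℂ (modularFunctionFieldFull N)))

/-- **(rep)** `κ` of the base change of the class of a `k`-divisor `D` with `n D = div f` is the
Kummer character of any `n`-th root of the realisation of `f`. -/
theorem kappa_eq_kummerChar_of_bcPic0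
    (y : ↥(Pic0.torsion ℂ ↥(laurentBaseChange ℂ (modularFunctionFieldFull N)) n))
    (D : ↥(Divisor.degZero (K := k)
      (F := ↥(laurentBaseChange k (modularFunctionFieldFull N)))))
    (hy : (y : Pic0 ℂ ↥(laurentBaseChange ℂ (modularFunctionFieldFull N)))
      = bcPic0 (modularFunctionFieldFull N) cK cL (Pic0.mk D))
    {f : ↥(laurentBaseChange k (modularFunctionFieldFull N))} (hf : f ≠ 0)
    (hfD : ∀ v : Place k ↥(laurentBaseChange k (modularFunctionFieldFull N)),
      (n : ℤ) * (D : Divisor k _) v = v.ord f)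
    {u : MerH} (hu : u ^ n = realN (algebraMap k ℂ) N f) :
    kappa N n y = kummerChar (Gamma0 N) n u := by
  refine kappa_eq_kummerChar y
    ⟨bcConorm (L := ℂ) (modularFunctionFieldFull N) cK (D : Divisor k _),
      bcConorm_mem_degZero (modularFunctionFieldFull N) cK cL D.2⟩ ?_ ?_
  · rw [hy, bcPic0_mk]
  · exact ⟨bcHom (L := ℂ) (modularFunctionFieldFull N) f, (map_ne_zero _).mpr hf,
      fun v => bcConorm_apply_of_ord (L := ℂ) (modularFunctionFieldFull N) cK _ f hfD v,
      by rw [realNC_bcHom]; exact hu⟩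

/-- a divisor whose class is `n`-torsion is `n`-divisible up to a principal divisor (any base
field). -/
theorem exists_fun_of_mk_mem_torsion_of_field
    (D : ↥(Divisor.degZero (K := k)
      (F := ↥(laurentBaseChange k (modularFunctionFieldFull N)))))
    (hD : Pic0.mk D ∈ Pic0.torsion k ↥(laurentBaseChange k (modularFunctionFieldFull N)) n) :
    ∃ f : ↥(laurentBaseChange k (modularFunctionFieldFull N)), f ≠ 0 ∧
      ∀ v : Place k ↥(laurentBaseChange k (modularFunctionFieldFull N)),
        (n : ℤ) * (D : Divisor k _) v = v.ord f := by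
  rw [Pic0.mem_torsion] at hD
  have h1 : Pic0.mk ((n : ℤ) • D) = 0 := hD
  have h2 : ((n : ℤ) • D) ∈ (Divisor.principal (K := k)
      (F := ↥(laurentBaseChange k (modularFunctionFieldFull N)))).addSubgroupOf
        Divisor.degZero := (QuotientAddGroup.eq_zero_iff _).mp h1
  rw [AddSubgroup.mem_addSubgroupOf] at h2
  obtain ⟨f, hf, hfD⟩ := h2
  refine ⟨f, hf, fun v => ?_⟩
  rw [← hfD v]
  simp

include cK cL in
/-- **existence of representatives with roots** for torsion classes over `k`. -/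
theorem exists_rep_of_mem_torsion
    (x : Pic0 k ↥(laurentBaseChange k (modularFunctionFieldFull N)))
    (hx : x ∈ Pic0.torsion k ↥(laurentBaseChange k (modularFunctionFieldFull N)) n) :
    ∃ (D : ↥(Divisor.degZero (K := k)
        (F := ↥(laurentBaseChange k (modularFunctionFieldFull N)))))
      (f : ↥(laurentBaseChange k (modularFunctionFieldFull N))) (u : MerH),
      Pic0.mk D = x ∧ f ≠ 0 ∧
      (∀ v : Place k ↥(laurentBaseChange k (modularFunctionFieldFull N)),
        (n : ℤ) * (D : Divisor k _) v = v.ord f) ∧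
      u ^ n = realN (algebraMap k ℂ) N f := by
  obtain ⟨D, rfl⟩ := Pic0.mk_surjective x
  obtain ⟨f, hf, hfD⟩ := exists_fun_of_mk_mem_torsion_of_field D hx
  have hf' : bcHom (L := ℂ) (modularFunctionFieldFull N) f ≠ 0 := (map_ne_zero _).mpr hf
  have hdiv : ∀ τ : ℍ, (n : ℤ) ∣ MerH.ordAt τ
      (realNC N (bcHom (L := ℂ) (modularFunctionFieldFull N) f)) := by
    intro τ
    exact char_dvd_ordAt_realN (RingHom.id ℂ) N τ (jFun τ) rfl (n : ℤ) hf'
      (fun v => ⟨bcConorm (L := ℂ) (modularFunctionFieldFull N) cK (D : Divisor k _) v,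
        (bcConorm_apply_of_ord (L := ℂ) (modularFunctionFieldFull N) cK _ f hfD v).symm⟩)
  obtain ⟨u, hu⟩ := exists_root_merH n (NeZero.ne n)
    (realNC N (bcHom (L := ℂ) (modularFunctionFieldFull N) f)) (realNC_ne_zero hf') hdiv
  exact ⟨D, f, u, rfl, hf, hfD, by rw [hu, realNC_bcHom]⟩

end Rep

section Hecke

variable {k : Type*} [Field k] [Algebra ℚ k] [CharZero k] [IsAlgClosed k] [Algebra k ℂ]
  [IsScalarTower ℚ k ℂ] {N n : ℕ} [NeZero N] [NeZero n]
  (cK : Coord k ↥(laurentBaseChange k (modularFunctionFieldFull N)))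
  (cL : Coord ℂ ↥(laurentBaseChange ℂ (modularFunctionFieldFull N)))

/-- **(hecke) for `κ ∘ bc`**: `κ (bc (T'_ℓ x)) = T^grp_ℓ (κ (bc x))` for every `n`-torsion class `x`
over `k` and every prime `ℓ`. -/
theorem kappa_bcPic0_heckeSwapOf (ℓ : Nat.Primes)
    (c : Coord k ↥(laurentBaseChange k (modularFunctionFieldFull N)))
    (c' : Coord k ↥(laurentBaseChange k (modularFunctionFieldFull (N * ℓ))))
    (x : Pic0 k ↥(laurentBaseChange k (modularFunctionFieldFull N)))
    (hx : x ∈ Pic0.torsion k ↥(laurentBaseChange k (modularFunctionFieldFull N)) n)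
    (y y' : ↥(Pic0.torsion ℂ ↥(laurentBaseChange ℂ (modularFunctionFieldFull N)) n))
    (hy : (y : Pic0 ℂ ↥(laurentBaseChange ℂ (modularFunctionFieldFull N)))
      = bcPic0 (modularFunctionFieldFull N) cK cL x)
    (hy' : haveI : NeZero (ℓ : ℕ) := ⟨ℓ.2.ne_zero⟩
      (y' : Pic0 ℂ ↥(laurentBaseChange ℂ (modularFunctionFieldFull N)))
        = bcPic0 (modularFunctionFieldFull N) cK cL (heckeSwapOf k N ℓ c c' x)) :
    kappa N n y' = heckeGrpP N ℓ (ZMod n) (kappa N n y) := by
  haveI : NeZero (ℓ : ℕ) := ⟨ℓ.2.ne_zero⟩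
  obtain ⟨D, f, u, rfl, hf, hfD, hu⟩ := exists_rep_of_mem_torsion cK cL x hx
  have hfin : FiniteAlong k (heckeBetaBar k N ℓ) := finiteAlong_of_coord c c' _
  have hg : normAlong (heckeBetaBar k N ℓ) (heckeAlphaBar k N ℓ f) ≠ 0 :=
    normAlong_ne_zero _ hfin ((map_ne_zero _).mpr hf)
  have h1 : kappa N n y = kummerChar (Gamma0 N) n u :=
    kappa_eq_kummerChar_of_bcPic0 cK cL y D hy hf hfD hu
  set D' : ↥(Divisor.degZero (K := k)
      (F := ↥(laurentBaseChange k (modularFunctionFieldFull N)))) :=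
    ⟨heckeSwapDivOf k N ℓ c c' (D : Divisor k _), heckeSwapDivOf_mem_degZero k N ℓ c c' D.2⟩
    with hD'
  have hy'' : (y' : Pic0 ℂ ↥(laurentBaseChange ℂ (modularFunctionFieldFull N)))
      = bcPic0 (modularFunctionFieldFull N) cK cL (Pic0.mk D') := by
    rw [hy', heckeSwapOf_mk]
  have h3 : heckeProdP N ℓ u ^ n = realN (algebraMap k ℂ) N
      (normAlong (heckeBetaBar k N ℓ) (heckeAlphaBar k N ℓ f)) := heckeProdP_pow_eq N ℓ hu
  have h4 : ∀ v : Place k ↥(laurentBaseChange k (modularFunctionFieldFull N)),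
      (n : ℤ) * (D' : Divisor k _) v
        = v.ord (normAlong (heckeBetaBar k N ℓ) (heckeAlphaBar k N ℓ f)) :=
    fun v => heckeSwapDivOf_nsmul_apply_of_ord k N ℓ c c' hf hfD v
  have h2 : kappa N n y' = kummerChar (Gamma0 N) n (heckeProdP N ℓ u) :=
    kappa_eq_kummerChar_of_bcPic0 cK cL y' D' hy'' hg h4 h3
  rw [h1, h2]
  exact kummerChar_heckeProdP N ℓ (isKummerElt_of_pow_eq_realN N hf hu)

end Hecke

end Fermat.Agent.GR
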