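/-
STAGE (I), package LATTICE, lead — part C: non-scalarity of complex conjugation on the eigenlattice
and the packaging as a `GaloisRepAdic 𝒪`.
-/
import Fermat.Agent.GR.LATTICE_lead_Gal

set_option autoImplicit false
set_option linter.unusedSectionVars false
set_option linter.unusedVariables false
set_option linter.style.haveILetI false

namespace Fermat.Agent.GR

open CongruenceSubgroup ModularCurve.Period TensorProduct

open scoped MatrixGroups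

section NonScalar

variable (N : ℕ) [NeZero N] (p : ℕ) [hp : Fact p.Prime]
  (𝒪 : Type) [CommRing 𝒪] [IsDomain 𝒪] [IsDiscreteValuationRing 𝒪] [CharZero 𝒪]
  [Algebra ℤ_[p] 𝒪] (a : Nat.Primes → 𝒪)
  (K : Type*) [Field K] [Algebra 𝒪 K] [IsFractionRing 𝒪 K]
  {G : Type*} [Group G]
  (ρP : G →* Module.End ℤ_[p] ↥(parabolicHoms ℤ_[p] (Gamma0 N) ℤ_[p]))
  (hcomm : ∀ (σ : G) (ℓ : Nat.Primes),
    ρP σ * heckeParP N ℓ ℤ_[p] ℤ_[p] = heckeParP N ℓ ℤ_[p] ℤ_[p] * ρP σ)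

/-- a nonzero element of the lattice on which `ι` acts by the sign `ε`, from such an element of
`eigenPar N K a` -/
theorem exists_lattice_eigen_of_exists (ε : 𝒪)
    (h : ∃ e : Additive (Gamma0 N) →+ K, e ∈ eigenPar N K (mapSys 𝒪 K a) ∧ e ≠ 0 ∧
      charInvolution N K K e = algebraMap 𝒪 K ε • e) :
    ∃ m : ↥(eigenLattice N 𝒪 a), m ≠ 0 ∧ charInvPar N 𝒪 m.1 = ε • m.1 := by
  obtain ⟨e, he, he0, hι⟩ := h
  obtain ⟨ψ, s, hs0, hs⟩ := eigenParLoc_surj N 𝒪 K a ⟨e, he⟩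
  have hinj := IsFractionRing.injective 𝒪 K
  have hs' : ∀ γ, algebraMap 𝒪 K (ψ.1 γ) = algebraMap 𝒪 K s * e γ := by
    intro γ
    have := DFunLike.congr_fun (congrArg Subtype.val hs) γ
    have h2 : s • e γ = algebraMap 𝒪 K (ψ.1 γ) := this
    rw [← h2, Algebra.smul_def]
  refine ⟨⟨⟨ψ.1, ψ.2.1⟩, ψ.2⟩, ?_, ?_⟩
  · intro h0
    apply he0
    refine AddMonoidHom.ext fun γ => ?_
    have h1 : ψ.1 γ = 0 := by
      have := congrArg (fun m : ↥(eigenLattice N 𝒪 a) => m.1.1 γ) h0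
      exact this
    have h2 := hs' γ
    rw [h1, map_zero] at h2
    have hs1 : algebraMap 𝒪 K s ≠ 0 := by
      intro hh
      exact hs0 (hinj (by rw [hh, map_zero]))
    exact (mul_eq_zero.1 h2.symm).resolve_left hs1
  · apply Subtype.ext
    refine AddMonoidHom.ext fun γ => ?_
    show ψ.1 (Additive.ofMul (jConjGamma0 N (Additive.toMul γ))) = ε * ψ.1 γ
    apply hinj
    have h3 := DFunLike.congr_fun hι γ
    have h4 : e (Additive.ofMul (jConjGamma0 N (Additive.toMul γ))) = algebraMap 𝒪 K ε * e γ := h3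
    rw [hs', h4, map_mul, hs' γ]
    ring

theorem rhoLattice_not_isScalarEnd {c : G} (hc : ρP c + charInvPar N ℤ_[p] = 0)
    (hplus : ∃ e : Additive (Gamma0 N) →+ K, e ∈ eigenPar N K (mapSys 𝒪 K a) ∧ e ≠ 0 ∧
      charInvolution N K K e = e)
    (hminus : ∃ e : Additive (Gamma0 N) →+ K, e ∈ eigenPar N K (mapSys 𝒪 K a) ∧ e ≠ 0 ∧
      charInvolution N K K e = -e) :
    ¬ IsScalarEnd (rhoLattice N p 𝒪 a ρP hcomm c) := by
  rintro ⟨s, hs⟩
  have hcM : rhoM N p 𝒪 ρP c + charInvPar N 𝒪 = 0 := by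
    have h1 := congrArg (parExt ℤ_[p] 𝒪 (Gamma0 N)) hc
    rw [map_add, map_zero, parExt_charInvPar] at h1
    exact h1
  have key : ∀ (ε : 𝒪) (m : ↥(eigenLattice N 𝒪 a)), m ≠ 0 → charInvPar N 𝒪 m.1 = ε • m.1 →
      s + ε = 0 := by
    intro ε m hm0 hm
    have h1 := LinearMap.congr_fun hs m
    have h2 : (rhoLattice N p 𝒪 a ρP hcomm c m).1 = s • m.1 := by
      rw [h1]; rfl
    rw [coe_rhoLattice] at h2
    have h3 := LinearMap.congr_fun hcM m.1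
    rw [LinearMap.add_apply, h2, hm, LinearMap.zero_apply, ← add_smul] at h3
    have hm1 : m.1 ≠ 0 := fun h => hm0 (Subtype.ext h)
    by_contra hne
    apply hm1
    apply Subtype.ext
    refine AddMonoidHom.ext fun γ => ?_
    have h4 := DFunLike.congr_fun (congrArg Subtype.val h3) γ
    have h5 : (s + ε) * m.1.1 γ = 0 := h4
    exact (mul_eq_zero.1 h5).resolve_left hne
  obtain ⟨m1, hm1, hι1⟩ := exists_lattice_eigen_of_exists N 𝒪 a K 1 (by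
    obtain ⟨e, he, he0, hι⟩ := hplus
    exact ⟨e, he, he0, by rw [map_one, one_smul]; exact hι⟩)
  obtain ⟨m2, hm2, hι2⟩ := exists_lattice_eigen_of_exists N 𝒪 a K (-1) (by
    obtain ⟨e, he, he0, hι⟩ := hminus
    exact ⟨e, he, he0, by rw [map_neg, map_one, neg_smul, one_smul]; exact hι⟩)
  have k1 := key 1 m1 hm1 hι1
  have k2 := key (-1) m2 hm2 hι2
  have h2 : (2 : 𝒪) = 0 := by
    have : (2 : 𝒪) = (s + 1) - (s + -1) := by ring
    rw [this, k1, k2, sub_zero]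
  exact two_ne_zero h2

end NonScalar

section Package

variable (N : ℕ) [NeZero N] (p : ℕ) [hp : Fact p.Prime]
  (𝒪 : Type) [CommRing 𝒪] [IsDomain 𝒪] [IsDiscreteValuationRing 𝒪] [CharZero 𝒪]
  [Algebra ℤ_[p] 𝒪] (a : Nat.Primes → 𝒪)
  (K : Type*) [Field K] [Algebra 𝒪 K] [IsFractionRing 𝒪 K]
  (ρP : (AlgebraicClosure ℚ ≃ₐ[ℚ] AlgebraicClosure ℚ) →*
    Module.End ℤ_[p] ↥(parabolicHoms ℤ_[p] (Gamma0 N) ℤ_[p]))
  (hcomm : ∀ (σ : AlgebraicClosure ℚ ≃ₐ[ℚ] AlgebraicClosure ℚ) (ℓ : Nat.Primes),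
    ρP σ * heckeParP N ℓ ℤ_[p] ℤ_[p] = heckeParP N ℓ ℤ_[p] ℤ_[p] * ρP σ)
  (hp𝒪 : (p : 𝒪) ∈ IsLocalRing.maximalIdeal 𝒪)
  (hrank : Module.finrank K ↥(eigenPar N K (mapSys 𝒪 K a)) = 2)
  (hcont : ∀ k : ℕ, ∃ L : IntermediateField ℚ (AlgebraicClosure ℚ), FiniteDimensional ℚ L ∧
    ∀ σ : AlgebraicClosure ℚ ≃ₐ[ℚ] AlgebraicClosure ℚ, (∀ x ∈ L, σ x = x) →
      ∀ ψ : ↥(parabolicHoms ℤ_[p] (Gamma0 N) ℤ_[p]),
        ∃ ψ' : ↥(parabolicHoms ℤ_[p] (Gamma0 N) ℤ_[p]), ρP σ ψ - ψ = (p : ℤ_[p]) ^ k • ψ')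

/-- **the `𝒪`-adic Galois representation on the eigenlattice** -/
noncomputable def latticeRep : GaloisRepAdic 𝒪 where
  V := ↥(eigenLattice N 𝒪 a)
  finrank_eq := by rw [finrank_eigenLattice N 𝒪 a K, hrank]
  ρ := rhoLattice N p 𝒪 a ρP hcomm
  isAdicContinuous := by
    intro n
    obtain ⟨L, hL, h⟩ := hcont n
    exact ⟨L, hL, fun σ hσ v => rhoLattice_sub_mem N p 𝒪 a ρP hcomm hp𝒪 n (h σ hσ) v⟩

@[simp] theorem latticeRep_ρ :
    (latticeRep N p 𝒪 a K ρP hcomm hp𝒪 hrank hcont).ρ = rhoLattice N p 𝒪 a ρP hcomm := rfl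

end Package

end Fermat.Agent.GR
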