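import Mathlib
import Fermat.Prelude.Def_CuspForm_HeckeAlgebra

/-!
# (PET-2) a definite biadditive form for which the `T_ℓ` are self-adjoint makes the Hecke algebra
reduced

`heckeAlgebra N k S` (with `S ⊇ {q ∣ N}`) is generated over `ℤ` by the commuting operators `T_ℓ`,
`ℓ ∉ S`.  If `B` is a biadditive form on `S_k(Γ₀(N))` with `B f f = 0 → f = 0` and all these `T_ℓ`
self-adjoint, every element of the Hecke algebra is self-adjoint, and a self-adjoint `x` with
`x ^ 2 = 0` vanishes.
-/

set_option autoImplicit false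

open CongruenceSubgroup

namespace Fermat.Agent.GR

section Abstract

variable {V : Type*} [AddCommGroup V] {C : Type*} [AddCommGroup C]
  (B : V → V → C)
  (hadd₁ : ∀ f g h, B (f + g) h = B f h + B g h)
  (hadd₂ : ∀ f g h, B f (g + h) = B f g + B f h)

include hadd₁ in
theorem biadd_zsmul_left (n : ℤ) (f g : V) : B (n • f) g = n • B f g :=
  map_zsmul (AddMonoidHom.mk' (fun f => B f g) (fun a b => hadd₁ a b g)) n f

include hadd₂ in
theorem biadd_zsmul_right (n : ℤ) (f g : V) : B f (n • g) = n • B f g :=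
  map_zsmul (AddMonoidHom.mk' (fun g => B f g) (fun a b => hadd₂ f a b)) n g

include hadd₂ in
theorem biadd_zero_right (f : V) : B f 0 = 0 :=
  map_zero (AddMonoidHom.mk' (fun g => B f g) (fun a b => hadd₂ f a b))

end Abstract

section Hecke

variable (N : ℕ) [NeZero N] (k : ℤ) (S : Set ℕ)
  (hNS : ∀ q : ℕ, q.Prime → q ∣ N → q ∈ S)
  (B : CuspForm (Gamma0 N) k → CuspForm (Gamma0 N) k → ℂ)
  (hadd₁ : ∀ f g h, B (f + g) h = B f h + B g h)
  (hadd₂ : ∀ f g h, B f (g + h) = B f g + B f h)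
  (hsa : ∀ (ℓ : ℕ) (hℓ : ℓ.Prime) (hℓN : ¬ ℓ ∣ N), ℓ ∉ S →
    ∀ f g, B (CuspForm.heckeTLin k hℓ hℓN f) g = B f (CuspForm.heckeTLin k hℓ hℓN g))

include hNS hadd₁ hadd₂ hsa in
/-- every element of the Hecke algebra is self-adjoint. -/
theorem heckeAlgebra_selfAdjoint {x : Module.End ℂ (CuspForm (Gamma0 N) k)}
    (hx : x ∈ CuspForm.heckeAlgebra N k S) (f g : CuspForm (Gamma0 N) k) :
    B (x f) g = B f (x g) := by
  induction hx using Algebra.adjoin_induction generalizing f g with
  | mem x hx =>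
    rcases hx with ⟨ℓ, hℓ, hℓN, hℓS, rfl⟩ | ⟨q, hqN, hq, hqS, rfl⟩
    · exact hsa ℓ hℓ hℓN hℓS f g
    · exact absurd (hNS q hq hqN) hqS
  | algebraMap n =>
    have h1 : ∀ f : CuspForm (Gamma0 N) k,
        (algebraMap ℤ (Module.End ℂ (CuspForm (Gamma0 N) k)) n) f = n • f := by
      intro f
      rw [Algebra.algebraMap_eq_smul_one, LinearMap.smul_apply, Module.End.one_apply]
    rw [h1, h1, biadd_zsmul_left B hadd₁, biadd_zsmul_right B hadd₂]
  | add x y hx hy ihx ihy =>
    rw [LinearMap.add_apply, LinearMap.add_apply, hadd₁, hadd₂, ihx, ihy]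
  | mul x y hx hy ihx ihy =>
    have hcomm : x * y = y * x := by
      have := mul_comm (⟨x, hx⟩ : CuspForm.heckeAlgebra N k S) ⟨y, hy⟩
      exact congrArg Subtype.val this
    rw [Module.End.mul_apply, ihx, ihy, ← Module.End.mul_apply, ← hcomm]

variable (hdef : ∀ f, B f f = 0 → f = 0)

include hNS hadd₁ hadd₂ hsa hdef in
/-- **(PET-2)** the Hecke algebra away from `S ⊇ {q ∣ N}` is reduced as soon as there is a
definite biadditive form for which the `T_ℓ` (`ℓ ∉ S`) are self-adjoint. -/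
theorem isReduced_heckeAlgebra_of_selfAdjoint : IsReduced ↥(CuspForm.heckeAlgebra N k S) := by
  rw [isReduced_iff_pow_one_lt 2 one_lt_two]
  intro x hx
  apply Subtype.ext
  apply LinearMap.ext
  intro f
  have h2 : (x : Module.End ℂ (CuspForm (Gamma0 N) k)) * x = 0 := by
    have := congrArg Subtype.val hx
    simpa [pow_two] using this
  apply hdef
  rw [heckeAlgebra_selfAdjoint N k S hNS B hadd₁ hadd₂ hsa x.2, ← Module.End.mul_apply, h2,
    LinearMap.zero_apply, biadd_zero_right B hadd₂]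

end Hecke

end Fermat.Agent.GR
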