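import Mathlib

/-!
# (PET-B) a weight for `SL(2, ℤ)` acting on the upper half plane

`fdWeight : ℍ → ℝ≥0` is `1_𝒟 / m` where `𝒟` is the standard closed fundamental domain and
`m z = #{γ : SL(2, ℤ) | γ • z ∈ 𝒟}` (`1 ≤ m z < ∞`).  It is measurable, its translates under
`SL(2, ℤ)` sum to `1` at EVERY point, and it has finite hyperbolic mass.
-/

open UpperHalfPlane ModularGroup MeasureTheory Matrix
open scoped Modular MatrixGroups NNReal ENNReal

namespace Fermat.Agent.GR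

noncomputable section

/-! ### the action of one element is continuous / measurable -/

theorem continuous_sl2z_smul (γ : SL(2, ℤ)) : Continuous (fun z : ℍ => γ • z) :=
  continuous_const_smul (γ : GL (Fin 2) ℝ)

theorem measurable_sl2z_smul (γ : SL(2, ℤ)) : Measurable (fun z : ℍ => γ • z) :=
  (continuous_sl2z_smul γ).measurable

/-! ### finiteness of `{γ | γ • z ∈ 𝒟}` -/

theorem finite_setOf_smul_mem_fd_of_mem_fd {z : ℍ} (hz : z ∈ 𝒟) :
    {g : SL(2, ℤ) | g • z ∈ 𝒟}.Finite := by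
  refine Set.Finite.subset (Set.toFinite ({1, -1, T, -T, T⁻¹, -T⁻¹, S, -S, T * S, -(T * S),
    T⁻¹ * S * T⁻¹, -(T⁻¹ * S * T⁻¹), S * T⁻¹, -(S * T⁻¹), S * T, -(S * T), T * S * T,
    -(T * S * T), T⁻¹ * S, -(T⁻¹ * S)} : Set SL(2, ℤ))) ?_
  intro g hg
  have h := cases_of_mem_fd_smul_mem_fd hz hg
  simp only [Set.mem_insert_iff, Set.mem_singleton_iff]
  tauto

theorem finite_setOf_smul_mem_fd (z : ℍ) : {g : SL(2, ℤ) | g • z ∈ 𝒟}.Finite := by
  obtain ⟨g₀, hg₀⟩ := exists_smul_mem_fd z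
  have h := finite_setOf_smul_mem_fd_of_mem_fd hg₀
  have h2 : {g : SL(2, ℤ) | g • z ∈ 𝒟} = (fun g => g * g₀⁻¹) ⁻¹' {g : SL(2, ℤ) | g • g₀ • z ∈ 𝒟} := by
    ext g
    show g • z ∈ 𝒟 ↔ (g * g₀⁻¹) • g₀ • z ∈ 𝒟
    rw [← mul_smul, inv_mul_cancel_right]
  rw [h2]
  exact h.preimage (fun a _ b _ hab => mul_right_cancel hab)

/-! ### the counting function -/

/-- `m z = #{γ : SL(2, ℤ) | γ • z ∈ 𝒟}` as an extended non-negative real. -/
def fdCount (z : ℍ) : ℝ≥0∞ :=
  ∑' γ : SL(2, ℤ), Set.indicator (𝒟 : Set ℍ) (fun _ => (1 : ℝ≥0∞)) (γ • z)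

theorem countable_sl2z : Countable SL(2, ℤ) :=
  Function.Injective.countable (f := fun g : SL(2, ℤ) => fun i j : Fin 2 => g.1 i j)
    (fun _ _ hab => Subtype.ext (Matrix.ext fun i j => congrFun (congrFun hab i) j))

theorem measurable_fdCount : Measurable fdCount := by
  have := countable_sl2z
  refine Measurable.tsum fun γ => ?_
  exact (measurable_const.indicator isClosed_fd.measurableSet).comp (measurable_sl2z_smul γ)

theorem fdCount_smul (γ : SL(2, ℤ)) (z : ℍ) : fdCount (γ • z) = fdCount z := by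
  unfold fdCount
  rw [← (Equiv.mulRight γ).tsum_eq
    (fun h : SL(2, ℤ) => Set.indicator (𝒟 : Set ℍ) (fun _ => (1 : ℝ≥0∞)) (h • z))]
  refine tsum_congr fun g => ?_
  show _ = Set.indicator (𝒟 : Set ℍ) (fun _ => (1 : ℝ≥0∞)) ((g * γ) • z)
  rw [mul_smul]

theorem one_le_fdCount (z : ℍ) : 1 ≤ fdCount z := by
  obtain ⟨g₀, hg₀⟩ := exists_smul_mem_fd z
  unfold fdCount
  refine le_trans ?_ (ENNReal.le_tsum g₀)
  rw [Set.indicator_of_mem hg₀]

theorem fdCount_ne_zero (z : ℍ) : fdCount z ≠ 0 :=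
  fun h => by simpa [h] using one_le_fdCount z

theorem fdCount_ne_top (z : ℍ) : fdCount z ≠ ⊤ := by
  unfold fdCount
  have hfin := finite_setOf_smul_mem_fd z
  rw [tsum_eq_sum (s := hfin.toFinset) (fun g hg => by
    have : g • z ∉ 𝒟 := fun h => hg (hfin.mem_toFinset.2 h)
    rw [Set.indicator_of_notMem this])]
  refine ENNReal.sum_ne_top.2 fun g _ => ?_
  by_cases h : g • z ∈ 𝒟
  · rw [Set.indicator_of_mem h]; exact ENNReal.one_ne_top
  · rw [Set.indicator_of_notMem h]; exact ENNReal.zero_ne_top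

/-! ### the weight -/

/-- The `ℝ≥0∞`-valued weight `1_𝒟 / m`. -/
def fdWeightE (z : ℍ) : ℝ≥0∞ :=
  Set.indicator (𝒟 : Set ℍ) (fun _ => (1 : ℝ≥0∞)) z / fdCount z

theorem measurable_fdWeightE : Measurable fdWeightE :=
  (measurable_const.indicator isClosed_fd.measurableSet).div measurable_fdCount

theorem fdWeightE_le_indicator (z : ℍ) :
    fdWeightE z ≤ Set.indicator (𝒟 : Set ℍ) (fun _ => (1 : ℝ≥0∞)) z := by
  unfold fdWeightE
  exact ENNReal.div_le_of_le_mul (le_mul_of_one_le_right zero_le (one_le_fdCount z))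

theorem fdWeightE_le_one (z : ℍ) : fdWeightE z ≤ 1 := by
  refine (fdWeightE_le_indicator z).trans ?_
  by_cases h : z ∈ 𝒟
  · simp [Set.indicator_of_mem h]
  · simp [Set.indicator_of_notMem h]

theorem fdWeightE_ne_top (z : ℍ) : fdWeightE z ≠ ⊤ :=
  ((fdWeightE_le_one z).trans_lt ENNReal.one_lt_top).ne

theorem tsum_fdWeightE_smul (z : ℍ) : ∑' γ : SL(2, ℤ), fdWeightE (γ • z) = 1 := by
  have h1 : ∀ γ : SL(2, ℤ), fdWeightE (γ • z) =
      Set.indicator (𝒟 : Set ℍ) (fun _ => (1 : ℝ≥0∞)) (γ • z) * (fdCount z)⁻¹ := by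
    intro γ
    unfold fdWeightE
    rw [fdCount_smul, div_eq_mul_inv]
  simp_rw [h1]
  rw [ENNReal.tsum_mul_right]
  exact ENNReal.mul_inv_cancel (fdCount_ne_zero z) (fdCount_ne_top z)

/-- **The weight for `SL(2, ℤ)`**: `1_𝒟 / m` with values in `ℝ≥0`. -/
def fdWeight (z : ℍ) : ℝ≥0 := (fdWeightE z).toNNReal

theorem coe_fdWeight (z : ℍ) : (fdWeight z : ℝ≥0∞) = fdWeightE z :=
  ENNReal.coe_toNNReal (fdWeightE_ne_top z)

theorem measurable_fdWeight : Measurable fdWeight :=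
  measurable_fdWeightE.ennreal_toNNReal

theorem tsum_fdWeight_smul (z : ℍ) : ∑' γ : SL(2, ℤ), (fdWeight (γ • z) : ℝ≥0∞) = 1 := by
  simp_rw [coe_fdWeight]
  exact tsum_fdWeightE_smul z

theorem fdWeight_le_one (z : ℍ) : fdWeight z ≤ 1 := by
  have := fdWeightE_le_one z
  rw [← coe_fdWeight] at this
  exact_mod_cast this

theorem fdWeight_eq_zero_of_notMem {z : ℍ} (hz : z ∉ 𝒟) : fdWeight z = 0 := by
  have h := fdWeightE_le_indicator z
  rw [Set.indicator_of_notMem hz, nonpos_iff_eq_zero] at h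
  simp [fdWeight, h]

theorem fdWeight_smul_ne_zero_finite (z : ℍ) : {γ : SL(2, ℤ) | fdWeight (γ • z) ≠ 0}.Finite :=
  (finite_setOf_smul_mem_fd z).subset fun γ hγ => by
    by_contra h
    exact hγ (fdWeight_eq_zero_of_notMem h)

end

end Fermat.Agent.GR
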