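import Mathlib

set_option autoImplicit false

namespace Fermat.Agent.GR

/-- `sigmaP p k` is the sum of the (positive) divisors of `k` which are prime to `p`
(literally: not divisible by `p`).  It is the `k`-th `q`-coefficient (`k ≥ 1`) of the weight two
Eisenstein series on `Γ₀(p)`. -/
def sigmaP (p k : ℕ) : ℕ := ∑ d ∈ k.divisors.filter (fun d => ¬ p ∣ d), d

theorem sigmaP_def (p k : ℕ) :
    sigmaP p k = ∑ d ∈ k.divisors.filter (fun d => ¬ p ∣ d), d := rfl

theorem sigmaP_eq_sum_ite (p k : ℕ) :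
    sigmaP p k = ∑ d ∈ k.divisors, if p ∣ d then 0 else d := by
  rw [sigmaP, Finset.sum_filter]
  refine Finset.sum_congr rfl fun d _ => ?_
  by_cases h : p ∣ d <;> simp [h]

theorem sigmaP_zero (p : ℕ) : sigmaP p 0 = 0 := by
  simp [sigmaP]

theorem sigmaP_one {p : ℕ} (hp : p.Prime) : sigmaP p 1 = 1 := by
  have : ¬ p ∣ 1 := fun h => hp.one_lt.ne' (Nat.dvd_one.1 h)
  simp [sigmaP, Finset.filter_singleton, this]

/-- The `U_p`-relation: `σ'(k p) = σ'(k)`. -/
theorem sigmaP_mul_self {p : ℕ} (hp : p.Prime) (k : ℕ) : sigmaP p (k * p) = sigmaP p k := by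
  rcases Nat.eq_zero_or_pos k with rfl | hk
  · simp
  unfold sigmaP
  refine Finset.sum_congr ?_ fun _ _ => rfl
  ext d
  simp only [Finset.mem_filter, Nat.mem_divisors]
  constructor
  · rintro ⟨⟨h1, _⟩, h2⟩
    have hcop : Nat.Coprime d p := ((Nat.Prime.coprime_iff_not_dvd hp).2 h2).symm
    exact ⟨⟨hcop.dvd_of_dvd_mul_right h1, hk.ne'⟩, h2⟩
  · rintro ⟨⟨h1, _⟩, h2⟩
    exact ⟨⟨Dvd.dvd.mul_right h1 p, Nat.mul_ne_zero hk.ne' hp.ne_zero⟩, h2⟩

/-- The `T_ℓ`-relation (`ℓ ≠ p` primes):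
`σ'(k ℓ) + [ℓ ∣ k] ℓ σ'(k / ℓ) = (1 + ℓ) σ'(k)`. -/
theorem sigmaP_mul_prime {p l : ℕ} (hp : p.Prime) (hl : l.Prime) (hlp : ¬ l ∣ p) (k : ℕ) :
    sigmaP p (k * l) + (if l ∣ k then l * sigmaP p (k / l) else 0) = (1 + l) * sigmaP p k := by
  rcases Nat.eq_zero_or_pos k with rfl | hk
  · simp [sigmaP_zero]
  have hpl : ∀ e : ℕ, p ∣ l * e ↔ p ∣ e := by
    intro e
    constructor
    · intro h
      rcases (Nat.Prime.dvd_mul hp).1 h with h | h
      · exact absurd ((Nat.prime_dvd_prime_iff_eq hp hl).1 h ▸ dvd_rfl) hlp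
      · exact h
    · intro h
      exact Dvd.dvd.mul_left h l
  set g : ℕ → ℕ := fun d => if p ∣ d then 0 else d with hg
  have hgl : ∀ e, g (l * e) = l * g e := by
    intro e
    simp only [hg, hpl e]
    split_ifs <;> simp
  simp only [sigmaP_eq_sum_ite]
  change ∑ d ∈ (k * l).divisors, g d + (if l ∣ k then l * ∑ d ∈ (k / l).divisors, g d else 0) =
    (1 + l) * ∑ d ∈ k.divisors, g d
  have hinj : Function.Injective (fun e : ℕ => l * e) :=
    fun a b h => Nat.eq_of_mul_eq_mul_left hl.pos h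
  have h1 : (k * l).divisors = k.divisors ∪ k.divisors.image (fun e => l * e) := by
    ext d
    simp only [Nat.mem_divisors, Finset.mem_union, Finset.mem_image]
    constructor
    · rintro ⟨h, _⟩
      by_cases hld : l ∣ d
      · obtain ⟨e, rfl⟩ := hld
        right
        refine ⟨e, ⟨?_, hk.ne'⟩, rfl⟩
        rw [mul_comm k l] at h
        exact Nat.dvd_of_mul_dvd_mul_left hl.pos h
      · left
        have hcop : Nat.Coprime d l := ((Nat.Prime.coprime_iff_not_dvd hl).2 hld).symm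
        exact ⟨hcop.dvd_of_dvd_mul_right h, hk.ne'⟩
    · rintro (⟨h, _⟩ | ⟨e, ⟨h, _⟩, rfl⟩)
      · exact ⟨Dvd.dvd.mul_right h l, Nat.mul_ne_zero hk.ne' hl.ne_zero⟩
      · rw [mul_comm k l]
        exact ⟨Nat.mul_dvd_mul_left l h, Nat.mul_ne_zero hl.ne_zero hk.ne'⟩
  have h2 : ∑ d ∈ k.divisors ∩ k.divisors.image (fun e => l * e), g d =
      if l ∣ k then l * ∑ d ∈ (k / l).divisors, g d else 0 := by
    split_ifs with hlk
    · have : k.divisors ∩ k.divisors.image (fun e => l * e) =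
          (k / l).divisors.image (fun e => l * e) := by
        ext d
        simp only [Nat.mem_divisors, Finset.mem_inter, Finset.mem_image]
        constructor
        · rintro ⟨⟨hd, _⟩, e, _, rfl⟩
          refine ⟨e, ⟨?_, ?_⟩, rfl⟩
          · exact (Nat.dvd_div_iff_mul_dvd hlk).2 hd
          · exact (Nat.div_pos (Nat.le_of_dvd hk hlk) hl.pos).ne'
        · rintro ⟨e, ⟨he, _⟩, rfl⟩
          have h3 : l * e ∣ k := (Nat.dvd_div_iff_mul_dvd hlk).1 he
          exact ⟨⟨h3, hk.ne'⟩, e, ⟨dvd_trans (Dvd.intro_left l rfl) h3, hk.ne'⟩, rfl⟩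
      rw [this, Finset.sum_image (fun a _ b _ h => hinj h), Finset.mul_sum]
      exact Finset.sum_congr rfl fun e _ => hgl e
    · have : k.divisors ∩ k.divisors.image (fun e => l * e) = ∅ := by
        ext d
        simp only [Nat.mem_divisors, Finset.mem_inter, Finset.mem_image, Finset.notMem_empty,
          iff_false]
        rintro ⟨⟨hd, _⟩, e, _, rfl⟩
        exact hlk (dvd_trans (Dvd.intro e rfl) hd)
      rw [this, Finset.sum_empty]
  have h3 : ∑ d ∈ k.divisors.image (fun e => l * e), g d = l * ∑ d ∈ k.divisors, g d := by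
    rw [Finset.sum_image (fun a _ b _ h => hinj h), Finset.mul_sum]
    exact Finset.sum_congr rfl fun e _ => hgl e
  rw [h1, ← h2, Finset.sum_union_inter, h3]
  ring

end Fermat.Agent.GR
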