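import Mathlib
import Fermat.Prelude.Def_CuspForm_HeckeLocal
import Fermat.Prelude.Def_CuspForm_HeckeEvalForms
import Fermat.Prelude.Def_HeckeGalois_EichlerShimura
import Fermat.Agent.Helper2.CuspLattice
import Fermat.Agent.GR.S16D_helper9_Arith

set_option autoImplicit false

namespace Fermat.Agent.GR

open ModularCurve CuspForm ModularFormClass ModularForm
open Fermat.Agent.Helper2

noncomputable section

variable (p : ℕ) [Fact p.Prime]

/-- The action of a Hecke polynomial `t ∈ ℤ[X_ℓ]` on `S₂(Γ₀(p))`. -/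
def heckeActP (t : HeckeAlg) : Module.End ℂ (CuspForm (CongruenceSubgroup.Gamma0 p) 2) :=
  ((heckeEvalForms p 2 t : heckeAlgebra p 2 ∅) :
    Module.End ℂ (CuspForm (CongruenceSubgroup.Gamma0 p) 2))

theorem heckeActP_add (s t : HeckeAlg) : heckeActP p (s + t) = heckeActP p s + heckeActP p t := by
  simp [heckeActP, map_add]

theorem heckeActP_mul (s t : HeckeAlg) : heckeActP p (s * t) = heckeActP p s * heckeActP p t := by
  simp [heckeActP, map_mul]

theorem heckeActP_sub (s t : HeckeAlg) : heckeActP p (s - t) = heckeActP p s - heckeActP p t := by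
  simp [heckeActP, map_sub]

theorem heckeActP_one : heckeActP p 1 = 1 := by
  simp [heckeActP, map_one]

theorem heckeActP_C_apply (a : ℤ) (g : CuspForm (CongruenceSubgroup.Gamma0 p) 2) :
    heckeActP p (MvPolynomial.C a) g = a • g := by
  rw [heckeActP, heckeEvalForms_C, Subalgebra.coe_algebraMap, Module.algebraMap_end_apply]

theorem heckeActP_gen_of_not_dvd {l : Nat.Primes} (h : ¬ (l : ℕ) ∣ p) :
    heckeActP p (heckeGen l) = CuspForm.heckeTLin 2 l.2 h := by
  rw [heckeActP, heckeEvalForms_heckeGen_of_not_dvd h, heckeAlgebra.coe_T]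

theorem heckeActP_gen_of_dvd {l : Nat.Primes} (h : (l : ℕ) ∣ p) :
    heckeActP p (heckeGen l) = CuspForm.heckeULin 2 h := by
  rw [heckeActP, heckeEvalForms_heckeGen_of_dvd h, heckeAlgebra.coe_U]

theorem qCoeff_heckeActP_gen_of_not_dvd {l : Nat.Primes} (h : ¬ (l : ℕ) ∣ p)
    (g : CuspForm (CongruenceSubgroup.Gamma0 p) 2) (k : ℕ) :
    qCoeff ⇑(heckeActP p (heckeGen l) g) k =
      qCoeff ⇑g (k * l) + if (l : ℕ) ∣ k then (l : ℂ) * qCoeff ⇑g (k / l) else 0 := by
  rw [heckeActP_gen_of_not_dvd p h, qCoeff_heckeTLin l.2 h g k, coeffHeckeT_apply]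
  norm_num

theorem qCoeff_heckeActP_gen_of_dvd {l : Nat.Primes} (h : (l : ℕ) ∣ p)
    (g : CuspForm (CongruenceSubgroup.Gamma0 p) 2) (k : ℕ) :
    qCoeff ⇑(heckeActP p (heckeGen l) g) k = qCoeff ⇑g (k * l) := by
  rw [heckeActP_gen_of_dvd p h, qCoeff_heckeULin l.2 h g k, coeffHeckeU_apply]


/-! ### The Eisenstein eigencharacter -/

/-- The Eisenstein character `ℤ[X_ℓ] → ℤ`, `X_ℓ ↦ 1 + ℓ` (`ℓ ≠ p`), `X_p ↦ 1`. -/
abbrev eisEval (p : ℕ) : HeckeAlg →ₐ[ℤ] ℤ := MvPolynomial.aeval (eisensteinSystem p)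

omit [Fact p.Prime] in
theorem eisEval_C (a : ℤ) : eisEval p (MvPolynomial.C a) = a := by
  simp [eisEval]

omit [Fact p.Prime] in
theorem eisEval_gen (l : Nat.Primes) : eisEval p (heckeGen l) = eisensteinSystem p l :=
  aeval_heckeGen _ l

omit [Fact p.Prime] in
theorem mem_eisensteinIdeal_iff (t : HeckeAlg) : t ∈ eisensteinIdeal p ↔ eisEval p t = 0 :=
  mem_eigenIdeal_iff _ t

/-- `EisCong p d c g`: the cusp form `g` is congruent to `c · Σ_{k ≥ 1} σ'(k) q^k` modulo `d`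
(coefficientwise, for the coefficients of index `≥ 1`). -/
def EisCong (p d : ℕ) (c : ℤ) (g : CuspForm (CongruenceSubgroup.Gamma0 p) 2) : Prop :=
  ∀ k : ℕ, 1 ≤ k → ∃ z : ℤ, qCoeff ⇑g k = (c : ℂ) * (sigmaP p k : ℂ) + (d : ℂ) * (z : ℂ)

variable {p}

omit [Fact p.Prime] in
theorem EisCong.congr {d : ℕ} {c c' : ℤ} {g : CuspForm (CongruenceSubgroup.Gamma0 p) 2}
    (h : EisCong p d c g) (hc : c = c') : EisCong p d c' g := hc ▸ h

theorem EisCong.gen {d : ℕ} {c : ℤ} {g : CuspForm (CongruenceSubgroup.Gamma0 p) 2}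
    (h : EisCong p d c g) (l : Nat.Primes) :
    EisCong p d (eisensteinSystem p l * c) (heckeActP p (heckeGen l) g) := by
  have hp : p.Prime := Fact.out
  intro k hk
  by_cases hl : (l : ℕ) ∣ p
  · have hlp : (l : ℕ) = p := (Nat.prime_dvd_prime_iff_eq l.2 hp).1 hl
    rw [qCoeff_heckeActP_gen_of_dvd p hl, eisensteinSystem_of_dvd hl]
    obtain ⟨z, hz⟩ := h (k * l) (Nat.mul_pos hk l.2.pos)
    refine ⟨z, ?_⟩
    rw [hz, hlp, sigmaP_mul_self hp]
    push_cast
    ring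
  · rw [qCoeff_heckeActP_gen_of_not_dvd p hl, eisensteinSystem_of_not_dvd hl]
    have hrel := sigmaP_mul_prime hp l.2 hl k
    obtain ⟨z₁, hz₁⟩ := h (k * l) (Nat.mul_pos hk l.2.pos)
    by_cases hlk : (l : ℕ) ∣ k
    · rw [if_pos hlk] at hrel ⊢
      obtain ⟨z₂, hz₂⟩ := h (k / l) (Nat.div_pos (Nat.le_of_dvd hk hlk) l.2.pos)
      refine ⟨z₁ + l * z₂, ?_⟩
      have hrel' : (sigmaP p (k * l) : ℂ) + (l : ℂ) * (sigmaP p (k / l) : ℂ) =
          (1 + (l : ℂ)) * (sigmaP p k : ℂ) := by exact_mod_cast hrel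
      rw [hz₁, hz₂]
      push_cast
      linear_combination (c : ℂ) * hrel'
    · rw [if_neg hlk] at hrel ⊢
      refine ⟨z₁, ?_⟩
      have hrel' : (sigmaP p (k * l) : ℂ) = (1 + (l : ℂ)) * (sigmaP p k : ℂ) := by
        exact_mod_cast hrel
      rw [hz₁]
      push_cast
      linear_combination (c : ℂ) * hrel'

/-- **Propagation**: a form congruent to `c · e` mod `d` is an eigenvector mod `d` of the whole
Hecke algebra, with the Eisenstein eigencharacter. -/
theorem EisCong.heckeActP {d : ℕ} (t : HeckeAlg) :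
    ∀ (c : ℤ) (g : CuspForm (CongruenceSubgroup.Gamma0 p) 2), EisCong p d c g →
      EisCong p d (eisEval p t * c) (heckeActP p t g) := by
  induction t using MvPolynomial.induction_on with
  | C a =>
    intro c g h k hk
    obtain ⟨z, hz⟩ := h k hk
    refine ⟨a * z, ?_⟩
    rw [heckeActP_C_apply, qCoeff_cusp_zsmul, hz, eisEval_C]
    push_cast
    ring
  | add s t hs ht =>
    intro c g h k hk
    obtain ⟨z₁, hz₁⟩ := hs c g h k hk
    obtain ⟨z₂, hz₂⟩ := ht c g h k hk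
    refine ⟨z₁ + z₂, ?_⟩
    rw [heckeActP_add, LinearMap.add_apply, qCoeff_cusp_add, hz₁, hz₂, map_add]
    push_cast
    ring
  | mul_X t l ht =>
    intro c g h
    have h1 := ht _ _ (h.gen l)
    have h2 : Fermat.Agent.GR.heckeActP p (t * MvPolynomial.X l) g =
        Fermat.Agent.GR.heckeActP p t (Fermat.Agent.GR.heckeActP p (heckeGen l) g) := by
      rw [heckeActP_mul]
      rfl
    rw [h2]
    refine h1.congr ?_
    rw [map_mul]
    have : eisEval p (MvPolynomial.X l) = eisensteinSystem p l := eisEval_gen p l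
    rw [this]
    ring

variable (p)

/-- **The Hecke operators `T_k`**: for every `k ≥ 1` there is a Hecke polynomial `τ` with
`a₁(τ g) = a_k(g)` for all cusp forms `g`, and Eisenstein eigenvalue `σ'(k)`. -/
theorem exists_heckePoly (k : ℕ) (hk : 1 ≤ k) :
    ∃ τ : HeckeAlg, eisEval p τ = (sigmaP p k : ℤ) ∧
      ∀ g : CuspForm (CongruenceSubgroup.Gamma0 p) 2,
        qCoeff ⇑(heckeActP p τ g) 1 = qCoeff ⇑g k := by
  have hp : p.Prime := Fact.out
  induction k using Nat.strong_induction_on with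
  | _ k ih =>
  rcases Nat.lt_or_ge 1 k with hk1 | hk1
  swap
  · have : k = 1 := le_antisymm hk1 hk
    subst this
    refine ⟨1, ?_, fun g => ?_⟩
    · rw [map_one, sigmaP_one hp]
      rfl
    · rw [heckeActP_one]
      rfl
  have hlprime : k.minFac.Prime := Nat.minFac_prime hk1.ne'
  set l : Nat.Primes := ⟨k.minFac, hlprime⟩ with hl
  have hlk : (l : ℕ) ∣ k := Nat.minFac_dvd k
  set k' := k / l with hk'
  have hkk' : k = k' * l := (Nat.div_mul_cancel hlk).symm
  have hk'pos : 1 ≤ k' := Nat.div_pos (Nat.le_of_dvd hk hlk) l.2.pos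
  have hk'lt : k' < k := Nat.div_lt_self hk l.2.one_lt
  obtain ⟨τ', hτ'1, hτ'2⟩ := ih k' hk'lt hk'pos
  by_cases hlp : (l : ℕ) ∣ p
  · have hlp' : (l : ℕ) = p := (Nat.prime_dvd_prime_iff_eq l.2 hp).1 hlp
    refine ⟨τ' * heckeGen l, ?_, fun g => ?_⟩
    · rw [map_mul, hτ'1, eisEval_gen, eisensteinSystem_of_dvd hlp, mul_one, hkk', hlp',
        sigmaP_mul_self hp]
    · rw [heckeActP_mul]
      change qCoeff ⇑(heckeActP p τ' (heckeActP p (heckeGen l) g)) 1 = _
      rw [hτ'2, qCoeff_heckeActP_gen_of_dvd p hlp, ← hkk']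
  · have hrel := sigmaP_mul_prime hp l.2 hlp k'
    by_cases hlk' : (l : ℕ) ∣ k'
    · rw [if_pos hlk'] at hrel
      have h1 : 1 ≤ k' / l := Nat.div_pos (Nat.le_of_dvd hk'pos hlk') l.2.pos
      have h2 : k' / l < k := lt_of_le_of_lt (Nat.div_le_self _ _) hk'lt
      obtain ⟨τ'', hτ''1, hτ''2⟩ := ih (k' / l) h2 h1
      refine ⟨τ' * heckeGen l - MvPolynomial.C ((l : ℕ) : ℤ) * τ'', ?_, fun g => ?_⟩
      · rw [map_sub, map_mul, map_mul, hτ'1, hτ''1, eisEval_gen, eisensteinSystem_of_not_dvd hlp,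
          eisEval_C, hkk']
        have hrel' : (sigmaP p (k' * l) : ℤ) + (l : ℤ) * (sigmaP p (k' / l) : ℤ) =
            (1 + (l : ℤ)) * (sigmaP p k' : ℤ) := by exact_mod_cast hrel
        linear_combination -hrel'
      · rw [heckeActP_sub, LinearMap.sub_apply, qCoeff_cusp_sub, heckeActP_mul, heckeActP_mul]
        change qCoeff ⇑(heckeActP p τ' (heckeActP p (heckeGen l) g)) 1 -
          qCoeff ⇑(heckeActP p (MvPolynomial.C ((l : ℕ) : ℤ)) (heckeActP p τ'' g)) 1 = _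
        rw [hτ'2, heckeActP_C_apply, qCoeff_cusp_zsmul, hτ''2,
          qCoeff_heckeActP_gen_of_not_dvd p hlp, if_pos hlk', ← hkk']
        push_cast
        ring
    · rw [if_neg hlk'] at hrel
      refine ⟨τ' * heckeGen l, ?_, fun g => ?_⟩
      · rw [map_mul, hτ'1, eisEval_gen, eisensteinSystem_of_not_dvd hlp, hkk']
        have hrel' : (sigmaP p (k' * l) : ℤ) = (1 + (l : ℤ)) * (sigmaP p k' : ℤ) := by
          exact_mod_cast hrel
        rw [hrel']
        ring
      · rw [heckeActP_mul]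
        change qCoeff ⇑(heckeActP p τ' (heckeActP p (heckeGen l) g)) 1 = _
        rw [hτ'2, qCoeff_heckeActP_gen_of_not_dvd p hlp, if_neg hlk', ← hkk', add_zero]

/-! ### Surjectivity of `heckeEvalForms` -/

theorem heckeEvalForms_surjective : Function.Surjective (heckeEvalForms p 2) := by
  intro x
  have hrange : (MvPolynomial.aeval (R := ℤ) (heckeFormsGen p 2)).range = ⊤ := by
    have htop : Algebra.adjoin ℤ (((↑) : ↥(heckeAlgebra p 2 ∅) →
        Module.End ℂ (CuspForm (CongruenceSubgroup.Gamma0 p) 2)) ⁻¹' heckeGenerators p 2 ∅) = ⊤ :=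
      Algebra.adjoin_adjoin_coe_preimage
    rw [eq_top_iff, ← htop]
    refine Algebra.adjoin_le ?_
    rintro ⟨y, hy⟩ hy'
    change y ∈ heckeGenerators p 2 ∅ at hy'
    rcases hy' with ⟨l, hl, hlN, -, rfl⟩ | ⟨q, hqN, hq, -, rfl⟩
    · exact ⟨heckeGen ⟨l, hl⟩, heckeEvalForms_heckeGen_of_not_dvd (ℓ := ⟨l, hl⟩) hlN⟩
    · exact ⟨heckeGen ⟨q, hq⟩, heckeEvalForms_heckeGen_of_dvd (q := ⟨q, hq⟩) hqN⟩
  have hx : x ∈ (MvPolynomial.aeval (R := ℤ) (heckeFormsGen p 2)).range := hrange ▸ Algebra.mem_top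
  obtain ⟨t, ht⟩ := hx
  exact ⟨t, ht⟩

end

end Fermat.Agent.GR
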