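import Mathlib
import Fermat.Agent.GR.S16D_helper9_Hecke

set_option autoImplicit false
set_option linter.style.haveILetI false

namespace Fermat.Agent.GR

open ModularCurve CuspForm ModularFormClass ModularForm
open Fermat.Agent.Helper2

noncomputable section

variable (p : ℕ) [Fact p.Prime]

/-- The ring homomorphism `ℤ[X_ℓ] → 𝕋` onto the lattice Hecke algebra (the literal of S16). -/
def heckeRho : HeckeAlg →+* ↥(heckeLatticeAlgebra p ∅) :=
  (latticeRestrictHom p ∅).toRingHom.comp (heckeEvalForms p 2)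

theorem heckeRho_surjective : Function.Surjective (heckeRho p) :=
  (latticeRestrictHom_surjective p ∅).comp (heckeEvalForms_surjective p)

theorem heckeRho_apply_coe (t : HeckeAlg) (f : ↥(intLattice p 2)) :
    ((((heckeRho p t : ↥(heckeLatticeAlgebra p ∅)) : Module.End ℤ ↥(intLattice p 2)) f :
      ↥(intLattice p 2)) : CuspForm (CongruenceSubgroup.Gamma0 p) 2) =
      heckeActP p t (f : CuspForm (CongruenceSubgroup.Gamma0 p) 2) := rfl

/-- The `k`-th `q`-coefficient of a lattice element, as an integer. -/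
def latCoeff (k : ℕ) : ↥(intLattice p 2) → ℤ := fun f =>
  Classical.choose ((mem_intLattice_iff' f.1).1 f.2 k)

omit [Fact p.Prime] in
theorem latCoeff_spec (k : ℕ) (f : ↥(intLattice p 2)) :
    ((latCoeff p k f : ℤ) : ℂ) = qCoeff ⇑(f : CuspForm (CongruenceSubgroup.Gamma0 p) 2) k :=
  (Classical.choose_spec ((mem_intLattice_iff' f.1).1 f.2 k)).symm

omit [Fact p.Prime] in
theorem latCoeff_eq_iff (k : ℕ) (f : ↥(intLattice p 2)) (m : ℤ) :
    latCoeff p k f = m ↔ qCoeff ⇑(f : CuspForm (CongruenceSubgroup.Gamma0 p) 2) k = (m : ℂ) := by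
  rw [← latCoeff_spec]
  exact Int.cast_inj.symm

omit [Fact p.Prime] in
theorem latCoeff_add (k : ℕ) (f g : ↥(intLattice p 2)) :
    latCoeff p k (f + g) = latCoeff p k f + latCoeff p k g := by
  rw [latCoeff_eq_iff, Submodule.coe_add, qCoeff_cusp_add, ← latCoeff_spec, ← latCoeff_spec]
  push_cast
  rfl

omit [Fact p.Prime] in
theorem latCoeff_zsmul (k : ℕ) (c : ℤ) (f : ↥(intLattice p 2)) :
    latCoeff p k (c • f) = c * latCoeff p k f := by
  rw [latCoeff_eq_iff, Submodule.coe_smul, qCoeff_cusp_zsmul, ← latCoeff_spec]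
  push_cast
  rfl

/-- The `k`-th coefficient as a linear form on the lattice. -/
def latCoeffLin (k : ℕ) : ↥(intLattice p 2) →ₗ[ℤ] ℤ where
  toFun := latCoeff p k
  map_add' := latCoeff_add p k
  map_smul' c f := by
    rw [latCoeff_zsmul]
    rfl

omit [Fact p.Prime] in
theorem latCoeffLin_apply (k : ℕ) (f : ↥(intLattice p 2)) :
    latCoeffLin p k f = latCoeff p k f := rfl

/-- A lattice element all of whose coefficients of index `≥ 1` vanish is zero. -/
theorem lat_eq_zero_of_latCoeff (f : ↥(intLattice p 2))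
    (h : ∀ k : ℕ, 1 ≤ k → latCoeff p k f = 0) : f = 0 := by
  apply Subtype.ext
  apply cusp_ext_qCoeff
  intro n
  rw [Submodule.coe_zero, qCoeff_cusp_zero]
  rcases Nat.eq_zero_or_pos n with rfl | hn
  · exact qCoeff_cusp_idx_zero _
  · rw [← latCoeff_spec, h n hn, Int.cast_zero]

/-- **`a₁(T_k f) = a_k(f)`** on the lattice. -/
theorem exists_heckeOp (k : ℕ) (hk : 1 ≤ k) :
    ∃ τ : HeckeAlg, eisEval p τ = (sigmaP p k : ℤ) ∧
      ∀ f : ↥(intLattice p 2),
        latCoeff p 1 (((heckeRho p τ : ↥(heckeLatticeAlgebra p ∅)) :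
          Module.End ℤ ↥(intLattice p 2)) f) = latCoeff p k f := by
  obtain ⟨τ, h1, h2⟩ := exists_heckePoly p k hk
  refine ⟨τ, h1, fun f => ?_⟩
  rw [latCoeff_eq_iff, heckeRho_apply_coe, h2, latCoeff_spec]

/-- The pairing `L × 𝕋 → ℤ`, `(f, t) ↦ a₁(t f)`. -/
def heckePairing : ↥(intLattice p 2) →ₗ[ℤ] (↥(heckeLatticeAlgebra p ∅) →ₗ[ℤ] ℤ) :=
  LinearMap.mk₂ ℤ
    (fun f t => latCoeff p 1 ((t : Module.End ℤ ↥(intLattice p 2)) f))
    (fun f g t => by
      simp only [map_add, latCoeff_add])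
    (fun c f t => by
      simp only [map_smul, latCoeff_zsmul, smul_eq_mul])
    (fun f s t => by
      simp only [Subalgebra.coe_add, LinearMap.add_apply, latCoeff_add])
    (fun c f t => by
      simp only [Subalgebra.coe_smul, LinearMap.smul_apply, latCoeff_zsmul, smul_eq_mul])

theorem heckePairing_apply (f : ↥(intLattice p 2)) (t : ↥(heckeLatticeAlgebra p ∅)) :
    heckePairing p f t = latCoeff p 1 ((t : Module.End ℤ ↥(intLattice p 2)) f) := rfl

theorem heckePairing_injective : Function.Injective (heckePairing p) := by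
  rw [injective_iff_map_eq_zero]
  intro f hf
  apply lat_eq_zero_of_latCoeff
  intro k hk
  obtain ⟨τ, -, hτ⟩ := exists_heckeOp p k hk
  rw [← hτ f, ← heckePairing_apply, hf]
  rfl

theorem heckePairing_flip_injective : Function.Injective (heckePairing p).flip := by
  rw [injective_iff_map_eq_zero]
  intro t ht
  apply Subtype.ext
  apply LinearMap.ext
  intro f
  rw [ZeroMemClass.coe_zero, LinearMap.zero_apply]
  apply lat_eq_zero_of_latCoeff
  intro k hk
  obtain ⟨τ, -, hτ⟩ := exists_heckeOp p k hk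
  rw [← hτ]
  have hcomm : ((heckeRho p τ : ↥(heckeLatticeAlgebra p ∅)) : Module.End ℤ ↥(intLattice p 2))
      ((t : Module.End ℤ ↥(intLattice p 2)) f) =
      (t : Module.End ℤ ↥(intLattice p 2))
        (((heckeRho p τ : ↥(heckeLatticeAlgebra p ∅)) : Module.End ℤ ↥(intLattice p 2)) f) := by
    have h := congrArg (fun s : ↥(heckeLatticeAlgebra p ∅) =>
      (s : Module.End ℤ ↥(intLattice p 2)) f) (mul_comm (heckeRho p τ) t)
    exact h
  rw [hcomm]
  have := LinearMap.congr_fun ht
    (((heckeRho p τ : ↥(heckeLatticeAlgebra p ∅)) : Module.End ℤ ↥(intLattice p 2)) f)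
  exact this


theorem finrank_lat_eq_finrank_dual :
    Module.finrank ℤ ↥(intLattice p 2) =
      Module.finrank ℤ (↥(heckeLatticeAlgebra p ∅) →ₗ[ℤ] ℤ) := by
  haveI := intLattice.moduleFinite p
  haveI := intLattice.moduleFree p
  apply le_antisymm
  · exact LinearMap.finrank_le_finrank_of_injective (heckePairing_injective p)
  · rw [Module.finrank_linearMap_self]
    have h := LinearMap.finrank_le_finrank_of_injective (heckePairing_flip_injective p)
    rwa [Module.finrank_linearMap_self] at h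

/-- Saturation of the lattice. -/
theorem exists_lat_zsmul_eq (N : ℤ) (hN : N ≠ 0) (f : ↥(intLattice p 2))
    (h : ∀ k : ℕ, 1 ≤ k → N ∣ latCoeff p k f) : ∃ y : ↥(intLattice p 2), N • y = f := by
  have hN' : (N : ℂ) ≠ 0 := by exact_mod_cast hN
  have hmem : ((N : ℂ)⁻¹) • (f : CuspForm (CongruenceSubgroup.Gamma0 p) 2) ∈ intLattice p 2 := by
    rw [mem_intLattice_iff']
    intro n
    rcases Nat.eq_zero_or_pos n with rfl | hn
    · exact ⟨0, by rw [qCoeff_cusp_idx_zero, Int.cast_zero]⟩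
    · obtain ⟨m, hm⟩ := h n hn
      refine ⟨m, ?_⟩
      rw [qCoeff_cusp_smul, ← latCoeff_spec, hm]
      push_cast
      field_simp
  refine ⟨⟨_, hmem⟩, ?_⟩
  apply Subtype.ext
  rw [Submodule.coe_smul]
  change N • ((N : ℂ)⁻¹ • (f : CuspForm (CongruenceSubgroup.Gamma0 p) 2)) = _
  apply cusp_ext_qCoeff
  intro n
  rw [qCoeff_cusp_zsmul, qCoeff_cusp_smul]
  field_simp

/-- **Duality**: every linear form on the Hecke algebra is `t ↦ a₁(t f)` for a lattice
element `f`. -/
theorem heckePairing_surjective : Function.Surjective (heckePairing p) := by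
  haveI := intLattice.moduleFinite p
  haveI := intLattice.moduleFree p
  intro φ
  set W := LinearMap.range (heckePairing p) with hW
  have h1 := Submodule.finrank_quotient_add_finrank W
  have h2 : Module.finrank ℤ ↥W = Module.finrank ℤ ↥(intLattice p 2) :=
    LinearMap.finrank_range_of_inj (heckePairing_injective p)
  rw [h2, finrank_lat_eq_finrank_dual p] at h1
  have h3 : Module.finrank ℤ ((↥(heckeLatticeAlgebra p ∅) →ₗ[ℤ] ℤ) ⧸ W) = 0 := by omega
  have h4 : Module.IsTorsion ℤ ((↥(heckeLatticeAlgebra p ∅) →ₗ[ℤ] ℤ) ⧸ W) :=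
    Module.finrank_eq_zero_iff_isTorsion.1 h3
  obtain ⟨⟨N, hN⟩, hNφ⟩ := @h4 (W.mkQ φ)
  have hN0 : N ≠ 0 := nonZeroDivisors.ne_zero hN
  have h5 : N • φ ∈ W := by
    have : W.mkQ (N • φ) = 0 := by
      rw [map_smul]
      exact hNφ
    rwa [Submodule.mkQ_apply, Submodule.Quotient.mk_eq_zero] at this
  obtain ⟨f, hf⟩ := h5
  have hdiv : ∀ k : ℕ, 1 ≤ k → N ∣ latCoeff p k f := by
    intro k hk
    obtain ⟨τ, -, hτ⟩ := exists_heckeOp p k hk
    refine ⟨φ (heckeRho p τ), ?_⟩
    rw [← hτ f, ← heckePairing_apply, hf]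
    rfl
  obtain ⟨y, hy⟩ := exists_lat_zsmul_eq p N hN0 f hdiv
  refine ⟨y, ?_⟩
  apply LinearMap.ext
  intro t
  have h6 : N • heckePairing p y = N • φ := by
    rw [← map_smul, hy, hf]
  have h7 := LinearMap.congr_fun h6 t
  rw [LinearMap.smul_apply, LinearMap.smul_apply, smul_eq_mul, smul_eq_mul] at h7
  exact mul_left_cancel₀ hN0 h7

end

end Fermat.Agent.GR
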