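import Mathlib
import Fermat.Prelude.Def_ModularCurve_ModularUnit
import Fermat.Agent.GR.S16D_helper9_Dual

set_option autoImplicit false
set_option linter.style.haveILetI false

namespace Fermat.Agent.GR

open ModularCurve CuspForm ModularFormClass ModularForm
open Fermat.Agent.Helper2

noncomputable section

variable (p : ℕ) [Fact p.Prime]

omit [Fact p.Prime] in
/-- A cusp form congruent to the Eisenstein series has integral coefficients. -/
theorem EisCong.mem_intLattice {d : ℕ} {f : CuspForm (CongruenceSubgroup.Gamma0 p) 2}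
    (h : EisCong p d 1 f) : f ∈ intLattice p 2 := by
  rw [mem_intLattice_iff']
  intro n
  rcases Nat.eq_zero_or_pos n with rfl | hn
  · exact ⟨0, by rw [qCoeff_cusp_idx_zero, Int.cast_zero]⟩
  · obtain ⟨z, hz⟩ := h n hn
    refine ⟨(sigmaP p n : ℤ) + (d : ℤ) * z, ?_⟩
    rw [hz]
    push_cast
    ring

/-- **(C1)-direction**: if some cusp form is congruent to the Eisenstein series mod `d`, then `d`
divides the Eisenstein value of every Hecke relation. -/
theorem dvd_eisEval_of_eisCong {d : ℕ} {f : CuspForm (CongruenceSubgroup.Gamma0 p) 2}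
    (h : EisCong p d 1 f) (u : HeckeAlg) (hu : heckeRho p u = 0) : (d : ℤ) ∣ eisEval p u := by
  have hp : p.Prime := Fact.out
  have hf : f ∈ intLattice p 2 := h.mem_intLattice p
  have h0 : heckeActP p u f = 0 := by
    have h1 := heckeRho_apply_coe p u ⟨f, hf⟩
    rw [hu] at h1
    exact h1.symm
  obtain ⟨z, hz⟩ := EisCong.heckeActP u 1 f h 1 le_rfl
  rw [h0, qCoeff_cusp_zero, sigmaP_one hp] at hz
  refine ⟨-z, ?_⟩
  have : ((eisEval p u : ℤ) : ℂ) = (((d : ℤ) * -z : ℤ) : ℂ) := by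
    push_cast at hz ⊢
    linear_combination -hz
  exact_mod_cast this

/-- **(C2)-direction** (duality): if `d` divides the Eisenstein value of every Hecke relation, then
there is a lattice element congruent to the Eisenstein series mod `d`. -/
theorem exists_eisCong_of_forall_dvd (d : ℕ)
    (h : ∀ u : HeckeAlg, heckeRho p u = 0 → (d : ℤ) ∣ eisEval p u) :
    ∃ f ∈ intLattice p 2, EisCong p d 1 f := by
  -- the Eisenstein character mod `d` on the Hecke algebra
  set ε' : HeckeAlg →+* ZMod d := (Int.castRingHom (ZMod d)).comp (eisEval p).toRingHom with hε'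
  have hker : RingHom.ker (heckeRho p) ≤ RingHom.ker ε' := by
    intro u hu
    rw [RingHom.mem_ker] at hu ⊢
    have := h u hu
    rw [hε', RingHom.comp_apply]
    change ((eisEval p u : ℤ) : ZMod d) = 0
    rw [← Int.cast_zero, ZMod.intCast_eq_intCast_iff_dvd_sub]
    simpa using this
  set ψ : ↥(heckeLatticeAlgebra p ∅) →+* ZMod d :=
    (heckeRho p).liftOfSurjective (heckeRho_surjective p) ⟨ε', hker⟩ with hψ
  have hψρ : ∀ t : HeckeAlg, ψ (heckeRho p t) = ((eisEval p t : ℤ) : ZMod d) := by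
    intro t
    rw [hψ, RingHom.liftOfSurjective_comp_apply]
    rfl
  -- lift to a linear form `𝕋 → ℤ`
  obtain ⟨φ, hφ⟩ := Module.projective_lifting_property
    ((Int.castRingHom (ZMod d)).toIntAlgHom.toLinearMap) (ψ.toIntAlgHom.toLinearMap)
    (ZMod.intCast_surjective)
  have hφ' : ∀ t : ↥(heckeLatticeAlgebra p ∅), ((φ t : ℤ) : ZMod d) = ψ t := by
    intro t
    exact LinearMap.congr_fun hφ t
  obtain ⟨f, hf⟩ := heckePairing_surjective p φ
  refine ⟨f.1, f.2, ?_⟩
  intro k hk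
  obtain ⟨τ, hτ1, hτ2⟩ := exists_heckeOp p k hk
  have h1 : latCoeff p k f = φ (heckeRho p τ) := by
    rw [← hτ2 f, ← heckePairing_apply, hf]
  have h2 : ((latCoeff p k f : ℤ) : ZMod d) = ((sigmaP p k : ℤ) : ZMod d) := by
    rw [h1, hφ', hψρ, hτ1]
  rw [ZMod.intCast_eq_intCast_iff_dvd_sub] at h2
  obtain ⟨z, hz⟩ := h2
  refine ⟨-z, ?_⟩
  rw [← latCoeff_spec]
  have h3 : latCoeff p k f = (sigmaP p k : ℤ) + (d : ℤ) * -z := by linarith
  rw [h3]
  push_cast
  ring


/-! ### The quotient of the Hecke algebra by the Eisenstein ideal -/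

theorem heckeRho_intCast (a : ℤ) : heckeRho p (a : HeckeAlg) = (a : ↥(heckeLatticeAlgebra p ∅)) :=
  map_intCast (heckeRho p) a

omit [Fact p.Prime] in
theorem eisEval_intCast (a : ℤ) : eisEval p (a : HeckeAlg) = a := by
  rw [map_intCast]
  rfl

theorem intCast_mem_map_eisensteinIdeal_iff (a : ℤ) :
    (a : ↥(heckeLatticeAlgebra p ∅)) ∈ Ideal.map (heckeRho p) (eisensteinIdeal p) ↔
      ∃ u : HeckeAlg, heckeRho p u = 0 ∧ eisEval p u = a := by
  rw [Ideal.mem_map_iff_of_surjective _ (heckeRho_surjective p)]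
  constructor
  · rintro ⟨s, hs, hsa⟩
    refine ⟨(a : HeckeAlg) - s, ?_, ?_⟩
    · rw [map_sub, heckeRho_intCast, hsa, sub_self]
    · rw [map_sub, eisEval_intCast, (mem_eisensteinIdeal_iff p s).1 hs, sub_zero]
  · rintro ⟨u, hu, hua⟩
    refine ⟨(a : HeckeAlg) - u, ?_, ?_⟩
    · rw [mem_eisensteinIdeal_iff, map_sub, eisEval_intCast, hua, sub_self]
    · rw [map_sub, heckeRho_intCast, hu, sub_zero]

theorem intCast_quotient_surjective :
    Function.Surjective (Int.castRingHom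
      (↥(heckeLatticeAlgebra p ∅) ⧸ Ideal.map (heckeRho p) (eisensteinIdeal p))) := by
  intro x
  obtain ⟨y, rfl⟩ := Ideal.Quotient.mk_surjective x
  obtain ⟨t, rfl⟩ := heckeRho_surjective p y
  refine ⟨eisEval p t, ?_⟩
  rw [eq_intCast]
  have h1 : ((eisEval p t : ℤ) : ↥(heckeLatticeAlgebra p ∅) ⧸
      Ideal.map (heckeRho p) (eisensteinIdeal p)) =
      Ideal.Quotient.mk (Ideal.map (heckeRho p) (eisensteinIdeal p))
        ((eisEval p t : ℤ) : ↥(heckeLatticeAlgebra p ∅)) :=
    (map_intCast (Ideal.Quotient.mk (Ideal.map (heckeRho p) (eisensteinIdeal p))) _).symm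
  rw [h1, Ideal.Quotient.eq, ← heckeRho_intCast, ← map_sub]
  refine Ideal.mem_map_of_mem _ ?_
  rw [mem_eisensteinIdeal_iff, map_sub, eisEval_intCast, sub_self]

/-- The cardinality of `𝕋 / I` is the non-negative generator of the ideal of Eisenstein values of
Hecke relations. -/
theorem exists_natCard_quotient :
    ∃ g : ℕ, Nat.card (↥(heckeLatticeAlgebra p ∅) ⧸
        Ideal.map (heckeRho p) (eisensteinIdeal p)) = g ∧
      ∀ a : ℤ, (g : ℤ) ∣ a ↔ ∃ u : HeckeAlg, heckeRho p u = 0 ∧ eisEval p u = a := by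
  set θ := Int.castRingHom
      (↥(heckeLatticeAlgebra p ∅) ⧸ Ideal.map (heckeRho p) (eisensteinIdeal p)) with hθ
  obtain ⟨gen, hgen⟩ : ∃ gen : ℤ, RingHom.ker θ = Ideal.span {gen} :=
    ⟨_, (Ideal.span_singleton_generator (RingHom.ker θ)).symm⟩
  have hgen' : RingHom.ker θ = Ideal.span {((gen.natAbs : ℕ) : ℤ)} := by
    rw [hgen, Int.span_natAbs]
  refine ⟨gen.natAbs, ?_, fun a => ?_⟩
  · have e1 := RingHom.quotientKerEquivOfSurjective (intCast_quotient_surjective p)
    have e2 := Ideal.quotEquivOfEq hgen'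
    have e3 := Int.quotientSpanNatEquivZMod gen.natAbs
    rw [← Nat.card_congr e1.toEquiv, Nat.card_congr e2.toEquiv, Nat.card_congr e3.toEquiv,
      Nat.card_zmod]
  · have h1 : ((a : ℤ) : ↥(heckeLatticeAlgebra p ∅) ⧸
        Ideal.map (heckeRho p) (eisensteinIdeal p)) =
        Ideal.Quotient.mk (Ideal.map (heckeRho p) (eisensteinIdeal p))
          ((a : ℤ) : ↥(heckeLatticeAlgebra p ∅)) :=
      (map_intCast (Ideal.Quotient.mk (Ideal.map (heckeRho p) (eisensteinIdeal p))) _).symm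
    rw [← Ideal.mem_span_singleton, ← hgen', RingHom.mem_ker, hθ, eq_intCast, h1,
      Ideal.Quotient.eq_zero_iff_mem, intCast_mem_map_eisensteinIdeal_iff]

/-- **Package (D), sharp form**: there is a lattice cusp form congruent to the Eisenstein series
mod `d` iff `d` divides the index of the Eisenstein ideal (`0` if the index is infinite). -/
theorem exists_eisCong_iff_dvd_natCard (d : ℕ) :
    (∃ f ∈ intLattice p 2, EisCong p d 1 f) ↔
      d ∣ Nat.card (↥(heckeLatticeAlgebra p ∅) ⧸ Ideal.map (heckeRho p) (eisensteinIdeal p)) := by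
  obtain ⟨g, hg1, hg2⟩ := exists_natCard_quotient p
  rw [hg1]
  constructor
  · rintro ⟨f, -, hf⟩
    obtain ⟨u, hu1, hu2⟩ := (hg2 g).1 dvd_rfl
    have := dvd_eisEval_of_eisCong p hf u hu1
    rw [hu2] at this
    exact_mod_cast this
  · intro hdg
    refine exists_eisCong_of_forall_dvd p d fun u hu => ?_
    have h1 : (g : ℤ) ∣ eisEval p u := (hg2 _).2 ⟨u, hu, rfl⟩
    exact dvd_trans (by exact_mod_cast hdg) h1

/-- **Package (D)**: the index of the Eisenstein ideal from the two congruence statements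
(C1) and (C2). -/
theorem natCard_eq_of_C1_C2 (n : ℕ)
    (hC1 : ∃ f : CuspForm (CongruenceSubgroup.Gamma0 p) 2, EisCong p n 1 f)
    (hC2 : ∀ l t : ℕ, l.Prime → 1 ≤ t →
      (∃ f ∈ intLattice p 2, EisCong p (l ^ t) 1 f) → l ^ t ∣ n) :
    Nat.card (↥(heckeLatticeAlgebra p ∅) ⧸
        Ideal.map ((latticeRestrictHom p ∅).toRingHom.comp (heckeEvalForms p 2))
          (eisensteinIdeal p)) = n := by
  change Nat.card (↥(heckeLatticeAlgebra p ∅) ⧸
        Ideal.map (heckeRho p) (eisensteinIdeal p)) = n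
  apply Nat.dvd_antisymm
  · rw [Nat.dvd_iff_prime_pow_dvd_dvd]
    intro l t hl hlt
    rcases Nat.eq_zero_or_pos t with rfl | ht
    · simp
    · exact hC2 l t hl ht ((exists_eisCong_iff_dvd_natCard p (l ^ t)).2 hlt)
  · obtain ⟨f, hf⟩ := hC1
    exact (exists_eisCong_iff_dvd_natCard p n).1 ⟨f, hf.mem_intLattice p, hf⟩

/-- **S16 from (C1) and (C2)** (Mazur's theorem on the index of the Eisenstein ideal, reduced to
congruences between cusp forms and the Eisenstein series). -/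
theorem s16_of_C1_C2
    (hC1 : ∃ f : CuspForm (CongruenceSubgroup.Gamma0 p) 2,
      ∀ k : ℕ, 1 ≤ k → ∃ z : ℤ, qCoeff ⇑f k =
        (sigmaP p k : ℂ) + (eisensteinNumerator p : ℂ) * (z : ℂ))
    (hC2 : ∀ l t : ℕ, l.Prime → 1 ≤ t →
      (∃ f ∈ intLattice p 2, ∀ k : ℕ, 1 ≤ k → ∃ z : ℤ, qCoeff ⇑f k =
        (sigmaP p k : ℂ) + ((l ^ t : ℕ) : ℂ) * (z : ℂ)) → l ^ t ∣ eisensteinNumerator p) :
    Nat.card (↥(heckeLatticeAlgebra p ∅) ⧸
        Ideal.map ((latticeRestrictHom p ∅).toRingHom.comp (heckeEvalForms p 2))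
          (eisensteinIdeal p)) = eisensteinNumerator p := by
  have key : ∀ (d : ℕ) (f : CuspForm (CongruenceSubgroup.Gamma0 p) 2),
      EisCong p d 1 f ↔ ∀ k : ℕ, 1 ≤ k → ∃ z : ℤ, qCoeff ⇑f k =
        (sigmaP p k : ℂ) + (d : ℂ) * (z : ℂ) := by
    intro d f
    unfold EisCong
    simp only [Int.cast_one, one_mul]
  refine natCard_eq_of_C1_C2 p _ ?_ ?_
  · obtain ⟨f, hf⟩ := hC1
    exact ⟨f, (key _ f).2 hf⟩
  · rintro l t hl ht ⟨f, hfL, hf⟩
    exact hC2 l t hl ht ⟨f, hfL, (key _ f).1 hf⟩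

end

end Fermat.Agent.GR
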