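/-
GR (stage I) — lead — the last glue: from the literal (O1) statement (the place reduction obtained
from the two chart evaluations IS a place reduction modulo `ℓ`) to the S37 clauses, hence to
`StageIData N p` and to the literal `S30Statement`.
-/
import Mathlib
import Fermat.Agent.JA.SEP_helper6_Plug
import Fermat.Agent.JA.S37Asm_helper7_Top
import Fermat.Agent.GR.ASM_helper8_Clause
import Fermat.Agent.GR.S30TOP_lead
import Fermat.Agent.GR.S31TOP_lead

set_option autoImplicit false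
set_option linter.style.haveILetI false
set_option linter.unusedSectionVars false

open HahnSeries IntermediateField AlgebraicCurve ModularCurve

namespace Fermat.Agent.GR

open Fermat.Agent.JA Fermat.Agent.X0N

local notation "Ω" => AlgebraicClosure ℚ
local notation "GQ" => (AlgebraicClosure ℚ ≃ₐ[ℚ] AlgebraicClosure ℚ)

/-- the literal **(O1)** statement at one place `A | ℓ` (`ℓ ∤ N`), for the charts of `j` and
`(j - b)⁻¹`: every map of places compatible with the two chart evaluations (and characterised by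
them, the charts covering) is a place reduction modulo `ℓ`. -/
def O1At (N : ℕ) [NeZero N] {ℓ : ℕ} [Fact ℓ.Prime] {A : ValuationSubring Ω}
    (hA : A.LiesOverPrime ℓ) (hℓN : ¬ ℓ ∣ N) (b : ℤ) : Prop :=
  ∀ r : Place Ω ↥(modularFunctionFieldBar N) →
      Place (IsLocalRing.ResidueField ↥A)
        ↥(modularFunctionFieldFullC (IsLocalRing.ResidueField ↥A) N),
    ChartEval (gaussRes_residue hA N hℓN) (jBar N) r →
    ChartEval (gaussRes_residue hA N hℓN) (jInvBar N b) r →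
    (∀ P Q, GoodAt A N (jBar N) P →
      EvalAt (gaussRes_residue hA N hℓN) (jBar N) P Q → r P = Q) →
    (∀ P Q, GoodAt A N (jInvBar N b) P →
      EvalAt (gaussRes_residue hA N hℓN) (jInvBar N b) P Q → r P = Q) →
    (∀ P, GoodAt A N (jBar N) P ∨ GoodAt A N (jInvBar N b) P) →
    IsPlaceReductionModL A N r

/-- the `(ℓ, A)`-clause of S37 (the hypothesis of `s37_of_clauses` / `stageIData_of_clause`). -/
def S37Clause (N p : ℕ) [NeZero N] (ℓ : ℕ) (hℓ : ℓ.Prime) (A : ValuationSubring Ω) : Prop :=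
  ∃ (M : Type) (_ : AddCommGroup M) (red : JZero N →+ M) (Fr : M →+ M) (σ₀ : GQ),
    A.IsFrobeniusAt σ₀ ℓ ∧
    (∀ σ ∈ A.inertiaSubgroupIn ℚ, ∀ x : JZero N, red (σ • x) = red x) ∧
    (∀ σ : GQ, A.IsFrobeniusAt σ ℓ → ∀ x : JZero N, red (σ • x) = Fr (red x)) ∧
    (∀ x : JZero N,
      red (σ₀ • σ₀ • x - heckeOperatorBar N ⟨ℓ, hℓ⟩ (σ₀ • x) + ℓ • x) = 0) ∧
    (∀ x : JZero N, (∃ n : ℕ, p ^ n • x = 0) → red x = 0 → x = 0)

set_option synthInstance.maxHeartbeats 400000 in
set_option maxHeartbeats 1600000 in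
/-- the clause from the place reduction data (the body of `s37_of_placeReductionData`). -/
theorem s37Clause_of_placeReductionData (N p : ℕ) [NeZero N] {ℓ : ℕ} (hℓ : ℓ.Prime)
    (hℓNp : ¬ ℓ ∣ N * p) {A : ValuationSubring Ω} (hA : A.LiesOverPrime ℓ)
    (h : PlaceReductionData N p ℓ hℓ A) : S37Clause N p ℓ hℓ A := by
  obtain ⟨⟨r, hr, hgen, hequiv, hES⟩, hkey, hconstC⟩ := h
  have hp0 : p ≠ 0 := by
    rintro rfl
    exact hℓNp (by rw [mul_zero]; exact dvd_zero ℓ)
  haveI : IsAlgClosed (IsLocalRing.ResidueField A) := isAlgClosed_residueField A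
  haveI : HasPrincipalDivisors (AlgebraicClosure ℚ) (modularFunctionFieldBar N) :=
    (Fermat.Agent.X0N.jCoordBar N).hasPrincipalDivisors
  refine exists_red_of_placeReduction hr hgen p hℓ hA hequiv hES ?_
  rintro x ⟨n, hn⟩ hx
  exact eq_zero_of_key IsLocalRing.residue_surjective hconstC hr hgen (pow_ne_zero n hp0)
    (hkey n) x hn hx

/-- the clause from (O1) at `A`. -/
theorem s37Clause_of_O1At (N p : ℕ) [NeZero N] {ℓ : ℕ} [hℓ : Fact ℓ.Prime]
    (hℓNp : ¬ ℓ ∣ N * p) {A : ValuationSubring Ω} (hA : A.LiesOverPrime ℓ) (b : ℤ)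
    (hO1 : O1At N hA (fun hd => hℓNp (dvd_mul_of_dvd_left hd p)) b) :
    S37Clause N p ℓ hℓ.out A :=
  s37Clause_of_placeReductionData N p hℓ.out hℓNp hA
    (placeReductionData_of_O1_h6 N p hℓNp hA
      (gaussRes_residue hA N (fun hd => hℓNp (dvd_mul_of_dvd_left hd p))) b hO1)

/-- **(O1), global form**: at every `A | ℓ`, `ℓ ∤ N`, for some `b`. -/
def O1Statement : Prop :=
  ∀ (N : ℕ) [NeZero N] (ℓ : ℕ) [Fact ℓ.Prime] (A : ValuationSubring Ω)
    (hA : A.LiesOverPrime ℓ) (hℓN : ¬ ℓ ∣ N), ∃ b : ℤ, O1At N hA hℓN b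

/-- all the S37 clauses from (O1). -/
theorem s37Clause_of_O1 (hO1 : O1Statement) (N p : ℕ) [NeZero N] (ℓ : ℕ) (hℓ : ℓ.Prime)
    (hℓNp : ¬ ℓ ∣ N * p) (A : ValuationSubring Ω) (hA : A.LiesOverPrime ℓ) :
    S37Clause N p ℓ hℓ A := by
  haveI : Fact ℓ.Prime := ⟨hℓ⟩
  obtain ⟨b, hb⟩ := hO1 N ℓ A hA (fun hd => hℓNp (dvd_mul_of_dvd_left hd p))
  exact s37Clause_of_O1At N p hℓNp hA b hb

/-- `StageIData N p` from (O1). -/
noncomputable def stageIData_of_O1 (hO1 : O1Statement) (N : ℕ) [NeZero N] (p : ℕ)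
    [Fact p.Prime] : StageIData N p :=
  stageIData_of_clause N p (fun ℓ hℓ hℓNp A hA => s37Clause_of_O1 hO1 N p ℓ hℓ hℓNp A hA)

end Fermat.Agent.GR
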