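/-
GR (stage I) — lead — from the literal (O1) statement to the literal S30, S29 and S31 statements.
-/
import Mathlib
import Fermat.Agent.GR.STAGE1FIN_lead
import Fermat.Agent.GR.S29TOP_lead
import Fermat.Agent.GR.EIGEN_helper2_Main
import Fermat.Agent.GR.UPTS_helper2_Hecke
import Fermat.Agent.GR.PET_helper5_Main

set_option autoImplicit false
set_option linter.style.haveILetI false
set_option linter.unusedSectionVars false

open Polynomial

namespace Fermat.Agent.GR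

/-- the literal S30 statement from (O1). -/
theorem s30Statement_of_O1 (hO1 : O1Statement) : S30Statement := by
  intro p _ N _ S hpS hNS 𝒪' _ _ _ _ _ _ hp𝒪' χ
  exact s30_of_stageIData (stageIData_of_O1 hO1 N p) S hpS hNS 𝒪' hp𝒪' χ

/-- the literal S29 statement from (O1). -/
theorem s29_of_O1 (hO1 : O1Statement)
    {N : ℕ} {g : CuspForm (CongruenceSubgroup.Gamma0 N) 2} (hg : g.IsNormalizedEigenform)
    {p : ℕ} (hp : p.Prime) {k : Type} [Field k] [CharP k p]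
    (φ : integralClosure ℤ ℂ →+* k) :
    ∃ ρ : ResidualGaloisRep k, ρ.IsAttachedTo g φ ∧
      ∀ ℓ : ℕ, ℓ.Prime → ¬ ℓ ∣ N * p → ρ.IsUnramifiedAt ℓ :=
  s29_of_inputs (fun N _ p _ => ⟨stageIData_of_O1 hO1 N p⟩)
    (fun _ _ _ hg => exists_eigenPar_of_isNormalizedEigenform_of_not_dvd hg)
    (fun _ _ _ ha => finiteDimensional_adjoin_of_eigenPar_ne_bot ha) hg hp φ

section S31

variable {p : ℕ} {N : ℕ} [NeZero N] {S : Finset ℕ}
  {𝒪 : Type} [CommRing 𝒪] [IsDomain 𝒪] [IsDiscreteValuationRing 𝒪]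
  [IsAdicComplete (IsLocalRing.maximalIdeal 𝒪) 𝒪]
  {θ : CuspForm.heckeAlgebra N 2 (↑S : Set ℕ) →+* IsLocalRing.ResidueField 𝒪}
  {T : Type} [CommRing T] [IsLocalRing T] [IsNoetherianRing T]
  [IsAdicComplete (IsLocalRing.maximalIdeal T) T] [Algebra 𝒪 T] [IsLocalHom (algebraMap 𝒪 T)]
  [Module.Finite 𝒪 T] [Module.Free 𝒪 T]

/-- the literal S31 statement from (O1). -/
theorem s31_of_O1 (hO1 : O1Statement) (hp : p.Prime)
    (hp𝒪 : (p : 𝒪) ∈ IsLocalRing.maximalIdeal 𝒪) (hpS : p ∈ S)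
    (hNS : ∀ q : ℕ, q.Prime → q ∣ N → q ∈ S)
    (H : CuspForm.HeckeGaloisRepDatum N (↑S : Set ℕ) 𝒪 θ T)
    (q : ℕ) (hq : q.Prime) (hqS : q ∉ S) :
    H.ρ.IsUnramifiedAt q := by
  haveI : Fact p.Prime := ⟨hp⟩
  exact s31_of_inputs (s30Statement_of_O1 hO1)
    (exists_padic_points_heckeAlgebra N (↑S : Set ℕ)
      (isReduced_heckeAlgebra N (↑S : Set ℕ) (fun q hq hqN => Finset.mem_coe.mpr (hNS q hq hqN))) p)
    hp hp𝒪 hpS hNS H q hq hqS

end S31

end Fermat.Agent.GR
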